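import Fermat.Agent.Red.RRReduction
import Fermat.Agent.Red.NormalForm

/-!
# Program L (S18), L-GEN: the top of the assembly

`genDeliverable_of_le` : `Red.GenDeliverable N A` follows from the deliverable of L-VAL, the two
Riemann packages and the inequality `g ≤ g~` (the inequality `g~ ≤ g` is
`Red.RedSetup.genusFF_le`, semicontinuity of the genus under reduction).
-/

set_option autoImplicit false

namespace Fermat.Agent.Good

open AlgebraicCurve ModularCurve Fermat.Agent.Red

set_option synthInstance.maxHeartbeats 400000 in
/-- `GenDeliverable` from the inequality `g ≤ g~`. -/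
theorem genDeliverable_of_le (N : ℕ) [NeZero N] (A : ValuationSubring (AlgebraicClosure ℚ))
    (hVal : ValDeliverable N A)
    (hBar : RiemannPkg (AlgebraicClosure ℚ) (modularFunctionFieldBar N))
    (hModL : RiemannPkg (IsLocalRing.ResidueField A)
      (modularFunctionFieldFullC (IsLocalRing.ResidueField A) N))
    (hle : ModularCurve.ReductionInputsModL A N →
      genusFF (AlgebraicClosure ℚ) (modularFunctionFieldBar N) ≤
        genusFF (IsLocalRing.ResidueField A)
          (modularFunctionFieldFullC (IsLocalRing.ResidueField A) N)) :
    GenDeliverable N A := by
  intro h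
  obtain ⟨S, -⟩ := hVal (placeReductionModL h) (isPlaceReductionModL_placeReductionModL h)
  have := hBar.principal
  have := hModL.infinite_places
  exact le_antisymm (S.genusFF_le (NormalForm.pi_surjective S hBar.deg_one) hBar hModL) (hle h)

end Fermat.Agent.Good
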