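import Fermat.Agent.Good.GenusChartsIntegral
import Fermat.Agent.X0.Alg.Dict
import Fermat.Agent.Red.Basic

/-!
# L-GEN [G-6]: adapters from normal charts to the lifting hypotheses `(N1)`, `(N2)`

* `mem_range_of_polesAtPoles` : in a function field `Ft/kb`, if `R` is a Dedekind model
  (`Frac R = Ft`) containing `xt`, every `y` all of whose poles are poles of `xt` lies in `R`
  ("regular outside the poles of `xt` ⇒ in the normal chart").
* `exists_lift_of_mem_span` : over a `RedSetup`, a `k`-combination of residues of chart elements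
  `b ∈ B ⊆ O`, each lying in some `L(s D)`, is the residue of an element of `O ∩ L(s D)`
  (lift the coefficients through `π : A → k`).
* `lift_hyp_of_span` : the hypothesis `(N1)` of the ending in the `RedSetup` language from
  "every function regular outside `r_* D` is a `k`-combination of residues of chart elements".
-/

set_option autoImplicit false
set_option linter.style.haveILetI false
set_option linter.unusedSectionVars false

open AlgebraicCurve IsDedekindDomain

namespace Fermat.Agent.Good.GenusCharts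

open Fermat.Agent.Red Fermat.Agent.X0

section Model

variable {kb Ft : Type*} [Field kb] [Field Ft] [Algebra kb Ft]
variable {R : Type*} [CommRing R] [IsDedekindDomain R] [Algebra R Ft] [IsFractionRing R Ft]
  [Algebra kb R] [IsScalarTower kb R Ft]

/-- A function all of whose poles are poles of `xt ∈ R` lies in the Dedekind model `R`. -/
theorem mem_range_of_polesAtPoles (xt : R) {y : Ft}
    (h : PolesAtPoles kb (algebraMap R Ft xt) y) : y ∈ (algebraMap R Ft).range := by
  apply HeightOneSpectrum.mem_integers_of_valuation_le_one Ft y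
  intro w
  by_contra hcon
  rw [not_le] at hcon
  have hy0 : y ≠ 0 := by
    rintro rfl
    rw [map_zero] at hcon
    exact absurd hcon (by simp)
  have h1 : (Place.ofHeightOneSpectrum (K := kb) (F := Ft) w).ord y < 0 := by
    rw [Place.ord_ofHeightOneSpectrum]
    have : 0 < WithZero.log (w.valuation Ft y) := by
      rw [← WithZero.log_one]
      exact (WithZero.log_lt_log one_ne_zero ((map_ne_zero _).mpr hy0)).mpr hcon
    omega
  have h2 := h _ h1
  rw [Place.ord_ofHeightOneSpectrum] at h2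
  have h3 : w.valuation Ft (algebraMap R Ft xt) ≤ 1 := w.valuation_le_one xt
  by_cases hx0 : algebraMap R Ft xt = 0
  · rw [hx0, map_zero] at h2
    simp at h2
  have : WithZero.log (w.valuation Ft (algebraMap R Ft xt)) ≤ 0 := by
    rw [← WithZero.log_one]
    exact (WithZero.log_le_log ((map_ne_zero _).mpr hx0) one_ne_zero).mpr h3
  omega

end Model

section Lift

variable {K F k Ft : Type*} [Field K] [Field F] [Algebra K F] [Field k] [Field Ft]
  [Algebra k Ft] {A : ValuationSubring K} {π : A →+* k}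

theorem riemannRochSpace_nsmul_mono {D : Divisor K F} (hD : 0 ≤ D) {s t : ℕ} (h : s ≤ t) :
    riemannRochSpace (s • D) ≤ riemannRochSpace (t • D) := by
  apply riemannRochSpace_mono
  intro P
  rw [Finsupp.smul_apply, Finsupp.smul_apply, nsmul_eq_mul, nsmul_eq_mul]
  have h3 : (s : ℤ) ≤ (t : ℤ) := by exact_mod_cast h
  exact mul_le_mul_of_nonneg_right h3 (hD P)

/-- A `k`-combination of residues of chart elements lifts to `O ∩ L(s D)`. -/
theorem exists_lift_of_mem_span (S : RedSetup (F := F) (Ft := Ft) A π)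
    (hπ : Function.Surjective π) {D : Divisor K F} (hD : 0 ≤ D)
    (B : Set F) (hBO : ∀ b ∈ B, b ∈ S.O)
    (hBD : ∀ b ∈ B, ∃ s : ℕ, b ∈ riemannRochSpace (s • D))
    {ft : Ft} (hft : ft ∈ Submodule.span k (S.resF '' B)) :
    ∃ s : ℕ, ∃ y ∈ riemannRochSpace (s • D), y ∈ S.O ∧ S.resF y = ft := by
  induction hft using Submodule.span_induction with
  | mem y hy =>
    obtain ⟨b, hb, rfl⟩ := hy
    obtain ⟨s, hs⟩ := hBD b hb
    exact ⟨s, b, hs, hBO b hb, rfl⟩
  | zero => exact ⟨0, 0, Submodule.zero_mem _, S.O.zero_mem, S.resF_zero⟩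
  | add y z _ _ ihy ihz =>
    obtain ⟨s, f, hf, hfO, rfl⟩ := ihy
    obtain ⟨t, g, hg, hgO, rfl⟩ := ihz
    refine ⟨max s t, f + g, Submodule.add_mem _ (riemannRochSpace_nsmul_mono hD (le_max_left s t) hf)
      (riemannRochSpace_nsmul_mono hD (le_max_right s t) hg), S.O.add_mem _ _ hfO hgO, ?_⟩
    rw [S.resF_of_mem hfO, S.resF_of_mem hgO, S.resF_of_mem (S.O.add_mem _ _ hfO hgO), ← map_add]
    rfl
  | smul c y _ ihy =>
    obtain ⟨s, f, hf, hfO, rfl⟩ := ihy
    obtain ⟨a, rfl⟩ := hπ c
    have haO : algebraMap K F (a : K) ∈ S.O := (S.algebraMap_mem_iff a).mpr a.2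
    have hafO : (a : K) • f ∈ S.O := by
      rw [Algebra.smul_def]
      exact S.O.mul_mem _ _ haO hfO
    refine ⟨s, (a : K) • f, Submodule.smul_mem _ _ hf, hafO, ?_⟩
    have h1 : (⟨(a : K) • f, hafO⟩ : S.O) = ⟨algebraMap K F (a : K), haO⟩ * ⟨f, hfO⟩ := by
      apply Subtype.ext
      exact Algebra.smul_def _ _
    rw [S.resF_of_mem hafO, S.resF_of_mem hfO, h1, map_mul,
      S.res_algebraMap (a : K) a.2 haO, Algebra.smul_def]

/-- **Adapter to `(N1)`.** If every function on the special fibre which lies in some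
`L(s · r_* D)` is a `k`-combination of residues of chart elements `b ∈ B ⊆ O`, each of which lies
in some `L(s D)`, then every such function is the residue of an element of `O ∩ L(s D)`
(exactly the hypothesis `N1` of `Good.genusFF_le_of_chart_lifts`). -/
theorem lift_hyp_of_span (S : RedSetup (F := F) (Ft := Ft) A π)
    (hπ : Function.Surjective π) {D : Divisor K F} (hD : 0 ≤ D)
    (B : Set F) (hBO : ∀ b ∈ B, b ∈ S.O)
    (hBD : ∀ b ∈ B, ∃ s : ℕ, b ∈ riemannRochSpace (s • D))
    (hnorm : ∀ ft : Ft, (∃ s : ℕ, ft ∈ riemannRochSpace (s • Finsupp.mapDomain S.r D)) →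
      ft ∈ Submodule.span k (S.resF '' B)) :
    ∀ ft : Ft, (∃ s : ℕ, ft ∈ riemannRochSpace (s • Finsupp.mapDomain S.r D)) →
      ∃ s : ℕ, ∃ y ∈ riemannRochSpace (s • D), y ∈ S.O ∧ S.resF y = ft :=
  fun ft h => exists_lift_of_mem_span S hπ hD B hBO hBD (hnorm ft h)

end Lift

section Combined

variable {K F k Ft : Type*} [Field K] [Field F] [Algebra K F] [Field k] [Field Ft]
  [Algebra k Ft] {A : ValuationSubring K} {π : A →+* k}

/-- If all poles of `y` lie in the support of the effective divisor `D`, then `y ∈ L(s D)` for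
some `s`. -/
theorem exists_mem_nsmul_of_poles [HasPrincipalDivisors K F] {D : Divisor K F} (hD : 0 ≤ D)
    {y : F} (h : ∀ P : Place K F, P.ord y < 0 → 0 < D P) :
    ∃ s : ℕ, y ∈ riemannRochSpace (s • D) := by
  classical
  by_cases hy0 : y = 0
  · exact ⟨0, hy0 ▸ Submodule.zero_mem _⟩
  refine ⟨∑ Q ∈ (divOf K y).support, (Q.ord y).natAbs, ?_⟩
  rw [mem_riemannRochSpace_iff_of_ne_zero hy0]
  intro P
  rw [Finsupp.smul_apply, nsmul_eq_mul]
  have hnn : (0 : ℤ) ≤ ((∑ Q ∈ (divOf K y).support, (Q.ord y).natAbs : ℕ) : ℤ) * D P :=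
    mul_nonneg (by positivity) (hD P)
  rcases le_or_gt 0 (P.ord y) with hP | hP
  · linarith
  · have hx := h P hP
    have hPs : P ∈ (divOf K y).support := by
      rw [Finsupp.mem_support_iff, divOf_apply]
      omega
    have h1 : (P.ord y).natAbs ≤ ∑ Q ∈ (divOf K y).support, (Q.ord y).natAbs :=
      Finset.single_le_sum (f := fun Q : Place K F => (Q.ord y).natAbs)
        (fun _ _ => Nat.zero_le _) hPs
    have h2 : (1 : ℤ) ≤ D P := hx
    have h3 : ((P.ord y).natAbs : ℤ) = -P.ord y := by omega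
    have h4 : ((P.ord y).natAbs : ℤ) ≤
        ((∑ Q ∈ (divOf K y).support, (Q.ord y).natAbs : ℕ) : ℤ) := by exact_mod_cast h1
    have h5 : ((∑ Q ∈ (divOf K y).support, (Q.ord y).natAbs : ℕ) : ℤ) * 1 ≤
        ((∑ Q ∈ (divOf K y).support, (Q.ord y).natAbs : ℕ) : ℤ) * D P :=
      mul_le_mul_of_nonneg_left h2 (by positivity)
    linarith

/-- Elements of `L(s E)` have all their poles in the support of `E`. -/
theorem pos_of_mem_nsmul {E : Divisor k Ft} {s : ℕ} {ft : Ft}
    (h : ft ∈ riemannRochSpace (s • E)) (Q : Place k Ft) (hQ : Q.ord ft < 0) : E Q ≠ 0 := by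
  intro h0
  have hft0 : ft ≠ 0 := by
    rintro rfl
    rw [Place.ord_zero] at hQ
    exact lt_irrefl _ hQ
  rw [mem_riemannRochSpace_iff_of_ne_zero hft0] at h
  have := h Q
  rw [Finsupp.smul_apply, h0, smul_zero] at this
  omega

/-- **Adapter to `(N1)`, integral form.** `x ∈ F` with reduction `xt`; the chart `B ⊆ O` consists
of functions regular outside the poles of `x`; every `ft` integral over `k[xt]` is a
`k`-combination of residues of chart elements (normality of the special fibre of the chart);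
the support of `r_* D` consists of poles of `xt`, the support of `D` contains the poles of `x`.
Then `(N1)` holds. -/
theorem lift_hyp_of_isIntegral (S : RedSetup (F := F) (Ft := Ft) A π)
    (hπ : Function.Surjective π) (hF : RiemannPkg K F) (hFt : RiemannPkg k Ft)
    {D : Divisor K F} (hD : 0 ≤ D) {x : F} {xt : Ft}
    (hpole : ∃ Q : Place k Ft, Q.ord xt < 0)
    (hDx : ∀ P : Place K F, P.ord x < 0 → 0 < D P)
    (hsupp : ∀ Q : Place k Ft, Finsupp.mapDomain S.r D Q ≠ 0 → Q.ord xt < 0)
    (B : Set F) (hBO : ∀ b ∈ B, b ∈ S.O)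
    (hB : ∀ b ∈ B, PolesAtPoles K x b)
    (hint : ∀ ft : Ft, IsIntegral (Algebra.adjoin k {xt}) ft →
      ft ∈ Submodule.span k (S.resF '' B)) :
    ∀ ft : Ft, (∃ s : ℕ, ft ∈ riemannRochSpace (s • Finsupp.mapDomain S.r D)) →
      ∃ s : ℕ, ∃ y ∈ riemannRochSpace (s • D), y ∈ S.O ∧ S.resF y = ft := by
  haveI := hF.principal
  refine lift_hyp_of_span S hπ hD B hBO
    (fun b hb => exists_mem_nsmul_of_poles hD fun P hP => hDx P (hB b hb P hP)) ?_
  rintro ft ⟨s, hs⟩
  refine hint ft (isIntegral_of_polesAtPoles hFt hpole fun Q hQ => ?_)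
  exact hsupp Q (pos_of_mem_nsmul hs Q hQ)

/-- **Adapter to `(N2)`, integral form**: the same at the zeros of `x` (chart at infinity,
`k[xt⁻¹]`). -/
theorem lift_hyp_of_isIntegral_inv (S : RedSetup (F := F) (Ft := Ft) A π)
    (hπ : Function.Surjective π) (hF : RiemannPkg K F) (hFt : RiemannPkg k Ft)
    {D0 : Divisor K F} (hD0 : 0 ≤ D0) {x : F} {xt : Ft}
    (hzero : ∃ Q : Place k Ft, 0 < Q.ord xt)
    (hDx : ∀ P : Place K F, 0 < P.ord x → 0 < D0 P)
    (hsupp : ∀ Q : Place k Ft, Finsupp.mapDomain S.r D0 Q ≠ 0 → 0 < Q.ord xt)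
    (B : Set F) (hBO : ∀ b ∈ B, b ∈ S.O)
    (hB : ∀ b ∈ B, PolesAtZeros K x b)
    (hint : ∀ ft : Ft, IsIntegral (Algebra.adjoin k {xt⁻¹}) ft →
      ft ∈ Submodule.span k (S.resF '' B)) :
    ∀ ft : Ft, (∃ s : ℕ, ft ∈ riemannRochSpace (s • Finsupp.mapDomain S.r D0)) →
      ∃ s : ℕ, ∃ y ∈ riemannRochSpace (s • D0), y ∈ S.O ∧ S.resF y = ft := by
  refine lift_hyp_of_isIntegral S hπ hF hFt hD0 (x := x⁻¹) (xt := xt⁻¹) ?_ ?_ ?_ B hBO ?_ hint
  · obtain ⟨Q, hQ⟩ := hzero
    exact ⟨Q, by rw [Place.ord_inv]; omega⟩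
  · intro P hP
    rw [Place.ord_inv] at hP
    exact hDx P (by omega)
  · intro Q hQ
    have := hsupp Q hQ
    rw [Place.ord_inv]
    omega
  · intro b hb
    exact polesAtPoles_inv_iff.mpr (hB b hb)

end Combined

end Fermat.Agent.Good.GenusCharts
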