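import Fermat.Agent.Good.GenusLiftConst
import Fermat.Agent.Good.GenusLiftAdapter

/-!
# L-GEN [G-6]: the genus inequality from normal charts, place-map-free form

The composite of `Good.genusFF_le_of_constRed_lifts` (`Good/GenusLiftConst.lean`) with the
adapters of `Good/GenusLiftAdapter.lean`, for a `Val.ConstRed` (no reduction map of places):

* `genusFF_le_of_normal_charts_constRed` : `x ∈ O` with nonzero residue `xt` and a pole,
  `deg (xt)_∞ = deg (x)_∞`, charts `Bf, Bi ⊆ O` regular outside the poles / zeros of `x` whose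
  residues span the integral closures of `k[xt]`, `k[xt⁻¹]` in `Ft` ⇒ `genusFF K F ≤ genusFF k Ft`.
* `genusFF_le_of_normal_charts_redSetup` : the same for a `Red.RedSetup` (never uses `S.r`).
-/

set_option autoImplicit false
set_option linter.style.haveILetI false
set_option linter.unusedSectionVars false

open AlgebraicCurve

namespace Fermat.Agent.Good.GenusCharts

open Fermat.Agent.Red Fermat.Agent.X0 Fermat.Agent.Val

variable {K F k Ft : Type*} [Field K] [Field F] [Algebra K F] [Field k] [Field Ft]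
  [Algebra k Ft] {A : ValuationSubring K} {π : A →+* k}

/-- A `k`-combination of residues of chart elements lifts to `O ∩ L(s D)` (`ConstRed` form). -/
theorem exists_lift_of_mem_span_constRed (S : ConstRed (F := F) (Ft := Ft) A π)
    (hπ : Function.Surjective π) {D : Divisor K F} (hD : 0 ≤ D)
    (B : Set F) (hBO : ∀ b ∈ B, b ∈ S.O)
    (hBD : ∀ b ∈ B, ∃ s : ℕ, b ∈ riemannRochSpace (s • D))
    {ft : Ft} (hft : ft ∈ Submodule.span k (S.resF '' B)) :
    ∃ s : ℕ, ∃ y ∈ riemannRochSpace (s • D), y ∈ S.O ∧ S.resF y = ft := by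
  induction hft using Submodule.span_induction with
  | mem y hy =>
    obtain ⟨b, hb, rfl⟩ := hy
    obtain ⟨s, hs⟩ := hBD b hb
    exact ⟨s, b, hs, hBO b hb, rfl⟩
  | zero => exact ⟨0, 0, Submodule.zero_mem _, S.O.zero_mem, S.resF_zero⟩
  | add y z _ _ ihy ihz =>
    obtain ⟨s, f, hf, hfO, rfl⟩ := ihy
    obtain ⟨t, g, hg, hgO, rfl⟩ := ihz
    exact ⟨max s t, f + g, Submodule.add_mem _
      (riemannRochSpace_nsmul_mono hD (le_max_left s t) hf)
      (riemannRochSpace_nsmul_mono hD (le_max_right s t) hg), S.O.add_mem _ _ hfO hgO,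
      S.resF_add hfO hgO⟩
  | smul c y _ ihy =>
    obtain ⟨s, f, hf, hfO, rfl⟩ := ihy
    obtain ⟨a, rfl⟩ := hπ c
    have haO : algebraMap K F (a : K) ∈ S.O := (S.algebraMap_mem_iff a).mpr a.2
    have hafO : (a : K) • f ∈ S.O := by
      rw [Algebra.smul_def]
      exact S.O.mul_mem _ _ haO hfO
    refine ⟨s, (a : K) • f, Submodule.smul_mem _ _ hf, hafO, ?_⟩
    rw [Algebra.smul_def (a : K) f, S.resF_mul haO hfO, S.resF_of_mem haO,
      S.res_algebraMap (a : K) a.2 haO, Algebra.smul_def]

/-- **Genus inequality from normal charts, place-map-free form.** -/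
theorem genusFF_le_of_normal_charts_constRed (S : ConstRed (F := F) (Ft := Ft) A π)
    (hπ : Function.Surjective π) (hF : RiemannPkg K F) (hFt : RiemannPkg k Ft)
    {x : F} (hx : S.resF x ≠ 0) (hpole : ∃ P : Place K F, P.ord x < 0)
    (hdegeq : haveI := hF.principal; haveI := hFt.principal
      Divisor.degree (poleDiv k (S.resF x)) = Divisor.degree (poleDiv K x))
    (Bf Bi : Set F) (hBfO : ∀ b ∈ Bf, b ∈ S.O) (hBiO : ∀ b ∈ Bi, b ∈ S.O)
    (hBf : ∀ b ∈ Bf, PolesAtPoles K x b) (hBi : ∀ b ∈ Bi, PolesAtZeros K x b)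
    (hintf : ∀ ft : Ft, IsIntegral (Algebra.adjoin k {S.resF x}) ft →
      ft ∈ Submodule.span k (S.resF '' Bf))
    (hinti : ∀ ft : Ft, IsIntegral (Algebra.adjoin k {(S.resF x)⁻¹}) ft →
      ft ∈ Submodule.span k (S.resF '' Bi)) :
    genusFF K F ≤ genusFF k Ft := by
  haveI := hF.principal
  haveI := hFt.principal
  have hdeg : 0 < Divisor.degree (poleDiv K x) := degree_poleDiv_pos hF hpole
  have hpolet : ∃ Q : Place k Ft, Q.ord (S.resF x) < 0 := by
    apply Classical.byContradiction
    intro hcon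
    push Not at hcon
    have h0 : poleDiv k (S.resF x) = 0 := by
      ext Q
      rw [poleDiv_apply, Finsupp.zero_apply, max_eq_left (by have := hcon Q; omega)]
    rw [h0, map_zero] at hdegeq
    omega
  have hzerot := exists_zero_of_exists_pole hFt hpolet
  refine Fermat.Agent.Good.genusFF_le_of_constRed_lifts S hπ hF hFt (poleDiv K x) (zeroDiv K x)
    (poleDiv_nonneg x) (zeroDiv_nonneg x) hdeg x hx ?_ (poleDiv k (S.resF x))
    (zeroDiv k (S.resF x)) (poleDiv_nonneg _) (zeroDiv_nonneg _) ?_ ?_ hdegeq ?_ ?_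
  · intro P
    have := DFunLike.congr_fun (zeroDiv_sub_poleDiv (kb := K) x) P
    rw [Finsupp.sub_apply, divOf_apply] at this
    exact this.symm
  · intro Q
    have := DFunLike.congr_fun (zeroDiv_sub_poleDiv (kb := k) (S.resF x)) Q
    rw [Finsupp.sub_apply, divOf_apply] at this
    exact this.symm
  · intro Q
    rw [poleDiv_apply, zeroDiv_apply]
    rcases le_total 0 (Q.ord (S.resF x)) with h | h
    · left; exact max_eq_left (by omega)
    · right; exact max_eq_left h
  · -- (N1)
    rintro t ⟨s, hs⟩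
    have hP : PolesAtPoles k (S.resF x) t := polesAtPoles_of_mem hs
    refine exists_lift_of_mem_span_constRed S hπ (poleDiv_nonneg x) Bf hBfO (fun b hb => ?_)
      (hintf t (isIntegral_of_polesAtPoles hFt hpolet hP))
    refine exists_mem_nsmul_of_poles (poleDiv_nonneg x) fun P hP => ?_
    rw [poleDiv_apply]
    exact lt_max_of_lt_right (by have := hBf b hb P hP; omega)
  · -- (N2)
    rintro t ⟨s, hs⟩
    have hP : PolesAtZeros k (S.resF x) t := by
      intro Q hQ
      have h1 := pos_of_mem_nsmul hs Q hQ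
      rw [zeroDiv_apply] at h1
      by_contra hcon
      exact h1 (max_eq_left (by omega))
    refine exists_lift_of_mem_span_constRed S hπ (zeroDiv_nonneg x) Bi hBiO (fun b hb => ?_)
      (hinti t (isIntegral_of_polesAtZeros hFt hzerot hP))
    refine exists_mem_nsmul_of_poles (zeroDiv_nonneg x) fun P hP => ?_
    rw [zeroDiv_apply]
    exact lt_max_of_lt_right (hBi b hb P hP)

/-- The same for a `Red.RedSetup` (the place map `S.r` is not used). -/
theorem genusFF_le_of_normal_charts_redSetup (S : RedSetup (F := F) (Ft := Ft) A π)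
    (hπ : Function.Surjective π) (hF : RiemannPkg K F) (hFt : RiemannPkg k Ft)
    {x : F} (hx : S.resF x ≠ 0) (hpole : ∃ P : Place K F, P.ord x < 0)
    (hdegeq : haveI := hF.principal; haveI := hFt.principal
      Divisor.degree (poleDiv k (S.resF x)) = Divisor.degree (poleDiv K x))
    (Bf Bi : Set F) (hBfO : ∀ b ∈ Bf, b ∈ S.O) (hBiO : ∀ b ∈ Bi, b ∈ S.O)
    (hBf : ∀ b ∈ Bf, PolesAtPoles K x b) (hBi : ∀ b ∈ Bi, PolesAtZeros K x b)
    (hintf : ∀ ft : Ft, IsIntegral (Algebra.adjoin k {S.resF x}) ft →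
      ft ∈ Submodule.span k (S.resF '' Bf))
    (hinti : ∀ ft : Ft, IsIntegral (Algebra.adjoin k {(S.resF x)⁻¹}) ft →
      ft ∈ Submodule.span k (S.resF '' Bi)) :
    genusFF K F ≤ genusFF k Ft :=
  genusFF_le_of_normal_charts_constRed S.toConstRed hπ hF hFt hx hpole hdegeq Bf Bi hBfO hBiO
    hBf hBi hintf hinti

end Fermat.Agent.Good.GenusCharts
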