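import Fermat.Agent.Good.GenInstance
import Fermat.Agent.Good.GenusNormalChartsConst
import Fermat.Agent.Good.GenDeliverable

/-!
# L-GEN: the top of the assembly, chart form

`A` a valuation subring of `ℚ̄` over `ℓ ∤ N`, `k` its residue field, `C := Val.constRedBar`
(the Gauss constant reduction of `F̄_N`, place-map-free), `j̃ := Val.jFullC k N`.

`genusFF_bar_le_of_charts` : `g(F̄_N) ≤ g(F̃_N)` from two sets `Bf`, `Bi` of Gauss-integral
elements of `F̄_N` (the two charts) with poles only at the poles (resp. zeros) of `j`, whose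
residues span the integral closures of `k[j̃]` (resp. `k[j̃⁻¹]`) in `F̃_N` (= normality of the
two charts of the special fibre), via `GenusCharts.genusFF_le_of_normal_charts_constRed`.
`genDeliverable_of_charts` : `Red.GenDeliverable N A` from the same data.
-/

set_option autoImplicit false
set_option linter.style.haveILetI false

noncomputable section
namespace Fermat.Agent.Good

open AlgebraicCurve ModularCurve IsLocalRing Fermat.Agent.X0 Fermat.Agent.Red GenusCharts

set_option synthInstance.maxHeartbeats 400000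

variable (N : ℕ) [NeZero N] {ℓ : ℕ} [hℓ : Fact ℓ.Prime] (hℓN : ¬ ℓ ∣ N)
variable (A : ValuationSubring (AlgebraicClosure ℚ)) (hA : A.LiesOverPrime ℓ)

/-- `resF j = j̃` for the Gauss constant reduction. -/
theorem resF_jBar :
    (Val.constRedBar N hℓN A hA).resF (jBar N) = Val.jFullC (ResidueField A) N := by
  rw [(Val.constRedBar N hℓN A hA).resF_of_mem (jBar_mem_O N hℓN A hA)]
  exact res_jBar N hℓN A hA

/-- `j` has a pole. -/
theorem exists_pole_jBar :
    ∃ P : Place (AlgebraicClosure ℚ) (modularFunctionFieldBar N), P.ord (jBar N) < 0 := by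
  haveI := Val.hasPrincipalDivisors_bar N
  by_contra hcon
  push Not at hcon
  have h0 : poleDiv (AlgebraicClosure ℚ) (jBar N) = 0 := by
    ext P
    rw [poleDiv_apply, Finsupp.zero_apply, max_eq_left (by have := hcon P; omega)]
  have h1 := degree_poleDiv_jBar N
  rw [h0, map_zero] at h1
  have hpsi : 0 < dedekindPsi N := (Val.jBar_isSepVarS N).pos
  have : (0 : ℤ) < (dedekindPsi N : ℤ) := by exact_mod_cast hpsi
  omega

/-- **`g ≤ g~`, chart form** (place-map-free). -/
theorem genusFF_bar_le_of_charts (Bf Bi : Set (modularFunctionFieldBar N))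
    (hBfO : ∀ b ∈ Bf, b ∈ (Val.constRedBar N hℓN A hA).O)
    (hBiO : ∀ b ∈ Bi, b ∈ (Val.constRedBar N hℓN A hA).O)
    (hBf : ∀ b ∈ Bf, PolesAtPoles (AlgebraicClosure ℚ) (jBar N) b)
    (hBi : ∀ b ∈ Bi, PolesAtZeros (AlgebraicClosure ℚ) (jBar N) b)
    (hintf : ∀ ft : modularFunctionFieldFullC (ResidueField A) N,
      IsIntegral (Algebra.adjoin (ResidueField A) {Val.jFullC (ResidueField A) N}) ft →
      ft ∈ Submodule.span (ResidueField A) ((Val.constRedBar N hℓN A hA).resF '' Bf))
    (hinti : ∀ ft : modularFunctionFieldFullC (ResidueField A) N,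
      IsIntegral (Algebra.adjoin (ResidueField A) {(Val.jFullC (ResidueField A) N)⁻¹}) ft →
      ft ∈ Submodule.span (ResidueField A) ((Val.constRedBar N hℓN A hA).resF '' Bi)) :
    genusFF (AlgebraicClosure ℚ) (modularFunctionFieldBar N) ≤
      genusFF (ResidueField A) (modularFunctionFieldFullC (ResidueField A) N) := by
  have hF := Val.riemannPkg_bar N
  have hFt := Val.riemannPkg_modL_residueField N hℓN A hA
  have hres := resF_jBar N hℓN A hA
  refine genusFF_le_of_normal_charts_constRed (Val.constRedBar N hℓN A hA)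
    (Val.residue_surjective' A) hF hFt (x := jBar N) ?_ (exists_pole_jBar N) ?_ Bf Bi
    hBfO hBiO hBf hBi ?_ ?_
  · rw [hres]
    exact fun h0 => Val.transcendental_jFullC (ResidueField A) N (h0 ▸ isAlgebraic_zero)
  · haveI := hF.principal
    haveI := hFt.principal
    rw [hres, degree_poleDiv_jFullC N hℓN A hA, degree_poleDiv_jBar N]
  · rw [hres]; exact hintf
  · rw [hres]; exact hinti

/-- **(I6), chart form.** -/
theorem genDeliverable_of_charts (Bf Bi : Set (modularFunctionFieldBar N))
    (hBfO : ∀ b ∈ Bf, b ∈ (Val.constRedBar N hℓN A hA).O)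
    (hBiO : ∀ b ∈ Bi, b ∈ (Val.constRedBar N hℓN A hA).O)
    (hBf : ∀ b ∈ Bf, PolesAtPoles (AlgebraicClosure ℚ) (jBar N) b)
    (hBi : ∀ b ∈ Bi, PolesAtZeros (AlgebraicClosure ℚ) (jBar N) b)
    (hintf : ∀ ft : modularFunctionFieldFullC (ResidueField A) N,
      IsIntegral (Algebra.adjoin (ResidueField A) {Val.jFullC (ResidueField A) N}) ft →
      ft ∈ Submodule.span (ResidueField A) ((Val.constRedBar N hℓN A hA).resF '' Bf))
    (hinti : ∀ ft : modularFunctionFieldFullC (ResidueField A) N,
      IsIntegral (Algebra.adjoin (ResidueField A) {(Val.jFullC (ResidueField A) N)⁻¹}) ft →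
      ft ∈ Submodule.span (ResidueField A) ((Val.constRedBar N hℓN A hA).resF '' Bi)) :
    GenDeliverable N A :=
  genDeliverable_of_le N A (Val.valDeliverable N hℓN A hA) (Val.riemannPkg_bar N)
    (Val.riemannPkg_modL_residueField N hℓN A hA) fun _ =>
      genusFF_bar_le_of_charts N hℓN A hA Bf Bi hBfO hBiO hBf hBi hintf hinti

end Fermat.Agent.Good
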