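import Fermat.Agent.Val.Deliverable
import Fermat.Agent.Val.RankOne
import Fermat.Agent.Good.IgusaExtract
import Fermat.Agent.Good.GenTopCharts

/-!
# Program L (S18), L-GEN, node [G-BR]: the chart bridge

The chart algebras of S28 (`chartAlg N ℓ S`, over `ℤ_(ℓ)`, inside `F_N ⊂ ℚ((q))`, with the
reduction of `q`-expansions `chartRes`) versus the constant reduction of `F̄_N` at a valuation
subring `A` of `ℚ̄` over `ℓ` (`Val.constRedBar`: valuation subring `gaussValQbar`, residue map the
Gauss residue with values in `F̃_N ⊂ k((q))`, `k` the residue field of `A`).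

* `zlToA` : `ℤ_(ℓ) →+* A`; `coeffEmb_mem_gaussRingA`, `gaussResA_coeffEmb` : the Gauss ring of
  `ℚ((q))` at `ℓ` maps to the Gauss ring of `L((q))` at `A`, compatibly with residues.
* `barEmb N : F_N →+* F̄_N`; **(B1)** `barEmb_mem_O`, **(B2)** `res_barEmb` : chart elements are
  integral for the constant reduction and `res (barEmb x) = coeffMap ι (chartRes x)`.
* **(B3)** `ord_barEmb_nonneg`, `polesAtPoles_chartBarFin`, `polesAtZeros_chartBarInf` : the poles
  of the elements of the finite chart (chart at infinity) are poles (zeros) of `j`.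
* **(B4)** `resChart`, `exists_tensorRes` : the comparison map `chartAlg ⊗[ℤ_(ℓ)] k → F̃_N`,
  `b ⊗ c ↦ c · res b`, injective by the `q`-expansion principle.
* **(B5)** `mem_span_of_isIntegral`, `mem_span_fin`, `mem_span_inf` : if `chartAlg ⊗ k` is
  integrally closed, every element of `F̃_N` integral over `k[j̃]` (resp. `k[1/j̃]`) is a
  `k`-combination of residues of chart elements.
* `genusFF_bar_le_of_normal`, **`genDeliverable_of_normal`** : `g ≤ g̃` and `Red.GenDeliverable N A`
  (interface (I6) of Program L) from the normality of `chartAlgFin ⊗ k` and `chartAlgInf ⊗ k`.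
-/

set_option autoImplicit false
set_option linter.unusedSectionVars false
set_option linter.style.haveILetI false

open ModularCurve ModularCurve.IgusaScheme IntermediateField AlgebraicCurve
open Fermat.Agent.Igusa Fermat.Agent.Val Fermat.Agent.X0 Fermat.Agent.Good.GenusCharts

noncomputable section
namespace Fermat.Agent.Good.Bridge

/-! ### `ℤ_(ℓ) → A` and the two Gauss rings -/

section General

variable {L : Type*} [Field L] [Algebra ℚ L] (A : ValuationSubring L) {ℓ : ℕ} [hℓ : Fact ℓ.Prime]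
  (hA : A.LiesOverPrime ℓ)

set_option quotPrecheck false in
local notation "ℤℓ" => ↥(GaloisRep.ratLocalizedAt ℓ)

include hA in
/-- Rationals with denominator prime to `ℓ` lie in every valuation subring over `ℓ`. -/
theorem algebraMap_zl_mem (q : ℤℓ) : algebraMap ℚ L (q : ℚ) ∈ A := by
  have hden : (q : ℚ).den.Coprime ℓ := q.2
  have hlt : A.valuation (ℓ : L) < 1 := (A.mem_nonunits_iff).1 hA
  have hnd : ¬ (ℓ : ℤ) ∣ ((q : ℚ).den : ℤ) := by
    intro h
    have h' : ℓ ∣ (q : ℚ).den := Int.natCast_dvd_natCast.mp h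
    have := Nat.Coprime.eq_one_of_dvd hden.symm h'
    exact hℓ.out.one_lt.ne' this
  have hv : A.valuation ((((q : ℚ).den : ℤ) : L)) = 1 :=
    valuation_intCast_eq_one A hℓ.out hlt hnd
  have hq : algebraMap ℚ L (q : ℚ) = (((q : ℚ).num : ℤ) : L) * ((((q : ℚ).den : ℤ) : L))⁻¹ := by
    conv_lhs => rw [← Rat.num_div_den (q : ℚ)]
    rw [map_div₀, div_eq_mul_inv]
    simp
  rw [hq, ← A.valuation_le_one_iff, map_mul, map_inv₀, hv, inv_one, mul_one]
  exact valuation_intCast_le_one A _

/-- The canonical map `ℤ_(ℓ) → A`. -/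
def zlToA : ℤℓ →+* A :=
  ((algebraMap ℚ L).comp (GaloisRep.ratLocalizedAt ℓ).subtype).codRestrict A.toSubring
    fun q => algebraMap_zl_mem A hA q

@[simp] theorem coe_zlToA (q : ℤℓ) : ((zlToA A hA q : A) : L) = algebraMap ℚ L (q : ℚ) := rfl

/-- `coeffEmb ∘ zlIota = aIota ∘ coeffMap zlToA`. -/
theorem coeffEmb_zlIota (a : LaurentSeries ℤℓ) :
    coeffEmb L (zlIota ℓ a) = aIota A (coeffMap (zlToA A hA) a) := by
  apply HahnSeries.ext
  funext n
  rfl

variable {k : Type*} [Field k] (π : A →+* k) (ι : ZMod ℓ →+* k)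

/-- `aRed ∘ coeffMap zlToA = coeffMap ι ∘ zlRed`. -/
theorem aRed_coeffMap_zlToA (a : LaurentSeries ℤℓ) :
    aRed π (coeffMap (zlToA A hA) a) = coeffMap ι (zlRed ℓ a) := by
  apply HahnSeries.ext
  funext n
  show π (zlToA A hA (a.coeff n)) = ι (zlResidue ℓ (a.coeff n))
  exact congrArg (fun f : ℤℓ →+* k => f (a.coeff n))
    (zl_ringHom_ext ℓ (π.comp (zlToA A hA)) (ι.comp (zlResidue ℓ)))

omit hℓ in
theorem coeffMap_injective_of_field {k₀ : Type*} [Field k₀] (ι : k₀ →+* k) :
    Function.Injective (coeffMap ι) := by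
  intro x y h
  apply HahnSeries.ext
  funext n
  have := congrArg (fun z => z.coeff n) h
  exact ι.injective this

include hA ι in
/-- **(B2′, membership)** the Gauss ring of `ℚ((q))` at `ℓ` maps into the Gauss ring at `A`. -/
theorem coeffEmb_mem_gaussRingA {x : LaurentSeries ℚ} (hx : x ∈ gaussSubring ℓ) :
    coeffEmb L x ∈ gaussRingA A π := by
  obtain ⟨a, b, hb, hab⟩ := hx
  refine ⟨coeffMap (zlToA A hA) a, coeffMap (zlToA A hA) b, ?_, ?_⟩
  · rw [aRed_coeffMap_zlToA A hA π ι]
    intro h
    exact hb (coeffMap_injective_of_field ι (by rw [h, map_zero]))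
  · rw [← coeffEmb_zlIota, ← coeffEmb_zlIota, ← map_mul, hab]

/-- **(B2′, residue)** compatibility of the two Gauss residue maps. -/
theorem gaussResA_coeffEmb {x : LaurentSeries ℚ} (hx : x ∈ gaussSubring ℓ) :
    gaussResA A π ⟨coeffEmb L x, coeffEmb_mem_gaussRingA A hA π ι hx⟩ =
      coeffMap ι (gaussRes ℓ ⟨x, hx⟩) := by
  obtain ⟨a, b, hb, hab⟩ := (mem_gaussSubring_iff ℓ).mp hx
  have hb' : aRed π (coeffMap (zlToA A hA) b) ≠ 0 := by
    rw [aRed_coeffMap_zlToA A hA π ι]
    intro h
    exact hb (coeffMap_injective_of_field ι (by rw [h, map_zero]))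
  have hab' : coeffEmb L x * aIota A (coeffMap (zlToA A hA) b) =
      aIota A (coeffMap (zlToA A hA) a) := by
    rw [← coeffEmb_zlIota, ← coeffEmb_zlIota, ← map_mul, hab]
  have h1 := gaussResA_eq A π ⟨coeffEmb L x, coeffEmb_mem_gaussRingA A hA π ι hx⟩ hb' hab'
  have h2 := gaussRes_eq ℓ ⟨x, hx⟩ hb hab
  rw [h1, h2, map_div₀, aRed_coeffMap_zlToA A hA π ι, aRed_coeffMap_zlToA A hA π ι]

end General

/-! ### An abstract normality lemma -/

section Abstract

/-- If `C` is an integrally closed domain embedded by `T` in a field `Ft` which is its fraction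
field, then every element of `Ft` integral over a ring `R₁` mapping into `T.range` lies in
`T.range`. -/
theorem mem_range_of_isIntegral {C Ft R₁ : Type*} [CommRing C] [IsDomain C]
    [IsIntegrallyClosed C] [Field Ft] [CommRing R₁] [Algebra R₁ Ft]
    (T : C →+* Ft) (hT : Function.Injective T) (hfrac : ∀ z : Ft, ∃ a b : C, z = T a / T b)
    (hR₁ : ∀ r : R₁, algebraMap R₁ Ft r ∈ T.range) {ft : Ft} (hft : IsIntegral R₁ ft) :
    ft ∈ T.range := by
  letI : Algebra C Ft := T.toAlgebra
  haveI : FaithfulSMul C Ft := (faithfulSMul_iff_algebraMap_injective C Ft).mpr hT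
  haveI : IsFractionRing C Ft := IsFractionRing.of_field (R := C) (K := Ft) hfrac
  choose g hg using hR₁
  -- `g` is a ring homomorphism since `T` is injective
  let φ : R₁ →+* C :=
    { toFun := g
      map_one' := hT (by rw [hg, map_one, map_one])
      map_mul' := fun a b => hT (by rw [hg, map_mul, map_mul, hg, hg])
      map_zero' := hT (by rw [hg, map_zero, map_zero])
      map_add' := fun a b => hT (by rw [hg, map_add, map_add, hg, hg]) }
  have hφ : (algebraMap C Ft).comp φ = (RingHom.id Ft).comp (algebraMap R₁ Ft) := by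
    ext r
    exact hg r
  have h1 : IsIntegral C ft := hft.map_of_comp_eq φ (RingHom.id Ft) hφ
  obtain ⟨y, hy⟩ := IsIntegrallyClosed.isIntegral_iff.mp h1
  exact ⟨y, hy⟩

/-- A subfield of `Ft = k(s)` containing `k` and `s` is everything. -/
theorem forall_mem_subfield_of_adjoin {k E : Type*} [Field k] [Field E] [Algebra k E]
    {s : Set E} (Ft : IntermediateField k E) (hFt : Ft = IntermediateField.adjoin k s)
    (W : Subfield ↥Ft)
    (hmem : ∀ x ∈ s, ∃ hx' : x ∈ Ft, (⟨x, hx'⟩ : ↥Ft) ∈ W)
    (halg : ∀ c : k, algebraMap k ↥Ft c ∈ W)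
    (z : ↥Ft) : z ∈ W := by
  let M : IntermediateField k E :=
    (W.map (algebraMap ↥Ft E)).toIntermediateField fun c => ⟨algebraMap k ↥Ft c, halg c, rfl⟩
  have hle : Ft ≤ M := by
    rw [hFt, IntermediateField.adjoin_le_iff]
    intro x hx
    obtain ⟨hx', hxW⟩ := hmem x hx
    exact ⟨⟨x, hx'⟩, hxW, rfl⟩
  obtain ⟨w, hw, hwz⟩ := hle z.2
  have hwz' : w = z := Subtype.ext hwz
  rw [← hwz']
  exact hw

/-- Elements of the subfield generated by the range of a ring homomorphism are fractions. -/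
theorem exists_div_of_mem_closure_range {C Ft : Type*} [CommRing C] [Field Ft] (T : C →+* Ft)
    {z : Ft} (hz : z ∈ Subfield.closure (Set.range T)) : ∃ a b : C, z = T a / T b := by
  obtain ⟨y, hy, w, hw, rfl⟩ := Subfield.mem_closure_iff.mp hz
  rw [← RingHom.coe_range, Subring.closure_eq] at hy hw
  obtain ⟨a, rfl⟩ := hy
  obtain ⟨b, rfl⟩ := hw
  exact ⟨a, b, rfl⟩

/-- a fraction of elements of the range lies in the generated subfield -/
theorem mem_closure_range_of_mul_eq {C Ft : Type*} [CommRing C] [Field Ft] (T : C →+* Ft)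
    {x : Ft} {a b : C} (hb : T b ≠ 0) (h : T a = x * T b) :
    x ∈ Subfield.closure (Set.range T) := by
  have hx : x = T a / T b := by rw [h, mul_div_assoc, div_self hb, mul_one]
  rw [hx]
  exact div_mem (Subfield.subset_closure ⟨_, rfl⟩) (Subfield.subset_closure ⟨_, rfl⟩)

/-! Versions for an intermediate field `Ft` of `E/k` (so that the instance paths on `↥Ft` are the
ones type class inference finds at concrete intermediate fields). -/

theorem mem_closure_range_of_mul_eq' {k E C : Type*} [Field k] [Field E] [Algebra k E]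
    [CommRing C] (Ft : IntermediateField k E) (T : C →+* ↥Ft) {x : ↥Ft} {a b : C}
    (hb : T b ≠ 0) (h : T a = x * T b) : x ∈ Subfield.closure (Set.range T) :=
  mem_closure_range_of_mul_eq T hb h

theorem mem_range_of_isIntegral' {k E C R₁ : Type*} [Field k] [Field E] [Algebra k E]
    [CommRing C] [IsDomain C] [IsIntegrallyClosed C] (Ft : IntermediateField k E)
    (T : C →+* ↥Ft) [CommRing R₁] [Algebra R₁ ↥Ft] (hT : Function.Injective T)
    (hW : ∀ z : ↥Ft, z ∈ Subfield.closure (Set.range T))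
    (hR₁ : ∀ r : R₁, algebraMap R₁ ↥Ft r ∈ Set.range T) {ft : ↥Ft} (hft : IsIntegral R₁ ft) :
    ft ∈ Set.range T := by
  have h := mem_range_of_isIntegral T hT
    (fun z => exists_div_of_mem_closure_range T (hW z))
    (fun r => RingHom.mem_range.mpr (hR₁ r)) hft
  exact RingHom.mem_range.mp h

/-- multiples by constants stay in a span -/
theorem algebraMap_mul_mem_span {k V : Type*} [CommSemiring k] [Semiring V] [Algebra k V]
    (X : Set V) {y : V} (hy : y ∈ Submodule.span k X) (c : k) :
    algebraMap k V c * y ∈ Submodule.span k X := by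
  rw [← Algebra.smul_def]
  exact Submodule.smul_mem _ c hy

end Abstract

/-! ### `F_N → F̄_N` and the chart algebras -/

section Bar

variable {L : Type*} [Field L] [Algebra ℚ L] (N : ℕ) [NeZero N]

variable (L) in
/-- The embedding `F_N → L ⊗ F_N` (extension of the coefficients of `q`-expansions). -/
def barEmbL :
    ↥(modularFunctionFieldFull N) →+* ↥(laurentBaseChange L (modularFunctionFieldFull N)) where
  toFun x := ⟨coeffEmb L (x : LaurentSeries ℚ), coeffEmb_mem_laurentBaseChange L x.2⟩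
  map_one' := Subtype.ext (map_one _)
  map_mul' _ _ := Subtype.ext (map_mul _ _ _)
  map_zero' := Subtype.ext (map_zero _)
  map_add' _ _ := Subtype.ext (map_add _ _ _)

@[simp] theorem coe_barEmbL (x : ↥(modularFunctionFieldFull N)) :
    ((barEmbL L N x : ↥(laurentBaseChange L (modularFunctionFieldFull N))) : LaurentSeries L) =
      coeffEmb L (x : LaurentSeries ℚ) := rfl

theorem barEmbL_injective : Function.Injective (barEmbL L N) :=
  (barEmbL L N).injective

variable (A : ValuationSubring L) {ℓ : ℕ} [hℓ : Fact ℓ.Prime] (hA : A.LiesOverPrime ℓ)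
  {k : Type*} [Field k] {π : A →+* k} (ι : ZMod ℓ →+* k)
  {Ft : IntermediateField k (LaurentSeries k)} {n : ℕ}
  (D : OrthoData A π (laurentBaseChange L (modularFunctionFieldFull N)) Ft n)

include hA ι in
/-- **(B1)** Gauss-integral elements of `F_N` are integral for the Gauss valuation of `L ⊗ F_N`. -/
theorem barEmbL_mem_valSubring_of_gauss {y : ↥(modularFunctionFieldFull N)}
    (hy : ((y : ↥(modularFunctionFieldFull N)) : LaurentSeries ℚ) ∈ gaussSubring ℓ) :
    barEmbL L N y ∈ D.valSubring :=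
  coeffEmb_mem_gaussRingA A hA π ι hy

/-- **(B2)** the Gauss residue of (the image of) a Gauss-integral element of `F_N`. -/
theorem resSeries_barEmbL_of_gauss {y : ↥(modularFunctionFieldFull N)}
    (hy : ((y : ↥(modularFunctionFieldFull N)) : LaurentSeries ℚ) ∈ gaussSubring ℓ) :
    D.resSeries ⟨barEmbL L N y, barEmbL_mem_valSubring_of_gauss N A hA ι D hy⟩ =
      coeffMap ι (gaussRes ℓ ⟨_, hy⟩) :=
  gaussResA_coeffEmb A hA π ι hy

include hA ι in
/-- **(B1)** chart elements are integral for the Gauss valuation of `L ⊗ F_N`. -/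
theorem barEmbL_mem_valSubring {S : Set ↥(modularFunctionFieldFull N)}
    (hS : ∀ s ∈ S, ((s : ↥(modularFunctionFieldFull N)) : LaurentSeries ℚ) ∈ gaussSubring ℓ)
    (x : ↥(chartAlg N ℓ S)) :
    barEmbL L N (x : ↥(modularFunctionFieldFull N)) ∈ D.valSubring :=
  coeffEmb_mem_gaussRingA A hA π ι (coe_mem_gaussSubring_of_mem_chartAlg N ℓ hS x.2)

/-- **(B2)** the Gauss residue of a chart element is the extension of coefficients of its
reduction `chartRes`. -/
theorem resSeries_barEmbL {S : Set ↥(modularFunctionFieldFull N)}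
    (hS : ∀ s ∈ S, ((s : ↥(modularFunctionFieldFull N)) : LaurentSeries ℚ) ∈ gaussSubring ℓ)
    (x : ↥(chartAlg N ℓ S)) :
    D.resSeries ⟨barEmbL L N (x : ↥(modularFunctionFieldFull N)),
        barEmbL_mem_valSubring N A hA ι D hS x⟩ =
      coeffMap ι (chartRes N ℓ hS x) :=
  gaussResA_coeffEmb A hA π ι (coe_mem_gaussSubring_of_mem_chartAlg N ℓ hS x.2)

end Bar

/-! ### The case of `ℚ̄`: the constant reduction `constRedBar` -/

section Qbar

set_option synthInstance.maxHeartbeats 400000

variable (N : ℕ) [NeZero N] {ℓ : ℕ} [hℓ : Fact ℓ.Prime] (hℓN : ¬ ℓ ∣ N)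
variable (A : ValuationSubring (AlgebraicClosure ℚ)) (hA : A.LiesOverPrime ℓ)

/-- The embedding `F_N → F̄_N`. -/
def barEmb : ↥(modularFunctionFieldFull N) →+* ↥(modularFunctionFieldBar N) :=
  barEmbL (AlgebraicClosure ℚ) N

@[simp] theorem coe_barEmb (x : ↥(modularFunctionFieldFull N)) :
    ((barEmb N x : ↥(modularFunctionFieldBar N)) : LaurentSeries (AlgebraicClosure ℚ)) =
      coeffEmb (AlgebraicClosure ℚ) (x : LaurentSeries ℚ) := rfl

theorem barEmb_injective : Function.Injective (barEmb N) := (barEmb N).injective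

theorem barEmb_jFull : barEmb N (jFull N) = jBar N := rfl

set_option quotPrecheck false in
local notation "ℤℓ" => ↥(GaloisRep.ratLocalizedAt ℓ)

/-- constants from `ℤ_(ℓ)` go to constants of `F̄_N` -/
theorem barEmb_algebraMap_zl (r : ℤℓ) :
    barEmb N (algebraMap ℤℓ ↥(modularFunctionFieldFull N) r) =
      algebraMap (AlgebraicClosure ℚ) ↥(modularFunctionFieldBar N)
        (algebraMap ℚ (AlgebraicClosure ℚ) (r : ℚ)) := by
  apply Subtype.ext
  rw [coe_barEmb, coe_algebraMap_zl]
  show _ = algebraMap (AlgebraicClosure ℚ) (LaurentSeries (AlgebraicClosure ℚ)) _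
  rw [algebraMap_laurentSeries_eq_single, HahnSeries.C_apply, coeffEmb, coeffMap_single]

/-- the canonical map `𝔽_ℓ → k` into the residue field of `A` -/
def zmodToResidue : ZMod ℓ →+* IsLocalRing.ResidueField A :=
  haveI := charP_residueField_of_liesOverPrime A hA
  ZMod.castHom (dvd_refl ℓ) (IsLocalRing.ResidueField A)

/-- **(B1)** Gauss-integral elements of `F_N` lie in the valuation ring of the constant
reduction. -/
theorem barEmb_mem_O_of_gauss {y : ↥(modularFunctionFieldFull N)}
    (hy : ((y : ↥(modularFunctionFieldFull N)) : LaurentSeries ℚ) ∈ gaussSubring ℓ) :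
    barEmb N y ∈ (constRedBar N hℓN A hA).O :=
  barEmbL_mem_valSubring_of_gauss N A hA (zmodToResidue A hA) (orthoDataQbar A N hA hℓN) hy

/-- **(B2)** the residue of a Gauss-integral element of `F_N`. -/
theorem res_barEmb_of_gauss (ι : ZMod ℓ →+* IsLocalRing.ResidueField A)
    {y : ↥(modularFunctionFieldFull N)}
    (hy : ((y : ↥(modularFunctionFieldFull N)) : LaurentSeries ℚ) ∈ gaussSubring ℓ) :
    (((constRedBar N hℓN A hA).res ⟨barEmb N y, barEmb_mem_O_of_gauss N hℓN A hA hy⟩ :
        ↥(modularFunctionFieldFullC (IsLocalRing.ResidueField A) N)) :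
        LaurentSeries (IsLocalRing.ResidueField A)) =
      coeffMap ι (gaussRes ℓ ⟨_, hy⟩) :=
  resSeries_barEmbL_of_gauss N A hA ι (orthoDataQbar A N hA hℓN) hy

/-- **(B1)** chart elements lie in the valuation ring of the constant reduction. -/
theorem barEmb_mem_O {S : Set ↥(modularFunctionFieldFull N)}
    (hS : ∀ s ∈ S, ((s : ↥(modularFunctionFieldFull N)) : LaurentSeries ℚ) ∈ gaussSubring ℓ)
    (x : ↥(chartAlg N ℓ S)) :
    barEmb N (x : ↥(modularFunctionFieldFull N)) ∈ (constRedBar N hℓN A hA).O :=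
  barEmbL_mem_valSubring N A hA (zmodToResidue A hA) (orthoDataQbar A N hA hℓN) hS x

/-- **(B2)** the residue of a chart element is the extension of coefficients of `chartRes`. -/
theorem res_barEmb (ι : ZMod ℓ →+* IsLocalRing.ResidueField A)
    {S : Set ↥(modularFunctionFieldFull N)}
    (hS : ∀ s ∈ S, ((s : ↥(modularFunctionFieldFull N)) : LaurentSeries ℚ) ∈ gaussSubring ℓ)
    (x : ↥(chartAlg N ℓ S)) :
    (((constRedBar N hℓN A hA).res ⟨barEmb N (x : ↥(modularFunctionFieldFull N)),
        barEmb_mem_O N hℓN A hA hS x⟩ :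
        ↥(modularFunctionFieldFullC (IsLocalRing.ResidueField A) N)) :
        LaurentSeries (IsLocalRing.ResidueField A)) =
      coeffMap ι (chartRes N ℓ hS x) :=
  resSeries_barEmbL N A hA ι (orthoDataQbar A N hA hℓN) hS x

/-- the residue of `j(q^d)`, `d ∣ N` -/
theorem res_barEmb_jqd {d : ℕ} [NeZero d] (hd : d ∣ N)
    (h : barEmb N (⟨qExpand ℚ d jq, jqd_mem_full N hd⟩ : ↥(modularFunctionFieldFull N)) ∈
      (constRedBar N hℓN A hA).O) :
    (((constRedBar N hℓN A hA).res ⟨_, h⟩ :
        ↥(modularFunctionFieldFullC (IsLocalRing.ResidueField A) N)) :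
        LaurentSeries (IsLocalRing.ResidueField A)) =
      qExpand (IsLocalRing.ResidueField A) d (jqModC (IsLocalRing.ResidueField A)) := by
  obtain ⟨hg, hres⟩ := gaussRes_jqN ℓ d
  have h1 := res_barEmb_of_gauss N hℓN A hA (zmodToResidue A hA)
    (y := ⟨qExpand ℚ d jq, jqd_mem_full N hd⟩) hg
  rw [hres, coeffMap_jqNModC] at h1
  exact h1

/-! ### (B3) poles of chart elements -/

/-- A place at which the generators `S` are regular is regular on the whole chart algebra. -/
theorem ord_barEmb_nonneg {S : Set ↥(modularFunctionFieldFull N)} (x : ↥(chartAlg N ℓ S))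
    (P : Place (AlgebraicClosure ℚ) ↥(modularFunctionFieldBar N))
    (hP : ∀ s ∈ S, 0 ≤ P.ord (barEmb N s)) :
    0 ≤ P.ord (barEmb N (x : ↥(modularFunctionFieldFull N))) := by
  have hint : IsIntegral (Algebra.adjoin ℤℓ S) (x : ↥(modularFunctionFieldFull N)) :=
    (mem_chartAlg_iff N ℓ).mp x.2
  have hmem : ∀ a ∈ Algebra.adjoin ℤℓ S, barEmb N a ∈ P.toValuationSubring := by
    intro a ha
    induction ha using Algebra.adjoin_induction with
    | mem s hs => exact Place.mem_of_ord_nonneg P (hP s hs)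
    | algebraMap r => rw [barEmb_algebraMap_zl]; exact P.algebraMap_mem' _
    | add a b _ _ ha hb => rw [map_add]; exact add_mem ha hb
    | mul a b _ _ ha hb => rw [map_mul]; exact mul_mem ha hb
  let φ : ↥(Algebra.adjoin ℤℓ S) →+* ↥P.toValuationSubring :=
    { toFun := fun a => ⟨barEmb N (a : ↥(modularFunctionFieldFull N)), hmem a a.2⟩
      map_one' := Subtype.ext (map_one _)
      map_mul' := fun _ _ => Subtype.ext (map_mul _ _ _)
      map_zero' := Subtype.ext (map_zero _)
      map_add' := fun _ _ => Subtype.ext (map_add _ _ _) }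
  have h1 : IsIntegral ↥P.toValuationSubring (barEmb N (x : ↥(modularFunctionFieldFull N))) :=
    hint.map_of_comp_eq φ (barEmb N) (by ext; rfl)
  obtain ⟨y, hy⟩ := IsIntegrallyClosed.isIntegral_iff.mp h1
  rw [← hy]
  exact Place.ord_nonneg_of_mem P y.2

/-- **(B3, finite chart)** the poles of an element of `chartAlgFin` are poles of `j`. -/
theorem ord_jBar_neg_of_ord_barEmb_neg (x : ↥(chartAlgFin N ℓ))
    (P : Place (AlgebraicClosure ℚ) ↥(modularFunctionFieldBar N))
    (hx : P.ord (barEmb N (x : ↥(modularFunctionFieldFull N))) < 0) : P.ord (jBar N) < 0 := by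
  by_contra h
  rw [not_lt] at h
  have := ord_barEmb_nonneg N x P (by
    intro s hs
    rw [Set.mem_singleton_iff.mp hs, barEmb_jFull]
    exact h)
  omega

/-- **(B3, chart at infinity)** the poles of an element of `chartAlgInf` are zeros of `j`. -/
theorem ord_jBar_pos_of_ord_barEmb_neg (x : ↥(chartAlgInf N ℓ))
    (P : Place (AlgebraicClosure ℚ) ↥(modularFunctionFieldBar N))
    (hx : P.ord (barEmb N (x : ↥(modularFunctionFieldFull N))) < 0) : 0 < P.ord (jBar N) := by
  by_contra h
  rw [not_lt] at h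
  have := ord_barEmb_nonneg N x P (by
    intro s hs
    rw [Set.mem_singleton_iff.mp hs, map_inv₀, barEmb_jFull, P.ord_inv]
    omega)
  omega

/-! ### (B4) the tensor comparison -/

section Tensor

open TensorProduct

variable {S : Set ↥(modularFunctionFieldFull N)}
  (hS : ∀ s ∈ S, ((s : ↥(modularFunctionFieldFull N)) : LaurentSeries ℚ) ∈ gaussSubring ℓ)

/-- The reduction of a chart algebra, with values in `F̃_N`: `b ↦ res (barEmb b)`. -/
def resChart : ↥(chartAlg N ℓ S) →+*
    ↥(modularFunctionFieldFullC (IsLocalRing.ResidueField A) N) :=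
  (constRedBar N hℓN A hA).res.comp
    { toFun := fun x => ⟨barEmb N (x : ↥(modularFunctionFieldFull N)),
        barEmb_mem_O N hℓN A hA hS x⟩
      map_one' := Subtype.ext (map_one _)
      map_mul' := fun _ _ => Subtype.ext (map_mul _ _ _)
      map_zero' := Subtype.ext (map_zero _)
      map_add' := fun _ _ => Subtype.ext (map_add _ _ _) }

theorem resChart_apply (x : ↥(chartAlg N ℓ S)) :
    resChart N hℓN A hA hS x =
      (constRedBar N hℓN A hA).res ⟨barEmb N (x : ↥(modularFunctionFieldFull N)),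
        barEmb_mem_O N hℓN A hA hS x⟩ := rfl

theorem coe_resChart (ι : ZMod ℓ →+* IsLocalRing.ResidueField A) (x : ↥(chartAlg N ℓ S)) :
    ((resChart N hℓN A hA hS x :
        ↥(modularFunctionFieldFullC (IsLocalRing.ResidueField A) N)) :
        LaurentSeries (IsLocalRing.ResidueField A)) = coeffMap ι (chartRes N ℓ hS x) :=
  res_barEmb N hℓN A hA ι hS x

variable [Algebra (GaloisRep.ratLocalizedAt ℓ) (IsLocalRing.ResidueField A)]

/-- **(B4)** the comparison map `chartAlg ⊗[ℤ_(ℓ)] k → F̃_N`, `b ⊗ c ↦ c · res b`: it exists and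
is injective as soon as the chart satisfies the `q`-expansion principle. -/
theorem exists_tensorRes (Dred : ReductionData ℓ ↥(chartAlg N ℓ S))
    (hD : Dred.ρ = chartRes N ℓ hS) :
    ∃ T : ↥(chartAlg N ℓ S) ⊗[ℤℓ] IsLocalRing.ResidueField A →+*
        ↥(modularFunctionFieldFullC (IsLocalRing.ResidueField A) N),
      Function.Injective T ∧ ∀ (b : ↥(chartAlg N ℓ S)) (c : IsLocalRing.ResidueField A),
        T (b ⊗ₜ[ℤℓ] c) = algebraMap (IsLocalRing.ResidueField A)
          ↥(modularFunctionFieldFullC (IsLocalRing.ResidueField A) N) c *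
            resChart N hℓN A hA hS b := by
  haveI := charP_residueField_of_liesOverPrime A hA
  letI : Algebra ℤℓ (ZMod ℓ) := (zlResidue ℓ).toAlgebra
  letI : Algebra (ZMod ℓ) (IsLocalRing.ResidueField A) := ZMod.algebra _ ℓ
  haveI : IsScalarTower ℤℓ (ZMod ℓ) (IsLocalRing.ResidueField A) :=
    IsScalarTower.of_algebraMap_eq fun r =>
      congrFun (congrArg DFunLike.coe (zl_algebraMap_eq ℓ (IsLocalRing.ResidueField A))) r
  have hρ : ∀ r : ℤℓ, chartRes N ℓ hS (algebraMap ℤℓ ↥(chartAlg N ℓ S) r) =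
      HahnSeries.C (algebraMap ℤℓ (ZMod ℓ) r) := chartRes_algebraMap N ℓ hS
  have hker : ∀ x : ↥(chartAlg N ℓ S), chartRes N ℓ hS x = 0 →
      x ∈ Ideal.map (algebraMap ℤℓ ↥(chartAlg N ℓ S))
        (RingHom.ker (algebraMap ℤℓ (ZMod ℓ))) := by
    intro x hx
    obtain ⟨y, rfl⟩ := Dred.ker_le x (by rw [hD]; exact hx)
    refine Ideal.mul_mem_right _ _ (Ideal.mem_map_of_mem _ ?_)
    show zlPrime ℓ ∈ RingHom.ker (zlResidue ℓ)
    rw [RingHom.mem_ker]
    exact zlResidue_zlPrime ℓ
  have hinj := tensorToLaurent_injective (K := IsLocalRing.ResidueField A)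
    (zlResidue_surjective ℓ) (chartRes N ℓ hS) hρ hker
  have hT₀ : ∀ (b : ↥(chartAlg N ℓ S)) (c : IsLocalRing.ResidueField A),
      (LaurentCopy.of (IsLocalRing.ResidueField A)).symm
        (tensorToLaurent (IsLocalRing.ResidueField A) (chartRes N ℓ hS) hρ (b ⊗ₜ c)) =
      ((algebraMap (IsLocalRing.ResidueField A)
          ↥(modularFunctionFieldFullC (IsLocalRing.ResidueField A) N) c *
            resChart N hℓN A hA hS b :
          ↥(modularFunctionFieldFullC (IsLocalRing.ResidueField A) N)) :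
        LaurentSeries (IsLocalRing.ResidueField A)) := by
    intro b c
    rw [tensorToLaurent_tmul, RingEquiv.symm_apply_apply, MulMemClass.coe_mul,
      coe_resChart N hℓN A hA hS (algebraMap (ZMod ℓ) (IsLocalRing.ResidueField A)), mul_comm]
    congr 1
    show _ = algebraMap (IsLocalRing.ResidueField A)
      (LaurentSeries (IsLocalRing.ResidueField A)) c
    rw [Val.algebraMap_laurentSeries_eq_C]
  have hmem : ∀ z : ↥(chartAlg N ℓ S) ⊗[ℤℓ] IsLocalRing.ResidueField A,
      (LaurentCopy.of (IsLocalRing.ResidueField A)).symm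
        (tensorToLaurent (IsLocalRing.ResidueField A) (chartRes N ℓ hS) hρ z) ∈
      modularFunctionFieldFullC (IsLocalRing.ResidueField A) N := by
    intro z
    induction z using TensorProduct.induction_on with
    | zero => rw [map_zero, map_zero]; exact zero_mem _
    | tmul b c => rw [hT₀]; exact SetLike.coe_mem _
    | add x y hx hy => rw [map_add, map_add]; exact add_mem hx hy
  refine ⟨((LaurentCopy.of (IsLocalRing.ResidueField A)).symm.toRingHom.comp
    (tensorToLaurent (IsLocalRing.ResidueField A) (chartRes N ℓ hS) hρ).toRingHom).codRestrict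
      (modularFunctionFieldFullC (IsLocalRing.ResidueField A) N) hmem, ?_, ?_⟩
  · intro x y h
    apply hinj
    have := congrArg Subtype.val h
    exact (LaurentCopy.of (IsLocalRing.ResidueField A)).symm.injective this
  · intro b c
    exact Subtype.ext (hT₀ b c)

/-! ### (B5) normality of the special fibre of a chart gives the span condition -/

variable (ℓ) in
/-- The image of a chart algebra in `F̄_N`. -/
def chartBar (S : Set ↥(modularFunctionFieldFull N)) : Set ↥(modularFunctionFieldBar N) :=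
  (barEmb N) '' (chartAlg N ℓ S : Set ↥(modularFunctionFieldFull N))

omit [Algebra (GaloisRep.ratLocalizedAt ℓ) (IsLocalRing.ResidueField A)] in
include hS in
/-- **(B1)** in set form -/
theorem chartBar_subset_O : ∀ b ∈ chartBar N ℓ S, b ∈ (constRedBar N hℓN A hA).O := by
  rintro _ ⟨x, hx, rfl⟩
  exact barEmb_mem_O N hℓN A hA hS ⟨x, hx⟩

omit [Algebra (GaloisRep.ratLocalizedAt ℓ) (IsLocalRing.ResidueField A)] in
theorem resF_barEmb (x : ↥(chartAlg N ℓ S)) :
    (constRedBar N hℓN A hA).resF (barEmb N (x : ↥(modularFunctionFieldFull N))) =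
      resChart N hℓN A hA hS x :=
  (constRedBar N hℓN A hA).resF_of_mem (barEmb_mem_O N hℓN A hA hS x)

omit [Algebra (GaloisRep.ratLocalizedAt ℓ) (IsLocalRing.ResidueField A)] in
/-- multiplicativity against `j(q^d)` -/
theorem resChart_eq_jqd_mul {d : ℕ} [NeZero d] (hd : d ∣ N) (a b : ↥(chartAlg N ℓ S))
    (hab : (a : ↥(modularFunctionFieldFull N)) =
      ⟨qExpand ℚ d jq, jqd_mem_full N hd⟩ * (b : ↥(modularFunctionFieldFull N))) :
    resChart N hℓN A hA hS a =
      ⟨qExpand (IsLocalRing.ResidueField A) d (jqModC (IsLocalRing.ResidueField A)),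
        jqModCd_mem_full (IsLocalRing.ResidueField A) N hd⟩ * resChart N hℓN A hA hS b := by
  obtain ⟨hg, -⟩ := gaussRes_jqN ℓ d
  have hjq : barEmb N (⟨qExpand ℚ d jq, jqd_mem_full N hd⟩ : ↥(modularFunctionFieldFull N)) ∈
      (constRedBar N hℓN A hA).O :=
    barEmb_mem_O_of_gauss N hℓN A hA (y := ⟨qExpand ℚ d jq, jqd_mem_full N hd⟩) hg
  have h1 : (⟨barEmb N (a : ↥(modularFunctionFieldFull N)), barEmb_mem_O N hℓN A hA hS a⟩ :
      (constRedBar N hℓN A hA).O) =
      ⟨_, hjq⟩ * ⟨barEmb N (b : ↥(modularFunctionFieldFull N)), barEmb_mem_O N hℓN A hA hS b⟩ := by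
    apply Subtype.ext
    show barEmb N (a : ↥(modularFunctionFieldFull N)) = _ * _
    rw [hab, map_mul]
  rw [resChart_apply, h1, map_mul, resChart_apply]
  congr 1
  exact Subtype.ext (res_barEmb_jqd N hℓN A hA hd hjq)

/-! The next lemmas are stated for an abstract model `C` of `chartAlg ⊗ k` (pure tensors `p b c`,
induction principle `hind`), to keep type class inference away from the tensor product. -/

section Model

variable {C : Type*} [CommRing C]
  (T : C →+* ↥(modularFunctionFieldFullC (IsLocalRing.ResidueField A) N))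
  (p : ↥(chartAlg N ℓ S) → IsLocalRing.ResidueField A → C)
  (hT : ∀ (b : ↥(chartAlg N ℓ S)) (c : IsLocalRing.ResidueField A),
    T (p b c) = algebraMap (IsLocalRing.ResidueField A)
      ↥(modularFunctionFieldFullC (IsLocalRing.ResidueField A) N) c *
        resChart N hℓN A hA hS b)

omit [Algebra (GaloisRep.ratLocalizedAt ℓ) (IsLocalRing.ResidueField A)] in
include hT in
/-- the fraction field of the range of the comparison map is `F̃_N` -/
theorem mem_closure_range_tensorRes
    (hgen : ∀ (d : ℕ) [NeZero d] (hd : d ∣ N), ∃ a b : ↥(chartAlg N ℓ S),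
      resChart N hℓN A hA hS b ≠ 0 ∧ (a : ↥(modularFunctionFieldFull N)) =
        ⟨qExpand ℚ d jq, jqd_mem_full N hd⟩ * (b : ↥(modularFunctionFieldFull N)))
    (z : ↥(modularFunctionFieldFullC (IsLocalRing.ResidueField A) N)) :
    z ∈ Subfield.closure (Set.range T) := by
  refine forall_mem_subfield_of_adjoin (k := IsLocalRing.ResidueField A)
    (s := divisorExpansionsC (IsLocalRing.ResidueField A) N)
    (modularFunctionFieldFullC (IsLocalRing.ResidueField A) N) rfl
    (Subfield.closure (Set.range T)) ?_ ?_ z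
  · rintro x ⟨d, hd0, hd, rfl⟩
    haveI := hd0
    obtain ⟨a, b, hb, hab⟩ := hgen d hd
    have h1 := resChart_eq_jqd_mul N hℓN A hA hS hd a b hab
    refine ⟨jqModCd_mem_full (IsLocalRing.ResidueField A) N hd, ?_⟩
    refine mem_closure_range_of_mul_eq'
      (modularFunctionFieldFullC (IsLocalRing.ResidueField A) N) T
      (a := p a 1) (b := p b 1) ?_ ?_
    · rw [hT, map_one, one_mul]
      exact hb
    · rw [hT, hT, map_one, one_mul, one_mul, h1]
  · intro c
    refine Subfield.subset_closure ⟨p 1 c, ?_⟩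
    rw [hT, map_one, mul_one]

omit [Algebra (GaloisRep.ratLocalizedAt ℓ) (IsLocalRing.ResidueField A)] in
include hT in
/-- `k[res t₀]` lies in the range of the comparison map -/
theorem algebraMap_adjoin_mem_range (t₀ : ↥(chartAlg N ℓ S))
    (r : ↥(Algebra.adjoin (IsLocalRing.ResidueField A) {resChart N hℓN A hA hS t₀})) :
    algebraMap _ ↥(modularFunctionFieldFullC (IsLocalRing.ResidueField A) N) r ∈
      Set.range T := by
  obtain ⟨r, hr⟩ := r
  show r ∈ Set.range T
  induction hr using Algebra.adjoin_induction with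
  | mem x hx =>
    rw [Set.mem_singleton_iff] at hx
    subst hx
    exact ⟨p t₀ 1, by rw [hT, map_one, one_mul]⟩
  | algebraMap c =>
    exact ⟨p 1 c, by rw [hT, map_one, mul_one]⟩
  | add x y _ _ hx hy =>
    obtain ⟨x', rfl⟩ := hx
    obtain ⟨y', rfl⟩ := hy
    exact ⟨x' + y', map_add T x' y'⟩
  | mul x y _ _ hx hy =>
    obtain ⟨x', rfl⟩ := hx
    obtain ⟨y', rfl⟩ := hy
    exact ⟨x' * y', map_mul T x' y'⟩

omit [Algebra (GaloisRep.ratLocalizedAt ℓ) (IsLocalRing.ResidueField A)] in
include hT in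
/-- the range of the comparison map is spanned by residues of chart elements -/
theorem tensorRes_mem_span
    (hind : ∀ M : C → Prop, M 0 → (∀ b c, M (p b c)) → (∀ x y, M x → M y → M (x + y)) →
      ∀ z, M z) (z : C) :
    T z ∈ Submodule.span (IsLocalRing.ResidueField A)
      ((constRedBar N hℓN A hA).resF '' chartBar N ℓ S) := by
  have key : ∀ (b : ↥(chartAlg N ℓ S)) (c : IsLocalRing.ResidueField A),
      T (p b c) ∈ Submodule.span (IsLocalRing.ResidueField A)
        ((constRedBar N hℓN A hA).resF '' chartBar N ℓ S) := by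
    intro b c
    have h0 : resChart N hℓN A hA hS b ∈ Submodule.span (IsLocalRing.ResidueField A)
        ((constRedBar N hℓN A hA).resF '' chartBar N ℓ S) :=
      Submodule.subset_span ⟨barEmb N b, ⟨b, b.2, rfl⟩, resF_barEmb N hℓN A hA hS b⟩
    have h1 := algebraMap_mul_mem_span (k := IsLocalRing.ResidueField A)
      (V := ↥(modularFunctionFieldFullC (IsLocalRing.ResidueField A) N))
      ((constRedBar N hℓN A hA).resF '' chartBar N ℓ S) h0 c
    rw [hT]
    exact h1
  generalize Submodule.span (IsLocalRing.ResidueField A)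
      ((constRedBar N hℓN A hA).resF '' chartBar N ℓ S) = M at key ⊢
  refine hind (fun z => T z ∈ M) ?_ key ?_ z
  · exact (map_zero T).symm ▸ M.zero_mem
  · intro x y hx hy
    exact (map_add T x y).symm ▸ M.add_mem hx hy

omit [Algebra (GaloisRep.ratLocalizedAt ℓ) (IsLocalRing.ResidueField A)] in
include hT in
/-- **(B5), model form.** -/
theorem mem_span_of_isIntegral_model [IsDomain C] [IsIntegrallyClosed C]
    (hTinj : Function.Injective T)
    (hind : ∀ M : C → Prop, M 0 → (∀ b c, M (p b c)) → (∀ x y, M x → M y → M (x + y)) →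
      ∀ z, M z)
    (hgen : ∀ (d : ℕ) [NeZero d] (hd : d ∣ N), ∃ a b : ↥(chartAlg N ℓ S),
      resChart N hℓN A hA hS b ≠ 0 ∧ (a : ↥(modularFunctionFieldFull N)) =
        ⟨qExpand ℚ d jq, jqd_mem_full N hd⟩ * (b : ↥(modularFunctionFieldFull N)))
    (t₀ : ↥(chartAlg N ℓ S))
    (ft : ↥(modularFunctionFieldFullC (IsLocalRing.ResidueField A) N))
    (hft : IsIntegral (Algebra.adjoin (IsLocalRing.ResidueField A)
      {resChart N hℓN A hA hS t₀}) ft) :
    ft ∈ Submodule.span (IsLocalRing.ResidueField A)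
      ((constRedBar N hℓN A hA).resF '' chartBar N ℓ S) := by
  obtain ⟨z, hz⟩ := mem_range_of_isIntegral'
    (modularFunctionFieldFullC (IsLocalRing.ResidueField A) N) T hTinj
    (mem_closure_range_tensorRes N hℓN A hA hS T p hT hgen)
    (algebraMap_adjoin_mem_range N hℓN A hA hS T p hT t₀) hft
  rw [← hz]
  exact tensorRes_mem_span N hℓN A hA hS T p hT hind z

end Model

/-- **(B5), general chart.** If the special fibre `chartAlg ⊗ k` of the chart is integrally
closed, the chart satisfies the `q`-expansion principle and contains the `j(q^d)` up to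
denominators with nonzero reduction, then every element of `F̃_N` integral over `k[res t₀]`
(`t₀` in the chart) is a `k`-combination of residues of chart elements. -/
theorem mem_span_of_isIntegral (Dred : ReductionData ℓ ↥(chartAlg N ℓ S))
    (hD : Dred.ρ = chartRes N ℓ hS)
    (hgen : ∀ (d : ℕ) [NeZero d] (hd : d ∣ N), ∃ a b : ↥(chartAlg N ℓ S),
      resChart N hℓN A hA hS b ≠ 0 ∧ (a : ↥(modularFunctionFieldFull N)) =
        ⟨qExpand ℚ d jq, jqd_mem_full N hd⟩ * (b : ↥(modularFunctionFieldFull N)))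
    (hnorm : IsIntegrallyClosed (↥(chartAlg N ℓ S) ⊗[ℤℓ] IsLocalRing.ResidueField A))
    (t₀ : ↥(chartAlg N ℓ S))
    (ft : ↥(modularFunctionFieldFullC (IsLocalRing.ResidueField A) N))
    (hft : IsIntegral (Algebra.adjoin (IsLocalRing.ResidueField A)
      {resChart N hℓN A hA hS t₀}) ft) :
    ft ∈ Submodule.span (IsLocalRing.ResidueField A)
      ((constRedBar N hℓN A hA).resF '' chartBar N ℓ S) := by
  obtain ⟨T, hTinj, hT⟩ := exists_tensorRes N hℓN A hA hS Dred hD
  haveI : IsDomain (↥(chartAlg N ℓ S) ⊗[ℤℓ] IsLocalRing.ResidueField A) :=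
    Function.Injective.isDomain T hTinj
  exact mem_span_of_isIntegral_model N hℓN A hA hS
    (C := ↥(chartAlg N ℓ S) ⊗[ℤℓ] IsLocalRing.ResidueField A) T
    (fun b c => b ⊗ₜ[ℤℓ] c) hT hTinj
    (fun M h0 ht ha z => TensorProduct.induction_on z h0 ht ha) hgen t₀ ft hft

/-! ### The two charts -/

omit [Algebra (GaloisRep.ratLocalizedAt ℓ) (IsLocalRing.ResidueField A)] in
/-- `res j = j̃` on the finite chart -/
theorem resChart_jChartFin :
    resChart N hℓN A hA (Fermat.Agent.Igusa.hSFin N ℓ) (jChartFin N ℓ) =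
      Val.jFullC (IsLocalRing.ResidueField A) N := by
  apply Subtype.ext
  rw [coe_resChart N hℓN A hA _ (zmodToResidue A hA), chartRes_jFull N ℓ _ _ rfl,
    coeffMap_jqModC]
  rfl

omit [Algebra (GaloisRep.ratLocalizedAt ℓ) (IsLocalRing.ResidueField A)] in
/-- `res (1/j) = 1/j̃` on the chart at infinity -/
theorem resChart_jInvChartInf :
    resChart N hℓN A hA (Fermat.Agent.Igusa.hSInf N ℓ) (jInvChartInf N ℓ) =
      (Val.jFullC (IsLocalRing.ResidueField A) N)⁻¹ := by
  apply Subtype.ext
  rw [coe_resChart N hℓN A hA _ (zmodToResidue A hA), chartRes_jFull_inv N ℓ _ _ rfl,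
    map_inv₀, coeffMap_jqModC]
  rfl

omit [Algebra (GaloisRep.ratLocalizedAt ℓ) (IsLocalRing.ResidueField A)] in
/-- the finite chart contains the `j(q^d)` -/
theorem hgen_fin (d : ℕ) [NeZero d] (hd : d ∣ N) :
    ∃ a b : ↥(chartAlg N ℓ {jFull N}),
      resChart N hℓN A hA (Fermat.Agent.Igusa.hSFin N ℓ) b ≠ 0 ∧
      (a : ↥(modularFunctionFieldFull N)) =
        ⟨qExpand ℚ d jq, jqd_mem_full N hd⟩ * (b : ↥(modularFunctionFieldFull N)) := by
  refine ⟨⟨_, jqd_mem_chartAlgFin N ℓ hℓN d hd⟩, 1, ?_, ?_⟩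
  · rw [map_one]
    exact one_ne_zero
  · show _ = _ * ((1 : ↥(chartAlg N ℓ {jFull N})) : ↥(modularFunctionFieldFull N))
    rw [OneMemClass.coe_one, mul_one]

omit [Algebra (GaloisRep.ratLocalizedAt ℓ) (IsLocalRing.ResidueField A)] in
/-- the chart at infinity contains the `j(q^d)` up to powers of `1/j` -/
theorem hgen_inf (d : ℕ) [NeZero d] (hd : d ∣ N) :
    ∃ a b : ↥(chartAlg N ℓ {(jFull N)⁻¹}),
      resChart N hℓN A hA (Fermat.Agent.Igusa.hSInf N ℓ) b ≠ 0 ∧
      (a : ↥(modularFunctionFieldFull N)) =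
        ⟨qExpand ℚ d jq, jqd_mem_full N hd⟩ * (b : ↥(modularFunctionFieldFull N)) := by
  have hsub : ({jFull N} : Set ↥(modularFunctionFieldFull N)) ⊆
      insert ((jFull N)⁻¹)⁻¹ {(jFull N)⁻¹} := by
    intro x hx
    rw [Set.mem_singleton_iff] at hx
    rw [hx, inv_inv]
    exact Set.mem_insert _ _
  have hx : (⟨qExpand ℚ d jq, jqd_mem_full N hd⟩ : ↥(modularFunctionFieldFull N)) ∈
      chartAlg N ℓ (insert ((jFull N)⁻¹)⁻¹ {(jFull N)⁻¹}) :=
    chartAlg_mono N ℓ hsub (jqd_mem_chartAlgFin N ℓ hℓN d hd)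
  obtain ⟨n, hn⟩ := exists_pow_mul_mem_chartAlg (N := N) (ℓ := ℓ) (S := {(jFull N)⁻¹}) (s := (jFull N)⁻¹)
    rfl (inv_ne_zero (jFull_ne_zero N)) hx
  refine ⟨⟨_, hn⟩, jInvChartInf N ℓ ^ n, ?_, ?_⟩
  · rw [map_pow, resChart_jInvChartInf]
    intro h
    have h1 := congrArg (fun z : ↥(modularFunctionFieldFullC (IsLocalRing.ResidueField A) N) =>
      (z : LaurentSeries (IsLocalRing.ResidueField A))) h
    simp only [SubmonoidClass.coe_pow, ZeroMemClass.coe_zero] at h1
    have h2 : ((Val.jFullC (IsLocalRing.ResidueField A) N)⁻¹ :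
        ↥(modularFunctionFieldFullC (IsLocalRing.ResidueField A) N)) =
        ((jqModC (IsLocalRing.ResidueField A))⁻¹ :
          LaurentSeries (IsLocalRing.ResidueField A)) := rfl
    rw [h2] at h1
    exact inv_ne_zero (jqModC_ne_zero_of_nontrivial (IsLocalRing.ResidueField A))
      (pow_eq_zero_iff (M₀ := LaurentSeries (IsLocalRing.ResidueField A)) (n := n)
        (by rintro rfl; simp at h1) |>.mp h1)
  · show (jFull N)⁻¹ ^ n * _ = _ * ((jInvChartInf N ℓ ^ n : ↥(chartAlg N ℓ {(jFull N)⁻¹})) :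
      ↥(modularFunctionFieldFull N))
    rw [SubmonoidClass.coe_pow, mul_comm]
    rfl

/-- **(B5), finite chart**: if `chartAlgFin ⊗ k` is integrally closed, every element of `F̃_N`
integral over `k[j̃]` is a `k`-combination of residues of elements of the finite chart. -/
theorem mem_span_fin
    (hnorm : IsIntegrallyClosed (↥(chartAlgFin N ℓ) ⊗[ℤℓ] IsLocalRing.ResidueField A))
    (ft : ↥(modularFunctionFieldFullC (IsLocalRing.ResidueField A) N))
    (hft : IsIntegral (Algebra.adjoin (IsLocalRing.ResidueField A)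
      {Val.jFullC (IsLocalRing.ResidueField A) N}) ft) :
    ft ∈ Submodule.span (IsLocalRing.ResidueField A)
      ((constRedBar N hℓN A hA).resF '' chartBar N ℓ {jFull N}) := by
  rw [← resChart_jChartFin N hℓN A hA] at hft
  exact mem_span_of_isIntegral N hℓN A hA (Fermat.Agent.Igusa.hSFin N ℓ)
    (S28X.redDataFin N ℓ hℓN) rfl (fun d _ hd => hgen_fin N hℓN A hA d hd) hnorm
    (jChartFin N ℓ) ft hft

/-- **(B5), chart at infinity**: if `chartAlgInf ⊗ k` is integrally closed, every element of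
`F̃_N` integral over `k[1/j̃]` is a `k`-combination of residues of elements of the chart at
infinity. -/
theorem mem_span_inf
    (hnorm : IsIntegrallyClosed (↥(chartAlgInf N ℓ) ⊗[ℤℓ] IsLocalRing.ResidueField A))
    (ft : ↥(modularFunctionFieldFullC (IsLocalRing.ResidueField A) N))
    (hft : IsIntegral (Algebra.adjoin (IsLocalRing.ResidueField A)
      {(Val.jFullC (IsLocalRing.ResidueField A) N)⁻¹}) ft) :
    ft ∈ Submodule.span (IsLocalRing.ResidueField A)
      ((constRedBar N hℓN A hA).resF '' chartBar N ℓ {(jFull N)⁻¹}) := by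
  rw [← resChart_jInvChartInf N hℓN A hA] at hft
  exact mem_span_of_isIntegral N hℓN A hA (Fermat.Agent.Igusa.hSInf N ℓ)
    (S28X.redDataInf N ℓ hℓN) rfl (fun d _ hd => hgen_inf N hℓN A hA d hd) hnorm
    (jInvChartInf N ℓ) ft hft

omit [Algebra (GaloisRep.ratLocalizedAt ℓ) (IsLocalRing.ResidueField A)] in
/-- **(B3)** in the form of the adapter: finite chart -/
theorem polesAtPoles_chartBarFin :
    ∀ b ∈ chartBar N ℓ {jFull N}, PolesAtPoles (AlgebraicClosure ℚ) (jBar N) b := by
  rintro _ ⟨x, hx, rfl⟩ P hP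
  exact ord_jBar_neg_of_ord_barEmb_neg N ⟨x, hx⟩ P hP

omit [Algebra (GaloisRep.ratLocalizedAt ℓ) (IsLocalRing.ResidueField A)] in
/-- **(B3)** in the form of the adapter: chart at infinity -/
theorem polesAtZeros_chartBarInf :
    ∀ b ∈ chartBar N ℓ {(jFull N)⁻¹}, PolesAtZeros (AlgebraicClosure ℚ) (jBar N) b := by
  rintro _ ⟨x, hx, rfl⟩ P hP
  exact ord_jBar_pos_of_ord_barEmb_neg N ⟨x, hx⟩ P hP

include hℓN hA in
/-- **`g ≤ g̃` from the normality of the special fibres of the two charts.** -/
theorem genusFF_bar_le_of_normal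
    (hnF : IsIntegrallyClosed (↥(chartAlgFin N ℓ) ⊗[ℤℓ] IsLocalRing.ResidueField A))
    (hnI : IsIntegrallyClosed (↥(chartAlgInf N ℓ) ⊗[ℤℓ] IsLocalRing.ResidueField A)) :
    genusFF (AlgebraicClosure ℚ) ↥(modularFunctionFieldBar N) ≤
      genusFF (IsLocalRing.ResidueField A)
        ↥(modularFunctionFieldFullC (IsLocalRing.ResidueField A) N) :=
  genusFF_bar_le_of_charts N hℓN A hA (chartBar N ℓ {jFull N}) (chartBar N ℓ {(jFull N)⁻¹})
    (chartBar_subset_O N hℓN A hA (Fermat.Agent.Igusa.hSFin N ℓ))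
    (chartBar_subset_O N hℓN A hA (Fermat.Agent.Igusa.hSInf N ℓ))
    (polesAtPoles_chartBarFin N) (polesAtZeros_chartBarInf N)
    (mem_span_fin N hℓN A hA hnF) (mem_span_inf N hℓN A hA hnI)

include hℓN hA in
/-- **(I6) from the normality of the special fibres of the two charts.** -/
theorem genDeliverable_of_normal
    (hnF : IsIntegrallyClosed (↥(chartAlgFin N ℓ) ⊗[ℤℓ] IsLocalRing.ResidueField A))
    (hnI : IsIntegrallyClosed (↥(chartAlgInf N ℓ) ⊗[ℤℓ] IsLocalRing.ResidueField A)) :
    Red.GenDeliverable N A :=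
  genDeliverable_of_charts N hℓN A hA (chartBar N ℓ {jFull N}) (chartBar N ℓ {(jFull N)⁻¹})
    (chartBar_subset_O N hℓN A hA (Fermat.Agent.Igusa.hSFin N ℓ))
    (chartBar_subset_O N hℓN A hA (Fermat.Agent.Igusa.hSInf N ℓ))
    (polesAtPoles_chartBarFin N) (polesAtZeros_chartBarInf N)
    (mem_span_fin N hℓN A hA hnF) (mem_span_inf N hℓN A hA hnI)

end Tensor

end Qbar

end Fermat.Agent.Good.Bridge
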