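/-
L-GEN (Program L, S18), node [G-S28X] item (5): separability inside Laurent series fields.

`k` a perfect field of characteristic `p`, `x ∈ k((q))` nonzero with `q`-order prime to `p`
(e.g. `x = j̄ = q⁻¹ + …`).  Then every element of `k((q))` which is algebraic over `K = k(x)` is
separable over `K`.  No hypothesis on the algebraic element: MacLane's criterion is checked by
comparing `q`-orders modulo `p`.

* `exists_pow_decomp` : `K = ∑_{a<p} K^p x^a`;
* `eq_zero_of_sum_pow_mul_pow_eq_zero` : `∑_{a<p} x^a z_a^p = 0 ⇒ z_a = 0` (orders mod `p`);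
* `linearIndependent_pow_char` : `K`-independent families have `K`-independent `p`-th powers;
* `isSeparable_of_isAlgebraic` : the separability statement for elements of `k((q))`;
* `algebra_isSeparable` : `Algebra.IsSeparable k⟮x⟯ F` for an intermediate field `F ∋ x` of
  `k((q))` algebraic over `k(x)` (inner form, `k⟮x⟯ : IntermediateField k F`).
-/
import Mathlib

set_option autoImplicit false
set_option linter.unusedSectionVars false

open Polynomial

namespace Fermat.Agent.Good.SepLaurent

variable {k : Type*} [Field k] (p : ℕ) [hp : Fact p.Prime] [CharP k p]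

instance charP_laurent : CharP (LaurentSeries k) p :=
  charP_of_injective_algebraMap (algebraMap k (LaurentSeries k)).injective p

/-! ### Splitting polynomials by exponents modulo `p` -/

/-- Over a perfect field of characteristic `p`, every polynomial is `∑_{a<p} X^a h_a^p`. -/
theorem exists_poly_decomp [PerfectField k] (w : k[X]) :
    ∃ h : ℕ → k[X], w = ∑ a ∈ Finset.range p, X ^ a * h a ^ p := by
  induction w using Polynomial.induction_on' with
  | add u v hu hv =>
    obtain ⟨h₁, rfl⟩ := hu
    obtain ⟨h₂, rfl⟩ := hv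
    refine ⟨fun a => h₁ a + h₂ a, ?_⟩
    rw [← Finset.sum_add_distrib]
    refine Finset.sum_congr rfl fun a _ => ?_
    rw [add_pow_char, mul_add]
  | monomial m c =>
    classical
    refine ⟨fun a => if a = m % p then C ((frobeniusEquiv k p).symm c) * X ^ (m / p) else 0, ?_⟩
    rw [Finset.sum_eq_single (m % p)]
    · dsimp only
      rw [if_pos rfl, mul_pow, ← C_pow, frobeniusEquiv_symm_pow_p,
        ← pow_mul, ← C_mul_X_pow_eq_monomial, mul_left_comm, ← pow_add]
      congr 2
      rw [mul_comm]
      exact (Nat.mod_add_div m p).symm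
    · intro a _ ha
      dsimp only
      rw [if_neg ha, zero_pow hp.out.ne_zero, mul_zero]
    · intro h
      exact absurd (Finset.mem_range.mpr (Nat.mod_lt m hp.out.pos)) h

/-! ### `K = ∑_{a<p} K^p x^a` -/

/-- Every element of `K = k(x)` is `∑_{a<p} c_a^p x^a` with `c_a ∈ K`. -/
theorem exists_pow_decomp [PerfectField k] (x : LaurentSeries k)
    (c : LaurentSeries k) (hc : c ∈ IntermediateField.adjoin k ({x} : Set (LaurentSeries k))) :
    ∃ d : ℕ → LaurentSeries k,
      (∀ a, d a ∈ IntermediateField.adjoin k ({x} : Set (LaurentSeries k))) ∧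
      c = ∑ a ∈ Finset.range p, x ^ a * d a ^ p := by
  obtain ⟨r, s, rfl⟩ := (IntermediateField.mem_adjoin_simple_iff k c).mp hc
  have hxK : x ∈ IntermediateField.adjoin k ({x} : Set (LaurentSeries k)) :=
    IntermediateField.mem_adjoin_simple_self k x
  have haeK : ∀ f : k[X], aeval x f ∈ IntermediateField.adjoin k ({x} : Set (LaurentSeries k)) := by
    intro f
    rw [aeval_def, eval₂_eq_sum_range]
    exact sum_mem fun n _ => mul_mem (IntermediateField.algebraMap_mem _ _) (pow_mem hxK n)
  by_cases hs : aeval x s = 0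
  · refine ⟨fun _ => 0, fun _ => zero_mem _, ?_⟩
    rw [hs, div_zero]
    simp [zero_pow hp.out.ne_zero]
  · obtain ⟨h, hh⟩ := exists_poly_decomp p (r * s ^ (p - 1))
    refine ⟨fun a => aeval x (h a) / aeval x s, fun a => div_mem (haeK _) (haeK _), ?_⟩
    have h1 : aeval x r * aeval x s ^ (p - 1) = ∑ a ∈ Finset.range p, x ^ a * aeval x (h a) ^ p := by
      have := congrArg (aeval x) hh
      simpa only [map_mul, map_pow, map_sum, aeval_X] using this
    have hsp : aeval x s ^ p ≠ 0 := pow_ne_zero _ hs
    have h2 : aeval x r / aeval x s = (aeval x r * aeval x s ^ (p - 1)) / aeval x s ^ p := by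
      rw [div_eq_div_iff hs hsp, mul_assoc, ← pow_succ, Nat.sub_add_cancel hp.out.pos]
    rw [h2, h1, Finset.sum_div]
    refine Finset.sum_congr rfl fun a _ => ?_
    rw [div_pow, mul_div_assoc]

/-! ### Orders modulo `p` -/

/-- If `∑_{a<p} x^a z_a^p = 0` in `k((q))` and the `q`-order of `x` is prime to `p`, then all
`z_a` vanish: the nonzero terms have pairwise distinct orders. -/
theorem eq_zero_of_sum_pow_mul_pow_eq_zero (x : LaurentSeries k) (hx : x ≠ 0)
    (hord : ¬ (p : ℤ) ∣ x.order) (z : ℕ → LaurentSeries k)
    (hsum : ∑ a ∈ Finset.range p, x ^ a * z a ^ p = 0) : ∀ a ∈ Finset.range p, z a = 0 := by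
  classical
  by_contra hcon
  have hcon : ∃ a ∈ Finset.range p, z a ≠ 0 := by
    by_contra h
    exact hcon fun a ha => by
      by_contra hza
      exact h ⟨a, ha, hza⟩
  -- the nonzero terms
  set T := (Finset.range p).filter (fun a => z a ≠ 0) with hT
  have hTne : T.Nonempty := by
    obtain ⟨a, ha, hza⟩ := hcon
    exact ⟨a, Finset.mem_filter.mpr ⟨ha, hza⟩⟩
  set t : ℕ → LaurentSeries k := fun a => x ^ a * z a ^ p with ht
  have hord_t : ∀ a, z a ≠ 0 → (t a).order = a • x.order + p • (z a).order := by
    intro a hza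
    rw [ht]
    simp only
    rw [HahnSeries.order_mul (pow_ne_zero _ hx) (pow_ne_zero _ hza), HahnSeries.order_pow,
      HahnSeries.order_pow]
  have htne : ∀ a, z a ≠ 0 → t a ≠ 0 := fun a hza =>
    mul_ne_zero (pow_ne_zero _ hx) (pow_ne_zero _ hza)
  -- orders are pairwise distinct on `T`
  have hinj : ∀ a ∈ T, ∀ b ∈ T, (t a).order = (t b).order → a = b := by
    intro a ha b hb hab
    rw [Finset.mem_filter, Finset.mem_range] at ha hb
    rw [hord_t a ha.2, hord_t b hb.2] at hab
    have hdvd : (p : ℤ) ∣ ((a : ℤ) - b) * x.order := by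
      refine ⟨(z b).order - (z a).order, ?_⟩
      simp only [nsmul_eq_mul] at hab
      linear_combination hab
    have hpz : Prime (p : ℤ) := Nat.prime_iff_prime_int.mp hp.out
    rcases hpz.dvd_or_dvd hdvd with h | h
    · have h1 : ((a : ℤ) - b).natAbs < p := by omega
      have h2 := Int.eq_zero_of_abs_lt_dvd h (by rw [Int.abs_eq_natAbs]; exact_mod_cast h1)
      omega
    · exact absurd h hord
  -- the term of minimal order
  obtain ⟨a₀, ha₀, hmin⟩ := Finset.exists_min_image T (fun a => (t a).order) hTne
  have hza₀ : z a₀ ≠ 0 := (Finset.mem_filter.mp ha₀).2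
  have hcoeff : (∑ a ∈ Finset.range p, t a).coeff (t a₀).order = (t a₀).coeff (t a₀).order := by
    rw [HahnSeries.coeff_sum]
    refine Finset.sum_eq_single a₀ ?_ ?_
    · intro b hb hba
      by_cases hzb : z b = 0
      · simp [ht, hzb, zero_pow hp.out.ne_zero]
      · have hbT : b ∈ T := Finset.mem_filter.mpr ⟨hb, hzb⟩
        have hle := hmin b hbT
        have hne : (t a₀).order ≠ (t b).order := fun h => hba (hinj a₀ ha₀ b hbT h).symm
        exact HahnSeries.coeff_eq_zero_of_lt_order (lt_of_le_of_ne hle hne)
    · intro h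
      exact absurd (Finset.mem_filter.mp ha₀).1 h
  have h0 : (t a₀).coeff (t a₀).order = 0 := by
    rw [← hcoeff]
    show (∑ a ∈ Finset.range p, x ^ a * z a ^ p).coeff _ = 0
    rw [hsum, HahnSeries.coeff_zero]
  exact htne a₀ hza₀ (HahnSeries.coeff_order_eq_zero.mp h0)

/-! ### MacLane's criterion -/

/-- `K`-linearly independent families in `k((q))` have `K`-linearly independent `p`-th powers,
for `K = k(x)`, `k` perfect, `ord_q x` prime to `p`. -/
theorem linearIndependent_pow_char [PerfectField k] (x : LaurentSeries k) (hx : x ≠ 0)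
    (hord : ¬ (p : ℤ) ∣ x.order) {ι : Type*} [Fintype ι] (y : ι → LaurentSeries k)
    (hy : LinearIndependent ↥(IntermediateField.adjoin k ({x} : Set (LaurentSeries k))) y) :
    LinearIndependent ↥(IntermediateField.adjoin k ({x} : Set (LaurentSeries k)))
      (fun i => y i ^ p) := by
  classical
  rw [Fintype.linearIndependent_iff] at hy ⊢
  intro c hc i
  -- decompose the coefficients
  choose d hdK hd using fun i => exists_pow_decomp p x (c i : LaurentSeries k) (c i).2
  -- the relation becomes `∑_a x^a z_a^p = 0`
  have hrel : ∑ a ∈ Finset.range p, x ^ a * (∑ i, d i a * y i) ^ p = 0 := by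
    rw [← hc]
    simp_rw [sum_pow_char, Finset.mul_sum]
    rw [Finset.sum_comm]
    refine Finset.sum_congr rfl fun i _ => ?_
    rw [IntermediateField.smul_def, smul_eq_mul, hd i, Finset.sum_mul]
    refine Finset.sum_congr rfl fun a _ => ?_
    rw [mul_pow]
    ring
  have hz := eq_zero_of_sum_pow_mul_pow_eq_zero p x hx hord (fun a => ∑ i, d i a * y i) hrel
  -- hence all `d i a` vanish
  have hdz : ∀ a ∈ Finset.range p, d i a = 0 := by
    intro a ha
    have h1 := hy (fun i => ⟨d i a, hdK i a⟩) (by
      rw [← hz a ha]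
      exact Finset.sum_congr rfl fun i _ => by rw [IntermediateField.smul_def, smul_eq_mul]) i
    exact congrArg Subtype.val h1
  apply Subtype.ext
  rw [hd i]
  exact Finset.sum_eq_zero fun a ha => by rw [hdz a ha, zero_pow hp.out.ne_zero, mul_zero]

/-- **Separability in `k((q))`.** `k` perfect of characteristic `p`, `x ∈ k((q))` nonzero of
`q`-order prime to `p`: every element of `k((q))` algebraic over `k(x)` is separable over
`k(x)`. -/
theorem isSeparable_of_isAlgebraic [PerfectField k] (x : LaurentSeries k) (hx : x ≠ 0)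
    (hord : ¬ (p : ℤ) ∣ x.order) (y : LaurentSeries k)
    (hy : IsAlgebraic ↥(IntermediateField.adjoin k ({x} : Set (LaurentSeries k))) y) :
    IsSeparable ↥(IntermediateField.adjoin k ({x} : Set (LaurentSeries k))) y := by
  set K := ↥(IntermediateField.adjoin k ({x} : Set (LaurentSeries k))) with hK
  have hint : IsIntegral K y := hy.isIntegral
  have hirr := minpoly.irreducible hint
  have : CharP K p := charP_of_injective_algebraMap (algebraMap k K).injective p
  rcases separable_or p hirr with hsep | ⟨-, g, hg, hgf⟩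
  · exact hsep
  · exfalso
    -- `g (y^p) = 0`
    have hroot : aeval (y ^ p) g = 0 := by
      rw [← expand_aeval, hgf, minpoly.aeval]
    have hdeg : (minpoly K y).natDegree = g.natDegree * p := by
      rw [← hgf, natDegree_expand]
    have hgpos : 0 < g.natDegree := by
      rcases Nat.eq_zero_or_pos g.natDegree with h0 | h0
      · have := minpoly.natDegree_pos hint
        rw [hdeg, h0, zero_mul] at this
        exact absurd this (lt_irrefl 0)
      · exact h0
    have hlt : g.natDegree < (minpoly K y).natDegree := by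
      rw [hdeg]
      have := hp.out.two_le
      nlinarith
    -- the powers `1, y, …, y^(deg g)` are independent
    have hli := linearIndependent_pow (K := K) y
    have hli' : LinearIndependent K (fun t : Fin (g.natDegree + 1) => y ^ (t : ℕ)) := by
      have hle : g.natDegree + 1 ≤ (minpoly K y).natDegree := hlt
      exact hli.comp (Fin.castLE hle) (Fin.castLE_injective hle)
    have hli'' := linearIndependent_pow_char p x hx hord _ hli'
    rw [Fintype.linearIndependent_iff] at hli''
    have hz := hli'' (fun t => g.coeff t) (by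
      rw [aeval_eq_sum_range, Finset.sum_range] at hroot
      rw [← hroot]
      refine Finset.sum_congr rfl fun t _ => ?_
      rw [← pow_mul, ← pow_mul, mul_comm])
    have : g = 0 := by
      refine Polynomial.ext fun n => ?_
      rw [coeff_zero]
      by_cases hn : n < g.natDegree + 1
      · exact hz ⟨n, hn⟩
      · exact coeff_eq_zero_of_natDegree_lt (by omega)
    exact hg.ne_zero this

/-! ### The inner form: intermediate fields of `k((q))` -/

section Bridge

variable {k E : Type*} [Field k] [Field E] [Algebra k E] (F : IntermediateField k E)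
  (x : E) (hxF : x ∈ F)

/-- `k(x)` inside `F` maps onto `k(x)` inside `E`. -/
theorem map_adjoin_val :
    (IntermediateField.adjoin k ({(⟨x, hxF⟩ : F)} : Set F)).map F.val =
      IntermediateField.adjoin k ({x} : Set E) := by
  rw [IntermediateField.adjoin_map, Set.image_singleton]
  rfl

/-- The identification of the two models of `k(x)`. -/
noncomputable def adjoinEquiv :
    ↥(IntermediateField.adjoin k ({(⟨x, hxF⟩ : F)} : Set F)) ≃ₐ[k]
      ↥(IntermediateField.adjoin k ({x} : Set E)) :=
  (IntermediateField.equivMap _ F.val).trans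
    (IntermediateField.equivOfEq (map_adjoin_val F x hxF))

theorem coe_adjoinEquiv (c : ↥(IntermediateField.adjoin k ({(⟨x, hxF⟩ : F)} : Set F))) :
    ((adjoinEquiv F x hxF c : ↥(IntermediateField.adjoin k ({x} : Set E))) : E) =
      ((c : F) : E) := rfl

theorem algebraMap_comp_adjoinEquiv :
    (algebraMap ↥(IntermediateField.adjoin k ({x} : Set E)) E).comp
      (adjoinEquiv F x hxF : ↥(IntermediateField.adjoin k ({(⟨x, hxF⟩ : F)} : Set F)) →+*
        ↥(IntermediateField.adjoin k ({x} : Set E))) =
    (F.val : ↥F →+* E).comp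
      (algebraMap ↥(IntermediateField.adjoin k ({(⟨x, hxF⟩ : F)} : Set F)) ↥F) := by
  ext c
  rfl

/-- evaluation of a polynomial over the inner `k(x)` at `y ∈ F`, seen in `E` -/
theorem coe_aeval_inner (y : F)
    (P : (↥(IntermediateField.adjoin k ({(⟨x, hxF⟩ : F)} : Set F)))[X]) :
    ((aeval y P : F) : E) =
      aeval (y : E) (P.map (adjoinEquiv F x hxF :
        ↥(IntermediateField.adjoin k ({(⟨x, hxF⟩ : F)} : Set F)) →+*
          ↥(IntermediateField.adjoin k ({x} : Set E)))) := by
  rw [aeval_def, aeval_def, eval₂_map, algebraMap_comp_adjoinEquiv]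
  exact (hom_eval₂ P _ (F.val : ↥F →+* E) y)

/-- transfer of algebraicity from the inner model to the outer model -/
theorem isAlgebraic_coe (y : F)
    (h : IsAlgebraic ↥(IntermediateField.adjoin k ({(⟨x, hxF⟩ : F)} : Set F)) y) :
    IsAlgebraic ↥(IntermediateField.adjoin k ({x} : Set E)) (y : E) := by
  obtain ⟨P, hP0, hP⟩ := h
  refine ⟨P.map (adjoinEquiv F x hxF : _ →+* _), ?_, ?_⟩
  · rwa [Ne, Polynomial.map_eq_zero_iff (adjoinEquiv F x hxF).injective]
  · rw [← coe_aeval_inner, hP]
    rfl

/-- transfer of separability from the outer model to the inner model -/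
theorem isSeparable_of_coe (y : F)
    (h : IsSeparable ↥(IntermediateField.adjoin k ({x} : Set E)) (y : E)) :
    IsSeparable ↥(IntermediateField.adjoin k ({(⟨x, hxF⟩ : F)} : Set F)) y := by
  set e := adjoinEquiv F x hxF with he
  set Q := minpoly ↥(IntermediateField.adjoin k ({x} : Set E)) (y : E) with hQ
  have hQsep : Q.Separable := h
  set P := Q.map (e.symm : ↥(IntermediateField.adjoin k ({x} : Set E)) →+*
    ↥(IntermediateField.adjoin k ({(⟨x, hxF⟩ : F)} : Set F))) with hP
  have hPsep : P.Separable := hQsep.map
  have hroot : aeval y P = 0 := by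
    apply Subtype.val_injective
    rw [coe_aeval_inner, hP, Polynomial.map_map]
    have : ((e : ↥(IntermediateField.adjoin k ({(⟨x, hxF⟩ : F)} : Set F)) →+*
        ↥(IntermediateField.adjoin k ({x} : Set E))).comp
        (e.symm : ↥(IntermediateField.adjoin k ({x} : Set E)) →+*
          ↥(IntermediateField.adjoin k ({(⟨x, hxF⟩ : F)} : Set F)))) = RingHom.id _ := by
      ext c
      simp
    rw [this, Polynomial.map_id, hQ, minpoly.aeval]
    rfl
  exact hPsep.of_dvd (minpoly.dvd _ y hroot)

end Bridge

/-- **Separability of subfields of `k((q))` over `k(x)`**, inner form: `F ⊆ k((q))` an intermediate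
field containing `x` (nonzero, of `q`-order prime to `p`), algebraic over `k(x)`; then `F/k(x)` is
separable. -/
theorem algebra_isSeparable [PerfectField k] (F : IntermediateField k (LaurentSeries k))
    (x : LaurentSeries k) (hxF : x ∈ F) (hx : x ≠ 0) (hord : ¬ (p : ℤ) ∣ x.order)
    [Algebra.IsAlgebraic ↥(IntermediateField.adjoin k ({(⟨x, hxF⟩ : F)} : Set F)) ↥F] :
    Algebra.IsSeparable ↥(IntermediateField.adjoin k ({(⟨x, hxF⟩ : F)} : Set F)) ↥F := by
  refine ⟨fun y => ?_⟩
  apply isSeparable_of_coe
  exact isSeparable_of_isAlgebraic p x hx hord (y : LaurentSeries k)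
    (isAlgebraic_coe F x hxF y (Algebra.IsAlgebraic.isAlgebraic y))

end Fermat.Agent.Good.SepLaurent
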