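/-
L-GEN (Program L, S18), node [G-S28X] part 3 (helper27): the special fibre of the finite chart.

`k` a field of characteristic `ℓ ∤ N` (as a `ZMod ℓ`-algebra).  Extension of coefficients of the
reduction map of `q`-expansions, `rhoK : chartAlgFin N ℓ →+* k((q))`, has image inside
`F̃_k = modularFunctionFieldFullC k N`; the images `mK i` of the `ψ(N)` monomials `famFin i`
span `F̃_k` over `k(j̄)` and, when `k` is algebraic over `𝔽_ℓ` or algebraically closed, are linearly
independent over `k(j̄)`.  Hence `[F̃_k : k(j̄)] = ψ(N)` with an explicit basis, and `F̃_k / k(j̄)` is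
separable for perfect `k` (hypothesis-free: `SepLaurent`).
-/
import Mathlib
import Fermat.Agent.Good.IgusaExtract
import Fermat.Agent.Good.SepLaurent
import Fermat.Agent.Val.ModularMonomials
import Fermat.Agent.Val.ModEqAnyField

set_option autoImplicit false
set_option linter.unusedSectionVars false
open ModularCurve ModularCurve.IgusaScheme IntermediateField
open Fermat.Agent.Igusa

noncomputable section
namespace Fermat.Agent.Good.S28X

section AbstractSpan

variable {k E B ι : Type*} [Field k] [Field E] [Algebra k E] [CommRing B] [Finite ι]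

/-- If a ring `ρ(B) ⊆ E` is contained in the `K`-span `V` of finitely many elements (`K ⊆ E` a
subfield over `k`) then the field generated over `k` by any subset of `ρ(B)` is contained in `V`:
`K[ρ(B)]` is a finite-dimensional `K`-algebra, hence a field. -/
theorem adjoin_le_span (K : IntermediateField k E) (S : Set E) (ρ : B →+* E)
    (hS : S ⊆ Set.range ρ) (m : ι → E)
    (hspan : ∀ b : B, ρ b ∈ Submodule.span ↥K (Set.range m))
    {y : E} (hy : y ∈ IntermediateField.adjoin k S) :
    y ∈ Submodule.span ↥K (Set.range m) := by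
  set V := Submodule.span ↥K (Set.range m) with hV
  set W := Algebra.adjoin ↥K (Set.range ρ) with hW
  have hWspan : Subalgebra.toSubmodule W = Submodule.span ↥K (Set.range ρ) := by
    rw [hW, Algebra.adjoin_eq_span]
    congr 1
    have : (Set.range ρ : Set E) = ((MonoidHom.mrange (ρ : B →* E) : Submonoid E) : Set E) := by
      ext z; simp
    rw [this, Submonoid.closure_eq]
  have hWV : Subalgebra.toSubmodule W ≤ V := by
    rw [hWspan, Submodule.span_le]
    rintro _ ⟨b, rfl⟩
    exact hspan b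
  have hVfg : V.FG := Submodule.fg_span (Set.finite_range m)
  have hWfg : (Subalgebra.toSubmodule W).FG := hVfg.of_le hWV
  have hWint : ∀ z ∈ W, IsAlgebraic ↥K z := fun z hz =>
    (IsIntegral.of_mem_of_fg W hWfg z hz).isAlgebraic
  suffices h : y ∈ W from hWV h
  induction hy using IntermediateField.adjoin_induction with
  | mem z hz => exact Algebra.subset_adjoin (hS hz)
  | algebraMap c =>
    have : algebraMap k E c = algebraMap ↥K E (algebraMap k ↥K c) := rfl
    rw [this]
    exact Subalgebra.algebraMap_mem W _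
  | add u v _ _ hu hv => exact W.add_mem hu hv
  | inv u _ hu =>
    exact Subalgebra.inv_mem_of_algebraic (A := W) (x := ⟨u, hu⟩) (hWint u hu)
  | mul u v _ _ hu hv => exact W.mul_mem hu hv

end AbstractSpan

section InnerOuter

variable {k E ι : Type*} [Field k] [Field E] [Algebra k E] [Fintype ι]
  (F : IntermediateField k E) (x : E) (hxF : x ∈ F) (m : ι → E) (hmF : ∀ i, m i ∈ F)

theorem coe_sum_smul_inner (c : ι → ↥(IntermediateField.adjoin k ({(⟨x, hxF⟩ : F)} : Set F))) :
    (((∑ i, c i • (⟨m i, hmF i⟩ : F) : F)) : E) =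
      ∑ i, (SepLaurent.adjoinEquiv F x hxF (c i)) • m i := by
  rw [← F.coe_val, map_sum]
  refine Finset.sum_congr rfl fun i _ => ?_
  rw [IntermediateField.smul_def, IntermediateField.smul_def, smul_eq_mul, smul_eq_mul, map_mul]
  rfl

/-- outer span ⇒ inner span -/
theorem span_inner_eq_top
    (hspan : ∀ y ∈ F, y ∈ Submodule.span ↥(IntermediateField.adjoin k ({x} : Set E))
      (Set.range m)) :
    Submodule.span ↥(IntermediateField.adjoin k ({(⟨x, hxF⟩ : F)} : Set F))
      (Set.range fun i => (⟨m i, hmF i⟩ : F)) = ⊤ := by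
  rw [eq_top_iff]
  rintro y -
  obtain ⟨c, hc⟩ := (Submodule.mem_span_range_iff_exists_fun _).mp (hspan y y.2)
  rw [Submodule.mem_span_range_iff_exists_fun]
  refine ⟨fun i => (SepLaurent.adjoinEquiv F x hxF).symm (c i), Subtype.ext ?_⟩
  rw [coe_sum_smul_inner, ← hc]
  refine Finset.sum_congr rfl fun i _ => ?_
  rw [AlgEquiv.apply_symm_apply]

/-- outer independence ⇒ inner independence -/
theorem linearIndependent_inner
    (hli : LinearIndependent ↥(IntermediateField.adjoin k ({x} : Set E)) m) :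
    LinearIndependent ↥(IntermediateField.adjoin k ({(⟨x, hxF⟩ : F)} : Set F))
      (fun i => (⟨m i, hmF i⟩ : F)) := by
  rw [Fintype.linearIndependent_iff] at hli ⊢
  intro c hc i
  have h : (((∑ i, c i • (⟨m i, hmF i⟩ : F) : F)) : E) = ((0 : F) : E) := congrArg _ hc
  rw [coe_sum_smul_inner, ZeroMemClass.coe_zero] at h
  have h2 := hli (fun i => SepLaurent.adjoinEquiv F x hxF (c i)) h i
  exact (SepLaurent.adjoinEquiv F x hxF).injective (by rw [h2, map_zero])

/-- the inner basis built from outer independence and outer span -/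
def basisInner
    (hli : LinearIndependent ↥(IntermediateField.adjoin k ({x} : Set E)) m)
    (hspan : ∀ y ∈ F, y ∈ Submodule.span ↥(IntermediateField.adjoin k ({x} : Set E))
      (Set.range m)) :
    Module.Basis ι ↥(IntermediateField.adjoin k ({(⟨x, hxF⟩ : F)} : Set F)) ↥F :=
  Module.Basis.mk (linearIndependent_inner F x hxF m hmF hli)
    (span_inner_eq_top F x hxF m hmF hspan).ge

theorem basisInner_apply
    (hli : LinearIndependent ↥(IntermediateField.adjoin k ({x} : Set E)) m)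
    (hspan : ∀ y ∈ F, y ∈ Submodule.span ↥(IntermediateField.adjoin k ({x} : Set E))
      (Set.range m)) (i : ι) :
    basisInner F x hxF m hmF hli hspan i = ⟨m i, hmF i⟩ := by
  rw [basisInner, Module.Basis.mk_apply]

end InnerOuter

variable (N : ℕ) [NeZero N] (ℓ : ℕ) [Fact ℓ.Prime] (k : Type*) [Field k] [Algebra (ZMod ℓ) k]

/-- reduction of `q`-expansions on the finite chart followed by extension of coefficients to `k` -/
def rhoK : ↥(chartAlgFin N ℓ) →+* LaurentSeries k :=
  (coeffMap (algebraMap (ZMod ℓ) k)).comp (chartRes N ℓ (hSFin N ℓ))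

theorem rhoK_apply (x : ↥(chartAlgFin N ℓ)) :
    rhoK N ℓ k x = coeffMap (algebraMap (ZMod ℓ) k) (chartRes N ℓ (hSFin N ℓ) x) := rfl

/-- the outer model of `k(j̄)` -/
abbrev Kout : IntermediateField k (LaurentSeries k) :=
  IntermediateField.adjoin k ({jqModC k} : Set (LaurentSeries k))

/-- extension of coefficients maps `𝔽_ℓ(j̄)` into `k(j̄)` -/
theorem coeffMap_mem_Kout {g : LaurentSeries (ZMod ℓ)} (hg : g ∈ resField ℓ) :
    coeffMap (algebraMap (ZMod ℓ) k) g ∈ Kout k := by
  have hle : resField ℓ ≤ (Kout k).toSubfield.comap (coeffMap (algebraMap (ZMod ℓ) k)) := by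
    rw [resField, Subfield.closure_le]
    intro x hx
    rw [Set.mem_singleton_iff.mp hx]
    show coeffMap (algebraMap (ZMod ℓ) k) (jqModC (ZMod ℓ)) ∈ Kout k
    rw [coeffMap_jqModC]
    exact IntermediateField.mem_adjoin_simple_self k _
  exact hle hg

/-- extension of coefficients maps monomials in the `j̄(q^d)` into `F̃_k` -/
theorem coeffMap_mem_fullC {y : LaurentSeries (ZMod ℓ)}
    (hy : y ∈ Submonoid.closure (jbarGens N ℓ)) :
    coeffMap (algebraMap (ZMod ℓ) k) y ∈ modularFunctionFieldFullC k N := by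
  induction hy using Submonoid.closure_induction with
  | mem x hx =>
    obtain ⟨d, hd, hdN, rfl⟩ := hx
    rw [coeffMap_jqNModC]
    exact jqModCd_mem_full k N hdN
  | one => rw [map_one]; exact one_mem _
  | mul x y _ _ hx hy => rw [map_mul]; exact mul_mem hx hy

theorem Kout_le_fullC : Kout k ≤ modularFunctionFieldFullC k N := by
  rw [IntermediateField.adjoin_le_iff, Set.singleton_subset_iff]
  exact jqModC_mem_full k N

/-- the base-changed monomials -/
def mK (hℓN : ¬ ℓ ∣ N) (i : Fin (dedekindPsi N)) : LaurentSeries k :=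
  rhoK N ℓ k (famFin N ℓ hℓN i)

theorem mK_mem_fullC (hℓN : ¬ ℓ ∣ N) (i : Fin (dedekindPsi N)) :
    mK N ℓ k hℓN i ∈ modularFunctionFieldFullC k N :=
  coeffMap_mem_fullC N ℓ k (famFin_mem N ℓ hℓN i)

/-- **Outer span of the image of the chart.** -/
theorem rhoK_span (hℓN : ¬ ℓ ∣ N) (x : ↥(chartAlgFin N ℓ)) :
    ∃ c : Fin (dedekindPsi N) → LaurentSeries k, (∀ i, c i ∈ Kout k) ∧
      rhoK N ℓ k x = ∑ i, c i * mK N ℓ k hℓN i := by
  obtain ⟨g, hg, hx⟩ := famFin_span N ℓ hℓN x
  refine ⟨fun i => coeffMap (algebraMap (ZMod ℓ) k) (g i),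
    fun i => coeffMap_mem_Kout ℓ k (hg i), ?_⟩
  rw [rhoK_apply, hx, map_sum]
  exact Finset.sum_congr rfl fun i _ => by rw [map_mul]; rfl

theorem rhoK_mem_fullC (hℓN : ¬ ℓ ∣ N) (x : ↥(chartAlgFin N ℓ)) :
    rhoK N ℓ k x ∈ modularFunctionFieldFullC k N := by
  obtain ⟨c, hc, hx⟩ := rhoK_span N ℓ k hℓN x
  rw [hx]
  exact sum_mem fun i _ => mul_mem (Kout_le_fullC N k (hc i)) (mK_mem_fullC N ℓ k hℓN i)

/-- `j(q^d)` in the finite chart -/
def jqdFin (hℓN : ¬ ℓ ∣ N) (d : ℕ) [NeZero d] (hd : d ∣ N) : ↥(chartAlgFin N ℓ) :=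
  ⟨⟨qExpand ℚ d jq, jqd_mem_full N hd⟩, jqd_mem_chartAlgFin N ℓ hℓN d hd⟩

theorem chartRes_jqdFin (hℓN : ¬ ℓ ∣ N) (d : ℕ) [NeZero d] (hd : d ∣ N) :
    chartRes N ℓ (hSFin N ℓ) (jqdFin N ℓ hℓN d hd) = jqNModC (ZMod ℓ) d := by
  obtain ⟨hmem, hres⟩ := gaussRes_jqN ℓ d
  exact hres

theorem rhoK_jqdFin (hℓN : ¬ ℓ ∣ N) (d : ℕ) [NeZero d] (hd : d ∣ N) :
    rhoK N ℓ k (jqdFin N ℓ hℓN d hd) = qExpand k d (jqModC k) := by
  rw [rhoK_apply, chartRes_jqdFin, coeffMap_jqNModC]
  rfl

theorem rhoK_jChartFin : rhoK N ℓ k (jChartFin N ℓ) = jqModC k := by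
  rw [rhoK_apply, chartRes_jFull N ℓ _ _ rfl, coeffMap_jqModC]

/-! ### `F̃_k` is the `k(j̄)`-span of the `ψ(N)` monomials -/

theorem rhoK_mem_spanOut (hℓN : ¬ ℓ ∣ N) (x : ↥(chartAlgFin N ℓ)) :
    rhoK N ℓ k x ∈ Submodule.span ↥(Kout k) (Set.range (mK N ℓ k hℓN)) := by
  obtain ⟨c, hc, hx⟩ := rhoK_span N ℓ k hℓN x
  rw [hx]
  refine Submodule.sum_mem _ fun i _ => ?_
  have : c i * mK N ℓ k hℓN i = (⟨c i, hc i⟩ : ↥(Kout k)) • mK N ℓ k hℓN i := rfl
  rw [this]
  exact Submodule.smul_mem _ _ (Submodule.subset_span (Set.mem_range_self i))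

/-- **Outer span**: every element of `F̃_k` is a `k(j̄)`-combination of the monomials. -/
theorem fullC_le_spanOut (hℓN : ¬ ℓ ∣ N) {y : LaurentSeries k}
    (hy : y ∈ modularFunctionFieldFullC k N) :
    y ∈ Submodule.span ↥(Kout k) (Set.range (mK N ℓ k hℓN)) := by
  refine adjoin_le_span (Kout k) (divisorExpansionsC k N) (rhoK N ℓ k) ?_ (mK N ℓ k hℓN)
    (rhoK_mem_spanOut N ℓ k hℓN) hy
  rintro _ ⟨d, hd, hdN, rfl⟩
  exact ⟨jqdFin N ℓ hℓN d hdN, rhoK_jqdFin N ℓ k hℓN d hdN⟩

omit [Fact ℓ.Prime] [Algebra (ZMod ℓ) k] in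
theorem closure_jqNModC_le_fullC {z : LaurentSeries k}
    (hz : z ∈ Submonoid.closure
      {x : LaurentSeries k | ∃ d : ℕ, ∃ _ : NeZero d, d ∣ N ∧ x = jqNModC k d}) :
    z ∈ modularFunctionFieldFullC k N := by
  induction hz using Submonoid.closure_induction with
  | mem z hz =>
    obtain ⟨d, hd, hdN, rfl⟩ := hz
    exact jqModCd_mem_full k N hdN
  | one => exact one_mem _
  | mul u v _ _ hu hv => exact mul_mem hu hv

/-- The hypothesis under which the monomials are independent: *some* family of `ψ(N)` monomials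
is linearly independent over `k(j̄)` (the S28 tower bound transferred to `k`). -/
def HasIndepMonomials : Prop :=
  ∃ m : Fin (dedekindPsi N) → LaurentSeries k,
    (∀ i, m i ∈ Submonoid.closure
      {x : LaurentSeries k | ∃ d : ℕ, ∃ _ : NeZero d, d ∣ N ∧ x = jqNModC k d}) ∧
    LinearIndependent ↥(Kout k) m

omit [Algebra (ZMod ℓ) k] in
theorem hasIndepMonomials_of_isAlgebraic (hℓN : ¬ ℓ ∣ N) [Algebra (ZMod ℓ) k]
    [Algebra.IsAlgebraic (ZMod ℓ) k] : HasIndepMonomials N k :=
  Fermat.Agent.Val.exists_monomials_linearIndependent N ℓ hℓN k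

omit [Algebra (ZMod ℓ) k] in
theorem hasIndepMonomials_of_isAlgClosed (hℓN : ¬ ℓ ∣ N) [IsAlgClosed k] [CharP k ℓ] :
    HasIndepMonomials N k := by
  have hdata := Fermat.Agent.Val.exists_modEqData_of_isAlgClosed (N := N) (Fact.out : ℓ.Prime)
    hℓN k
  have hdata' : ∀ p (hp : p.Prime), p ∣ N →
      ∃ (ζ : kˣ) (pinv : k), Nonempty (@ModEqData k _ p ⟨hp.ne_zero⟩ ζ pinv) := by
    intro p hp hpN
    obtain ⟨ζ, pinv, -, hd⟩ := hdata p hp hpN
    exact ⟨ζ, pinv, hd⟩
  have := finiteDimensional_towerField hdata'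
  exact Fermat.Agent.Val.exists_monomials_of_tower_field N k k (tower_le_finrank hdata')

/-- **Outer independence**: the base-changed monomials `mK i` are linearly independent over
`k(j̄)`. -/
theorem mK_linearIndependent (hℓN : ¬ ℓ ∣ N) (hmono : HasIndepMonomials N k) :
    LinearIndependent ↥(Kout k) (mK N ℓ k hℓN) := by
  classical
  obtain ⟨m', hm', hli'⟩ := hmono
  set V := Submodule.span ↥(Kout k) (Set.range (mK N ℓ k hℓN)) with hV
  have hm'V : ∀ i, m' i ∈ V := fun i =>
    fullC_le_spanOut N ℓ k hℓN (closure_jqNModC_le_fullC N k (hm' i))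
  have hliV : LinearIndependent ↥(Kout k) (fun i => (⟨m' i, hm'V i⟩ : V)) := by
    refine LinearIndependent.of_comp V.subtype ?_
    exact hli'
  have : Module.Finite ↥(Kout k) V := Module.Finite.span_of_finite _ (Set.finite_range _)
  have h1 : dedekindPsi N ≤ Module.finrank ↥(Kout k) V := by
    have := hliV.fintype_card_le_finrank
    rwa [Fintype.card_fin] at this
  have h2 : Module.finrank ↥(Kout k) V ≤ dedekindPsi N := by
    have := finrank_range_le_card (R := ↥(Kout k)) (mK N ℓ k hℓN)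
    rwa [Fintype.card_fin] at this
  have hcard : Fintype.card (Fin (dedekindPsi N)) = Module.finrank ↥(Kout k) V := by
    rw [Fintype.card_fin]; omega
  have hmV : ∀ i, mK N ℓ k hℓN i ∈ V := fun i => Submodule.subset_span (Set.mem_range_self i)
  have hspanV : ⊤ ≤ Submodule.span ↥(Kout k)
      (Set.range fun i => (⟨mK N ℓ k hℓN i, hmV i⟩ : V)) := by
    rintro ⟨v, hv⟩ -
    have : Submodule.map V.subtype (Submodule.span ↥(Kout k)
        (Set.range fun i => (⟨mK N ℓ k hℓN i, hmV i⟩ : V))) = V := by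
      rw [Submodule.map_span, ← Set.range_comp]
      rfl
    have hv' : v ∈ Submodule.map V.subtype (Submodule.span ↥(Kout k)
        (Set.range fun i => (⟨mK N ℓ k hℓN i, hmV i⟩ : V))) := by rw [this]; exact hv
    obtain ⟨w, hw, hwv⟩ := hv'
    have : w = ⟨v, hv⟩ := Subtype.ext hwv
    rwa [← this]
  have hliK := linearIndependent_of_top_le_span_of_card_eq_finrank hspanV hcard
  exact hliK.map' V.subtype (Submodule.ker_subtype V)

/-! ### Inner statements on `F̃_k = modularFunctionFieldFullC k N` -/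

omit [Fact ℓ.Prime] [Algebra (ZMod ℓ) k] in
theorem order_jqModC' : (jqModC k).order = -1 := by
  rw [← J_one_one, order_J]
  simp

/-- `j̄` as an element of `F̃_k` (definitionally `Val.jFullC k N`). -/
abbrev jT : ↥(modularFunctionFieldFullC k N) := ⟨jqModC k, jqModC_mem_full k N⟩

/-- the inner `k(j̄) ⊆ F̃_k` -/
abbrev KT : IntermediateField k ↥(modularFunctionFieldFullC k N) :=
  IntermediateField.adjoin k ({jT N k} : Set ↥(modularFunctionFieldFullC k N))

/-- the reduction map into `F̃_k` -/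
def rhoT (hℓN : ¬ ℓ ∣ N) : ↥(chartAlgFin N ℓ) →+* ↥(modularFunctionFieldFullC k N) :=
  (rhoK N ℓ k).codRestrict (modularFunctionFieldFullC k N).toSubfield
    (fun x => rhoK_mem_fullC N ℓ k hℓN x)

theorem coe_rhoT (hℓN : ¬ ℓ ∣ N) (x : ↥(chartAlgFin N ℓ)) :
    ((rhoT N ℓ k hℓN x : ↥(modularFunctionFieldFullC k N)) : LaurentSeries k) = rhoK N ℓ k x := rfl

theorem rhoT_jChartFin (hℓN : ¬ ℓ ∣ N) : rhoT N ℓ k hℓN (jChartFin N ℓ) = jT N k :=
  Subtype.ext (rhoK_jChartFin N ℓ k)

set_option synthInstance.maxHeartbeats 400000 in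
/-- **The explicit basis** of `F̃_k` over `k(j̄)`: the reductions of the `ψ(N)` monomials. -/
def basisFullC (hℓN : ¬ ℓ ∣ N) (hmono : HasIndepMonomials N k) :
    Module.Basis (Fin (dedekindPsi N)) ↥(KT N k) ↥(modularFunctionFieldFullC k N) :=
  basisInner (modularFunctionFieldFullC k N) (jqModC k) (jqModC_mem_full k N) (mK N ℓ k hℓN)
    (mK_mem_fullC N ℓ k hℓN) (mK_linearIndependent N ℓ k hℓN hmono)
    (fun _ hy => fullC_le_spanOut N ℓ k hℓN hy)

set_option synthInstance.maxHeartbeats 400000 in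
theorem basisFullC_apply (hℓN : ¬ ℓ ∣ N) (hmono : HasIndepMonomials N k)
    (i : Fin (dedekindPsi N)) :
    basisFullC N ℓ k hℓN hmono i = rhoT N ℓ k hℓN (famFin N ℓ hℓN i) := by
  rw [basisFullC, basisInner_apply]
  rfl

set_option synthInstance.maxHeartbeats 400000 in
/-- **`[F̃_k : k(j̄)] = ψ(N)`.** -/
theorem finrank_fullC (hℓN : ¬ ℓ ∣ N) (hmono : HasIndepMonomials N k) :
    Module.finrank ↥(KT N k) ↥(modularFunctionFieldFullC k N) = dedekindPsi N := by
  rw [Module.finrank_eq_card_basis (basisFullC N ℓ k hℓN hmono), Fintype.card_fin]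

set_option synthInstance.maxHeartbeats 400000 in
theorem finite_fullC (hℓN : ¬ ℓ ∣ N) (hmono : HasIndepMonomials N k) :
    Module.Finite ↥(KT N k) ↥(modularFunctionFieldFullC k N) :=
  Module.Finite.of_basis (basisFullC N ℓ k hℓN hmono)

set_option synthInstance.maxHeartbeats 400000 in
/-- **Separability of `F̃_k / k(j̄)`** for perfect `k` (no modular-equation data needed). -/
theorem isSeparable_fullC (hℓN : ¬ ℓ ∣ N) (hmono : HasIndepMonomials N k) [PerfectField k]
    [CharP k ℓ] :
    Algebra.IsSeparable ↥(KT N k) ↥(modularFunctionFieldFullC k N) := by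
  have hfin := finite_fullC N ℓ k hℓN hmono
  have : Algebra.IsAlgebraic ↥(KT N k) ↥(modularFunctionFieldFullC k N) :=
    Algebra.IsAlgebraic.of_finite _ _
  refine SepLaurent.algebra_isSeparable ℓ (modularFunctionFieldFullC k N) (jqModC k)
    (jqModC_mem_full k N) (jqModC_ne_zero_of_nontrivial k) ?_
  rw [order_jqModC']
  intro h
  have h1 : (ℓ : ℤ) ∣ 1 := by simpa using h
  have h2 : ℓ ∣ 1 := by exact_mod_cast h1
  exact (Fact.out : ℓ.Prime).one_lt.ne' (Nat.dvd_one.mp h2)

end Fermat.Agent.Good.S28X
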