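/-
L-GEN (Program L, S18), node [G-S28X] part 4 (helper27): the special fibre of the finite chart
as a tensor product.  `K` a field of characteristic `ℓ ∤ N` with `[Algebra ℤ_(ℓ) K]`:

* `tauFin : chartAlgFin N ℓ ⊗[ℤ_(ℓ)] K →+* F̃_K` : the comparison map `b ⊗ c ↦ c • ρ(b)`, injective;
* `finrank_tensor_fin` : (RK) `Module.finrank K[X] (chartAlgFin N ℓ ⊗[ℤ_(ℓ)] K) = ψ(N)` for every
  `K[X]`-algebra structure sending `X ↦ j ⊗ 1` and constants `c ↦ 1 ⊗ c`.
-/
import Mathlib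
import Fermat.Agent.Good.IgusaSpecial

set_option autoImplicit false
set_option linter.unusedSectionVars false
open ModularCurve ModularCurve.IgusaScheme IntermediateField Polynomial TensorProduct
open Fermat.Agent.Igusa

noncomputable section
namespace Fermat.Agent.Good.S28X

section GenericRank

variable {k F T : Type*} [Field k] [Field F] [Algebra k F] [CommRing T] [Algebra k[X] T]

/-- `k[X] → k(x)` for transcendental `x` is a fraction ring -/
theorem isFractionRing_adjoin_simple (x : F) (hx : Transcendental k x) :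
    letI : Algebra k[X] ↥k⟮x⟯ := (aeval (AdjoinSimple.gen k x)).toRingHom.toAlgebra
    IsFractionRing k[X] ↥k⟮x⟯ := by
  let _ : Algebra k[X] ↥k⟮x⟯ := (aeval (AdjoinSimple.gen k x)).toRingHom.toAlgebra
  have hcoe : ∀ p : k[X], ((algebraMap k[X] ↥k⟮x⟯ p : ↥k⟮x⟯) : F) = aeval x p := by
    intro p
    show ((aeval (AdjoinSimple.gen k x) p : ↥k⟮x⟯) : F) = aeval x p
    rw [← AdjoinSimple.algebraMap_gen k x, Polynomial.aeval_algebraMap_apply]
    rfl
  have hinj : Function.Injective (algebraMap k[X] ↥k⟮x⟯) := by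
    intro p q hpq
    have h := congrArg (fun z : ↥k⟮x⟯ => (z : F)) hpq
    simp only [hcoe] at h
    exact (transcendental_iff_injective.mp hx) h
  have : FaithfulSMul k[X] ↥k⟮x⟯ := (faithfulSMul_iff_algebraMap_injective _ _).mpr hinj
  refine IsFractionRing.of_field _ _ fun z => ?_
  obtain ⟨r, s, hrs⟩ := (mem_adjoin_simple_iff k z.1).mp z.2
  refine ⟨r, s, Subtype.ext ?_⟩
  rw [hrs]
  push_cast
  rw [hcoe, hcoe]

/-- **Rank of a `k[X]`-algebra embedded in a finite extension of `k(x)`**: if `T ↪ F` over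
`k[X] → k(x) ⊆ F` and `T` contains `[F : k(x)]` elements independent over `k(x)`, then
`finrank k[X] T = [F : k(x)]`. -/
theorem finrank_poly_eq_of_injective (x : F) (hx : Transcendental k x) (τ : T →+* F)
    (hτ : Function.Injective τ) (hτa : ∀ p : k[X], τ (algebraMap k[X] T p) = aeval x p)
    {n : ℕ} (v : Fin n → T) (hv : LinearIndependent ↥k⟮x⟯ (fun i => τ (v i)))
    [Module.Finite ↥k⟮x⟯ F] (hn : Module.finrank ↥k⟮x⟯ F = n) :
    Module.finrank k[X] T = n := by
  classical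
  let _ : Algebra k[X] ↥k⟮x⟯ := (aeval (AdjoinSimple.gen k x)).toRingHom.toAlgebra
  let _ : Algebra k[X] F := (aeval x).toRingHom.toAlgebra
  have hfr : IsFractionRing k[X] ↥k⟮x⟯ := isFractionRing_adjoin_simple x hx
  have hst : IsScalarTower k[X] ↥k⟮x⟯ F := IsScalarTower.of_algebraMap_eq fun p => by
    show aeval x p = ((aeval (AdjoinSimple.gen k x) p : ↥k⟮x⟯) : F)
    rw [← AdjoinSimple.algebraMap_gen k x, Polynomial.aeval_algebraMap_apply]
    rfl
  let τl : T →ₗ[k[X]] F :=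
    { toFun := τ
      map_add' := map_add τ
      map_smul' := fun p t => by
        show τ (p • t) = aeval x p * τ t
        rw [Algebra.smul_def, map_mul, hτa] }
  have hτl : Function.Injective τl := hτ
  -- lower bound
  have hlow : (n : Cardinal) ≤ Module.rank k[X] T := by
    have h1 : LinearIndependent k[X] (fun i => τ (v i)) :=
      (LinearIndependent.iff_fractionRing k[X] ↥k⟮x⟯).mpr hv
    have h2 : LinearIndependent k[X] v := LinearIndependent.of_comp τl h1
    have := h2.cardinal_lift_le_rank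
    simpa using this
  -- upper bound
  have hup : Module.rank k[X] T ≤ (n : Cardinal) := by
    refine rank_le fun s hs => ?_
    have h1 : LinearIndependent k[X] (fun i : s => τl (i : T)) :=
      hs.map' τl (LinearMap.ker_eq_bot.mpr hτl)
    have h2 : LinearIndependent ↥k⟮x⟯ (fun i : s => τl (i : T)) :=
      (LinearIndependent.iff_fractionRing k[X] ↥k⟮x⟯).mp h1
    have := h2.fintype_card_le_finrank
    rw [hn] at this
    simpa using this
  exact Module.finrank_eq_of_rank_eq (le_antisymm hup hlow)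

end GenericRank

section Tensor

variable (N : ℕ) [NeZero N] (ℓ : ℕ) [Fact ℓ.Prime]

set_option quotPrecheck false in
local notation "ℤℓ" => ↥(GaloisRep.ratLocalizedAt ℓ)

variable (K : Type*) [Field K] [CharP K ℓ] [Algebra ↥(GaloisRep.ratLocalizedAt ℓ) K]

/-- the comparison map of the special fibre, outer form: `b ⊗ c ↦ ρ_K(b) * c`. -/
def tauOut (hℓN : ¬ ℓ ∣ N) : ↥(chartAlgFin N ℓ) ⊗[ℤℓ] K →+* LaurentSeries K :=
  letI : Algebra ℤℓ (ZMod ℓ) := (zlResidue ℓ).toAlgebra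
  letI : Algebra (ZMod ℓ) K := ZMod.algebra K ℓ
  haveI : IsScalarTower ℤℓ (ZMod ℓ) K :=
    IsScalarTower.of_algebraMap_eq fun r =>
      congrFun (congrArg DFunLike.coe (zl_algebraMap_eq ℓ K)) r
  ((LaurentCopy.of K).symm : LaurentCopy K →+* LaurentSeries K).comp
    (tensorToLaurent K (redDataFin N ℓ hℓN).ρ (redDataFin N ℓ hℓN).map_algebraMap).toRingHom

theorem tauOut_tmul (hℓN : ¬ ℓ ∣ N) (x : ↥(chartAlgFin N ℓ)) (c : K) :
    tauOut N ℓ K hℓN (x ⊗ₜ c) =
      @rhoK N _ ℓ _ K _ (ZMod.algebra K ℓ) x * HahnSeries.C c := by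
  letI : Algebra ℤℓ (ZMod ℓ) := (zlResidue ℓ).toAlgebra
  letI : Algebra (ZMod ℓ) K := ZMod.algebra K ℓ
  haveI : IsScalarTower ℤℓ (ZMod ℓ) K :=
    IsScalarTower.of_algebraMap_eq fun r =>
      congrFun (congrArg DFunLike.coe (zl_algebraMap_eq ℓ K)) r
  show (LaurentCopy.of K).symm (tensorToLaurent K (redDataFin N ℓ hℓN).ρ
    (redDataFin N ℓ hℓN).map_algebraMap (x ⊗ₜ c)) = _
  rw [tensorToLaurent_tmul, RingEquiv.symm_apply_apply]
  rfl

theorem tauOut_injective (hℓN : ¬ ℓ ∣ N) : Function.Injective (tauOut N ℓ K hℓN) := by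
  letI : Algebra ℤℓ (ZMod ℓ) := (zlResidue ℓ).toAlgebra
  letI : Algebra (ZMod ℓ) K := ZMod.algebra K ℓ
  haveI : IsScalarTower ℤℓ (ZMod ℓ) K :=
    IsScalarTower.of_algebraMap_eq fun r =>
      congrFun (congrArg DFunLike.coe (zl_algebraMap_eq ℓ K)) r
  have h := tensorToLaurent_injective (K := K) (k := ZMod ℓ) (zlResidue_surjective ℓ)
    (redDataFin N ℓ hℓN).ρ (redDataFin N ℓ hℓN).map_algebraMap (by
      intro x hx
      obtain ⟨y, rfl⟩ := (redDataFin N ℓ hℓN).ker_le x hx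
      refine Ideal.mul_mem_right _ _ (Ideal.mem_map_of_mem _ ?_)
      show zlPrime ℓ ∈ RingHom.ker (zlResidue ℓ)
      rw [RingHom.mem_ker]
      exact zlResidue_zlPrime ℓ)
  exact (LaurentCopy.of K).symm.injective.comp h

theorem tauOut_mem_fullC (hℓN : ¬ ℓ ∣ N) (z : ↥(chartAlgFin N ℓ) ⊗[ℤℓ] K) :
    tauOut N ℓ K hℓN z ∈ modularFunctionFieldFullC K N := by
  induction z using TensorProduct.induction_on with
  | zero => rw [RingHom.map_zero]; exact zero_mem _
  | tmul x c =>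
    rw [tauOut_tmul]
    have hC : (HahnSeries.C c : LaurentSeries K) = algebraMap K (LaurentSeries K) c := by
      rw [algebraMap_laurentSeries_eq_single, HahnSeries.C_apply]
    rw [hC]
    exact mul_mem (@rhoK_mem_fullC N _ ℓ _ K _ (ZMod.algebra K ℓ) hℓN x)
      ((modularFunctionFieldFullC K N).algebraMap_mem c)
  | add z w hz hw => rw [RingHom.map_add]; exact add_mem hz hw

/-- **The comparison map of the special fibre**
`chartAlgFin N ℓ ⊗[ℤ_(ℓ)] K →+* F̃_K`, `b ⊗ c ↦ c • ρ(b)`. -/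
def tauFin (hℓN : ¬ ℓ ∣ N) :
    ↥(chartAlgFin N ℓ) ⊗[ℤℓ] K →+* ↥(modularFunctionFieldFullC K N) :=
  (tauOut N ℓ K hℓN).codRestrict (modularFunctionFieldFullC K N).toSubfield
    (fun z => tauOut_mem_fullC N ℓ K hℓN z)

theorem coe_tauFin (hℓN : ¬ ℓ ∣ N) (z : ↥(chartAlgFin N ℓ) ⊗[ℤℓ] K) :
    ((tauFin N ℓ K hℓN z : ↥(modularFunctionFieldFullC K N)) : LaurentSeries K) =
      tauOut N ℓ K hℓN z := rfl

theorem tauFin_injective (hℓN : ¬ ℓ ∣ N) : Function.Injective (tauFin N ℓ K hℓN) := by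
  intro z w h
  apply tauOut_injective N ℓ K hℓN
  rw [← coe_tauFin, ← coe_tauFin, h]

theorem tauFin_tmul (hℓN : ¬ ℓ ∣ N) (x : ↥(chartAlgFin N ℓ)) (c : K) :
    tauFin N ℓ K hℓN (x ⊗ₜ c) =
      c • @rhoT N _ ℓ _ K _ (ZMod.algebra K ℓ) hℓN x := by
  apply Subtype.ext
  rw [coe_tauFin, tauOut_tmul, mul_comm, IntermediateField.coe_smul, Algebra.smul_def]
  have hC : (HahnSeries.C c : LaurentSeries K) = algebraMap K (LaurentSeries K) c := by
    rw [algebraMap_laurentSeries_eq_single, HahnSeries.C_apply]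
  rw [hC]
  rfl

theorem tauFin_tmul_one (hℓN : ¬ ℓ ∣ N) (x : ↥(chartAlgFin N ℓ)) :
    tauFin N ℓ K hℓN (x ⊗ₜ 1) = @rhoT N _ ℓ _ K _ (ZMod.algebra K ℓ) hℓN x := by
  rw [tauFin_tmul, one_smul]

theorem tauFin_one_tmul (hℓN : ¬ ℓ ∣ N) (c : K) :
    tauFin N ℓ K hℓN (1 ⊗ₜ c) = algebraMap K ↥(modularFunctionFieldFullC K N) c := by
  rw [tauFin_tmul, map_one, Algebra.smul_def, mul_one]

theorem tauFin_j (hℓN : ¬ ℓ ∣ N) :
    tauFin N ℓ K hℓN (jChartFin N ℓ ⊗ₜ 1) = jT N K := by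
  rw [tauFin_tmul_one]
  exact @rhoT_jChartFin N _ ℓ _ K _ (ZMod.algebra K ℓ) hℓN

theorem transcendental_jT : Transcendental K (jT N K) := by
  intro h
  have h1 : IsAlgebraic K ((modularFunctionFieldFullC K N).val (jT N K)) :=
    h.algHom (modularFunctionFieldFullC K N).val
  exact ChartBaseAux.transcendental_jqModC K h1

set_option synthInstance.maxHeartbeats 400000 in
/-- **(RK)**: the special fibre of the finite chart has rank `ψ(N)` over `K[j]`, for every
`K[X]`-algebra structure on the tensor product with `X ↦ j ⊗ 1`, `c ↦ 1 ⊗ c`. -/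
theorem finrank_tensor_fin (hℓN : ¬ ℓ ∣ N) (hmono : HasIndepMonomials N K)
    [Algebra K[X] (↥(chartAlgFin N ℓ) ⊗[ℤℓ] K)]
    (halg : ∀ p : K[X], algebraMap K[X] (↥(chartAlgFin N ℓ) ⊗[ℤℓ] K) p =
      p.eval₂ (Algebra.TensorProduct.includeRight :
        K →ₐ[ℤℓ] ↥(chartAlgFin N ℓ) ⊗[ℤℓ] K).toRingHom (jChartFin N ℓ ⊗ₜ 1)) :
    Module.finrank K[X] (↥(chartAlgFin N ℓ) ⊗[ℤℓ] K) = dedekindPsi N := by
  letI : Algebra (ZMod ℓ) K := ZMod.algebra K ℓ
  have hfin := finite_fullC N ℓ K hℓN hmono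
  refine finrank_poly_eq_of_injective (jT N K) (transcendental_jT N K) (tauFin N ℓ K hℓN)
    (tauFin_injective N ℓ K hℓN) ?_ (fun i => famFin N ℓ hℓN i ⊗ₜ[ℤℓ] (1 : K)) ?_
    (finrank_fullC N ℓ K hℓN hmono)
  · intro p
    rw [halg, Polynomial.hom_eval₂, tauFin_j, Polynomial.aeval_def]
    congr 1
    exact RingHom.ext fun c => tauFin_one_tmul N ℓ K hℓN c
  · have h := (basisFullC N ℓ K hℓN hmono).linearIndependent
    convert h using 1
    ext i
    rw [tauFin_tmul_one, basisFullC_apply]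

end Tensor

end Fermat.Agent.Good.S28X
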