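import Mathlib
import Fermat.Agent.Good.IgusaTensor

/-!
# L-GEN [G-BR]: the special fibre of the chart at infinity as a tensor product

`K` a field of characteristic `ℓ ∤ N` with `[Algebra ℤ_(ℓ) K]`:

* `rhoKInf`, `rhoTInf : chartAlgInf N ℓ →+* F̃_K` : reduction of `q`-expansions on the chart at
  infinity followed by extension of coefficients;
* `tauInf : chartAlgInf N ℓ ⊗[ℤ_(ℓ)] K →+* F̃_K` : the comparison map `b ⊗ c ↦ c • ρ(b)`, injective,
  `tauInf (j⁻¹ ⊗ 1) = (j̄)⁻¹`.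
-/

set_option autoImplicit false
set_option linter.unusedSectionVars false
set_option linter.style.haveILetI false
open ModularCurve ModularCurve.IgusaScheme IntermediateField Polynomial TensorProduct
open Fermat.Agent.Igusa

noncomputable section
namespace Fermat.Agent.Good.S28X

section RhoInf

variable (N : ℕ) [NeZero N] (ℓ : ℕ) [Fact ℓ.Prime] (k : Type*) [Field k] [Algebra (ZMod ℓ) k]

set_option quotPrecheck false in
local notation "F" => ↥(modularFunctionFieldFull N)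

/-- reduction of `q`-expansions on the chart at infinity followed by extension of coefficients -/
def rhoKInf : ↥(chartAlgInf N ℓ) →+* LaurentSeries k :=
  (coeffMap (algebraMap (ZMod ℓ) k)).comp (chartRes N ℓ (hSInf N ℓ))

theorem rhoKInf_apply (x : ↥(chartAlgInf N ℓ)) :
    rhoKInf N ℓ k x = coeffMap (algebraMap (ZMod ℓ) k) (chartRes N ℓ (hSInf N ℓ) x) := rfl

theorem rhoKInf_jInvChartInf : rhoKInf N ℓ k (jInvChartInf N ℓ) = (jqModC k)⁻¹ := by
  rw [rhoKInf_apply, chartRes_jFull_inv N ℓ _ _ rfl, map_inv₀, coeffMap_jqModC]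

/-- an element of the chart at infinity is `j^{-n}` times an element of the finite chart, and the
reductions correspond -/
theorem exists_rhoKInf_eq (x : ↥(chartAlgInf N ℓ)) :
    ∃ (n : ℕ) (y : ↥(chartAlgFin N ℓ)), rhoKInf N ℓ k x = (jqModC k)⁻¹ ^ n * rhoK N ℓ k y := by
  have hz : ((x : ↥(chartAlgInf N ℓ)) : F) ∈ chartAlg N ℓ (insert (jFull N)⁻¹ {jFull N}) := by
    rw [show insert (jFull N)⁻¹ ({jFull N} : Set F) = {jFull N, (jFull N)⁻¹}
      from Set.pair_comm _ _]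
    exact chartAlg_mono N ℓ (sInf_subset N) x.2
  obtain ⟨n, hn⟩ := exists_pow_mul_mem_chartAlg (Set.mem_singleton _) (jFull_ne_zero N) hz
  refine ⟨n, ⟨(jFull N) ^ n * (x : F), hn⟩, ?_⟩
  -- compare in the middle chart
  have hmid : inclFin N ℓ ⟨(jFull N) ^ n * (x : F), hn⟩ =
      inclFin N ℓ (jChartFin N ℓ) ^ n * inclInf N ℓ x := Subtype.ext (by
    simp only [coe_chartIncl, Subalgebra.coe_mul, Subalgebra.coe_pow, coe_jChartFin])
  have h1 : chartRes N ℓ (hSFin N ℓ) ⟨(jFull N) ^ n * (x : F), hn⟩ =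
      jqModC (ZMod ℓ) ^ n * chartRes N ℓ (hSInf N ℓ) x := by
    rw [chartRes_congr N ℓ (hSFin N ℓ) (hSMid N ℓ) _ (inclFin N ℓ ⟨(jFull N) ^ n * (x : F), hn⟩) rfl,
      hmid, RingHom.map_mul, RingHom.map_pow,
      chartRes_jFull N ℓ (hSMid N ℓ) (inclFin N ℓ (jChartFin N ℓ)) rfl,
      chartRes_congr N ℓ (hSMid N ℓ) (hSInf N ℓ) (inclInf N ℓ x) x rfl]
  have hj0 : jqModC k ≠ 0 := jqModC_ne_zero_of_nontrivial k
  rw [rhoK_apply, h1, map_mul, map_pow, coeffMap_jqModC, ← rhoKInf_apply, inv_pow, ← mul_assoc,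
    inv_mul_cancel₀ (pow_ne_zero n hj0), one_mul]

theorem rhoKInf_mem_fullC (hℓN : ¬ ℓ ∣ N) (x : ↥(chartAlgInf N ℓ)) :
    rhoKInf N ℓ k x ∈ modularFunctionFieldFullC k N := by
  obtain ⟨n, y, h⟩ := exists_rhoKInf_eq N ℓ k x
  rw [h]
  exact mul_mem (pow_mem (inv_mem (jqModC_mem_full k N)) n) (rhoK_mem_fullC N ℓ k hℓN y)

/-- the reduction map of the chart at infinity into `F̃_k` -/
def rhoTInf (hℓN : ¬ ℓ ∣ N) : ↥(chartAlgInf N ℓ) →+* ↥(modularFunctionFieldFullC k N) :=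
  (rhoKInf N ℓ k).codRestrict (modularFunctionFieldFullC k N).toSubfield
    (fun x => rhoKInf_mem_fullC N ℓ k hℓN x)

theorem coe_rhoTInf (hℓN : ¬ ℓ ∣ N) (x : ↥(chartAlgInf N ℓ)) :
    ((rhoTInf N ℓ k hℓN x : ↥(modularFunctionFieldFullC k N)) : LaurentSeries k) =
      rhoKInf N ℓ k x := rfl

theorem rhoTInf_jInvChartInf (hℓN : ¬ ℓ ∣ N) :
    rhoTInf N ℓ k hℓN (jInvChartInf N ℓ) = (jT N k)⁻¹ :=
  Subtype.ext (by
    rw [coe_rhoTInf, rhoKInf_jInvChartInf]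
    rfl)

end RhoInf


section TensorInf

variable (N : ℕ) [NeZero N] (ℓ : ℕ) [Fact ℓ.Prime]

set_option quotPrecheck false in
local notation "ℤℓ" => ↥(GaloisRep.ratLocalizedAt ℓ)

variable (K : Type*) [Field K] [CharP K ℓ] [Algebra ↥(GaloisRep.ratLocalizedAt ℓ) K]

/-- the comparison map of the special fibre at infinity, outer form: `b ⊗ c ↦ ρ_K(b) * c`. -/
def tauOutInf (hℓN : ¬ ℓ ∣ N) : ↥(chartAlgInf N ℓ) ⊗[ℤℓ] K →+* LaurentSeries K :=
  letI : Algebra ℤℓ (ZMod ℓ) := (zlResidue ℓ).toAlgebra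
  letI : Algebra (ZMod ℓ) K := ZMod.algebra K ℓ
  haveI : IsScalarTower ℤℓ (ZMod ℓ) K :=
    IsScalarTower.of_algebraMap_eq fun r =>
      congrFun (congrArg DFunLike.coe (zl_algebraMap_eq ℓ K)) r
  ((LaurentCopy.of K).symm : LaurentCopy K →+* LaurentSeries K).comp
    (tensorToLaurent K (redDataInf N ℓ hℓN).ρ (redDataInf N ℓ hℓN).map_algebraMap).toRingHom

theorem tauOutInf_tmul (hℓN : ¬ ℓ ∣ N) (x : ↥(chartAlgInf N ℓ)) (c : K) :
    tauOutInf N ℓ K hℓN (x ⊗ₜ c) =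
      @rhoKInf N _ ℓ _ K _ (ZMod.algebra K ℓ) x * HahnSeries.C c := by
  letI : Algebra ℤℓ (ZMod ℓ) := (zlResidue ℓ).toAlgebra
  letI : Algebra (ZMod ℓ) K := ZMod.algebra K ℓ
  haveI : IsScalarTower ℤℓ (ZMod ℓ) K :=
    IsScalarTower.of_algebraMap_eq fun r =>
      congrFun (congrArg DFunLike.coe (zl_algebraMap_eq ℓ K)) r
  show (LaurentCopy.of K).symm (tensorToLaurent K (redDataInf N ℓ hℓN).ρ
    (redDataInf N ℓ hℓN).map_algebraMap (x ⊗ₜ c)) = _
  rw [tensorToLaurent_tmul, RingEquiv.symm_apply_apply]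
  rfl

theorem tauOutInf_injective (hℓN : ¬ ℓ ∣ N) : Function.Injective (tauOutInf N ℓ K hℓN) := by
  letI : Algebra ℤℓ (ZMod ℓ) := (zlResidue ℓ).toAlgebra
  letI : Algebra (ZMod ℓ) K := ZMod.algebra K ℓ
  haveI : IsScalarTower ℤℓ (ZMod ℓ) K :=
    IsScalarTower.of_algebraMap_eq fun r =>
      congrFun (congrArg DFunLike.coe (zl_algebraMap_eq ℓ K)) r
  have h := tensorToLaurent_injective (K := K) (k := ZMod ℓ) (zlResidue_surjective ℓ)
    (redDataInf N ℓ hℓN).ρ (redDataInf N ℓ hℓN).map_algebraMap (by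
      intro x hx
      obtain ⟨y, rfl⟩ := (redDataInf N ℓ hℓN).ker_le x hx
      refine Ideal.mul_mem_right _ _ (Ideal.mem_map_of_mem _ ?_)
      show zlPrime ℓ ∈ RingHom.ker (zlResidue ℓ)
      rw [RingHom.mem_ker]
      exact zlResidue_zlPrime ℓ)
  exact (LaurentCopy.of K).symm.injective.comp h

theorem tauOutInf_mem_fullC (hℓN : ¬ ℓ ∣ N) (z : ↥(chartAlgInf N ℓ) ⊗[ℤℓ] K) :
    tauOutInf N ℓ K hℓN z ∈ modularFunctionFieldFullC K N := by
  induction z using TensorProduct.induction_on with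
  | zero => rw [RingHom.map_zero]; exact zero_mem _
  | tmul x c =>
    rw [tauOutInf_tmul]
    have hC : (HahnSeries.C c : LaurentSeries K) = algebraMap K (LaurentSeries K) c := by
      rw [algebraMap_laurentSeries_eq_single, HahnSeries.C_apply]
    rw [hC]
    exact mul_mem (@rhoKInf_mem_fullC N _ ℓ _ K _ (ZMod.algebra K ℓ) hℓN x)
      ((modularFunctionFieldFullC K N).algebraMap_mem c)
  | add z w hz hw => rw [RingHom.map_add]; exact add_mem hz hw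

/-- **The comparison map of the special fibre at infinity**
`chartAlgInf N ℓ ⊗[ℤ_(ℓ)] K →+* F̃_K`, `b ⊗ c ↦ c • ρ(b)`. -/
def tauInf (hℓN : ¬ ℓ ∣ N) :
    ↥(chartAlgInf N ℓ) ⊗[ℤℓ] K →+* ↥(modularFunctionFieldFullC K N) :=
  (tauOutInf N ℓ K hℓN).codRestrict (modularFunctionFieldFullC K N).toSubfield
    (fun z => tauOutInf_mem_fullC N ℓ K hℓN z)

theorem coe_tauInf (hℓN : ¬ ℓ ∣ N) (z : ↥(chartAlgInf N ℓ) ⊗[ℤℓ] K) :
    ((tauInf N ℓ K hℓN z : ↥(modularFunctionFieldFullC K N)) : LaurentSeries K) =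
      tauOutInf N ℓ K hℓN z := rfl

theorem tauInf_injective (hℓN : ¬ ℓ ∣ N) : Function.Injective (tauInf N ℓ K hℓN) := by
  intro z w h
  apply tauOutInf_injective N ℓ K hℓN
  rw [← coe_tauInf, ← coe_tauInf, h]

theorem tauInf_tmul (hℓN : ¬ ℓ ∣ N) (x : ↥(chartAlgInf N ℓ)) (c : K) :
    tauInf N ℓ K hℓN (x ⊗ₜ c) =
      c • @rhoTInf N _ ℓ _ K _ (ZMod.algebra K ℓ) hℓN x := by
  apply Subtype.ext
  rw [coe_tauInf, tauOutInf_tmul, mul_comm, IntermediateField.coe_smul, Algebra.smul_def]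
  have hC : (HahnSeries.C c : LaurentSeries K) = algebraMap K (LaurentSeries K) c := by
    rw [algebraMap_laurentSeries_eq_single, HahnSeries.C_apply]
  rw [hC]
  rfl

theorem tauInf_tmul_one (hℓN : ¬ ℓ ∣ N) (x : ↥(chartAlgInf N ℓ)) :
    tauInf N ℓ K hℓN (x ⊗ₜ 1) = @rhoTInf N _ ℓ _ K _ (ZMod.algebra K ℓ) hℓN x := by
  rw [tauInf_tmul, one_smul]

theorem tauInf_one_tmul (hℓN : ¬ ℓ ∣ N) (c : K) :
    tauInf N ℓ K hℓN (1 ⊗ₜ c) = algebraMap K ↥(modularFunctionFieldFullC K N) c := by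
  rw [tauInf_tmul, map_one, Algebra.smul_def, mul_one]

theorem tauInf_jInv (hℓN : ¬ ℓ ∣ N) :
    tauInf N ℓ K hℓN (jInvChartInf N ℓ ⊗ₜ 1) = (jT N K)⁻¹ := by
  rw [tauInf_tmul_one]
  exact @rhoTInf_jInvChartInf N _ ℓ _ K _ (ZMod.algebra K ℓ) hℓN

end TensorInf

end Fermat.Agent.Good.S28X
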