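import Mathlib

/-!
# Program L (S18), L-GEN, node [G-KUM] (i), abstract part: the Kummer algebra `A[y]/(y^N - w)`

For a commutative ring `A`, an element `w : A` and `N ≥ 1`:

* `Kum.kumPoly A w N = X ^ N - C w`, monic of degree `N`;
* `Kum.KumAlg A w N = AdjoinRoot (X ^ N - C w)`, with its root `Kum.kumY`, `kumY ^ N = w`;
* `Kum.kumBasis` : the power basis `1, y, …, y^(N-1)` (so `KumAlg A w N` is free of rank `N`);
* `Kum.kumProj : KumAlg A w N →ₗ[A] A` : the coordinate at `y^0`; it is an `A`-linear retraction of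
  the structure map (`kumProj_algebraMap`, `kumProj_one`) killing `y^i` for `0 < i < N`;
* `Kum.trace_kumY_pow`, `Kum.trace_one_kumAlg`, `Kum.trace_eq_smul_kumProj` :
  `Tr (y^i) = 0` for `0 < i < N`, `Tr 1 = N`, and `Tr = N • kumProj`;
* `Kum.kumMap f` : functoriality along `f : A →+* A'` (`w ↦ f w`), compatible with `kumProj`
  (`kumProj_kumMap`) and with the bases (`kumMap_kumY`, `kumMap_algebraMap`).
-/

set_option autoImplicit false

open Polynomial

namespace Fermat.Agent.Good.Kum

variable (A : Type*) [CommRing A] (w : A) (N : ℕ)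

/-- The Kummer polynomial `X ^ N - C w`. -/
noncomputable def kumPoly : A[X] := X ^ N - C w

variable {N}

theorem kumPoly_monic (hN : 0 < N) : (kumPoly A w N).Monic :=
  monic_X_pow_sub_C w hN.ne'

theorem natDegree_kumPoly [Nontrivial A] (hN : 0 < N) : (kumPoly A w N).natDegree = N :=
  natDegree_X_pow_sub_C

variable (N)

/-- The Kummer algebra `A[y] / (y ^ N - w)`. -/
abbrev KumAlg : Type _ := AdjoinRoot (kumPoly A w N)

/-- The root `y` of `X ^ N - w`. -/
noncomputable def kumY : KumAlg A w N := AdjoinRoot.root (kumPoly A w N)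

theorem kumY_pow : kumY A w N ^ N = algebraMap A (KumAlg A w N) w := by
  have h := AdjoinRoot.eval₂_root (kumPoly A w N)
  rw [kumPoly, eval₂_sub, eval₂_pow, eval₂_X, eval₂_C, sub_eq_zero] at h
  exact h

variable {N}

/-- The power basis `1, y, …, y^(N-1)`. -/
noncomputable def kumBasis [Nontrivial A] (hN : 0 < N) : Module.Basis (Fin N) A (KumAlg A w N) :=
  (AdjoinRoot.powerBasis' (kumPoly_monic A w hN)).basis.reindex
    (finCongr (natDegree_kumPoly A w hN))

theorem kumBasis_apply [Nontrivial A] (hN : 0 < N) (i : Fin N) :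
    kumBasis A w hN i = kumY A w N ^ (i : ℕ) := by
  rw [kumBasis, Module.Basis.reindex_apply, PowerBasis.basis_eq_pow]
  simp [kumY]

instance instFreeKumAlg [Nontrivial A] [NeZero N] : Module.Free A (KumAlg A w N) :=
  Module.Free.of_basis (kumBasis A w (Nat.pos_of_ne_zero (NeZero.ne N)))

instance instFiniteKumAlg [Nontrivial A] [NeZero N] : Module.Finite A (KumAlg A w N) :=
  Module.Finite.of_basis (kumBasis A w (Nat.pos_of_ne_zero (NeZero.ne N)))

theorem finrank_kumAlg [Nontrivial A] (hN : 0 < N) : Module.finrank A (KumAlg A w N) = N := by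
  rw [Module.finrank_eq_card_basis (kumBasis A w hN), Fintype.card_fin]

/-- Powers of `y` beyond `N`: `y ^ (N + k) = w • y ^ k`. -/
theorem kumY_pow_add (k : ℕ) : kumY A w N ^ (N + k) = w • kumY A w N ^ k := by
  rw [pow_add, kumY_pow, Algebra.smul_def]

/-- The coordinates of `y ^ k`, `k < N`. -/
theorem kumBasis_repr_kumY_pow [Nontrivial A] (hN : 0 < N) {k : ℕ} (hk : k < N) :
    (kumBasis A w hN).repr (kumY A w N ^ k) = Finsupp.single ⟨k, hk⟩ 1 := by
  have : kumY A w N ^ k = kumBasis A w hN ⟨k, hk⟩ := by rw [kumBasis_apply]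
  rw [this, Module.Basis.repr_self]

/-- The coordinates of `y ^ (N + k)`, `k < N`. -/
theorem kumBasis_repr_kumY_pow_add [Nontrivial A] (hN : 0 < N) {k : ℕ} (hk : k < N) :
    (kumBasis A w hN).repr (kumY A w N ^ (N + k)) = Finsupp.single ⟨k, hk⟩ w := by
  rw [kumY_pow_add, map_smul, kumBasis_repr_kumY_pow A w hN hk, Finsupp.smul_single, smul_eq_mul,
    mul_one]

/-- The coordinate at `y ^ 0`: an `A`-linear retraction of `A → KumAlg A w N`. -/
noncomputable def kumProj [Nontrivial A] (hN : 0 < N) : KumAlg A w N →ₗ[A] A :=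
  (kumBasis A w hN).coord ⟨0, hN⟩

theorem kumProj_kumY_pow_zero [Nontrivial A] (hN : 0 < N) :
    kumProj A w hN (kumY A w N ^ 0) = 1 := by
  rw [kumProj, Module.Basis.coord_apply, kumBasis_repr_kumY_pow A w hN hN, Finsupp.single_eq_same]

theorem kumProj_one [Nontrivial A] (hN : 0 < N) : kumProj A w hN 1 = 1 := by
  have := kumProj_kumY_pow_zero A w hN
  rwa [pow_zero] at this

theorem kumProj_algebraMap [Nontrivial A] (hN : 0 < N) (a : A) :
    kumProj A w hN (algebraMap A (KumAlg A w N) a) = a := by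
  rw [Algebra.algebraMap_eq_smul_one, map_smul, kumProj_one, smul_eq_mul, mul_one]

theorem kumProj_kumY_pow [Nontrivial A] (hN : 0 < N) {i : ℕ} (hi : 0 < i) (hiN : i < N) :
    kumProj A w hN (kumY A w N ^ i) = 0 := by
  rw [kumProj, Module.Basis.coord_apply, kumBasis_repr_kumY_pow A w hN hiN,
    Finsupp.single_eq_of_ne]
  intro h
  have := congrArg Fin.val h
  simp only at this
  omega

/-- `Tr (y ^ i) = 0` for `0 < i < N`. -/
theorem trace_kumY_pow [Nontrivial A] (hN : 0 < N) {i : ℕ} (hi : 0 < i) (hiN : i < N) :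
    Algebra.trace A (KumAlg A w N) (kumY A w N ^ i) = 0 := by
  classical
  rw [Algebra.trace_eq_matrix_trace (kumBasis A w hN), Matrix.trace]
  refine Finset.sum_eq_zero fun j _ => ?_
  rw [Matrix.diag_apply, Algebra.leftMulMatrix_eq_repr_mul, kumBasis_apply, ← pow_add]
  by_cases hlt : i + (j : ℕ) < N
  · rw [kumBasis_repr_kumY_pow A w hN hlt, Finsupp.single_eq_of_ne]
    intro h
    have := congrArg Fin.val h
    simp only at this
    omega
  · have hk : i + (j : ℕ) - N < N := by have := j.2; omega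
    have e : i + (j : ℕ) = N + (i + (j : ℕ) - N) := by omega
    rw [e, kumBasis_repr_kumY_pow_add A w hN hk, Finsupp.single_eq_of_ne]
    intro h
    have := congrArg Fin.val h
    simp only at this
    omega

/-- `Tr 1 = N`. -/
theorem trace_one_kumAlg [Nontrivial A] (hN : 0 < N) :
    Algebra.trace A (KumAlg A w N) 1 = (N : A) := by
  have := Algebra.trace_algebraMap_of_basis (kumBasis A w hN) (1 : A)
  rw [map_one, Fintype.card_fin, nsmul_eq_mul, mul_one] at this
  exact this

/-- `Tr = N • kumProj`. -/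
theorem trace_eq_smul_kumProj [Nontrivial A] (hN : 0 < N) (z : KumAlg A w N) :
    Algebra.trace A (KumAlg A w N) z = (N : A) * kumProj A w hN z := by
  have key : Algebra.trace A (KumAlg A w N) = (N : A) • kumProj A w hN := by
    refine (kumBasis A w hN).ext fun i => ?_
    rw [kumBasis_apply, LinearMap.smul_apply, smul_eq_mul]
    rcases Nat.eq_zero_or_pos (i : ℕ) with h0 | hpos
    · rw [h0, pow_zero, trace_one_kumAlg A w hN, kumProj_one, mul_one]
    · rw [trace_kumY_pow A w hN hpos i.2, kumProj_kumY_pow A w hN hpos i.2, mul_zero]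
  rw [key, LinearMap.smul_apply, smul_eq_mul]

/-! ### Functoriality -/

section Map

variable {A} {A' : Type*} [CommRing A'] (f : A →+* A')

theorem kumPoly_map : (kumPoly A w N).map f = kumPoly A' (f w) N := by
  simp [kumPoly]

/-- Functoriality of the Kummer algebra in the base ring. -/
noncomputable def kumMap : KumAlg A w N →+* KumAlg A' (f w) N :=
  AdjoinRoot.map f (kumPoly A w N) (kumPoly A' (f w) N) (by rw [kumPoly_map])

@[simp] theorem kumMap_kumY : kumMap w f (kumY A w N) = kumY A' (f w) N := by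
  simp [kumMap, kumY]

@[simp] theorem kumMap_algebraMap (a : A) :
    kumMap w f (algebraMap A (KumAlg A w N) a) = algebraMap A' (KumAlg A' (f w) N) (f a) := by
  rw [kumMap, AdjoinRoot.algebraMap_eq, AdjoinRoot.map_of, AdjoinRoot.algebraMap_eq]

/-- `kumProj` commutes with base change. -/
theorem kumProj_kumMap [Nontrivial A] [Nontrivial A'] (hN : 0 < N) (z : KumAlg A w N) :
    kumProj A' (f w) hN (kumMap w f z) = f (kumProj A w hN z) := by
  have hz := (kumBasis A w hN).sum_repr z
  rw [← hz]
  simp only [map_sum, map_smul, kumBasis_apply, smul_eq_mul, Algebra.smul_def, map_mul, map_pow,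
    kumMap_kumY, kumMap_algebraMap]
  refine Finset.sum_congr rfl fun i _ => ?_
  rw [← Algebra.smul_def, ← Algebra.smul_def, map_smul, map_smul, smul_eq_mul, smul_eq_mul, map_mul]
  congr 1
  rcases Nat.eq_zero_or_pos (i : ℕ) with h0 | hpos
  · rw [h0, pow_zero, pow_zero, kumProj_one, kumProj_one, map_one]
  · rw [kumProj_kumY_pow A' (f w) hN hpos i.2, kumProj_kumY_pow A w hN hpos i.2, map_zero]

end Map

end Fermat.Agent.Good.Kum
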