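import Mathlib

/-!
# Program L (S18), L-GEN, node [G-KUM] (i): localisations `O[X][1/c]` of a polynomial ring

General facts about `Localization.Away (c : O[X])`, functorial in the base ring `O`:

* `Kum.pawMap f c c' hc : Localization.Away c →+* Localization.Away c'` for `f : O →+* O'` with
  `c.map f = c'`; it is surjective if `f` is (`pawMap_surjective`), its kernel is generated by the
  kernel of `f` (`ker_pawMap`, `ker_pawMap_span_singleton`);
* `Kum.pawConst c : O →+* Localization.Away c`, the constants;
* ring properties: `isDomain_paw`, `isIntegrallyClosed_paw`, (noetherian is an instance),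
  `isPrincipalIdealRing_paw` over a field;
* reduction: `prime_pawConst` (`π` prime in `O[X][1/c]`), `pawQuotientEquiv`
  (`O[X][1/c] / π ≃ (O/π)[X][1/c̄]`), `isPrincipalIdealRing_paw_quotient`;
* generic fibre: `isLocalization_away_paw` (`O'[X][1/c'] = O[X][1/c][1/π]` if `O' = O[1/π]`),
  `isPrincipalIdealRing_paw_away`.
-/

set_option autoImplicit false
set_option linter.style.haveILetI false

open Polynomial

namespace Fermat.Agent.Good.Kum

section PolyAway

variable {O : Type*} [CommRing O] {O' : Type*} [CommRing O']

/-- The constants `O → O[X][1/c]`. -/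
noncomputable def pawConst (c : O[X]) : O →+* Localization.Away c :=
  (algebraMap O[X] (Localization.Away c)).comp C

theorem pawConst_apply (c : O[X]) (a : O) :
    pawConst c a = algebraMap O[X] (Localization.Away c) (C a) := rfl

theorem isUnit_algebraMap_paw (c : O[X]) : IsUnit (algebraMap O[X] (Localization.Away c) c) :=
  IsLocalization.Away.algebraMap_isUnit c

variable (f : O →+* O') (c : O[X]) (c' : O'[X]) (hc : c.map f = c')

/-- Functoriality of `O[X][1/c]` in the base ring. -/
noncomputable def pawMap : Localization.Away c →+* Localization.Away c' :=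
  IsLocalization.Away.lift (S := Localization.Away c) c
    (g := (algebraMap O'[X] (Localization.Away c')).comp (mapRingHom f))
    (by
      rw [RingHom.comp_apply, coe_mapRingHom, hc]
      exact isUnit_algebraMap_paw c')

@[simp] theorem pawMap_algebraMap (p : O[X]) :
    pawMap f c c' hc (algebraMap O[X] (Localization.Away c) p) =
      algebraMap O'[X] (Localization.Away c') (p.map f) := by
  rw [pawMap, IsLocalization.Away.lift_eq]
  rfl

@[simp] theorem pawMap_pawConst (a : O) :
    pawMap f c c' hc (pawConst c a) = pawConst c' (f a) := by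
  rw [pawConst_apply, pawMap_algebraMap, Polynomial.map_C, pawConst_apply]

theorem pawMap_surjective (hf : Function.Surjective f) :
    Function.Surjective (pawMap f c c' hc) := by
  intro z
  obtain ⟨n, a, ha⟩ := IsLocalization.Away.surj (S := Localization.Away c') c' z
  obtain ⟨p, rfl⟩ := Polynomial.map_surjective f hf a
  obtain ⟨u, hu⟩ := isUnit_algebraMap_paw c
  refine ⟨algebraMap O[X] (Localization.Away c) p * ((u⁻¹ : (Localization.Away c)ˣ) : _) ^ n, ?_⟩
  have hcu : pawMap f c c' hc (u : Localization.Away c) =
      algebraMap O'[X] (Localization.Away c') c' := by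
    rw [hu, pawMap_algebraMap, hc]
  have hinv : pawMap f c c' hc ((u⁻¹ : (Localization.Away c)ˣ) : Localization.Away c) *
      algebraMap O'[X] (Localization.Away c') c' = 1 := by
    rw [← hcu, ← map_mul, Units.inv_mul, map_one]
  rw [map_mul, map_pow, pawMap_algebraMap, ← ha, mul_assoc, ← mul_pow, mul_comm _ (pawMap _ _ _ _ _),
    hinv, one_pow, mul_one]

/-- The kernel of the base change map is generated by the kernel of `f` (on coefficients). -/
theorem ker_pawMap :
    RingHom.ker (pawMap f c c' hc) =
      Ideal.map (algebraMap O[X] (Localization.Away c)) (RingHom.ker (mapRingHom f)) := by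
  apply le_antisymm
  · intro z hz
    rw [RingHom.mem_ker] at hz
    obtain ⟨n, p, hp⟩ := IsLocalization.Away.surj (S := Localization.Away c) c z
    have h0 : algebraMap O'[X] (Localization.Away c') (p.map f) = 0 := by
      rw [← pawMap_algebraMap f c c' hc, ← hp, map_mul, hz, zero_mul]
    obtain ⟨⟨_, m, rfl⟩, hm⟩ := (IsLocalization.map_eq_zero_iff (Submonoid.powers c') _ _).mp h0
    have hker : c ^ m * p ∈ RingHom.ker (mapRingHom f) := by
      rw [RingHom.mem_ker, coe_mapRingHom, Polynomial.map_mul, Polynomial.map_pow, hc]
      exact hm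
    have hmem := Ideal.mem_map_of_mem (algebraMap O[X] (Localization.Away c)) hker
    rw [map_mul, map_pow, ← hp] at hmem
    obtain ⟨u, hu⟩ := isUnit_algebraMap_paw c
    rw [← hu] at hmem
    have : z = ((u⁻¹ : (Localization.Away c)ˣ) : Localization.Away c) ^ (m + n) *
        ((u : Localization.Away c) ^ m * (z * (u : Localization.Away c) ^ n)) := by
      have h1 : ((u⁻¹ : (Localization.Away c)ˣ) : Localization.Away c) * u = 1 := Units.inv_mul u
      calc z = (((u⁻¹ : (Localization.Away c)ˣ) : Localization.Away c) * u) ^ (m + n) * z := by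
            rw [h1, one_pow, one_mul]
        _ = _ := by rw [mul_pow, pow_add (u : Localization.Away c)]; ring
    rw [this]
    exact Ideal.mul_mem_left _ _ hmem
  · rw [Ideal.map_le_iff_le_comap]
    intro p hp
    rw [RingHom.mem_ker, coe_mapRingHom] at hp
    rw [Ideal.mem_comap, RingHom.mem_ker, pawMap_algebraMap, hp, map_zero]

theorem ker_pawMap_span_singleton {π : O} (hπ : RingHom.ker f = Ideal.span {π}) :
    RingHom.ker (pawMap f c c' hc) = Ideal.span {pawConst c π} := by
  rw [ker_pawMap, Polynomial.ker_mapRingHom, hπ, Ideal.map_span, Set.image_singleton,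
    Ideal.map_span, Set.image_singleton, pawConst_apply]

/-- `O[X][1/c] / (π) ≃ O'[X][1/c']` when `f : O → O'` is onto with kernel `(π)`. -/
noncomputable def pawQuotientEquiv (hf : Function.Surjective f) {π : O}
    (hπ : RingHom.ker f = Ideal.span {π}) :
    (Localization.Away c ⧸ Ideal.span {pawConst c π}) ≃+* Localization.Away c' :=
  (Ideal.quotEquivOfEq (ker_pawMap_span_singleton f c c' hc hπ).symm).trans
    (RingHom.quotientKerEquivOfSurjective (pawMap_surjective f c c' hc hf))

@[simp] theorem pawQuotientEquiv_mk (hf : Function.Surjective f) {π : O}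
    (hπ : RingHom.ker f = Ideal.span {π}) (z : Localization.Away c) :
    pawQuotientEquiv f c c' hc hf hπ (Ideal.Quotient.mk _ z) = pawMap f c c' hc z := rfl

end PolyAway

section Props

variable {O : Type*} [CommRing O]

theorem powers_le_nonZeroDivisors_of_ne_zero [IsDomain O] {c : O[X]} (hc0 : c ≠ 0) :
    Submonoid.powers c ≤ nonZeroDivisors O[X] :=
  Submonoid.powers_le.mpr (mem_nonZeroDivisors_of_ne_zero hc0)

/-- `O` a domain, `c ≠ 0` ⇒ `O[X][1/c]` a domain. -/
theorem isDomain_paw [IsDomain O] {c : O[X]} (hc0 : c ≠ 0) : IsDomain (Localization.Away c) :=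
  IsLocalization.isDomain_localization (powers_le_nonZeroDivisors_of_ne_zero hc0)

/-- `O` an integrally closed domain, `c ≠ 0` ⇒ `O[X][1/c]` integrally closed. -/
theorem isIntegrallyClosed_paw [IsDomain O] [IsIntegrallyClosed O] {c : O[X]} (hc0 : c ≠ 0) :
    IsIntegrallyClosed (Localization.Away c) :=
  isIntegrallyClosed_of_isLocalization (Localization.Away c) (Submonoid.powers c)
    (powers_le_nonZeroDivisors_of_ne_zero hc0)

/-- The constants inject (for a domain `O` and `c ≠ 0`). -/
theorem pawConst_injective [IsDomain O] {c : O[X]} (hc0 : c ≠ 0) :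
    Function.Injective (pawConst c) :=
  (IsLocalization.injective (Localization.Away c)
    (powers_le_nonZeroDivisors_of_ne_zero hc0)).comp C_injective

/-- A localisation of a principal ideal ring is a principal ideal ring. -/
theorem isPrincipalIdealRing_of_isLocalization {R : Type*} [CommRing R] [IsPrincipalIdealRing R]
    (M : Submonoid R) (S : Type*) [CommRing S] [Algebra R S] [IsLocalization M S] :
    IsPrincipalIdealRing S := by
  refine ⟨fun I => ?_⟩
  have hI : Ideal.map (algebraMap R S) (Ideal.under R I) = I := IsLocalization.map_under M S I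
  obtain ⟨a, ha⟩ := (IsPrincipalIdealRing.principal (Ideal.under R I)).principal
  refine ⟨⟨algebraMap R S a, ?_⟩⟩
  rw [← hI, ha]
  exact (Ideal.map_span _ _).trans (by rw [Set.image_singleton])

/-- `K` a field ⇒ `K[X][1/c]` is a principal ideal ring. -/
theorem isPrincipalIdealRing_paw {K : Type*} [Field K] (c : K[X]) :
    IsPrincipalIdealRing (Localization.Away c) :=
  isPrincipalIdealRing_of_isLocalization (Submonoid.powers c) _

end Props

section Reduction

variable {O : Type*} [CommRing O] {O' : Type*} [CommRing O']
  (f : O →+* O') (c : O[X]) (c' : O'[X]) (hc : c.map f = c')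

include hc in
/-- If `f` maps onto... (no surjectivity needed) a domain `O'` and `c' ≠ 0`, then `(ker f)` generates
a prime ideal of `O[X][1/c]`. -/
theorem isPrime_ker_pawMap [IsDomain O'] (hc0 : c' ≠ 0) :
    (RingHom.ker (pawMap f c c' hc)).IsPrime := by
  have := isDomain_paw hc0
  exact RingHom.ker_isPrime _

include hc in
/-- `π` stays prime in `O[X][1/c]` if `O / π = O'` is a domain in which `c` does not vanish. -/
theorem prime_pawConst [IsDomain O] [IsDomain O'] (hc0 : c ≠ 0) (hc0' : c' ≠ 0) {π : O}
    (hπ : RingHom.ker f = Ideal.span {π}) (hπ0 : π ≠ 0) : Prime (pawConst c π) := by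
  have h := isPrime_ker_pawMap f c c' hc hc0'
  rw [ker_pawMap_span_singleton f c c' hc hπ] at h
  exact (Ideal.span_singleton_prime
    (fun h0 => hπ0 (pawConst_injective hc0 (h0.trans (map_zero _).symm)))).mp h

omit [CommRing O'] in
/-- The special fibre `O[X][1/c] / π` is a PID when `O / π = O'` is a field. -/
theorem isPrincipalIdealRing_paw_quotient {K : Type*} [Field K] (f : O →+* K) (c' : K[X])
    (hc : c.map f = c') (hf : Function.Surjective f) {π : O}
    (hπ : RingHom.ker f = Ideal.span {π}) :
    IsPrincipalIdealRing (Localization.Away c ⧸ Ideal.span {pawConst c π}) := by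
  have := isPrincipalIdealRing_paw c'
  exact IsPrincipalIdealRing.of_surjective (pawQuotientEquiv f c c' hc hf hπ).symm.toRingHom
    (pawQuotientEquiv f c c' hc hf hπ).symm.surjective

/-- **Generic fibre**: if `O' = O[1/π]` then `O'[X][1/c'] = O[X][1/c][1/π]`. -/
theorem isLocalization_away_paw [Algebra O O'] (c : O[X]) (c' : O'[X])
    (hc : c.map (algebraMap O O') = c') (π : O) [IsLocalization.Away π O'] :
    @IsLocalization.Away (Localization.Away c) _ (pawConst c π) (Localization.Away c') _
      (pawMap (algebraMap O O') c c' hc).toAlgebra := by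
  letI a2 : Algebra O[X] O'[X] := (mapRingHom (algebraMap O O')).toAlgebra
  letI a4 : Algebra (Localization.Away c) (Localization.Away c') :=
    (pawMap (algebraMap O O') c c' hc).toAlgebra
  haveI t1 : IsScalarTower O[X] (Localization.Away c) (Localization.Away c') :=
    .of_algebraMap_eq fun p => by
      rw [IsScalarTower.algebraMap_apply O[X] O'[X] (Localization.Away c')]
      show algebraMap O'[X] (Localization.Away c') (p.map _) =
        pawMap (algebraMap O O') c c' hc (algebraMap O[X] (Localization.Away c) p)
      rw [pawMap_algebraMap]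
  haveI l2 : IsLocalization.Away (C π : O[X]) O'[X] := by
    have h := Polynomial.isLocalization (Submonoid.powers π) O'
    have e : (Submonoid.powers π).map (C : O →+* O[X]) = Submonoid.powers (C π) :=
      Submonoid.map_powers _ _
    rw [e] at h
    convert h
  haveI l3 : IsLocalization.Away (algebraMap O[X] O'[X] c) (Localization.Away c') := by
    show IsLocalization.Away (c.map (algebraMap O O')) (Localization.Away c')
    rw [hc]
    infer_instance
  have key := IsLocalization.Away.commutes (R := O[X]) (Localization.Away c) O'[X]
    (Localization.Away c') c (C π)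
  exact key

/-- The generic fibre `O[X][1/c][1/π]` is a PID when `O[1/π]` is a field. -/
theorem isPrincipalIdealRing_paw_away {K : Type*} [Field K] [Algebra O K] (c : O[X]) (π : O)
    [IsLocalization.Away π K] :
    IsPrincipalIdealRing (Localization.Away (pawConst c π)) := by
  have := isPrincipalIdealRing_paw (c.map (algebraMap O K))
  letI : Algebra (Localization.Away c) (Localization.Away (c.map (algebraMap O K))) :=
    (pawMap (algebraMap O K) c _ rfl).toAlgebra
  haveI : IsLocalization.Away (pawConst c π) (Localization.Away (c.map (algebraMap O K))) :=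
    isLocalization_away_paw c _ rfl π
  let e : Localization.Away (c.map (algebraMap O K)) ≃ₐ[Localization.Away c]
      Localization.Away (pawConst c π) :=
    IsLocalization.algEquiv (Submonoid.powers (pawConst c π)) _ _
  exact IsPrincipalIdealRing.of_surjective e.toRingEquiv.toRingHom e.surjective

end Reduction

end Fermat.Agent.Good.Kum
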