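import Mathlib
import Fermat.Agent.Good.KummerAlg
import Fermat.Agent.Good.PolyAway

/-!
# Program L (S18), L-GEN, node [G-KUM] (i): the Kummer cover of the cusp chart

For a commutative ring `O` and `N ≥ 1`:

* `Kum.LamC O = O[w][1/(1 - 1728 w)]` (the base of the cusp chart, `w = 1/j`), `Kum.wLam`;
* `Kum.RCov O N = O[y][1/(1 - 1728 y^N)]` (the Kummer cover), `Kum.yCov`;
* `Kum.lamToCov : LamC O →+* RCov O N`, `w ↦ y^N`, made into an `Algebra (LamC O) (RCov O N)`
  instance;
* `Kum.covEquiv : KumAlg (LamC O) (wLam O) N ≃ₐ[LamC O] RCov O N`, `kumY ↦ yCov`; hence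
  `RCov O N` is free of rank `N` over `LamC O` with basis `1, y, …, y^(N-1)` (`covBasis`), with the
  trace formula (`trace_yCov_pow`, `trace_one_rCov`) and the `LamC O`-linear retraction
  `covProj` (`covProj_one`, `covProj_algebraMap`, `covProj_yCov_pow`, `trace_eq_smul_covProj`);
* ring theory of `RCov O N` and `LamC O` (from `Good/PolyAway.lean`): domain, noetherian, integrally
  closed, `π` prime, special fibre a PID, generic fibre a PID; functoriality in `O`
  (`covMap`, `lamMap`).
-/

set_option autoImplicit false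
set_option linter.style.haveILetI false

open Polynomial

namespace Fermat.Agent.Good.Kum

variable (O : Type*) [CommRing O] (N : ℕ)

/-- `1 - 1728 w`. -/
noncomputable def cLam : O[X] := 1 - C 1728 * X

/-- `1 - 1728 y ^ N`. -/
noncomputable def cCov : O[X] := 1 - C 1728 * X ^ N

theorem expand_cLam : expand O N (cLam O) = cCov O N := by
  simp [cLam, cCov]

theorem coeff_zero_cLam : (cLam O).coeff 0 = 1 := by
  simp [cLam]

variable {N} in
theorem coeff_zero_cCov (hN : 0 < N) : (cCov O N).coeff 0 = 1 := by
  rw [cCov, coeff_sub, coeff_one_zero, coeff_C_mul, coeff_X_pow, if_neg hN.ne, mul_zero, sub_zero]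

theorem cLam_ne_zero [Nontrivial O] : cLam O ≠ 0 := fun h => by
  have := coeff_zero_cLam O
  rw [h, coeff_zero] at this
  exact zero_ne_one this

variable {N} in
theorem cCov_ne_zero [Nontrivial O] (hN : 0 < N) : cCov O N ≠ 0 := fun h => by
  have := coeff_zero_cCov O hN
  rw [h, coeff_zero] at this
  exact zero_ne_one this

variable {O} in
theorem cLam_map {O' : Type*} [CommRing O'] (f : O →+* O') : (cLam O).map f = cLam O' := by
  simp [cLam, map_ofNat]

variable {O} in
theorem cCov_map {O' : Type*} [CommRing O'] (f : O →+* O') : (cCov O N).map f = cCov O' N := by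
  simp [cCov, map_ofNat]

/-- The base of the cusp chart `O[w][1/(1 - 1728 w)]`. -/
abbrev LamC : Type _ := Localization.Away (cLam O)

/-- The Kummer cover `O[y][1/(1 - 1728 y ^ N)]`. -/
abbrev RCov : Type _ := Localization.Away (cCov O N)

/-- The coordinate `w` of the base. -/
noncomputable def wLam : LamC O := algebraMap O[X] (LamC O) X

/-- The coordinate `y` of the cover. -/
noncomputable def yCov : RCov O N := algebraMap O[X] (RCov O N) X

/-- A polynomial with constant coefficient `1` is not nilpotent. -/
theorem zero_notMem_powers_of_coeff_zero [Nontrivial O] {c : O[X]} (hc : c.coeff 0 = 1) :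
    (0 : O[X]) ∉ Submonoid.powers c := by
  rintro ⟨n, hn⟩
  change c ^ n = 0 at hn
  have h1 : (c ^ n).coeff 0 = 1 := by
    rw [coeff_zero_eq_eval_zero, eval_pow, ← coeff_zero_eq_eval_zero, hc, one_pow]
  rw [hn, coeff_zero] at h1
  exact zero_ne_one h1

instance instNontrivialLamC [Nontrivial O] : Nontrivial (LamC O) :=
  (IsLocalization.toLocalizationMap (Submonoid.powers (cLam O)) (LamC O)).nontrivial
    (zero_notMem_powers_of_coeff_zero O (coeff_zero_cLam O))

variable {N} in
theorem nontrivial_rCov [Nontrivial O] (hN : 0 < N) : Nontrivial (RCov O N) :=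
  (IsLocalization.toLocalizationMap (Submonoid.powers (cCov O N)) (RCov O N)).nontrivial
    (zero_notMem_powers_of_coeff_zero O (coeff_zero_cCov O hN))

/-- The structure map `LamC O → RCov O N`, `w ↦ y ^ N`. -/
noncomputable def lamToCov : LamC O →+* RCov O N :=
  IsLocalization.Away.lift (S := LamC O) (cLam O)
    (g := (algebraMap O[X] (RCov O N)).comp (expand O N : O[X] →ₐ[O] O[X]).toRingHom)
    (by
      show IsUnit (algebraMap O[X] (RCov O N) (expand O N (cLam O)))
      rw [expand_cLam]
      exact isUnit_algebraMap_paw _)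

theorem lamToCov_algebraMap (p : O[X]) :
    lamToCov O N (algebraMap O[X] (LamC O) p) = algebraMap O[X] (RCov O N) (expand O N p) := by
  rw [lamToCov, IsLocalization.Away.lift_eq]
  rfl

noncomputable instance instAlgebraLamCRCov : Algebra (LamC O) (RCov O N) :=
  (lamToCov O N).toAlgebra

theorem algebraMap_lamC_rCov (a : LamC O) : algebraMap (LamC O) (RCov O N) a = lamToCov O N a :=
  rfl

theorem algebraMap_wLam : algebraMap (LamC O) (RCov O N) (wLam O) = yCov O N ^ N := by
  rw [algebraMap_lamC_rCov, wLam, lamToCov_algebraMap, expand_X, map_pow, yCov]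

theorem algebraMap_lamC_C (a : O) :
    algebraMap (LamC O) (RCov O N) (algebraMap O[X] (LamC O) (C a)) =
      algebraMap O[X] (RCov O N) (C a) := by
  rw [algebraMap_lamC_rCov, lamToCov_algebraMap, expand_C]

/-! ### The identification with the Kummer algebra -/

/-- `kumY ↦ yCov`. -/
noncomputable def kumToCov : KumAlg (LamC O) (wLam O) N →ₐ[LamC O] RCov O N :=
  AdjoinRoot.liftAlgHom (kumPoly (LamC O) (wLam O) N) (Algebra.ofId (LamC O) (RCov O N))
    (yCov O N) (by
      rw [kumPoly, eval₂_sub, eval₂_pow, eval₂_X, eval₂_C, sub_eq_zero]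
      exact (algebraMap_wLam O N).symm)

@[simp] theorem kumToCov_kumY : kumToCov O N (kumY (LamC O) (wLam O) N) = yCov O N := by
  rw [kumToCov, kumY, AdjoinRoot.liftAlgHom_root]

/-- the coefficient map `O[X] → KumAlg`, `X ↦ kumY`. -/
noncomputable def polyToKum : O[X] →+* KumAlg (LamC O) (wLam O) N :=
  eval₂RingHom ((algebraMap (LamC O) (KumAlg (LamC O) (wLam O) N)).comp
    ((algebraMap O[X] (LamC O)).comp C)) (kumY (LamC O) (wLam O) N)

@[simp] theorem polyToKum_C (a : O) :
    polyToKum O N (C a) =
      algebraMap (LamC O) (KumAlg (LamC O) (wLam O) N) (algebraMap O[X] (LamC O) (C a)) := by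
  simp [polyToKum]

@[simp] theorem polyToKum_X : polyToKum O N X = kumY (LamC O) (wLam O) N := by
  simp [polyToKum]

theorem polyToKum_expand (p : O[X]) :
    polyToKum O N (expand O N p) =
      algebraMap (LamC O) (KumAlg (LamC O) (wLam O) N) (algebraMap O[X] (LamC O) p) := by
  have : (polyToKum O N).comp (expand O N : O[X] →ₐ[O] O[X]).toRingHom =
      (algebraMap (LamC O) (KumAlg (LamC O) (wLam O) N)).comp (algebraMap O[X] (LamC O)) := by
    refine Polynomial.ringHom_ext (fun a => ?_) ?_
    · simp
    · simp only [RingHom.comp_apply, AlgHom.toRingHom_eq_coe, RingHom.coe_coe, expand_X, map_pow,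
        polyToKum_X]
      rw [kumY_pow]
      rfl
  exact RingHom.congr_fun this p

theorem isUnit_polyToKum_cCov : IsUnit (polyToKum O N (cCov O N)) := by
  rw [← expand_cLam, polyToKum_expand]
  exact ((isUnit_algebraMap_paw (cLam O)).map _)

/-- `yCov ↦ kumY`. -/
noncomputable def covToKum : RCov O N →+* KumAlg (LamC O) (wLam O) N :=
  IsLocalization.Away.lift (S := RCov O N) (cCov O N) (g := polyToKum O N)
    (isUnit_polyToKum_cCov O N)

@[simp] theorem covToKum_algebraMap (p : O[X]) :
    covToKum O N (algebraMap O[X] (RCov O N) p) = polyToKum O N p := by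
  rw [covToKum, IsLocalization.Away.lift_eq]

theorem covToKum_algebraMap_lamC (a : LamC O) :
    covToKum O N (algebraMap (LamC O) (RCov O N) a) =
      algebraMap (LamC O) (KumAlg (LamC O) (wLam O) N) a := by
  have : (covToKum O N).comp (algebraMap (LamC O) (RCov O N)) =
      algebraMap (LamC O) (KumAlg (LamC O) (wLam O) N) := by
    refine IsLocalization.ringHom_ext (Submonoid.powers (cLam O)) (RingHom.ext fun p => ?_)
    simp only [RingHom.comp_apply]
    rw [algebraMap_lamC_rCov, lamToCov_algebraMap, covToKum_algebraMap, polyToKum_expand]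
  exact RingHom.congr_fun this a

theorem kumToCov_comp_covToKum :
    (kumToCov O N : KumAlg (LamC O) (wLam O) N →+* RCov O N).comp (covToKum O N) =
      RingHom.id (RCov O N) := by
  refine IsLocalization.ringHom_ext (Submonoid.powers (cCov O N)) ?_
  refine Polynomial.ringHom_ext (fun a => ?_) ?_
  · simp only [RingHom.comp_apply, covToKum_algebraMap, polyToKum_C, RingHom.coe_coe,
      AlgHom.commutes, RingHom.id_apply]
    exact algebraMap_lamC_C O N a
  · simp only [RingHom.comp_apply, covToKum_algebraMap, polyToKum_X, RingHom.coe_coe,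
      kumToCov_kumY, RingHom.id_apply]
    rfl

theorem covToKum_comp_kumToCov :
    (covToKum O N).comp (kumToCov O N : KumAlg (LamC O) (wLam O) N →+* RCov O N) =
      RingHom.id _ := by
  refine AdjoinRoot.ringHom_ext ?_ ?_
  · ext a : 1
    simp only [RingHom.comp_apply, RingHom.id_apply, RingHom.coe_coe]
    have h1 : (AdjoinRoot.of (kumPoly (LamC O) (wLam O) N)) a =
        algebraMap (LamC O) (KumAlg (LamC O) (wLam O) N) a := rfl
    rw [h1, AlgHom.commutes, covToKum_algebraMap_lamC]
  · simp only [RingHom.comp_apply, RingHom.id_apply, RingHom.coe_coe]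
    have h1 : AdjoinRoot.root (kumPoly (LamC O) (wLam O) N) = kumY (LamC O) (wLam O) N := rfl
    rw [h1, kumToCov_kumY, yCov, covToKum_algebraMap, polyToKum_X]

/-- **The Kummer cover is the Kummer algebra**: `(LamC O)[y]/(y^N - w) ≃ O[y][1/(1 - 1728 y^N)]`. -/
noncomputable def covEquiv : KumAlg (LamC O) (wLam O) N ≃ₐ[LamC O] RCov O N :=
  { RingEquiv.ofRingHom (kumToCov O N : KumAlg (LamC O) (wLam O) N →+* RCov O N) (covToKum O N)
      (kumToCov_comp_covToKum O N) (covToKum_comp_kumToCov O N) with
    commutes' := (kumToCov O N).commutes }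

theorem covEquiv_apply (z : KumAlg (LamC O) (wLam O) N) : covEquiv O N z = kumToCov O N z := rfl

@[simp] theorem covEquiv_kumY : covEquiv O N (kumY (LamC O) (wLam O) N) = yCov O N := by
  rw [covEquiv_apply, kumToCov_kumY]

@[simp] theorem covEquiv_symm_yCov : (covEquiv O N).symm (yCov O N) = kumY (LamC O) (wLam O) N := by
  rw [← covEquiv_kumY, AlgEquiv.symm_apply_apply]

/-! ### Freeness, the retraction and the trace formula -/

variable {N}

/-- The basis `1, y, …, y^(N-1)` of `RCov O N` over `LamC O`. -/
noncomputable def covBasis [Nontrivial O] (hN : 0 < N) : Module.Basis (Fin N) (LamC O) (RCov O N) :=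
  (kumBasis (LamC O) (wLam O) hN).map (covEquiv O N).toLinearEquiv

theorem covBasis_apply [Nontrivial O] (hN : 0 < N) (i : Fin N) :
    covBasis O hN i = yCov O N ^ (i : ℕ) := by
  rw [covBasis, Module.Basis.map_apply, kumBasis_apply]
  show covEquiv O N (kumY (LamC O) (wLam O) N ^ (i : ℕ)) = _
  rw [map_pow, covEquiv_kumY]

instance instFreeRCov [Nontrivial O] [NeZero N] : Module.Free (LamC O) (RCov O N) :=
  Module.Free.of_basis (covBasis O (Nat.pos_of_ne_zero (NeZero.ne N)))

instance instFiniteRCov [Nontrivial O] [NeZero N] : Module.Finite (LamC O) (RCov O N) :=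
  Module.Finite.of_basis (covBasis O (Nat.pos_of_ne_zero (NeZero.ne N)))

theorem finrank_rCov [Nontrivial O] (hN : 0 < N) : Module.finrank (LamC O) (RCov O N) = N := by
  rw [Module.finrank_eq_card_basis (covBasis O hN), Fintype.card_fin]

/-- The `LamC O`-linear retraction `RCov O N → LamC O` (coordinate at `y^0`). -/
noncomputable def covProj [Nontrivial O] (hN : 0 < N) : RCov O N →ₗ[LamC O] LamC O :=
  (kumProj (LamC O) (wLam O) hN).comp (covEquiv O N).symm.toLinearMap

theorem covProj_apply [Nontrivial O] (hN : 0 < N) (z : RCov O N) :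
    covProj O hN z = kumProj (LamC O) (wLam O) hN ((covEquiv O N).symm z) := rfl

theorem covProj_one [Nontrivial O] (hN : 0 < N) : covProj O hN 1 = 1 := by
  rw [covProj_apply, map_one, kumProj_one]

theorem covProj_algebraMap [Nontrivial O] (hN : 0 < N) (a : LamC O) :
    covProj O hN (algebraMap (LamC O) (RCov O N) a) = a := by
  rw [covProj_apply, AlgEquiv.commutes, kumProj_algebraMap]

theorem covProj_yCov_pow [Nontrivial O] (hN : 0 < N) {i : ℕ} (hi : 0 < i) (hiN : i < N) :
    covProj O hN (yCov O N ^ i) = 0 := by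
  rw [covProj_apply, map_pow, covEquiv_symm_yCov, kumProj_kumY_pow _ _ hN hi hiN]

theorem trace_rCov_eq [Nontrivial O] (z : RCov O N) :
    Algebra.trace (LamC O) (RCov O N) z =
      Algebra.trace (LamC O) (KumAlg (LamC O) (wLam O) N) ((covEquiv O N).symm z) := by
  rw [← Algebra.trace_eq_of_algEquiv (covEquiv O N), AlgEquiv.apply_symm_apply]

/-- `Tr (y ^ i) = 0` for `0 < i < N`. -/
theorem trace_yCov_pow [Nontrivial O] (hN : 0 < N) {i : ℕ} (hi : 0 < i) (hiN : i < N) :
    Algebra.trace (LamC O) (RCov O N) (yCov O N ^ i) = 0 := by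
  rw [trace_rCov_eq, map_pow, covEquiv_symm_yCov, trace_kumY_pow _ _ hN hi hiN]

/-- `Tr 1 = N`. -/
theorem trace_one_rCov [Nontrivial O] (hN : 0 < N) :
    Algebra.trace (LamC O) (RCov O N) 1 = (N : LamC O) := by
  rw [trace_rCov_eq, map_one, trace_one_kumAlg _ _ hN]

/-- `Tr = N • covProj`. -/
theorem trace_eq_smul_covProj [Nontrivial O] (hN : 0 < N) (z : RCov O N) :
    Algebra.trace (LamC O) (RCov O N) z = (N : LamC O) * covProj O hN z := by
  rw [trace_rCov_eq, trace_eq_smul_kumProj _ _ hN, covProj_apply]

/-- The structure map `LamC O → RCov O N` is injective. -/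
theorem algebraMap_lamC_rCov_injective [Nontrivial O] (hN : 0 < N) :
    Function.Injective (algebraMap (LamC O) (RCov O N)) :=
  Function.LeftInverse.injective (g := covProj O hN) (covProj_algebraMap O hN)

/-! ### Ring theory -/

/-- the constants `O → LamC O` -/
noncomputable abbrev lamConst : O →+* LamC O := pawConst (cLam O)

variable (N) in
/-- the constants `O → RCov O N` -/
noncomputable abbrev covConst : O →+* RCov O N := pawConst (cCov O N)

theorem algebraMap_lamConst (a : O) :
    algebraMap (LamC O) (RCov O N) (lamConst O a) = covConst O N a :=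
  algebraMap_lamC_C O N a

instance instIsDomainLamC [IsDomain O] : IsDomain (LamC O) := isDomain_paw (cLam_ne_zero O)

theorem isDomain_rCov [IsDomain O] (hN : 0 < N) : IsDomain (RCov O N) :=
  isDomain_paw (cCov_ne_zero O hN)

instance instIsIntegrallyClosedLamC [IsDomain O] [IsIntegrallyClosed O] :
    IsIntegrallyClosed (LamC O) := isIntegrallyClosed_paw (cLam_ne_zero O)

theorem isIntegrallyClosed_rCov [IsDomain O] [IsIntegrallyClosed O] (hN : 0 < N) :
    IsIntegrallyClosed (RCov O N) := isIntegrallyClosed_paw (cCov_ne_zero O hN)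

example [IsNoetherianRing O] : IsNoetherianRing (RCov O N) := inferInstance

example [IsNoetherianRing O] : IsNoetherianRing (LamC O) := inferInstance

/-! ### Functoriality in `O` -/

section Functorial

variable {O} {O' : Type*} [CommRing O'] (f : O →+* O')

/-- `LamC` is functorial in `O`. -/
noncomputable def lamMap : LamC O →+* LamC O' := pawMap f (cLam O) (cLam O') (cLam_map f)

variable (N) in
/-- `RCov` is functorial in `O`. -/
noncomputable def covMap : RCov O N →+* RCov O' N := pawMap f (cCov O N) (cCov O' N) (cCov_map N f)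

@[simp] theorem lamMap_wLam : lamMap f (wLam O) = wLam O' := by
  rw [lamMap, wLam, pawMap_algebraMap, Polynomial.map_X, wLam]

@[simp] theorem covMap_yCov : covMap N f (yCov O N) = yCov O' N := by
  rw [covMap, yCov, pawMap_algebraMap, Polynomial.map_X, yCov]

@[simp] theorem lamMap_lamConst (a : O) : lamMap f (lamConst O a) = lamConst O' (f a) :=
  pawMap_pawConst f _ _ _ a

@[simp] theorem covMap_covConst (a : O) : covMap N f (covConst O N a) = covConst O' N (f a) :=
  pawMap_pawConst f _ _ _ a

/-- `covMap` is semilinear over `lamMap`. -/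
theorem covMap_algebraMap (a : LamC O) :
    covMap N f (algebraMap (LamC O) (RCov O N) a) = algebraMap (LamC O') (RCov O' N) (lamMap f a) := by
  have : (covMap N f).comp (algebraMap (LamC O) (RCov O N)) =
      (algebraMap (LamC O') (RCov O' N)).comp (lamMap f) := by
    refine IsLocalization.ringHom_ext (Submonoid.powers (cLam O)) (RingHom.ext fun p => ?_)
    simp only [RingHom.comp_apply]
    rw [algebraMap_lamC_rCov, lamToCov_algebraMap, covMap, pawMap_algebraMap, lamMap,
      pawMap_algebraMap, algebraMap_lamC_rCov, lamToCov_algebraMap, Polynomial.map_expand]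
  exact RingHom.congr_fun this a

/-- `covProj` commutes with base change. -/
theorem covProj_covMap [Nontrivial O] [Nontrivial O'] (hN : 0 < N) (z : RCov O N) :
    covProj O' hN (covMap N f z) = lamMap f (covProj O hN z) := by
  have hz := (covBasis O hN).sum_repr z
  rw [← hz, map_sum, map_sum, map_sum, map_sum]
  refine Finset.sum_congr rfl fun i _ => ?_
  have hL : ∀ (a : LamC O) (b : RCov O N), covProj O' hN (covMap N f (a • b)) =
      lamMap f a * covProj O' hN (covMap N f b) := fun a b => by
    rw [Algebra.smul_def, map_mul, covMap_algebraMap, ← Algebra.smul_def, map_smul, smul_eq_mul]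
  have hR : ∀ (a : LamC O) (b : RCov O N), lamMap f (covProj O hN (a • b)) =
      lamMap f a * lamMap f (covProj O hN b) := fun a b => by
    rw [map_smul, smul_eq_mul, map_mul]
  rw [hL, hR, covBasis_apply, map_pow, covMap_yCov]
  congr 1
  rcases Nat.eq_zero_or_pos (i : ℕ) with h0 | hpos
  · rw [h0, pow_zero, pow_zero, covProj_one, covProj_one, map_one]
  · rw [covProj_yCov_pow O' hN hpos i.2, covProj_yCov_pow O hN hpos i.2, map_zero]

theorem covMap_surjective (hf : Function.Surjective f) : Function.Surjective (covMap N f) :=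
  pawMap_surjective f _ _ _ hf

theorem lamMap_surjective (hf : Function.Surjective f) : Function.Surjective (lamMap f) :=
  pawMap_surjective f _ _ _ hf

theorem ker_covMap {π : O} (hπ : RingHom.ker f = Ideal.span {π}) :
    RingHom.ker (covMap N f) = Ideal.span {covConst O N π} :=
  ker_pawMap_span_singleton f _ _ _ hπ

theorem ker_lamMap {π : O} (hπ : RingHom.ker f = Ideal.span {π}) :
    RingHom.ker (lamMap f) = Ideal.span {lamConst O π} :=
  ker_pawMap_span_singleton f _ _ _ hπ

variable (N) in
/-- `RCov O N / (π) ≃ RCov O' N` when `f : O → O'` is onto with kernel `(π)`. -/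
noncomputable def covQuotientEquiv (hf : Function.Surjective f) {π : O}
    (hπ : RingHom.ker f = Ideal.span {π}) :
    (RCov O N ⧸ Ideal.span {covConst O N π}) ≃+* RCov O' N :=
  pawQuotientEquiv f _ _ (cCov_map N f) hf hπ

@[simp] theorem covQuotientEquiv_mk (hf : Function.Surjective f) {π : O}
    (hπ : RingHom.ker f = Ideal.span {π}) (z : RCov O N) :
    covQuotientEquiv N f hf hπ (Ideal.Quotient.mk _ z) = covMap N f z := rfl

/-- `LamC O / (π) ≃ LamC O'` when `f : O → O'` is onto with kernel `(π)`. -/
noncomputable def lamQuotientEquiv (hf : Function.Surjective f) {π : O}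
    (hπ : RingHom.ker f = Ideal.span {π}) :
    (LamC O ⧸ Ideal.span {lamConst O π}) ≃+* LamC O' :=
  pawQuotientEquiv f _ _ (cLam_map f) hf hπ

@[simp] theorem lamQuotientEquiv_mk (hf : Function.Surjective f) {π : O}
    (hπ : RingHom.ker f = Ideal.span {π}) (z : LamC O) :
    lamQuotientEquiv f hf hπ (Ideal.Quotient.mk _ z) = lamMap f z := rfl

end Functorial

/-! ### Reduction modulo a prime `π` of `O` and the generic fibre -/

section Prime

variable {O}

/-- `π` prime in the domain `O` ⇒ `π` prime in `RCov O N`. -/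
theorem prime_covConst [IsDomain O] (hN : 0 < N) {π : O} (hπ : Prime π) :
    Prime (covConst O N π) := by
  have : (Ideal.span {π}).IsPrime := (Ideal.span_singleton_prime hπ.ne_zero).mpr hπ
  exact prime_pawConst (Ideal.Quotient.mk (Ideal.span {π})) (cCov O N) (cCov _ N) (cCov_map N _)
    (cCov_ne_zero O hN) (cCov_ne_zero _ hN) Ideal.mk_ker hπ.ne_zero

/-- `π` prime in the domain `O` ⇒ `π` prime in `LamC O`. -/
theorem prime_lamConst [IsDomain O] {π : O} (hπ : Prime π) : Prime (lamConst O π) := by
  have : (Ideal.span {π}).IsPrime := (Ideal.span_singleton_prime hπ.ne_zero).mpr hπ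
  exact prime_pawConst (Ideal.Quotient.mk (Ideal.span {π})) (cLam O) (cLam _) (cLam_map _)
    (cLam_ne_zero O) (cLam_ne_zero _) Ideal.mk_ker hπ.ne_zero

variable (N) in
/-- The special fibre `RCov O N / π` is a PID when `(π)` is maximal. -/
theorem isPrincipalIdealRing_rCov_quotient {π : O} (hπ : (Ideal.span {π}).IsMaximal) :
    IsPrincipalIdealRing (RCov O N ⧸ Ideal.span {covConst O N π}) := by
  letI := Ideal.Quotient.field (Ideal.span {π})
  exact isPrincipalIdealRing_paw_quotient (cCov O N) (Ideal.Quotient.mk (Ideal.span {π}))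
    (cCov _ N) (cCov_map N _) Ideal.Quotient.mk_surjective Ideal.mk_ker

/-- The special fibre `LamC O / π` is a PID when `(π)` is maximal. -/
theorem isPrincipalIdealRing_lamC_quotient {π : O} (hπ : (Ideal.span {π}).IsMaximal) :
    IsPrincipalIdealRing (LamC O ⧸ Ideal.span {lamConst O π}) := by
  letI := Ideal.Quotient.field (Ideal.span {π})
  exact isPrincipalIdealRing_paw_quotient (cLam O) (Ideal.Quotient.mk (Ideal.span {π}))
    (cLam _) (cLam_map _) Ideal.Quotient.mk_surjective Ideal.mk_ker

variable (N) in
/-- The generic fibre `RCov O N [1/π]` is a PID when `O[1/π]` is a field `K`;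
it is `RCov K N`. -/
theorem isPrincipalIdealRing_rCov_away (K : Type*) [Field K] [Algebra O K] (π : O)
    [IsLocalization.Away π K] :
    IsPrincipalIdealRing (Localization.Away (covConst O N π)) :=
  isPrincipalIdealRing_paw_away (K := K) (cCov O N) π

variable (N) in
/-- `RCov K N = RCov O N [1/π]` when `K = O[1/π]`. -/
theorem isLocalization_away_rCov (K : Type*) [CommRing K] [Algebra O K] (π : O)
    [IsLocalization.Away π K] :
    @IsLocalization.Away (RCov O N) _ (covConst O N π) (RCov K N) _
      (covMap N (algebraMap O K)).toAlgebra :=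
  isLocalization_away_paw (cCov O N) (cCov K N) (cCov_map N _) π

/-- `LamC K = LamC O [1/π]` when `K = O[1/π]`. -/
theorem isLocalization_away_lamC (K : Type*) [CommRing K] [Algebra O K] (π : O)
    [IsLocalization.Away π K] :
    @IsLocalization.Away (LamC O) _ (lamConst O π) (LamC K) _
      (lamMap (algebraMap O K)).toAlgebra :=
  isLocalization_away_paw (cLam O) (cLam K) (cLam_map _) π

end Prime

end Fermat.Agent.Good.Kum
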