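import Mathlib

/-!
# The abstract group of the Hesse cover

Program L / L-GEN node [G-RCH].  The twelve Möbius transformations
`μ ↦ ω^i μ` and `μ ↦ ω^i (ω^k μ + 2)/(ω^k μ - 1)` (`i, k ∈ ℤ/3`) preserving the Hesse `j`-function
`27 μ³(μ³+8)³/(μ³-1)³` form a group isomorphic to `A₄`.  Here we define this group abstractly, by
its multiplication table (checked by `decide`), so that it does not depend on a base ring.
-/

namespace Fermat.Agent.Good

/-- The abstract 12-element group (isomorphic to `A₄`) acting on the Hesse cover:
`diag i` is `μ ↦ ω^i μ`, `inv i k` is `μ ↦ ω^i (ω^k μ + 2)/(ω^k μ - 1)`. -/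
inductive HesseGroup : Type
  | diag (i : ZMod 3) : HesseGroup
  | inv (i k : ZMod 3) : HesseGroup
  deriving DecidableEq, Fintype

namespace HesseGroup

/-- multiplication: `g * h` corresponds to the substitution automorphism `σ_g ∘ σ_h`. -/
def mul' : HesseGroup → HesseGroup → HesseGroup
  | diag i, diag i' => diag (i + i')
  | diag i, inv i' k' => inv i' (k' + i)
  | inv i k, diag i' => inv (i + i') k
  | inv i k, inv i' k' => if k' + i = 0 then diag (i' + k) else inv (i' - (k' + i)) (k - (k' + i))

/-- inverse -/
def inv' : HesseGroup → HesseGroup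
  | diag i => diag (-i)
  | inv i k => inv (-k) (-i)

instance : Mul HesseGroup := ⟨mul'⟩
instance : One HesseGroup := ⟨diag 0⟩
instance : Inv HesseGroup := ⟨inv'⟩

instance : Group HesseGroup where
  mul_assoc := by decide
  one_mul := by decide
  mul_one := by decide
  inv_mul_cancel := by decide

theorem card_eq : Fintype.card HesseGroup = 12 := by decide

end HesseGroup
end Fermat.Agent.Good
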