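import Mathlib
import Fermat.Agent.Good.HesseGroup

/-!
# Möbius transformations in commutative rings and the Hesse points

Program L / L-GEN node [G-RCH].

* `IsMob a b c d y z`: relational form of `z = (a y + b)/(c y + d)` in a commutative ring
  (`c y + d` a unit), with composition (`IsMob.comp` = matrix product), uniqueness, scalar
  invariance and functoriality; no inverses appear in the statements.
* `omegaPow ω i = ω ^ i` for `i : ZMod 3`, `hesseGA … hesseGD`: the matrix of the Möbius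
  transformation attached to `g : HesseGroup`; `hesseG_law`: `mat h * mat g = unit • mat (g * h)`.
* `hesseMob ω g y`: the image of a point `y` (with `y³ - 1` a unit); `isUnit_hesseMob_cusp`,
  `hesseMob_hesseMob` (group law on points), `hesseMob_one`, `map_hesseMob`.
* `IsHesseVal y J`: relational form of `J = 27 y³ (y³+8)³/(y³-1)³`; `IsHesseVal.hesseMob`:
  invariance under the twelve Möbius transformations.
-/

namespace Fermat.Agent.Good

universe u v

section MobRel

variable {S : Type u} [CommRing S] {T : Type v} [CommRing T]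

/-- Relational form of a Möbius transformation in a commutative ring:
`z = (a y + b)/(c y + d)` with `c y + d` a unit. -/
def IsMob (a b c d y z : S) : Prop := IsUnit (c * y + d) ∧ z * (c * y + d) = a * y + b

theorem IsMob.unique {a b c d y z z' : S} (h : IsMob a b c d y z) (h' : IsMob a b c d y z') :
    z = z' :=
  h.1.mul_left_injective (h.2.trans h'.2.symm)

theorem IsMob.comp {a b c d a' b' c' d' y z t : S} (h : IsMob a b c d y z)
    (h' : IsMob a' b' c' d' z t) :
    IsMob (a' * a + b' * c) (a' * b + b' * d) (c' * a + d' * c) (c' * b + d' * d) y t := by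
  obtain ⟨hu, hz⟩ := h
  obtain ⟨hu', ht⟩ := h'
  have e : (c' * a + d' * c) * y + (c' * b + d' * d) = (c' * z + d') * (c * y + d) := by
    linear_combination (-c') * hz
  refine ⟨?_, ?_⟩
  · rw [e]; exact hu'.mul hu
  · linear_combination (c * y + d) * ht - (t * c' - a') * hz

theorem IsMob.map (f : S →+* T) {a b c d y z : S} (h : IsMob a b c d y z) :
    IsMob (f a) (f b) (f c) (f d) (f y) (f z) := by
  obtain ⟨hu, hz⟩ := h
  refine ⟨?_, ?_⟩
  · simpa using hu.map f
  · simpa using congrArg f hz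

theorem IsMob.of_scalar {l a b c d y z : S} (hl : IsUnit l)
    (h : IsMob (l * a) (l * b) (l * c) (l * d) y z) : IsMob a b c d y z := by
  obtain ⟨hu, hz⟩ := h
  have e : l * c * y + l * d = l * (c * y + d) := by ring
  rw [e] at hu hz
  refine ⟨(IsUnit.mul_iff.mp hu).2, hl.mul_left_cancel ?_⟩
  linear_combination hz

theorem IsMob.congr {a b c d a' b' c' d' y z : S} (h : IsMob a b c d y z)
    (ha : a = a') (hb : b = b') (hc : c = c') (hd : d = d') : IsMob a' b' c' d' y z := by
  subst ha hb hc hd; exact h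

/-- the value of a Möbius transformation (meaningful when `c y + d` is a unit) -/
noncomputable def mobVal (a b c d y : S) : S := (a * y + b) * Ring.inverse (c * y + d)

theorem isMob_mobVal {a b c d y : S} (h : IsUnit (c * y + d)) :
    IsMob a b c d y (mobVal a b c d y) :=
  ⟨h, by rw [mobVal, mul_assoc, Ring.inverse_mul_cancel _ h, mul_one]⟩

end MobRel

section HessePoints

variable {S : Type u} [CommRing S] {T : Type v} [CommRing T]

/-- `ω ^ i` for `i : ZMod 3` -/
def omegaPow (ω : S) (i : ZMod 3) : S := ω ^ i.val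

theorem omegaPow_omega_cube {ω : S} (hω : ω ^ 2 + ω + 1 = 0) : ω ^ 3 = 1 := by
  linear_combination (ω - 1) * hω

theorem omegaPow_zero (ω : S) : omegaPow ω 0 = 1 := by simp [omegaPow]

theorem omegaPow_add {ω : S} (hω : ω ^ 2 + ω + 1 = 0) (i j : ZMod 3) :
    omegaPow ω (i + j) = omegaPow ω i * omegaPow ω j := by
  have h3 := omegaPow_omega_cube hω
  have key : ∀ n : ℕ, ω ^ (n % 3) = ω ^ n := by
    intro n
    conv_rhs => rw [← Nat.mod_add_div n 3, pow_add, pow_mul, h3, one_pow, mul_one]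
  unfold omegaPow
  rw [ZMod.val_add, key, pow_add]

theorem omegaPow_cube {ω : S} (hω : ω ^ 2 + ω + 1 = 0) (i : ZMod 3) : omegaPow ω i ^ 3 = 1 := by
  unfold omegaPow
  rw [← pow_mul, mul_comm, pow_mul, omegaPow_omega_cube hω, one_pow]

theorem omegaPow_sub_mul {ω : S} (hω : ω ^ 2 + ω + 1 = 0) (i j : ZMod 3) :
    omegaPow ω (i - j) * omegaPow ω j = omegaPow ω i := by
  rw [← omegaPow_add hω, sub_add_cancel]

theorem omegaPow_quad {ω : S} (hω : ω ^ 2 + ω + 1 = 0) {s : ZMod 3} (hs : s ≠ 0) :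
    omegaPow ω s ^ 2 + omegaPow ω s + 1 = 0 := by
  fin_cases s
  · exact absurd rfl hs
  · change (ω ^ 1) ^ 2 + ω ^ 1 + 1 = 0
    linear_combination hω
  · change (ω ^ 2) ^ 2 + ω ^ 2 + 1 = 0
    linear_combination (ω ^ 2 - ω + 1) * hω

theorem isUnit_omegaPow {ω : S} (hω : ω ^ 2 + ω + 1 = 0) (i : ZMod 3) : IsUnit (omegaPow ω i) :=
  .of_mul_eq_one (omegaPow ω i ^ 2) (by rw [← omegaPow_cube hω i]; ring)

theorem map_omegaPow (f : S →+* T) (ω : S) (i : ZMod 3) :
    f (omegaPow ω i) = omegaPow (f ω) i := by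
  simp [omegaPow]

open HesseGroup

/-- the matrix entries of the Möbius transformation attached to `g : HesseGroup` -/
def hesseGA (ω : S) : HesseGroup → S
  | diag i => omegaPow ω i
  | inv i k => omegaPow ω i * omegaPow ω k

/-- see `hesseGA` -/
def hesseGB (ω : S) : HesseGroup → S
  | diag _ => 0
  | inv i _ => 2 * omegaPow ω i

/-- see `hesseGA` -/
def hesseGC (ω : S) : HesseGroup → S
  | diag _ => 0
  | inv _ k => omegaPow ω k

/-- see `hesseGA` -/
def hesseGD (_ω : S) : HesseGroup → S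
  | diag _ => 1
  | inv _ _ => -1

theorem map_hesseGA (f : S →+* T) (ω : S) (g : HesseGroup) :
    f (hesseGA ω g) = hesseGA (f ω) g := by
  cases g <;> simp [hesseGA, map_omegaPow]

theorem map_hesseGB (f : S →+* T) (ω : S) (g : HesseGroup) :
    f (hesseGB ω g) = hesseGB (f ω) g := by
  cases g <;> simp [hesseGB, map_omegaPow, map_ofNat]

theorem map_hesseGC (f : S →+* T) (ω : S) (g : HesseGroup) :
    f (hesseGC ω g) = hesseGC (f ω) g := by
  cases g <;> simp [hesseGC, map_omegaPow]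

theorem map_hesseGD (f : S →+* T) (ω : S) (g : HesseGroup) :
    f (hesseGD ω g) = hesseGD (f ω) g := by
  cases g <;> simp [hesseGD]

theorem hesseGroup_mul_diag_diag (i i' : ZMod 3) : diag i * diag i' = diag (i + i') := rfl
theorem hesseGroup_mul_diag_inv (i i' k' : ZMod 3) : diag i * inv i' k' = inv i' (k' + i) := rfl
theorem hesseGroup_mul_inv_diag (i k i' : ZMod 3) : inv i k * diag i' = inv (i + i') k := rfl
theorem hesseGroup_mul_inv_inv_of_eq {i k i' k' : ZMod 3} (h : k' + i = 0) :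
    inv i k * inv i' k' = diag (i' + k) := if_pos h
theorem hesseGroup_mul_inv_inv_of_ne {i k i' k' : ZMod 3} (h : k' + i ≠ 0) :
    inv i k * inv i' k' = inv (i' - (k' + i)) (k - (k' + i)) := if_neg h

/-- The matrix of `g * h` is, up to a unit scalar, the product `mat h * mat g`. -/
theorem hesseG_law {ω : S} (hω : ω ^ 2 + ω + 1 = 0) (h3 : IsUnit (3 : S)) (g h : HesseGroup) :
    ∃ l : S, IsUnit l ∧
      hesseGA ω h * hesseGA ω g + hesseGB ω h * hesseGC ω g = l * hesseGA ω (g * h) ∧
      hesseGA ω h * hesseGB ω g + hesseGB ω h * hesseGD ω g = l * hesseGB ω (g * h) ∧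
      hesseGC ω h * hesseGA ω g + hesseGD ω h * hesseGC ω g = l * hesseGC ω (g * h) ∧
      hesseGC ω h * hesseGB ω g + hesseGD ω h * hesseGD ω g = l * hesseGD ω (g * h) := by
  rcases g with i | ⟨i, k⟩ <;> rcases h with i' | ⟨i', k'⟩
  · refine ⟨1, isUnit_one, ?_, ?_, ?_, ?_⟩ <;>
      simp only [hesseGroup_mul_diag_diag, hesseGA, hesseGB, hesseGC, hesseGD, omegaPow_add hω] <;> ring
  · refine ⟨1, isUnit_one, ?_, ?_, ?_, ?_⟩ <;>
      simp only [hesseGroup_mul_diag_inv, hesseGA, hesseGB, hesseGC, hesseGD, omegaPow_add hω] <;> ring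
  · refine ⟨1, isUnit_one, ?_, ?_, ?_, ?_⟩ <;>
      simp only [hesseGroup_mul_inv_diag, hesseGA, hesseGB, hesseGC, hesseGD, omegaPow_add hω] <;> ring
  · by_cases hs : k' + i = 0
    · have e : omegaPow ω k' * omegaPow ω i = 1 := by
        rw [← omegaPow_add hω, hs, omegaPow_zero]
      refine ⟨3, h3, ?_, ?_, ?_, ?_⟩ <;>
        simp only [hesseGroup_mul_inv_inv_of_eq hs, hesseGA, hesseGB, hesseGC, hesseGD, omegaPow_add hω]
      · linear_combination (omegaPow ω i' * omegaPow ω k) * e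
      · linear_combination (2 * omegaPow ω i') * e
      · linear_combination (omegaPow ω k) * e
      · linear_combination 2 * e
    · have hτ := omegaPow_quad hω hs
      have e1 := omegaPow_sub_mul hω i' (k' + i)
      have e2 := omegaPow_sub_mul hω k (k' + i)
      have e3 : omegaPow ω k' * omegaPow ω i = omegaPow ω (k' + i) := (omegaPow_add hω _ _).symm
      set τ := omegaPow ω (k' + i) with hτdef
      set A := omegaPow ω (i' - (k' + i)) with hA
      set B := omegaPow ω (k - (k' + i)) with hB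
      have hl : IsUnit (-(2 * τ + 1)) := by
        have : (-(2 * τ + 1)) * (-(2 * τ + 1)) = -3 := by linear_combination 4 * hτ
        have h3' : IsUnit (-(3 : S)) := h3.neg
        rw [← this] at h3'
        exact (IsUnit.mul_iff.mp h3').1
      refine ⟨-(2 * τ + 1), hl, ?_, ?_, ?_, ?_⟩ <;>
        simp only [hesseGroup_mul_inv_inv_of_ne hs, hesseGA, hesseGB, hesseGC, hesseGD, ← hA, ← hB,
          ← e1, ← e2]
      · linear_combination (A * B * τ ^ 2) * e3 + (A * B * (τ + 1)) * hτ
      · linear_combination (2 * A * τ) * e3 + (2 * A) * hτ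
      · linear_combination (B * τ) * e3 + B * hτ
      · linear_combination 2 * e3

end HessePoints


section HessePoints2

variable {S : Type u} [CommRing S] {T : Type v} [CommRing T]

open HesseGroup

theorem isUnit_hesseG_denom {ω : S} (hω : ω ^ 2 + ω + 1 = 0) (g : HesseGroup) {y : S}
    (hy : IsUnit (y ^ 3 - 1)) : IsUnit (hesseGC ω g * y + hesseGD ω g) := by
  rcases g with i | ⟨i, k⟩
  · simp [hesseGC, hesseGD]
  · simp only [hesseGC, hesseGD]
    have h3 := omegaPow_cube hω k
    have e : (omegaPow ω k * y + -1) * ((omegaPow ω k * y) ^ 2 + omegaPow ω k * y + 1) =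
        y ^ 3 - 1 := by
      linear_combination (y ^ 3) * h3
    rw [← e] at hy
    exact (IsUnit.mul_iff.mp hy).1

/-- The Möbius transformation attached to `g : HesseGroup` applied to a point `y`. -/
noncomputable def hesseMob (ω : S) (g : HesseGroup) (y : S) : S :=
  mobVal (hesseGA ω g) (hesseGB ω g) (hesseGC ω g) (hesseGD ω g) y

theorem isMob_hesseMob {ω : S} (hω : ω ^ 2 + ω + 1 = 0) (g : HesseGroup) {y : S}
    (hy : IsUnit (y ^ 3 - 1)) :
    IsMob (hesseGA ω g) (hesseGB ω g) (hesseGC ω g) (hesseGD ω g) y (hesseMob ω g y) :=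
  isMob_mobVal (isUnit_hesseG_denom hω g hy)

theorem hesseMob_eq_of_isMob {ω : S} (hω : ω ^ 2 + ω + 1 = 0) (g : HesseGroup) {y z : S}
    (hy : IsUnit (y ^ 3 - 1))
    (hz : IsMob (hesseGA ω g) (hesseGB ω g) (hesseGC ω g) (hesseGD ω g) y z) :
    hesseMob ω g y = z :=
  (isMob_hesseMob hω g hy).unique hz

/-- the image of a Hesse point under the Möbius transformations is again a Hesse point -/
theorem isUnit_hesseMob_cusp {ω : S} (hω : ω ^ 2 + ω + 1 = 0) (h3 : IsUnit (3 : S))
    (g : HesseGroup) {y : S} (hy : IsUnit (y ^ 3 - 1)) : IsUnit (hesseMob ω g y ^ 3 - 1) := by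
  obtain ⟨hu, hz⟩ := isMob_hesseMob hω g hy
  set z := hesseMob ω g y with hzdef
  rcases g with i | ⟨i, k⟩
  · simp only [hesseGA, hesseGB, hesseGC, hesseGD] at hz
    have e : z ^ 3 - 1 = y ^ 3 - 1 := by
      have : z = omegaPow ω i * y := by linear_combination hz
      rw [this]
      linear_combination (y ^ 3) * omegaPow_cube hω i
    rw [e]; exact hy
  · simp only [hesseGA, hesseGB, hesseGC, hesseGD] at hz hu
    set u := omegaPow ω k * y with hu_def
    have hu3 : u ^ 3 = y ^ 3 := by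
      rw [hu_def]; linear_combination (y ^ 3) * omegaPow_cube hω k
    have h1 : (z * (u + -1)) ^ 3 = (u + 2) ^ 3 := by
      rw [hz]
      linear_combination ((u + 2) ^ 3) * omegaPow_cube hω i
    have h2 : (z ^ 3 - 1) * (u + -1) ^ 3 = 9 * (u ^ 2 + u + 1) := by
      linear_combination h1
    have hq : IsUnit (u ^ 2 + u + 1) := by
      have e : (u + -1) * (u ^ 2 + u + 1) = y ^ 3 - 1 := by linear_combination hu3
      rw [← e] at hy
      exact (IsUnit.mul_iff.mp hy).2
    have h9 : IsUnit (9 : S) := by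
      have : (9 : S) = 3 * 3 := by norm_num
      rw [this]; exact h3.mul h3
    have : IsUnit ((z ^ 3 - 1) * (u + -1) ^ 3) := by
      rw [h2]; exact h9.mul hq
    exact (IsUnit.mul_iff.mp this).1

theorem hesseMob_one {ω : S} (hω : ω ^ 2 + ω + 1 = 0) {y : S} (hy : IsUnit (y ^ 3 - 1)) :
    hesseMob ω 1 y = y := by
  apply hesseMob_eq_of_isMob hω 1 hy
  change IsMob (omegaPow ω 0) 0 0 1 y y
  refine ⟨by simp, by simp [omegaPow_zero]⟩

theorem hesseMob_hesseMob {ω : S} (hω : ω ^ 2 + ω + 1 = 0) (h3 : IsUnit (3 : S))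
    (g h : HesseGroup) {y : S} (hy : IsUnit (y ^ 3 - 1)) :
    hesseMob ω h (hesseMob ω g y) = hesseMob ω (g * h) y := by
  have h1 := isMob_hesseMob hω g hy
  have h2 := isMob_hesseMob hω h (isUnit_hesseMob_cusp hω h3 g hy)
  obtain ⟨l, hl, ea, eb, ec, ed⟩ := hesseG_law hω h3 g h
  have h12 := (h1.comp h2).congr ea eb ec ed
  exact ((isMob_hesseMob hω (g * h) hy).unique (h12.of_scalar hl)).symm

theorem map_hesseMob (f : S →+* T) {ω : S} (hω : ω ^ 2 + ω + 1 = 0) (g : HesseGroup) {y : S}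
    (hy : IsUnit (y ^ 3 - 1)) : f (hesseMob ω g y) = hesseMob (f ω) g (f y) := by
  have hω' : f ω ^ 2 + f ω + 1 = 0 := by simpa using congrArg f hω
  have hy' : IsUnit (f y ^ 3 - 1) := by simpa using hy.map f
  have h := (isMob_hesseMob hω g hy).map f
  rw [map_hesseGA, map_hesseGB, map_hesseGC, map_hesseGD] at h
  exact (hesseMob_eq_of_isMob hω' g hy' h).symm

/-- Relational form of the Hesse `j`-function: `J = 27 y³ (y³+8)³/(y³-1)³`. -/
def IsHesseVal (y J : S) : Prop :=
  IsUnit (y ^ 3 - 1) ∧ J * (y ^ 3 - 1) ^ 3 = 27 * y ^ 3 * (y ^ 3 + 8) ^ 3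

theorem IsHesseVal.unique {y J J' : S} (h : IsHesseVal y J) (h' : IsHesseVal y J') : J = J' :=
  (h.1.pow 3).mul_left_injective (h.2.trans h'.2.symm)

theorem IsHesseVal.map (f : S →+* T) {y J : S} (h : IsHesseVal y J) : IsHesseVal (f y) (f J) := by
  refine ⟨by simpa using h.1.map f, ?_⟩
  simpa [map_ofNat] using congrArg f h.2

/-- invariance of the Hesse `j`-function under the twelve Möbius transformations -/
theorem IsHesseVal.hesseMob {ω : S} (hω : ω ^ 2 + ω + 1 = 0) (h3 : IsUnit (3 : S))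
    (g : HesseGroup) {y J : S} (h : IsHesseVal y J) : IsHesseVal (hesseMob ω g y) J := by
  obtain ⟨hy, hJ⟩ := h
  refine ⟨isUnit_hesseMob_cusp hω h3 g hy, ?_⟩
  obtain ⟨hu, hz⟩ := isMob_hesseMob hω g hy
  set z := Fermat.Agent.Good.hesseMob ω g y with hzdef
  rcases g with i | ⟨i, k⟩
  · simp only [hesseGA, hesseGB, hesseGC, hesseGD] at hz
    have e : z ^ 3 = y ^ 3 := by
      have : z = omegaPow ω i * y := by linear_combination hz
      rw [this]
      linear_combination (y ^ 3) * omegaPow_cube hω i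
    rw [e]; exact hJ
  · simp only [hesseGA, hesseGB, hesseGC, hesseGD] at hz hu
    set u := omegaPow ω k * y with hu_def
    have hu3 : u ^ 3 = y ^ 3 := by
      rw [hu_def]; linear_combination (y ^ 3) * omegaPow_cube hω k
    have h1 : (z * (u + -1)) ^ 3 = (u + 2) ^ 3 := by
      rw [hz]
      linear_combination ((u + 2) ^ 3) * omegaPow_cube hω i
    have h2 : (z ^ 3 - 1) * (u + -1) ^ 3 = 9 * (u ^ 2 + u + 1) := by
      linear_combination h1
    have h3' : (z ^ 3 + 8) * (u + -1) ^ 3 = 9 * u * (u ^ 2 - 2 * u + 4) := by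
      linear_combination h1
    have h4 : z ^ 3 * (u + -1) ^ 3 = (u + 2) ^ 3 := by
      linear_combination h1
    apply (hu.pow 12).mul_left_injective
    show J * (z ^ 3 - 1) ^ 3 * (u + -1) ^ 12 = 27 * z ^ 3 * (z ^ 3 + 8) ^ 3 * (u + -1) ^ 12
    calc J * (z ^ 3 - 1) ^ 3 * (u + -1) ^ 12
        = J * ((z ^ 3 - 1) * (u + -1) ^ 3) ^ 3 * (u + -1) ^ 3 := by ring
      _ = J * (9 * (u ^ 2 + u + 1)) ^ 3 * (u + -1) ^ 3 := by rw [h2]
      _ = 729 * (J * (u ^ 3 - 1) ^ 3) := by ring
      _ = 729 * (J * (y ^ 3 - 1) ^ 3) := by rw [hu3]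
      _ = 729 * (27 * y ^ 3 * (y ^ 3 + 8) ^ 3) := by rw [hJ]
      _ = 729 * (27 * u ^ 3 * (u ^ 3 + 8) ^ 3) := by rw [hu3]
      _ = 27 * (u + 2) ^ 3 * (9 * u * (u ^ 2 - 2 * u + 4)) ^ 3 := by ring
      _ = 27 * (z ^ 3 * (u + -1) ^ 3) * ((z ^ 3 + 8) * (u + -1) ^ 3) ^ 3 := by rw [h4, h3']
      _ = 27 * z ^ 3 * (z ^ 3 + 8) ^ 3 * (u + -1) ^ 12 := by ring

end HessePoints2
end Fermat.Agent.Good
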