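import Mathlib
import Fermat.Agent.Good.HesseMob

/-!
# The coordinate ring of the Hesse cover and its `A₄`-action

Program L / L-GEN node [G-RCH].  For any commutative ring `Λ`:

* `HesseRing Λ = Λ[X][1/(X³-1)]` (a def-wrapped `Localization.Away`, so that the `Λ[X]`-algebra
  structure can be reserved for the `j`-structure), coordinate `HesseRing.x`, inverse
  `HesseRing.wi` of `x³ - 1`, coordinate structure `HesseRing.ofPoly : Λ[X] →+* HesseRing Λ`;
* universal property `HesseRing.lift` / `HesseRing.liftₐ` (points `a` with `a³ - 1` a unit),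
  extensionality `HesseRing.ringHom_ext` / `HesseRing.algHom_ext`, functoriality `HesseRing.map`;
* `HesseRing.J = 27 x³(x³+8)³/(x³-1)³`;
* for `[HesseDatum Λ]` (a root `ω` of `ω²+ω+1`, `3` a unit): the substitution automorphisms
  `HesseRing.sigma g` (`x ↦ hesseMob ω g x`), the group homomorphism `HesseRing.sigmaHom`, the
  instance `MulSemiringAction HesseGroup (HesseRing Λ)`, invariance `HesseRing.sigma_J`.
-/

namespace Fermat.Agent.Good

open Polynomial

universe u v

/-- The cusp polynomial `X³ - 1` of the Hesse cover. -/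
noncomputable def hesseCusp (Λ : Type u) [CommRing Λ] : Λ[X] := X ^ 3 - 1

theorem hesseCusp_monic (Λ : Type u) [CommRing Λ] [Nontrivial Λ] : (hesseCusp Λ).Monic := by
  unfold hesseCusp
  exact monic_X_pow_sub_C (1 : Λ) (by norm_num)

theorem hesseCusp_map {Λ : Type u} {Λ' : Type v} [CommRing Λ] [CommRing Λ'] (f : Λ →+* Λ') :
    (hesseCusp Λ).map f = hesseCusp Λ' := by
  simp [hesseCusp]

/-- The coordinate ring `Λ[X][1/(X³-1)]` of the (affine, cusps removed) Hesse cover. -/
def HesseRing (Λ : Type u) [CommRing Λ] : Type u := Localization.Away (hesseCusp Λ)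

/-- The data needed for the `A₄`-action on the Hesse cover: a root `ω` of `ω² + ω + 1` and
invertibility of `3`. -/
class HesseDatum (Λ : Type u) [CommRing Λ] where
  /-- a primitive cube root of unity -/
  omega : Λ
  omega_quad : omega ^ 2 + omega + 1 = 0
  isUnit_three : IsUnit (3 : Λ)

namespace HesseRing

section Basic

variable (Λ : Type u) [CommRing Λ]

noncomputable instance instCommRing : CommRing (HesseRing Λ) :=
  inferInstanceAs (CommRing (Localization.Away (hesseCusp Λ)))

/-- The structure map `Λ[X] → HesseRing Λ` in the coordinate `X` (kept as a ring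
homomorphism: the `Λ[X]`-algebra structure of `HesseRing Λ` is reserved for the `j`-structure). -/
noncomputable def ofPoly : Λ[X] →+* HesseRing Λ :=
  algebraMap Λ[X] (Localization.Away (hesseCusp Λ))

noncomputable instance instAlgebra : Algebra Λ (HesseRing Λ) :=
  ((ofPoly Λ).comp (C : Λ →+* Λ[X])).toAlgebra

theorem algebraMap_eq : algebraMap Λ (HesseRing Λ) = (ofPoly Λ).comp C := rfl

/-- the coordinate function -/
noncomputable def x : HesseRing Λ := ofPoly Λ X

/-- the inverse of `x³ - 1` -/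
noncomputable def wi : HesseRing Λ :=
  IsLocalization.Away.invSelf (S := Localization.Away (hesseCusp Λ)) (hesseCusp Λ)

theorem ofPoly_cusp : ofPoly Λ (hesseCusp Λ) = x Λ ^ 3 - 1 := by
  simp [hesseCusp, x]

theorem cusp_mul_wi : (x Λ ^ 3 - 1) * wi Λ = 1 := by
  rw [← ofPoly_cusp]
  exact IsLocalization.Away.mul_invSelf (S := Localization.Away (hesseCusp Λ)) (hesseCusp Λ)

theorem isUnit_cusp : IsUnit (x Λ ^ 3 - 1) := .of_mul_eq_one _ (cusp_mul_wi Λ)

theorem isUnit_wi : IsUnit (wi Λ) :=
  .of_mul_eq_one (x Λ ^ 3 - 1) (by rw [mul_comm]; exact cusp_mul_wi Λ)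

theorem ofPoly_apply (p : Λ[X]) : ofPoly Λ p = aeval (x Λ) p := by
  induction p using Polynomial.induction_on' with
  | add p q hp hq => simp [hp, hq]
  | monomial n a =>
    simp [x, ← C_mul_X_pow_eq_monomial, algebraMap_eq]

theorem ofPoly_linear (a b : Λ) :
    ofPoly Λ (C a * X + C b) =
      algebraMap Λ (HesseRing Λ) a * x Λ + algebraMap Λ (HesseRing Λ) b := by
  simp [x, algebraMap_eq]

theorem isLocalization_ofPoly :
    @IsLocalization Λ[X] _ (Submonoid.powers (hesseCusp Λ)) (HesseRing Λ) _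
      (ofPoly Λ).toAlgebra := by
  have e : (ofPoly Λ).toAlgebra =
      (inferInstance : Algebra Λ[X] (Localization.Away (hesseCusp Λ))) :=
    Algebra.algebra_ext _ _ fun r => rfl
  rw [e]
  exact (inferInstance : IsLocalization (Submonoid.powers (hesseCusp Λ))
    (Localization.Away (hesseCusp Λ)))

variable {Λ}
variable {S : Type v} [CommRing S]

/-- Universal property of the Hesse ring: ring homomorphisms out of `HesseRing Λ` are
pairs of a ring homomorphism `f : Λ →+* S` and a point `a : S` with `a³ - 1` a unit. -/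
noncomputable def lift (f : Λ →+* S) (a : S) (ha : IsUnit (a ^ 3 - 1)) : HesseRing Λ →+* S :=
  IsLocalization.Away.lift (S := Localization.Away (hesseCusp Λ)) (hesseCusp Λ)
    (g := eval₂RingHom f a) (by simpa [hesseCusp] using ha)

@[simp]
theorem lift_ofPoly (f : Λ →+* S) (a : S) (ha : IsUnit (a ^ 3 - 1)) (p : Λ[X]) :
    lift f a ha (ofPoly Λ p) = eval₂ f a p := by
  exact IsLocalization.Away.lift_eq (S := Localization.Away (hesseCusp Λ)) (hesseCusp Λ)
    (g := eval₂RingHom f a) (by simpa [hesseCusp] using ha) p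

@[simp]
theorem lift_x (f : Λ →+* S) (a : S) (ha : IsUnit (a ^ 3 - 1)) : lift f a ha (x Λ) = a := by
  simp [x]

@[simp]
theorem lift_algebraMap (f : Λ →+* S) (a : S) (ha : IsUnit (a ^ 3 - 1)) (c : Λ) :
    lift f a ha (algebraMap Λ (HesseRing Λ) c) = f c := by
  simp [algebraMap_eq]

/-- Extensionality for ring homomorphisms out of the Hesse ring. -/
theorem ringHom_ext {φ ψ : HesseRing Λ →+* S}
    (h₁ : ∀ c : Λ, φ (algebraMap Λ _ c) = ψ (algebraMap Λ _ c)) (h₂ : φ (x Λ) = ψ (x Λ)) :
    φ = ψ := by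
  have key : ∀ {φ ψ : Localization.Away (hesseCusp Λ) →+* S},
      φ.comp (algebraMap Λ[X] (Localization.Away (hesseCusp Λ))) =
        ψ.comp (algebraMap Λ[X] (Localization.Away (hesseCusp Λ))) → φ = ψ :=
    fun h => IsLocalization.ringHom_ext (Submonoid.powers (hesseCusp Λ)) h
  apply key
  apply Polynomial.ringHom_ext
  · intro c
    exact h₁ c
  · exact h₂

/-- the universal property of the Hesse ring for `Λ`-algebras -/
noncomputable def liftₐ [Algebra Λ S] (a : S) (ha : IsUnit (a ^ 3 - 1)) : HesseRing Λ →ₐ[Λ] S where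
  __ := lift (algebraMap Λ S) a ha
  commutes' c := by simp

@[simp] theorem liftₐ_x [Algebra Λ S] (a : S) (ha : IsUnit (a ^ 3 - 1)) :
    liftₐ (Λ := Λ) a ha (x Λ) = a := by
  simp [liftₐ]

theorem algHom_ext [Algebra Λ S] {φ ψ : HesseRing Λ →ₐ[Λ] S} (h : φ (x Λ) = ψ (x Λ)) :
    φ = ψ := by
  have : (φ : HesseRing Λ →+* S) = (ψ : HesseRing Λ →+* S) :=
    ringHom_ext (fun c => by simp) h
  exact AlgHom.ext fun r => by simpa using congrArg (fun F : HesseRing Λ →+* S => F r) this

/-- every element of the Hesse ring is `p(x) * wi ^ n` -/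
theorem exists_eq_ofPoly_mul_wi_pow (r : HesseRing Λ) :
    ∃ (p : Λ[X]) (n : ℕ), r = ofPoly Λ p * wi Λ ^ n := by
  obtain ⟨n, p, h⟩ := IsLocalization.Away.surj (S := Localization.Away (hesseCusp Λ))
    (hesseCusp Λ) r
  refine ⟨p, n, ?_⟩
  have h' : r * (x Λ ^ 3 - 1) ^ n = ofPoly Λ p := by
    rw [← ofPoly_cusp]; exact h
  rw [← h', mul_assoc, ← mul_pow, cusp_mul_wi, one_pow, mul_one]

theorem ofPoly_injective : Function.Injective (ofPoly Λ) := by
  rcases subsingleton_or_nontrivial Λ with h | h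
  · intro a b _; exact Subsingleton.elim _ _
  · exact IsLocalization.injective (Localization.Away (hesseCusp Λ))
      (M := Submonoid.powers (hesseCusp Λ))
      (Submonoid.powers_le.mpr (hesseCusp_monic Λ).mem_nonZeroDivisors)

end Basic

section JFunction

variable (Λ : Type u) [CommRing Λ]

/-- the Hesse `j`-function `27 x³ (x³+8)³/(x³-1)³` as an element of the Hesse ring -/
noncomputable def J : HesseRing Λ := 27 * x Λ ^ 3 * (x Λ ^ 3 + 8) ^ 3 * wi Λ ^ 3

theorem isHesseVal_J : IsHesseVal (x Λ) (J Λ) := by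
  refine ⟨isUnit_cusp Λ, ?_⟩
  have h := cusp_mul_wi Λ
  unfold J
  calc 27 * x Λ ^ 3 * (x Λ ^ 3 + 8) ^ 3 * wi Λ ^ 3 * (x Λ ^ 3 - 1) ^ 3
      = 27 * x Λ ^ 3 * (x Λ ^ 3 + 8) ^ 3 * ((x Λ ^ 3 - 1) * wi Λ) ^ 3 := by ring
    _ = 27 * x Λ ^ 3 * (x Λ ^ 3 + 8) ^ 3 := by rw [h, one_pow, mul_one]

variable {Λ}
variable {Λ' : Type v} [CommRing Λ']

/-- functoriality of the Hesse ring in the base ring -/
noncomputable def map (f : Λ →+* Λ') : HesseRing Λ →+* HesseRing Λ' :=
  lift ((algebraMap Λ' (HesseRing Λ')).comp f) (x Λ') (isUnit_cusp Λ')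

@[simp] theorem map_x (f : Λ →+* Λ') : map f (x Λ) = x Λ' := by simp [map]

@[simp] theorem map_algebraMap (f : Λ →+* Λ') (c : Λ) :
    map f (algebraMap Λ (HesseRing Λ) c) = algebraMap Λ' (HesseRing Λ') (f c) := by
  simp [map]

theorem map_ofPoly (f : Λ →+* Λ') (p : Λ[X]) : map f (ofPoly Λ p) = ofPoly Λ' (p.map f) := by
  rw [map, lift_ofPoly, ofPoly_apply, aeval_def, eval₂_map]

theorem map_wi (f : Λ →+* Λ') : map f (wi Λ) = wi Λ' := by
  have h1 : (x Λ' ^ 3 - 1) * map f (wi Λ) = 1 := by
    have := congrArg (map f) (cusp_mul_wi Λ)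
    simpa using this
  have h2 := cusp_mul_wi Λ'
  calc map f (wi Λ) = ((x Λ' ^ 3 - 1) * wi Λ') * map f (wi Λ) := by rw [h2, one_mul]
    _ = wi Λ' * ((x Λ' ^ 3 - 1) * map f (wi Λ)) := by ring
    _ = wi Λ' := by rw [h1, mul_one]

theorem map_J (f : Λ →+* Λ') : map f (J Λ) = J Λ' :=
  ((isHesseVal_J Λ).map (map f)).unique (by rw [map_x]; exact isHesseVal_J Λ')

end JFunction

section Action

variable {Λ : Type u} [CommRing Λ] [D : HesseDatum Λ]

/-- `ω` as an element of the Hesse ring -/
noncomputable def omegaR : HesseRing Λ := algebraMap Λ (HesseRing Λ) (HesseDatum.omega)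

theorem omegaR_quad : (omegaR (Λ := Λ)) ^ 2 + omegaR + 1 = 0 := by
  have := congrArg (algebraMap Λ (HesseRing Λ)) (HesseDatum.omega_quad (Λ := Λ))
  simpa [omegaR] using this

theorem isUnit_three : IsUnit (3 : HesseRing Λ) := by
  have := (HesseDatum.isUnit_three (Λ := Λ)).map (algebraMap Λ (HesseRing Λ))
  rwa [map_ofNat] at this

/-- the image `m_g(x)` of the coordinate under the Möbius transformation attached to `g` -/
noncomputable def mobX (g : HesseGroup) : HesseRing Λ := hesseMob omegaR g (x Λ)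

theorem isUnit_mobX_cusp (g : HesseGroup) : IsUnit (mobX (Λ := Λ) g ^ 3 - 1) :=
  isUnit_hesseMob_cusp omegaR_quad isUnit_three g (isUnit_cusp Λ)

/-- the substitution endomorphism `x ↦ m_g(x)` -/
noncomputable def sigma (g : HesseGroup) : HesseRing Λ →ₐ[Λ] HesseRing Λ :=
  liftₐ (mobX g) (isUnit_mobX_cusp g)

@[simp] theorem sigma_x (g : HesseGroup) : sigma g (x Λ) = mobX g := by
  simp [sigma]

theorem sigma_omegaR (g : HesseGroup) : sigma g (omegaR (Λ := Λ)) = omegaR := by
  simp [omegaR]

theorem sigma_one : sigma (1 : HesseGroup) = AlgHom.id Λ (HesseRing Λ) := by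
  apply algHom_ext
  simp [mobX, hesseMob_one omegaR_quad (isUnit_cusp Λ)]

theorem sigma_mul (g h : HesseGroup) : sigma (g * h) = (sigma (Λ := Λ) g).comp (sigma h) := by
  apply algHom_ext
  simp only [AlgHom.comp_apply, sigma_x]
  have := map_hesseMob (sigma (Λ := Λ) g : HesseRing Λ →+* HesseRing Λ) omegaR_quad h
    (isUnit_cusp Λ)
  simp only [RingHom.coe_coe, sigma_omegaR, sigma_x] at this
  rw [mobX, mobX, this, mobX, hesseMob_hesseMob omegaR_quad isUnit_three g h (isUnit_cusp Λ)]

/-- the substitution automorphism attached to `g` -/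
noncomputable def sigmaEquiv (g : HesseGroup) : HesseRing Λ ≃ₐ[Λ] HesseRing Λ :=
  AlgEquiv.ofAlgHom (sigma g) (sigma g⁻¹)
    (by rw [← sigma_mul, mul_inv_cancel, sigma_one])
    (by rw [← sigma_mul, inv_mul_cancel, sigma_one])

/-- the action of `HesseGroup` on the Hesse ring as a group homomorphism -/
noncomputable def sigmaHom : HesseGroup →* (HesseRing Λ ≃ₐ[Λ] HesseRing Λ) where
  toFun := sigmaEquiv
  map_one' := by
    ext r
    simp [sigmaEquiv, sigma_one]
  map_mul' g h := by
    ext r
    simp [sigmaEquiv, sigma_mul]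

noncomputable instance instMulSemiringAction : MulSemiringAction HesseGroup (HesseRing Λ) :=
  MulSemiringAction.compHom (HesseRing Λ) (sigmaHom (Λ := Λ))

theorem smul_def (g : HesseGroup) (r : HesseRing Λ) : g • r = sigma g r := rfl

instance instSMulCommClass : SMulCommClass HesseGroup Λ (HesseRing Λ) where
  smul_comm g c r := by
    simp only [smul_def, Algebra.smul_def, map_mul, AlgHom.commutes]

theorem sigma_J (g : HesseGroup) : sigma g (J Λ) = J Λ := by
  have h1 := (isHesseVal_J Λ).map (sigma (Λ := Λ) g : HesseRing Λ →+* HesseRing Λ)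
  have h2 := (isHesseVal_J Λ).hesseMob omegaR_quad isUnit_three g
  simp only [RingHom.coe_coe, sigma_x] at h1
  exact h1.unique h2

theorem smul_J (g : HesseGroup) : g • J Λ = J Λ := sigma_J g

end Action

section ActionMap

variable {Λ : Type u} [CommRing Λ] [HesseDatum Λ]
variable {Λ' : Type v} [CommRing Λ'] [HesseDatum Λ']

theorem map_omegaR (f : Λ →+* Λ') (hf : f HesseDatum.omega = HesseDatum.omega) :
    map f (omegaR (Λ := Λ)) = omegaR := by
  simp [omegaR, hf]

theorem map_mobX (f : Λ →+* Λ') (hf : f HesseDatum.omega = HesseDatum.omega) (g : HesseGroup) :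
    map f (mobX (Λ := Λ) g) = mobX g := by
  rw [mobX, map_hesseMob (map f) omegaR_quad g (isUnit_cusp Λ), map_omegaR f hf, map_x, mobX]

/-- base change is equivariant -/
theorem map_sigma (f : Λ →+* Λ') (hf : f HesseDatum.omega = HesseDatum.omega) (g : HesseGroup)
    (z : HesseRing Λ) : map f (sigma g z) = sigma g (map f z) := by
  have : (map f).comp (sigma (Λ := Λ) g : HesseRing Λ →+* HesseRing Λ) =
      (sigma (Λ := Λ') g : HesseRing Λ' →+* HesseRing Λ').comp (map f) := by
    apply ringHom_ext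
    · intro c; simp
    · simp [map_mobX f hf]
  exact DFunLike.congr_fun this z

theorem map_smul' (f : Λ →+* Λ') (hf : f HesseDatum.omega = HesseDatum.omega) (g : HesseGroup)
    (z : HesseRing Λ) : map f (g • z) = g • map f z := map_sigma f hf g z

end ActionMap

end HesseRing
end Fermat.Agent.Good
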