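import Mathlib
import Fermat.Agent.Good.HesseRing

/-!
# The Hesse ring is free of rank `12` over `Λ[j]`

Program L / L-GEN node [G-RCH].  The `j`-structure `Algebra Λ[X] (HesseRing Λ)` (`X ↦ J`), the
monic polynomial `hesseDodecic Λ = T³(T³+8)³ - (j/27)(T³-1)³` of degree `12` over `Λ[j]`, the
isomorphism `hesseEquivAdjoin : HesseRing Λ ≃ₐ[Λ[j]] Λ[j][T]/(dodecic)` and the resulting power
basis `hesseBasis : 1, x, …, x¹¹`.
-/

namespace Fermat.Agent.Good

universe u v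

open Polynomial

namespace HesseRing

section JStructure

variable (Λ : Type u) [CommRing Λ]

/-- The `j`-structure: `HesseRing Λ` as an algebra over `Λ[j] = Λ[X]`, `X ↦ J`. -/
noncomputable instance instAlgebraPoly : Algebra Λ[X] (HesseRing Λ) :=
  (aeval (J Λ) : Λ[X] →ₐ[Λ] HesseRing Λ).toRingHom.toAlgebra

theorem algebraMap_poly (p : Λ[X]) : algebraMap Λ[X] (HesseRing Λ) p = aeval (J Λ) p := rfl

@[simp] theorem algebraMap_poly_X : algebraMap Λ[X] (HesseRing Λ) X = J Λ := by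
  rw [algebraMap_poly, aeval_X]

instance instIsScalarTowerPoly : IsScalarTower Λ Λ[X] (HesseRing Λ) :=
  .of_algebraMap_eq fun c => by
    rw [algebraMap_poly, Polynomial.algebraMap_apply, Algebra.algebraMap_self_apply, aeval_C]

variable {Λ}

theorem smul_algebraMap_poly [HesseDatum Λ] (g : HesseGroup) (p : Λ[X]) :
    g • algebraMap Λ[X] (HesseRing Λ) p = algebraMap Λ[X] (HesseRing Λ) p := by
  rw [algebraMap_poly, smul_def, ← aeval_algHom_apply, sigma_J]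

instance instSMulCommClassPoly [HesseDatum Λ] : SMulCommClass HesseGroup Λ[X] (HesseRing Λ) where
  smul_comm g p z := by
    rw [Algebra.smul_def, Algebra.smul_def, smul_mul', smul_algebraMap_poly]

end JStructure

end HesseRing

section Dodecic

variable (Λ : Type u) [CommRing Λ] [HesseDatum Λ]

/-- `1/3` -/
noncomputable def hesseInv3 : Λ := ↑((HesseDatum.isUnit_three (Λ := Λ)).unit⁻¹)

theorem three_mul_hesseInv3 : (3 : Λ) * hesseInv3 Λ = 1 :=
  (HesseDatum.isUnit_three (Λ := Λ)).mul_val_inv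

theorem hesseInv3_pow_mul (n : ℕ) : (3 : Λ) ^ n * hesseInv3 Λ ^ n = 1 := by
  rw [← mul_pow, three_mul_hesseInv3, one_pow]

/-- The monic polynomial `T³(T³+8)³ - (j/27)(T³-1)³` of degree `12` over `Λ[j]` satisfied by
the coordinate of the Hesse cover. -/
noncomputable def hesseDodecic : Λ[X][X] :=
  X ^ 3 * (X ^ 3 + 8) ^ 3 - C (C (hesseInv3 Λ ^ 3) * X) * (X ^ 3 - 1) ^ 3

theorem hesseDodecic_monic : (hesseDodecic Λ).Monic := by
  nontriviality Λ
  rw [hesseDodecic]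
  have h1 : ((X : Λ[X][X]) ^ 3 * (X ^ 3 + 8) ^ 3).Monic := by
    apply Monic.mul (monic_X_pow 3)
    apply Monic.pow
    monicity!
  have h2 : ((X : Λ[X][X]) ^ 3 * (X ^ 3 + 8) ^ 3).natDegree = 12 := by
    compute_degree!
  refine h1.sub_of_left ?_
  rw [degree_eq_natDegree h1.ne_zero, h2]
  refine lt_of_le_of_lt (degree_le_of_natDegree_le (n := 9) ?_) (by norm_num)
  compute_degree

theorem hesseDodecic_natDegree [Nontrivial Λ] : (hesseDodecic Λ).natDegree = 12 := by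
  rw [hesseDodecic]
  have h2 : ((X : Λ[X][X]) ^ 3 * (X ^ 3 + 8) ^ 3).natDegree = 12 := by
    compute_degree!
  rw [natDegree_sub_eq_left_of_natDegree_lt, h2]
  rw [h2]
  refine lt_of_le_of_lt (?_ : _ ≤ 9) (by norm_num)
  compute_degree

end Dodecic

end Fermat.Agent.Good

namespace Fermat.Agent.Good

universe u

open Polynomial

section Iso

variable (Λ : Type u) [CommRing Λ] [HesseDatum Λ]

/-- the defining relation of `AdjoinRoot (hesseDodecic Λ)` -/
theorem hesseDodecic_rel :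
    AdjoinRoot.root (hesseDodecic Λ) ^ 3 * (AdjoinRoot.root (hesseDodecic Λ) ^ 3 + 8) ^ 3 -
      AdjoinRoot.of (hesseDodecic Λ) (C (hesseInv3 Λ ^ 3) * X) *
        (AdjoinRoot.root (hesseDodecic Λ) ^ 3 - 1) ^ 3 = 0 := by
  have h := AdjoinRoot.eval₂_root (hesseDodecic Λ)
  have e : eval₂ (AdjoinRoot.of (hesseDodecic Λ)) (AdjoinRoot.root (hesseDodecic Λ))
      (X ^ 3 * (X ^ 3 + 8) ^ 3 - C (C (hesseInv3 Λ ^ 3) * X) * (X ^ 3 - 1) ^ 3) = 0 := h
  simpa only [eval₂_sub, eval₂_mul, eval₂_pow, eval₂_add, eval₂_X, eval₂_C, eval₂_one,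
    eval₂_ofNat] using e

/-- the inverse of `t³ - 1` in `AdjoinRoot (hesseDodecic Λ)` -/
noncomputable def hesseDodecicWinv : AdjoinRoot (hesseDodecic Λ) :=
  - AdjoinRoot.of (hesseDodecic Λ) (C (hesseInv3 Λ ^ 6)) *
    ((AdjoinRoot.root (hesseDodecic Λ) ^ 3 - 1) ^ 3 +
      28 * (AdjoinRoot.root (hesseDodecic Λ) ^ 3 - 1) ^ 2 +
      270 * (AdjoinRoot.root (hesseDodecic Λ) ^ 3 - 1) + 972 -
      AdjoinRoot.of (hesseDodecic Λ) (C (hesseInv3 Λ ^ 3) * X) *
        (AdjoinRoot.root (hesseDodecic Λ) ^ 3 - 1) ^ 2)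

theorem hesseDodecic_cusp_mul :
    (AdjoinRoot.root (hesseDodecic Λ) ^ 3 - 1) * hesseDodecicWinv Λ = 1 := by
  have h := hesseDodecic_rel Λ
  have h729 : (729 : AdjoinRoot (hesseDodecic Λ)) *
      AdjoinRoot.of (hesseDodecic Λ) (C (hesseInv3 Λ ^ 6)) = 1 := by
    have h0 : (729 : Λ[X]) * C (hesseInv3 Λ ^ 6) = 1 := by
      have h := hesseInv3_pow_mul Λ 6
      have h' : (729 : Λ[X]) = C ((3 : Λ) ^ 6) := by
        rw [← map_ofNat C 729]; norm_num
      rw [h', ← C_mul, h, C_1]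
    calc (729 : AdjoinRoot (hesseDodecic Λ)) * AdjoinRoot.of (hesseDodecic Λ) (C (hesseInv3 Λ ^ 6))
        = AdjoinRoot.of (hesseDodecic Λ) (729 * C (hesseInv3 Λ ^ 6)) := by
          simp only [map_mul, map_ofNat]
      _ = 1 := by rw [h0, map_one]
  rw [hesseDodecicWinv]
  set r := AdjoinRoot.root (hesseDodecic Λ)
  set c := AdjoinRoot.of (hesseDodecic Λ) (C (hesseInv3 Λ ^ 3) * X)
  set i := AdjoinRoot.of (hesseDodecic Λ) (C (hesseInv3 Λ ^ 6))
  linear_combination (-i) * h + h729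

theorem isUnit_hesseDodecic_cusp : IsUnit (AdjoinRoot.root (hesseDodecic Λ) ^ 3 - 1) :=
  .of_mul_eq_one _ (hesseDodecic_cusp_mul Λ)

/-- the map `HesseRing Λ → Λ[j][T]/(dodecic)`, `x ↦ T` -/
noncomputable def hesseToAdjoin : HesseRing Λ →ₐ[Λ] AdjoinRoot (hesseDodecic Λ) :=
  HesseRing.liftₐ (AdjoinRoot.root (hesseDodecic Λ)) (isUnit_hesseDodecic_cusp Λ)

@[simp] theorem hesseToAdjoin_x :
    hesseToAdjoin Λ (HesseRing.x Λ) = AdjoinRoot.root (hesseDodecic Λ) := by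
  rw [hesseToAdjoin, HesseRing.liftₐ_x]

theorem hesseToAdjoin_J :
    hesseToAdjoin Λ (HesseRing.J Λ) = AdjoinRoot.of (hesseDodecic Λ) X := by
  have hx := hesseToAdjoin_x Λ
  have h1 := congrArg (hesseToAdjoin Λ) (HesseRing.cusp_mul_wi Λ)
  rw [map_mul, map_one, map_sub, map_pow, map_one, hx] at h1
  have hrel := hesseDodecic_rel Λ
  have h27 : (27 : AdjoinRoot (hesseDodecic Λ)) *
      AdjoinRoot.of (hesseDodecic Λ) (C (hesseInv3 Λ ^ 3) * X) =
        AdjoinRoot.of (hesseDodecic Λ) X := by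
    have h0 : (27 : Λ[X]) * (C (hesseInv3 Λ ^ 3) * X) = X := by
      have h := hesseInv3_pow_mul Λ 3
      have h' : (27 : Λ[X]) = C ((3 : Λ) ^ 3) := by
        rw [← map_ofNat C 27]; norm_num
      rw [h', ← mul_assoc, ← C_mul, h, C_1, one_mul]
    calc (27 : AdjoinRoot (hesseDodecic Λ)) *
          AdjoinRoot.of (hesseDodecic Λ) (C (hesseInv3 Λ ^ 3) * X)
        = AdjoinRoot.of (hesseDodecic Λ) (27 * (C (hesseInv3 Λ ^ 3) * X)) := by
          simp only [map_mul, map_ofNat]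
      _ = _ := by rw [h0]
  simp only [HesseRing.J, map_mul, map_pow, map_add, map_ofNat, hx]
  set t := AdjoinRoot.root (hesseDodecic Λ)
  set b := hesseToAdjoin Λ (HesseRing.wi Λ)
  set c := AdjoinRoot.of (hesseDodecic Λ) (C (hesseInv3 Λ ^ 3) * X)
  have e : ((t ^ 3 - 1) * b) ^ 3 = 1 := by rw [h1]; ring
  rw [← h27]
  linear_combination (27 * b ^ 3) * hrel + (27 * c) * e

theorem hesseToAdjoin_algebraMap (p : Λ[X]) :
    hesseToAdjoin Λ (algebraMap Λ[X] (HesseRing Λ) p) =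
      algebraMap Λ[X] (AdjoinRoot (hesseDodecic Λ)) p := by
  rw [HesseRing.algebraMap_poly, ← aeval_algHom_apply, hesseToAdjoin_J, AdjoinRoot.algebraMap_eq]
  have : (aeval (AdjoinRoot.of (hesseDodecic Λ) X) : Λ[X] →ₐ[Λ] AdjoinRoot (hesseDodecic Λ)) =
      (Algebra.ofId Λ[X] (AdjoinRoot (hesseDodecic Λ))).restrictScalars Λ :=
    Polynomial.algHom_ext (by
      rw [aeval_X]; rfl)
  rw [this]
  rfl

/-- `hesseToAdjoin` as a `Λ[j]`-algebra map -/
noncomputable def hesseToAdjoinJ : HesseRing Λ →ₐ[Λ[X]] AdjoinRoot (hesseDodecic Λ) :=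
  { (hesseToAdjoin Λ : HesseRing Λ →+* AdjoinRoot (hesseDodecic Λ)) with
    commutes' := hesseToAdjoin_algebraMap Λ }

@[simp] theorem hesseToAdjoinJ_x :
    hesseToAdjoinJ Λ (HesseRing.x Λ) = AdjoinRoot.root (hesseDodecic Λ) :=
  hesseToAdjoin_x Λ

theorem hesseDodecic_eval₂_x :
    (hesseDodecic Λ).eval₂ (Algebra.ofId Λ[X] (HesseRing Λ) : Λ[X] →+* HesseRing Λ)
      (HesseRing.x Λ) = 0 := by
  have e : (Algebra.ofId Λ[X] (HesseRing Λ) : Λ[X] →+* HesseRing Λ) (C (hesseInv3 Λ ^ 3) * X)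
      = algebraMap Λ (HesseRing Λ) (hesseInv3 Λ ^ 3) * HesseRing.J Λ := by
    show algebraMap Λ[X] (HesseRing Λ) (C (hesseInv3 Λ ^ 3) * X) = _
    rw [HesseRing.algebraMap_poly, map_mul, aeval_C, aeval_X]
  rw [hesseDodecic]
  simp only [eval₂_sub, eval₂_mul, eval₂_pow, eval₂_add, eval₂_X, eval₂_C, eval₂_one,
    eval₂_ofNat]
  rw [e]
  have h := (HesseRing.isHesseVal_J Λ).2
  have h27 : (27 : HesseRing Λ) * algebraMap Λ (HesseRing Λ) (hesseInv3 Λ ^ 3) = 1 := by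
    rw [← map_ofNat (algebraMap Λ (HesseRing Λ)) 27, ← map_mul]
    have : (27 : Λ) * hesseInv3 Λ ^ 3 = 1 := by
      have h := hesseInv3_pow_mul Λ 3
      norm_num at h ⊢
      exact h
    rw [this, map_one]
  linear_combination (-(algebraMap Λ (HesseRing Λ) (hesseInv3 Λ ^ 3))) * h -
    (HesseRing.x Λ ^ 3 * (HesseRing.x Λ ^ 3 + 8) ^ 3) * h27

/-- the map `Λ[j][T]/(dodecic) → HesseRing Λ`, `T ↦ x` -/
noncomputable def hesseFromAdjoinJ : AdjoinRoot (hesseDodecic Λ) →ₐ[Λ[X]] HesseRing Λ :=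
  AdjoinRoot.liftAlgHom (hesseDodecic Λ) (Algebra.ofId Λ[X] (HesseRing Λ)) (HesseRing.x Λ)
    (hesseDodecic_eval₂_x Λ)

@[simp] theorem hesseFromAdjoinJ_root :
    hesseFromAdjoinJ Λ (AdjoinRoot.root (hesseDodecic Λ)) = HesseRing.x Λ := by
  rw [hesseFromAdjoinJ, AdjoinRoot.liftAlgHom_root]

/-- `HesseRing Λ ≃ Λ[j][T]/(dodecic)` as `Λ[j]`-algebras. -/
noncomputable def hesseEquivAdjoin : HesseRing Λ ≃ₐ[Λ[X]] AdjoinRoot (hesseDodecic Λ) :=
  AlgEquiv.ofAlgHom (hesseToAdjoinJ Λ) (hesseFromAdjoinJ Λ)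
    (AdjoinRoot.algHom_ext (by simp))
    (by
      have : ((hesseFromAdjoinJ Λ).comp (hesseToAdjoinJ Λ)).restrictScalars Λ =
          (AlgHom.id Λ[X] (HesseRing Λ)).restrictScalars Λ :=
        HesseRing.algHom_ext (by simp)
      ext z
      exact DFunLike.congr_fun this z)

@[simp] theorem hesseEquivAdjoin_x :
    hesseEquivAdjoin Λ (HesseRing.x Λ) = AdjoinRoot.root (hesseDodecic Λ) := hesseToAdjoin_x Λ

@[simp] theorem hesseEquivAdjoin_symm_root :
    (hesseEquivAdjoin Λ).symm (AdjoinRoot.root (hesseDodecic Λ)) = HesseRing.x Λ :=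
  hesseFromAdjoinJ_root Λ

instance HesseRing.instModuleFinitePoly : Module.Finite Λ[X] (HesseRing Λ) :=
  haveI := (hesseDodecic_monic Λ).finite_adjoinRoot
  Module.Finite.equiv (hesseEquivAdjoin Λ).symm.toLinearEquiv

instance HesseRing.instModuleFreePoly : Module.Free Λ[X] (HesseRing Λ) :=
  haveI := (hesseDodecic_monic Λ).free_adjoinRoot
  Module.Free.of_equiv (hesseEquivAdjoin Λ).symm.toLinearEquiv

/-- the power basis `1, x, …, x¹¹` of `HesseRing Λ` over `Λ[j]` -/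
noncomputable def hesseBasis [Nontrivial Λ] : Module.Basis (Fin 12) Λ[X] (HesseRing Λ) :=
  ((AdjoinRoot.powerBasis' (hesseDodecic_monic Λ)).basis.reindex
      (finCongr (hesseDodecic_natDegree Λ))).map (hesseEquivAdjoin Λ).symm.toLinearEquiv

theorem hesseBasis_apply [Nontrivial Λ] (i : Fin 12) :
    hesseBasis Λ i = HesseRing.x Λ ^ (i : ℕ) := by
  rw [hesseBasis, Module.Basis.map_apply, Module.Basis.reindex_apply, PowerBasis.basis_eq_pow]
  simp only [AdjoinRoot.powerBasis'_gen, AlgEquiv.coe_toLinearEquiv, map_pow,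
    hesseEquivAdjoin_symm_root]
  rfl

theorem hesseRing_finrank [Nontrivial Λ] : Module.finrank Λ[X] (HesseRing Λ) = 12 := by
  rw [Module.finrank_eq_card_basis (hesseBasis Λ), Fintype.card_fin]

end Iso

end Fermat.Agent.Good
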