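import Mathlib

/-!
# Rigid covers of the `j`-line: the common interface

Program L / L-GEN nodes [G-RCL] (Legendre, `G = S₃`) and [G-RCH] (Hesse, `G = A₄`).

A *rigid cover* over a base ring `Λ` is a `Λ[j]`-algebra `R` (here `Λ[j] = Polynomial Λ`) which is
at the same time a localisation `Λ[T][1/c]` of a polynomial ring in a coordinate `t`, free over
`Λ[j]` on `1, t, …, t^(|G|-1)`, with a finite group `G` acting by `Λ[j]`-algebra automorphisms,
faithfully on the coordinate, and on which `j` and `j - 1728` become a unit times a cube resp. a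
unit times a square.

Everything else one needs (domain, integrally closed, PID over a field, reduction modulo a prime of
`Λ`, invariants `R^G = Λ[j]`) follows from these data, see `Good/RigidCoverLemmas.lean`.
-/

namespace Fermat.Agent.Good

open Polynomial

universe u v

/-- A rigid cover of the `j`-line over `Λ` with group `G`. -/
structure RigidCover (Λ : Type u) [CommRing Λ] [Nontrivial Λ] (G : Type) [Group G] [Fintype G] where
  /-- the ring of the cover, `Λ[t, 1/c]` -/
  R : Type u
  [commRing : CommRing R]
  /-- the `j`-structure: `R` as an algebra over `Λ[j] = Polynomial Λ` -/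
  [algebra : Algebra Λ[X] R]
  [action : MulSemiringAction G R]
  [smulComm : SMulCommClass G Λ[X] R]
  /-- the coordinate `t` of the cover -/
  t : R
  /-- `R` is free over `Λ[j]` on `1, t, …, t^(|G|-1)` -/
  basis : Module.Basis (Fin (Fintype.card G)) Λ[X] R
  basis_apply : ∀ i, basis i = t ^ (i : ℕ)
  /-- faithfulness: the orbit map of the coordinate is injective -/
  smul_t_injective : Function.Injective fun g : G => g • t
  /-- the polynomial (in the coordinate) which is inverted -/
  c : Λ[X]
  c_monic : c.Monic
  /-- the coordinate structure `Λ[T] → R`, `T ↦ t` -/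
  coord : Λ[X] →+* R
  coord_C : ∀ a : Λ, coord (C a) = algebraMap Λ[X] R (C a)
  coord_X : coord X = t
  /-- `R = Λ[T][1/c]` via the coordinate structure -/
  isLocalization : @IsLocalization Λ[X] _ (Submonoid.powers c) R _ coord.toAlgebra
  /-- `j = w0 * u0 ^ 3` -/
  u0 : Λ[X]
  /-- `j - 1728 = w1 * v1 ^ 2` -/
  v1 : Λ[X]
  w0 : Rˣ
  w1 : Rˣ
  algebraMap_X : algebraMap Λ[X] R X = w0 * coord u0 ^ 3
  algebraMap_X_sub : algebraMap Λ[X] R (X - C 1728) = w1 * coord v1 ^ 2

attribute [instance] RigidCover.commRing RigidCover.algebra RigidCover.action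
  RigidCover.smulComm

/-- A base change morphism of rigid covers along `f : Λ →+* Λ'` (same group). -/
structure RigidCover.Hom {Λ : Type u} [CommRing Λ] [Nontrivial Λ] {Λ' : Type v} [CommRing Λ']
    [Nontrivial Λ'] {G : Type} [Group G] [Fintype G] (f : Λ →+* Λ')
    (P : RigidCover Λ G) (P' : RigidCover Λ' G) where
  /-- the underlying ring homomorphism -/
  toRingHom : P.R →+* P'.R
  map_t : toRingHom P.t = P'.t
  map_algebraMap : ∀ p : Λ[X],
    toRingHom (algebraMap Λ[X] P.R p) = algebraMap Λ'[X] P'.R (p.map f)
  map_coord : ∀ p : Λ[X], toRingHom (P.coord p) = P'.coord (p.map f)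
  map_smul : ∀ (g : G) (z : P.R), toRingHom (g • z) = g • toRingHom z
  map_c : P.c.map f = P'.c
  map_u0 : P.u0.map f = P'.u0
  map_v1 : P.v1.map f = P'.v1

end Fermat.Agent.Good
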