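import Mathlib
import Fermat.Agent.Good.HesseFree
import Fermat.Agent.Good.RigidCoverDefs

/-!
# The Hesse cover as a rigid cover of the `j`-line

Program L / L-GEN node [G-RCH].  For a nontrivial commutative ring `Λ` with `[HesseDatum Λ]`
(a root `ω` of `ω²+ω+1`, `3` a unit):

* `HesseRing.cover Λ : RigidCover Λ HesseGroup` — the ring `Λ[x, 1/(x³-1)]` with
  `j = 27 x³(x³+8)³/(x³-1)³`, free over `Λ[j]` on `1, …, x¹¹`, with the faithful `A₄`-action by
  the twelve Möbius transformations, `c = X³ - 1`, `u0 = X(X³+8)`, `v1 = X⁶ - 20X³ - 8`,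
  `w0 = w1 = 27/(x³-1)³`;
* `HesseRing.coverHom f hf : RigidCover.Hom f (cover Λ) (cover Λ')` for `f : Λ →+* Λ'` with
  `f ω = ω'`;
* `hesseU0_separable`, `hesseV1_separable`, `isCoprime_hesseU0_hesseV1` (`6` a unit),
  `isCoprime_hesseU0_hesseCusp`, `isCoprime_hesseV1_hesseCusp` (`3` a unit), with explicit
  Bezout identities.
-/

namespace Fermat.Agent.Good

universe u v

open Polynomial

section Sep

variable (Λ : Type u) [CommRing Λ]

/-- the polynomial `u0 = X (X³ + 8)`: `j = unit * u0³` -/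
noncomputable def hesseU0 : Λ[X] := X * (X ^ 3 + 8)

/-- the polynomial `v1 = X⁶ - 20 X³ - 8`: `j - 1728 = unit * v1²` -/
noncomputable def hesseV1 : Λ[X] := X ^ 6 - 20 * X ^ 3 - 8

variable {Λ}

theorem isCoprime_of_eq_C {a b p q : Λ[X]} {m : Λ} (hm : IsUnit m) (h : p * a + q * b = C m) :
    IsCoprime a b := by
  obtain ⟨n, hn⟩ := hm.exists_right_inv
  refine ⟨C n * p, C n * q, ?_⟩
  calc C n * p * a + C n * q * b = C n * (p * a + q * b) := by ring
    _ = 1 := by rw [h, ← C_mul, mul_comm, hn, C_1]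

theorem isUnit_natCast_of_dvd_pow_six {m : ℕ} (h6 : IsUnit (6 : Λ)) (k : ℕ) (h : m ∣ 6 ^ k) :
    IsUnit (m : Λ) := by
  obtain ⟨c, hc⟩ := h
  have : IsUnit ((6 : Λ) ^ k) := h6.pow k
  have e : (6 : Λ) ^ k = (m : Λ) * (c : Λ) := by
    have := congrArg (Nat.cast (R := Λ)) hc
    push_cast at this
    exact this
  rw [e] at this
  exact (IsUnit.mul_iff.mp this).1

variable (Λ)

theorem hesseU0_derivative : derivative (hesseU0 Λ) = 4 * X ^ 3 + 8 := by
  simp only [hesseU0, derivative_mul, derivative_X, derivative_add, derivative_X_pow,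
    derivative_ofNat]
  simp only [Nat.cast_ofNat, map_ofNat]
  ring

theorem hesseV1_derivative : derivative (hesseV1 Λ) = 6 * X ^ 5 - 60 * X ^ 2 := by
  simp only [hesseV1, derivative_sub, derivative_mul, derivative_X_pow, derivative_ofNat]
  simp only [Nat.cast_ofNat, map_ofNat]
  ring

theorem hesseU0_separable (h6 : IsUnit (6 : Λ)) : (hesseU0 Λ).Separable := by
  have h48 : IsUnit ((48 : ℕ) : Λ) := isUnit_natCast_of_dvd_pow_six h6 4 (by norm_num)
  refine isCoprime_of_eq_C (p := -(4 * X ^ 2)) (q := 6 + X ^ 3) h48 ?_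
  rw [hesseU0_derivative, hesseU0]
  simp only [Nat.cast_ofNat, map_ofNat]
  ring

theorem hesseV1_separable (h6 : IsUnit (6 : Λ)) : (hesseV1 Λ).Separable := by
  have hm : IsUnit ((2592 : ℕ) : Λ) := isUnit_natCast_of_dvd_pow_six h6 5 (by norm_num)
  refine isCoprime_of_eq_C (p := 30 * X ^ 3 - 324) (q := -(X * (5 * X ^ 3 - 104))) hm ?_
  rw [hesseV1_derivative, hesseV1]
  simp only [Nat.cast_ofNat, map_ofNat]
  ring

theorem isCoprime_hesseU0_hesseV1 (h6 : IsUnit (6 : Λ)) : IsCoprime (hesseU0 Λ) (hesseV1 Λ) := by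
  have hm : IsUnit ((1728 : ℕ) : Λ) := isUnit_natCast_of_dvd_pow_six h6 6 (by norm_num)
  refine isCoprime_of_eq_C (p := -((X ^ 3 - 28) * (X ^ 5 - 20 * X ^ 2)))
    (q := X ^ 6 - 20 * X ^ 3 - 216) hm ?_
  rw [hesseU0, hesseV1]
  simp only [Nat.cast_ofNat, map_ofNat]
  ring

theorem isCoprime_hesseU0_hesseCusp (h3 : IsUnit (3 : Λ)) :
    IsCoprime (hesseU0 Λ) (hesseCusp Λ) := by
  have hm : IsUnit ((9 : ℕ) : Λ) := by
    have : ((9 : ℕ) : Λ) = 3 * 3 := by norm_num
    rw [this]; exact h3.mul h3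
  refine isCoprime_of_eq_C (p := X ^ 2) (q := -(X ^ 3 + 9)) hm ?_
  rw [hesseU0, hesseCusp]
  simp only [Nat.cast_ofNat, map_ofNat]
  ring

theorem isCoprime_hesseV1_hesseCusp (h3 : IsUnit (3 : Λ)) :
    IsCoprime (hesseV1 Λ) (hesseCusp Λ) := by
  have hm : IsUnit ((27 : ℕ) : Λ) := by
    have : ((27 : ℕ) : Λ) = 3 * 3 * 3 := by norm_num
    rw [this]; exact (h3.mul h3).mul h3
  refine isCoprime_of_eq_C (p := -1) (q := X ^ 3 - 19) hm ?_
  rw [hesseV1, hesseCusp]
  simp only [Nat.cast_ofNat, map_ofNat]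
  ring

end Sep

section Faithful

variable {S : Type u} [CommRing S]

theorem omegaPow_injective [Nontrivial S] {ω : S} (hω : ω ^ 2 + ω + 1 = 0) (h3 : IsUnit (3 : S)) :
    Function.Injective (omegaPow ω) := by
  intro i j hij
  by_contra hne
  have hs : i - j ≠ 0 := sub_ne_zero.mpr hne
  have h1 := omegaPow_quad hω hs
  have h2 := omegaPow_sub_mul hω i j
  rw [hij] at h2
  have h4 : omegaPow ω (i - j) = 1 := by
    have hu := isUnit_omegaPow hω j
    exact hu.mul_left_injective (by simpa using h2)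
  rw [h4] at h1
  have : (3 : S) = 0 := by linear_combination h1
  rw [this] at h3
  exact not_isUnit_zero h3

end Faithful

namespace HesseRing

variable {Λ : Type u} [CommRing Λ] [HesseDatum Λ]

theorem mobX_injective [Nontrivial Λ] : Function.Injective (mobX (Λ := Λ)) := by
  intro g h hgh
  have hω := HesseDatum.omega_quad (Λ := Λ)
  have h3 := HesseDatum.isUnit_three (Λ := Λ)
  set ω := HesseDatum.omega (Λ := Λ) with hωdef
  have hg := isMob_hesseMob (omegaR_quad (Λ := Λ)) g (isUnit_cusp Λ)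
  have hh := isMob_hesseMob (omegaR_quad (Λ := Λ)) h (isUnit_cusp Λ)
  change IsMob _ _ _ _ _ (mobX g) at hg
  change IsMob _ _ _ _ _ (mobX h) at hh
  rw [hgh] at hg
  -- cross-multiplied identity in the Hesse ring
  have key : (hesseGA omegaR g * x Λ + hesseGB omegaR g) * (hesseGC omegaR h * x Λ + hesseGD omegaR h)
      = (hesseGA omegaR h * x Λ + hesseGB omegaR h) * (hesseGC omegaR g * x Λ + hesseGD omegaR g) := by
    linear_combination (-(hesseGC (omegaR (Λ := Λ)) h * x Λ + hesseGD omegaR h)) * hg.2 +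
      (hesseGC (omegaR (Λ := Λ)) g * x Λ + hesseGD omegaR g) * hh.2
  -- pull back to polynomials
  have eA : ∀ g, hesseGA (omegaR (Λ := Λ)) g = algebraMap Λ _ (hesseGA ω g) := fun g =>
    (map_hesseGA (algebraMap Λ (HesseRing Λ)) ω g).symm
  have eB : ∀ g, hesseGB (omegaR (Λ := Λ)) g = algebraMap Λ _ (hesseGB ω g) := fun g =>
    (map_hesseGB (algebraMap Λ (HesseRing Λ)) ω g).symm
  have eC : ∀ g, hesseGC (omegaR (Λ := Λ)) g = algebraMap Λ _ (hesseGC ω g) := fun g =>
    (map_hesseGC (algebraMap Λ (HesseRing Λ)) ω g).symm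
  have eD : ∀ g, hesseGD (omegaR (Λ := Λ)) g = algebraMap Λ _ (hesseGD ω g) := fun g =>
    (map_hesseGD (algebraMap Λ (HesseRing Λ)) ω g).symm
  rw [eA, eB, eC, eD, eA, eB, eC, eD, ← ofPoly_linear, ← ofPoly_linear, ← ofPoly_linear,
    ← ofPoly_linear, ← map_mul, ← map_mul] at key
  have keyP := ofPoly_injective key
  have c2 := congrArg (fun p => p.coeff 2) keyP
  have c1 := congrArg (fun p => p.coeff 1) keyP
  have c0 := congrArg (fun p => p.coeff 0) keyP
  have expand : ∀ a b c d : Λ, (C a * X + C b) * (C c * X + C d) =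
      C (a * c) * X ^ 2 + C (a * d + b * c) * X + C (b * d) := by
    intro a b c d
    simp only [map_mul, map_add]; ring
  simp only [expand, coeff_add, coeff_C_mul, coeff_X_pow, coeff_X, coeff_C] at c2 c1 c0
  norm_num at c2 c1 c0
  -- case analysis
  rcases g with i | ⟨i, k⟩ <;> rcases h with i' | ⟨i', k'⟩
  · simp only [hesseGA, hesseGB, hesseGC, hesseGD] at c1
    have := omegaPow_injective hω h3 (by simpa using c1)
    rw [this]
  · exfalso
    simp only [hesseGA, hesseGC] at c2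
    have hu : IsUnit (omegaPow ω i * omegaPow ω k') :=
      (isUnit_omegaPow hω i).mul (isUnit_omegaPow hω k')
    have : omegaPow ω i * omegaPow ω k' = 0 := by simpa using c2
    rw [this] at hu
    exact not_isUnit_zero hu
  · exfalso
    simp only [hesseGA, hesseGC] at c2
    have hu : IsUnit (omegaPow ω i' * omegaPow ω k) :=
      (isUnit_omegaPow hω i').mul (isUnit_omegaPow hω k)
    have : omegaPow ω i' * omegaPow ω k = 0 := by simpa using c2.symm
    rw [this] at hu
    exact not_isUnit_zero hu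
  · simp only [hesseGA, hesseGB, hesseGC, hesseGD] at c2 c1
    have hi : i = i' := by
      apply omegaPow_injective hω h3
      have hu := (isUnit_omegaPow hω k).mul (isUnit_omegaPow hω k')
      apply hu.mul_left_injective
      show omegaPow ω i * (omegaPow ω k * omegaPow ω k') = omegaPow ω i' * (omegaPow ω k * omegaPow ω k')
      linear_combination c2
    subst hi
    have hk : k = k' := by
      apply omegaPow_injective hω h3
      have hu := (isUnit_omegaPow hω i).mul h3
      apply hu.mul_left_injective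
      show omegaPow ω k * (omegaPow ω i * 3) = omegaPow ω k' * (omegaPow ω i * 3)
      linear_combination -c1
    rw [hk]


section Cover

variable (Λ : Type u) [CommRing Λ] [HesseDatum Λ]

omit [HesseDatum Λ] in
theorem ofPoly_hesseU0 : ofPoly Λ (hesseU0 Λ) = x Λ * (x Λ ^ 3 + 8) := by
  simp [hesseU0, x, map_ofNat]

omit [HesseDatum Λ] in
theorem ofPoly_hesseV1 : ofPoly Λ (hesseV1 Λ) = x Λ ^ 6 - 20 * x Λ ^ 3 - 8 := by
  simp [hesseV1, x, map_ofNat]

theorem isUnit_27_mul_wi_cube : IsUnit (27 * wi Λ ^ 3) := by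
  have h27 : IsUnit (27 : HesseRing Λ) := by
    have : (27 : HesseRing Λ) = 3 ^ 3 := by norm_num
    rw [this]; exact (isUnit_three (Λ := Λ)).pow 3
  exact h27.mul ((isUnit_wi Λ).pow 3)

/-- the unit `27/(x³-1)³` -/
noncomputable def w0 : (HesseRing Λ)ˣ := (isUnit_27_mul_wi_cube Λ).unit

theorem coe_w0 : (w0 Λ : HesseRing Λ) = 27 * wi Λ ^ 3 := rfl

theorem J_eq : J Λ = w0 Λ * ofPoly Λ (hesseU0 Λ) ^ 3 := by
  rw [coe_w0, ofPoly_hesseU0, J]; ring

theorem J_sub_eq : J Λ - 1728 = w0 Λ * ofPoly Λ (hesseV1 Λ) ^ 2 := by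
  rw [coe_w0, ofPoly_hesseV1, J]
  have h := cusp_mul_wi Λ
  have e : ((x Λ ^ 3 - 1) * wi Λ) ^ 3 = 1 := by rw [h, one_pow]
  linear_combination (1728 : HesseRing Λ) * e

variable [Nontrivial Λ]

/-- The Hesse cover `j = 27 x³(x³+8)³/(x³-1)³` with its `A₄`-action as a rigid cover. -/
noncomputable def cover : RigidCover Λ HesseGroup where
  R := HesseRing Λ
  t := x Λ
  basis := (hesseBasis Λ).reindex (finCongr HesseGroup.card_eq.symm)
  basis_apply i := by
    rw [Module.Basis.reindex_apply, hesseBasis_apply]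
    rfl
  smul_t_injective := by
    intro g h hgh
    apply mobX_injective (Λ := Λ)
    simpa [smul_def] using hgh
  c := hesseCusp Λ
  c_monic := hesseCusp_monic Λ
  coord := ofPoly Λ
  coord_C a := by
    rw [algebraMap_poly, aeval_C]; rfl
  coord_X := rfl
  isLocalization := isLocalization_ofPoly Λ
  u0 := hesseU0 Λ
  v1 := hesseV1 Λ
  w0 := w0 Λ
  w1 := w0 Λ
  algebraMap_X := by rw [algebraMap_poly_X]; exact J_eq Λ
  algebraMap_X_sub := by
    rw [map_sub, algebraMap_poly_X, algebraMap_poly, aeval_C, map_ofNat]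
    exact J_sub_eq Λ

end Cover

section Hom

variable {Λ : Type u} [CommRing Λ] [HesseDatum Λ] [Nontrivial Λ]
variable {Λ' : Type v} [CommRing Λ'] [HesseDatum Λ'] [Nontrivial Λ']

omit [HesseDatum Λ] [Nontrivial Λ] [HesseDatum Λ'] [Nontrivial Λ'] in
theorem map_algebraMap_poly (f : Λ →+* Λ') (p : Λ[X]) :
    map f (algebraMap Λ[X] (HesseRing Λ) p) = algebraMap Λ'[X] (HesseRing Λ') (p.map f) := by
  rw [algebraMap_poly, algebraMap_poly]
  induction p using Polynomial.induction_on' with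
  | add p q hp hq => simp [hp, hq]
  | monomial n a =>
    simp [← C_mul_X_pow_eq_monomial, map_J]

/-- base change of the Hesse cover along a ring homomorphism respecting `ω` -/
noncomputable def coverHom (f : Λ →+* Λ') (hf : f HesseDatum.omega = HesseDatum.omega) :
    RigidCover.Hom f (cover Λ) (cover Λ') where
  toRingHom := map f
  map_t := map_x f
  map_algebraMap := map_algebraMap_poly f
  map_coord := map_ofPoly f
  map_smul := map_sigma f hf
  map_c := hesseCusp_map f
  map_u0 := by simp [cover, hesseU0]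
  map_v1 := by simp [cover, hesseV1]

end Hom

end HesseRing

end Fermat.Agent.Good
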