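import Mathlib
import Fermat.Agent.Good.RigidCoverHesse

/-!
# Adjoining a primitive cube root of unity: `Λ[ω] = Λ[X]/(X² + X + 1)`

Program L / L-GEN node [G-HB] (base ring of the Hesse cover).  For any commutative ring `Λ`:
`OmegaExt Λ` with the root `OmegaExt.ω`, the basis `1, ω`, the conjugation `OmegaExt.conj`
(`ω ↦ -1 - ω`) with fixed ring `Λ`, the norm form `a² - ab + b²`, functoriality `OmegaExt.map`,
and the instance `HesseDatum (OmegaExt Λ)` when `3` is invertible.

If `ρ : Λ →+* k` is the residue map of a local domain `Λ` onto a field `k` over which `X² + X + 1`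
is irreducible, then `OmegaExt Λ` is a local ring with residue map `OmegaExt.map ρ` onto the field
`OmegaExt k`, a domain (for `Λ` a UFD), and a discrete valuation ring with the same uniformiser
when `ker ρ = (π)`, `π ≠ 0`, `Λ` Noetherian.
-/

namespace Fermat.Agent.Good

universe u v

open Polynomial

section OmegaExt

variable (Λ : Type u) [CommRing Λ]

/-- the polynomial `X² + X + 1` -/
noncomputable def omegaPoly : Λ[X] := X ^ 2 + X + 1

theorem omegaPoly_monic : (omegaPoly Λ).Monic := by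
  unfold omegaPoly
  monicity!

theorem omegaPoly_natDegree [Nontrivial Λ] : (omegaPoly Λ).natDegree = 2 := by
  unfold omegaPoly
  compute_degree!

theorem omegaPoly_map {Λ' : Type v} [CommRing Λ'] (f : Λ →+* Λ') :
    (omegaPoly Λ).map f = omegaPoly Λ' := by
  simp [omegaPoly]

/-- `Λ[ω] = Λ[X]/(X² + X + 1)` -/
abbrev OmegaExt : Type u := AdjoinRoot (omegaPoly Λ)

namespace OmegaExt

/-- the adjoined primitive cube root of unity -/
noncomputable def ω : OmegaExt Λ := AdjoinRoot.root (omegaPoly Λ)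

theorem ω_quad : ω Λ ^ 2 + ω Λ + 1 = 0 := by
  have h := AdjoinRoot.eval₂_root (omegaPoly Λ)
  have e : eval₂ (AdjoinRoot.of (omegaPoly Λ)) (AdjoinRoot.root (omegaPoly Λ))
      (X ^ 2 + X + 1) = 0 := h
  show AdjoinRoot.root (omegaPoly Λ) ^ 2 + AdjoinRoot.root (omegaPoly Λ) + 1 = 0
  simpa only [eval₂_add, eval₂_pow, eval₂_X, eval₂_one] using e

noncomputable instance instHesseDatum [Invertible (3 : Λ)] : HesseDatum (OmegaExt Λ) where
  omega := ω Λ
  omega_quad := ω_quad Λ
  isUnit_three := by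
    have : IsUnit (3 : Λ) := isUnit_of_invertible 3
    have h := this.map (algebraMap Λ (OmegaExt Λ))
    rwa [map_ofNat] at h

theorem hesseDatum_omega [Invertible (3 : Λ)] :
    (HesseDatum.omega : OmegaExt Λ) = ω Λ := rfl

/-- the basis `1, ω` -/
noncomputable def basis [Nontrivial Λ] : Module.Basis (Fin 2) Λ (OmegaExt Λ) :=
  (AdjoinRoot.powerBasis' (omegaPoly_monic Λ)).basis.reindex (finCongr (omegaPoly_natDegree Λ))

theorem basis_apply [Nontrivial Λ] (i : Fin 2) : basis Λ i = ω Λ ^ (i : ℕ) := by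
  rw [basis, Module.Basis.reindex_apply, PowerBasis.basis_eq_pow]
  simp only [AdjoinRoot.powerBasis'_gen]
  rfl

instance instFree : Module.Free Λ (OmegaExt Λ) := (omegaPoly_monic Λ).free_adjoinRoot

instance instFinite : Module.Finite Λ (OmegaExt Λ) := (omegaPoly_monic Λ).finite_adjoinRoot

theorem finrank_eq [Nontrivial Λ] : Module.finrank Λ (OmegaExt Λ) = 2 := by
  rw [Module.finrank_eq_card_basis (basis Λ), Fintype.card_fin]

/-- every element is `a + b ω` -/
theorem exists_repr (z : OmegaExt Λ) :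
    ∃ a b : Λ, z = algebraMap Λ _ a + algebraMap Λ _ b * ω Λ := by
  rcases subsingleton_or_nontrivial Λ with h | h
  · have : Subsingleton (OmegaExt Λ) := by
      refine ⟨fun a b => ?_⟩
      have : (1 : OmegaExt Λ) = 0 := by
        rw [← map_one (algebraMap Λ (OmegaExt Λ)), Subsingleton.elim (1 : Λ) 0, map_zero]
      rw [← one_mul a, ← one_mul b, this, zero_mul, zero_mul]
    exact ⟨0, 0, Subsingleton.elim _ _⟩
  · refine ⟨(basis Λ).repr z 0, (basis Λ).repr z 1, ?_⟩
    conv_lhs => rw [← (basis Λ).sum_repr z]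
    rw [Fin.sum_univ_two, basis_apply, basis_apply]
    simp [Algebra.smul_def]

theorem repr_unique [Nontrivial Λ] {a b a' b' : Λ}
    (h : algebraMap Λ (OmegaExt Λ) a + algebraMap Λ _ b * ω Λ =
      algebraMap Λ _ a' + algebraMap Λ _ b' * ω Λ) : a = a' ∧ b = b' := by
  have key : ∀ a b : Λ, algebraMap Λ (OmegaExt Λ) a + algebraMap Λ _ b * ω Λ =
      ∑ i : Fin 2, (![a, b] i) • basis Λ i := by
    intro a b
    rw [Fin.sum_univ_two, basis_apply, basis_apply]
    simp [Algebra.smul_def]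
  rw [key, key] at h
  have := (basis Λ).repr.injective.eq_iff.mpr h
  have h0 := congrArg (fun f => f 0) this
  have h1 := congrArg (fun f => f 1) this
  simp only [Module.Basis.repr_sum_self] at h0 h1
  exact ⟨by simpa using h0, by simpa using h1⟩

/-- the conjugation `ω ↦ ω² = -1 - ω` -/
noncomputable def conjHom : OmegaExt Λ →ₐ[Λ] OmegaExt Λ :=
  AdjoinRoot.liftAlgHom (omegaPoly Λ) (Algebra.ofId Λ (OmegaExt Λ)) (-1 - ω Λ) (by
    have h := ω_quad Λ
    show eval₂ _ _ (X ^ 2 + X + 1) = 0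
    simp only [eval₂_add, eval₂_X_pow, eval₂_X, eval₂_one]
    linear_combination h)

@[simp] theorem conjHom_ω : conjHom Λ (ω Λ) = -1 - ω Λ := by
  unfold conjHom
  exact AdjoinRoot.liftAlgHom_root _ _ _ _

theorem conjHom_conjHom : (conjHom Λ).comp (conjHom Λ) = AlgHom.id Λ (OmegaExt Λ) := by
  apply AdjoinRoot.algHom_ext
  change conjHom Λ (conjHom Λ (ω Λ)) = ω Λ
  rw [conjHom_ω, map_sub, map_neg, map_one, conjHom_ω]
  ring

/-- the conjugation as an automorphism -/
noncomputable def conj : OmegaExt Λ ≃ₐ[Λ] OmegaExt Λ :=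
  AlgEquiv.ofAlgHom (conjHom Λ) (conjHom Λ) (conjHom_conjHom Λ) (conjHom_conjHom Λ)

@[simp] theorem conj_ω : conj Λ (ω Λ) = -1 - ω Λ := conjHom_ω Λ

theorem conj_conj (z : OmegaExt Λ) : conj Λ (conj Λ z) = z :=
  DFunLike.congr_fun (conjHom_conjHom Λ) z

/-- the fixed points of the conjugation are the constants -/
theorem conj_eq_self_iff [Nontrivial Λ] (z : OmegaExt Λ) :
    conj Λ z = z ↔ z ∈ Set.range (algebraMap Λ (OmegaExt Λ)) := by
  constructor
  · intro h
    obtain ⟨a, b, rfl⟩ := exists_repr Λ z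
    rw [map_add, map_mul, AlgEquiv.commutes, AlgEquiv.commutes, conj_ω] at h
    have h' : algebraMap Λ (OmegaExt Λ) (a - b) + algebraMap Λ _ (-b) * ω Λ =
        algebraMap Λ _ a + algebraMap Λ _ b * ω Λ := by
      rw [map_sub, map_neg]; linear_combination h
    obtain ⟨h1, _⟩ := repr_unique Λ h'
    have hb : b = 0 := by linear_combination -h1
    exact ⟨a, by rw [hb]; simp⟩
  · rintro ⟨a, rfl⟩
    exact AlgEquiv.commutes _ a

end OmegaExt

end OmegaExt




namespace OmegaExt

section Map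

variable {Λ : Type u} [CommRing Λ] {Λ' : Type v} [CommRing Λ']

/-- functoriality of `Λ ↦ Λ[ω]` -/
noncomputable def map (f : Λ →+* Λ') : OmegaExt Λ →+* OmegaExt Λ' :=
  AdjoinRoot.map f (omegaPoly Λ) (omegaPoly Λ') (by rw [omegaPoly_map])

@[simp] theorem map_ω (f : Λ →+* Λ') : map f (ω Λ) = ω Λ' := by
  unfold map ω
  exact AdjoinRoot.map_root _ _ _ _

@[simp] theorem map_algebraMap (f : Λ →+* Λ') (a : Λ) :
    map f (algebraMap Λ (OmegaExt Λ) a) = algebraMap Λ' (OmegaExt Λ') (f a) := by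
  unfold map
  exact AdjoinRoot.map_of _ _ _ _ _

@[simp] theorem map_of (f : Λ →+* Λ') (a : Λ) :
    map f (AdjoinRoot.of (omegaPoly Λ) a) = AdjoinRoot.of (omegaPoly Λ') (f a) :=
  map_algebraMap f a

@[simp] theorem conj_of (a : Λ) :
    conj Λ (AdjoinRoot.of (omegaPoly Λ) a) = AdjoinRoot.of (omegaPoly Λ) a :=
  AlgEquiv.commutes (conj Λ) a

theorem map_conj (f : Λ →+* Λ') (z : OmegaExt Λ) : map f (conj Λ z) = conj Λ' (map f z) := by
  obtain ⟨a, b, rfl⟩ := exists_repr Λ z
  simp

/-- the norm form `a² - ab + b²` -/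
theorem mul_conj (a b : Λ) :
    (algebraMap Λ (OmegaExt Λ) a + algebraMap Λ _ b * ω Λ) *
      conj Λ (algebraMap Λ (OmegaExt Λ) a + algebraMap Λ _ b * ω Λ) =
      algebraMap Λ _ (a ^ 2 - a * b + b ^ 2) := by
  have h := ω_quad Λ
  simp only [map_add, map_mul, AlgEquiv.commutes, conj_ω, map_sub, map_pow]
  linear_combination (-(algebraMap Λ (OmegaExt Λ) b) ^ 2) * h

theorem map_surjective (f : Λ →+* Λ') (hf : Function.Surjective f) :
    Function.Surjective (map f) := by
  intro z
  obtain ⟨a, b, rfl⟩ := exists_repr Λ' z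
  obtain ⟨a', rfl⟩ := hf a
  obtain ⟨b', rfl⟩ := hf b
  exact ⟨algebraMap Λ _ a' + algebraMap Λ _ b' * ω Λ, by simp⟩

theorem ker_map [Nontrivial Λ'] (f : Λ →+* Λ') (π : Λ) (hker : RingHom.ker f = Ideal.span {π}) :
    RingHom.ker (map f) = Ideal.span {algebraMap Λ (OmegaExt Λ) π} := by
  apply le_antisymm
  · intro z hz
    obtain ⟨a, b, rfl⟩ := exists_repr Λ z
    rw [RingHom.mem_ker, map_add, map_mul, map_algebraMap, map_algebraMap, map_ω] at hz
    have h0 : algebraMap Λ' (OmegaExt Λ') (f a) + algebraMap Λ' _ (f b) * ω Λ' =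
        algebraMap Λ' _ 0 + algebraMap Λ' _ 0 * ω Λ' := by
      rw [hz]; simp
    obtain ⟨ha, hb⟩ := repr_unique Λ' h0
    have ha' : a ∈ Ideal.span {π} := by rw [← hker]; exact ha
    have hb' : b ∈ Ideal.span {π} := by rw [← hker]; exact hb
    obtain ⟨a', rfl⟩ := Ideal.mem_span_singleton'.mp ha'
    obtain ⟨b', rfl⟩ := Ideal.mem_span_singleton'.mp hb'
    apply Ideal.mem_span_singleton'.mpr
    refine ⟨algebraMap Λ _ a' + algebraMap Λ _ b' * ω Λ, ?_⟩
    simp only [map_mul]
    ring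
  · rw [Ideal.span_le]
    rintro _ rfl
    have : f π = 0 := by
      have : π ∈ RingHom.ker f := by rw [hker]; exact Ideal.subset_span rfl
      exact this
    simp [this]

end Map

section DVR

variable {Λ : Type u} [CommRing Λ] [IsDomain Λ] {k : Type v} [Field k]
  (ρ : Λ →+* k) (hρ : Function.Surjective ρ)
  (hloc : ∀ a : Λ, ρ a ≠ 0 → IsUnit a)
  (hirr : Irreducible (omegaPoly k))

include ρ hirr in
theorem irreducible_omegaPoly : Irreducible (omegaPoly Λ) := by
  apply (omegaPoly_monic Λ).irreducible_of_irreducible_map ρ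
  rw [omegaPoly_map]; exact hirr

include ρ hirr in
theorem isDomain [UniqueFactorizationMonoid Λ] : IsDomain (OmegaExt Λ) :=
  AdjoinRoot.isDomain_of_prime
    (UniqueFactorizationMonoid.irreducible_iff_prime.mp (irreducible_omegaPoly ρ hirr))

omit [IsDomain Λ] in
include hloc hirr in
/-- the units of `Λ[ω]` are the elements with nonzero reduction -/
theorem isUnit_of_map_ne_zero (z : OmegaExt Λ) (hz : map ρ z ≠ 0) : IsUnit z := by
  have : Fact (Irreducible (omegaPoly k)) := ⟨hirr⟩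
  obtain ⟨a, b, rfl⟩ := exists_repr Λ z
  have hN := mul_conj a b
  have hc : conj k (map ρ (algebraMap Λ (OmegaExt Λ) a + algebraMap Λ _ b * ω Λ)) ≠ 0 := by
    intro h
    apply hz
    have := congrArg (conj k) h
    rwa [conj_conj, map_zero] at this
  have hne : map ρ (algebraMap Λ (OmegaExt Λ) (a ^ 2 - a * b + b ^ 2)) ≠ 0 := by
    rw [← hN, map_mul, map_conj]
    exact mul_ne_zero hz hc
  rw [map_algebraMap] at hne
  have hu : IsUnit (a ^ 2 - a * b + b ^ 2) := by
    apply hloc
    intro h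
    apply hne
    rw [h, map_zero]
  have hu' := hu.map (algebraMap Λ (OmegaExt Λ))
  rw [← hN] at hu'
  exact (IsUnit.mul_iff.mp hu').1

omit [IsDomain Λ] in
include hloc hirr in
theorem isUnit_iff_map_ne_zero (z : OmegaExt Λ) : IsUnit z ↔ map ρ z ≠ 0 := by
  have : Fact (Irreducible (omegaPoly k)) := ⟨hirr⟩
  constructor
  · intro h
    exact (h.map (map ρ)).ne_zero
  · exact isUnit_of_map_ne_zero ρ hloc hirr z

omit [IsDomain Λ] in
include hloc hirr in
theorem isLocalRing : IsLocalRing (OmegaExt Λ) := by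
  have : Fact (Irreducible (omegaPoly k)) := ⟨hirr⟩
  have : Nontrivial (OmegaExt Λ) := by
    refine ⟨⟨0, 1, fun h => ?_⟩⟩
    have := congrArg (map ρ) h
    rw [map_zero, map_one] at this
    exact zero_ne_one this
  apply IsLocalRing.of_nonunits_add
  intro a b ha hb
  rw [mem_nonunits_iff, isUnit_iff_map_ne_zero ρ hloc hirr, not_not] at ha hb ⊢
  rw [map_add, ha, hb, add_zero]

omit [IsDomain Λ] in
theorem algebraMap_injective [Nontrivial Λ] :
    Function.Injective (algebraMap Λ (OmegaExt Λ)) := by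
  intro a b h
  have h' : algebraMap Λ (OmegaExt Λ) a + algebraMap Λ _ 0 * ω Λ =
      algebraMap Λ _ b + algebraMap Λ _ 0 * ω Λ := by rw [h]
  exact (repr_unique Λ h').1

omit [IsDomain Λ] in
include hloc hirr in
theorem maximalIdeal_eq [IsLocalRing (OmegaExt Λ)] (π : Λ)
    (hker : RingHom.ker ρ = Ideal.span {π}) :
    IsLocalRing.maximalIdeal (OmegaExt Λ) = Ideal.span {algebraMap Λ (OmegaExt Λ) π} := by
  have : Fact (Irreducible (omegaPoly k)) := ⟨hirr⟩
  rw [← ker_map ρ π hker]
  ext z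
  rw [IsLocalRing.mem_maximalIdeal, mem_nonunits_iff, isUnit_iff_map_ne_zero ρ hloc hirr,
    not_not, RingHom.mem_ker]

include hloc hirr in
theorem isDiscreteValuationRing [IsNoetherianRing Λ] [IsDomain (OmegaExt Λ)] (π : Λ)
    (hker : RingHom.ker ρ = Ideal.span {π}) (hπ : π ≠ 0) :
    IsDiscreteValuationRing (OmegaExt Λ) := by
  haveI := isLocalRing ρ hloc hirr
  haveI : IsNoetherianRing (OmegaExt Λ) :=
    inferInstanceAs (IsNoetherianRing (Λ[X] ⧸ Ideal.span {omegaPoly Λ}))
  have hmax := maximalIdeal_eq ρ hloc hirr π hker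
  have hnf : ¬ IsField (OmegaExt Λ) := by
    intro hf
    have hbot := (IsLocalRing.isField_iff_maximalIdeal_eq).mp hf
    rw [hmax, Ideal.span_singleton_eq_bot] at hbot
    exact hπ (algebraMap_injective (by rw [hbot, map_zero]))
  refine ((IsDiscreteValuationRing.TFAE (OmegaExt Λ) hnf).out 0 4).mpr ?_
  rw [hmax]
  exact ⟨⟨_, rfl⟩⟩

end DVR

end OmegaExt

end Fermat.Agent.Good
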