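import Fermat.Agent.Good.RamDataDescended
import Fermat.Agent.Good.KummerCover
import Fermat.Agent.Good.OmegaExt
import Fermat.Prelude.Def_ModularCurve_IgusaScheme

/-!
# L-GEN node [G-RAM], part 4: the (RAM) hypothesis of Abhyankar-lite for the two charts

* `fullToBar N : F_N →+* Fb N`, the embedding of the function field of `X₀(N)` over `ℚ` into the
  one over `ℚ̄` (`j ↦ j`); `omegaToBar N ζ : F_N[ω] →+* Fb N` for a root `ζ` of `X² + X + 1`.
* Finite chart, `A0 = K[X]`, `K` any field with `σ : K →+* ℚ̄`: `ramCount_dvd_fin` (for a monic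
  irreducible `w0`: `ramCount w0 P ∣ m` as soon as `m = 3` for `w0 = X` and `m = 2` for
  `w0 = X - 1728`) and `hram_fin` (the hypothesis `hram` of `exists_basis_isIntegral_discr_dvd_pow`
  from the output of `RigidCover.exists_ramData`).
* Cusp chart, `A0 = Kum.LamC K = K[w][1/(1 - 1728 w)]`: `ramCount_dvd_cusp` (for a prime `w0`:
  `ramCount w0 P ∣ m` as soon as `m = N` for `w0 ∼ w`) and `hram_cusp`.
-/

set_option autoImplicit false
set_option linter.style.haveILetI false
set_option linter.unusedVariables false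
set_option synthInstance.maxHeartbeats 400000

open AlgebraicCurve Polynomial ModularCurve ModularCurve.IgusaScheme

namespace Fermat.Agent.Good.RamDesc

open Fermat.Agent.X0 Fermat.Agent.Good.RamBar

section Embedding

variable (N : ℕ)

/-- The embedding `F_N → Fb N` (coefficientwise `ℚ → ℚ̄` on `q`-expansions). -/
noncomputable def fullToBar : ↥(modularFunctionFieldFull N) →+* Fb N where
  toFun x := ⟨coeffEmb Kb (x : LaurentSeries ℚ), coeffEmb_mem_laurentBaseChange Kb x.2⟩
  map_one' := Subtype.ext (map_one (coeffEmb Kb))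
  map_mul' x y := Subtype.ext (map_mul (coeffEmb Kb) _ _)
  map_zero' := Subtype.ext (map_zero (coeffEmb Kb))
  map_add' x y := Subtype.ext (map_add (coeffEmb Kb) _ _)

theorem coe_fullToBar (x : ↥(modularFunctionFieldFull N)) :
    ((fullToBar N x : Fb N) : LaurentSeries Kb) = coeffEmb Kb (x : LaurentSeries ℚ) := rfl

theorem fullToBar_injective : Function.Injective (fullToBar N) := (fullToBar N).injective

theorem fullToBar_jFull [NeZero N] : fullToBar N (jFull N) = jBar N := rfl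

theorem fullToBar_algebraMap (c : ℚ) :
    fullToBar N (algebraMap ℚ ↥(modularFunctionFieldFull N) c) =
      algebraMap Kb (Fb N) (algebraMap ℚ Kb c) := by
  rw [eq_ratCast, eq_ratCast, map_ratCast, map_ratCast]

/-- `fullToBar` on polynomials in `j`. -/
theorem fullToBar_aeval [NeZero N] (p : ℚ[X]) :
    fullToBar N (aeval (jFull N) p) = aeval (jBar N) (p.map (algebraMap ℚ Kb)) := by
  induction p using Polynomial.induction_on' with
  | add p q hp hq => rw [map_add, map_add, Polynomial.map_add, map_add, hp, hq]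
  | monomial n a =>
    rw [← C_mul_X_pow_eq_monomial, map_mul, map_pow, aeval_C, aeval_X, map_mul, map_pow,
      Polynomial.map_mul, Polynomial.map_pow, map_C, map_X, map_mul, map_pow, aeval_C, aeval_X,
      fullToBar_algebraMap, fullToBar_jFull]

/-- The embedding `F_N[ω] → Fb N`, `ω ↦ ζ`, for a root `ζ : ℚ̄` of `X² + X + 1`. -/
noncomputable def omegaToBar (ζ : Kb) (hζ : ζ ^ 2 + ζ + 1 = 0) :
    OmegaExt ↥(modularFunctionFieldFull N) →+* Fb N :=
  AdjoinRoot.lift (fullToBar N) (algebraMap Kb (Fb N) ζ) (by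
    unfold omegaPoly
    rw [eval₂_add, eval₂_add, eval₂_pow, eval₂_X, eval₂_one, ← map_pow, ← map_add, ← map_one
      (algebraMap Kb (Fb N)), ← map_add, hζ, map_zero])

theorem omegaToBar_of (ζ : Kb) (hζ : ζ ^ 2 + ζ + 1 = 0) (x : ↥(modularFunctionFieldFull N)) :
    omegaToBar N ζ hζ (AdjoinRoot.of _ x) = fullToBar N x := by
  unfold omegaToBar
  exact AdjoinRoot.lift_of _

theorem omegaToBar_ω (ζ : Kb) (hζ : ζ ^ 2 + ζ + 1 = 0) :
    omegaToBar N ζ hζ (OmegaExt.ω _) = algebraMap Kb (Fb N) ζ := by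
  unfold omegaToBar OmegaExt.ω
  exact AdjoinRoot.lift_root _

/-- The embedding `ℚ(ω) → ℚ̄`, `ω ↦ ζ`. -/
noncomputable def omegaSigma (ζ : Kb) (hζ : ζ ^ 2 + ζ + 1 = 0) : OmegaExt ℚ →+* Kb :=
  AdjoinRoot.lift (algebraMap ℚ Kb) ζ (by
    unfold omegaPoly
    rw [eval₂_add, eval₂_add, eval₂_pow, eval₂_X, eval₂_one, hζ])

theorem omegaSigma_of (ζ : Kb) (hζ : ζ ^ 2 + ζ + 1 = 0) (c : ℚ) :
    omegaSigma ζ hζ (AdjoinRoot.of _ c) = algebraMap ℚ Kb c := by
  unfold omegaSigma
  exact AdjoinRoot.lift_of _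

theorem omegaSigma_ω (ζ : Kb) (hζ : ζ ^ 2 + ζ + 1 = 0) :
    omegaSigma ζ hζ (OmegaExt.ω _) = ζ := by
  unfold omegaSigma OmegaExt.ω
  exact AdjoinRoot.lift_root _

theorem exists_omega_root : ∃ ζ : Kb, ζ ^ 2 + ζ + 1 = 0 := by
  obtain ⟨ζ, hζ⟩ := IsAlgClosed.exists_root (omegaPoly Kb) (by
    rw [Polynomial.degree_eq_natDegree (omegaPoly_monic Kb).ne_zero, omegaPoly_natDegree]
    norm_num)
  refine ⟨ζ, ?_⟩
  have := hζ
  unfold omegaPoly at this
  simpa using this

/-- Compatibility of the two embeddings on constants. -/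
theorem omegaToBar_map (ζ : Kb) (hζ : ζ ^ 2 + ζ + 1 = 0) (c : OmegaExt ℚ) :
    omegaToBar N ζ hζ (OmegaExt.map (algebraMap ℚ ↥(modularFunctionFieldFull N)) c) =
      algebraMap Kb (Fb N) (omegaSigma ζ hζ c) := by
  induction c using AdjoinRoot.induction_on with
  | ih p =>
    induction p using Polynomial.induction_on' with
    | add p q hp hq => rw [map_add, map_add, map_add, map_add, map_add, hp, hq]
    | monomial n a =>
      rw [← C_mul_X_pow_eq_monomial, map_mul, map_pow, AdjoinRoot.mk_C, AdjoinRoot.mk_X]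
      rw [map_mul, map_pow, map_mul, map_pow, map_mul, map_pow, map_mul, map_pow]
      rw [OmegaExt.map_of, omegaToBar_of, omegaSigma_of, fullToBar_algebraMap]
      have h1 : AdjoinRoot.root (omegaPoly ℚ) = OmegaExt.ω ℚ := rfl
      rw [h1, OmegaExt.map_ω, omegaToBar_ω, omegaSigma_ω]

end Embedding

section FinChart

variable (N : ℕ) [NeZero N] {K : Type*} [Field K] (σ : K →+* Kb)
  {B0 : Type*} [CommRing B0] [IsDedekindDomain B0] [Algebra K[X] B0]
  [Module.IsTorsionFree K[X] B0]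

omit [NeZero N] [IsDedekindDomain B0] [Module.IsTorsionFree K[X] B0] in
/-- The image of a polynomial in `Fb N` is the polynomial in `j`. -/
theorem map_algebraMap_eq_aeval (ι : B0 →+* Fb N) {x : Fb N}
    (hιX : ι (algebraMap K[X] B0 X) = x)
    (hιC : ∀ c : K, ι (algebraMap K[X] B0 (C c)) = algebraMap Kb (Fb N) (σ c)) (p : K[X]) :
    ι (algebraMap K[X] B0 p) = aeval x (p.map σ) := by
  induction p using Polynomial.induction_on' with
  | add p q hp hq => rw [map_add, map_add, Polynomial.map_add, map_add, hp, hq]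
  | monomial n a =>
    rw [← C_mul_X_pow_eq_monomial, map_mul, map_pow, map_mul, map_pow, hιX, hιC,
      Polynomial.map_mul, Polynomial.map_pow, map_C, map_X, map_mul, map_pow, aeval_C, aeval_X]

/-- A monic irreducible polynomial vanishing at `a` is `X - a`. -/
theorem eq_X_sub_C_of_eval_eq_zero {w0 : K[X]} (hirr : Irreducible w0) (hmon : w0.Monic) {a : K}
    (h : w0.eval a = 0) : w0 = X - C a := by
  have hdvd : X - C a ∣ w0 := dvd_iff_isRoot.2 h
  obtain ⟨q, hq⟩ := hdvd
  have hu : IsUnit q := by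
    rcases hirr.isUnit_or_isUnit hq with h1 | h1
    · exact absurd h1 (not_isUnit_X_sub_C a)
    · exact h1
  obtain ⟨c, hc, rfl⟩ := Polynomial.isUnit_iff.1 hu
  have hlead : w0.leadingCoeff = c := by
    rw [hq, leadingCoeff_mul, leadingCoeff_X_sub_C, leadingCoeff_C, one_mul]
  rw [hmon.leadingCoeff] at hlead
  rw [hq, ← hlead, C_1, mul_one]

/-- **(RAM) for the finite chart.**  `B0` a Dedekind domain, torsion free over `K[X]`, inside
`Fb N` with `X ↦ j`.  For a monic irreducible `w0 : K[X]` (`K` of characteristic `0`) and `m` with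
`m = 3` if `w0 = X`, `m = 2` if `w0 = X - 1728`: `ramCount w0 P ∣ m` for all primes `P ∋ w0`. -/
theorem ramCount_dvd_fin [CharZero K] (ι : B0 →+* Fb N) (hι : Function.Injective ι)
    (hιX : ι (algebraMap K[X] B0 X) = jBar N)
    (hιC : ∀ c : K, ι (algebraMap K[X] B0 (C c)) = algebraMap Kb (Fb N) (σ c))
    {w0 : K[X]} (hirr : Irreducible w0) (hmon : w0.Monic) (m : ℕ) (h3 : w0 = X → m = 3)
    (h2 : w0 = X - C 1728 → m = 2) :
    ∀ P : Ideal B0, P.IsPrime → algebraMap K[X] B0 w0 ∈ P → ramCount w0 P ∣ m := by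
  let ρ : ℚ →+* B0 := (algebraMap K[X] B0).comp (C.comp (algebraMap ℚ K))
  have hw0 : w0 ≠ 0 := hirr.ne_zero
  by_cases hX : w0 = X
  · rw [h3 hX]
    refine ramCount_dvd_three N ι hι ρ hw0 ?_
    rw [hX]
    exact hιX
  by_cases hX2 : w0 = X - C 1728
  · rw [h2 hX2]
    refine ramCount_dvd_two N ι hι ρ hw0 ?_
    rw [hX2, map_sub, map_sub, hιX, hιC, map_ofNat, map_ofNat]
  · intro P hP hmem
    have h1 := ramCount_eq_one_fin_of_map N σ ι hι ρ hw0 w0 hirr.separable
      (fun h0 => hX (by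
        have := eq_X_sub_C_of_eval_eq_zero hirr hmon h0
        rwa [C_0, sub_zero] at this))
      (fun h0 => hX2 (eq_X_sub_C_of_eval_eq_zero hirr hmon h0))
      (map_algebraMap_eq_aeval N σ ι hιX hιC w0) P hP hmem
    rw [h1]
    exact one_dvd m

/-- **The hypothesis `hram` of Abhyankar-lite for the finite chart**, from the cover side
(`RigidCover.exists_ramData`). -/
theorem hram_fin [CharZero K] (ι : B0 →+* Fb N) (hι : Function.Injective ι)
    (hιX : ι (algebraMap K[X] B0 X) = jBar N)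
    (hιC : ∀ c : K, ι (algebraMap K[X] B0 (C c)) = algebraMap Kb (Fb N) (σ c))
    {A₁ : Type*} [CommRing A₁] [Algebra K[X] A₁]
    (hcover : ∀ u : A₁, Prime u → ∃ (w0 : K[X]) (m : ℕ) (w : A₁), Irreducible w0 ∧ w0.Monic ∧
      0 < m ∧ algebraMap K[X] A₁ w0 = w * u ^ m ∧ ¬ u ∣ w ∧ (w0 = X → m = 3) ∧
      (w0 = X - C 1728 → m = 2)) :
    ∀ u : A₁, Prime u → ∃ (ϖ : K[X]) (w : A₁) (m : ℕ), Prime ϖ ∧ 0 < m ∧
      algebraMap K[X] A₁ ϖ = w * u ^ m ∧ ¬ u ∣ w ∧
      ∀ P : Ideal B0, P.IsPrime → algebraMap K[X] B0 ϖ ∈ P → ramCount ϖ P ∣ m := by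
  intro u hu
  obtain ⟨w0, m, w, hirr, hmon, hm, hfac, hndvd, h3, h2⟩ := hcover u hu
  exact ⟨w0, w, m, hirr.prime, hm, hfac, hndvd,
    ramCount_dvd_fin N σ ι hι hιX hιC hirr hmon m h3 h2⟩

end FinChart

section Localization

/-- In a localization `S` of a principal ideal domain `R`, every prime element is associated to
the image of a prime element of `R`. -/
theorem exists_prime_associated_of_isLocalization {R S : Type*} [CommRing R] [IsDomain R]
    [IsPrincipalIdealRing R] [CommRing S] [IsDomain S] [Algebra R S] (M : Submonoid R)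
    [IsLocalization M S] {w0 : S} (hw0 : Prime w0) :
    ∃ g : R, Prime g ∧ Associated w0 (algebraMap R S g) := by
  have hJ : (Ideal.span {w0} : Ideal S).IsPrime := (Ideal.span_singleton_prime hw0.ne_zero).2 hw0
  have hI : ((Ideal.span {w0} : Ideal S).comap (algebraMap R S)).IsPrime :=
    Ideal.comap_isPrime _ _
  obtain ⟨g, hg⟩ := (IsPrincipalIdealRing.principal
    ((Ideal.span {w0} : Ideal S).comap (algebraMap R S))).principal
  have hg' : (Ideal.span {w0} : Ideal S).comap (algebraMap R S) = Ideal.span {g} := hg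
  have hmap : Ideal.span {algebraMap R S g} = (Ideal.span {w0} : Ideal S) := by
    have h1 := IsLocalization.map_under M S (Ideal.span {w0} : Ideal S)
    rw [Ideal.under_def, hg', Ideal.map_span, Set.image_singleton] at h1
    exact h1
  have hassoc : Associated w0 (algebraMap R S g) :=
    (Ideal.span_singleton_eq_span_singleton.1 hmap).symm
  have hg0 : g ≠ 0 := by
    rintro rfl
    rw [map_zero] at hassoc
    exact hw0.ne_zero (associated_zero_iff_eq_zero _ |>.1 hassoc)
  refine ⟨g, (Ideal.span_singleton_prime hg0).1 (hg' ▸ hI), hassoc⟩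

variable {A0 B0 : Type*} [CommRing A0] [CommRing B0] [IsDedekindDomain B0] [Algebra A0 B0]

/-- `ramCount` only depends on the ideal generated. -/
theorem ramCount_eq_of_associated {ϖ ϖ' : A0} (h : Associated ϖ ϖ') (P : Ideal B0) :
    ramCount ϖ P = ramCount ϖ' P := by
  unfold ramCount
  rw [Ideal.span_singleton_eq_span_singleton.2 (h.map (algebraMap A0 B0))]

omit [IsDedekindDomain B0] in
theorem algebraMap_mem_iff_of_associated {ϖ ϖ' : A0} (h : Associated ϖ ϖ') (P : Ideal B0) :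
    algebraMap A0 B0 ϖ ∈ P ↔ algebraMap A0 B0 ϖ' ∈ P := by
  obtain ⟨u, rfl⟩ := h
  rw [map_mul]
  constructor
  · intro h1
    exact P.mul_mem_right _ h1
  · intro h1
    have h2 := P.mul_mem_right (algebraMap A0 B0 ((u⁻¹ : A0ˣ) : A0)) h1
    rwa [mul_assoc, ← map_mul, Units.mul_inv, map_one, mul_one] at h2

end Localization

section CuspChart

open Kum

variable (N : ℕ) [NeZero N] {K : Type*} [Field K] (σ : K →+* Kb)
  {B0 : Type*} [CommRing B0] [IsDedekindDomain B0] [Algebra (LamC K) B0]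
  [Module.IsTorsionFree (LamC K) B0]

/-- An irreducible polynomial vanishing at `a` is associated to `X - a`. -/
theorem associated_X_sub_C_of_eval_eq_zero {g : K[X]} (hirr : Irreducible g) {a : K}
    (h : g.eval a = 0) : Associated (X - C a) g := by
  have hdvd : X - C a ∣ g := dvd_iff_isRoot.2 h
  obtain ⟨q, hq⟩ := hdvd
  have hu : IsUnit q := by
    rcases hirr.isUnit_or_isUnit hq with h1 | h1
    · exact absurd h1 (not_isUnit_X_sub_C a)
    · exact h1
  exact ⟨hu.unit, by rw [hq]; rfl⟩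

/-- **(RAM) for the cusp chart.**  `B0` a Dedekind domain, torsion free over
`K[w][1/(1 - 1728 w)]`, inside `Fb N` with `w ↦ 1/j`.  For a prime `w0` and `m` with `m = N` if
`w0 ∼ w`: `ramCount w0 P ∣ m` for all primes `P ∋ w0`. -/
theorem ramCount_dvd_cusp [CharZero K] (ι : B0 →+* Fb N) (hι : Function.Injective ι)
    (hιw : ι (algebraMap (LamC K) B0 (wLam K)) = (jBar N)⁻¹)
    (hιC : ∀ c : K, ι (algebraMap (LamC K) B0 (algebraMap K[X] (LamC K) (C c))) =
      algebraMap Kb (Fb N) (σ c))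
    {w0 : LamC K} (hw0 : Prime w0) (m : ℕ) (hN : Associated w0 (wLam K) → m = N) :
    ∀ P : Ideal B0, P.IsPrime → algebraMap (LamC K) B0 w0 ∈ P → ramCount w0 P ∣ m := by
  let ρ : ℚ →+* B0 :=
    (algebraMap (LamC K) B0).comp ((algebraMap K[X] (LamC K)).comp (C.comp (algebraMap ℚ K)))
  obtain ⟨g, hg, hassoc⟩ :=
    exists_prime_associated_of_isLocalization (Submonoid.powers (cLam K)) hw0
  have hirr : Irreducible g := hg.irreducible
  have hg0 : algebraMap K[X] (LamC K) g ≠ 0 := fun h0 => by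
    rw [h0] at hassoc
    exact hw0.ne_zero ((associated_zero_iff_eq_zero _).1 hassoc)
  -- the image of a polynomial in `Fb N`
  have himage : ∀ p : K[X], ι (algebraMap (LamC K) B0 (algebraMap K[X] (LamC K) p)) =
      aeval (jBar N)⁻¹ (p.map σ) := by
    intro p
    induction p using Polynomial.induction_on' with
    | add p q hp hq => rw [map_add, map_add, map_add, Polynomial.map_add, map_add, hp, hq]
    | monomial n a =>
      have hX : ι (algebraMap (LamC K) B0 (algebraMap K[X] (LamC K) X)) = (jBar N)⁻¹ := hιw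
      rw [← C_mul_X_pow_eq_monomial, map_mul, map_pow, map_mul, map_pow, map_mul, map_pow, hX,
        hιC, Polynomial.map_mul, Polynomial.map_pow, map_C, map_X, map_mul, map_pow, aeval_C,
        aeval_X]
  intro P hP hmem
  rw [ramCount_eq_of_associated hassoc P]
  rw [algebraMap_mem_iff_of_associated hassoc P] at hmem
  by_cases h0 : g.eval 0 = 0
  · -- `g ∼ X`, `w0 ∼ w`
    have h1 : Associated (X : K[X]) g := by
      have := associated_X_sub_C_of_eval_eq_zero hirr h0
      rwa [C_0, sub_zero] at this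
    have h2 : Associated (wLam K) (algebraMap K[X] (LamC K) g) := h1.map (algebraMap K[X] (LamC K))
    have hm : m = N := hN (hassoc.trans h2.symm)
    rw [hm, ← ramCount_eq_of_associated h2 P]
    rw [← algebraMap_mem_iff_of_associated h2 P] at hmem
    have hw0' : wLam K ≠ 0 := fun h => hg0 (by
      rw [h] at h2
      exact (associated_zero_iff_eq_zero _).1 h2.symm)
    exact ramCount_dvd_level N ι hι ρ hw0' hιw P hP hmem
  by_cases h1 : g.eval (1 / 1728) = 0
  · -- `g ∼ 1 - 1728 X`: a unit of `LamC K`, impossible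
    exfalso
    have h2 : Associated (X - C (1 / 1728 : K)) g := associated_X_sub_C_of_eval_eq_zero hirr h1
    have h3 : Associated (X - C (1 / 1728 : K)) (cLam K) := by
      have hu : IsUnit (C (-1728 : K)) := by
        rw [Polynomial.isUnit_iff]
        exact ⟨-1728, (by norm_num : (-1728 : K) ≠ 0).isUnit, rfl⟩
      refine ⟨hu.unit, ?_⟩
      show (X - C (1 / 1728 : K)) * C (-1728 : K) = cLam K
      unfold cLam
      rw [sub_mul, ← C_mul, show (1 / 1728 : K) * (-1728) = -1 by norm_num]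
      simp only [map_neg, map_one, map_ofNat]
      ring
    have h4 : Associated (algebraMap K[X] (LamC K) g) (algebraMap K[X] (LamC K) (cLam K)) :=
      (h2.symm.trans h3).map (algebraMap K[X] (LamC K))
    have h5 : IsUnit (algebraMap K[X] (LamC K) (cLam K)) := isUnit_algebraMap_paw (cLam K)
    exact hw0.not_isUnit ((hassoc.trans h4).isUnit_iff.2 h5)
  · have h2 := ramCount_eq_one_cusp_of_map N σ ι hι ρ hg0 g hirr.separable h0 h1 (himage g) P hP hmem
    rw [h2]
    exact one_dvd m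

/-- **The hypothesis `hram` of Abhyankar-lite for the cusp chart**, from the cover side
(ramification data of the Kummer cover). -/
theorem hram_cusp [CharZero K] (ι : B0 →+* Fb N) (hι : Function.Injective ι)
    (hιw : ι (algebraMap (LamC K) B0 (wLam K)) = (jBar N)⁻¹)
    (hιC : ∀ c : K, ι (algebraMap (LamC K) B0 (algebraMap K[X] (LamC K) (C c))) =
      algebraMap Kb (Fb N) (σ c))
    {A₁ : Type*} [CommRing A₁] [Algebra (LamC K) A₁]
    (hcover : ∀ u : A₁, Prime u → ∃ (w0 : LamC K) (m : ℕ) (w : A₁), Prime w0 ∧ 0 < m ∧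
      algebraMap (LamC K) A₁ w0 = w * u ^ m ∧ ¬ u ∣ w ∧ (Associated w0 (wLam K) → m = N)) :
    ∀ u : A₁, Prime u → ∃ (ϖ : LamC K) (w : A₁) (m : ℕ), Prime ϖ ∧ 0 < m ∧
      algebraMap (LamC K) A₁ ϖ = w * u ^ m ∧ ¬ u ∣ w ∧
      ∀ P : Ideal B0, P.IsPrime → algebraMap (LamC K) B0 ϖ ∈ P → ramCount ϖ P ∣ m := by
  intro u hu
  obtain ⟨w0, m, w, hw0, hm, hfac, hndvd, hN⟩ := hcover u hu
  exact ⟨w0, w, m, hw0, hm, hfac, hndvd, ramCount_dvd_cusp N σ ι hι hιw hιC hw0 m hN⟩

end CuspChart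

section OverQ

open Kum

variable (N : ℕ) [NeZero N]

/-- **`hram` for the finite chart over `ℚ`**: `B0` a Dedekind domain inside `F_N`, torsion free
over `ℚ[X]`, `X ↦ j`. -/
theorem hram_fin_full {B0 : Type*} [CommRing B0] [IsDedekindDomain B0] [Algebra ℚ[X] B0]
    [Module.IsTorsionFree ℚ[X] B0] [Algebra B0 ↥(modularFunctionFieldFull N)]
    (hinj : Function.Injective (algebraMap B0 ↥(modularFunctionFieldFull N)))
    (h : ∀ p : ℚ[X], algebraMap B0 ↥(modularFunctionFieldFull N) (algebraMap ℚ[X] B0 p) =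
      aeval (jFull N) p)
    {A₁ : Type*} [CommRing A₁] [Algebra ℚ[X] A₁]
    (hcover : ∀ u : A₁, Prime u → ∃ (w0 : ℚ[X]) (m : ℕ) (w : A₁), Irreducible w0 ∧ w0.Monic ∧
      0 < m ∧ algebraMap ℚ[X] A₁ w0 = w * u ^ m ∧ ¬ u ∣ w ∧ (w0 = X → m = 3) ∧
      (w0 = X - C 1728 → m = 2)) :
    ∀ u : A₁, Prime u → ∃ (ϖ : ℚ[X]) (w : A₁) (m : ℕ), Prime ϖ ∧ 0 < m ∧
      algebraMap ℚ[X] A₁ ϖ = w * u ^ m ∧ ¬ u ∣ w ∧
      ∀ P : Ideal B0, P.IsPrime → algebraMap ℚ[X] B0 ϖ ∈ P → ramCount ϖ P ∣ m := by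
  refine hram_fin N (algebraMap ℚ Kb)
    ((fullToBar N).comp (algebraMap B0 ↥(modularFunctionFieldFull N)))
    ((fullToBar_injective N).comp hinj) ?_ ?_ hcover
  · rw [RingHom.comp_apply, h, aeval_X, fullToBar_jFull]
  · intro c
    rw [RingHom.comp_apply, h, aeval_C, fullToBar_algebraMap]

/-- **`hram` for the cusp chart over `ℚ`**: `B0` a Dedekind domain inside `F_N`, torsion free
over `ℚ[w][1/(1 - 1728 w)]`, `w ↦ 1/j`. -/
theorem hram_cusp_full {B0 : Type*} [CommRing B0] [IsDedekindDomain B0] [Algebra (LamC ℚ) B0]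
    [Module.IsTorsionFree (LamC ℚ) B0] [Algebra B0 ↥(modularFunctionFieldFull N)]
    (hinj : Function.Injective (algebraMap B0 ↥(modularFunctionFieldFull N)))
    (h : ∀ p : ℚ[X], algebraMap B0 ↥(modularFunctionFieldFull N)
      (algebraMap (LamC ℚ) B0 (algebraMap ℚ[X] (LamC ℚ) p)) = aeval (jFull N)⁻¹ p)
    {A₁ : Type*} [CommRing A₁] [Algebra (LamC ℚ) A₁]
    (hcover : ∀ u : A₁, Prime u → ∃ (w0 : LamC ℚ) (m : ℕ) (w : A₁), Prime w0 ∧ 0 < m ∧
      algebraMap (LamC ℚ) A₁ w0 = w * u ^ m ∧ ¬ u ∣ w ∧ (Associated w0 (wLam ℚ) → m = N)) :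
    ∀ u : A₁, Prime u → ∃ (ϖ : LamC ℚ) (w : A₁) (m : ℕ), Prime ϖ ∧ 0 < m ∧
      algebraMap (LamC ℚ) A₁ ϖ = w * u ^ m ∧ ¬ u ∣ w ∧
      ∀ P : Ideal B0, P.IsPrime → algebraMap (LamC ℚ) B0 ϖ ∈ P → ramCount ϖ P ∣ m := by
  refine hram_cusp N (algebraMap ℚ Kb)
    ((fullToBar N).comp (algebraMap B0 ↥(modularFunctionFieldFull N)))
    ((fullToBar_injective N).comp hinj) ?_ ?_ hcover
  · have h1 := h X
    rw [aeval_X] at h1
    show fullToBar N (algebraMap B0 ↥(modularFunctionFieldFull N)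
      (algebraMap (LamC ℚ) B0 (algebraMap ℚ[X] (LamC ℚ) X))) = (jBar N)⁻¹
    rw [h1, map_inv₀, fullToBar_jFull]
  · intro c
    rw [RingHom.comp_apply, h, aeval_C, fullToBar_algebraMap]

end OverQ

end Fermat.Agent.Good.RamDesc
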