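import Mathlib
import Fermat.Prelude.Def_GaloisRep_Flat
import Fermat.Prelude.Def_FLTPrelim_Ramification

/-!
# L-GEN: the `ℤ_(ℓ)`-algebra structure on the residue field of a valuation ring over `ℓ`

`A` a valuation subring of a field `L` of characteristic zero lying over the prime `ℓ`
(`(ℓ : L) ∈ A.nonunits`).  Then `ℤ_(ℓ) = GaloisRep.ratLocalizedAt ℓ ⊆ ℚ` maps into `A`, hence into
the residue field of `A`.

* `ResAlg.zlToValuationSubring A hA : ℤ_(ℓ) →+* A`
* `ResAlg.zlAlgebra A hA : Algebra ℤ_(ℓ) (IsLocalRing.ResidueField A)` (a reducible `def`: use with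
  `letI`).
-/

set_option autoImplicit false

noncomputable section

namespace Fermat.Agent.Good.ResAlg

open IsLocalRing

variable {L : Type*} [Field L] [CharZero L] (A : ValuationSubring L) {ℓ : ℕ}

/-- An integer prime to `ℓ` is a unit of a valuation ring over `ℓ`. -/
theorem isUnit_natCast_of_coprime (hA : A.LiesOverPrime ℓ) {n : ℕ} (hn : Nat.Coprime n ℓ) :
    IsUnit ((n : ℕ) : A) := by
  by_contra hnu
  have hnm : ((n : ℕ) : A) ∈ maximalIdeal A := (mem_maximalIdeal _).mpr hnu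
  have hℓm : ((ℓ : ℕ) : A) ∈ maximalIdeal A := by
    rw [← ValuationSubring.coe_mem_nonunits_iff]
    have h : (ℓ : L) ∈ A.nonunits := hA
    simpa using h
  have hgcd : (Nat.gcd n ℓ : ℤ) = 1 := by exact_mod_cast hn
  have hbez := Nat.gcd_eq_gcd_ab n ℓ
  rw [hgcd] at hbez
  have hone : (1 : A) = (n : A) * ((Nat.gcdA n ℓ : ℤ) : A) + (ℓ : A) * ((Nat.gcdB n ℓ : ℤ) : A) := by
    have := congrArg (fun z : ℤ => (z : A)) hbez
    simpa using this
  have h1 : (1 : A) ∈ maximalIdeal A := by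
    rw [hone]
    exact add_mem (Ideal.mul_mem_right _ _ hnm) (Ideal.mul_mem_right _ _ hℓm)
  exact (Ideal.ne_top_iff_one _).mp (maximalIdeal.isMaximal A).ne_top h1

/-- Rational numbers with denominator prime to `ℓ` lie in a valuation ring over `ℓ`. -/
theorem ratCast_mem_of_mem_ratLocalizedAt (hA : A.LiesOverPrime ℓ) {q : ℚ}
    (hq : q ∈ GaloisRep.ratLocalizedAt ℓ) : (q : L) ∈ A := by
  obtain ⟨u, hu⟩ := isUnit_natCast_of_coprime A hA (n := q.den) hq
  have h1 : ((q.den : ℕ) : L) * ((u⁻¹ : Aˣ) : A) = 1 := by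
    have := congrArg (fun z : A => (z : L)) (u.mul_inv)
    rw [hu] at this
    simpa using this
  have hden0 : ((q.den : ℕ) : L) ≠ 0 := by exact_mod_cast q.den_ne_zero
  have h2 : (q : L) = ((q.num : ℤ) : L) * (((u⁻¹ : Aˣ) : A) : L) := by
    rw [Rat.cast_def]
    field_simp
    rw [mul_assoc, h1, mul_one]
  rw [h2]
  exact A.mul_mem _ _ (intCast_mem A q.num) (Subtype.mem _)

/-- The ring homomorphism `ℤ_(ℓ) → A`. -/
def zlToValuationSubring (hA : A.LiesOverPrime ℓ) : ↥(GaloisRep.ratLocalizedAt ℓ) →+* A where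
  toFun q := ⟨((q : ℚ) : L), ratCast_mem_of_mem_ratLocalizedAt A hA q.2⟩
  map_one' := Subtype.ext (by simp)
  map_mul' a b := Subtype.ext (by simp)
  map_zero' := Subtype.ext (by simp)
  map_add' a b := Subtype.ext (by simp)

@[simp] theorem coe_zlToValuationSubring (hA : A.LiesOverPrime ℓ)
    (q : ↥(GaloisRep.ratLocalizedAt ℓ)) :
    ((zlToValuationSubring A hA q : A) : L) = ((q : ℚ) : L) := rfl

/-- The `ℤ_(ℓ)`-algebra structure on the residue field of a valuation ring over `ℓ`. -/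
@[reducible] def zlAlgebra (hA : A.LiesOverPrime ℓ) :
    Algebra ↥(GaloisRep.ratLocalizedAt ℓ) (ResidueField A) :=
  ((IsLocalRing.residue A).comp (zlToValuationSubring A hA)).toAlgebra

theorem zlAlgebra_algebraMap (hA : A.LiesOverPrime ℓ) (q : ↥(GaloisRep.ratLocalizedAt ℓ)) :
    letI := zlAlgebra A hA
    algebraMap ↥(GaloisRep.ratLocalizedAt ℓ) (ResidueField A) q =
      IsLocalRing.residue A (zlToValuationSubring A hA q) := rfl

end Fermat.Agent.Good.ResAlg

end
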