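import Mathlib
import Fermat.Agent.Good.IgusaTensorInf
import Fermat.Agent.Good.ResidueAlgebra
import Fermat.Agent.Good.RamDataCharts
import Fermat.Agent.Val.Deliverable

/-!
# L-GEN [G-BR] (B1) + (B2): the bridge `fullToBar` is Gauss integral and compatible with residues

`A` a valuation subring of a field `L` of characteristic zero lying over the prime `ℓ`, `π : A →+* k`
a ring homomorphism into a field `k` which is a `ZMod ℓ`-algebra (any instance).

* generic: `coeffEmb_mem_gaussRingA` : `x ∈ Igusa.gaussSubring ℓ → coeffEmb L x ∈ Val.gaussRingA A π`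
  and `gaussResA_coeffEmb` : the residue of `coeffEmb L x` is the extension of coefficients of
  `Igusa.gaussRes ℓ x`.
* **(B1)** `fullToBar_mem_O_fin`, `fullToBar_mem_O_inf` : the images of the two charts lie in the
  valuation ring of `Val.constRedBar N hℓN A hA`.
* **(B2)** `resF_fullToBar_fin`, `resF_fullToBar_inf` : `resF (fullToBar N b) = rhoT ⟨b, hb⟩`
  (resp. `rhoTInf`), for ANY instance `[Algebra (ZMod ℓ) (ResidueField A)]`.
* `genusFF_modL_eq_bar` : the genus equality (consumer: `Good/GenFinalB.lean`).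
-/

set_option autoImplicit false
set_option linter.style.haveILetI false
set_option linter.unusedSectionVars false

open ModularCurve ModularCurve.IgusaScheme

noncomputable section
namespace Fermat.Agent.Good.BridgeResH12

open Fermat.Agent.Igusa Fermat.Agent.Val

section Generic

variable {L : Type*} [Field L] [CharZero L] [Algebra ℚ L] (A : ValuationSubring L)
variable {ℓ : ℕ} [Fact ℓ.Prime] (hA : A.LiesOverPrime ℓ)
variable {k : Type*} [Field k] [Algebra (ZMod ℓ) k] (π : A →+* k)

/-- `ℤ_(ℓ)((q)) → A((q))`, coefficientwise. -/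
def zlToA : LaurentSeries ↥(GaloisRep.ratLocalizedAt ℓ) →+* LaurentSeries A :=
  coeffMap (ResAlg.zlToValuationSubring A hA)

theorem coeffEmb_zlIota (b : LaurentSeries ↥(GaloisRep.ratLocalizedAt ℓ)) :
    coeffEmb L (zlIota ℓ b) = aIota A (zlToA A hA b) := by
  ext n
  show algebraMap ℚ L ((b.coeff n : ↥(GaloisRep.ratLocalizedAt ℓ)) : ℚ) =
    (((b.coeff n : ↥(GaloisRep.ratLocalizedAt ℓ)) : ℚ) : L)
  rw [eq_ratCast]

theorem aRed_zlToA (b : LaurentSeries ↥(GaloisRep.ratLocalizedAt ℓ)) :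
    aRed π (zlToA A hA b) = coeffMap (algebraMap (ZMod ℓ) k) (zlRed ℓ b) := by
  unfold aRed zlToA zlRed
  rw [coeffMap_coeffMap, coeffMap_coeffMap]
  exact coeffMap_congr (zl_ringHom_ext ℓ _ _) b

theorem coeffMap_algebraMap_injective :
    Function.Injective (coeffMap (algebraMap (ZMod ℓ) k)) :=
  (coeffMap (algebraMap (ZMod ℓ) k)).injective

include hA in
/-- **Comparison of the two Gauss rings, membership.** -/
theorem coeffEmb_mem_gaussRingA {x : LaurentSeries ℚ} (hx : x ∈ gaussSubring ℓ) :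
    coeffEmb L x ∈ gaussRingA A π := by
  obtain ⟨a, b, hb, hab⟩ := (mem_gaussSubring_iff ℓ).mp hx
  refine ⟨zlToA A hA a, zlToA A hA b, ?_, ?_⟩
  · rw [aRed_zlToA]
    intro h
    exact hb (coeffMap_algebraMap_injective (ℓ := ℓ) (k := k) (by rw [h, map_zero]))
  · rw [← coeffEmb_zlIota, ← coeffEmb_zlIota, ← map_mul, hab]

include hA in
/-- **Comparison of the two Gauss rings, residues.** -/
theorem gaussResA_coeffEmb {x : LaurentSeries ℚ} (hx : x ∈ gaussSubring ℓ)
    (h : coeffEmb L x ∈ gaussRingA A π) :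
    gaussResA A π ⟨coeffEmb L x, h⟩ =
      coeffMap (algebraMap (ZMod ℓ) k) (gaussRes ℓ ⟨x, hx⟩) := by
  obtain ⟨a, b, hb, hab⟩ := (mem_gaussSubring_iff ℓ).mp hx
  have hb' : aRed π (zlToA A hA b) ≠ 0 := by
    rw [aRed_zlToA]
    intro h
    exact hb (coeffMap_algebraMap_injective (ℓ := ℓ) (k := k) (by rw [h, map_zero]))
  rw [gaussResA_eq A π _ (a := zlToA A hA a) (b := zlToA A hA b) hb'
      (by
        show coeffEmb L x * _ = _
        rw [← coeffEmb_zlIota, ← coeffEmb_zlIota, ← map_mul, hab]),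
    gaussRes_eq ℓ ⟨x, hx⟩ hb hab, aRed_zlToA, aRed_zlToA, map_div₀]

end Generic

section Bridge

open AlgebraicCurve IsLocalRing Fermat.Agent.X0 Fermat.Agent.Good.RamDesc Fermat.Agent.Good.S28X

set_option synthInstance.maxHeartbeats 400000

variable (N : ℕ) [NeZero N] {ℓ : ℕ} [hℓ : Fact ℓ.Prime] (hℓN : ¬ ℓ ∣ N)
variable (A : ValuationSubring (AlgebraicClosure ℚ)) (hA : A.LiesOverPrime ℓ)

/-- **(B1), series form**: the image under `fullToBar` of an element of `F_N` whose `q`-expansion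
is Gauss integral over `ℤ_(ℓ)` lies in the valuation ring of `constRedBar`. -/
theorem fullToBar_mem_O_of_coe_mem_gaussSubring (b : ↥(modularFunctionFieldFull N))
    (hb : ((b : ↥(modularFunctionFieldFull N)) : LaurentSeries ℚ) ∈ gaussSubring ℓ) :
    fullToBar N b ∈ (Val.constRedBar N hℓN A hA).O := by
  letI : CharP (ResidueField A) ℓ := Val.charP_residueField_of_liesOverPrime A hA
  letI : Algebra (ZMod ℓ) (ResidueField A) := ZMod.algebra (ResidueField A) ℓ
  exact (orthoDataQbar A N hA hℓN).mem_valSubring_iff.mpr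
    (coeffEmb_mem_gaussRingA A hA (residue A) hb)

/-- **(B2), series form**. -/
theorem coe_resF_fullToBar_of_coe_mem_gaussSubring [Algebra (ZMod ℓ) (ResidueField A)]
    (b : ↥(modularFunctionFieldFull N))
    (hb : ((b : ↥(modularFunctionFieldFull N)) : LaurentSeries ℚ) ∈ gaussSubring ℓ) :
    (((Val.constRedBar N hℓN A hA).resF (fullToBar N b) :
        ↥(modularFunctionFieldFullC (ResidueField A) N)) : LaurentSeries (ResidueField A)) =
      coeffMap (algebraMap (ZMod ℓ) (ResidueField A)) (gaussRes ℓ ⟨_, hb⟩) := by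
  have h := fullToBar_mem_O_of_coe_mem_gaussSubring N hℓN A hA b hb
  rw [ConstRed.resF_of_mem _ h]
  exact gaussResA_coeffEmb A hA (residue A) hb _

/-- **(B1)** for a chart algebra with Gauss-integral generators. -/
theorem fullToBar_mem_O_of_mem_chartAlg {S : Set ↥(modularFunctionFieldFull N)}
    (hS : ∀ s ∈ S, ((s : ↥(modularFunctionFieldFull N)) : LaurentSeries ℚ) ∈ gaussSubring ℓ)
    (b : ↥(modularFunctionFieldFull N)) (hb : b ∈ chartAlg N ℓ S) :
    fullToBar N b ∈ (Val.constRedBar N hℓN A hA).O :=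
  fullToBar_mem_O_of_coe_mem_gaussSubring N hℓN A hA b
    (coe_mem_gaussSubring_of_mem_chartAlg N ℓ hS hb)

/-- **(B2)** for a chart algebra with Gauss-integral generators. -/
theorem coe_resF_fullToBar_of_mem_chartAlg [Algebra (ZMod ℓ) (ResidueField A)]
    {S : Set ↥(modularFunctionFieldFull N)}
    (hS : ∀ s ∈ S, ((s : ↥(modularFunctionFieldFull N)) : LaurentSeries ℚ) ∈ gaussSubring ℓ)
    (b : ↥(modularFunctionFieldFull N)) (hb : b ∈ chartAlg N ℓ S) :
    (((Val.constRedBar N hℓN A hA).resF (fullToBar N b) :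
        ↥(modularFunctionFieldFullC (ResidueField A) N)) : LaurentSeries (ResidueField A)) =
      coeffMap (algebraMap (ZMod ℓ) (ResidueField A)) (chartRes N ℓ hS ⟨b, hb⟩) :=
  coe_resF_fullToBar_of_coe_mem_gaussSubring N hℓN A hA b
    (coe_mem_gaussSubring_of_mem_chartAlg N ℓ hS hb)

/-- **(B1), finite chart.** -/
theorem fullToBar_mem_O_fin :
    ∀ b ∈ chartAlgFin N ℓ, fullToBar N b ∈ (Val.constRedBar N hℓN A hA).O :=
  fun b hb => fullToBar_mem_O_of_mem_chartAlg N hℓN A hA (hSFin N ℓ) b hb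

/-- **(B1), chart at infinity.** -/
theorem fullToBar_mem_O_inf :
    ∀ b ∈ chartAlgInf N ℓ, fullToBar N b ∈ (Val.constRedBar N hℓN A hA).O :=
  fun b hb => fullToBar_mem_O_of_mem_chartAlg N hℓN A hA (hSInf N ℓ) b hb

/-- **(B2), finite chart**, for any instance `[Algebra (ZMod ℓ) (ResidueField A)]`. -/
theorem resF_fullToBar_fin [Algebra (ZMod ℓ) (ResidueField A)] :
    ∀ b (hb : b ∈ chartAlgFin N ℓ),
      (Val.constRedBar N hℓN A hA).resF (fullToBar N b) =
        rhoT N ℓ (ResidueField A) hℓN ⟨b, hb⟩ :=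
  fun b hb => Subtype.ext
    (coe_resF_fullToBar_of_mem_chartAlg N hℓN A hA (hSFin N ℓ) b hb)

/-- **(B2), chart at infinity**, for any instance `[Algebra (ZMod ℓ) (ResidueField A)]`. -/
theorem resF_fullToBar_inf [Algebra (ZMod ℓ) (ResidueField A)] :
    ∀ b (hb : b ∈ chartAlgInf N ℓ),
      (Val.constRedBar N hℓN A hA).resF (fullToBar N b) =
        rhoTInf N ℓ (ResidueField A) hℓN ⟨b, hb⟩ :=
  fun b hb => Subtype.ext
    (coe_resF_fullToBar_of_mem_chartAlg N hℓN A hA (hSInf N ℓ) b hb)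

end Bridge

end Fermat.Agent.Good.BridgeResH12
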