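import Fermat.Agent.Good.GenFinalB
import Fermat.Agent.Good.ChartBridgeResH12

/-!
# L-GEN: the final plug (integrator copy)

`Good.FinalH3.genDeliverable` : `Red.GenDeliverable N A` and `Good.FinalH3.genusFF_modL_eq_bar` :
the genus equality `g(F̃_N) = g(F̄_N)`, both UNCONDITIONAL for every prime `ℓ ∤ N` and every
valuation subring `A` of `ℚ̄` over `ℓ`: helper17's `Good.genDeliverable_of_B1B2` /
`Good.genusFF_modL_eq_bar_of_B1B2` (`Good/GenFinalB.lean`) with the bridge statements (B1), (B2) of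
helper12's `Good/ChartBridgeResH12.lean` plugged in.
-/

set_option autoImplicit false
set_option linter.style.haveILetI false
set_option linter.unusedSectionVars false

noncomputable section
namespace Fermat.Agent.Good.FinalH3

open AlgebraicCurve ModularCurve IsLocalRing Fermat.Agent.Red

set_option synthInstance.maxHeartbeats 400000

/-- **(I6), unconditional**: the L-GEN deliverable for every prime `ℓ ∤ N`. -/
theorem genDeliverable (N : ℕ) [NeZero N] {ℓ : ℕ} [Fact ℓ.Prime] (hℓN : ¬ ℓ ∣ N)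
    (A : ValuationSubring (AlgebraicClosure ℚ)) (hA : A.LiesOverPrime ℓ) : GenDeliverable N A := by
  letI : CharP (ResidueField A) ℓ := Val.charP_residueField_of_liesOverPrime A hA
  exact genDeliverable_of_B1B2 N hℓN A hA
    (BridgeResH12.fullToBar_mem_O_fin N hℓN A hA) (BridgeResH12.fullToBar_mem_O_inf N hℓN A hA)
    (@BridgeResH12.resF_fullToBar_fin N _ ℓ _ hℓN A hA (ZMod.algebra (ResidueField A) ℓ))
    (@BridgeResH12.resF_fullToBar_inf N _ ℓ _ hℓN A hA (ZMod.algebra (ResidueField A) ℓ))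

/-- **The genus equality, unconditional**: `g(F̃_N) = g(F̄_N)` for every prime `ℓ ∤ N`. -/
theorem genusFF_modL_eq_bar (N : ℕ) [NeZero N] {ℓ : ℕ} [Fact ℓ.Prime] (hℓN : ¬ ℓ ∣ N)
    (A : ValuationSubring (AlgebraicClosure ℚ)) (hA : A.LiesOverPrime ℓ) :
    genusFF (ResidueField A) (modularFunctionFieldFullC (ResidueField A) N) =
      genusFF (AlgebraicClosure ℚ) (modularFunctionFieldBar N) := by
  letI : CharP (ResidueField A) ℓ := Val.charP_residueField_of_liesOverPrime A hA
  exact genusFF_modL_eq_bar_of_B1B2 N hℓN A hA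
    (BridgeResH12.fullToBar_mem_O_fin N hℓN A hA) (BridgeResH12.fullToBar_mem_O_inf N hℓN A hA)
    (@BridgeResH12.resF_fullToBar_fin N _ ℓ _ hℓN A hA (ZMod.algebra (ResidueField A) ℓ))
    (@BridgeResH12.resF_fullToBar_inf N _ ℓ _ hℓN A hA (ZMod.algebra (ResidueField A) ℓ))

end Fermat.Agent.Good.FinalH3
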