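/-
L-GEN / [G-AB0] (helper20), part 1: CRT-adapted families in a Dedekind extension.

`A` a PID, `ϖ : A` prime, `B` a Dedekind domain, finite and torsion free over `A`,
`ϖ B = ∏ P ^ e_P`.  We construct a family `b a`, `a = (P, α, k)`, `k < e_P`, `α < f_P`,
`b (P, α, k) = ω_{P, α} * y_P ^ k` (`y_P` a uniformiser at `P` vanishing to order `e_Q` at the other
primes `Q` over `ϖ`, `ω_{P, α}` lifts of a basis of the residue field extension), such that

* `b a ^ e_P ∈ ϖ ^ k B`;
* the `b a` span `B` modulo `ϖ`; their number is `finrank A B`;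
* if `∑ c a • b a` lies in every prime over `ϖ` then `ϖ ∣ c a` whenever `k a = 0`;
* `2 * ∑ k a * (m / e a) = m * #{a | k a ≠ 0}` whenever all `e a ∣ m`.

This is the input of the discriminant estimate `Good/TameDisc.lean` and of the Abhyankar-type
lemma `Good/AbhyankarLite.lean`.
-/
import Mathlib

set_option autoImplicit false
set_option linter.unusedSectionVars false
set_option linter.style.haveILetI false
set_option linter.unusedVariables false

namespace Fermat.Agent.Good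

open Ideal UniqueFactorizationMonoid

/-- Gauss sum over `Fin e` in the form used for adapted families. -/
theorem two_mul_sum_fin_mul_div (e m : ℕ) (he : 0 < e) (hem : e ∣ m) :
    2 * ∑ k : Fin e, (k : ℕ) * (m / e) = m * ∑ k : Fin e, (if (k : ℕ) = 0 then 0 else 1) := by
  obtain ⟨d, rfl⟩ := hem
  rw [Nat.mul_div_cancel_left d he]
  rw [Fin.sum_univ_eq_sum_range (fun k => k * d) e,
    Fin.sum_univ_eq_sum_range (fun k => if k = 0 then 0 else 1) e, ← Finset.sum_mul]
  have h1 : ∑ k ∈ Finset.range e, (if k = 0 then 0 else 1) = e - 1 := by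
    clear d
    induction e with
    | zero => simp
    | succ n ih =>
      rcases Nat.eq_zero_or_pos n with rfl | hn
      · simp
      · rw [Finset.sum_range_succ, ih hn, if_neg hn.ne']
        omega
  have h2 := Finset.sum_range_id_mul_two e
  rw [h1]
  calc 2 * ((∑ i ∈ Finset.range e, i) * d) = ((∑ i ∈ Finset.range e, i) * 2) * d := by ring
    _ = e * (e - 1) * d := by rw [h2]
    _ = e * d * (e - 1) := by ring


section Dedekind

variable {B : Type*} [CommRing B] [IsDedekindDomain B]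

/-- If `y ∈ P \ P ^ 2` then `y ^ r ∉ P ^ (r + 1)`. -/
theorem pow_notMem_pow_succ_of_notMem_sq {P : Ideal B} [hP : P.IsPrime] (hP0 : P ≠ ⊥) {y : B}
    (hy : y ∈ P) (hy2 : y ∉ P ^ 2) (r : ℕ) : y ^ r ∉ P ^ (r + 1) := by
  have hprime : Prime P := Ideal.prime_of_isPrime hP0 hP
  obtain ⟨J, hJ⟩ : P ∣ Ideal.span {y} := by
    rw [Ideal.dvd_iff_le, Ideal.span_singleton_le_iff_mem]; exact hy
  have hPJ : ¬ P ∣ J := by
    rintro ⟨J', rfl⟩
    apply hy2
    have : Ideal.span {y} ≤ P ^ 2 := by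
      rw [hJ, ← mul_assoc, ← sq]; exact Ideal.mul_le_left (I := P ^ 2) (J := J')
    exact this (Ideal.mem_span_singleton_self y)
  intro h
  have h1 : P ^ (r + 1) ∣ Ideal.span {y ^ r} := by
    rw [Ideal.dvd_iff_le, Ideal.span_singleton_le_iff_mem]; exact h
  rw [← Ideal.span_singleton_pow, hJ, mul_pow, pow_succ] at h1
  have h2 : P ∣ J ^ r := (mul_dvd_mul_iff_left (pow_ne_zero r hP0)).mp h1
  exact hPJ (hprime.dvd_of_dvd_pow h2)

/-- `P ^ r = (y ^ r) + P ^ (r + 1)` for `y ∈ P \ P ^ 2`. -/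
theorem pow_le_span_pow_sup_pow_succ {P : Ideal B} [hP : P.IsPrime] (hP0 : P ≠ ⊥) {y : B}
    (hy : y ∈ P) (hy2 : y ∉ P ^ 2) (r : ℕ) : P ^ r ≤ Ideal.span {y ^ r} ⊔ P ^ (r + 1) := by
  have hprime : Prime P := Ideal.prime_of_isPrime hP0 hP
  set I := Ideal.span {y ^ r} ⊔ P ^ (r + 1) with hI
  have h1 : I ∣ P ^ (r + 1) := by rw [Ideal.dvd_iff_le]; exact le_sup_right
  obtain ⟨s, hs, hs'⟩ := (dvd_prime_pow hprime _).mp h1
  have hIs : I = P ^ s := associated_iff_eq.mp hs'
  have hyI : y ^ r ∈ I := Ideal.mem_sup_left (Ideal.mem_span_singleton_self _)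
  have hsr : s ≤ r := by
    by_contra hlt
    have : s = r + 1 := by omega
    rw [hIs, this] at hyI
    exact pow_notMem_pow_succ_of_notMem_sq hP0 hy hy2 r hyI
  rw [hIs]
  exact Ideal.pow_le_pow_right hsr


variable {A : Type*} [CommRing A] [Algebra A B]

/-- Local expansion: modulo `P ^ r` every element is an `A`-combination of `ω α * y ^ k`,
`k < r`. -/
theorem exists_sub_sum_mem_pow {P : Ideal B} [hP : P.IsPrime] (hP0 : P ≠ ⊥) {y : B}
    (hy : y ∈ P) (hy2 : y ∉ P ^ 2) {f : ℕ} (ω : Fin f → B)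
    (hspan : ∀ z : B, ∃ c : Fin f → A, z - ∑ α, c α • ω α ∈ P) (r : ℕ) (z : B) :
    ∃ c : Fin f → Fin r → A, z - ∑ α, ∑ k : Fin r, c α k • (ω α * y ^ (k : ℕ)) ∈ P ^ r := by
  induction r with
  | zero => exact ⟨fun _ k => k.elim0, by simp⟩
  | succ r ih =>
    obtain ⟨c, hc⟩ := ih
    have h1 := pow_le_span_pow_sup_pow_succ hP0 hy hy2 r hc
    obtain ⟨v, hv, t, ht, hvt⟩ := Submodule.mem_sup.mp h1
    obtain ⟨u, rfl⟩ := Ideal.mem_span_singleton'.mp hv
    obtain ⟨c', hc'⟩ := hspan u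
    refine ⟨fun α => Fin.snoc (c α) (c' α), ?_⟩
    have key : z - ∑ α, ∑ k : Fin (r + 1),
        (Fin.snoc (c α) (c' α) : Fin (r + 1) → A) k • (ω α * y ^ (k : ℕ)) =
        (u - ∑ α, c' α • ω α) * y ^ r + t := by
      have : ∀ α, ∑ k : Fin (r + 1),
          (Fin.snoc (c α) (c' α) : Fin (r + 1) → A) k • (ω α * y ^ (k : ℕ)) =
          ∑ k : Fin r, c α k • (ω α * y ^ (k : ℕ)) + c' α • (ω α * y ^ r) := by
        intro α
        rw [Fin.sum_univ_castSucc]
        simp only [Fin.snoc_castSucc, Fin.snoc_last, Fin.val_castSucc, Fin.val_last]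
      simp only [this, Finset.sum_add_distrib]
      have h2 : ∑ α, c' α • (ω α * y ^ r) = (∑ α, c' α • ω α) * y ^ r := by
        rw [Finset.sum_mul]
        refine Finset.sum_congr rfl fun α _ => ?_
        rw [smul_mul_assoc]
      rw [h2, sub_mul]
      linear_combination -hvt
    rw [key]
    refine Ideal.add_mem _ ?_ ht
    rw [pow_succ']
    exact Ideal.mul_mem_mul hc' (Ideal.pow_mem_pow hy r)


end Dedekind

section Residue

variable {A : Type*} {B : Type*} [CommRing A] [CommRing B] [Algebra A B]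

/-- Lifts of a basis of the residue field extension. -/
theorem exists_residue_lifts [Module.Finite A B] (p : Ideal A) [p.IsMaximal] (P : Ideal B)
    [P.IsMaximal] [P.LiesOver p] :
    ∃ ω : Fin (Module.finrank (A ⧸ p) (B ⧸ P)) → B,
      (∀ z : B, ∃ c : Fin (Module.finrank (A ⧸ p) (B ⧸ P)) → A, z - ∑ α, c α • ω α ∈ P) ∧
      (∀ c : Fin (Module.finrank (A ⧸ p) (B ⧸ P)) → A, ∑ α, c α • ω α ∈ P → ∀ α, c α ∈ p) := by
  letI : Field (A ⧸ p) := Ideal.Quotient.field p
  haveI : Module.Finite (A ⧸ p) (B ⧸ P) :=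
    Module.Finite.of_restrictScalars_finite A (A ⧸ p) (B ⧸ P)
  let bs := Module.finBasis (A ⧸ p) (B ⧸ P)
  have hsurj := Ideal.Quotient.mk_surjective (I := P)
  choose ω hω using fun α => hsurj (bs α)
  have hsm : ∀ (c : A) (w : B), Ideal.Quotient.mk P (c • w) =
      (Ideal.Quotient.mk p c) • Ideal.Quotient.mk P w := by
    intro c w
    rw [Algebra.smul_def, Algebra.smul_def, map_mul]
    congr 1
  refine ⟨ω, ?_, ?_⟩
  · intro z
    have hp := Ideal.Quotient.mk_surjective (I := p)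
    choose c hc using fun α => hp (bs.repr (Ideal.Quotient.mk P z) α)
    refine ⟨c, ?_⟩
    rw [← Ideal.Quotient.eq_zero_iff_mem, map_sub, map_sum, sub_eq_zero]
    conv_lhs => rw [← bs.sum_repr (Ideal.Quotient.mk P z)]
    refine Finset.sum_congr rfl fun α _ => ?_
    rw [hsm, hc, hω]
  · intro c hc α
    rw [← Ideal.Quotient.eq_zero_iff_mem, map_sum] at hc
    have h1 : ∑ α, (Ideal.Quotient.mk p (c α)) • bs α = 0 := by
      rw [← hc]
      refine Finset.sum_congr rfl fun α _ => ?_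
      rw [hsm, hω]
    have := (Fintype.linearIndependent_iff.mp bs.linearIndependent) _ h1 α
    exact Ideal.Quotient.eq_zero_iff_mem.mp this


end Residue

section CRT

variable {B : Type*} [CommRing B] [IsDedekindDomain B]

/-- CRT data for a finite set of nonzero primes with prescribed exponents. -/
theorem exists_crt_data (S : Finset (Ideal B)) (hS : ∀ P ∈ S, Prime P) (e : Ideal B → ℕ) :
    ∃ (y ε : Ideal B → B), ∀ P ∈ S, y P ∈ P ∧ y P ∉ P ^ 2 ∧
      (∀ Q ∈ S, Q ≠ P → y P ∈ Q ^ e Q) ∧ ε P - 1 ∈ P ^ e P ∧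
      (∀ Q ∈ S, Q ≠ P → ε P ∈ Q ^ e Q) := by
  classical
  have hy : ∀ P ∈ S, ∃ y : B, y ∈ P ∧ y ∉ P ^ 2 ∧ (∀ Q ∈ S, Q ≠ P → y ∈ Q ^ e Q) := by
    intro P hP
    have hP0 : P ≠ ⊥ := (hS P hP).ne_zero
    have hP1 : P ≠ ⊤ := (Ideal.isPrime_of_prime (hS P hP)).ne_top
    obtain ⟨π, hπ1, hπ2⟩ := Ideal.exists_mem_pow_notMem_pow_succ P hP0 hP1 1
    rw [pow_one] at hπ1
    obtain ⟨y, hy⟩ := IsDedekindDomain.exists_forall_sub_mem_ideal (s := S) (fun Q => Q)
      (Function.update e P 2) hS (fun _ _ _ _ h => h) (fun Q => if (Q : Ideal B) = P then π else 0)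
    have hyP := hy P hP
    simp only [Function.update_self, if_true] at hyP
    refine ⟨y, ?_, ?_, ?_⟩
    · have : y - π ∈ P := Ideal.pow_le_self two_ne_zero hyP
      simpa using Ideal.add_mem _ this hπ1
    · intro h
      apply hπ2
      have : y - (y - π) ∈ P ^ 2 := Ideal.sub_mem _ h hyP
      simpa using this
    · intro Q hQ hQP
      have := hy Q hQ
      simpa [Function.update_of_ne hQP, hQP] using this
  have hε : ∀ P ∈ S, ∃ ε : B, ε - 1 ∈ P ^ e P ∧ (∀ Q ∈ S, Q ≠ P → ε ∈ Q ^ e Q) := by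
    intro P hP
    obtain ⟨ε, hε⟩ := IsDedekindDomain.exists_forall_sub_mem_ideal (s := S) (fun Q => Q)
      e hS (fun _ _ _ _ h => h) (fun Q => if (Q : Ideal B) = P then 1 else 0)
    refine ⟨ε, ?_, ?_⟩
    · simpa using hε P hP
    · intro Q hQ hQP
      simpa [hQP] using hε Q hQ
  choose! y hy1 hy2 hy3 using hy
  choose! ε hε1 hε2 using hε
  exact ⟨y, ε, fun P hP => ⟨hy1 P hP, hy2 P hP, hy3 P hP, hε1 P hP, hε2 P hP⟩⟩


end CRT

section Main

universe u v

variable {A : Type u} {B : Type v} [CommRing A] [IsDomain A]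
  [CommRing B] [IsDedekindDomain B] [Algebra A B] [Module.IsTorsionFree A B]

open Classical in
/-- The multiplicity of the ideal `P` in `ϖ B`. -/
noncomputable def ramCount (ϖ : A) (P : Ideal B) : ℕ :=
  (normalizedFactors (Ideal.span {algebraMap A B ϖ})).count P

open Classical in
/-- The primes of `B` containing `ϖ`. -/
noncomputable def primesAbove (ϖ : A) : Finset (Ideal B) :=
  (normalizedFactors (Ideal.span {algebraMap A B ϖ})).toFinset

theorem span_algebraMap_ne_bot {ϖ : A} (h0 : ϖ ≠ 0) :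
    Ideal.span {algebraMap A B ϖ} ≠ (⊥ : Ideal B) := by
  rw [Ne, Ideal.span_singleton_eq_bot]
  exact (map_ne_zero_iff _ (FaithfulSMul.algebraMap_injective A B)).mpr h0

theorem mem_primesAbove_iff {ϖ : A} (h0 : ϖ ≠ 0) {P : Ideal B} :
    P ∈ primesAbove (B := B) ϖ ↔ P.IsPrime ∧ algebraMap A B ϖ ∈ P := by
  classical
  rw [primesAbove, Multiset.mem_toFinset, Ideal.mem_normalizedFactors_iff
    (span_algebraMap_ne_bot h0), Ideal.span_singleton_le_iff_mem]

theorem prime_of_mem_primesAbove {ϖ : A} (h0 : ϖ ≠ 0) {P : Ideal B}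
    (hP : P ∈ primesAbove (B := B) ϖ) : Prime P := by
  classical
  rw [primesAbove, Multiset.mem_toFinset] at hP
  exact prime_of_normalized_factor P hP

theorem ramCount_pos {ϖ : A} {P : Ideal B} (hP : P ∈ primesAbove (B := B) ϖ) :
    0 < ramCount ϖ P := by
  classical
  rw [primesAbove, Multiset.mem_toFinset] at hP
  exact Multiset.count_pos.mpr hP

theorem prod_primesAbove_pow {ϖ : A} (h0 : ϖ ≠ 0) :
    ∏ P ∈ primesAbove (B := B) ϖ, P ^ ramCount ϖ P = Ideal.span {algebraMap A B ϖ} := by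
  classical
  rw [primesAbove]
  simp only [ramCount]
  rw [← Finset.prod_multiset_count, Ideal.prod_normalizedFactors_eq_self
    (span_algebraMap_ne_bot h0)]

/-- Membership in `ϖ ^ j B` is checked prime by prime. -/
theorem mem_span_pow_iff {ϖ : A} (h0 : ϖ ≠ 0) (j : ℕ) (z : B) :
    z ∈ Ideal.span {algebraMap A B ϖ ^ j} ↔
      ∀ P ∈ primesAbove (B := B) ϖ, z ∈ P ^ (ramCount ϖ P * j) := by
  classical
  rw [← Ideal.span_singleton_pow, ← prod_primesAbove_pow h0, ← Finset.prod_pow]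
  simp_rw [← pow_mul]
  rw [← IsDedekindDomain.inf_pow_eq_prod_of_prime _ _ _
    (fun P hP => prime_of_mem_primesAbove h0 hP) (fun _ _ _ _ h => h), Submodule.mem_finsetInf]


variable [IsPrincipalIdealRing A] [Module.Finite A B]

theorem isMaximal_span_of_prime {ϖ : A} (hϖ : Prime ϖ) : (Ideal.span {ϖ}).IsMaximal :=
  PrincipalIdealRing.isMaximal_of_irreducible hϖ.irreducible

theorem isMaximal_of_mem_primesAbove {ϖ : A} (h0 : ϖ ≠ 0) {P : Ideal B}
    (hP : P ∈ primesAbove (B := B) ϖ) : P.IsMaximal :=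
  Ideal.IsPrime.isMaximal (Ideal.isPrime_of_prime (prime_of_mem_primesAbove h0 hP))
    (prime_of_mem_primesAbove h0 hP).ne_zero

theorem liesOver_of_mem_primesAbove {ϖ : A} (hϖ : Prime ϖ) {P : Ideal B}
    (hP : P ∈ primesAbove (B := B) ϖ) : P.LiesOver (Ideal.span {ϖ}) := by
  have hmax := isMaximal_span_of_prime hϖ
  have hPp := (mem_primesAbove_iff hϖ.ne_zero).mp hP
  have hPprime : P.IsPrime := hPp.1
  constructor
  refine hmax.eq_of_le ?_ ?_
  · intro h
    have : (1 : A) ∈ P.under A := h ▸ Submodule.mem_top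
    rw [Ideal.under_def, Ideal.mem_comap, map_one] at this
    exact hPprime.ne_top ((Ideal.eq_top_iff_one _).mpr this)
  · rw [Ideal.span_singleton_le_iff_mem, Ideal.under_def, Ideal.mem_comap]
    exact hPp.2

theorem ramCount_eq_ramificationIdx {ϖ : A} (hϖ : Prime ϖ) {P : Ideal B}
    (hP : P ∈ primesAbove (B := B) ϖ) : ramCount ϖ P = P.ramificationIdx A := by
  classical
  have := liesOver_of_mem_primesAbove hϖ hP
  have hmap : Ideal.map (algebraMap A B) (Ideal.span {ϖ}) = Ideal.span {algebraMap A B ϖ} := by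
    rw [Ideal.map_span, Set.image_singleton]
  have hne : Ideal.map (algebraMap A B) (Ideal.span {ϖ}) ≠ ⊥ := by
    rw [hmap]; exact span_algebraMap_ne_bot hϖ.ne_zero
  rw [Ideal.IsDedekindDomain.ramificationIdx_eq_normalizedFactors_count (Ideal.span {ϖ}) P hne,
    hmap, ramCount]



theorem sum_primesAbove_eq_finrank {ϖ : A} (hϖ : Prime ϖ) :
    ∑ P : ↥(primesAbove (B := B) ϖ), (P : Ideal B).inertiaDeg A * ramCount ϖ (P : Ideal B) =
      Module.finrank A B := by
  classical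
  have hmax := isMaximal_span_of_prime hϖ
  rw [← Ideal.sum_ramification_inertia_eq_finrank (Ideal.span {ϖ}) B]
  let E : ↥(primesAbove (B := B) ϖ) ≃ (Ideal.span {ϖ}).primesOver B :=
    { toFun := fun P => ⟨P.1, ((mem_primesAbove_iff hϖ.ne_zero).mp P.2).1,
        liesOver_of_mem_primesAbove hϖ P.2⟩
      invFun := fun Q => ⟨Q.1, (mem_primesAbove_iff hϖ.ne_zero).mpr ⟨Q.2.1, by
        have h1 : ϖ ∈ Q.1.under A := by
          rw [← Q.2.2.over]; exact Ideal.mem_span_singleton_self ϖ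
        exact h1⟩⟩
      left_inv := fun P => rfl
      right_inv := fun Q => rfl }
  refine Fintype.sum_equiv E _ _ fun P => ?_
  rw [ramCount_eq_ramificationIdx hϖ P.2, mul_comm]
  rfl


end Main

section Family

universe u v

/-- A CRT-adapted family for the prime `ϖ` (see the header of this file). -/
structure AdaptedFamily (A : Type u) (B : Type v) [CommRing A] [IsDomain A] [CommRing B]
    [IsDedekindDomain B] [Algebra A B] [Module.IsTorsionFree A B] (ϖ : A) where
  ι : Type v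
  [fin : Fintype ι]
  b : ι → B
  e : ι → ℕ
  k : ι → ℕ
  k_lt : ∀ a, k a < e a
  e_eq : ∀ a, ∃ P : Ideal B, P.IsPrime ∧ algebraMap A B ϖ ∈ P ∧ e a = ramCount ϖ P
  pow_eq : ∀ a, ∃ c : B, b a ^ e a = algebraMap A B ϖ ^ k a * c
  sum_k : ∀ m, (∀ a, e a ∣ m) →
    2 * ∑ a, k a * (m / e a) = m * ∑ a, (if k a = 0 then 0 else 1)
  card_eq : Fintype.card ι = Module.finrank A B
  span_mod : ∀ z : B, ∃ c : ι → A, ∃ z' : B, z = ∑ a, c a • b a + algebraMap A B ϖ * z'
  indep_mod : ∀ c : ι → A,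
    (∀ P : Ideal B, P.IsPrime → algebraMap A B ϖ ∈ P → ∑ a, c a • b a ∈ P) →
      ∀ a, k a = 0 → ϖ ∣ c a

attribute [instance] AdaptedFamily.fin

variable {A : Type u} {B : Type v} [CommRing A] [IsDomain A]
  [CommRing B] [IsDedekindDomain B] [Algebra A B] [Module.IsTorsionFree A B]
  [IsPrincipalIdealRing A] [Module.Finite A B]

theorem nonempty_adaptedFamily {ϖ : A} (hϖ : Prime ϖ) : Nonempty (AdaptedFamily A B ϖ) := by
  classical
  set S := primesAbove (B := B) ϖ with hSdef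
  have h0 := hϖ.ne_zero
  have hSprime : ∀ P ∈ S, Prime P := fun P hP => prime_of_mem_primesAbove h0 hP
  obtain ⟨y, ε, hyε⟩ := exists_crt_data S hSprime (ramCount ϖ)
  have hmax := isMaximal_span_of_prime hϖ
  have hω : ∀ P ∈ S, ∃ ω : Fin (P.inertiaDeg A) → B,
      (∀ z : B, ∃ c : Fin (P.inertiaDeg A) → A, z - ∑ α, c α • ω α ∈ P) ∧
      (∀ c : Fin (P.inertiaDeg A) → A, ∑ α, c α • ω α ∈ P → ∀ α, ϖ ∣ c α) := by
    intro P hP
    haveI := isMaximal_of_mem_primesAbove h0 hP
    haveI := liesOver_of_mem_primesAbove hϖ hP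
    rw [Ideal.inertiaDeg_eq_of_isMaximal (Ideal.span {ϖ}) P]
    obtain ⟨ω, h1, h2⟩ := exists_residue_lifts (Ideal.span {ϖ}) P
    exact ⟨ω, h1, fun c hc α => Ideal.mem_span_singleton.mp (h2 c hc α)⟩
  choose! ω hω1 hω2 using hω
  let t : Ideal B → ℕ → B := fun P k => if k = 0 then ε P else y P ^ k
  have ht1 : ∀ P ∈ S, ∀ k, t P k ∈ P ^ k := by
    intro P hP k
    by_cases hk : k = 0
    · subst hk; simp
    · simp only [t, if_neg hk]
      exact Ideal.pow_mem_pow (hyε P hP).1 k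
  have ht2 : ∀ P ∈ S, ∀ Q ∈ S, Q ≠ P → ∀ k, t P k ∈ Q ^ ramCount ϖ Q := by
    intro P hP Q hQ hQP k
    by_cases hk : k = 0
    · simp only [t, if_pos hk]
      exact (hyε P hP).2.2.2.2 Q hQ hQP
    · simp only [t, if_neg hk]
      obtain ⟨k', rfl⟩ := Nat.exists_eq_succ_of_ne_zero hk
      rw [pow_succ]
      exact Ideal.mul_mem_left _ _ ((hyε P hP).2.2.1 Q hQ hQP)
  have ht3 : ∀ P ∈ S, ∀ k, t P k - y P ^ k ∈ P ^ ramCount ϖ P := by
    intro P hP k
    by_cases hk : k = 0
    · subst hk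
      simp only [t, if_true, pow_zero]
      exact (hyε P hP).2.2.2.1
    · simp only [t, if_neg hk, sub_self]
      exact Ideal.zero_mem _
  have hepos : ∀ P ∈ S, 0 < ramCount ϖ P := fun P hP => ramCount_pos hP
  refine ⟨{
    ι := Σ P : ↥S, Fin ((P : Ideal B).inertiaDeg A) × Fin (ramCount ϖ (P : Ideal B))
    b := fun a => ω a.1 a.2.1 * t a.1 a.2.2
    e := fun a => ramCount ϖ (a.1 : Ideal B)
    k := fun a => (a.2.2 : ℕ)
    k_lt := fun a => a.2.2.2
    e_eq := fun a => ⟨a.1, ((mem_primesAbove_iff h0).mp a.1.2).1,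
      ((mem_primesAbove_iff h0).mp a.1.2).2, rfl⟩
    pow_eq := ?_
    sum_k := ?_
    card_eq := ?_
    span_mod := ?_
    indep_mod := ?_ }⟩
  · -- pow_eq
    rintro ⟨⟨P, hP⟩, α, k⟩
    have hmem : (ω P α * t P k) ^ ramCount ϖ P ∈ Ideal.span {algebraMap A B ϖ ^ (k : ℕ)} := by
      rw [mem_span_pow_iff h0]
      intro Q hQ
      rw [mul_pow]
      refine Ideal.mul_mem_left _ _ ?_
      by_cases hQP : Q = P
      · subst hQP
        have := Ideal.pow_mem_pow (ht1 Q hQ k) (ramCount ϖ Q)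
        rwa [← pow_mul, mul_comm] at this
      · have := Ideal.pow_mem_pow (ht2 P hP Q hQ hQP k) (ramCount ϖ P)
        rw [← pow_mul] at this
        refine Ideal.pow_le_pow_right ?_ this
        exact Nat.mul_le_mul_left _ k.2.le
    obtain ⟨c, hc⟩ := Ideal.mem_span_singleton'.mp hmem
    exact ⟨c, by rw [← hc, mul_comm]⟩
  · -- sum_k
    intro m hm
    simp only [Fintype.sum_sigma, Fintype.sum_prod_type, Finset.sum_const, Finset.card_univ,
      Fintype.card_fin, smul_eq_mul]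
    rw [Finset.mul_sum, Finset.mul_sum]
    refine Finset.sum_congr rfl fun P _ => ?_
    have hdvd : ramCount ϖ (P : Ideal B) ∣ m := by
      rcases Nat.eq_zero_or_pos ((P : Ideal B).inertiaDeg A) with h | h
      · exfalso
        haveI := isMaximal_of_mem_primesAbove h0 P.2
        haveI := liesOver_of_mem_primesAbove hϖ P.2
        have := Ideal.inertiaDeg_pos (P : Ideal B) A (hq := inferInstance)
        omega
      · exact hm ⟨P, ⟨0, h⟩, ⟨0, hepos P P.2⟩⟩
    have := two_mul_sum_fin_mul_div (ramCount ϖ (P : Ideal B)) m (hepos P P.2) hdvd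
    rw [show ∀ f X : ℕ, 2 * (f * X) = f * (2 * X) by intros; ring, this]
    show (P : Ideal B).inertiaDeg A * (m * _) = m * ∑ _x : Fin ((P : Ideal B).inertiaDeg A),
      ∑ k : Fin (ramCount ϖ (P : Ideal B)), (if (k : ℕ) = 0 then 0 else 1)
    rw [Finset.sum_const, Finset.card_univ, Fintype.card_fin, smul_eq_mul]
    ring
  · -- card_eq
    rw [Fintype.card_sigma]
    simp only [Fintype.card_prod, Fintype.card_fin]
    exact sum_primesAbove_eq_finrank hϖ
  · -- span_mod
    intro z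
    have hloc : ∀ P : ↥S, ∃ c : Fin ((P : Ideal B).inertiaDeg A) →
        Fin (ramCount ϖ (P : Ideal B)) → A,
        z - ∑ α, ∑ k : Fin (ramCount ϖ (P : Ideal B)), c α k • (ω P α * y P ^ (k : ℕ)) ∈
          (P : Ideal B) ^ ramCount ϖ (P : Ideal B) := by
      intro P
      haveI : (P : Ideal B).IsPrime := Ideal.isPrime_of_prime (hSprime P P.2)
      exact exists_sub_sum_mem_pow (hSprime P P.2).ne_zero (hyε P P.2).1 (hyε P P.2).2.1 (ω P)
        (hω1 P P.2) _ z
    choose cP hcP using hloc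
    let g : ↥S → B := fun P => ∑ α, ∑ k : Fin (ramCount ϖ (P : Ideal B)),
      cP P α k • (ω P α * t P k)
    have hmem : z - ∑ P, g P ∈ Ideal.span {algebraMap A B ϖ} := by
      have key : ∀ Q ∈ S, z - ∑ P, g P ∈ Q ^ (ramCount ϖ Q * 1) := by
        intro Q hQ
        rw [mul_one]
        have hsplit := Finset.add_sum_erase Finset.univ g (Finset.mem_univ (⟨Q, hQ⟩ : ↥S))
        rw [← hsplit, ← sub_sub]
        refine Ideal.sub_mem _ ?_ ?_
        · -- the term at `Q`
          have h1 := hcP ⟨Q, hQ⟩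
          have h2 : z - g ⟨Q, hQ⟩ = (z - ∑ α, ∑ k : Fin (ramCount ϖ Q),
              cP ⟨Q, hQ⟩ α k • (ω Q α * y Q ^ (k : ℕ))) -
              ∑ α, ∑ k : Fin (ramCount ϖ Q),
                cP ⟨Q, hQ⟩ α k • (ω Q α * (t Q k - y Q ^ (k : ℕ))) := by
            simp only [g, mul_sub, smul_sub, Finset.sum_sub_distrib]
            ring
          rw [h2]
          refine Ideal.sub_mem _ h1 ?_
          refine Ideal.sum_mem _ fun α _ => Ideal.sum_mem _ fun k _ => ?_
          rw [Algebra.smul_def]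
          exact Ideal.mul_mem_left _ _ (Ideal.mul_mem_left _ _ (ht3 Q hQ k))
        · -- the other terms
          refine Ideal.sum_mem _ fun P hP => ?_
          have hPQ : Q ≠ (P : Ideal B) := by
            intro h
            apply (Finset.mem_erase.mp hP).1
            exact Subtype.ext h.symm
          refine Ideal.sum_mem _ fun α _ => Ideal.sum_mem _ fun k _ => ?_
          rw [Algebra.smul_def]
          exact Ideal.mul_mem_left _ _ (Ideal.mul_mem_left _ _ (ht2 P P.2 Q hQ hPQ k))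
      have := (mem_span_pow_iff (B := B) h0 1 (z - ∑ P, g P)).mpr key
      simpa using this
    obtain ⟨z', hz'⟩ := Ideal.mem_span_singleton'.mp hmem
    refine ⟨fun a => cP a.1 a.2.1 a.2.2, z', ?_⟩
    rw [Fintype.sum_sigma]
    simp only [Fintype.sum_prod_type]
    have : z = ∑ P, g P + z' * algebraMap A B ϖ := by rw [hz']; ring
    rw [mul_comm]
    exact this
  · -- indep_mod
    intro c hc
    rintro ⟨⟨Q, hQ⟩, α₀, k₀⟩ hk0
    have hQprime : Q.IsPrime := ((mem_primesAbove_iff h0).mp hQ).1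
    have hsum := hc Q hQprime ((mem_primesAbove_iff h0).mp hQ).2
    rw [Fintype.sum_sigma] at hsum
    simp only [Fintype.sum_prod_type] at hsum
    let g' : ↥S → B := fun P => ∑ α, ∑ k : Fin (ramCount ϖ (P : Ideal B)),
      c ⟨P, α, k⟩ • (ω P α * t P k)
    have hpowle : Q ^ ramCount ϖ Q ≤ Q := Ideal.pow_le_self (hepos Q hQ).ne'
    have h1 : g' ⟨Q, hQ⟩ ∈ Q := by
      have hsplit := Finset.add_sum_erase Finset.univ g' (Finset.mem_univ (⟨Q, hQ⟩ : ↥S))
      have h2 : ∑ P ∈ Finset.univ.erase (⟨Q, hQ⟩ : ↥S), g' P ∈ Q := by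
        refine Ideal.sum_mem _ fun P hP => ?_
        have hPQ : Q ≠ (P : Ideal B) := by
          intro h
          apply (Finset.mem_erase.mp hP).1
          exact Subtype.ext h.symm
        refine Ideal.sum_mem _ fun α _ => Ideal.sum_mem _ fun k _ => ?_
        rw [Algebra.smul_def]
        exact Ideal.mul_mem_left _ _ (Ideal.mul_mem_left _ _ (hpowle (ht2 P P.2 Q hQ hPQ k)))
      have h3 : g' ⟨Q, hQ⟩ = ∑ P, g' P - ∑ P ∈ Finset.univ.erase (⟨Q, hQ⟩ : ↥S), g' P := by
        rw [← hsplit]; ring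
      rw [h3]
      exact Ideal.sub_mem _ hsum h2
    let k0 : Fin (ramCount ϖ Q) := ⟨0, hepos Q hQ⟩
    have h3 : ∑ α, c ⟨⟨Q, hQ⟩, α, k0⟩ • ω Q α ∈ Q := by
      have h4 : ∑ α, c ⟨⟨Q, hQ⟩, α, k0⟩ • ω Q α = g' ⟨Q, hQ⟩ -
          ∑ α, (c ⟨⟨Q, hQ⟩, α, k0⟩ • (ω Q α * (ε Q - 1)) +
            ∑ k ∈ Finset.univ.erase k0, c ⟨⟨Q, hQ⟩, α, k⟩ • (ω Q α * t Q k)) := by
        rw [eq_sub_iff_add_eq, ← Finset.sum_add_distrib]
        refine Finset.sum_congr rfl fun α _ => ?_
        rw [← Finset.add_sum_erase Finset.univ _ (Finset.mem_univ k0)]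
        have : t Q (k0 : ℕ) = ε Q := by simp [t, k0]
        rw [this, mul_sub, smul_sub, mul_one]
        ring
      rw [h4]
      refine Ideal.sub_mem _ h1 (Ideal.sum_mem _ fun α _ => Ideal.add_mem _ ?_ ?_)
      · rw [Algebra.smul_def]
        exact Ideal.mul_mem_left _ _ (Ideal.mul_mem_left _ _ (hpowle (hyε Q hQ).2.2.2.1))
      · refine Ideal.sum_mem _ fun k hk => ?_
        rw [Algebra.smul_def]
        refine Ideal.mul_mem_left _ _ (Ideal.mul_mem_left _ _ ?_)
        have hkne : (k : ℕ) ≠ 0 := by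
          intro h
          apply (Finset.mem_erase.mp hk).1
          exact Fin.ext h
        have := ht1 Q hQ k
        exact Ideal.pow_le_self hkne this
    have h5 := hω2 Q hQ (fun α => c ⟨⟨Q, hQ⟩, α, k0⟩) h3 α₀
    have h6 : k₀ = k0 := Fin.ext hk0
    rw [h6]
    exact h5


end Family

end Fermat.Agent.Good
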