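import Fermat.Agent.Good.RamDescent
import Fermat.Agent.Good.AdaptedFamily
import Fermat.Agent.X0.Alg.AffineModel
import Fermat.Agent.X0.Alg.SepVarBasic

/-!
# Descent of ramification data, consumer form (track L-GEN, node [G-RAM])

Complements `Good/RamDescent.lean`:

* `RamDesc.mem_valuationSubring_of_isIntegral` : valuation subrings are integrally closed in the
  big field, in the form needed to see that they contain the constants;
* `RamDesc.isPrincipalIdealRing_of_isSepVar` : in a function field with a separating variable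
  every valuation subring over the constants, other than the field itself, is principal
  (so the hypothesis `hplace` of `Good/RamDescent.lean` holds);
* `RamDesc.mem_pow_ramCount`, `RamDesc.notMem_pow_ramCount_succ` : the multiplicity `ramCount ϖ P`
  of `Good/AdaptedFamily.lean` is the exact `P`-adic order of `ϖ`;
* `RamDesc.ramCount_dvd_of_forall_place`, `RamDesc.ramCount_le_of_forall_place` : a divisibility
  (a bound) for the orders of `ϖ` at all places of the big field descends to `ramCount ϖ P`,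
  for every prime `P` of the Dedekind domain `B0` containing `ϖ`.
-/

set_option autoImplicit false

open IsDiscreteValuationRing AlgebraicCurve IsDedekindDomain IntermediateField

namespace Fermat.Agent.Good.RamDesc

open Fermat.Agent.Good.QN Fermat.Agent.X0

section Integral

variable {B0 F : Type*} [CommRing B0] [Field F] [Algebra B0 F]

/-- A valuation subring containing the image of `B0` contains every element integral over
`B0`. -/
theorem mem_valuationSubring_of_isIntegral (V : ValuationSubring F)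
    (hB : ∀ b : B0, algebraMap B0 F b ∈ V) {r : F} (hr : IsIntegral B0 r) : r ∈ V := by
  let φ : B0 →+* V := (algebraMap B0 F).codRestrict V.toSubring hB
  have h1 : IsIntegral V ((RingHom.id F) r) :=
    IsIntegral.map_of_comp_eq φ (RingHom.id F) (by ext a; rfl) hr
  obtain ⟨y, hy⟩ := IsIntegrallyClosed.isIntegral_iff.mp h1
  rw [RingHom.id_apply] at hy
  rw [← hy]
  exact y.2

variable {K : Type*} [Field K] [Algebra K F]

/-- **A place over a prime**, constants only integral over `B0`.  Same as
`exists_place_ord_eq_mul`, but `B0` need not be a `K`-algebra: it suffices that the constants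
are integral over `B0` (e.g. `K` algebraic over a subfield contained in `B0`). -/
theorem exists_place_ord_eq_mul_of_isIntegral (hinj : Function.Injective (algebraMap B0 F))
    (hKint : ∀ a : K, IsIntegral B0 (algebraMap K F a))
    (hplace : ∀ V : ValuationSubring F, (∀ a : K, algebraMap K F a ∈ V) → V ≠ ⊤ →
      IsPrincipalIdealRing V)
    (P : Ideal B0) [P.IsMaximal] (hDVR : IsDVRAt P) :
    ∃ (v : Place K F) (e : ℤ), 0 < e ∧ (∀ b : B0, algebraMap B0 F b ∈ v.toValuationSubring) ∧
      (∀ b ∈ P, algebraMap B0 F b ∈ v.toValuationSubring.nonunits) ∧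
      ∀ (x : B0) (n : ℕ), x ∈ P ^ n → x ∉ P ^ (n + 1) → v.ord (algebraMap B0 F x) = n * e := by
  obtain ⟨V, hBV, hPV⟩ := exists_valuationSubring_dominating hinj P
  have hK : ∀ a : K, algebraMap K F a ∈ V := fun a =>
    mem_valuationSubring_of_isIntegral V hBV (hKint a)
  obtain ⟨ϖ, hϖ⟩ := exists_ordP_eq_one P hDVR
  have hϖP : ϖ ∈ P := (ordP_pos_iff P ϖ).1 (by rw [hϖ])
  have hϖ0 : ϖ ≠ 0 := by
    rintro rfl
    have h1 : ((2 : ℕ) : ℕ∞) ≤ ordP P (0 : B0) := (le_ordP_iff P 0 2).2 (Ideal.zero_mem _)
    rw [hϖ] at h1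
    exact absurd h1 (by decide)
  have hVtop : V ≠ ⊤ := by
    rintro rfl
    have h1 := hPV ϖ hϖP
    rw [ValuationSubring.mem_nonunits_iff_or] at h1
    rcases h1 with h1 | h1
    · exact hϖ0 (hinj (h1.trans (map_zero _).symm))
    · exact h1 (ValuationSubring.mem_top _)
  let v : Place K F := ⟨V, hK, hVtop, hplace V hK hVtop⟩
  obtain ⟨e, he, hev⟩ := ord_eq_mul v hinj P hDVR hBV hPV
  exact ⟨v, e, he, hBV, hPV, hev⟩

end Integral

section SepVar

variable {K F : Type*} [Field K] [Field F] [Algebra K F]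

/-- A valuation subring of the fraction field of a Dedekind domain `R`, containing `R` and not
the whole field, is the valuation ring of a height one prime of `R`. -/
theorem exists_heightOneSpectrum_valuationSubring_eq {R : Type*} [CommRing R] [IsDedekindDomain R]
    [Algebra R F] [IsFractionRing R F] (V : ValuationSubring F) (hV : V ≠ ⊤)
    (hR : ∀ r : R, algebraMap R F r ∈ V) :
    ∃ w : HeightOneSpectrum R, (w.valuation F).valuationSubring = V := by
  let φ : R →+* V := (algebraMap R F).codRestrict V.toSubring hR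
  have hφ : ∀ r, ((φ r : V) : F) = algebraMap R F r := fun _ => rfl
  let P : Ideal R := (IsLocalRing.maximalIdeal V).comap φ
  have hPprime : P.IsPrime := Ideal.comap_isPrime φ _
  have hunit : ∀ r : R, r ∉ P → (algebraMap R F r)⁻¹ ∈ V := by
    intro r hr
    have hu : IsUnit (φ r) := by
      by_contra hnu
      exact hr ((IsLocalRing.mem_maximalIdeal _).mpr hnu)
    obtain ⟨u, hu'⟩ := hu
    have h2 : (((u⁻¹ : Vˣ) : V) : F) * algebraMap R F r = 1 := by
      have h1 : ((u⁻¹ : Vˣ) : V) * φ r = 1 := by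
        rw [← hu']; exact u.inv_mul
      exact congrArg Subtype.val h1
    rw [← eq_inv_of_mul_eq_one_left h2]
    exact Subtype.mem _
  have hPbot : P ≠ ⊥ := by
    intro hbot
    apply hV
    refine SetLike.ext fun x => ⟨fun _ => ValuationSubring.mem_top x, fun _ => ?_⟩
    obtain ⟨a, b, hb, rfl⟩ := IsFractionRing.div_surjective (A := R) x
    have hb0 : b ≠ 0 := nonZeroDivisors.ne_zero hb
    have hbP : b ∉ P := by
      rw [hbot, Ideal.mem_bot]
      exact hb0
    rw [div_eq_mul_inv]
    exact mul_mem (hR a) (hunit b hbP)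
  let w : HeightOneSpectrum R := ⟨P, hPprime, hPbot⟩
  refine ⟨w, ?_⟩
  have hle : (w.valuation F).valuationSubring ≤ V := by
    intro x hx
    rw [Valuation.mem_valuationSubring_iff] at hx
    obtain ⟨n, d, hnd⟩ := w.exists_primeCompl_mul_eq_of_integer x hx
    have hd : (d : R) ∉ P := d.2
    have hd0 : algebraMap R F (d : R) ≠ 0 := by
      intro h0
      apply hd
      have : (d : R) = 0 := (IsFractionRing.injective R F) (by rw [h0, map_zero])
      rw [this]
      exact P.zero_mem
    have hx' : x = algebraMap R F n * (algebraMap R F (d : R))⁻¹ := by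
      rw [← hnd, mul_inv_cancel_right₀ hd0]
    rw [hx']
    exact mul_mem (hR n) (hunit d hd)
  rw [← HeightOneSpectrum.valuationSubringAtPrime_eq_valuationSubring] at hle ⊢
  exact ValuationSubring.eq_of_le_of_ne_top _ hle hV

/-- An element integral over `K[y]` lies in every valuation subring containing `K` and `y`. -/
theorem mem_valuationSubring_of_isIntegral_adjoin (V : ValuationSubring F)
    (hK : ∀ a : K, algebraMap K F a ∈ V) {y : F} (hy : y ∈ V) {r : F}
    (hr : IsIntegral (Algebra.adjoin K {y}) r) : r ∈ V := by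
  let OV : Subalgebra K F := { V.toSubring with algebraMap_mem' := hK }
  have hle : Algebra.adjoin K {y} ≤ OV := Algebra.adjoin_le (by
    intro z hz
    rw [Set.mem_singleton_iff] at hz
    rw [hz]
    exact hy)
  exact mem_valuationSubring_of_isIntegral V (fun b => hle b.2) hr

/-- **Valuation rings of a function field of one variable are discrete.**  If `F/K` has a
separating variable (characteristic `0`), every valuation subring of `F` containing `K`, other
than `F`, is a principal ideal ring. -/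
theorem isPrincipalIdealRing_of_isSepVar [CharZero K] {x : F} {n : ℕ} (hx : IsSepVar K x n)
    (V : ValuationSubring F) (hK : ∀ a : K, algebraMap K F a ∈ V) (hV : V ≠ ⊤) :
    IsPrincipalIdealRing V := by
  obtain ⟨y, hy, hfin, hyV⟩ : ∃ y : F, Transcendental K y ∧ FiniteDimensional K⟮y⟯ F ∧ y ∈ V := by
    have := hx.finite
    rcases V.mem_or_inv_mem x with h | h
    · exact ⟨x, hx.transcendental, hx.finite, h⟩
    · exact ⟨x⁻¹, (isSepVar_inv hx).transcendental, (isSepVar_inv hx).finite, h⟩
  have hDed : IsDedekindDomain (algModel K y) := algModel_isDedekindDomain hy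
  have hFrac : IsFractionRing (algModel K y) F := algModel_isFractionRing
  have hR : ∀ r : algModel K y, algebraMap (algModel K y) F r ∈ V := fun r =>
    mem_valuationSubring_of_isIntegral_adjoin V hK hyV r.2
  obtain ⟨w, hw⟩ := exists_heightOneSpectrum_valuationSubring_eq V hV hR
  rw [← hw]
  exact Place.isPrincipalIdealRing_valuationSubring w

end SepVar

section Count

variable {A0 B0 : Type*} [CommRing A0] [IsDomain A0] [CommRing B0] [IsDedekindDomain B0]
  [Algebra A0 B0] [Module.IsTorsionFree A0 B0]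

/-- `x ∈ P ^ m` iff `m` is at most the multiplicity of `P` in `(x)`. -/
theorem mem_pow_iff_le_count {P : Ideal B0} (hP : P.IsPrime) (hP0 : P ≠ ⊥) {x : B0} (hx : x ≠ 0)
    (m : ℕ) : x ∈ P ^ m ↔ m ≤ by classical exact
      (UniqueFactorizationMonoid.normalizedFactors (Ideal.span {x})).count P := by
  classical
  have hI : Ideal.span {x} ≠ (⊥ : Ideal B0) := by
    rwa [Ne, Ideal.span_singleton_eq_bot]
  have hirr : Irreducible P := (Ideal.prime_of_isPrime hP0 hP).irreducible
  rw [← Ideal.span_singleton_le_iff_mem, ← Ideal.dvd_iff_le, pow_dvd_iff_le_emultiplicity,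
    UniqueFactorizationMonoid.emultiplicity_eq_count_normalizedFactors hirr hI, normalize_eq]
  exact Nat.cast_le

theorem ne_bot_of_algebraMap_mem {ϖ : A0} (h0 : ϖ ≠ 0) {P : Ideal B0}
    (hϖP : algebraMap A0 B0 ϖ ∈ P) : P ≠ ⊥ := by
  rintro rfl
  rw [Ideal.mem_bot] at hϖP
  exact h0 ((FaithfulSMul.algebraMap_injective A0 B0) (hϖP.trans (map_zero _).symm))

theorem algebraMap_ne_zero' {ϖ : A0} (h0 : ϖ ≠ 0) : algebraMap A0 B0 ϖ ≠ 0 := fun h =>
  h0 ((FaithfulSMul.algebraMap_injective A0 B0) (h.trans (map_zero _).symm))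

/-- `ϖ ∈ P ^ ramCount ϖ P`. -/
theorem mem_pow_ramCount {ϖ : A0} (h0 : ϖ ≠ 0) {P : Ideal B0} (hP : P.IsPrime)
    (hϖP : algebraMap A0 B0 ϖ ∈ P) : algebraMap A0 B0 ϖ ∈ P ^ ramCount ϖ P :=
  (mem_pow_iff_le_count hP (ne_bot_of_algebraMap_mem h0 hϖP) (algebraMap_ne_zero' h0) _).2 le_rfl

/-- `ϖ ∉ P ^ (ramCount ϖ P + 1)`. -/
theorem notMem_pow_ramCount_succ {ϖ : A0} (h0 : ϖ ≠ 0) {P : Ideal B0} (hP : P.IsPrime)
    (hϖP : algebraMap A0 B0 ϖ ∈ P) : algebraMap A0 B0 ϖ ∉ P ^ (ramCount ϖ P + 1) := fun h =>
  absurd ((mem_pow_iff_le_count hP (ne_bot_of_algebraMap_mem h0 hϖP)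
    (algebraMap_ne_zero' h0) _).1 h) (by unfold ramCount; omega)

/-- `0 < ramCount ϖ P` for a prime `P` containing `ϖ`. -/
theorem ramCount_pos_of_mem {ϖ : A0} (h0 : ϖ ≠ 0) {P : Ideal B0} (hP : P.IsPrime)
    (hϖP : algebraMap A0 B0 ϖ ∈ P) : 0 < ramCount ϖ P := by
  have h1 : algebraMap A0 B0 ϖ ∈ P ^ 1 := by rwa [pow_one]
  exact (mem_pow_iff_le_count hP (ne_bot_of_algebraMap_mem h0 hϖP) (algebraMap_ne_zero' h0) 1).1 h1

variable {K F : Type*} [Field K] [Field F] [Algebra K F] [Algebra B0 F]

/-- **(RAM), divisibility form.**  If the positive orders of `ϖ` at all places of the big field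
`F` divide `m`, then `ramCount ϖ P ∣ m` for every prime `P` of `B0` containing `ϖ`. -/
theorem ramCount_dvd_of_forall_place (hinj : Function.Injective (algebraMap B0 F))
    (hKint : ∀ a : K, IsIntegral B0 (algebraMap K F a))
    (hplace : ∀ V : ValuationSubring F, (∀ a : K, algebraMap K F a ∈ V) → V ≠ ⊤ →
      IsPrincipalIdealRing V)
    {ϖ : A0} (h0 : ϖ ≠ 0) (m : ℕ)
    (hram : ∀ v : Place K F, 0 < v.ord (algebraMap B0 F (algebraMap A0 B0 ϖ)) →
      v.ord (algebraMap B0 F (algebraMap A0 B0 ϖ)) ∣ (m : ℤ)) :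
    ∀ P : Ideal B0, P.IsPrime → algebraMap A0 B0 ϖ ∈ P → ramCount ϖ P ∣ m := by
  intro P hP hϖP
  have hP0 := ne_bot_of_algebraMap_mem h0 hϖP
  have : P.IsMaximal := hP.isMaximal hP0
  have hDVR := isDVRAt_of_isDedekindDomain P hP0
  obtain ⟨v, e, he, -, -, hev⟩ :=
    exists_place_ord_eq_mul_of_isIntegral (K := K) hinj hKint hplace P hDVR
  have h1 := hev _ _ (mem_pow_ramCount h0 hP hϖP) (notMem_pow_ramCount_succ h0 hP hϖP)
  have hn := ramCount_pos_of_mem h0 hP hϖP
  have hpos : 0 < v.ord (algebraMap B0 F (algebraMap A0 B0 ϖ)) := by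
    rw [h1]
    exact mul_pos (by exact_mod_cast hn) he
  have h2 := hram v hpos
  rw [h1] at h2
  exact Int.natCast_dvd_natCast.1 ((dvd_mul_right _ _).trans h2)

/-- **(RAM), bound form.**  If the orders of `ϖ` at all places of the big field `F` are at
most `1`, then `ramCount ϖ P = 1` for every prime `P` of `B0` containing `ϖ`. -/
theorem ramCount_eq_one_of_forall_place (hinj : Function.Injective (algebraMap B0 F))
    (hKint : ∀ a : K, IsIntegral B0 (algebraMap K F a))
    (hplace : ∀ V : ValuationSubring F, (∀ a : K, algebraMap K F a ∈ V) → V ≠ ⊤ →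
      IsPrincipalIdealRing V)
    {ϖ : A0} (h0 : ϖ ≠ 0)
    (hram : ∀ v : Place K F, v.ord (algebraMap B0 F (algebraMap A0 B0 ϖ)) ≤ 1) :
    ∀ P : Ideal B0, P.IsPrime → algebraMap A0 B0 ϖ ∈ P → ramCount ϖ P = 1 := by
  intro P hP hϖP
  have hP0 := ne_bot_of_algebraMap_mem h0 hϖP
  have : P.IsMaximal := hP.isMaximal hP0
  have hDVR := isDVRAt_of_isDedekindDomain P hP0
  obtain ⟨v, e, he, -, -, hev⟩ :=
    exists_place_ord_eq_mul_of_isIntegral (K := K) hinj hKint hplace P hDVR
  have h1 := hev _ _ (mem_pow_ramCount h0 hP hϖP) (notMem_pow_ramCount_succ h0 hP hϖP)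
  have hn := ramCount_pos_of_mem h0 hP hϖP
  have h2 := hram v
  rw [h1] at h2
  have h3 : ((ramCount ϖ P : ℕ) : ℤ) ≤ 1 := by
    have hn0 : (1 : ℤ) ≤ (ramCount ϖ P : ℕ) := by exact_mod_cast hn
    nlinarith
  have h4 : ramCount ϖ P ≤ 1 := by exact_mod_cast h3
  omega

end Count

end Fermat.Agent.Good.RamDesc
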