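import Fermat.Agent.Good.RamDataBar
import Fermat.Agent.Good.RamDescentCount

/-!
# L-GEN node [G-RAM], part 3: ramification of `j` on a Dedekind model over a small field

`B0` a Dedekind domain, torsion free over a domain `A0`, with an injective ring homomorphism
`ι : B0 →+* Fb N` into the function field of `X₀(N)` over `ℚ̄` (and some ring homomorphism
`ℚ →+* B0`, i.e. `B0` is a `ℚ`-algebra).  For `ϖ : A0` whose image in `Fb N` is one of

* `j`                (`ramCount_dvd_three`),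
* `j - 1728`         (`ramCount_dvd_two`),
* `1 / j`            (`ramCount_dvd_level`),
* `g(j)`, `g` separable over `ℚ̄` without the roots `0, 1728`    (`ramCount_eq_one_fin`),
* `g(1/j)`, `g` separable over `ℚ̄` without the roots `0, 1/1728` (`ramCount_eq_one_cusp`),

every prime `P` of `B0` containing `ϖ` has `ramCount ϖ P ∣ 3` (resp. `∣ 2`, `∣ N`, `= 1`, `= 1`).
The versions `..._of_map` take `g` over an arbitrary field `k` with `σ : k →+* ℚ̄`.
-/

set_option autoImplicit false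
set_option linter.style.haveILetI false

open AlgebraicCurve Polynomial

namespace Fermat.Agent.Good.RamDesc

open Fermat.Agent.X0 Fermat.Agent.Good.RamBar

section Generic

/-- A sum of integers, each at most `1` and at most one of them positive, is at most `1`. -/
theorem multiset_sum_le_one {α : Type*} (f : α → ℤ) (s : Multiset α) (hs : s.Nodup)
    (h1 : ∀ a ∈ s, f a ≤ 1) (h2 : ∀ a ∈ s, ∀ b ∈ s, 0 < f a → 0 < f b → a = b) :
    (s.map f).sum ≤ 1 := by
  induction s using Multiset.induction_on with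
  | empty => simp
  | cons a t ih =>
    rw [Multiset.nodup_cons] at hs
    rw [Multiset.map_cons, Multiset.sum_cons]
    have iht := ih hs.2 (fun b hb => h1 b (Multiset.mem_cons_of_mem hb))
      (fun b hb c hc => h2 b (Multiset.mem_cons_of_mem hb) c (Multiset.mem_cons_of_mem hc))
    rcases lt_or_ge 0 (f a) with hpos | hneg
    · have hle : (t.map f).sum ≤ 0 := by
        have h3 := Multiset.sum_le_card_nsmul (t.map f) 0 (by
          intro y hy
          obtain ⟨b, hb, rfl⟩ := Multiset.mem_map.1 hy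
          by_contra hcon
          have hab : b = a := h2 b (Multiset.mem_cons_of_mem hb) a (Multiset.mem_cons_self a t)
            (not_le.1 hcon) hpos
          exact hs.1 (hab ▸ hb))
        rwa [smul_zero] at h3
      have := h1 a (Multiset.mem_cons_self a t)
      omega
    · omega

variable {K F : Type*} [Field K] [Field F] [Algebra K F] (v : Place K F)

/-- `ord` of a product over a multiset of nonzero elements. -/
theorem ord_multiset_prod (s : Multiset F) (hs : ∀ y ∈ s, y ≠ 0) :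
    v.ord s.prod = (s.map v.ord).sum := by
  induction s using Multiset.induction_on with
  | empty => simp
  | cons a t ih =>
    have ha : a ≠ 0 := hs a (Multiset.mem_cons_self a t)
    have ht : ∀ y ∈ t, y ≠ 0 := fun y hy => hs y (Multiset.mem_cons_of_mem hy)
    have htp : t.prod ≠ 0 := Multiset.prod_ne_zero (fun h0 => ht 0 h0 rfl)
    rw [Multiset.prod_cons, Multiset.map_cons, Multiset.sum_cons, v.ord_mul ha htp, ih ht]

/-- **Unramified values.**  Over an algebraically closed constant field, if `x - a` vanishes to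
order at most `1` at `v` for every root `a` of the separable polynomial `g`, then so does
`g(x)`. -/
theorem ord_aeval_le_one [IsAlgClosed K] {x : F} (hx : Transcendental K x) (g : K[X])
    (hg : g.Separable) (hroots : ∀ a : K, g.IsRoot a → v.ord (x - algebraMap K F a) ≤ 1) :
    v.ord (aeval x g) ≤ 1 := by
  have hg0 : g ≠ 0 := hg.ne_zero
  have hne : ∀ a : K, x - algebraMap K F a ≠ 0 := fun a h0 => by
    apply hx
    rw [sub_eq_zero.1 h0]
    exact isAlgebraic_algebraMap a
  have hfac := (IsAlgClosed.splits g).eq_prod_roots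
  have h1 : aeval x g = algebraMap K F g.leadingCoeff *
      (g.roots.map (fun a => x - algebraMap K F a)).prod := by
    conv_lhs => rw [hfac]
    rw [map_mul, aeval_C, map_multiset_prod, Multiset.map_map]
    congr 2
    refine Multiset.map_congr rfl fun a _ => ?_
    simp
  have hlc : algebraMap K F g.leadingCoeff ≠ 0 :=
    (_root_.map_ne_zero _).2 (leadingCoeff_ne_zero.2 hg0)
  have hmem : ∀ y ∈ g.roots.map (fun a => x - algebraMap K F a), y ≠ 0 := by
    intro y hy
    obtain ⟨a, -, rfl⟩ := Multiset.mem_map.1 hy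
    exact hne a
  have hprod0 : (g.roots.map (fun a => x - algebraMap K F a)).prod ≠ 0 :=
    Multiset.prod_ne_zero (fun h0 => hmem 0 h0 rfl)
  rw [h1, v.ord_mul hlc hprod0, Place.ord_algebraMap, zero_add, ord_multiset_prod v _ hmem,
    Multiset.map_map]
  refine multiset_sum_le_one _ _ (nodup_roots hg) ?_ ?_
  · intro a ha
    exact hroots a (isRoot_of_mem_roots ha)
  · intro a _ b _ hpa hpb
    exact Place.ord_pos_unique_constant v hpa hpb

end Generic

section Concrete

variable (N : ℕ) [NeZero N]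

/-- Every valuation subring of `Fb N` over `ℚ̄`, other than `Fb N`, is principal. -/
theorem hplace_Fb (V : ValuationSubring (Fb N)) (hK : ∀ a : Kb, algebraMap Kb (Fb N) a ∈ V)
    (hV : V ≠ ⊤) : IsPrincipalIdealRing V :=
  isPrincipalIdealRing_of_isSepVar (jBar_isSepVar N) V hK hV

theorem transcendental_jBar : Transcendental Kb (jBar N) := (jBar_isSepVar N).transcendental

theorem transcendental_jBar_inv : Transcendental Kb (jBar N)⁻¹ :=
  (isSepVar_inv (jBar_isSepVar N)).transcendental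

theorem jBar_ne_zero : jBar N ≠ 0 := fun h0 =>
  transcendental_jBar N (h0 ▸ isAlgebraic_zero)

/-- `1/j` is unramified outside `0, 1/1728` (and `∞`). -/
theorem ord_jBar_inv_sub_le_one (v : Place Kb (Fb N)) (b : Kb) (h0 : b ≠ 0)
    (h1 : b * 1728 ≠ 1) : v.ord ((jBar N)⁻¹ - algebraMap Kb (Fb N) b) ≤ 1 := by
  have hj0 := jBar_ne_zero N
  have hb' : algebraMap Kb (Fb N) b ≠ 0 := (_root_.map_ne_zero _).2 h0
  have hbinv : b⁻¹ ≠ 0 := inv_ne_zero h0
  have hb1728 : b⁻¹ ≠ 1728 := by
    intro h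
    apply h1
    rw [← h, mul_inv_cancel₀ h0]
  have hne : jBar N - algebraMap Kb (Fb N) b⁻¹ ≠ 0 := fun h => by
    apply transcendental_jBar N
    rw [sub_eq_zero.1 h]
    exact isAlgebraic_algebraMap _
  have hkey : (jBar N)⁻¹ - algebraMap Kb (Fb N) b =
      algebraMap Kb (Fb N) (-b) * ((jBar N - algebraMap Kb (Fb N) b⁻¹) * (jBar N)⁻¹) := by
    rw [map_neg, map_inv₀]
    field_simp
    ring
  have hnb : algebraMap Kb (Fb N) (-b) ≠ 0 := (_root_.map_ne_zero _).2 (neg_ne_zero.2 h0)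
  rw [hkey, v.ord_mul hnb (mul_ne_zero hne (inv_ne_zero hj0)), Place.ord_algebraMap, zero_add,
    v.ord_mul hne (inv_ne_zero hj0), v.ord_inv]
  rcases lt_trichotomy (v.ord (jBar N)) 0 with hneg | hzero | hpos
  · -- pole of `j`: `ord (j - 1/b) = ord j`
    have h2 : v.ord (jBar N - algebraMap Kb (Fb N) b⁻¹) = v.ord (jBar N) := by
      have hc : algebraMap Kb (Fb N) (-b⁻¹) ≠ 0 := (_root_.map_ne_zero _).2 (neg_ne_zero.2 hbinv)
      have := Place.ord_add_eq_of_lt v hj0 hc (by rw [Place.ord_algebraMap]; exact hneg)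
      rw [map_neg, ← sub_eq_add_neg] at this
      exact this
    rw [h2]
    omega
  · have h2 := ord_jBar_sub_le_one' N v b⁻¹ hbinv hb1728
    omega
  · have h2 : v.ord (jBar N - algebraMap Kb (Fb N) b⁻¹) = 0 := by
      have := Place.ord_add_algebraMap_of_pos v hpos (neg_ne_zero.2 hbinv)
      rw [map_neg, ← sub_eq_add_neg] at this
      exact this
    rw [h2]
    omega

variable {A0 B0 : Type*} [CommRing A0] [IsDomain A0] [CommRing B0] [IsDedekindDomain B0]
  [Algebra A0 B0] [Module.IsTorsionFree A0 B0]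

omit [NeZero N] [IsDedekindDomain B0] in
/-- The constants `ℚ̄` are integral over any `ℚ`-algebra mapping to `Fb N`. -/
theorem isIntegral_const (ι : B0 →+* Fb N) (ρ : ℚ →+* B0) (a : Kb) :
    letI : Algebra B0 (Fb N) := ι.toAlgebra
    IsIntegral B0 (algebraMap Kb (Fb N) a) := by
  letI : Algebra B0 (Fb N) := ι.toAlgebra
  have : Algebra.IsAlgebraic ℚ Kb := AlgebraicClosure.isAlgebraic ℚ
  have ha : IsIntegral ℚ a := (Algebra.IsAlgebraic.isAlgebraic a).isIntegral
  exact IsIntegral.map_of_comp_eq ρ (algebraMap Kb (Fb N)) (Subsingleton.elim _ _) ha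

/-- **(RAM) over `j = 0`**: the ramification indices divide `3`. -/
theorem ramCount_dvd_three (ι : B0 →+* Fb N) (hι : Function.Injective ι) (ρ : ℚ →+* B0)
    {ϖ : A0} (h0 : ϖ ≠ 0) (hϖ : ι (algebraMap A0 B0 ϖ) = jBar N) :
    ∀ P : Ideal B0, P.IsPrime → algebraMap A0 B0 ϖ ∈ P → ramCount ϖ P ∣ 3 := by
  letI : Algebra B0 (Fb N) := ι.toAlgebra
  refine ramCount_dvd_of_forall_place (K := Kb) (F := Fb N) hι (isIntegral_const N ι ρ)
    (hplace_Fb N) h0 3 ?_
  intro v hv
  have h1 : algebraMap B0 (Fb N) (algebraMap A0 B0 ϖ) = jBar N := hϖ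
  rw [h1] at hv ⊢
  exact_mod_cast ord_jBar_dvd_three N v hv

/-- **(RAM) over `j = 1728`**: the ramification indices divide `2`. -/
theorem ramCount_dvd_two (ι : B0 →+* Fb N) (hι : Function.Injective ι) (ρ : ℚ →+* B0)
    {ϖ : A0} (h0 : ϖ ≠ 0) (hϖ : ι (algebraMap A0 B0 ϖ) = jBar N - 1728) :
    ∀ P : Ideal B0, P.IsPrime → algebraMap A0 B0 ϖ ∈ P → ramCount ϖ P ∣ 2 := by
  letI : Algebra B0 (Fb N) := ι.toAlgebra
  refine ramCount_dvd_of_forall_place (K := Kb) (F := Fb N) hι (isIntegral_const N ι ρ)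
    (hplace_Fb N) h0 2 ?_
  intro v hv
  have h1 : algebraMap B0 (Fb N) (algebraMap A0 B0 ϖ) =
      jBar N - algebraMap Kb (Fb N) 1728 := by
    rw [map_ofNat]
    exact hϖ
  rw [h1] at hv ⊢
  exact_mod_cast ord_jBar_sub_1728_dvd_two N v hv

/-- **(RAM) over `j = ∞`**: the ramification indices divide the level `N`. -/
theorem ramCount_dvd_level (ι : B0 →+* Fb N) (hι : Function.Injective ι) (ρ : ℚ →+* B0)
    {ϖ : A0} (h0 : ϖ ≠ 0) (hϖ : ι (algebraMap A0 B0 ϖ) = (jBar N)⁻¹) :
    ∀ P : Ideal B0, P.IsPrime → algebraMap A0 B0 ϖ ∈ P → ramCount ϖ P ∣ N := by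
  letI : Algebra B0 (Fb N) := ι.toAlgebra
  refine ramCount_dvd_of_forall_place (K := Kb) (F := Fb N) hι (isIntegral_const N ι ρ)
    (hplace_Fb N) h0 N ?_
  intro v hv
  have h1 : algebraMap B0 (Fb N) (algebraMap A0 B0 ϖ) = (jBar N)⁻¹ := hϖ
  rw [h1] at hv ⊢
  rw [v.ord_inv] at hv ⊢
  exact neg_ord_jBar_dvd_level N v (by omega)

/-- **(RAM) at a generic value, finite chart**: `g(j)` is unramified if `g` is separable
without the roots `0` and `1728`. -/
theorem ramCount_eq_one_fin (ι : B0 →+* Fb N) (hι : Function.Injective ι) (ρ : ℚ →+* B0)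
    {ϖ : A0} (h0 : ϖ ≠ 0) (g : Kb[X]) (hg : g.Separable) (hg0 : g.eval 0 ≠ 0)
    (hg1 : g.eval 1728 ≠ 0) (hϖ : ι (algebraMap A0 B0 ϖ) = aeval (jBar N) g) :
    ∀ P : Ideal B0, P.IsPrime → algebraMap A0 B0 ϖ ∈ P → ramCount ϖ P = 1 := by
  letI : Algebra B0 (Fb N) := ι.toAlgebra
  refine ramCount_eq_one_of_forall_place (K := Kb) (F := Fb N) hι (isIntegral_const N ι ρ)
    (hplace_Fb N) h0 ?_
  intro v
  have h1 : algebraMap B0 (Fb N) (algebraMap A0 B0 ϖ) = aeval (jBar N) g := hϖ
  rw [h1]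
  refine ord_aeval_le_one v (transcendental_jBar N) g hg ?_
  intro a ha
  refine ord_jBar_sub_le_one' N v a ?_ ?_
  · rintro rfl
    exact hg0 ha
  · rintro rfl
    exact hg1 ha

/-- **(RAM) at a generic value, cusp chart**: `g(1/j)` is unramified if `g` is separable
without the roots `0` and `1/1728`. -/
theorem ramCount_eq_one_cusp (ι : B0 →+* Fb N) (hι : Function.Injective ι) (ρ : ℚ →+* B0)
    {ϖ : A0} (h0 : ϖ ≠ 0) (g : Kb[X]) (hg : g.Separable) (hg0 : g.eval 0 ≠ 0)
    (hg1 : ∀ b : Kb, b * 1728 = 1 → g.eval b ≠ 0)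
    (hϖ : ι (algebraMap A0 B0 ϖ) = aeval (jBar N)⁻¹ g) :
    ∀ P : Ideal B0, P.IsPrime → algebraMap A0 B0 ϖ ∈ P → ramCount ϖ P = 1 := by
  letI : Algebra B0 (Fb N) := ι.toAlgebra
  refine ramCount_eq_one_of_forall_place (K := Kb) (F := Fb N) hι (isIntegral_const N ι ρ)
    (hplace_Fb N) h0 ?_
  intro v
  have h1 : algebraMap B0 (Fb N) (algebraMap A0 B0 ϖ) = aeval (jBar N)⁻¹ g := hϖ
  rw [h1]
  refine ord_aeval_le_one v (transcendental_jBar_inv N) g hg ?_
  intro b hb
  refine ord_jBar_inv_sub_le_one N v b ?_ ?_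
  · rintro rfl
    exact hg0 hb
  · intro hb1
    exact hg1 b hb1 hb

section SmallField

variable {k : Type*} [Field k] (σ : k →+* Kb)

/-- Finite chart, `g` over a small field `k ⊆ ℚ̄`. -/
theorem ramCount_eq_one_fin_of_map (ι : B0 →+* Fb N) (hι : Function.Injective ι) (ρ : ℚ →+* B0)
    {ϖ : A0} (h0 : ϖ ≠ 0) (g : k[X]) (hg : g.Separable) (hg0 : g.eval 0 ≠ 0)
    (hg1 : g.eval 1728 ≠ 0) (hϖ : ι (algebraMap A0 B0 ϖ) = aeval (jBar N) (g.map σ)) :
    ∀ P : Ideal B0, P.IsPrime → algebraMap A0 B0 ϖ ∈ P → ramCount ϖ P = 1 := by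
  refine ramCount_eq_one_fin N ι hι ρ h0 (g.map σ) hg.map ?_ ?_ hϖ
  · have : (g.map σ).eval 0 = σ (g.eval 0) := by
      rw [← map_zero σ, eval_map_apply]
    rw [this]
    exact (_root_.map_ne_zero σ).2 hg0
  · have : (g.map σ).eval 1728 = σ (g.eval 1728) := by
      rw [← map_ofNat σ 1728, eval_map_apply]
    rw [this]
    exact (_root_.map_ne_zero σ).2 hg1

/-- Cusp chart, `g` over a small field `k ⊆ ℚ̄`. -/
theorem ramCount_eq_one_cusp_of_map (ι : B0 →+* Fb N) (hι : Function.Injective ι)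
    (ρ : ℚ →+* B0) {ϖ : A0} (h0 : ϖ ≠ 0) (g : k[X]) (hg : g.Separable) (hg0 : g.eval 0 ≠ 0)
    (hg1 : g.eval (1 / 1728) ≠ 0) (hϖ : ι (algebraMap A0 B0 ϖ) = aeval (jBar N)⁻¹ (g.map σ)) :
    ∀ P : Ideal B0, P.IsPrime → algebraMap A0 B0 ϖ ∈ P → ramCount ϖ P = 1 := by
  refine ramCount_eq_one_cusp N ι hι ρ h0 (g.map σ) hg.map ?_ ?_ hϖ
  · have : (g.map σ).eval 0 = σ (g.eval 0) := by
      rw [← map_zero σ, eval_map_apply]
    rw [this]
    exact (_root_.map_ne_zero σ).2 hg0
  · intro b hb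
    have hb' : b = σ (1 / 1728) := by
      rw [map_div₀, map_one, map_ofNat, eq_div_iff (by norm_num)]
      exact hb
    rw [hb', eval_map_apply]
    exact (_root_.map_ne_zero σ).2 hg1

end SmallField

end Concrete

end Fermat.Agent.Good.RamDesc
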