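import Fermat.Agent.Good.GenusChartsRR
import Fermat.Agent.FF.RiemannPkg

/-!
# L-GEN: the degree of the pole divisor of a separating variable

`degree_poleDiv_of_isSepVarS` : for a separating variable `x` of `F / K` (`K` algebraically
closed, any characteristic) with `[F : K(x)] = n`, the divisor of poles of `x` has degree `n`.
-/

set_option autoImplicit false

namespace Fermat.Agent.Good

open AlgebraicCurve Fermat.Agent.Red Fermat.Agent.FF Fermat.Agent.X0 GenusCharts

variable {K F : Type*} [Field K] [Field F] [Algebra K F] [IsAlgClosed K]

/-- The pole divisor of a separating variable of degree `n` has degree `n`. -/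
theorem degree_poleDiv_of_isSepVarS [HasPrincipalDivisors K F] {x : F} {n : ℕ}
    (hx : IsSepVarS K x n) : Divisor.degree (poleDiv K x) = n := by
  classical
  have hF : RiemannPkg K F := riemannPkg hx
  rw [degree_eq_sum hF, Finsupp.sum, ← sum_ord_placesOverInfty_S hx]
  refine Finset.sum_congr ?_ fun v hv => ?_
  · ext v
    rw [Finsupp.mem_support_iff, poleDiv_apply, Set.Finite.mem_toFinset, mem_placesOverInfty]
    constructor
    · intro h
      by_contra hcon
      exact h (max_eq_left (by omega))
    · intro h h0
      have : -v.ord x ≤ 0 := h0 ▸ le_max_right 0 (-v.ord x)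
      omega
  · rw [Set.Finite.mem_toFinset, mem_placesOverInfty] at hv
    rw [poleDiv_apply, max_eq_right (by omega)]

end Fermat.Agent.Good
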