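/-
L-GEN (Program L), node [G-AUX]: the abstract auxiliary algebra `E = F ⊗[A0] R`.

Data: `A0` an integrally closed domain, `R` an `A0`-algebra which is a domain, free and finite
over `A0`, `F` a field with a faithful `A0`-algebra structure, `G` a finite group acting on `R`
by `A0`-algebra automorphisms with `R^G = A0`.  Put `E := F ⊗[A0] R` (an `R`-algebra through the
right factor, `Algebra.TensorProduct.rightAlgebra`), `L = Frac R`, `K0 = Frac A0`.

* (a) every nonzero `r : R` is a unit of `E` (`isUnit_one_tmul`), hence `E` is an `L`-algebra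
  (`algebraFrac`, `isScalarTower_frac`), finite over `L` if `F` is finite over `K0` (`finite_frac`);
* (b) `auxBasis b : Basis ι L E` with `auxBasis b i = b i ⊗ₜ 1` for `b : Basis ι K0 F`;
* (c) `discr_auxBasis` : the discriminant of `auxBasis b` is the image of the discriminant of `b`;
* (d) `isIntegral_tmul_one_iff` : `x ⊗ₜ 1` is integral over `R` iff `x` is integral over `A0`;
* (e) for any action of `G` on `E` through the right factor: `smul_eq_self_iff` — the fixed points
  are exactly the `x ⊗ₜ 1`;
* (f) `isIntegral_smul`, `isIntegral_and_fixed_iff` : the `G`-fixed points of the integral closure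
  of `R` in `E` are exactly the `x ⊗ₜ 1` with `x` integral over `A0`.
-/
import Mathlib

set_option autoImplicit false
set_option linter.unusedSectionVars false
set_option linter.style.haveILetI false

namespace Fermat.Agent.Good.Aux

open TensorProduct

attribute [local instance] Algebra.TensorProduct.rightAlgebra

variable (A0 R F : Type*) [CommRing A0] [CommRing R] [Field F] [Algebra A0 R] [Algebra A0 F]

/-! ### basic formulas for the `R`-algebra structure on `E = F ⊗[A0] R` -/

theorem algebraMap_right_apply (r : R) : algebraMap R (F ⊗[A0] R) r = (1 : F) ⊗ₜ[A0] r := rfl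

theorem smul_right_tmul (r s : R) (x : F) : r • (x ⊗ₜ[A0] s) = x ⊗ₜ[A0] (r * s) := by
  rw [Algebra.smul_def, algebraMap_right_apply, Algebra.TensorProduct.tmul_mul_tmul, one_mul]

theorem smul_right_tmul_one (r : R) (x : F) : r • (x ⊗ₜ[A0] (1 : R)) = x ⊗ₜ[A0] r := by
  rw [smul_right_tmul, mul_one]

theorem algebraMap_tmul_one (a : A0) :
    (algebraMap A0 F a) ⊗ₜ[A0] (1 : R) = (1 : F) ⊗ₜ[A0] (algebraMap A0 R a) := by
  rw [Algebra.algebraMap_eq_smul_one, Algebra.algebraMap_eq_smul_one, TensorProduct.smul_tmul]

/-! ### (a) nonzero elements of `R` are units of `E` -/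

section Units

variable [IsDomain A0] [IsDomain R] [Module.Finite A0 R] [FaithfulSMul A0 F]

theorem isUnit_algebraMap_tmul_one {a : A0} (ha : a ≠ 0) :
    IsUnit ((algebraMap A0 F a) ⊗ₜ[A0] (1 : R)) := by
  have h1 : IsUnit (algebraMap A0 F a) :=
    isUnit_iff_ne_zero.mpr fun h => ha ((FaithfulSMul.algebraMap_injective A0 F)
      (h.trans (map_zero _).symm))
  exact h1.map (Algebra.TensorProduct.includeLeft : F →ₐ[A0] F ⊗[A0] R)

/-- Every nonzero element of `R` becomes a unit of `E = F ⊗[A0] R`. -/
theorem isUnit_one_tmul {r : R} (hr : r ≠ 0) : IsUnit ((1 : F) ⊗ₜ[A0] r) := by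
  have hint : IsIntegral A0 r := Algebra.IsIntegral.isIntegral r
  obtain ⟨a, ha, s, hs⟩ := IsAlgebraic.exists_nonzero_dvd (R := A0) hint.isAlgebraic
    (mem_nonZeroDivisors_of_ne_zero hr)
  have h1 : ((1 : F) ⊗ₜ[A0] r) * ((1 : F) ⊗ₜ[A0] s) = (algebraMap A0 F a) ⊗ₜ[A0] (1 : R) := by
    rw [Algebra.TensorProduct.tmul_mul_tmul, one_mul, ← hs, algebraMap_tmul_one]
  exact isUnit_of_mul_isUnit_left (h1 ▸ isUnit_algebraMap_tmul_one A0 R F ha)

theorem isUnit_algebraMap_right {r : R} (hr : r ≠ 0) : IsUnit (algebraMap R (F ⊗[A0] R) r) :=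
  isUnit_one_tmul A0 R F hr

variable (L : Type*) [Field L] [Algebra R L] [IsFractionRing R L]

/-- The ring homomorphism `L = Frac R → E`. -/
noncomputable def fracHom : L →+* F ⊗[A0] R :=
  IsLocalization.lift (M := nonZeroDivisors R) (g := algebraMap R (F ⊗[A0] R))
    fun y => isUnit_algebraMap_right A0 R F (nonZeroDivisors.ne_zero y.2)

theorem fracHom_algebraMap (r : R) :
    fracHom A0 R F L (algebraMap R L r) = algebraMap R (F ⊗[A0] R) r :=
  IsLocalization.lift_eq _ r

/-- **(a)** `E = F ⊗[A0] R` is an algebra over `L = Frac R`. -/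
@[reducible] noncomputable def algebraFrac : Algebra L (F ⊗[A0] R) :=
  (fracHom A0 R F L).toAlgebra

theorem isScalarTower_frac :
    letI := algebraFrac A0 R F L
    IsScalarTower R L (F ⊗[A0] R) := by
  letI := algebraFrac A0 R F L
  exact IsScalarTower.of_algebraMap_eq fun r => (fracHom_algebraMap A0 R F L r).symm

end Units

/-! ### (b) the auxiliary basis -/

section Basis

variable [IsDomain A0] [IsDomain R] [Module.Free A0 R] [Module.Finite A0 R] [FaithfulSMul A0 F]
variable (L : Type*) [Field L] [Algebra R L] [IsFractionRing R L]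
variable (K0 : Type*) [Field K0] [Algebra A0 K0] [IsFractionRing A0 K0] [Algebra K0 F]
  [IsScalarTower A0 K0 F]

theorem algebraMap_A0_R_injective : Function.Injective (algebraMap A0 R) :=
  FaithfulSMul.algebraMap_injective A0 R

/-- The field homomorphism `K0 = Frac A0 → L = Frac R`. -/
noncomputable def fracMap : K0 →+* L :=
  IsFractionRing.lift (A := A0) (K := K0) (g := (algebraMap R L).comp (algebraMap A0 R))
    ((IsFractionRing.injective R L).comp (algebraMap_A0_R_injective A0 R))

theorem fracMap_algebraMap (a : A0) :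
    fracMap A0 R L K0 (algebraMap A0 K0 a) = algebraMap R L (algebraMap A0 R a) :=
  IsFractionRing.lift_algebraMap _ a

/-- The two ways `K0 → F → E` and `K0 → L → E` agree. -/
theorem fracHom_fracMap (c : K0) :
    fracHom A0 R F L (fracMap A0 R L K0 c) = (algebraMap K0 F c) ⊗ₜ[A0] (1 : R) := by
  have h : (fracHom A0 R F L).comp (fracMap A0 R L K0) =
      ((Algebra.TensorProduct.includeLeft : F →ₐ[A0] F ⊗[A0] R).toRingHom).comp
        (algebraMap K0 F) := by
    apply IsLocalization.ringHom_ext (nonZeroDivisors A0)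
    ext a
    simp only [RingHom.comp_apply, AlgHom.toRingHom_eq_coe, RingHom.coe_coe,
      Algebra.TensorProduct.includeLeft_apply]
    rw [fracMap_algebraMap, fracHom_algebraMap, algebraMap_right_apply,
      ← IsScalarTower.algebraMap_apply A0 K0 F, algebraMap_tmul_one]
  exact congrArg (fun f => f c) h

/-- `K0`-semilinearity of `y ↦ y ⊗ₜ 1` with respect to the `L`-structure of `E`. -/
theorem smul_tmul_one (c : K0) (y : F) :
    letI := algebraFrac A0 R F L
    (c • y) ⊗ₜ[A0] (1 : R) = (fracMap A0 R L K0 c) • (y ⊗ₜ[A0] (1 : R)) := by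
  letI := algebraFrac A0 R F L
  rw [Algebra.smul_def (fracMap A0 R L K0 c)]
  show _ = fracHom A0 R F L (fracMap A0 R L K0 c) * _
  rw [fracHom_fracMap, Algebra.TensorProduct.tmul_mul_tmul, mul_one, Algebra.smul_def]

/-- `R`-scalars through `L`. -/
theorem algebraMap_smul_frac (r : R) (z : F ⊗[A0] R) :
    letI := algebraFrac A0 R F L
    (algebraMap R L r) • z = r • z := by
  letI := algebraFrac A0 R F L
  haveI := isScalarTower_frac A0 R F L
  exact algebraMap_smul L r z

variable {K0} {ι : Type*} (b : Module.Basis ι K0 F)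

/-- the family `b i ⊗ₜ 1` -/
noncomputable def auxFamily : ι → F ⊗[A0] R := fun i => b i ⊗ₜ[A0] (1 : R)

theorem linearIndependent_auxFamily :
    letI := algebraFrac A0 R F L
    LinearIndependent L (auxFamily A0 R F b) := by
  classical
  letI := algebraFrac A0 R F L
  haveI := isScalarTower_frac A0 R F L
  rw [linearIndependent_iff']
  intro s g hg i hi
  -- clear denominators
  obtain ⟨t, ht⟩ := IsLocalization.exist_integer_multiples_of_finset (nonZeroDivisors R)
    (s.image g)
  have ht' : ∀ j ∈ s, ∃ r : R, algebraMap R L r = (t : R) • g j := fun j hj =>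
    ht (g j) (Finset.mem_image_of_mem g hj)
  choose! r hr using ht'
  -- the relation over `R`
  have h1 : ∑ j ∈ s, b j ⊗ₜ[A0] r j = 0 := by
    have h2 : (t : R) • ∑ j ∈ s, g j • auxFamily A0 R F b j = 0 := by rw [hg, smul_zero]
    rw [Finset.smul_sum] at h2
    rw [← h2]
    refine Finset.sum_congr rfl fun j hj => ?_
    rw [← smul_assoc, ← hr j hj, algebraMap_smul_frac, auxFamily, smul_right_tmul_one]
  -- coordinates with respect to an `A0`-basis of `R`
  let e := Module.Free.chooseBasis A0 R
  have h3 : ∀ j ∈ s, r j = 0 := by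
    intro j hj
    apply e.repr.injective
    ext σ
    have h4 := congrArg (fun z => TensorProduct.equivFinsuppOfBasisRight e z σ) h1
    simp only [map_sum, map_zero, Finsupp.coe_finsetSum, Finset.sum_apply,
      TensorProduct.equivFinsuppOfBasisRight_apply_tmul_apply, Finsupp.coe_zero,
      Pi.zero_apply] at h4
    have h5 : ∑ x ∈ s, (algebraMap A0 K0 ((e.repr (r x)) σ)) • b x = 0 := by
      rw [← h4]
      exact Finset.sum_congr rfl fun x _ => algebraMap_smul K0 _ _
    have h6 := linearIndependent_iff'.mp b.linearIndependent s _ h5 j hj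
    rw [map_zero, Finsupp.zero_apply]
    exact (IsFractionRing.injective A0 K0) (h6.trans (map_zero _).symm)
  have h7 : (t : R) • g i = 0 := by rw [← hr i hi, h3 i hi, map_zero]
  rw [Algebra.smul_def] at h7
  rcases mul_eq_zero.mp h7 with h | h
  · exact absurd ((IsFractionRing.injective R L) (h.trans (map_zero _).symm))
      (nonZeroDivisors.ne_zero t.2)
  · exact h

theorem span_auxFamily :
    letI := algebraFrac A0 R F L
    ⊤ ≤ Submodule.span L (Set.range (auxFamily A0 R F b)) := by
  classical
  letI := algebraFrac A0 R F L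
  haveI := isScalarTower_frac A0 R F L
  intro z _
  clear ‹z ∈ (⊤ : Submodule L (F ⊗[A0] R))›
  induction z using TensorProduct.induction_on with
  | zero => exact Submodule.zero_mem _
  | add x y hx hy => exact Submodule.add_mem _ hx hy
  | tmul x r =>
    rw [← smul_right_tmul_one, ← algebraMap_smul_frac A0 R F L]
    refine Submodule.smul_mem _ _ ?_
    rw [← b.linearCombination_repr x, Finsupp.linearCombination_apply, Finsupp.sum,
      TensorProduct.sum_tmul]
    refine Submodule.sum_mem _ fun i _ => ?_
    rw [smul_tmul_one A0 R F L K0]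
    exact Submodule.smul_mem _ _ (Submodule.subset_span ⟨i, rfl⟩)

/-- **(b)** The auxiliary basis `b i ⊗ₜ 1` of `E` over `L`. -/
noncomputable def auxBasis :
    letI := algebraFrac A0 R F L
    Module.Basis ι L (F ⊗[A0] R) :=
  letI := algebraFrac A0 R F L
  Module.Basis.mk (linearIndependent_auxFamily A0 R F L b) (span_auxFamily A0 R F L b)

theorem auxBasis_apply (i : ι) :
    letI := algebraFrac A0 R F L
    auxBasis A0 R F L b i = b i ⊗ₜ[A0] (1 : R) := by
  letI := algebraFrac A0 R F L
  rw [auxBasis, Module.Basis.mk_apply, auxFamily]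

/-- **(a)** `E` is finite over `L` when `F` is finite over `K0`. -/
theorem finite_frac [Module.Finite K0 F] :
    letI := algebraFrac A0 R F L
    Module.Finite L (F ⊗[A0] R) := by
  letI := algebraFrac A0 R F L
  exact Module.Finite.of_basis (auxBasis A0 R F L (Module.finBasis K0 F))

end Basis

/-! ### (c) the discriminant of the auxiliary basis -/

section Discr

variable [IsDomain A0] [IsDomain R] [Module.Free A0 R] [Module.Finite A0 R] [FaithfulSMul A0 F]
variable (L : Type*) [Field L] [Algebra R L] [IsFractionRing R L]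
variable {K0 : Type*} [Field K0] [Algebra A0 K0] [IsFractionRing A0 K0] [Algebra K0 F]
  [IsScalarTower A0 K0 F]
variable {ι : Type*} [Fintype ι] [DecidableEq ι] (b : Module.Basis ι K0 F)

/-- coordinates of `w ⊗ₜ 1` in the auxiliary basis -/
theorem auxBasis_repr_tmul_one (w : F) (i : ι) :
    letI := algebraFrac A0 R F L
    (auxBasis A0 R F L b).repr (w ⊗ₜ[A0] (1 : R)) i = fracMap A0 R L K0 (b.repr w i) := by
  letI := algebraFrac A0 R F L
  have h1 : w ⊗ₜ[A0] (1 : R) =
      ∑ j, (fracMap A0 R L K0 (b.repr w j)) • auxBasis A0 R F L b j := by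
    conv_lhs => rw [← b.sum_repr w]
    rw [TensorProduct.sum_tmul]
    refine Finset.sum_congr rfl fun j _ => ?_
    rw [smul_tmul_one A0 R F L K0, auxBasis_apply]
  rw [h1, Module.Basis.repr_sum_self]

include b in
/-- the trace of `y ⊗ₜ 1` -/
theorem trace_tmul_one (y : F) :
    letI := algebraFrac A0 R F L
    Algebra.trace L (F ⊗[A0] R) (y ⊗ₜ[A0] (1 : R)) = fracMap A0 R L K0 (Algebra.trace K0 F y) := by
  letI := algebraFrac A0 R F L
  rw [Algebra.trace_eq_matrix_trace (auxBasis A0 R F L b), Algebra.trace_eq_matrix_trace b,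
    Matrix.trace, Matrix.trace, map_sum]
  refine Finset.sum_congr rfl fun i _ => ?_
  rw [Matrix.diag_apply, Matrix.diag_apply, Algebra.leftMulMatrix_eq_repr_mul,
    Algebra.leftMulMatrix_eq_repr_mul, auxBasis_apply, Algebra.TensorProduct.tmul_mul_tmul,
    mul_one, auxBasis_repr_tmul_one]

/-- **(c)** the discriminant of the auxiliary basis is the image of the discriminant of `b`. -/
theorem discr_auxBasis_eq_fracMap :
    letI := algebraFrac A0 R F L
    Algebra.discr L (auxBasis A0 R F L b) = fracMap A0 R L K0 (Algebra.discr K0 b) := by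
  letI := algebraFrac A0 R F L
  rw [Algebra.discr_def, Algebra.discr_def, RingHom.map_det]
  congr 1
  ext i j
  rw [RingHom.mapMatrix_apply, Matrix.map_apply, Algebra.traceMatrix_apply,
    Algebra.traceMatrix_apply, Algebra.traceForm_apply, Algebra.traceForm_apply, auxBasis_apply,
    auxBasis_apply, Algebra.TensorProduct.tmul_mul_tmul, mul_one, trace_tmul_one A0 R F L b]

/-- **(c)**, in the shape of the specification. -/
theorem discr_auxBasis (d : A0) (hd : Algebra.discr K0 b = algebraMap A0 K0 d) :
    letI := algebraFrac A0 R F L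
    Algebra.discr L (auxBasis A0 R F L b) = algebraMap R L (algebraMap A0 R d) := by
  letI := algebraFrac A0 R F L
  rw [discr_auxBasis_eq_fracMap, hd, fracMap_algebraMap]

end Discr

/-! ### (d) integrality -/

section Integral

variable [IsDomain A0] [IsDomain R] [Module.Free A0 R] [Module.Finite A0 R] [FaithfulSMul A0 F]

/-- `x ↦ x ⊗ₜ 1` is injective. -/
theorem tmul_one_injective : Function.Injective fun x : F => x ⊗ₜ[A0] (1 : R) := by
  classical
  have hinj : Function.Injective
      ((Algebra.TensorProduct.includeLeft : F →ₐ[A0] F ⊗[A0] R) : F → F ⊗[A0] R) := by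
    rw [injective_iff_map_eq_zero]
    intro x hx
    let e := Module.Free.chooseBasis A0 R
    -- some coordinate of `1 : R` is nonzero
    obtain ⟨σ, hσ⟩ : ∃ σ, e.repr (1 : R) σ ≠ 0 := by
      by_contra hcon
      push Not at hcon
      have : e.repr (1 : R) = 0 := Finsupp.ext hcon
      exact one_ne_zero (e.repr.injective (this.trans (map_zero _).symm))
    have h1 := congrArg (fun z => TensorProduct.equivFinsuppOfBasisRight e z σ) hx
    simp only [Algebra.TensorProduct.includeLeft_apply, map_zero, Finsupp.coe_zero,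
      Pi.zero_apply, TensorProduct.equivFinsuppOfBasisRight_apply_tmul_apply] at h1
    rw [Algebra.smul_def] at h1
    rcases mul_eq_zero.mp h1 with h | h
    · exact absurd ((FaithfulSMul.algebraMap_injective A0 F) (h.trans (map_zero _).symm)) hσ
    · exact h
  exact hinj

/-- **(d)** `x ⊗ₜ 1` is integral over `R` iff `x` is integral over `A0`. -/
theorem isIntegral_tmul_one_iff (x : F) :
    IsIntegral R (x ⊗ₜ[A0] (1 : R)) ↔ IsIntegral A0 x := by
  constructor
  · intro h
    have h1 : IsIntegral A0 (x ⊗ₜ[A0] (1 : R)) := isIntegral_trans _ h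
    exact (isIntegral_algHom_iff (Algebra.TensorProduct.includeLeft : F →ₐ[A0] F ⊗[A0] R)
      (tmul_one_injective A0 R F)).mp h1
  · intro h
    have h1 : IsIntegral A0 (x ⊗ₜ[A0] (1 : R)) :=
      h.map (Algebra.TensorProduct.includeLeft : F →ₐ[A0] F ⊗[A0] R)
    exact h1.tower_top

end Integral

/-! ### (e), (f) the group action through the right factor -/

section Action

variable [IsDomain A0] [IsDomain R] [Module.Free A0 R] [Module.Finite A0 R] [FaithfulSMul A0 F]
variable {G : Type*} [Group G] [Fintype G] [MulSemiringAction G R] [SMulCommClass G A0 R]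
variable [MulSemiringAction G (F ⊗[A0] R)]
variable (hact : ∀ (g : G) (x : F) (r : R), g • (x ⊗ₜ[A0] r) = x ⊗ₜ[A0] (g • r))
variable (hfix : ∀ z : R, (∀ g : G, g • z = z) → z ∈ (algebraMap A0 R).range)

include hact in
/-- **(e)** the action commutes with the `F`-structure of `E`. -/
theorem smul_tmul_one_mul (g : G) (x : F) (z : F ⊗[A0] R) :
    g • ((x ⊗ₜ[A0] (1 : R)) * z) = (x ⊗ₜ[A0] (1 : R)) * g • z := by
  rw [smul_mul', hact, smul_one]

include hact in
theorem smul_algebraMap_right (g : G) (r : R) :
    g • (algebraMap R (F ⊗[A0] R) r) = algebraMap R (F ⊗[A0] R) (g • r) := by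
  rw [algebraMap_right_apply, algebraMap_right_apply, hact]

/-- `F` is flat over `A0`. -/
theorem flat_field : Module.Flat A0 F := by
  haveI : Module.Flat A0 (FractionRing A0) := IsLocalization.flat _ (nonZeroDivisors A0)
  letI : Algebra (FractionRing A0) F :=
    (IsFractionRing.lift (A := A0) (K := FractionRing A0) (g := algebraMap A0 F)
      (FaithfulSMul.algebraMap_injective A0 F)).toAlgebra
  haveI : IsScalarTower A0 (FractionRing A0) F :=
    IsScalarTower.of_algebraMap_eq fun a => (IsFractionRing.lift_algebraMap _ a).symm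
  exact Module.Flat.trans A0 (FractionRing A0) F

/-- the `A0`-linear map `z ↦ (g • z - z)_g` -/
noncomputable def diffMap : R →ₗ[A0] (G → R) :=
  LinearMap.pi fun g => (MulSemiringAction.toAlgHom A0 R g).toLinearMap - LinearMap.id

theorem diffMap_apply (z : R) (g : G) : diffMap A0 R (G := G) z g = g • z - z := rfl

include hfix in
theorem exact_diffMap : Function.Exact (Algebra.linearMap A0 R) (diffMap A0 R (G := G)) := by
  intro z
  constructor
  · intro h
    obtain ⟨a, ha⟩ := hfix z fun g => by
      have := congrFun h g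
      rw [diffMap_apply, Pi.zero_apply, sub_eq_zero] at this
      exact this
    exact ⟨a, ha⟩
  · rintro ⟨a, rfl⟩
    funext g
    rw [diffMap_apply, Pi.zero_apply, Algebra.linearMap_apply, Algebra.algebraMap_eq_smul_one,
      smul_comm, smul_one, sub_self]

include hact in
theorem piRight_lTensor_diffMap [DecidableEq G] (z : F ⊗[A0] R) (g : G) :
    TensorProduct.piRight A0 A0 F (fun _ : G => R) ((diffMap A0 R (G := G)).lTensor F z) g =
      g • z - z := by
  induction z using TensorProduct.induction_on with
  | zero => simp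
  | add x y hx hy =>
    rw [map_add, map_add, Pi.add_apply, hx, hy, smul_add]
    abel
  | tmul x r =>
    rw [LinearMap.lTensor_tmul, TensorProduct.piRight_apply, TensorProduct.piRightHom_tmul]
    show x ⊗ₜ[A0] (diffMap A0 R r g) = _
    rw [diffMap_apply, TensorProduct.tmul_sub, hact]

theorem lTensor_linearMap_eq (w : F ⊗[A0] A0) :
    (Algebra.linearMap A0 R).lTensor F w = (TensorProduct.rid A0 F w) ⊗ₜ[A0] (1 : R) := by
  induction w using TensorProduct.induction_on with
  | zero => simp
  | add x y hx hy => rw [map_add, map_add, TensorProduct.add_tmul, hx, hy]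
  | tmul x a =>
    rw [LinearMap.lTensor_tmul, TensorProduct.rid_tmul, Algebra.linearMap_apply,
      Algebra.algebraMap_eq_smul_one, TensorProduct.smul_tmul]

include hact hfix in
/-- **(e)** The fixed points of `G` on `E = F ⊗[A0] R` are exactly the `x ⊗ₜ 1`. -/
theorem smul_eq_self_iff (z : F ⊗[A0] R) :
    (∀ g : G, g • z = z) ↔ ∃ x : F, z = x ⊗ₜ[A0] (1 : R) := by
  classical
  constructor
  · intro hz
    haveI := flat_field A0 F
    have hex := Module.Flat.lTensor_exact F (exact_diffMap A0 R hfix)
    have h0 : (diffMap A0 R (G := G)).lTensor F z = 0 := by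
      apply (TensorProduct.piRight A0 A0 F (fun _ : G => R)).injective
      funext g
      rw [piRight_lTensor_diffMap A0 R F hact, hz g, sub_self, map_zero, Pi.zero_apply]
    obtain ⟨w, hw⟩ := (hex z).mp h0
    exact ⟨TensorProduct.rid A0 F w, by rw [← hw, lTensor_linearMap_eq]⟩
  · rintro ⟨x, rfl⟩ g
    rw [hact, smul_one]

include hact in
/-- **(f)** integrality over `R` is preserved by the action. -/
theorem isIntegral_smul (g : G) {z : F ⊗[A0] R} (hz : IsIntegral R z) : IsIntegral R (g • z) := by
  obtain ⟨p, hp, hpz⟩ := hz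
  refine ⟨p.map (MulSemiringAction.toRingHom G R g), hp.map _, ?_⟩
  have h1 : (MulSemiringAction.toRingHom G (F ⊗[A0] R) g).comp (algebraMap R (F ⊗[A0] R)) =
      (algebraMap R (F ⊗[A0] R)).comp (MulSemiringAction.toRingHom G R g) := by
    ext r
    exact smul_algebraMap_right A0 R F hact g r
  have h2 := congrArg (MulSemiringAction.toRingHom G (F ⊗[A0] R) g) hpz
  rw [Polynomial.hom_eval₂, map_zero, h1, ← Polynomial.eval₂_map] at h2
  exact h2

include hact hfix in
/-- **(f)** The `G`-fixed points of the integral closure of `R` in `E` are exactly the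
`x ⊗ₜ 1` with `x` in the integral closure of `A0` in `F`. -/
theorem isIntegral_and_fixed_iff (z : F ⊗[A0] R) :
    (IsIntegral R z ∧ ∀ g : G, g • z = z) ↔
      ∃ x : F, IsIntegral A0 x ∧ z = x ⊗ₜ[A0] (1 : R) := by
  constructor
  · rintro ⟨hint, hz⟩
    obtain ⟨x, rfl⟩ := (smul_eq_self_iff A0 R F hact hfix z).mp hz
    exact ⟨x, (isIntegral_tmul_one_iff A0 R F x).mp hint, rfl⟩
  · rintro ⟨x, hx, rfl⟩
    exact ⟨(isIntegral_tmul_one_iff A0 R F x).mpr hx,
      (smul_eq_self_iff A0 R F hact hfix _).mpr ⟨x, rfl⟩⟩

end Action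

end Fermat.Agent.Good.Aux
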