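import Fermat.Agent.Good.GoodQuot

/-!
# L-GEN, GOODQUOT with `k` on the right

`GQ.isIntegrallyClosed_tensor_of_cover` with the conclusion (and the domain hypothesis (D)) stated
for `B0 ⊗[O] k` instead of `k ⊗[O] B0` (the consumer shape
`IsIntegrallyClosed (↥(chartAlgFin N ℓ) ⊗[ℤℓ] k)`).
-/

set_option autoImplicit false

open TensorProduct

namespace Fermat.Agent.Good.GQ

section Comm

variable {O k R L E B0 G Λ : Type*}
  [CommRing O] [Field k] [IsAlgClosed k] [Algebra O k]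
  [CommRing R] [Algebra O R] [IsDomain R] [IsIntegrallyClosed R] [IsNoetherianRing R]
  [Field L] [Algebra R L] [IsFractionRing R L]
  [CommRing E] [Algebra R E] [Algebra L E] [IsScalarTower R L E] [Module.Finite L E]
  [Algebra O E] [IsScalarTower O R E]
  [Group G] [Fintype G] [MulSemiringAction G R] [SMulCommClass G O R] [MulSemiringAction G E]
  [CommRing Λ] [IsDomain Λ] [IsPrincipalIdealRing Λ] [Algebra k Λ]
  [CommRing B0] [Algebra O B0]

/-- transfer of `IsIntegrallyClosed` along the swap `k ⊗[O] B0 ≃ B0 ⊗[O] k`. -/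
theorem isIntegrallyClosed_tensor_comm (O k B0 : Type*) [CommRing O] [CommRing k] [Algebra O k]
    [CommRing B0] [Algebra O B0] [IsIntegrallyClosed (k ⊗[O] B0)] :
    IsIntegrallyClosed (B0 ⊗[O] k) :=
  IsIntegrallyClosed.of_equiv (Algebra.TensorProduct.comm O k B0).toRingEquiv

/-- transfer of `IsDomain` along the swap `B0 ⊗[O] k ≃ k ⊗[O] B0`. -/
theorem isDomain_tensor_comm (O k B0 : Type*) [CommRing O] [CommRing k] [Algebra O k]
    [CommRing B0] [Algebra O B0] [IsDomain (B0 ⊗[O] k)] : IsDomain (k ⊗[O] B0) :=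
  (Algebra.TensorProduct.comm O k B0).toRingEquiv.toMulEquiv.isDomain (B0 ⊗[O] k)

/-- **GOODQUOT, tensor model, `k` on the right.**  Same hypotheses as
`GQ.isIntegrallyClosed_tensor_of_cover`, except that (D) reads `[IsDomain (B0 ⊗[O] k)]`. -/
theorem isIntegrallyClosed_tensor_right_of_cover
    (hsmulE : ∀ (g : G) (r : R) (e : E), g • (r • e) = (g • r) • (g • e))
    (p : O) (hpk : algebraMap O k p = 0) (hmax : (Ideal.span {p} : Ideal O).IsMaximal)
    (hπ : Prime (algebraMap O R p))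
    [IsPrincipalIdealRing (R ⧸ Ideal.span {algebraMap O R p})]
    {ι : Type*} [Fintype ι] [DecidableEq ι]
    (c : Module.Basis ι L E) (hc : ∀ i, IsIntegral R (c i)) (dc : R)
    (hdc : algebraMap R L dc = Algebra.discr L c) (hπdc : ¬ algebraMap O R p ∣ dc)
    (c' : Module.Basis ι L E) (hc' : ∀ i, IsIntegral R (c' i)) (dc' : R)
    (hdc' : algebraMap R L dc' = Algebra.discr L c') (m : ℕ)
    (hm : dc' ∣ algebraMap O R p ^ m)
    [IsDomain (k ⊗[O] R)] [IsPrincipalIdealRing (k ⊗[O] R)] [Algebra.FiniteType k (k ⊗[O] R)]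
    (hS : ¬ IsField (k ⊗[O] R)) (hΛ : ¬ IsField Λ)
    [Algebra Λ (k ⊗[O] R)] [IsScalarTower k Λ (k ⊗[O] R)]
    [Module.Free Λ (k ⊗[O] R)] [Module.Finite Λ (k ⊗[O] R)]
    (hGS : Module.finrank Λ (k ⊗[O] R) = Fintype.card G)
    (hSfix : ∀ s : k ⊗[O] R,
      (∀ g : G, Algebra.TensorProduct.map (AlgHom.id O k) (MulSemiringAction.toAlgHom O R g) s = s) →
        s ∈ (algebraMap Λ (k ⊗[O] R)).range)
    (hΛfix : ∀ (g : G) (a : Λ),
      Algebra.TensorProduct.map (AlgHom.id O k) (MulSemiringAction.toAlgHom O R g)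
        (algebraMap Λ (k ⊗[O] R) a) = algebraMap Λ (k ⊗[O] R) a)
    [IsDomain (B0 ⊗[O] k)]
    (i0 : B0 →ₐ[O] ↥(integralClosure R E)) (hi0 : Function.Injective i0)
    (hi0fix : ∀ (g : G) (x : B0), g • ((i0 x : ↥(integralClosure R E)) : E) = i0 x)
    (hi0surj : ∀ z : ↥(integralClosure R E), (∀ g : G, g • (z : E) = z) → z ∈ Set.range i0)
    (hΛB0 : ∀ a : Λ, ∃ t : k ⊗[O] B0,
      Algebra.TensorProduct.map (AlgHom.id O k) i0 t =
        Algebra.TensorProduct.map (AlgHom.id O k)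
          (IsScalarTower.toAlgHom O R ↥(integralClosure R E)) (algebraMap Λ (k ⊗[O] R) a)) :
    IsIntegrallyClosed (B0 ⊗[O] k) := by
  have hdom : IsDomain (k ⊗[O] B0) := isDomain_tensor_comm O k B0
  have hic : IsIntegrallyClosed (k ⊗[O] B0) :=
    isIntegrallyClosed_tensor_of_cover (L := L) (Λ := Λ) hsmulE p hpk hmax hπ c hc dc hdc hπdc c'
      hc' dc' hdc' m hm hS hΛ hGS hSfix hΛfix i0 hi0 hi0fix hi0surj hΛB0
  exact isIntegrallyClosed_tensor_comm O k B0

end Comm

end Fermat.Agent.Good.GQ
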