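import Fermat.Agent.Good.RigidCoverQuot
import Fermat.Agent.Good.GoodQuotComm
import Fermat.Agent.Good.AuxAlgebra

/-!
# GOODQUOT, Layer 3: the rigid cover instantiation

Program L / L-GEN node [G-GQ3].  We instantiate the abstract assembly (Layer 2,
`GQ.isIntegrallyClosed_tensor_of_cover`) at the ring `R := P.R` of a rigid cover
`P : RigidCover O G` and `Λ := k[X]`.

* `GQ3.isIntegrallyClosed_tensor_of_aux` keeps the auxiliary algebra `E` abstract: `E` is any
  finite `L`-algebra (`L` a fraction field of `P.R`) with a semilinear `G`-action and a ring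
  homomorphism `ι : F → E` which identifies `F` with the `G`-fixed points and reflects integrality.
* `GQ3.isIntegrallyClosed_tensor_of_rigidCover` is the final form with `E := F ⊗[O[X]] P.R`
  (`Good/AuxAlgebra.lean`): the hypotheses are (H1) (an integral basis of `F` over a fraction field
  of `O[X]` whose discriminant is not divisible by `p`), (H2) (an integral basis of `E` whose
  discriminant divides a power of `p`) and (D) (`k ⊗[O] B0` is a domain).
* `…_right` : the same with `k` on the right (`B0 ⊗[O] k`).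
-/

namespace Fermat.Agent.Good.GQ3

open Polynomial TensorProduct

set_option linter.overlappingInstances false
set_option linter.style.haveILetI false

universe u v

section

variable {O : Type u} [CommRing O] [IsDomain O] [IsIntegrallyClosed O] [IsNoetherianRing O]
  {k : Type v} [Field k] [IsAlgClosed k] [Algebra O k]
  {G : Type} [Group G] [Fintype G]
  {P : RigidCover O G} {Pk : RigidCover k G} (φ : RigidCover.Hom (algebraMap O k) P Pk)
  {F : Type*} [Field F] [Algebra O[X] F]
  {B0 : Type*} [CommRing B0] [Algebra O B0] [Algebra O[X] B0] [IsScalarTower O O[X] B0]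
  [Algebra B0 F] [IsScalarTower O[X] B0 F] [IsIntegralClosure B0 O[X] F]
  {L : Type*} [Field L] [Algebra P.R L] [IsFractionRing P.R L]
  {E : Type*} [CommRing E] [Nontrivial E] [Algebra P.R E] [Algebra L E] [IsScalarTower P.R L E]
  [Module.Finite L E] [MulSemiringAction G E]

omit [IsDomain O] [IsIntegrallyClosed O] [IsNoetherianRing O] [IsAlgClosed k] in
/-- the kernel of `O → k` is `(p)` -/
lemma ker_algebraMap_eq_span (p : O) (hpk : algebraMap O k p = 0)
    (hmax : (Ideal.span {p} : Ideal O).IsMaximal) :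
    RingHom.ker (algebraMap O k) = Ideal.span {p} := by
  symm
  apply hmax.eq_of_le (RingHom.ker_ne_top _)
  rw [Ideal.span_singleton_le_iff_mem, RingHom.mem_ker]
  exact hpk

include φ in
/-- **GOODQUOT, Layer 3 over an abstract auxiliary algebra.** -/
theorem isIntegrallyClosed_tensor_of_aux
    (hsmulE : ∀ (g : G) (r : P.R) (e : E), g • (r • e) = (g • r) • (g • e))
    (p : O) (hp0 : p ≠ 0) (hpk : algebraMap O k p = 0)
    (hmax : (Ideal.span {p} : Ideal O).IsMaximal)
    -- the map `F → E`, `x ↦ x ⊗ 1`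
    (ι : F →+* E)
    (hι_alg : ∀ q : O[X], ι (algebraMap O[X] F q) = algebraMap P.R E (algebraMap O[X] P.R q))
    (hι_fix : ∀ (g : G) (x : F), g • ι x = ι x)
    (hι_surj : ∀ z : E, (∀ g : G, g • z = z) → ∃ x : F, ι x = z)
    (hι_int : ∀ x : F, IsIntegral P.R (ι x) → IsIntegral O[X] x)
    -- (H1)
    {ι' : Type*} [Fintype ι'] [DecidableEq ι']
    (c : Module.Basis ι' L E) (hc : ∀ i, ∃ x : F, IsIntegral O[X] x ∧ ι x = c i)
    (d0 : O[X]) (hdc : algebraMap P.R L (algebraMap O[X] P.R d0) = Algebra.discr L c)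
    (hd0 : ¬ C p ∣ d0)
    -- (H2)
    (c' : Module.Basis ι' L E) (hc' : ∀ i, IsIntegral P.R (c' i)) (dc' : P.R)
    (hdc' : algebraMap P.R L dc' = Algebra.discr L c') (m : ℕ) (hm : dc' ∣ P.const p ^ m)
    -- (D)
    [IsDomain (k ⊗[O] B0)] :
    IsIntegrallyClosed (k ⊗[O] B0) := by
  classical
  letI algOE : Algebra O E := ((algebraMap P.R E).comp (algebraMap O P.R)).toAlgebra
  haveI towOE : IsScalarTower O P.R E := .of_algebraMap_eq fun _ => rfl
  have hker : RingHom.ker (algebraMap O k) = Ideal.span {p} := ker_algebraMap_eq_span p hpk hmax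
  have hπ : Prime (algebraMap O P.R p) := φ.prime_const hker hp0
  haveI hpidq : IsPrincipalIdealRing (P.R ⧸ Ideal.span {algebraMap O P.R p}) :=
    P.isPrincipalIdealRing_quotient_of_isMaximal p hmax
  -- integrality transfer along `ι`
  have hcomp : (algebraMap P.R E).comp (algebraMap O[X] P.R) = ι.comp (algebraMap O[X] F) :=
    RingHom.ext fun q => (hι_alg q).symm
  have hint : ∀ x : F, IsIntegral O[X] x → IsIntegral P.R (ι x) := fun x hx =>
    IsIntegral.map_of_comp_eq (algebraMap O[X] P.R) ι hcomp hx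
  have hcint : ∀ i, IsIntegral P.R (c i) := fun i => by
    obtain ⟨x, hx, hxc⟩ := hc i
    rw [← hxc]
    exact hint x hx
  -- the special fibre of the cover
  haveI := φ.tensor_isDomain rfl
  haveI := φ.tensor_isPrincipalIdealRing rfl
  haveI := φ.tensor_finiteType rfl
  haveI := φ.tensor_moduleFree rfl
  haveI := φ.tensor_moduleFinite rfl
  -- the map `i0 : B0 → integralClosure P.R E`
  have hB0int : ∀ x : B0, IsIntegral P.R (ι (algebraMap B0 F x)) := fun x =>
    hint _ ((IsIntegralClosure.isIntegral_iff (A := B0)).mpr ⟨x, rfl⟩)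
  let i0r : B0 →+* ↥(integralClosure P.R E) :=
    { toFun := fun x => ⟨ι (algebraMap B0 F x), hB0int x⟩
      map_one' := Subtype.ext (by simp)
      map_mul' := fun x y => Subtype.ext (by simp)
      map_zero' := Subtype.ext (by simp)
      map_add' := fun x y => Subtype.ext (by simp) }
  let i0 : B0 →ₐ[O] ↥(integralClosure P.R E) :=
    { i0r with
      commutes' := fun a => Subtype.ext (by
        show ι (algebraMap B0 F (algebraMap O B0 a)) = algebraMap P.R E (P.const a)
        rw [IsScalarTower.algebraMap_apply O O[X] B0, ← IsScalarTower.algebraMap_apply O[X] B0 F,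
          hι_alg, Polynomial.algebraMap_apply, Algebra.algebraMap_self_apply, P.const_apply]) }
  have hi0_coe : ∀ x : B0, ((i0 x : ↥(integralClosure P.R E)) : E) = ι (algebraMap B0 F x) :=
    fun _ => rfl
  have hi0 : Function.Injective i0 := by
    intro x y hxy
    have h1 : ι (algebraMap B0 F x) = ι (algebraMap B0 F y) := congrArg Subtype.val hxy
    exact IsIntegralClosure.algebraMap_injective B0 O[X] F (ι.injective h1)
  have hi0fix : ∀ (g : G) (x : B0), g • ((i0 x : ↥(integralClosure P.R E)) : E) = i0 x :=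
    fun g x => hι_fix g _
  have hi0surj : ∀ z : ↥(integralClosure P.R E), (∀ g : G, g • (z : E) = z) →
      z ∈ Set.range i0 := by
    intro z hz
    obtain ⟨x, hx⟩ := hι_surj z hz
    have hxint : IsIntegral O[X] x := hι_int x (by rw [hx]; exact z.2)
    obtain ⟨y, hy⟩ := IsIntegralClosure.isIntegral_iff (A := B0) |>.mp hxint
    exact ⟨y, Subtype.ext (by rw [hi0_coe, hy, hx])⟩
  -- `k[X]` lands in `k ⊗ B0`
  have hΛB0 : ∀ a : k[X], ∃ t : k ⊗[O] B0,
      Algebra.TensorProduct.map (AlgHom.id O k) i0 t =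
        Algebra.TensorProduct.map (AlgHom.id O k)
          (IsScalarTower.toAlgHom O P.R ↥(integralClosure P.R E))
          (algebraMap k[X] (k ⊗[O] P.R) a) := by
    intro a
    refine ⟨polyTensorHom O k B0 a, ?_⟩
    have h : (Algebra.TensorProduct.map (AlgHom.id O k) i0).toRingHom.comp
          (polyTensorHom O k B0) =
        (Algebra.TensorProduct.map (AlgHom.id O k)
          (IsScalarTower.toAlgHom O P.R ↥(integralClosure P.R E))).toRingHom.comp
          (algebraMap k[X] (k ⊗[O] P.R)) := by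
      refine Polynomial.ringHom_ext (fun c => ?_) ?_
      · simp only [RingHom.comp_apply, polyTensorHom_C, P.algebraMap_polyTensor_C]
        show Algebra.TensorProduct.map (AlgHom.id O k) i0 (c ⊗ₜ[O] 1) =
          Algebra.TensorProduct.map (AlgHom.id O k)
            (IsScalarTower.toAlgHom O P.R ↥(integralClosure P.R E)) (c ⊗ₜ[O] 1)
        rw [Algebra.TensorProduct.map_tmul, Algebra.TensorProduct.map_tmul, map_one, map_one]
      · simp only [RingHom.comp_apply, polyTensorHom_X, P.algebraMap_polyTensor_X]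
        show Algebra.TensorProduct.map (AlgHom.id O k) i0 (1 ⊗ₜ[O] (algebraMap O[X] B0) X) =
          Algebra.TensorProduct.map (AlgHom.id O k)
            (IsScalarTower.toAlgHom O P.R ↥(integralClosure P.R E))
            (1 ⊗ₜ[O] (algebraMap O[X] P.R) X)
        rw [Algebra.TensorProduct.map_tmul, Algebra.TensorProduct.map_tmul]
        congr 1
        apply Subtype.ext
        rw [hi0_coe, ← IsScalarTower.algebraMap_apply O[X] B0 F, hι_alg]
        rfl
    exact RingHom.congr_fun h a
  exact GQ.isIntegrallyClosed_tensor_of_cover (O := O) (k := k) (R := P.R) (L := L) (E := E)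
    (B0 := B0) (G := G) (Λ := k[X]) hsmulE p hpk hmax hπ c hcint (algebraMap O[X] P.R d0) hdc
    (P.not_const_dvd_algebraMap hd0) c' hc' dc' hdc' m hm (φ.tensor_not_isField rfl)
    (Polynomial.not_isField k) (φ.tensor_finrank rfl)
    (fun s hs => φ.tensor_mem_range_of_map_eq rfl s hs)
    (fun g a => φ.tensor_map_algebraMap rfl g a) i0 hi0 hi0fix hi0surj hΛB0

include φ in
/-- `isIntegrallyClosed_tensor_of_aux` with `k` on the right. -/
theorem isIntegrallyClosed_tensor_right_of_aux
    (hsmulE : ∀ (g : G) (r : P.R) (e : E), g • (r • e) = (g • r) • (g • e))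
    (p : O) (hp0 : p ≠ 0) (hpk : algebraMap O k p = 0)
    (hmax : (Ideal.span {p} : Ideal O).IsMaximal)
    (ι : F →+* E)
    (hι_alg : ∀ q : O[X], ι (algebraMap O[X] F q) = algebraMap P.R E (algebraMap O[X] P.R q))
    (hι_fix : ∀ (g : G) (x : F), g • ι x = ι x)
    (hι_surj : ∀ z : E, (∀ g : G, g • z = z) → ∃ x : F, ι x = z)
    (hι_int : ∀ x : F, IsIntegral P.R (ι x) → IsIntegral O[X] x)
    {ι' : Type*} [Fintype ι'] [DecidableEq ι']
    (c : Module.Basis ι' L E) (hc : ∀ i, ∃ x : F, IsIntegral O[X] x ∧ ι x = c i)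
    (d0 : O[X]) (hdc : algebraMap P.R L (algebraMap O[X] P.R d0) = Algebra.discr L c)
    (hd0 : ¬ C p ∣ d0)
    (c' : Module.Basis ι' L E) (hc' : ∀ i, IsIntegral P.R (c' i)) (dc' : P.R)
    (hdc' : algebraMap P.R L dc' = Algebra.discr L c') (m : ℕ) (hm : dc' ∣ P.const p ^ m)
    [IsDomain (B0 ⊗[O] k)] :
    IsIntegrallyClosed (B0 ⊗[O] k) := by
  haveI hdom : IsDomain (k ⊗[O] B0) := GQ.isDomain_tensor_comm O k B0
  haveI hic : IsIntegrallyClosed (k ⊗[O] B0) :=
    isIntegrallyClosed_tensor_of_aux φ hsmulE p hp0 hpk hmax ι hι_alg hι_fix hι_surj hι_int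
      c hc d0 hdc hd0 c' hc' dc' hdc' m hm
  exact GQ.isIntegrallyClosed_tensor_comm O k B0

end

/-! ### The concrete auxiliary algebra `E = F ⊗[O[X]] P.R` -/

section Concrete

attribute [local instance] Algebra.TensorProduct.rightAlgebra

variable {O : Type u} [CommRing O] [IsDomain O] [IsIntegrallyClosed O] [IsNoetherianRing O]
  {k : Type v} [Field k] [IsAlgClosed k] [Algebra O k]
  {G : Type} [Group G] [Fintype G]
  {P : RigidCover O G} {Pk : RigidCover k G} (φ : RigidCover.Hom (algebraMap O k) P Pk)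
  {F : Type*} [Field F] [Algebra O[X] F] [FaithfulSMul O[X] F]
  {B0 : Type*} [CommRing B0] [Algebra O B0] [Algebra O[X] B0] [IsScalarTower O O[X] B0]
  [Algebra B0 F] [IsScalarTower O[X] B0 F] [IsIntegralClosure B0 O[X] F]
  {K0 : Type*} [Field K0] [Algebra O[X] K0] [IsFractionRing O[X] K0] [Algebra K0 F]
  [IsScalarTower O[X] K0 F]
  {L : Type*} [Field L] [Algebra P.R L] [IsFractionRing P.R L]

include φ in
/-- **GOODQUOT, Layer 3** (`k` on the left).  `O` a noetherian integrally closed domain, `p ≠ 0`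
generating a maximal ideal, `k` an algebraically closed field with `O → k` killing `p`;
`P`, `Pk` rigid covers over `O`, `k` with a base change morphism `φ`; `F` a field with an injective
`O[X]`-algebra structure, `B0` the integral closure of `O[X]` in `F`.  Then (H1) + (H2) + (D) imply
that `k ⊗[O] B0` is integrally closed.  The `L`-algebra structure on `F ⊗[O[X]] P.R` in (H2) is
`Aux.algebraFrac O[X] P.R F L`. -/
theorem isIntegrallyClosed_tensor_of_rigidCover
    (p : O) (hp0 : p ≠ 0) (hpk : algebraMap O k p = 0)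
    (hmax : (Ideal.span {p} : Ideal O).IsMaximal)
    -- (H1)
    {ι' : Type*} [Fintype ι'] [DecidableEq ι']
    (b : Module.Basis ι' K0 F) (hb : ∀ i, IsIntegral O[X] (b i)) (d0 : O[X])
    (hd0 : Algebra.discr K0 b = algebraMap O[X] K0 d0) (hpd0 : ¬ C p ∣ d0)
    -- (H2)
    (H2 : letI := Aux.algebraFrac O[X] P.R F L
      ∃ c' : Module.Basis ι' L (F ⊗[O[X]] P.R), (∀ i, IsIntegral P.R (c' i)) ∧
        ∃ dc' : P.R, algebraMap P.R L dc' = Algebra.discr L c' ∧ ∃ m : ℕ, dc' ∣ P.const p ^ m)
    -- (D)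
    [IsDomain (k ⊗[O] B0)] :
    IsIntegrallyClosed (k ⊗[O] B0) := by
  classical
  letI algLE : Algebra L (F ⊗[O[X]] P.R) := Aux.algebraFrac O[X] P.R F L
  haveI towLE : IsScalarTower P.R L (F ⊗[O[X]] P.R) := Aux.isScalarTower_frac O[X] P.R F L
  haveI finKF : Module.Finite K0 F := Module.Finite.of_basis b
  haveI finLE : Module.Finite L (F ⊗[O[X]] P.R) := Aux.finite_frac O[X] P.R F L (K0 := K0)
  letI actE : MulSemiringAction G (F ⊗[O[X]] P.R) := tensorRightAction O[X] F P.R G
  have hact : ∀ (g : G) (x : F) (r : P.R), g • (x ⊗ₜ[O[X]] r) = x ⊗ₜ[O[X]] (g • r) :=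
    fun _ _ _ => rfl
  have hfix : ∀ z : P.R, (∀ g : G, g • z = z) → z ∈ (algebraMap O[X] P.R).range :=
    P.mem_range_algebraMap_of_smul_eq
  haveI ntE : Nontrivial (F ⊗[O[X]] P.R) :=
    (Aux.tmul_one_injective O[X] P.R F).nontrivial
  obtain ⟨c', hc', dc', hdc', m, hm⟩ := H2
  have hsmulE : ∀ (g : G) (r : P.R) (e : F ⊗[O[X]] P.R), g • (r • e) = (g • r) • (g • e) := by
    intro g r e
    rw [Algebra.smul_def, smul_mul', Aux.smul_algebraMap_right O[X] P.R F hact, ← Algebra.smul_def]
  refine isIntegrallyClosed_tensor_of_aux φ (L := L) (E := F ⊗[O[X]] P.R) hsmulE p hp0 hpk hmax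
    (Algebra.TensorProduct.includeLeftRingHom : F →+* F ⊗[O[X]] P.R) ?_ ?_ ?_ ?_
    (Aux.auxBasis O[X] P.R F L b) ?_ d0 ?_ hpd0 c' hc' dc' hdc' m hm
  · intro q
    show algebraMap O[X] F q ⊗ₜ[O[X]] (1 : P.R) = _
    rw [Aux.algebraMap_tmul_one, Aux.algebraMap_right_apply]
  · intro g x
    show g • (x ⊗ₜ[O[X]] (1 : P.R)) = x ⊗ₜ[O[X]] (1 : P.R)
    rw [hact, smul_one]
  · intro z hz
    obtain ⟨x, hx⟩ := (Aux.smul_eq_self_iff O[X] P.R F hact hfix z).mp hz
    exact ⟨x, hx.symm⟩
  · intro x hx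
    exact (Aux.isIntegral_tmul_one_iff O[X] P.R F x).mp hx
  · intro i
    exact ⟨b i, hb i, (Aux.auxBasis_apply O[X] P.R F L b i).symm⟩
  · exact (Aux.discr_auxBasis O[X] P.R F L b d0 hd0).symm

include φ in
/-- **GOODQUOT, Layer 3** with `k` on the right: (D) = `[IsDomain (B0 ⊗[O] k)]`, conclusion
`IsIntegrallyClosed (B0 ⊗[O] k)`. -/
theorem isIntegrallyClosed_tensor_right_of_rigidCover
    (p : O) (hp0 : p ≠ 0) (hpk : algebraMap O k p = 0)
    (hmax : (Ideal.span {p} : Ideal O).IsMaximal)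
    {ι' : Type*} [Fintype ι'] [DecidableEq ι']
    (b : Module.Basis ι' K0 F) (hb : ∀ i, IsIntegral O[X] (b i)) (d0 : O[X])
    (hd0 : Algebra.discr K0 b = algebraMap O[X] K0 d0) (hpd0 : ¬ C p ∣ d0)
    (H2 : letI := Aux.algebraFrac O[X] P.R F L
      ∃ c' : Module.Basis ι' L (F ⊗[O[X]] P.R), (∀ i, IsIntegral P.R (c' i)) ∧
        ∃ dc' : P.R, algebraMap P.R L dc' = Algebra.discr L c' ∧ ∃ m : ℕ, dc' ∣ P.const p ^ m)
    [IsDomain (B0 ⊗[O] k)] :
    IsIntegrallyClosed (B0 ⊗[O] k) := by
  haveI hdom : IsDomain (k ⊗[O] B0) := GQ.isDomain_tensor_comm O k B0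
  haveI hic : IsIntegrallyClosed (k ⊗[O] B0) :=
    isIntegrallyClosed_tensor_of_rigidCover φ (L := L) p hp0 hpk hmax b hb d0 hd0 hpd0 H2
  exact GQ.isIntegrallyClosed_tensor_comm O k B0

end Concrete

end Fermat.Agent.Good.GQ3
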