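import Fermat.Agent.Good.RigidCoverQuot

/-!
# The generic fibre of a rigid cover inside the fraction field

Program L / L-GEN node [G-RCG], glue for the (H2) instantiation.

Let `φ : RigidCover.Hom f P P'` with `f = algebraMap Λ Λ'` and `Λ' = Λ[1/π]` (e.g. `Λ` a DVR with
uniformiser `π` and `Λ' = Frac Λ`).  Then `P'.R = P.R[1/π]` (`RigidCover.Hom.isLocalization_away`)
and for every fraction field `L` of `P.R`:

* `φ.toFrac L hf π : P'.R →+* L`, the `P.R`-algebra structure `φ.fracAlgebra L hf π` on `L`
  (a reducible definition, to be used with `letI`), `φ.baseAlgebra : Algebra P.R P'.R`;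
* `φ.isScalarTower_frac`, `φ.isFractionRing_frac` : `L` is a fraction field of `P'.R`;
* compatibility with the `j`-structures (`toFrac_algebraMap_map`, `toFrac_comp_algebraMap_eq`).
-/

namespace Fermat.Agent.Good

open Polynomial

universe u v

namespace RigidCover.Hom

set_option linter.overlappingInstances false
set_option linter.style.haveILetI false

variable {Λ : Type u} [CommRing Λ] [IsDomain Λ] {Λ' : Type v} [CommRing Λ'] [Nontrivial Λ']
  [Algebra Λ Λ'] {G : Type} [Group G] [Fintype G] {f : Λ →+* Λ'} {P : RigidCover Λ G}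
  {P' : RigidCover Λ' G} (φ : RigidCover.Hom f P P')

/-- `P'.R` as a `P.R`-algebra through the base change map (a definition, use with `letI`). -/
@[reducible] def baseAlgebra : Algebra P.R P'.R := φ.toRingHom.toAlgebra

omit [IsDomain Λ] in
lemma ne_zero_of_away (π : Λ) [IsLocalization.Away π Λ'] : π ≠ 0 := by
  rintro rfl
  have h : IsUnit (algebraMap Λ Λ' 0) := IsLocalization.Away.algebraMap_isUnit (S := Λ') (0 : Λ)
  rw [map_zero] at h
  exact not_isUnit_zero h

variable (L : Type*) [Field L] [Algebra P.R L] [IsFractionRing P.R L]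

omit [Nontrivial Λ'] [Algebra Λ Λ'] in
lemma isUnit_algebraMap_const {π : Λ} (hπ0 : π ≠ 0) : IsUnit (algebraMap P.R L (P.const π)) := by
  refine isUnit_iff_ne_zero.mpr fun h => hπ0 ?_
  have h1 : P.const π = 0 := IsFractionRing.injective P.R L (h.trans (map_zero _).symm)
  exact P.const_injective (h1.trans (map_zero _).symm)

/-- the embedding of the generic fibre `P'.R = P.R[1/π]` into a fraction field `L` of `P.R` -/
noncomputable def toFrac (hf : f = algebraMap Λ Λ') (π : Λ) [IsLocalization.Away π Λ'] :
    P'.R →+* L :=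
  letI := φ.baseAlgebra
  haveI := φ.isLocalization_away hf π
  IsLocalization.Away.lift (P.const π) (g := algebraMap P.R L)
    (isUnit_algebraMap_const L (ne_zero_of_away (Λ' := Λ') π))

@[simp] lemma toFrac_map (hf : f = algebraMap Λ Λ') (π : Λ) [IsLocalization.Away π Λ']
    (z : P.R) : φ.toFrac L hf π (φ.toRingHom z) = algebraMap P.R L z := by
  letI := φ.baseAlgebra
  haveI := φ.isLocalization_away hf π
  exact IsLocalization.Away.lift_eq (P.const π)
    (isUnit_algebraMap_const L (ne_zero_of_away (Λ' := Λ') π)) z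

/-- the `P'.R`-algebra structure on a fraction field `L` of `P.R` (a definition, use with
`letI`) -/
@[reducible] noncomputable def fracAlgebra (hf : f = algebraMap Λ Λ') (π : Λ)
    [IsLocalization.Away π Λ'] : Algebra P'.R L :=
  (φ.toFrac L hf π).toAlgebra

lemma isScalarTower_frac (hf : f = algebraMap Λ Λ') (π : Λ) [IsLocalization.Away π Λ'] :
    letI := φ.baseAlgebra
    letI := φ.fracAlgebra L hf π
    IsScalarTower P.R P'.R L := by
  letI := φ.baseAlgebra
  letI := φ.fracAlgebra L hf π
  exact IsScalarTower.of_algebraMap_eq fun z => (φ.toFrac_map L hf π z).symm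

/-- `L` is a fraction field of the generic fibre `P'.R` -/
theorem isFractionRing_frac (hf : f = algebraMap Λ Λ') (π : Λ) [IsLocalization.Away π Λ'] :
    letI := φ.fracAlgebra L hf π
    IsFractionRing P'.R L := by
  letI := φ.baseAlgebra
  letI := φ.fracAlgebra L hf π
  haveI := φ.isLocalization_away hf π
  haveI := φ.isScalarTower_frac L hf π
  exact IsFractionRing.isFractionRing_of_isDomain_of_isLocalization
    (Submonoid.powers (P.const π)) P'.R L

lemma toFrac_injective (hf : f = algebraMap Λ Λ') (π : Λ) [IsLocalization.Away π Λ'] :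
    Function.Injective (φ.toFrac L hf π) := by
  letI := φ.fracAlgebra L hf π
  haveI := φ.isFractionRing_frac L hf π
  exact IsFractionRing.injective P'.R L

/-- compatibility with the `j`-structures on polynomials coming from `Λ[j]` -/
lemma toFrac_algebraMap_map (hf : f = algebraMap Λ Λ') (π : Λ) [IsLocalization.Away π Λ']
    (q : Λ[X]) :
    φ.toFrac L hf π (algebraMap Λ'[X] P'.R (q.map f)) =
      algebraMap P.R L (algebraMap Λ[X] P.R q) := by
  rw [← φ.map_algebraMap, φ.toFrac_map]

/-- a ring homomorphism `Λ'[j] → L` which is the given one on `Λ[j]` factors through `P'.R` -/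
theorem toFrac_comp_algebraMap_eq (hf : f = algebraMap Λ Λ') (π : Λ) [IsLocalization.Away π Λ']
    (ψ0 : Λ'[X] →+* L)
    (hψ0 : ∀ q : Λ[X], ψ0 (q.map f) = algebraMap P.R L (algebraMap Λ[X] P.R q)) :
    (φ.toFrac L hf π).comp (algebraMap Λ'[X] P'.R) = ψ0 := by
  subst hf
  letI a2 : Algebra Λ[X] Λ'[X] := (mapRingHom (algebraMap Λ Λ')).toAlgebra
  haveI l2 : IsLocalization ((Submonoid.powers π).map (C : Λ →+* Λ[X])) Λ'[X] :=
    Polynomial.isLocalization (Submonoid.powers π) Λ'
  refine IsLocalization.ringHom_ext ((Submonoid.powers π).map (C : Λ →+* Λ[X])) ?_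
  refine RingHom.ext fun q => ?_
  show (φ.toFrac L rfl π) (algebraMap Λ'[X] P'.R (q.map (algebraMap Λ Λ'))) =
    ψ0 (q.map (algebraMap Λ Λ'))
  rw [φ.toFrac_algebraMap_map, hψ0]

end RigidCover.Hom

end Fermat.Agent.Good
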