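import Fermat.Agent.Good.RigidCoverLemmas

/-!
# Ramification of a rigid cover over the `j`-line (cover side of (RAM))

Program L / L-GEN, input for (H2) ([G-AB0]/[G-RAM]).

Let `P : RigidCover K G` be a rigid cover over a field `K` with `u0`, `v1` separable.  Then `P.R` is
a PID and for every prime element `u` of `P.R`:

* `u` lies over a unique monic irreducible `w0 : K[j]` (`exists_irreducible_dvd`,
  `associated_of_dvd_algebraMap`);
* if `u ∣ j` then `j = w * u ^ 3` with `u ∤ w` (`exists_eq_mul_pow_three`);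
* if `u ∣ j - 1728` then `j - 1728 = w * u ^ 2` with `u ∤ w` (`exists_eq_mul_pow_two`);
* in general `w0 = w * u ^ m` with `u ∤ w`, `0 < m` (`exists_ramData`).

So the ramification index of the cover is exactly `3` over `j = 0`, exactly `2` over `j = 1728`:
this is the shape of helper20's hypothesis (RAM) on the cover side.
-/

namespace Fermat.Agent.Good

open Polynomial

universe u

namespace RigidCover

set_option linter.overlappingInstances false
set_option linter.style.haveILetI false

variable {K : Type u} [Field K] {G : Type} [Group G] [Fintype G] (P : RigidCover K G)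

/-- a nonzero polynomial all of whose prime factors divide `c` becomes a unit in `P.R` -/
lemma isUnit_coord_of_forall_prime_dvd (p : K[X]) (hp0 : p ≠ 0)
    (hp : ∀ π : K[X], Prime π → π ∣ p → π ∣ P.c) : IsUnit (P.coord p) := by
  induction p using UniqueFactorizationMonoid.induction_on_prime with
  | h₁ => exact absurd rfl hp0
  | h₂ x hx => exact hx.map P.coord
  | h₃ a π ha hπ ih =>
    rw [map_mul]
    refine IsUnit.mul ?_ (ih ha fun ϖ hϖ h => hp ϖ hϖ (h.mul_left _))
    obtain ⟨d, hd⟩ := hp π hπ (dvd_mul_right _ _)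
    have h := P.isUnit_coord_c
    rw [hd, map_mul] at h
    exact isUnit_of_mul_isUnit_left h

/-- the image in `P.R` of a separable polynomial in the coordinate is squarefree -/
theorem squarefree_coord {q : K[X]} (hq : q.Separable) : Squarefree (P.coord q) := by
  intro z hz
  obtain ⟨n, p, hp⟩ := P.exists_mul_coord_pow_eq z
  obtain ⟨y, hy⟩ := hz
  obtain ⟨k, s, hs⟩ := P.exists_mul_coord_pow_eq y
  have hqs : q * P.c ^ (2 * n + k) = p * p * s := by
    apply P.coord_injective
    simp only [map_mul, map_pow]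
    rw [← hp, ← hs, hy]
    ring
  have hq0 : q ≠ 0 := hq.ne_zero
  have hc0 : P.c ^ (2 * n + k) ≠ 0 := pow_ne_zero _ P.c_monic.ne_zero
  have hp0 : p ≠ 0 := by
    rintro rfl
    rw [zero_mul, zero_mul] at hqs
    exact mul_ne_zero hq0 hc0 hqs
  have hunit : IsUnit (P.coord p) := by
    refine P.isUnit_coord_of_forall_prime_dvd p hp0 fun π hπ hπp => ?_
    by_contra hπc
    have hcop1 : IsCoprime π P.c := (Irreducible.coprime_iff_not_dvd hπ.irreducible).mpr hπc
    have hcop : IsCoprime (π * π) (P.c ^ (2 * n + k)) := (hcop1.mul_left hcop1).pow_right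
    have hdvd : π * π ∣ q * P.c ^ (2 * n + k) := by
      rw [hqs]
      exact Dvd.dvd.mul_right (mul_dvd_mul hπp hπp) s
    exact hπ.not_isUnit (hq.squarefree π (hcop.dvd_of_dvd_mul_right hdvd))
  rw [← hp] at hunit
  exact isUnit_of_mul_isUnit_left hunit

/-- the norm `∏ g, g • z` -/
lemma smul_prod_smul (z : P.R) (h : G) : h • ∏ g : G, g • z = ∏ g : G, g • z := by
  rw [Finset.smul_prod']
  simp only [← mul_smul]
  exact Function.Bijective.prod_comp (Group.mulLeft_bijective h) fun g => g • z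

/-- every prime element of `P.R` divides (the image of) a monic irreducible polynomial in `j` -/
theorem exists_irreducible_dvd (u : P.R) (hu : Prime u) :
    ∃ w0 : K[X], Irreducible w0 ∧ w0.Monic ∧ u ∣ algebraMap K[X] P.R w0 := by
  classical
  have hdom := P.isDomain
  obtain ⟨n, hn⟩ := P.mem_range_algebraMap_of_smul_eq (∏ g : G, g • u) (P.smul_prod_smul u)
  have hun : u ∣ algebraMap K[X] P.R n := by
    rw [hn]
    have h1 : (1 : G) • u ∣ ∏ g : G, g • u := Finset.dvd_prod_of_mem _ (Finset.mem_univ _)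
    rwa [one_smul] at h1
  have hn0 : n ≠ 0 := by
    rintro rfl
    rw [map_zero] at hn
    obtain ⟨g, -, hg⟩ := Finset.prod_eq_zero_iff.mp hn.symm
    exact hu.ne_zero ((smul_eq_zero_iff_eq g).mp hg)
  have key : ∀ n : K[X], n ≠ 0 → u ∣ algebraMap K[X] P.R n →
      ∃ π : K[X], Prime π ∧ u ∣ algebraMap K[X] P.R π := by
    intro n
    induction n using UniqueFactorizationMonoid.induction_on_prime with
    | h₁ => exact fun h => absurd rfl h
    | h₂ x hx =>
      intro _ hdvd
      exact absurd (isUnit_of_dvd_unit hdvd (hx.map _)) hu.not_isUnit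
    | h₃ a π ha hπ ih =>
      intro _ hdvd
      rw [map_mul] at hdvd
      rcases hu.dvd_or_dvd hdvd with h | h
      · exact ⟨π, hπ, h⟩
      · exact ih ha h
  obtain ⟨π, hπ, hdvd⟩ := key n hn0 hun
  refine ⟨normalize π, (normalize_associated π).symm.irreducible hπ.irreducible,
    Polynomial.monic_normalize hπ.ne_zero, hdvd.trans ?_⟩
  exact map_dvd _ (normalize_associated π).symm.dvd

/-- the irreducible polynomial below a prime element is unique up to associates -/
theorem associated_of_dvd_algebraMap (u : P.R) (hu : Prime u) {w0 w0' : K[X]}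
    (h0 : Irreducible w0) (h0' : Irreducible w0') (hd : u ∣ algebraMap K[X] P.R w0)
    (hd' : u ∣ algebraMap K[X] P.R w0') : Associated w0 w0' := by
  by_contra hna
  have hcop : IsCoprime w0 w0' :=
    (Irreducible.coprime_iff_not_dvd h0).mpr fun h => hna (h0.associated_of_dvd h0' h)
  obtain ⟨a, b, hab⟩ := hcop
  have h1 : u ∣ algebraMap K[X] P.R (a * w0 + b * w0') := by
    rw [map_add, map_mul, map_mul]
    exact dvd_add (hd.mul_left _) (hd'.mul_left _)
  rw [hab, map_one] at h1
  exact hu.not_isUnit (isUnit_of_dvd_one h1)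

/-- monic version of uniqueness -/
theorem eq_of_dvd_algebraMap (u : P.R) (hu : Prime u) {w0 w0' : K[X]}
    (h0 : Irreducible w0) (h0' : Irreducible w0') (hm : w0.Monic) (hm' : w0'.Monic)
    (hd : u ∣ algebraMap K[X] P.R w0) (hd' : u ∣ algebraMap K[X] P.R w0') : w0 = w0' :=
  Polynomial.eq_of_monic_of_associated hm hm' (P.associated_of_dvd_algebraMap u hu h0 h0' hd hd')

/-- abstract step: a prime `u` dividing `ε x ^ e` with `ε` a unit and `x` squarefree divides it
exactly `e` times. -/
lemma exists_eq_mul_pow_of_squarefree {R : Type*} [CommRing R] [IsDomain R] {u x : R} (ε : Rˣ)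
    (hu : Prime u) (hx : Squarefree x) {e : ℕ} (hdvd : u ∣ (ε : R) * x ^ e) :
    ∃ w, (ε : R) * x ^ e = w * u ^ e ∧ ¬ u ∣ w := by
  have hux : u ∣ x := by
    rcases hu.dvd_or_dvd hdvd with h | h
    · exact absurd (isUnit_of_dvd_unit h ε.isUnit) hu.not_isUnit
    · exact hu.dvd_of_dvd_pow h
  obtain ⟨y, rfl⟩ := hux
  have huy : ¬ u ∣ y := by
    rintro ⟨y', rfl⟩
    exact hu.not_isUnit (hx u ⟨y', by ring⟩)
  refine ⟨ε * y ^ e, by ring, fun h => ?_⟩
  rcases hu.dvd_or_dvd h with h | h
  · exact hu.not_isUnit (isUnit_of_dvd_unit h ε.isUnit)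
  · exact huy (hu.dvd_of_dvd_pow h)

/-- over `j = 0` the cover is ramified of index exactly `3` -/
theorem exists_eq_mul_pow_three (hu0 : P.u0.Separable) (u : P.R) (hu : Prime u)
    (hdvd : u ∣ algebraMap K[X] P.R X) :
    ∃ w, algebraMap K[X] P.R X = w * u ^ 3 ∧ ¬ u ∣ w := by
  have hdom := P.isDomain
  rw [P.algebraMap_X] at hdvd ⊢
  exact exists_eq_mul_pow_of_squarefree P.w0 hu (P.squarefree_coord hu0) hdvd

/-- over `j = 1728` the cover is ramified of index exactly `2` -/
theorem exists_eq_mul_pow_two (hv1 : P.v1.Separable) (u : P.R) (hu : Prime u)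
    (hdvd : u ∣ algebraMap K[X] P.R (X - C 1728)) :
    ∃ w, algebraMap K[X] P.R (X - C 1728) = w * u ^ 2 ∧ ¬ u ∣ w := by
  have hdom := P.isDomain
  rw [P.algebraMap_X_sub] at hdvd ⊢
  exact exists_eq_mul_pow_of_squarefree P.w1 hu (P.squarefree_coord hv1) hdvd

/-- any nonzero element is `w * u ^ m` with `u ∤ w` -/
theorem exists_eq_mul_pow_not_dvd (u : P.R) (hu : Prime u) (x : P.R) (hx : x ≠ 0) :
    ∃ (m : ℕ) (w : P.R), x = w * u ^ m ∧ ¬ u ∣ w := by
  have hdom := P.isDomain
  have hpid := P.isPrincipalIdealRing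
  have hfin : FiniteMultiplicity u x := FiniteMultiplicity.of_not_isUnit hu.not_isUnit hx
  obtain ⟨w, hw, hnd⟩ := hfin.exists_eq_pow_mul_and_not_dvd
  exact ⟨multiplicity u x, w, hw.trans (mul_comm _ _), hnd⟩

/-- **The cover side of (RAM).**  Every prime element `u` of `P.R` lies over a monic irreducible
`w0 : K[j]`, `w0 = w * u ^ m` with `u ∤ w`, `0 < m`, and `m = 3` if `w0 = j`, `m = 2` if
`w0 = j - 1728`. -/
theorem exists_ramData (hu0 : P.u0.Separable) (hv1 : P.v1.Separable) (u : P.R) (hu : Prime u) :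
    ∃ (w0 : K[X]) (m : ℕ) (w : P.R), Irreducible w0 ∧ w0.Monic ∧ 0 < m ∧
      algebraMap K[X] P.R w0 = w * u ^ m ∧ ¬ u ∣ w ∧ (w0 = X → m = 3) ∧
      (w0 = X - C 1728 → m = 2) := by
  have hdom := P.isDomain
  obtain ⟨w0, hirr, hmon, hdvd⟩ := P.exists_irreducible_dvd u hu
  have hne : algebraMap K[X] P.R w0 ≠ 0 := fun h =>
    hirr.ne_zero (P.algebraMap_injective (h.trans (map_zero _).symm))
  by_cases h1 : w0 = X
  · subst h1
    obtain ⟨w, hw, hnd⟩ := P.exists_eq_mul_pow_three hu0 u hu hdvd
    refine ⟨X, 3, w, hirr, hmon, by norm_num, hw, hnd, fun _ => rfl, fun h2 => ?_⟩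
    exfalso
    rw [h2] at hdvd
    obtain ⟨w', hw', hnd'⟩ := P.exists_eq_mul_pow_two hv1 u hu hdvd
    rw [← h2, hw] at hw'
    have h3 : w * u = w' := by
      have hu2 : u ^ 2 ≠ 0 := pow_ne_zero _ hu.ne_zero
      apply mul_right_cancel₀ hu2
      rw [← hw']
      ring
    exact hnd' ⟨w, by rw [← h3, mul_comm]⟩
  · by_cases h2 : w0 = X - C 1728
    · subst h2
      obtain ⟨w, hw, hnd⟩ := P.exists_eq_mul_pow_two hv1 u hu hdvd
      exact ⟨_, 2, w, hirr, hmon, by norm_num, hw, hnd, fun h => absurd h h1, fun _ => rfl⟩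
    · obtain ⟨m, w, hw, hnd⟩ := P.exists_eq_mul_pow_not_dvd u hu _ hne
      refine ⟨w0, m, w, hirr, hmon, ?_, hw, hnd, fun h => absurd h h1, fun h => absurd h h2⟩
      rcases Nat.eq_zero_or_pos m with rfl | hm
      · rw [pow_zero, mul_one] at hw
        exact absurd (hw ▸ hdvd) hnd
      · exact hm

end RigidCover

end Fermat.Agent.Good
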