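import Fermat.Agent.Good.H2Tensor
import Fermat.Agent.Good.RigidCoverGeneric
import Fermat.Agent.Good.RigidCoverRam

/-!
# (H2) for a rigid cover: the generic instantiation

Program L / L-GEN node [G-H2-INST].  For a rigid cover `P` over `O` with generic fibre `PK` over
`K = O[1/p]` (characteristic zero), `φ0 : RigidCover.Hom (algebraMap O K) P PK`, `PK.u0`, `PK.v1`
separable, and a function field `F` (a field with compatible injective `O[X]`- and `K[X]`-algebra
structures) whose integral closure `B₀` over `K[X]` is tamely ramified of index dividing `3` over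
`j = 0`, dividing `2` over `j = 1728`, and unramified elsewhere, the auxiliary algebra
`E = F ⊗[O[X]] P.R` satisfies the hypothesis (H2) of the GOODQUOT Layer 3
(`GQ3.isIntegrallyClosed_tensor_of_rigidCover`), verbatim.

The proof plugs `RigidCover.exists_ramData` (cover side of (RAM)) and `Good/RigidCoverGeneric.lean`
into helper20's `H2T.exists_basis_tensor_isIntegral_discr_dvd_pow`.
-/

namespace Fermat.Agent.Good.H2C

open Polynomial TensorProduct Module

set_option linter.overlappingInstances false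
set_option linter.style.haveILetI false
set_option linter.unusedSectionVars false

attribute [local instance] Algebra.TensorProduct.rightAlgebra

universe u v

/-- `K₀` is also a fraction field of `O[X]` when `K = O[1/p]` and `K₀` is a fraction field of
`K[X]`. -/
theorem isFractionRing_poly_of_away {O : Type*} [CommRing O] [IsDomain O] {K : Type*} [Field K]
    [Algebra O K] (p : O) [IsLocalization.Away p K] (K₀ : Type*) [Field K₀] [Algebra K[X] K₀]
    [IsFractionRing K[X] K₀] [Algebra O[X] K₀]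
    (hcomp : ∀ q : O[X], algebraMap O[X] K₀ q = algebraMap K[X] K₀ (q.map (algebraMap O K))) :
    IsFractionRing O[X] K₀ := by
  have hinjOK : Function.Injective (algebraMap O K) :=
    IsLocalization.injective K (M := Submonoid.powers p)
      (powers_le_nonZeroDivisors_of_noZeroDivisors (by
        rintro rfl
        have h : IsUnit (algebraMap O K 0) :=
          IsLocalization.Away.algebraMap_isUnit (S := K) (0 : O)
        rw [map_zero] at h
        exact not_isUnit_zero h))
  have hinj : Function.Injective (algebraMap O[X] K₀) := by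
    intro a b hab
    rw [hcomp, hcomp] at hab
    exact Polynomial.map_injective _ hinjOK (IsFractionRing.injective K[X] K₀ hab)
  haveI : FaithfulSMul O[X] K₀ := (faithfulSMul_iff_algebraMap_injective O[X] K₀).mpr hinj
  letI a2 : Algebra O[X] K[X] := (mapRingHom (algebraMap O K)).toAlgebra
  haveI l2 : IsLocalization ((Submonoid.powers p).map (C : O →+* O[X])) K[X] :=
    Polynomial.isLocalization (Submonoid.powers p) K
  -- every element of `K[X]` is a quotient of elements of `O[X]`
  have hKX : ∀ a : K[X], ∃ (a' : O[X]) (s : O[X]), s ≠ 0 ∧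
      a * s.map (algebraMap O K) = a'.map (algebraMap O K) := by
    intro a
    obtain ⟨⟨a', s⟩, hs⟩ := IsLocalization.surj ((Submonoid.powers p).map (C : O →+* O[X])) a
    refine ⟨a', s, ?_, hs⟩
    rintro h0
    have hu : IsUnit (algebraMap O[X] K[X] (s : O[X])) :=
      IsLocalization.map_units K[X] s
    rw [h0, map_zero] at hu
    exact not_isUnit_zero hu
  refine IsFractionRing.of_field O[X] K₀ fun z => ?_
  obtain ⟨a, b, hb, hz⟩ := IsFractionRing.div_surjective (A := K[X]) z
  obtain ⟨a', s, hs0, has⟩ := hKX a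
  obtain ⟨b', t, ht0, hbt⟩ := hKX b
  have hb0 : (b : K[X]) ≠ 0 := nonZeroDivisors.ne_zero hb
  have hmap0 : ∀ q : O[X], q ≠ 0 → algebraMap K[X] K₀ (q.map (algebraMap O K)) ≠ 0 :=
    fun q hq => by
      rw [← hcomp]
      exact (map_ne_zero_iff _ hinj).mpr hq
  have hbK : algebraMap K[X] K₀ b ≠ 0 :=
    (map_ne_zero_iff _ (IsFractionRing.injective K[X] K₀)).mpr hb0
  refine ⟨a' * t, b' * s, ?_⟩
  rw [← hz, hcomp, hcomp, Polynomial.map_mul, Polynomial.map_mul, ← has, ← hbt, map_mul, map_mul,
    map_mul, map_mul]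
  field_simp [hmap0 s hs0, hmap0 t ht0]

section Main

variable {O : Type u} [CommRing O] [IsDomain O] {K : Type v} [Field K] [CharZero K] [Algebra O K]
  (p : O) [IsLocalization.Away p K]
  {G : Type} [Group G] [Fintype G] {P : RigidCover O G} {PK : RigidCover K G}
  (φ0 : RigidCover.Hom (algebraMap O K) P PK)
  {F : Type*} [Field F] [Algebra O[X] F] [FaithfulSMul O[X] F] [Algebra K[X] F]
  (B₀ : Type*) [CommRing B₀] [IsDedekindDomain B₀] [Algebra K[X] B₀] [Module.Finite K[X] B₀]
  [Module.IsTorsionFree K[X] B₀] [Algebra B₀ F] [IsFractionRing B₀ F] [IsScalarTower K[X] B₀ F]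
  (K₀ : Type*) [Field K₀] [Algebra K[X] K₀] [IsFractionRing K[X] K₀] [Algebra K₀ F]
  [IsScalarTower K[X] K₀ F] [FiniteDimensional K₀ F] [Algebra.IsSeparable K₀ F]
  (L : Type*) [Field L] [Algebra P.R L] [IsFractionRing P.R L]

include φ0 B₀ K₀ in
/-- **(H2) for a rigid cover** (generic in `P`): the exact (H2) argument of
`GQ3.isIntegrallyClosed_tensor_of_rigidCover`. -/
theorem exists_basis_isIntegral_discr_dvd_pow
    (hu0 : PK.u0.Separable) (hv1 : PK.v1.Separable)
    (hcompat : ∀ q : O[X], algebraMap K[X] F (q.map (algebraMap O K)) = algebraMap O[X] F q)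
    -- the curve side of (RAM)
    (hX : ∀ Q : Ideal B₀, Q.IsPrime → algebraMap K[X] B₀ X ∈ Q → ramCount (X : K[X]) Q ∣ 3)
    (h1728 : ∀ Q : Ideal B₀, Q.IsPrime → algebraMap K[X] B₀ (X - C 1728) ∈ Q →
      ramCount (X - C 1728 : K[X]) Q ∣ 2)
    (hgen : ∀ ϖ : K[X], Irreducible ϖ → ϖ.Monic → ϖ ≠ X → ϖ ≠ X - C 1728 →
      ∀ Q : Ideal B₀, Q.IsPrime → algebraMap K[X] B₀ ϖ ∈ Q → ramCount ϖ Q = 1)
    {ι : Type*} [Fintype ι] [DecidableEq ι] (hι : Fintype.card ι = Module.finrank K₀ F) :
    letI := Aux.algebraFrac O[X] P.R F L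
    ∃ c' : Basis ι L (F ⊗[O[X]] P.R), (∀ i, IsIntegral P.R (c' i)) ∧
      ∃ d' : P.R, algebraMap P.R L d' = Algebra.discr L c' ∧ ∃ m : ℕ, d' ∣ P.const p ^ m := by
  classical
  -- polynomial level
  letI aPoly : Algebra O[X] K[X] := (mapRingHom (algebraMap O K)).toAlgebra
  have haPoly : ∀ q : O[X], algebraMap O[X] K[X] q = q.map (algebraMap O K) := fun _ => rfl
  letI aK₀ : Algebra O[X] K₀ := ((algebraMap K[X] K₀).comp (algebraMap O[X] K[X])).toAlgebra
  haveI tK₀ : IsScalarTower O[X] K[X] K₀ := .of_algebraMap_eq fun _ => rfl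
  haveI fK₀ : IsFractionRing O[X] K₀ := isFractionRing_poly_of_away p K₀ fun _ => rfl
  haveI tF : IsScalarTower O[X] K₀ F := .of_algebraMap_eq fun q => by
    show algebraMap O[X] F q = algebraMap K₀ F (algebraMap K[X] K₀ (q.map (algebraMap O K)))
    rw [← IsScalarTower.algebraMap_apply K[X] K₀ F, hcompat]
  -- cover level
  haveI pidK : IsPrincipalIdealRing PK.R := PK.isPrincipalIdealRing
  letI aBase : Algebra P.R PK.R := φ0.baseAlgebra
  letI aCov : Algebra O[X] PK.R :=
    ((algebraMap K[X] PK.R).comp (algebraMap O[X] K[X])).toAlgebra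
  haveI tCov1 : IsScalarTower O[X] K[X] PK.R := .of_algebraMap_eq fun _ => rfl
  haveI tCov2 : IsScalarTower O[X] P.R PK.R := .of_algebraMap_eq fun q => by
    show algebraMap K[X] PK.R (q.map (algebraMap O K)) = φ0.toRingHom (algebraMap O[X] P.R q)
    rw [φ0.map_algebraMap]
  letI aFrac : Algebra PK.R L := φ0.fracAlgebra L rfl p
  haveI fFrac : IsFractionRing PK.R L := φ0.isFractionRing_frac L rfl p
  haveI tFrac : IsScalarTower P.R PK.R L := φ0.isScalarTower_frac L rfl p
  haveI lAway : IsLocalization.Away (P.const p) PK.R := φ0.isLocalization_away rfl p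
  -- (RAM)
  have hram : ∀ u : PK.R, Prime u → ∃ (ϖ : K[X]) (w : PK.R) (m : ℕ), Prime ϖ ∧ 0 < m ∧
      algebraMap K[X] PK.R ϖ = w * u ^ m ∧ ¬ u ∣ w ∧
      ∀ Q : Ideal B₀, Q.IsPrime → algebraMap K[X] B₀ ϖ ∈ Q → ramCount ϖ Q ∣ m := by
    intro u hu
    obtain ⟨w0, m, w, hirr, hmon, hm, hfac, hnd, h3, h2⟩ := PK.exists_ramData hu0 hv1 u hu
    refine ⟨w0, w, m, hirr.prime, hm, hfac, hnd, fun Q hQ hmem => ?_⟩
    by_cases c1 : w0 = X
    · rw [h3 c1]
      subst c1
      exact hX Q hQ hmem
    · by_cases c2 : w0 = X - C 1728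
      · rw [h2 c2]
        subst c2
        exact h1728 Q hQ hmem
      · rw [hgen w0 hirr hmon c1 c2 Q hQ hmem]
        exact one_dvd m
  exact H2T.exists_basis_tensor_isIntegral_discr_dvd_pow O[X] P.R F L K B₀ K₀ (P.const p) hram hι

end Main

end Fermat.Agent.Good.H2C
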