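/-
L-GEN (Program L, S18), node [G-S28X] part 5 (helper27): **(H1)** — the discriminant of the
monomial basis is prime to `ℓ`.

* `exists_discr_reduce` (abstract, Mathlib only): a basis `β` of `L/K0` inside `B` (integral over the
  integrally closed `A`, `K0 = Frac A`) whose reduction `βt` is a basis of `Lt/κ`, `B` spanned by `β`
  up to denominators surviving the reduction `ρA : A → κ`: then `disc β = d0 ∈ A`, `ρA d0 = disc βt`.
* `chart_discr` (generic chart `t ∈ {j, 1/j}`): for a family `b` in `chartAlg N ℓ {t}` with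
  `𝔽_ℓ(j̄)`-independent reductions and any basis `β` of `F_N` over any fraction field `K0` of
  `ℤ_(ℓ)[t]` with `β i = b i`: `disc β = d0 ∈ ℤ_(ℓ)[t]` with `¬ ℓ ∣ d0`.
* `chart_exists_basis` : such a basis exists.
* `exists_basis_discr_fin` : (H1) for the finite chart over `ℤ_(ℓ)[X]`, `X ↦ j`.
-/
import Mathlib
import Fermat.Agent.Good.IgusaSpecial

set_option autoImplicit false
set_option linter.unusedSectionVars false
open ModularCurve ModularCurve.IgusaScheme IntermediateField Polynomial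
open Fermat.Agent.Igusa

noncomputable section
namespace Fermat.Agent.Good.S28X

section MapSumDiv

variable {A K0 κ ι : Type*} [CommRing A] [Field K0] [Field κ] [Fintype ι]

/-- reduction of a sum of fractions with denominators invertible after reduction -/
theorem map_sum_div (f : A →+* K0) (hf : Function.Injective f) (g : A →+* κ)
    (a s : ι → A) (hs : ∀ j, g (s j) ≠ 0) (t : A)
    (ht : f t = ∑ j, f (a j) / f (s j)) : g t = ∑ j, g (a j) / g (s j) := by
  classical
  have hs0 : ∀ j, f (s j) ≠ 0 := by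
    intro j h
    have : s j = 0 := hf (by rw [h, map_zero])
    exact hs j (by rw [this, map_zero])
  have key : t * ∏ k, s k = ∑ j, a j * ∏ k ∈ Finset.univ.erase j, s k := by
    apply hf
    rw [map_mul, map_prod, map_sum, ht, Finset.sum_mul]
    refine Finset.sum_congr rfl fun j _ => ?_
    rw [map_mul, map_prod, ← Finset.mul_prod_erase Finset.univ (fun k => f (s k)) (Finset.mem_univ j)]
    field_simp [hs0 j]
  have key2 := congrArg g key
  rw [map_mul, map_prod, map_sum] at key2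
  have hP : ∏ k, g (s k) ≠ 0 := Finset.prod_ne_zero_iff.mpr fun k _ => hs k
  rw [eq_div_of_mul_eq hP key2, Finset.sum_div]
  refine Finset.sum_congr rfl fun j _ => ?_
  have hP' : ∏ k ∈ Finset.univ.erase j, g (s k) ≠ 0 := Finset.prod_ne_zero_iff.mpr fun k _ => hs k
  rw [map_mul, map_prod, ← Finset.mul_prod_erase Finset.univ (fun k => g (s k)) (Finset.mem_univ j)]
  exact mul_div_mul_right _ _ hP'

end MapSumDiv

section DiscReduce

variable {A K0 L B κ Lt ι : Type*} [CommRing A] [IsDomain A]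
  [Field K0] [Algebra A K0] [IsFractionRing A K0]
  [Field L] [Algebra K0 L] [Algebra A L] [IsScalarTower A K0 L]
  [CommRing B] [Algebra A B] [Algebra B L] [IsScalarTower A B L]
  [Field κ] [Field Lt] [Algebra κ Lt]
  [Fintype ι] [DecidableEq ι]

/-- coordinates upstairs from a relation with denominators -/
theorem repr_of_relation (β0 : ι → B) (β : Module.Basis ι K0 L)
    (hβ : ∀ i, β i = algebraMap B L (β0 i)) (y : B) (s : A) (a : ι → A)
    (h : algebraMap A B s * y = ∑ i, algebraMap A B (a i) * β0 i) (i : ι) :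
    algebraMap A K0 s * β.repr (algebraMap B L y) i = algebraMap A K0 (a i) := by
  have h1 : (algebraMap A K0 s) • (algebraMap B L y) =
      ∑ i, (algebraMap A K0 (a i)) • β i := by
    have h2 := congrArg (algebraMap B L) h
    rw [map_mul, map_sum, ← IsScalarTower.algebraMap_apply A B L] at h2
    rw [Algebra.smul_def, ← IsScalarTower.algebraMap_apply A K0 L, h2]
    refine Finset.sum_congr rfl fun i _ => ?_
    rw [map_mul, ← IsScalarTower.algebraMap_apply A B L, Algebra.smul_def,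
      ← IsScalarTower.algebraMap_apply A K0 L, hβ]
  have h3 := congrArg (fun z => β.repr z i) h1
  simp only [map_smul, Finsupp.smul_apply, smul_eq_mul, Module.Basis.repr_sum_self] at h3
  exact h3

/-- coordinates downstairs from the reduced relation -/
theorem repr_of_relation_red (ρA : A →+* κ) (ρ : B →+* Lt)
    (hρ : ∀ a : A, ρ (algebraMap A B a) = algebraMap κ Lt (ρA a))
    (β0 : ι → B) (βt : Module.Basis ι κ Lt) (hβt : ∀ i, βt i = ρ (β0 i))
    (y : B) (s : A) (a : ι → A)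
    (h : algebraMap A B s * y = ∑ i, algebraMap A B (a i) * β0 i) (i : ι) :
    ρA s * βt.repr (ρ y) i = ρA (a i) := by
  have h1 : (ρA s) • (ρ y) = ∑ i, (ρA (a i)) • βt i := by
    have h2 := congrArg ρ h
    rw [map_mul, map_sum, hρ] at h2
    rw [Algebra.smul_def, h2]
    refine Finset.sum_congr rfl fun i _ => ?_
    rw [map_mul, hρ, Algebra.smul_def, hβt]
  have h3 := congrArg (fun z => βt.repr z i) h1
  simp only [map_smul, Finsupp.smul_apply, smul_eq_mul, Module.Basis.repr_sum_self] at h3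
  exact h3

/-- **The trace reduces**: if `Tr_{L/K0}(x) = t ∈ A` then `ρA t = Tr_{Lt/κ}(ρ x)`. -/
theorem map_trace_eq_trace (ρA : A →+* κ) (ρ : B →+* Lt)
    (hρ : ∀ a : A, ρ (algebraMap A B a) = algebraMap κ Lt (ρA a))
    (β0 : ι → B) (β : Module.Basis ι K0 L) (hβ : ∀ i, β i = algebraMap B L (β0 i))
    (βt : Module.Basis ι κ Lt) (hβt : ∀ i, βt i = ρ (β0 i))
    (hkey : ∀ x : B, ∃ (s : A) (a : ι → A), ρA s ≠ 0 ∧
      algebraMap A B s * x = ∑ i, algebraMap A B (a i) * β0 i)
    (x : B) (t : A)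
    (ht : algebraMap A K0 t = Algebra.trace K0 L (algebraMap B L x)) :
    ρA t = Algebra.trace κ Lt (ρ x) := by
  choose s a hs hsa using fun j => hkey (x * β0 j)
  have hinj : Function.Injective (algebraMap A K0) := IsFractionRing.injective A K0
  have hs0 : ∀ j, algebraMap A K0 (s j) ≠ 0 := by
    intro j h
    have : s j = 0 := hinj (by rw [h, map_zero])
    exact hs j (by rw [this, map_zero])
  have hup : Algebra.trace K0 L (algebraMap B L x) =
      ∑ j, algebraMap A K0 (a j j) / algebraMap A K0 (s j) := by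
    rw [Algebra.trace_eq_matrix_trace β, Matrix.trace]
    refine Finset.sum_congr rfl fun j _ => ?_
    rw [Matrix.diag_apply, Algebra.leftMulMatrix_eq_repr_mul, hβ, ← map_mul,
      eq_div_iff (hs0 j), mul_comm]
    exact repr_of_relation β0 β hβ (x * β0 j) (s j) (a j) (hsa j) j
  have hdown : Algebra.trace κ Lt (ρ x) = ∑ j, ρA (a j j) / ρA (s j) := by
    rw [Algebra.trace_eq_matrix_trace βt, Matrix.trace]
    refine Finset.sum_congr rfl fun j _ => ?_
    rw [Matrix.diag_apply, Algebra.leftMulMatrix_eq_repr_mul, hβt, ← map_mul,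
      eq_div_iff (hs j), mul_comm]
    exact repr_of_relation_red ρA ρ hρ β0 βt hβt (x * β0 j) (s j) (a j) (hsa j) j
  rw [hdown]
  exact map_sum_div (algebraMap A K0) hinj ρA (fun j => a j j) s hs t (by rw [ht, hup])

/-- **The discriminant reduces.**  `β` a `K0`-basis of `L` inside `B` (integral over the
integrally closed `A`), whose reduction `βt` is a `κ`-basis of `Lt`, and `B` is spanned by `β` up to
denominators that stay nonzero under `ρA`: then `disc(β) = d0 ∈ A` and `ρA d0 = disc(βt)`. -/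
theorem exists_discr_reduce [IsIntegrallyClosed A] (ρA : A →+* κ) (ρ : B →+* Lt)
    (hρ : ∀ a : A, ρ (algebraMap A B a) = algebraMap κ Lt (ρA a))
    (β0 : ι → B) (β : Module.Basis ι K0 L) (hβ : ∀ i, β i = algebraMap B L (β0 i))
    (βt : Module.Basis ι κ Lt) (hβt : ∀ i, βt i = ρ (β0 i))
    (hkey : ∀ x : B, ∃ (s : A) (a : ι → A), ρA s ≠ 0 ∧
      algebraMap A B s * x = ∑ i, algebraMap A B (a i) * β0 i)
    (hint : ∀ x : B, IsIntegral A (algebraMap B L x)) :
    ∃ d0 : A, algebraMap A K0 d0 = Algebra.discr K0 β ∧ ρA d0 = Algebra.discr κ βt := by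
  have hfd : FiniteDimensional K0 L := Module.Finite.of_basis β
  have htr : ∀ x : B, ∃ t : A, algebraMap A K0 t = Algebra.trace K0 L (algebraMap B L x) :=
    fun x => IsIntegrallyClosed.algebraMap_eq_of_integral (Algebra.isIntegral_trace (hint x))
  choose T hT using fun p : ι × ι => htr (β0 p.1 * β0 p.2)
  let M : Matrix ι ι A := fun i j => T (i, j)
  refine ⟨M.det, ?_, ?_⟩
  · rw [RingHom.map_det, Algebra.discr_def]
    congr 1
    ext i j
    rw [RingHom.mapMatrix_apply, Matrix.map_apply, Algebra.traceMatrix_apply,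
      Algebra.traceForm_apply, hβ, hβ, ← map_mul]
    exact hT (i, j)
  · rw [RingHom.map_det, Algebra.discr_def]
    congr 1
    ext i j
    rw [RingHom.mapMatrix_apply, Matrix.map_apply, Algebra.traceMatrix_apply,
      Algebra.traceForm_apply, hβt, hβt, ← map_mul]
    exact map_trace_eq_trace ρA ρ hρ β0 β hβ βt hβt hkey (β0 i * β0 j) (T (i, j)) (hT (i, j))

end DiscReduce

section FinrankClear

variable {A K0 K1 L : Type*} [CommRing A] [IsDomain A] [Field K0] [Field K1] [Field L]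
  [Algebra A K0] [IsFractionRing A K0] [Algebra K0 L] [Algebra A L] [IsScalarTower A K0 L]
  [Algebra K1 L]

/-- comparison of degrees over two models of the fraction field: if every element of `K1` is a
fraction of elements of `A` (inside `L`) then `[L : K0] ≤ [L : K1]` for `K0 = Frac A`. -/
theorem rank_le_of_clear [FiniteDimensional K1 L]
    (hclear : ∀ g : K1, ∃ a d : A, d ≠ 0 ∧
      algebraMap A L d * algebraMap K1 L g = algebraMap A L a) :
    Module.rank K0 L ≤ (Module.finrank K1 L : Cardinal) := by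
  classical
  refine rank_le fun s hs => ?_
  have hAK : Function.Injective (algebraMap A K0) := IsFractionRing.injective A K0
  have hAL : Function.Injective (algebraMap A L) := by
    rw [IsScalarTower.algebraMap_eq A K0 L]
    exact (algebraMap K0 L).injective.comp hAK
  have hliA : LinearIndependent A (fun i : s => (i : L)) :=
    (LinearIndependent.iff_fractionRing A K0).mpr hs
  have hli1 : LinearIndependent K1 (fun i : s => (i : L)) := by
    rw [Fintype.linearIndependent_iff]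
    intro g hg i
    obtain ⟨d, a, hd, ha⟩ := exists_clear_family (A := A) (L := L) hclear g
    have h0 : ∑ i : s, a i • (i : L) = 0 := by
      have h3 : ∀ i : s, a i • (i : L) = algebraMap A L d * (g i • (i : L)) := by
        intro i
        rw [Algebra.smul_def, ← ha i, Algebra.smul_def, mul_assoc]
      rw [Finset.sum_congr rfl fun i _ => h3 i, ← Finset.mul_sum, hg, mul_zero]
    have hai := (Fintype.linearIndependent_iff.mp hliA) a h0 i
    have h4 := ha i
    rw [hai, map_zero] at h4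
    rcases mul_eq_zero.mp h4 with h | h
    · exact absurd (hAL (by rw [h, map_zero])) hd
    · exact (map_eq_zero _).mp h
  have := hli1.fintype_card_le_finrank
  simpa using this

theorem finite_of_clear [FiniteDimensional K1 L]
    (hclear : ∀ g : K1, ∃ a d : A, d ≠ 0 ∧
      algebraMap A L d * algebraMap K1 L g = algebraMap A L a) :
    Module.Finite K0 L :=
  Module.rank_lt_aleph0_iff.mp
    (lt_of_le_of_lt (rank_le_of_clear (K0 := K0) hclear) (Cardinal.natCast_lt_aleph0))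

theorem finrank_le_of_clear [FiniteDimensional K1 L]
    (hclear : ∀ g : K1, ∃ a d : A, d ≠ 0 ∧
      algebraMap A L d * algebraMap K1 L g = algebraMap A L a) :
    Module.finrank K0 L ≤ Module.finrank K1 L :=
  Module.finrank_le_of_rank_le (rank_le_of_clear (K0 := K0) hclear)

end FinrankClear

section AdjoinSpanBase

variable {K E B ι : Type*} [Field K] [Field E] [Algebra K E] [CommRing B] [Finite ι]

/-- If a ring `ρ(B) ⊆ E` is contained in the `K`-span of finitely many elements, then so is the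
field generated by it over `K`. -/
theorem adjoin_range_le_span (ρ : B →+* E) (m : ι → E)
    (hspan : ∀ b : B, ρ b ∈ Submodule.span K (Set.range m))
    {y : E} (hy : y ∈ IntermediateField.adjoin K (Set.range ρ)) :
    y ∈ Submodule.span K (Set.range m) := by
  set V := Submodule.span K (Set.range m) with hV
  set W := Algebra.adjoin K (Set.range ρ) with hW
  have hWspan : Subalgebra.toSubmodule W = Submodule.span K (Set.range ρ) := by
    rw [hW, Algebra.adjoin_eq_span]
    congr 1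
    have : (Set.range ρ : Set E) = ((MonoidHom.mrange (ρ : B →* E) : Submonoid E) : Set E) := by
      ext z; simp
    rw [this, Submonoid.closure_eq]
  have hWV : Subalgebra.toSubmodule W ≤ V := by
    rw [hWspan, Submodule.span_le]
    rintro _ ⟨b, rfl⟩
    exact hspan b
  have hVfg : V.FG := Submodule.fg_span (Set.finite_range m)
  have hWfg : (Subalgebra.toSubmodule W).FG := hVfg.of_le hWV
  have hWint : ∀ z ∈ W, IsAlgebraic K z := fun z hz =>
    (IsIntegral.of_mem_of_fg W hWfg z hz).isAlgebraic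
  suffices h : y ∈ W from hWV h
  induction hy using IntermediateField.adjoin_induction with
  | mem z hz => exact Algebra.subset_adjoin hz
  | algebraMap c => exact Subalgebra.algebraMap_mem W _
  | add u v _ _ hu hv => exact W.add_mem hu hv
  | inv u _ hu =>
    exact Subalgebra.inv_mem_of_algebraic (A := W) (x := ⟨u, hu⟩) (hWint u hu)
  | mul u v _ _ hu hv => exact W.mul_mem hu hv

end AdjoinSpanBase

variable (N : ℕ) [NeZero N] (ℓ : ℕ) [Fact ℓ.Prime]

set_option quotPrecheck false in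
local notation "ℤℓ" => ↥(GaloisRep.ratLocalizedAt ℓ)

set_option quotPrecheck false in
local notation "F" => ↥(modularFunctionFieldFull N)

set_option quotPrecheck false in
local notation "κℓ" => ↥(Kout (ZMod ℓ))

attribute [local instance] chartBaseAlgebra
attribute [local instance 2000] chartBaseSMul chartBaseModule

section ChartRed

theorem resField_le_Kout {g : LaurentSeries (ZMod ℓ)} (hg : g ∈ resField ℓ) :
    g ∈ Kout (ZMod ℓ) := by
  have hle : resField ℓ ≤ (Kout (ZMod ℓ)).toSubfield := by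
    rw [resField, Subfield.closure_le]
    intro x hx
    rw [Set.mem_singleton_iff.mp hx]
    exact IntermediateField.mem_adjoin_simple_self (ZMod ℓ) _
  exact hle hg

theorem Kout_le_resField {g : LaurentSeries (ZMod ℓ)} (hg : g ∈ Kout (ZMod ℓ)) :
    g ∈ resField ℓ := by
  let T : IntermediateField (ZMod ℓ) (LaurentSeries (ZMod ℓ)) :=
    { resField ℓ with
      algebraMap_mem' := fun c => by
        have h := C_zmod_mem_subfield ℓ (resField ℓ) c
        rwa [HahnSeries.C_apply, ← algebraMap_laurentSeries_eq_single] at h }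
  have hle : Kout (ZMod ℓ) ≤ T := by
    rw [IntermediateField.adjoin_le_iff, Set.singleton_subset_iff]
    exact Subfield.subset_closure (Set.mem_singleton _)
  exact hle hg

variable (t : ↥(modularFunctionFieldFull N))
  (hS : ∀ s ∈ ({t} : Set ↥(modularFunctionFieldFull N)),
    ((s : ↥(modularFunctionFieldFull N)) : LaurentSeries ℚ) ∈ gaussSubring ℓ)

/-- the residue field of the chart: the subfield of `𝔽_ℓ((q))` generated over `𝔽_ℓ(j̄)` by the
reductions of the chart algebra -/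
def chartLt : IntermediateField κℓ (LaurentSeries (ZMod ℓ)) :=
  IntermediateField.adjoin κℓ (Set.range (chartRes N ℓ hS))

/-- reduction on the chart, with values in `chartLt` -/
def chartRho : ↥(chartAlg N ℓ {t}) →+* ↥(chartLt N ℓ t hS) :=
  (chartRes N ℓ hS).codRestrict (chartLt N ℓ t hS).toSubfield
    (fun x => IntermediateField.subset_adjoin _ _ ⟨x, rfl⟩)

theorem coe_chartRho (x : ↥(chartAlg N ℓ {t})) :
    ((chartRho N ℓ t hS x : ↥(chartLt N ℓ t hS)) : LaurentSeries (ZMod ℓ)) =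
      chartRes N ℓ hS x := rfl

variable (htres : chartRes N ℓ hS ⟨t, subset_chartAlg N ℓ _ rfl⟩ ∈ resField ℓ)

/-- reduction on the base ring `ℤ_(ℓ)[t]`, with values in `𝔽_ℓ(j̄)` -/
def chartRhoA : ↥(Algebra.adjoin ℤℓ ({t} : Set F)) →+* κℓ :=
  ((chartRes N ℓ hS).comp
    (algebraMap ↥(Algebra.adjoin ℤℓ ({t} : Set F)) ↥(chartAlg N ℓ {t}))).codRestrict
    (Kout (ZMod ℓ)).toSubfield
    (fun a => resField_le_Kout ℓ (chartRes_base_mem_resField N ℓ t hS htres a))

theorem coe_chartRhoA (a : ↥(Algebra.adjoin ℤℓ ({t} : Set F))) :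
    ((chartRhoA N ℓ t hS htres a : κℓ) : LaurentSeries (ZMod ℓ)) =
      chartRes N ℓ hS (algebraMap ↥(Algebra.adjoin ℤℓ ({t} : Set F)) ↥(chartAlg N ℓ {t}) a) := rfl

theorem chartRho_algebraMap (a : ↥(Algebra.adjoin ℤℓ ({t} : Set F))) :
    chartRho N ℓ t hS (algebraMap ↥(Algebra.adjoin ℤℓ ({t} : Set F)) ↥(chartAlg N ℓ {t}) a) =
      algebraMap κℓ ↥(chartLt N ℓ t hS) (chartRhoA N ℓ t hS htres a) := rfl

variable (b : Fin (dedekindPsi N) → ↥(chartAlg N ℓ {t}))
  (hb : ∀ g : Fin (dedekindPsi N) → LaurentSeries (ZMod ℓ), (∀ i, g i ∈ resField ℓ) →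
      ∑ i, g i * chartRes N ℓ hS (b i) = 0 → ∀ i, g i = 0)

theorem chartRho_linearIndependent
    (b : Fin (dedekindPsi N) → ↥(chartAlg N ℓ {t}))
    (hb : ∀ g : Fin (dedekindPsi N) → LaurentSeries (ZMod ℓ), (∀ i, g i ∈ resField ℓ) →
      ∑ i, g i * chartRes N ℓ hS (b i) = 0 → ∀ i, g i = 0) :
    LinearIndependent κℓ (fun i => chartRho N ℓ t hS (b i)) := by
  rw [Fintype.linearIndependent_iff]
  intro c hc i
  have h : ((∑ i, c i • chartRho N ℓ t hS (b i) : ↥(chartLt N ℓ t hS)) :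
      LaurentSeries (ZMod ℓ)) = 0 := by rw [hc]; rfl
  have h2 : ∑ i, ((c i : κℓ) : LaurentSeries (ZMod ℓ)) * chartRes N ℓ hS (b i) = 0 := by
    rw [← h, ← (chartLt N ℓ t hS).coe_val, map_sum]
    refine Finset.sum_congr rfl fun i _ => ?_
    rfl
  have h3 := hb (fun i => ((c i : κℓ) : LaurentSeries (ZMod ℓ)))
    (fun i => Kout_le_resField ℓ (c i).2) h2 i
  exact Subtype.ext h3

theorem chartRho_span_eq_top (hbase : ChartBase N ℓ t)
    (htres : chartRes N ℓ hS ⟨t, subset_chartAlg N ℓ _ rfl⟩ ∈ resField ℓ)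
    (b : Fin (dedekindPsi N) → ↥(chartAlg N ℓ {t}))
    (hb : ∀ g : Fin (dedekindPsi N) → LaurentSeries (ZMod ℓ), (∀ i, g i ∈ resField ℓ) →
      ∑ i, g i * chartRes N ℓ hS (b i) = 0 → ∀ i, g i = 0) :
    ⊤ ≤ Submodule.span κℓ (Set.range fun i => chartRho N ℓ t hS (b i)) := by
  rintro ⟨y, hy⟩ -
  have hspan : ∀ x : ↥(chartAlg N ℓ {t}), chartRes N ℓ hS x ∈
      Submodule.span κℓ (Set.range fun i => chartRes N ℓ hS (b i)) := by
    intro x
    obtain ⟨g, hg, hx⟩ := chartRes_mem_span N ℓ t hS hbase htres b hb x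
    rw [hx]
    refine Submodule.sum_mem _ fun i _ => ?_
    have : g i * chartRes N ℓ hS (b i) =
        (⟨g i, resField_le_Kout ℓ (hg i)⟩ : κℓ) • chartRes N ℓ hS (b i) := rfl
    rw [this]
    exact Submodule.smul_mem _ _ (Submodule.subset_span (Set.mem_range_self i))
  have hy' := adjoin_range_le_span (K := κℓ) (chartRes N ℓ hS)
    (fun i => chartRes N ℓ hS (b i)) hspan hy
  obtain ⟨c, hc⟩ := (Submodule.mem_span_range_iff_exists_fun _).mp hy'
  rw [Submodule.mem_span_range_iff_exists_fun]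
  refine ⟨c, Subtype.ext ?_⟩
  show ((∑ i, c i • chartRho N ℓ t hS (b i) : ↥(chartLt N ℓ t hS)) :
    LaurentSeries (ZMod ℓ)) = y
  rw [← hc, ← (chartLt N ℓ t hS).coe_val, map_sum]
  refine Finset.sum_congr rfl fun i _ => ?_
  rfl

/-- the reduced basis -/
def chartBasisRed (hbase : ChartBase N ℓ t)
    (htres : chartRes N ℓ hS ⟨t, subset_chartAlg N ℓ _ rfl⟩ ∈ resField ℓ)
    (b : Fin (dedekindPsi N) → ↥(chartAlg N ℓ {t}))
    (hb : ∀ g : Fin (dedekindPsi N) → LaurentSeries (ZMod ℓ), (∀ i, g i ∈ resField ℓ) →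
      ∑ i, g i * chartRes N ℓ hS (b i) = 0 → ∀ i, g i = 0) :
    Module.Basis (Fin (dedekindPsi N)) κℓ ↥(chartLt N ℓ t hS) :=
  Module.Basis.mk (chartRho_linearIndependent N ℓ t hS b hb)
    (chartRho_span_eq_top N ℓ t hS hbase htres b hb)

theorem chartBasisRed_apply (hbase : ChartBase N ℓ t)
    (htres : chartRes N ℓ hS ⟨t, subset_chartAlg N ℓ _ rfl⟩ ∈ resField ℓ)
    (b : Fin (dedekindPsi N) → ↥(chartAlg N ℓ {t}))
    (hb : ∀ g : Fin (dedekindPsi N) → LaurentSeries (ZMod ℓ), (∀ i, g i ∈ resField ℓ) →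
      ∑ i, g i * chartRes N ℓ hS (b i) = 0 → ∀ i, g i = 0) (i : Fin (dedekindPsi N)) :
    chartBasisRed N ℓ t hS hbase htres b hb i = chartRho N ℓ t hS (b i) := by
  rw [chartBasisRed, Module.Basis.mk_apply]

set_option synthInstance.maxHeartbeats 200000 in
/-- the residue field extension of the chart is separable -/
theorem isSeparable_chartLt (hbase : ChartBase N ℓ t)
    (htres : chartRes N ℓ hS ⟨t, subset_chartAlg N ℓ _ rfl⟩ ∈ resField ℓ)
    (b : Fin (dedekindPsi N) → ↥(chartAlg N ℓ {t}))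
    (hb : ∀ g : Fin (dedekindPsi N) → LaurentSeries (ZMod ℓ), (∀ i, g i ∈ resField ℓ) →
      ∑ i, g i * chartRes N ℓ hS (b i) = 0 → ∀ i, g i = 0) :
    Algebra.IsSeparable κℓ ↥(chartLt N ℓ t hS) := by
  have hfin : Module.Finite κℓ ↥(chartLt N ℓ t hS) :=
    Module.Finite.of_basis (chartBasisRed N ℓ t hS hbase htres b hb)
  refine ⟨fun y => ?_⟩
  have halg : IsAlgebraic κℓ y := (IsIntegral.of_finite κℓ y).isAlgebraic
  have halg' : IsAlgebraic κℓ (y : LaurentSeries (ZMod ℓ)) := by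
    have := halg.algHom (chartLt N ℓ t hS).val
    exact this
  have hord : ¬ ((ℓ : ℕ) : ℤ) ∣ (jqModC (ZMod ℓ)).order := by
    rw [order_jqModC']
    intro h
    have h1 : (ℓ : ℤ) ∣ 1 := by simpa using h
    have h2 : ℓ ∣ 1 := by exact_mod_cast h1
    exact (Fact.out : ℓ.Prime).one_lt.ne' (Nat.dvd_one.mp h2)
  have hsep := SepLaurent.isSeparable_of_isAlgebraic ℓ (jqModC (ZMod ℓ))
    (jqModC_ne_zero_of_nontrivial (ZMod ℓ)) hord (y : LaurentSeries (ZMod ℓ)) halg'
  rw [IsSeparable] at hsep ⊢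
  rwa [IntermediateField.minpoly_eq] 

theorem chartRhoA_zlPrime
    (htres : chartRes N ℓ hS ⟨t, subset_chartAlg N ℓ _ rfl⟩ ∈ resField ℓ) :
    chartRhoA N ℓ t hS htres
      (algebraMap ℤℓ ↥(Algebra.adjoin ℤℓ ({t} : Set F)) (zlPrime ℓ)) = 0 := by
  apply Subtype.ext
  rw [coe_chartRhoA]
  have h : algebraMap ↥(Algebra.adjoin ℤℓ ({t} : Set F)) ↥(chartAlg N ℓ {t})
      (algebraMap ℤℓ ↥(Algebra.adjoin ℤℓ ({t} : Set F)) (zlPrime ℓ)) =
      algebraMap ℤℓ ↥(chartAlg N ℓ {t}) (zlPrime ℓ) := rfl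
  rw [h, chartRes_algebraMap, zlResidue_zlPrime, map_zero]
  rfl

set_option synthInstance.maxHeartbeats 200000 in
/-- **(H1), generic chart**: the discriminant of any basis of `F_N` (over any fraction field `K0`
of `ℤ_(ℓ)[t]`) consisting of elements `b i` of the chart with independent reductions is an element
of `ℤ_(ℓ)[t]` prime to `ℓ`. -/
theorem chart_discr (hbase : ChartBase N ℓ t)
    (htres : chartRes N ℓ hS ⟨t, subset_chartAlg N ℓ _ rfl⟩ ∈ resField ℓ)
    (b : Fin (dedekindPsi N) → ↥(chartAlg N ℓ {t}))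
    (hb : ∀ g : Fin (dedekindPsi N) → LaurentSeries (ZMod ℓ), (∀ i, g i ∈ resField ℓ) →
      ∑ i, g i * chartRes N ℓ hS (b i) = 0 → ∀ i, g i = 0)
    (K0 : Type*) [Field K0] [Algebra ↥(Algebra.adjoin ℤℓ ({t} : Set F)) K0]
    [IsFractionRing ↥(Algebra.adjoin ℤℓ ({t} : Set F)) K0] [Algebra K0 F]
    [IsScalarTower ↥(Algebra.adjoin ℤℓ ({t} : Set F)) K0 F]
    (β : Module.Basis (Fin (dedekindPsi N)) K0 F)
    (hβ : ∀ i, β i = ((b i : ↥(chartAlg N ℓ {t})) : F)) :
    ∃ d0 : ↥(Algebra.adjoin ℤℓ ({t} : Set F)),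
      algebraMap ↥(Algebra.adjoin ℤℓ ({t} : Set F)) K0 d0 = Algebra.discr K0 β ∧
      ¬ algebraMap ℤℓ ↥(Algebra.adjoin ℤℓ ({t} : Set F)) (zlPrime ℓ) ∣ d0 := by
  classical
  have := hbase.isIntegrallyClosed
  have hsep := isSeparable_chartLt N ℓ t hS hbase htres b hb
  have hkey : ∀ x : ↥(chartAlg N ℓ {t}), ∃ (s : ↥(Algebra.adjoin ℤℓ ({t} : Set F)))
      (a : Fin (dedekindPsi N) → ↥(Algebra.adjoin ℤℓ ({t} : Set F))),
      chartRhoA N ℓ t hS htres s ≠ 0 ∧
      algebraMap ↥(Algebra.adjoin ℤℓ ({t} : Set F)) ↥(chartAlg N ℓ {t}) s * x =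
        ∑ i, algebraMap ↥(Algebra.adjoin ℤℓ ({t} : Set F)) ↥(chartAlg N ℓ {t}) (a i) * b i := by
    intro x
    obtain ⟨s, a, hs, hsa⟩ := chart_key N ℓ t hS hbase htres b hb x
    refine ⟨s, a, fun h0 => ?_, hsa⟩
    apply chartRes_base_ne_zero N ℓ t hS hbase s hs
    rw [← coe_chartRhoA N ℓ t hS htres, h0]
    rfl
  have hint : ∀ x : ↥(chartAlg N ℓ {t}), IsIntegral ↥(Algebra.adjoin ℤℓ ({t} : Set F))
      (algebraMap ↥(chartAlg N ℓ {t}) F x) := fun x => (mem_chartAlg_iff N ℓ).mp x.2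
  obtain ⟨d0, hd0, hred⟩ := exists_discr_reduce (chartRhoA N ℓ t hS htres) (chartRho N ℓ t hS)
    (chartRho_algebraMap N ℓ t hS htres) b β hβ
    (chartBasisRed N ℓ t hS hbase htres b hb) (chartBasisRed_apply N ℓ t hS hbase htres b hb)
    hkey hint
  refine ⟨d0, hd0, fun hdvd => ?_⟩
  have hfin : Module.Finite κℓ ↥(chartLt N ℓ t hS) :=
    Module.Finite.of_basis (chartBasisRed N ℓ t hS hbase htres b hb)
  have hne := Algebra.discr_not_zero_of_basis κℓ (chartBasisRed N ℓ t hS hbase htres b hb)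
  apply hne
  rw [← hred]
  obtain ⟨c, rfl⟩ := hdvd
  rw [map_mul, chartRhoA_zlPrime, zero_mul]

set_option synthInstance.maxHeartbeats 200000 in
/-- the family `b` is a basis of `F_N` over any fraction field `K0` of `ℤ_(ℓ)[t]` -/
theorem chart_exists_basis (hbase : ChartBase N ℓ t)
    (htres : chartRes N ℓ hS ⟨t, subset_chartAlg N ℓ _ rfl⟩ ∈ resField ℓ)
    (b : Fin (dedekindPsi N) → ↥(chartAlg N ℓ {t}))
    (hb : ∀ g : Fin (dedekindPsi N) → LaurentSeries (ZMod ℓ), (∀ i, g i ∈ resField ℓ) →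
      ∑ i, g i * chartRes N ℓ hS (b i) = 0 → ∀ i, g i = 0)
    (K0 : Type*) [Field K0] [Algebra ↥(Algebra.adjoin ℤℓ ({t} : Set F)) K0]
    [IsFractionRing ↥(Algebra.adjoin ℤℓ ({t} : Set F)) K0] [Algebra K0 F]
    [IsScalarTower ↥(Algebra.adjoin ℤℓ ({t} : Set F)) K0 F] :
    ∃ β : Module.Basis (Fin (dedekindPsi N)) K0 F,
      ∀ i, β i = ((b i : ↥(chartAlg N ℓ {t})) : F) := by
  classical
  have := hbase.isIntegrallyClosed
  have := hbase.wfDvdMonoid
  have := finiteDimensional_full N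
  have hclear0 : ∀ g : K0, ∃ a d : ↥(Algebra.adjoin ℤℓ ({t} : Set F)), d ≠ 0 ∧
      algebraMap ↥(Algebra.adjoin ℤℓ ({t} : Set F)) F d * algebraMap K0 F g =
        algebraMap ↥(Algebra.adjoin ℤℓ ({t} : Set F)) F a := by
    intro g
    obtain ⟨⟨a, d⟩, had⟩ := IsLocalization.surj (nonZeroDivisors ↥(Algebra.adjoin ℤℓ ({t} : Set F))) g
    refine ⟨a, d, nonZeroDivisors.ne_zero d.2, ?_⟩
    rw [IsScalarTower.algebraMap_apply ↥(Algebra.adjoin ℤℓ ({t} : Set F)) K0 F,
      IsScalarTower.algebraMap_apply ↥(Algebra.adjoin ℤℓ ({t} : Set F)) K0 F, ← map_mul,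
      mul_comm]
    exact congrArg _ had
  have hli := linearIndependent_of_ind (A := ↥(Algebra.adjoin ℤℓ ({t} : Set F)))
    (Kj := K0) (L := F) (B := ↥(chartAlg N ℓ {t})) hbase.prime (chartRes N ℓ hS) b
    hclear0 (chart_hind N ℓ t hS hbase htres b hb)
  have hfinK0 : Module.Finite K0 F :=
    finite_of_clear (A := ↥(Algebra.adjoin ℤℓ ({t} : Set F))) (K1 := ↥ℚ⟮jFull N⟯)
      (chart_hclear N ℓ t hbase)
  have hle : Module.finrank K0 F ≤ dedekindPsi N := by
    have h := finrank_le_of_clear (A := ↥(Algebra.adjoin ℤℓ ({t} : Set F))) (K0 := K0)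
      (K1 := ↥ℚ⟮jFull N⟯) (L := F) (chart_hclear N ℓ t hbase)
    rwa [chart_finrank N ℓ t hS hbase htres b hb] at h
  have hcard : Fintype.card (Fin (dedekindPsi N)) = Module.finrank K0 F := by
    have h1 := hli.fintype_card_le_finrank
    rw [Fintype.card_fin] at h1 ⊢
    omega
  have hne : Nonempty (Fin (dedekindPsi N)) := by
    have h2 := Module.finrank_pos (R := K0) (M := F)
    rw [Fintype.card_fin] at hcard
    exact ⟨⟨0, by omega⟩⟩
  refine ⟨basisOfLinearIndependentOfCardEqFinrank hli hcard, fun i => ?_⟩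
  rw [coe_basisOfLinearIndependentOfCardEqFinrank]
  rfl

end ChartRed

section Concrete

/-- **(H1) on the finite chart, over `ℤ_(ℓ)[j]`**: for every fraction field `K0` of
`ℤ_(ℓ)[j] = Algebra.adjoin ℤ_(ℓ) {j}` (compatibly acting on `F_N`), the monomials `famFin` form a
`K0`-basis of `F_N` whose discriminant is an element of `ℤ_(ℓ)[j]` prime to `ℓ`. -/
theorem exists_basis_discr_adjFin (hℓN : ¬ ℓ ∣ N)
    (K0 : Type*) [Field K0] [Algebra ↥(Algebra.adjoin ℤℓ ({jFull N} : Set F)) K0]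
    [IsFractionRing ↥(Algebra.adjoin ℤℓ ({jFull N} : Set F)) K0] [Algebra K0 F]
    [IsScalarTower ↥(Algebra.adjoin ℤℓ ({jFull N} : Set F)) K0 F] :
    ∃ (β : Module.Basis (Fin (dedekindPsi N)) K0 F)
      (d0 : ↥(Algebra.adjoin ℤℓ ({jFull N} : Set F))),
      (∀ i, β i = ((famFin N ℓ hℓN i : ↥(chartAlgFin N ℓ)) : F)) ∧
      algebraMap ↥(Algebra.adjoin ℤℓ ({jFull N} : Set F)) K0 d0 = Algebra.discr K0 β ∧
      ¬ algebraMap ℤℓ ↥(Algebra.adjoin ℤℓ ({jFull N} : Set F)) (zlPrime ℓ) ∣ d0 := by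
  obtain ⟨β, hβ⟩ := chart_exists_basis N ℓ (jFull N) (hSFin N ℓ) (chartBase_j N ℓ)
    (htresFin N ℓ) (famFin N ℓ hℓN) (famFin_indep N ℓ hℓN) K0
  obtain ⟨d0, hd0, hdvd⟩ := chart_discr N ℓ (jFull N) (hSFin N ℓ) (chartBase_j N ℓ)
    (htresFin N ℓ) (famFin N ℓ hℓN) (famFin_indep N ℓ hℓN) K0 β hβ
  exact ⟨β, d0, hβ, hd0, hdvd⟩

/-- **(H1) on the chart at infinity, over `ℤ_(ℓ)[1/j]`.** -/
theorem exists_basis_discr_adjInf (hℓN : ¬ ℓ ∣ N)
    (K0 : Type*) [Field K0] [Algebra ↥(Algebra.adjoin ℤℓ ({(jFull N)⁻¹} : Set F)) K0]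
    [IsFractionRing ↥(Algebra.adjoin ℤℓ ({(jFull N)⁻¹} : Set F)) K0] [Algebra K0 F]
    [IsScalarTower ↥(Algebra.adjoin ℤℓ ({(jFull N)⁻¹} : Set F)) K0 F] :
    ∃ (β : Module.Basis (Fin (dedekindPsi N)) K0 F)
      (d0 : ↥(Algebra.adjoin ℤℓ ({(jFull N)⁻¹} : Set F))),
      (∀ i, β i = ((famInf N ℓ hℓN i : ↥(chartAlgInf N ℓ)) : F)) ∧
      algebraMap ↥(Algebra.adjoin ℤℓ ({(jFull N)⁻¹} : Set F)) K0 d0 = Algebra.discr K0 β ∧
      ¬ algebraMap ℤℓ ↥(Algebra.adjoin ℤℓ ({(jFull N)⁻¹} : Set F)) (zlPrime ℓ) ∣ d0 := by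
  obtain ⟨β, hβ⟩ := chart_exists_basis N ℓ (jFull N)⁻¹ (hSInf N ℓ) (chartBase_jInv N ℓ)
    (htresInf N ℓ) (famInf N ℓ hℓN) (famInf_indep N ℓ hℓN) K0
  obtain ⟨d0, hd0, hdvd⟩ := chart_discr N ℓ (jFull N)⁻¹ (hSInf N ℓ) (chartBase_jInv N ℓ)
    (htresInf N ℓ) (famInf N ℓ hℓN) (famInf_indep N ℓ hℓN) K0 β hβ
  exact ⟨β, d0, hβ, hd0, hdvd⟩

end Concrete

end Fermat.Agent.Good.S28X
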