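/-
L-GEN (Program L, S18), node [G-INST-ODD], part 4: the curve side of (RAM) in the three-hypotheses
shape of `H2C.exists_basis_isIntegral_discr_dvd_pow` (`Good/H2Cover.lean`):

* `hX_of_embedding`, `h1728_of_embedding`, `hgen_of_embedding`: generic in a characteristic zero
  field `K` with `σ : K →+* ℚ̄` and a Dedekind `K[X]`-algebra `B₀` embedded in `Fb N` with
  `X ↦ jBar N`;
* `hX_fin`, `h1728_fin`, `hgen_fin`: the instance `K = ℚ`, `B₀ = integralClosure ℚ[X] F_N`.
-/
import Mathlib
import Fermat.Agent.Good.InstOddRam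

set_option autoImplicit false
set_option linter.unusedSectionVars false
set_option linter.style.haveILetI false
open ModularCurve ModularCurve.IgusaScheme IntermediateField Polynomial
open Fermat.Agent.Igusa Fermat.Agent.X0

noncomputable section
namespace Fermat.Agent.Good.InstOdd

section Curve

variable (N : ℕ) [NeZero N]

section Generic

variable {K : Type} [Field K] [CharZero K] (σ : K →+* Kb)
  {B₀ : Type*} [CommRing B₀] [IsDedekindDomain B₀] [Algebra K[X] B₀]
  [Module.IsTorsionFree K[X] B₀]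
  (ι : B₀ →+* Fb N) (hι : Function.Injective ι)
  (hιC : ∀ a : K, ι (algebraMap K[X] B₀ (C a)) = algebraMap Kb (Fb N) (σ a))
  (hιX : ι (algebraMap K[X] B₀ X) = jBar N)

include hι hιX in
/-- Curve side of (RAM) over `j = 0`. -/
theorem hX_of_embedding :
    ∀ Q : Ideal B₀, Q.IsPrime → algebraMap K[X] B₀ X ∈ Q → ramCount (X : K[X]) Q ∣ 3 :=
  RamDesc.ramCount_dvd_three N ι hι ((algebraMap K[X] B₀).comp (C.comp (algebraMap ℚ K)))
    X_ne_zero hιX

include hι hιC hιX in
/-- Curve side of (RAM) over `j = 1728`. -/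
theorem h1728_of_embedding :
    ∀ Q : Ideal B₀, Q.IsPrime → algebraMap K[X] B₀ (X - C 1728) ∈ Q →
      ramCount (X - C 1728 : K[X]) Q ∣ 2 := by
  refine RamDesc.ramCount_dvd_two N ι hι ((algebraMap K[X] B₀).comp (C.comp (algebraMap ℚ K)))
    (X_sub_C_ne_zero _) ?_
  rw [map_sub, map_sub, hιX]
  congr 1
  have h1728 : algebraMap Kb (Fb N) (σ 1728) = 1728 := by rw [map_ofNat, map_ofNat]
  rw [← h1728]
  exact hιC 1728

include hι hιC hιX in
/-- Curve side of (RAM) over the other values of `j`. -/
theorem hgen_of_embedding :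
    ∀ ϖ : K[X], Irreducible ϖ → ϖ.Monic → ϖ ≠ X → ϖ ≠ X - C 1728 →
      ∀ Q : Ideal B₀, Q.IsPrime → algebraMap K[X] B₀ ϖ ∈ Q → ramCount ϖ Q = 1 := by
  intro ϖ hirr hmon hX h1728
  have hιg : ∀ g : K[X], ι (algebraMap K[X] B₀ g) = aeval (jBar N) (g.map σ) := by
    intro g
    have h : (ι.comp (algebraMap K[X] B₀)) =
        ((aeval (jBar N) : Kb[X] →ₐ[Kb] Fb N).toRingHom).comp (Polynomial.mapRingHom σ) := by
      refine Polynomial.ringHom_ext (fun a => ?_) ?_
      · simp only [RingHom.comp_apply, Polynomial.coe_mapRingHom, Polynomial.map_C,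
          AlgHom.toRingHom_eq_coe, RingHom.coe_coe, aeval_C]
        exact hιC a
      · simp only [RingHom.comp_apply, Polynomial.coe_mapRingHom, Polynomial.map_X,
          AlgHom.toRingHom_eq_coe, RingHom.coe_coe, aeval_X]
        exact hιX
    exact RingHom.congr_fun h g
  have h0 : ϖ.eval 0 ≠ 0 := by
    intro h0
    apply hX
    have := eq_X_sub_C_of_eval_eq_zero hirr hmon h0
    rwa [map_zero, sub_zero] at this
  have h1 : ϖ.eval 1728 ≠ 0 := fun h1 => h1728 (eq_X_sub_C_of_eval_eq_zero hirr hmon h1)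
  exact RamDesc.ramCount_eq_one_fin_of_map N σ ι hι
    ((algebraMap K[X] B₀).comp (C.comp (algebraMap ℚ K))) hirr.ne_zero ϖ hirr.separable h0 h1
    (hιg ϖ)

end Generic

/-! ### The instance `K = ℚ`, `B₀ = integralClosure ℚ[X] F_N` -/

set_option quotPrecheck false in
local notation "F" => ↥(modularFunctionFieldFull N)

/-- The embedding of the `ℚ[X]`-model of the finite chart into `Fb N`. -/
def closureQToBar :
    letI := polyAlgebraFullQ N
    ↥(integralClosure ℚ[X] F) →+* Fb N :=
  letI := polyAlgebraFullQ N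
  (fullToBar N).comp (algebraMap ↥(integralClosure ℚ[X] F) F)

theorem closureQToBar_injective :
    letI := polyAlgebraFullQ N
    Function.Injective (closureQToBar N) :=
  (fullToBar_injective N).comp Subtype.val_injective

theorem closureQToBar_C (a : ℚ) :
    letI := polyAlgebraFullQ N
    closureQToBar N (algebraMap ℚ[X] ↥(integralClosure ℚ[X] F) (C a)) =
      algebraMap Kb (Fb N) (algebraMap ℚ Kb a) := by
  letI := polyAlgebraFullQ N
  show fullToBar N (algebraMap ℚ[X] F (C a)) = _
  rw [polyAlgebraFullQ_algebraMap, aeval_C, fullToBar_algebraMap]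

theorem closureQToBar_X :
    letI := polyAlgebraFullQ N
    closureQToBar N (algebraMap ℚ[X] ↥(integralClosure ℚ[X] F) X) = jBar N := by
  letI := polyAlgebraFullQ N
  show fullToBar N (algebraMap ℚ[X] F X) = _
  rw [polyAlgebraFullQ_algebraMap, aeval_X, fullToBar_jFull]

theorem hX_fin :
    letI := polyAlgebraFullQ N
    haveI := isDedekindDomain_integralClosureQ N
    ∀ Q : Ideal ↥(integralClosure ℚ[X] F), Q.IsPrime →
      algebraMap ℚ[X] ↥(integralClosure ℚ[X] F) X ∈ Q → ramCount (X : ℚ[X]) Q ∣ 3 := by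
  letI := polyAlgebraFullQ N
  haveI := isDedekindDomain_integralClosureQ N
  haveI := isTorsionFree_integralClosureQ N
  exact hX_of_embedding N (closureQToBar N) (closureQToBar_injective N) (closureQToBar_X N)

theorem h1728_fin :
    letI := polyAlgebraFullQ N
    haveI := isDedekindDomain_integralClosureQ N
    ∀ Q : Ideal ↥(integralClosure ℚ[X] F), Q.IsPrime →
      algebraMap ℚ[X] ↥(integralClosure ℚ[X] F) (X - C 1728) ∈ Q →
        ramCount (X - C 1728 : ℚ[X]) Q ∣ 2 := by
  letI := polyAlgebraFullQ N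
  haveI := isDedekindDomain_integralClosureQ N
  haveI := isTorsionFree_integralClosureQ N
  exact h1728_of_embedding N (algebraMap ℚ Kb) (closureQToBar N) (closureQToBar_injective N)
    (closureQToBar_C N) (closureQToBar_X N)

theorem hgen_fin :
    letI := polyAlgebraFullQ N
    haveI := isDedekindDomain_integralClosureQ N
    ∀ ϖ : ℚ[X], Irreducible ϖ → ϖ.Monic → ϖ ≠ X → ϖ ≠ X - C 1728 →
      ∀ Q : Ideal ↥(integralClosure ℚ[X] F), Q.IsPrime →
        algebraMap ℚ[X] ↥(integralClosure ℚ[X] F) ϖ ∈ Q → ramCount ϖ Q = 1 := by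
  letI := polyAlgebraFullQ N
  haveI := isDedekindDomain_integralClosureQ N
  haveI := isTorsionFree_integralClosureQ N
  exact hgen_of_embedding N (algebraMap ℚ Kb) (closureQToBar N) (closureQToBar_injective N)
    (closureQToBar_C N) (closureQToBar_X N)

end Curve

end Fermat.Agent.Good.InstOdd
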