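import Fermat.Agent.Good.LegendreJ
import Fermat.Agent.Good.RigidCoverDefs

/-!
# The Legendre cover as a `RigidCover`

Program L / L-GEN node [G-RCL], part 3: faithfulness of the `S₃` action, the instance
`legendreCover Λ : RigidCover Λ LegG` (for `2` invertible in `Λ`), functoriality in `Λ`.
-/

namespace Fermat.Agent.Good

open Polynomial

universe u v

section Faithful

variable (Λ : Type u) [CommRing Λ]

lemma legC_monic : (legC Λ).Monic := by
  have h : (X - 1 : Λ[X]) = X - C 1 := by rw [C_1]
  rw [legC, h]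
  exact monic_X.mul (monic_X_sub_C (1 : Λ))

lemma legOfPoly_injective : Function.Injective (legOfPoly Λ) := by
  have h : Submonoid.powers (legC Λ) ≤ nonZeroDivisors Λ[X] :=
    Submonoid.powers_le.mpr (legC_monic Λ).mem_nonZeroDivisors
  exact IsLocalization.injective (Localization.Away (legC Λ)) h

lemma legOfPoly_eq_zero_iff (p : Λ[X]) : legOfPoly Λ p = 0 ↔ p = 0 :=
  map_eq_zero_iff _ (legOfPoly_injective Λ)

variable [Nontrivial Λ]

lemma legPoint_eq_legX_iff (g : LegG) : legPoint Λ g = legX Λ ↔ g = 1 := by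
  have h1 := legX_mul_legXi Λ
  have h2 := one_sub_legX_mul_legYi Λ
  constructor
  · intro h
    -- in each non-trivial case we produce a nonzero polynomial killed by `legOfPoly`
    have key : ∀ p : Λ[X], legOfPoly Λ p = 0 → p.coeff 0 = 1 ∨ p.coeff 2 = 1 → False := by
      intro p hp hc
      rw [legOfPoly_eq_zero_iff] at hp
      rcases hc with hc | hc <;> · rw [hp, coeff_zero] at hc; exact zero_ne_one hc
    cases g
    · rfl
    · exfalso
      refine key (1 - X - X) ?_ (Or.inl (by simp))
      simp only [map_sub, map_one, legOfPoly_X]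
      simp only [legPoint] at h
      linear_combination h
    · exfalso
      refine key (1 - X * X) ?_ (Or.inl (by simp))
      simp only [map_sub, map_one, map_mul, legOfPoly_X]
      simp only [legPoint] at h
      linear_combination -h1 + legX Λ * h
    · exfalso
      refine key (X ^ 2 - 2 * X) ?_ (Or.inr (by simp [coeff_X]))
      simp only [map_sub, map_mul, map_pow, map_ofNat, legOfPoly_X]
      simp only [legPoint] at h
      linear_combination (1 - legX Λ) * h + h2
    · exfalso
      refine key (1 - X * (1 - X)) ?_ (Or.inl (by simp))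
      simp only [map_sub, map_one, map_mul, legOfPoly_X]
      simp only [legPoint] at h
      linear_combination -h2 + (1 - legX Λ) * h
    · exfalso
      refine key (X ^ 2 - X + 1) ?_ (Or.inl (by simp))
      simp only [map_sub, map_add, map_one, map_pow, legOfPoly_X]
      simp only [legPoint] at h
      linear_combination -(legX Λ) * h - h1
  · rintro rfl
    rfl

omit [Nontrivial Λ] in
lemma legG_smul_legX (g : LegG) : g • legX Λ = legPoint Λ g := legAut_legX Λ g

lemma legG_smul_legX_injective : Function.Injective fun g : LegG => g • legX Λ := by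
  intro g h hgh
  simp only [legG_smul_legX] at hgh
  have : legPoint Λ (h⁻¹ * g) = legX Λ := by
    rw [← legAut_legPoint, hgh, legAut_legPoint, inv_mul_cancel]
    rfl
  rw [legPoint_eq_legX_iff] at this
  exact (inv_mul_eq_one.mp this).symm

instance LegRing.instFaithfulSMul : FaithfulSMul LegG (LegRing Λ) where
  eq_of_smul_eq_smul h := legG_smul_legX_injective Λ (h (legX Λ))

end Faithful

section Cover

variable (Λ : Type u) [CommRing Λ]

/-- the coordinate structure as a ring homomorphism -/
noncomputable def legCoord : Λ[X] →+* LegRing Λ := (legOfPoly Λ : Λ[X] →+* LegRing Λ)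

lemma legCoord_apply (p : Λ[X]) : legCoord Λ p = legOfPoly Λ p := rfl

lemma legRing_isLocalization :
    @IsLocalization Λ[X] _ (Submonoid.powers (legC Λ)) (LegRing Λ) _ (legCoord Λ).toAlgebra := by
  have h : IsLocalization (Submonoid.powers (legC Λ)) (Localization.Away (legC Λ)) :=
    inferInstance
  rw [isLocalization_iff_isLocalizationMap] at h
  exact (@isLocalization_iff_isLocalizationMap Λ[X] _ (Submonoid.powers (legC Λ)) (LegRing Λ) _
    (legCoord Λ).toAlgebra).mpr h

/-- `u₀ = X² - X + 1` as a polynomial in the coordinate -/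
noncomputable def legU0Poly : Λ[X] := X ^ 2 - X + 1

/-- `v₁ = (X+1)(X-2)(2X-1)` as a polynomial in the coordinate -/
noncomputable def legV1Poly : Λ[X] := (X + 1) * (X - 2) * (2 * X - 1)

lemma legCoord_legU0Poly : legCoord Λ (legU0Poly Λ) = legU0 Λ := by
  simp only [legCoord_apply, legU0Poly, legU0, map_sub, map_add, map_pow, map_one, legOfPoly_X]

lemma legCoord_legV1Poly : legCoord Λ (legV1Poly Λ) = legV1 Λ := by
  simp only [legCoord_apply, legV1Poly, legV1, map_sub, map_add, map_mul, map_one, map_ofNat,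
    legOfPoly_X]

variable [Invertible (2 : Λ)]

lemma isUnit_two_legRing : IsUnit (2 : LegRing Λ) := by
  refine .of_mul_eq_one (algebraMap Λ (LegRing Λ) (⅟2)) ?_
  rw [← map_ofNat (algebraMap Λ (LegRing Λ)) 2, ← map_mul, mul_invOf_self, map_one]

lemma isUnit_legW0 : IsUnit (256 * legW Λ) := by
  have h : (256 : LegRing Λ) = 2 ^ 8 := by norm_num
  rw [h]
  exact ((isUnit_two_legRing Λ).pow 8).mul (isUnit_legW Λ)

lemma isUnit_legW1 : IsUnit (64 * legW Λ) := by
  have h : (64 : LegRing Λ) = 2 ^ 6 := by norm_num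
  rw [h]
  exact ((isUnit_two_legRing Λ).pow 6).mul (isUnit_legW Λ)

variable [Nontrivial Λ]

/-- **The Legendre cover** `Λ[x, 1/(x(x-1))]` of the `j`-line, with group `S₃`. -/
noncomputable def legendreCover : RigidCover Λ LegG where
  R := LegRing Λ
  t := legX Λ
  basis := (legBasis Λ).reindex (finCongr LegG.card_eq.symm)
  basis_apply i := by
    rw [Module.Basis.reindex_apply, legBasis_apply]
    rfl
  smul_t_injective := legG_smul_legX_injective Λ
  c := legC Λ
  c_monic := legC_monic Λ
  coord := legCoord Λ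
  coord_C a := by
    rw [legCoord_apply, legRing_algebraMap_poly, aeval_C]
    exact (legOfPoly Λ).commutes a
  coord_X := rfl
  isLocalization := legRing_isLocalization Λ
  u0 := legU0Poly Λ
  v1 := legV1Poly Λ
  w0 := (isUnit_legW0 Λ).unit
  w1 := (isUnit_legW1 Λ).unit
  algebraMap_X := by
    rw [legRing_algebraMap_X, legCoord_legU0Poly, IsUnit.unit_spec, legJ_eq]
  algebraMap_X_sub := by
    rw [legCoord_legV1Poly, IsUnit.unit_spec, ← legJ_sub_1728, map_sub, legRing_algebraMap_X,
      legRing_algebraMap_poly, aeval_C, map_ofNat]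

@[simp] lemma legendreCover_R : (legendreCover Λ).R = LegRing Λ := rfl
@[simp] lemma legendreCover_t : (legendreCover Λ).t = legX Λ := rfl
@[simp] lemma legendreCover_c : (legendreCover Λ).c = legC Λ := rfl
@[simp] lemma legendreCover_u0 : (legendreCover Λ).u0 = legU0Poly Λ := rfl
@[simp] lemma legendreCover_v1 : (legendreCover Λ).v1 = legV1Poly Λ := rfl
@[simp] lemma legendreCover_coord : (legendreCover Λ).coord = legCoord Λ := rfl

end Cover

section Functoriality

variable {Λ : Type u} [CommRing Λ] {Λ' : Type v} [CommRing Λ'] (f : Λ →+* Λ')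

lemma legC_map : (legC Λ).map f = legC Λ' := by
  simp only [legC, Polynomial.map_mul, Polynomial.map_sub, Polynomial.map_X, Polynomial.map_one]

lemma legU0Poly_map : (legU0Poly Λ).map f = legU0Poly Λ' := by
  simp only [legU0Poly, Polynomial.map_add, Polynomial.map_sub, Polynomial.map_pow,
    Polynomial.map_X, Polynomial.map_one]

lemma legV1Poly_map : (legV1Poly Λ).map f = legV1Poly Λ' := by
  simp only [legV1Poly, Polynomial.map_mul, Polynomial.map_add, Polynomial.map_sub,
    Polynomial.map_X, Polynomial.map_one, Polynomial.map_ofNat]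

lemma isUnit_legCoord_legC : IsUnit (legCoord Λ (legC Λ)) := by
  rw [legCoord_apply, legC, map_mul, map_sub, map_one, legOfPoly_X]
  exact (isUnit_legX Λ).mul (by rw [← neg_sub]; exact (isUnit_one_sub_legX Λ).neg)

lemma isUnit_legMap_aux :
    IsUnit (((legCoord Λ').comp (mapRingHom f)) (legC Λ)) := by
  rw [RingHom.comp_apply, coe_mapRingHom, legC_map]
  exact isUnit_legCoord_legC

/-- Functoriality of the Legendre ring in the base ring. -/
noncomputable def legMap : LegRing Λ →+* LegRing Λ' :=
  IsLocalization.Away.lift (S := Localization.Away (legC Λ)) (legC Λ)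
    (g := (legCoord Λ').comp (mapRingHom f)) (isUnit_legMap_aux f)

@[simp] lemma legMap_legOfPoly (p : Λ[X]) :
    legMap f (legOfPoly Λ p) = legOfPoly Λ' (p.map f) :=
  IsLocalization.Away.lift_eq (S := Localization.Away (legC Λ)) (legC Λ)
    (g := (legCoord Λ').comp (mapRingHom f)) (isUnit_legMap_aux f) p

@[simp] lemma legMap_legX : legMap f (legX Λ) = legX Λ' := by
  rw [legX, legMap_legOfPoly, Polynomial.map_X]
  rfl

@[simp] lemma legMap_algebraMap (a : Λ) :
    legMap f (algebraMap Λ (LegRing Λ) a) = algebraMap Λ' (LegRing Λ') (f a) := by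
  have h1 := (legOfPoly Λ).commutes a
  have h2 := (legOfPoly Λ').commutes (f a)
  rw [Polynomial.algebraMap_apply, Algebra.algebraMap_self_apply] at h1 h2
  rw [← h1, legMap_legOfPoly, Polynomial.map_C, h2]

@[simp] lemma legMap_legXi : legMap f (legXi Λ) = legXi Λ' := by
  have h := congrArg (legMap f) (legX_mul_legXi Λ)
  rw [map_mul, map_one, legMap_legX] at h
  have h' := legX_mul_legXi Λ'
  calc legMap f (legXi Λ) = (legX Λ' * legXi Λ') * legMap f (legXi Λ) := by rw [h', one_mul]
    _ = legXi Λ' * (legX Λ' * legMap f (legXi Λ)) := by ring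
    _ = _ := by rw [h, mul_one]

@[simp] lemma legMap_legYi : legMap f (legYi Λ) = legYi Λ' := by
  have h := congrArg (legMap f) (one_sub_legX_mul_legYi Λ)
  rw [map_mul, map_one, map_sub, map_one, legMap_legX] at h
  have h' := one_sub_legX_mul_legYi Λ'
  calc legMap f (legYi Λ) = ((1 - legX Λ') * legYi Λ') * legMap f (legYi Λ) := by
        rw [h', one_mul]
    _ = legYi Λ' * ((1 - legX Λ') * legMap f (legYi Λ)) := by ring
    _ = _ := by rw [h, mul_one]

@[simp] lemma legMap_legCinv : legMap f (legCinv Λ) = legCinv Λ' := by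
  rw [legCinv_eq, legCinv_eq, map_neg, map_mul, legMap_legXi, legMap_legYi]

@[simp] lemma legMap_legJ : legMap f (legJ Λ) = legJ Λ' := by
  simp only [legJ, legU0, legW, map_mul, map_pow, map_sub, map_add, map_one, map_ofNat,
    legMap_legX, legMap_legXi, legMap_legYi]

@[simp] lemma legMap_legPoint (g : LegG) : legMap f (legPoint Λ g) = legPoint Λ' g := by
  cases g <;> simp only [legPoint, map_sub, map_one, legMap_legX, legMap_legXi, legMap_legYi]

/-- Two ring maps out of the Legendre ring agreeing on constants and on `x` are equal. -/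
lemma legRing_ringHom_ext {S : Type*} [CommRing S] {φ ψ : LegRing Λ →+* S}
    (hC : ∀ a : Λ, φ (algebraMap Λ (LegRing Λ) a) = ψ (algebraMap Λ (LegRing Λ) a))
    (hx : φ (legX Λ) = ψ (legX Λ)) : φ = ψ := by
  have hp : ∀ p : Λ[X], φ (legOfPoly Λ p) = ψ (legOfPoly Λ p) := by
    intro p
    have : φ.comp (legOfPoly Λ : Λ[X] →+* LegRing Λ) = ψ.comp (legOfPoly Λ : Λ[X] →+* LegRing Λ) :=
      Polynomial.ringHom_ext
        (fun a => by
          simp only [RingHom.comp_apply, RingHom.coe_coe]
          have := (legOfPoly Λ).commutes a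
          rw [Polynomial.algebraMap_apply, Algebra.algebraMap_self_apply] at this
          rw [this, hC])
        (by simpa using hx)
    exact DFunLike.congr_fun this p
  have hc : φ (legCinv Λ) = ψ (legCinv Λ) := by
    have h1 := congrArg φ (legOfPoly_legC_mul_legCinv Λ)
    have h2 := congrArg ψ (legOfPoly_legC_mul_legCinv Λ)
    rw [map_mul, map_one] at h1 h2
    calc φ (legCinv Λ) = φ (legCinv Λ) * (ψ (legOfPoly Λ (legC Λ)) * ψ (legCinv Λ)) := by
          rw [h2, mul_one]
      _ = (φ (legOfPoly Λ (legC Λ)) * φ (legCinv Λ)) * ψ (legCinv Λ) := by rw [hp]; ring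
      _ = _ := by rw [h1, one_mul]
  ext z
  obtain ⟨n, p, rfl⟩ := exists_legOfPoly_eq Λ z
  rw [map_mul, map_mul, map_pow, map_pow, hp, hc]

lemma legMap_legAut (g : LegG) (z : LegRing Λ) :
    legMap f (legAut Λ g z) = legAut Λ' g (legMap f z) := by
  have : (legMap f).comp (legAut Λ g : LegRing Λ →+* LegRing Λ) =
      (legAut Λ' g : LegRing Λ' →+* LegRing Λ').comp (legMap f) :=
    legRing_ringHom_ext
      (fun a => by
        simp only [RingHom.comp_apply, RingHom.coe_coe, AlgHom.commutes, legMap_algebraMap])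
      (by
        simp only [RingHom.comp_apply, RingHom.coe_coe, legAut_legX, legMap_legPoint,
          legMap_legX])
  exact DFunLike.congr_fun this z

lemma legMap_smul (g : LegG) (z : LegRing Λ) : legMap f (g • z) = g • legMap f z :=
  legMap_legAut f g z

lemma legMap_algebraMap_poly (p : Λ[X]) :
    legMap f (algebraMap Λ[X] (LegRing Λ) p) = algebraMap Λ'[X] (LegRing Λ') (p.map f) := by
  rw [legRing_algebraMap_poly, legRing_algebraMap_poly, aeval_def, aeval_def, hom_eval₂,
    eval₂_map, legMap_legJ]
  congr 1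
  ext a
  simp only [RingHom.comp_apply, legMap_algebraMap]

lemma legMap_legCoord (p : Λ[X]) : legMap f (legCoord Λ p) = legCoord Λ' (p.map f) :=
  legMap_legOfPoly f p

/-- Functoriality of the Legendre cover. -/
noncomputable def legendreHom [Nontrivial Λ] [Nontrivial Λ'] [Invertible (2 : Λ)]
    [Invertible (2 : Λ')] : RigidCover.Hom f (legendreCover Λ) (legendreCover Λ') where
  toRingHom := legMap f
  map_t := legMap_legX f
  map_algebraMap := legMap_algebraMap_poly f
  map_coord := legMap_legCoord f
  map_smul := legMap_smul f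
  map_c := legC_map f
  map_u0 := legU0Poly_map f
  map_v1 := legV1Poly_map f

end Functoriality

section Separable

variable (Λ : Type u) [CommRing Λ]

lemma legU0Poly_derivative : derivative (legU0Poly Λ) = 2 * X - 1 := by
  simp only [legU0Poly, derivative_add, derivative_sub, derivative_X_pow, derivative_X,
    derivative_one, add_zero, Nat.cast_ofNat, Nat.add_one_sub_one, pow_one, map_ofNat]

lemma legV1Poly_derivative : derivative (legV1Poly Λ) = 6 * X ^ 2 - 6 * X - 3 := by
  have h : legV1Poly Λ = 2 * X ^ 3 - 3 * X ^ 2 - 3 * X + 2 := by rw [legV1Poly]; ring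
  rw [h]
  simp only [derivative_add, derivative_sub, derivative_mul, derivative_X_pow, derivative_X,
    derivative_ofNat, Nat.cast_ofNat, Nat.add_one_sub_one, pow_one, map_ofNat]
  ring

/-- `u₀` is coprime to `c = X (X - 1)`: `u₀ - c = 1`. -/
lemma isCoprime_legU0Poly_legC : IsCoprime (legU0Poly Λ) (legC Λ) :=
  ⟨1, -1, by rw [legU0Poly, legC]; ring⟩

lemma isCoprime_legV1Poly_legC [Invertible (2 : Λ)] : IsCoprime (legV1Poly Λ) (legC Λ) := by
  have h : (2 : Λ[X]) * C (⅟2 : Λ) = 1 := by
    rw [← map_ofNat C 2, ← C_mul, mul_invOf_self, C_1]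
  refine ⟨-(C (⅟2 : Λ)) * (2 * X - 1), C (⅟2 : Λ) * (4 * legC Λ - 7), ?_⟩
  rw [legV1Poly, legC]
  linear_combination h

variable [Invertible (3 : Λ)]

lemma three_mul_C_invOf_three : (3 : Λ[X]) * C (⅟3 : Λ) = 1 := by
  rw [← map_ofNat C 3, ← C_mul, mul_invOf_self, C_1]

/-- `u₀ = X² - X + 1` is separable when `3` is invertible (discriminant `-3`). -/
lemma legU0Poly_separable : (legU0Poly Λ).Separable := by
  have h := three_mul_C_invOf_three Λ
  rw [Polynomial.separable_def, legU0Poly_derivative]
  refine ⟨4 * C (⅟3 : Λ), -(C (⅟3 : Λ)) * (2 * X - 1), ?_⟩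
  rw [legU0Poly]
  linear_combination h

/-- `v₁ = (X+1)(X-2)(2X-1)` is separable when `3` is invertible (discriminant `3⁶`). -/
lemma legV1Poly_separable : (legV1Poly Λ).Separable := by
  have h := three_mul_C_invOf_three Λ
  rw [Polynomial.separable_def, legV1Poly_derivative]
  refine ⟨-(C (⅟3 : Λ)) ^ 3 * (6 * (2 * X - 1)), -(C (⅟3 : Λ)) ^ 3 * (6 - (2 * X - 1) ^ 2), ?_⟩
  rw [legV1Poly]
  linear_combination ((3 * C (⅟3 : Λ)) ^ 2 + 3 * C (⅟3 : Λ) + 1) * h

/-- `u₀` and `v₁` are coprime when `3` is invertible (resultant `27`). -/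
lemma isCoprime_legU0Poly_legV1Poly : IsCoprime (legU0Poly Λ) (legV1Poly Λ) := by
  have h := three_mul_C_invOf_three Λ
  refine ⟨-(C (⅟3 : Λ)) ^ 2 * (4 * legU0Poly Λ - 15), C (⅟3 : Λ) ^ 2 * (2 * X - 1), ?_⟩
  rw [legV1Poly, legU0Poly]
  linear_combination (3 * C (⅟3 : Λ) + 1) * h

end Separable

end Fermat.Agent.Good
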