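/-
L-GEN (Program L, S18), node [G-INST-ODD], final part: **normality of the special fibre of the
finite chart for `ℓ` odd**.

`isIntegrallyClosed_tensor_fin N ℓ hℓN hℓ2 k : IsIntegrallyClosed (↥(chartAlgFin N ℓ) ⊗[ℤ_(ℓ)] k)`
for `ℓ ∤ N`, `ℓ ≠ 2`, `k` an algebraically closed field of characteristic `ℓ`.

Proof: GOODQUOT Layer 3 (`GQ3.isIntegrallyClosed_tensor_right_of_rigidCover`) for the Legendre
cover over `ℤ_(ℓ)`, with (H1) = `S28X.exists_basis_discr_fin`, (H2) =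
`H2C.exists_basis_isIntegral_discr_dvd_pow` (generic fibre over `ℚ = ℤ_(ℓ)[1/ℓ]`, curve side of
(RAM) from `Good/InstOddCurve.lean`) and (D) = `S28X.isDomain_tensor_fin`.
-/
import Mathlib
import Fermat.Agent.Good.InstOddCurve
import Fermat.Agent.Good.H2Cover
import Fermat.Agent.Good.GoodQuotCover
import Fermat.Agent.Good.LegendreCover
import Fermat.Agent.Good.IgusaDiscFin

set_option autoImplicit false
set_option linter.unusedSectionVars false
set_option linter.style.haveILetI false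
set_option linter.overlappingInstances false
open ModularCurve ModularCurve.IgusaScheme IntermediateField Polynomial TensorProduct
open Fermat.Agent.Igusa Fermat.Agent.X0

noncomputable section
namespace Fermat.Agent.Good.InstOdd

attribute [local instance] Algebra.TensorProduct.rightAlgebra

section Final

variable (N : ℕ) [NeZero N] (ℓ : ℕ) [Fact ℓ.Prime]

set_option quotPrecheck false in
local notation "ℤℓ" => ↥(GaloisRep.ratLocalizedAt ℓ)

set_option quotPrecheck false in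
local notation "F" => ↥(modularFunctionFieldFull N)

/-- `ℤ_(ℓ)[X] → chartAlgFin → F_N` is `X ↦ j`. -/
theorem polyAlgebraFin_isScalarTower_full :
    letI := polyAlgebraFull N ℓ
    letI := S28X.polyAlgebraFin N ℓ
    IsScalarTower ℤℓ[X] ↥(chartAlgFin N ℓ) F := by
  letI := polyAlgebraFull N ℓ
  letI := S28X.polyAlgebraFin N ℓ
  refine IsScalarTower.of_algebraMap_eq fun P => ?_
  rw [polyAlgebraFull_algebraMap, S28X.polyAlgebraFin_algebraMap]
  show _ = ((Polynomial.aeval (jChartFin N ℓ) P : ↥(chartAlgFin N ℓ)) : F)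
  rw [← Subalgebra.coe_val (chartAlgFin N ℓ), ← Polynomial.aeval_algHom_apply]
  rfl

/-- The finite chart is the integral closure of `ℤ_(ℓ)[X]` in `F_N`. -/
theorem isIntegralClosure_chartAlgFin :
    letI := polyAlgebraFull N ℓ
    letI := S28X.polyAlgebraFin N ℓ
    IsIntegralClosure ↥(chartAlgFin N ℓ) ℤℓ[X] F := by
  letI := polyAlgebraFull N ℓ
  letI := S28X.polyAlgebraFin N ℓ
  refine ⟨Subtype.val_injective, fun {x} => ?_⟩
  constructor
  · intro hx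
    have hx' : x ∈ integralClosure ℤℓ[X] F := hx
    rw [mem_integralClosure_poly_iff] at hx'
    exact ⟨⟨x, hx'⟩, rfl⟩
  · rintro ⟨y, rfl⟩
    have hy : ((y : ↥(chartAlgFin N ℓ)) : F) ∈ integralClosure ℤℓ[X] F := by
      rw [mem_integralClosure_poly_iff]
      exact y.2
    exact hy

/-- `(ℓ)` is a maximal ideal of `ℤ_(ℓ)`. -/
theorem isMaximal_span_zlPrime' : (Ideal.span {zlPrime ℓ} : Ideal ℤℓ).IsMaximal := by
  rw [← ker_zlResidue]
  exact RingHom.ker_isMaximal_of_surjective _ (zlResidue_surjective ℓ)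

/-- **Normality of the special fibre of the finite chart, `ℓ` odd.** -/
theorem isIntegrallyClosed_tensor_fin (hℓN : ¬ ℓ ∣ N) (hℓ2 : ℓ ≠ 2)
    (k : Type*) [Field k] [IsAlgClosed k] [CharP k ℓ] [Algebra ℤℓ k] :
    IsIntegrallyClosed (↥(chartAlgFin N ℓ) ⊗[ℤℓ] k) := by
  classical
  -- invertibility of `2`, `3`
  letI i2 : Invertible (2 : ℤℓ) := invertibleTwo ℓ hℓ2
  letI i2k : Invertible (2 : k) := invertibleTwoField ℓ k hℓ2
  letI i2Q : Invertible (2 : ℚ) := invertibleOfNonzero two_ne_zero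
  letI i3Q : Invertible (3 : ℚ) := invertibleOfNonzero three_ne_zero
  -- the `ℤ_(ℓ)[X]`-side
  letI aF : Algebra ℤℓ[X] F := polyAlgebraFull N ℓ
  haveI fF : FaithfulSMul ℤℓ[X] F :=
    (faithfulSMul_iff_algebraMap_injective _ _).mpr (polyAlgebraFull_injective N ℓ)
  letI aB : Algebra ℤℓ[X] ↥(chartAlgFin N ℓ) := S28X.polyAlgebraFin N ℓ
  haveI tB : IsScalarTower ℤℓ ℤℓ[X] ↥(chartAlgFin N ℓ) := S28X.polyAlgebraFin_isScalarTower N ℓ
  haveI tBF : IsScalarTower ℤℓ[X] ↥(chartAlgFin N ℓ) F := polyAlgebraFin_isScalarTower_full N ℓ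
  haveI icB : IsIntegralClosure ↥(chartAlgFin N ℓ) ℤℓ[X] F := isIntegralClosure_chartAlgFin N ℓ
  -- the `ℚ[X]`-side
  letI aFQ : Algebra ℚ[X] F := polyAlgebraFullQ N
  letI aK₀ : Algebra ℚ[X] ↥ℚ⟮jFull N⟯ := polyAlgebraQj N
  haveI tK₀ : IsScalarTower ℚ[X] ↥ℚ⟮jFull N⟯ F := polyAlgebraQj_isScalarTower N
  haveI fK₀ : IsFractionRing ℚ[X] ↥ℚ⟮jFull N⟯ := polyAlgebraQj_isFractionRing N
  haveI fdF : FiniteDimensional ↥ℚ⟮jFull N⟯ F := finiteDimensional_full N
  haveI sepF : Algebra.IsSeparable ↥ℚ⟮jFull N⟯ F := isSeparable_full_Qj N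
  haveI ddB₀ : IsDedekindDomain ↥(integralClosure ℚ[X] F) := isDedekindDomain_integralClosureQ N
  haveI finB₀ : Module.Finite ℚ[X] ↥(integralClosure ℚ[X] F) := finite_integralClosureQ N
  haveI tfB₀ : Module.IsTorsionFree ℚ[X] ↥(integralClosure ℚ[X] F) :=
    isTorsionFree_integralClosureQ N
  haveI frB₀ : IsFractionRing ↥(integralClosure ℚ[X] F) F := isFractionRing_integralClosureQ N
  haveI locQ : IsLocalization.Away (zlPrime ℓ) ℚ := isLocalization_away_zlPrime_rat ℓ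
  -- `ℚ(j)` as a fraction field of `ℤ_(ℓ)[X]`
  letI aK₀' : Algebra ℤℓ[X] ↥ℚ⟮jFull N⟯ :=
    ((algebraMap ℚ[X] ↥ℚ⟮jFull N⟯).comp (mapRingHom (algebraMap ℤℓ ℚ))).toAlgebra
  haveI fK₀' : IsFractionRing ℤℓ[X] ↥ℚ⟮jFull N⟯ :=
    H2C.isFractionRing_poly_of_away (K := ℚ) (zlPrime ℓ) ↥ℚ⟮jFull N⟯ fun _ => rfl
  haveI tK₀' : IsScalarTower ℤℓ[X] ↥ℚ⟮jFull N⟯ F := .of_algebraMap_eq fun q => by
    show algebraMap ℤℓ[X] F q =
      algebraMap ↥ℚ⟮jFull N⟯ F (algebraMap ℚ[X] ↥ℚ⟮jFull N⟯ (q.map (algebraMap ℤℓ ℚ)))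
    rw [← IsScalarTower.algebraMap_apply ℚ[X] ↥ℚ⟮jFull N⟯ F, polyAlgebraFullQ_map]
  -- (H1)
  obtain ⟨b, -, hbmem, d, hd, hpd⟩ :=
    S28X.exists_basis_discr_fin N ℓ hℓN (fun _ => rfl) ↥ℚ⟮jFull N⟯
  have hb : ∀ i, IsIntegral ℤℓ[X] (b i) := fun i => by
    have h : b i ∈ integralClosure ℤℓ[X] F := (mem_integralClosure_poly_iff N ℓ _).mpr (hbmem i)
    exact h
  have hι : Fintype.card (Fin (dedekindPsi N)) = Module.finrank ↥ℚ⟮jFull N⟯ F :=
    (Module.finrank_eq_card_basis b).symm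
  -- (D)
  haveI dom : IsDomain (↥(chartAlgFin N ℓ) ⊗[ℤℓ] k) := S28X.isDomain_tensor_fin N ℓ hℓN k
  exact GQ3.isIntegrallyClosed_tensor_right_of_rigidCover (legendreHom (algebraMap ℤℓ k))
    (L := FractionRing (legendreCover ℤℓ).R) (zlPrime ℓ) (zlPrime_ne_zero ℓ)
    (algebraMap_zlPrime ℓ k) (isMaximal_span_zlPrime' ℓ) b hb d hd hpd
    (H2C.exists_basis_isIntegral_discr_dvd_pow (zlPrime ℓ) (legendreHom (algebraMap ℤℓ ℚ))
      ↥(integralClosure ℚ[X] F) ↥ℚ⟮jFull N⟯ (FractionRing (legendreCover ℤℓ).R)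
      (legU0Poly_separable ℚ) (legV1Poly_separable ℚ) (polyAlgebraFullQ_map ℓ N)
      (hX_fin N) (h1728_fin N) (hgen_fin N) hι)

end Final

end Fermat.Agent.Good.InstOdd
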