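import Mathlib
import Fermat.Agent.Good.OmegaExt
import Fermat.Agent.Igusa.ZlDvr

/-!
# The base ring `ℤ_(2)[ω]` of the Hesse cover at `ℓ = 2`

Program L / L-GEN node [G-HB].  `Ztwo = ℤ_(2) = GaloisRep.ratLocalizedAt 2` (the base ring of the
Igusa charts at `ℓ = 2`), `Otwo = ℤ_(2)[ω] = OmegaExt Ztwo`: a discrete valuation ring in which `2`
is prime, with residue map `otwoResidue` onto the field `𝔽₄ = OmegaExt (ZMod 2)` with kernel `(2)`;
`HesseDatum` instances for `Otwo` and `𝔽₄`.
-/

namespace Fermat.Agent.Good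

open Polynomial Fermat.Agent.Igusa Fermat.Agent.Igusa.ZlDvr

instance fact_prime_two : Fact (Nat.Prime 2) := ⟨Nat.prime_two⟩

/-- `X² + X + 1` is irreducible over `𝔽₂`. -/
theorem omegaPoly_irreducible_zmod_two : Irreducible (omegaPoly (ZMod 2)) := by
  apply irreducible_of_degree_le_three_of_not_isRoot
  · rw [omegaPoly_natDegree]; decide
  · intro x
    unfold omegaPoly
    simp only [IsRoot.def, eval_add, eval_pow, eval_X, eval_one]
    revert x
    decide

/-- `ℤ_(2)`, the base ring of the Igusa charts at `ℓ = 2` -/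
abbrev Ztwo : Type := ↥(GaloisRep.ratLocalizedAt 2)

theorem ztwo_isUnit_of_residue_ne_zero (a : Ztwo) (ha : zlResidue 2 a ≠ 0) : IsUnit a := by
  have hmax : (RingHom.ker (zlResidue 2)).IsMaximal :=
    RingHom.ker_isMaximal_of_surjective _ (zlResidue_surjective 2)
  have heq := IsLocalRing.eq_maximalIdeal hmax
  by_contra hu
  have : a ∈ IsLocalRing.maximalIdeal Ztwo := (IsLocalRing.mem_maximalIdeal a).mpr hu
  rw [← heq] at this
  exact ha this

noncomputable instance ztwo_invertible_three : Invertible (3 : Ztwo) := by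
  have : IsUnit (3 : Ztwo) := by
    apply ztwo_isUnit_of_residue_ne_zero
    rw [map_ofNat]
    decide
  exact this.invertible

/-- `ℤ_(2)[ω]`, the base ring of the Hesse cover at `ℓ = 2` -/
abbrev Otwo : Type := OmegaExt Ztwo

/-- the residue map `ℤ_(2)[ω] → 𝔽₄ = 𝔽₂[ω]` -/
noncomputable def otwoResidue : Otwo →+* OmegaExt (ZMod 2) := OmegaExt.map (zlResidue 2)

instance : Fact (Irreducible (omegaPoly (ZMod 2))) := ⟨omegaPoly_irreducible_zmod_two⟩

instance otwo_isDomain : IsDomain Otwo :=
  OmegaExt.isDomain (zlResidue 2) omegaPoly_irreducible_zmod_two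

instance otwo_isDVR : IsDiscreteValuationRing Otwo :=
  OmegaExt.isDiscreteValuationRing (zlResidue 2) ztwo_isUnit_of_residue_ne_zero
    omegaPoly_irreducible_zmod_two (zlPrime 2) (ker_zlResidue 2) (zlPrime_prime 2).ne_zero

theorem otwoResidue_surjective : Function.Surjective otwoResidue :=
  OmegaExt.map_surjective _ (zlResidue_surjective 2)

theorem ker_otwoResidue :
    RingHom.ker otwoResidue = Ideal.span {algebraMap Ztwo Otwo (zlPrime 2)} :=
  OmegaExt.ker_map _ _ (ker_zlResidue 2)

theorem algebraMap_zlPrime_two : algebraMap Ztwo Otwo (zlPrime 2) = 2 := by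
  rw [zlPrime_eq_natCast]
  simp only [Nat.cast_ofNat, map_ofNat]

theorem ker_otwoResidue' : RingHom.ker otwoResidue = Ideal.span {(2 : Otwo)} := by
  rw [ker_otwoResidue, algebraMap_zlPrime_two]

theorem otwo_prime_two : Prime (2 : Otwo) := by
  have hne : (2 : Otwo) ≠ 0 := by
    rw [← algebraMap_zlPrime_two]
    intro h
    exact (zlPrime_prime 2).ne_zero (OmegaExt.algebraMap_injective (by rw [h, map_zero]))
  rw [← Ideal.span_singleton_prime hne, ← ker_otwoResidue']
  exact RingHom.ker_isPrime _

/-- transport of a Hesse datum along a ring homomorphism -/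
@[reducible] def HesseDatum.ofRingHom {Λ Λ' : Type*} [CommRing Λ] [CommRing Λ'] [D : HesseDatum Λ]
    (f : Λ →+* Λ') : HesseDatum Λ' where
  omega := f D.omega
  omega_quad := by
    have := congrArg f D.omega_quad
    simpa using this
  isUnit_three := by
    have := D.isUnit_three.map f
    rwa [map_ofNat] at this

/-- an algebraically closed field of characteristic `≠ 3` carries a Hesse datum -/
@[reducible] noncomputable def HesseDatum.ofIsAlgClosed (k : Type*) [Field k] [IsAlgClosed k]
    (h3 : (3 : k) ≠ 0) : HesseDatum k where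
  omega := (IsAlgClosed.exists_root (omegaPoly k) (by
    rw [degree_eq_natDegree (omegaPoly_monic k).ne_zero, omegaPoly_natDegree]; norm_num)).choose
  omega_quad := by
    have h := (IsAlgClosed.exists_root (omegaPoly k) (by
      rw [degree_eq_natDegree (omegaPoly_monic k).ne_zero, omegaPoly_natDegree]
      norm_num)).choose_spec
    simpa [omegaPoly] using h
  isUnit_three := isUnit_iff_ne_zero.mpr h3

noncomputable instance zmod_two_invertible_three : Invertible (3 : ZMod 2) :=
  ⟨1, by decide, by decide⟩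

/-- `𝔽₄ = 𝔽₂[ω]` -/
abbrev Ffour : Type := OmegaExt (ZMod 2)

theorem otwoResidue_omega :
    otwoResidue (HesseDatum.omega : Otwo) = (HesseDatum.omega : Ffour) := by
  rw [OmegaExt.hesseDatum_omega, OmegaExt.hesseDatum_omega, otwoResidue, OmegaExt.map_ω]

/-- the reduction of the Hesse cover over `ℤ_(2)[ω]` to the Hesse cover over `𝔽₄` -/
noncomputable def otwoCoverHom :
    RigidCover.Hom otwoResidue (HesseRing.cover Otwo) (HesseRing.cover Ffour) :=
  HesseRing.coverHom otwoResidue otwoResidue_omega

end Fermat.Agent.Good
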