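import Fermat.Agent.Good.RigidCoverDefs

/-!
# General consequences of the `RigidCover` axioms

Program L / L-GEN nodes [G-RCL]/[G-RCH], part (d)-(f) of the blueprint, proved once for an
arbitrary `RigidCover Λ G`:

* `RigidCover.isDomain`, `RigidCover.isIntegrallyClosed`, `RigidCover.isPrincipalIdealRing`
  (for `Λ` a domain / integrally closed domain / field);
* `RigidCover.mem_range_algebraMap_of_smul_eq` : for `Λ` a domain the fixed points of `G` are
  exactly `Λ[j]` (Vandermonde argument on the power basis, no field theory);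
* base change along `RigidCover.Hom`: surjectivity, kernel, localisation.
-/

namespace Fermat.Agent.Good

open Polynomial

universe u v

/-- **Invariants via Vandermonde.**  Let a finite group `G` act on a domain `R` by `A`-algebra
automorphisms, and let `x : R` have an injective orbit map.  If `z = ∑_{i < |G|} aᵢ xⁱ` with
`aᵢ ∈ A` is fixed by `G`, then `z = a₀` lies in the image of `A`. -/
theorem mem_range_algebraMap_of_smul_eq {A R G : Type*} [CommRing A] [CommRing R] [IsDomain R]
    [Algebra A R] [Group G] [Fintype G] [MulSemiringAction G R] [SMulCommClass G A R] (x : R)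
    (hinj : Function.Injective fun g : G => g • x) (z : R) (a : Fin (Fintype.card G) → A)
    (hz : z = ∑ i, a i • x ^ (i : ℕ)) (hfix : ∀ g : G, g • z = z) :
    z ∈ (algebraMap A R).range := by
  classical
  let e : G ≃ Fin (Fintype.card G) := Fintype.equivFin G
  let v : Fin (Fintype.card G) → R := fun i => (e.symm i) • x
  have hv : Function.Injective v := hinj.comp e.symm.injective
  have hdet : (Matrix.vandermonde v).det ≠ 0 := Matrix.det_vandermonde_ne_zero_iff.mpr hv
  let i0 : Fin (Fintype.card G) := ⟨0, Fintype.card_pos⟩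
  let w : Fin (Fintype.card G) → R :=
    fun j => algebraMap A R (a j) - (if j = i0 then z else 0)
  have hw : (Matrix.vandermonde v).mulVec w = 0 := by
    funext i
    have h1 : (e.symm i) • z =
        ∑ j : Fin (Fintype.card G), v i ^ (j : ℕ) * algebraMap A R (a j) := by
      conv_lhs => rw [hz]
      rw [Finset.smul_sum]
      refine Finset.sum_congr rfl fun j _ => ?_
      rw [smul_comm, smul_pow', Algebra.smul_def, mul_comm]
    have h2 : ∑ j : Fin (Fintype.card G), v i ^ (j : ℕ) * (if j = i0 then z else 0) = z := by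
      rw [Finset.sum_eq_single i0]
      · simp [i0]
      · intro j _ hj
        rw [if_neg hj, mul_zero]
      · intro h
        exact absurd (Finset.mem_univ _) h
    simp only [Matrix.mulVec, dotProduct, Matrix.vandermonde_apply, Pi.zero_apply, w, mul_sub,
      Finset.sum_sub_distrib]
    rw [← h1, h2, hfix, sub_self]
  have hw0 := Matrix.eq_zero_of_mulVec_eq_zero hdet hw
  have := congrFun hw0 i0
  simp only [w, if_true, Pi.zero_apply, sub_eq_zero] at this
  exact ⟨a i0, this⟩

namespace RigidCover

set_option linter.overlappingInstances false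

variable {Λ : Type u} [CommRing Λ] [Nontrivial Λ] {G : Type} [Group G] [Fintype G]
  (P : RigidCover Λ G)

/-- `P.R` carrying the *coordinate* structure `Λ[T] → R` as its `Λ[X]`-algebra structure
(a type synonym, so that it does not clash with the `j`-structure on `P.R`). -/
def CoordRing : Type u := P.R

noncomputable instance : CommRing P.CoordRing := inferInstanceAs (CommRing P.R)

noncomputable instance : Algebra Λ[X] P.CoordRing := P.coord.toAlgebra

instance : IsLocalization.Away P.c P.CoordRing := P.isLocalization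

lemma powers_c_le : Submonoid.powers P.c ≤ nonZeroDivisors Λ[X] :=
  Submonoid.powers_le.mpr P.c_monic.mem_nonZeroDivisors

lemma coord_injective : Function.Injective P.coord :=
  IsLocalization.injective P.CoordRing P.powers_c_le

lemma isUnit_coord_c : IsUnit (P.coord P.c) :=
  IsLocalization.Away.algebraMap_isUnit (S := P.CoordRing) P.c

/-- every element of `P.R` is `coord p / coord c ^ n` -/
lemma exists_mul_coord_pow_eq (z : P.R) : ∃ (n : ℕ) (p : Λ[X]), z * P.coord P.c ^ n = P.coord p :=
  IsLocalization.Away.surj (S := P.CoordRing) P.c z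

/-- `Λ` a domain ⇒ `P.R` a domain. -/
theorem isDomain [IsDomain Λ] : IsDomain P.R :=
  IsLocalization.isDomain_of_le_nonZeroDivisors (S := P.CoordRing) P.powers_c_le

/-- `Λ` an integrally closed domain ⇒ `P.R` integrally closed. -/
theorem isIntegrallyClosed [IsDomain Λ] [IsIntegrallyClosed Λ] : IsIntegrallyClosed P.R :=
  isIntegrallyClosed_of_isLocalization P.CoordRing (Submonoid.powers P.c) P.powers_c_le

/-- `K` a field ⇒ `P.R` a principal ideal ring (a localisation of `K[T]`). -/
theorem isPrincipalIdealRing {K : Type u} [Field K] (P : RigidCover K G) :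
    IsPrincipalIdealRing P.R := by
  suffices h : ∀ I : Ideal P.CoordRing, I.IsPrincipal from ⟨h⟩
  intro I
  have hI : Ideal.map (algebraMap K[X] P.CoordRing) (Ideal.under K[X] I) = I :=
    IsLocalization.map_under (Submonoid.powers P.c) P.CoordRing I
  obtain ⟨a, ha⟩ := (IsPrincipalIdealRing.principal (Ideal.under K[X] I)).principal
  refine ⟨⟨algebraMap K[X] P.CoordRing a, ?_⟩⟩
  rw [← hI, ha]
  exact (Ideal.map_span _ _).trans (by rw [Set.image_singleton])

/-- the structure map `Λ[j] → P.R` is injective -/
lemma algebraMap_injective : Function.Injective (algebraMap Λ[X] P.R) := by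
  intro p q h
  have hcard : 0 < Fintype.card G := Fintype.card_pos
  have h1 : P.basis ⟨0, hcard⟩ = 1 := by rw [P.basis_apply]; exact pow_zero _
  have : p • P.basis ⟨0, hcard⟩ = q • P.basis ⟨0, hcard⟩ := by
    rw [h1, Algebra.smul_def, Algebra.smul_def, mul_one, mul_one, h]
  have h2 := congrArg (fun m => P.basis.repr m ⟨0, hcard⟩) this
  simpa only [map_smul, Module.Basis.repr_self, Finsupp.smul_apply, Finsupp.single_eq_same,
    smul_eq_mul, mul_one] using h2

instance instModuleFree : Module.Free Λ[X] P.R := .of_basis P.basis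

instance instModuleFinite : Module.Finite Λ[X] P.R := .of_basis P.basis

lemma finrank_eq : Module.finrank Λ[X] P.R = Fintype.card G := by
  rw [Module.finrank_eq_card_basis P.basis, Fintype.card_fin]

lemma eq_sum_repr (z : P.R) :
    z = ∑ i, (P.basis.repr z i) • P.t ^ (i : ℕ) := by
  conv_lhs => rw [← P.basis.sum_repr z]
  exact Finset.sum_congr rfl fun i _ => by rw [P.basis_apply]

/-- **Invariants**: for `Λ` a domain, the fixed points of `G` on `P.R` are exactly `Λ[j]`. -/
theorem mem_range_algebraMap_of_smul_eq [IsDomain Λ] (z : P.R) (hz : ∀ g : G, g • z = z) :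
    z ∈ (algebraMap Λ[X] P.R).range := by
  have := P.isDomain
  exact Fermat.Agent.Good.mem_range_algebraMap_of_smul_eq P.t P.smul_t_injective z _
    (P.eq_sum_repr z) hz

lemma smul_algebraMap (g : G) (p : Λ[X]) : g • algebraMap Λ[X] P.R p = algebraMap Λ[X] P.R p := by
  rw [Algebra.algebraMap_eq_smul_one, smul_comm, smul_one]

/-- the fixed points of `G` on `P.R` are exactly the image of `Λ[j]` (iff form) -/
theorem forall_smul_eq_iff [IsDomain Λ] (z : P.R) :
    (∀ g : G, g • z = z) ↔ z ∈ (algebraMap Λ[X] P.R).range :=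
  ⟨P.mem_range_algebraMap_of_smul_eq z, by rintro ⟨p, rfl⟩ g; exact P.smul_algebraMap g p⟩

/-- the action is faithful -/
instance instFaithfulSMul : FaithfulSMul G P.R where
  eq_of_smul_eq_smul h := P.smul_t_injective (h P.t)

/-- the constants `Λ → P.R` -/
noncomputable def const : Λ →+* P.R := (algebraMap Λ[X] P.R).comp C

lemma const_apply (a : Λ) : P.const a = algebraMap Λ[X] P.R (C a) := rfl

lemma coord_C' (a : Λ) : P.coord (C a) = P.const a := P.coord_C a

lemma const_injective : Function.Injective P.const :=
  P.algebraMap_injective.comp C_injective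

end RigidCover

namespace RigidCover.Hom

set_option linter.overlappingInstances false
set_option linter.style.haveILetI false

variable {Λ : Type u} [CommRing Λ] [Nontrivial Λ] {Λ' : Type v} [CommRing Λ'] [Nontrivial Λ']
  {G : Type} [Group G] [Fintype G] {f : Λ →+* Λ'} {P : RigidCover Λ G} {P' : RigidCover Λ' G}
  (φ : RigidCover.Hom f P P')

lemma map_basis (i : Fin (Fintype.card G)) : φ.toRingHom (P.basis i) = P'.basis i := by
  rw [P.basis_apply, P'.basis_apply, map_pow, φ.map_t]

lemma map_const (a : Λ) : φ.toRingHom (P.const a) = P'.const (f a) := by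
  rw [RigidCover.const_apply, φ.map_algebraMap, Polynomial.map_C, RigidCover.const_apply]

lemma map_sum_smul (a : Fin (Fintype.card G) → Λ[X]) :
    φ.toRingHom (∑ i, a i • P.basis i) = ∑ i, (a i).map f • P'.basis i := by
  rw [map_sum]
  refine Finset.sum_congr rfl fun i _ => ?_
  rw [Algebra.smul_def, map_mul, φ.map_algebraMap, φ.map_basis, ← Algebra.smul_def]

lemma repr_map (z : P.R) (i : Fin (Fintype.card G)) :
    P'.basis.repr (φ.toRingHom z) i = (P.basis.repr z i).map f := by
  conv_lhs => rw [← P.basis.sum_repr z, φ.map_sum_smul]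
  rw [P'.basis.repr_sum_self]

lemma map_eq_zero_iff (z : P.R) :
    φ.toRingHom z = 0 ↔ ∀ i, (P.basis.repr z i).map f = 0 := by
  constructor
  · intro h i
    rw [← φ.repr_map, h, map_zero, Finsupp.zero_apply]
  · intro h
    conv_lhs => rw [← P.basis.sum_repr z, φ.map_sum_smul]
    exact Finset.sum_eq_zero fun i _ => by rw [h i, zero_smul]

/-- base change along a surjection is surjective -/
theorem surjective (hf : Function.Surjective f) : Function.Surjective φ.toRingHom := by
  intro z'
  choose a ha using fun i => Polynomial.map_surjective f hf (P'.basis.repr z' i)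
  refine ⟨∑ i, a i • P.basis i, ?_⟩
  rw [φ.map_sum_smul]
  conv_rhs => rw [← P'.basis.sum_repr z']
  exact Finset.sum_congr rfl fun i _ => by rw [ha i]

/-- the kernel of a base change map is generated by the kernel of `f` -/
theorem ker_eq : RingHom.ker φ.toRingHom = Ideal.map P.const (RingHom.ker f) := by
  apply le_antisymm
  · intro z hz
    rw [RingHom.mem_ker, φ.map_eq_zero_iff] at hz
    rw [← P.basis.sum_repr z]
    refine Ideal.sum_mem _ fun i _ => ?_
    rw [Algebra.smul_def]
    refine Ideal.mul_mem_right _ _ ?_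
    have hi : P.basis.repr z i ∈ Ideal.map (C : Λ →+* Λ[X]) (RingHom.ker f) := by
      rw [← Polynomial.ker_mapRingHom, RingHom.mem_ker, coe_mapRingHom]
      exact hz i
    have hmap : Ideal.map (algebraMap Λ[X] P.R) (Ideal.map (C : Λ →+* Λ[X]) (RingHom.ker f)) =
        Ideal.map P.const (RingHom.ker f) := Ideal.map_map _ _
    rw [← hmap]
    exact Ideal.mem_map_of_mem _ hi
  · rw [Ideal.map_le_iff_le_comap]
    intro a ha
    rw [Ideal.mem_comap, RingHom.mem_ker, φ.map_const, RingHom.mem_ker.mp ha, map_zero]

theorem ker_eq_span_singleton {π : Λ} (hπ : RingHom.ker f = Ideal.span {π}) :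
    RingHom.ker φ.toRingHom = Ideal.span {P.const π} := by
  rw [φ.ker_eq, hπ, Ideal.map_span, Set.image_singleton]

include φ in
/-- reduction: if `f` is onto a domain then `(ker f) R` is a prime ideal of `P.R` -/
theorem isPrime_map_ker [IsDomain Λ'] : (Ideal.map P.const (RingHom.ker f)).IsPrime := by
  have := P'.isDomain
  rw [← φ.ker_eq]
  exact RingHom.ker_isPrime φ.toRingHom

include φ in
theorem prime_const [IsDomain Λ'] {π : Λ} (hπ : RingHom.ker f = Ideal.span {π}) (hπ0 : π ≠ 0) :
    Prime (P.const π) := by
  have h := φ.isPrime_map_ker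
  rw [hπ, Ideal.map_span, Set.image_singleton] at h
  exact (Ideal.span_singleton_prime
    (fun h0 => hπ0 (P.const_injective (h0.trans (map_zero _).symm)))).mp h

/-- `P.R / (π) ≃ P'.R` when `f : Λ → Λ'` is onto with kernel `(π)`. -/
noncomputable def quotientEquiv (hf : Function.Surjective f) {π : Λ}
    (hπ : RingHom.ker f = Ideal.span {π}) :
    (P.R ⧸ Ideal.span {P.const π}) ≃+* P'.R :=
  (Ideal.quotEquivOfEq (φ.ker_eq_span_singleton hπ).symm).trans
    (RingHom.quotientKerEquivOfSurjective (φ.surjective hf))

@[simp] lemma quotientEquiv_mk (hf : Function.Surjective f) {π : Λ}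
    (hπ : RingHom.ker f = Ideal.span {π}) (z : P.R) :
    φ.quotientEquiv hf hπ (Ideal.Quotient.mk _ z) = φ.toRingHom z := rfl

/-- **Localisation**: if `Λ' = Λ[1/π]` then `P'.R = P.R[1/π]`. -/
theorem isLocalization_away [Algebra Λ Λ'] (hf : f = algebraMap Λ Λ') (π : Λ)
    [IsLocalization.Away π Λ'] :
    @IsLocalization.Away P.R _ (P.const π) P'.R _ φ.toRingHom.toAlgebra := by
  subst hf
  -- the four rings `Λ[T]`, `S₁ = P.R`, `S₂ = Λ'[T]`, `T = P'.R`
  letI a1 : Algebra Λ[X] P.R := P.coord.toAlgebra
  letI a2 : Algebra Λ[X] Λ'[X] := (mapRingHom (algebraMap Λ Λ')).toAlgebra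
  letI a3 : Algebra Λ'[X] P'.R := P'.coord.toAlgebra
  letI a4 : Algebra P.R P'.R := φ.toRingHom.toAlgebra
  letI a5 : Algebra Λ[X] P'.R := (P'.coord.comp (mapRingHom (algebraMap Λ Λ'))).toAlgebra
  haveI t1 : IsScalarTower Λ[X] P.R P'.R := .of_algebraMap_eq fun p => by
    show P'.coord (p.map _) = φ.toRingHom (P.coord p)
    rw [φ.map_coord]
  haveI t2 : IsScalarTower Λ[X] Λ'[X] P'.R := .of_algebraMap_eq fun p => rfl
  haveI l1 : IsLocalization.Away P.c P.R := P.isLocalization
  haveI l2 : IsLocalization.Away (C π : Λ[X]) Λ'[X] := by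
    have h := Polynomial.isLocalization (Submonoid.powers π) Λ'
    have e : (Submonoid.powers π).map (C : Λ →+* Λ[X]) = Submonoid.powers (C π) :=
      Submonoid.map_powers _ _
    rw [e] at h
    convert h
  haveI l3 : IsLocalization.Away (algebraMap Λ[X] Λ'[X] P.c) P'.R := by
    show IsLocalization.Away (P.c.map (algebraMap Λ Λ')) P'.R
    rw [φ.map_c]
    exact P'.isLocalization
  have key := IsLocalization.Away.commutes (R := Λ[X]) P.R Λ'[X] P'.R P.c (C π)
  have e : algebraMap Λ[X] P.R (C π) = P.const π := P.coord_C π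
  rw [e] at key
  exact key

/-- the special fibre of a rigid cover over a base with residue field `Λ'` is a PID -/
theorem isPrincipalIdealRing_quotient {Λ' : Type u} [Field Λ'] {f : Λ →+* Λ'}
    {P' : RigidCover Λ' G} (φ : RigidCover.Hom f P P') (hf : Function.Surjective f) {π : Λ}
    (hπ : RingHom.ker f = Ideal.span {π}) :
    IsPrincipalIdealRing (P.R ⧸ Ideal.span {P.const π}) := by
  have := P'.isPrincipalIdealRing
  exact IsPrincipalIdealRing.of_surjective (φ.quotientEquiv hf hπ).symm.toRingHom
    (φ.quotientEquiv hf hπ).symm.surjective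

/-- the generic fibre `P.R[1/π]` of a rigid cover over a base with fraction field `Λ' = Λ[1/π]`
is a PID -/
theorem isPrincipalIdealRing_localizationAway {Λ' : Type u} [Field Λ'] [Algebra Λ Λ']
    {f : Λ →+* Λ'} {P' : RigidCover Λ' G} (φ : RigidCover.Hom f P P')
    (hf : f = algebraMap Λ Λ') (π : Λ) [IsLocalization.Away π Λ'] :
    IsPrincipalIdealRing (Localization.Away (P.const π)) := by
  have := P'.isPrincipalIdealRing
  letI : Algebra P.R P'.R := φ.toRingHom.toAlgebra
  haveI : IsLocalization.Away (P.const π) P'.R := φ.isLocalization_away hf π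
  let e : P'.R ≃ₐ[P.R] Localization.Away (P.const π) :=
    IsLocalization.algEquiv (Submonoid.powers (P.const π)) _ _
  exact IsPrincipalIdealRing.of_surjective e.toRingEquiv.toRingHom e.surjective

end RigidCover.Hom

end Fermat.Agent.Good
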