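/-
L-GEN (Program L, S18), node [G-INST-ODD], part 1: everything about the instantiation of the
abstract GOODQUOT assembly at `O = ℤ_(ℓ)`, `F = F_N`, `X ↦ j` that does not depend on the final
shape of `Good/GoodQuot.lean`.

* base ring: `2` (resp. `3`) invertible in `ℤ_(ℓ)` for `ℓ ≠ 2` (resp. `ℓ ≠ 3`), kernel of
  `ℤ_(ℓ) → k` for a field `k` of characteristic `ℓ`, `|S₃| = 6` invertible in `k` for `ℓ ≥ 5`;
* the Legendre triple `legendreCover ℤ_(ℓ)`, `legendreCover k`, `legendreHom`;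
* `polyAlgebraFull N ℓ : Algebra ℤ_(ℓ)[X] F_N` (`X ↦ j`), injective;
* `integralClosure ℤ_(ℓ)[X] F_N = chartAlgFin N ℓ` and the equivalence `b0Equiv`;
* `Module.Finite ℤ_(ℓ)[X] (integralClosure ℤ_(ℓ)[X] F_N)`.

The transfer of `IsDomain` / `IsIntegrallyClosed` between `k ⊗ integralClosure ℤ_(ℓ)[X] F_N` and
`chartAlgFin N ℓ ⊗ k` is done generically in `Good/IntClosureTransfer.lean`.
-/
import Mathlib
import Fermat.Agent.Good.IgusaExtract
import Fermat.Agent.Good.LegendreCover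
import Fermat.Agent.Good.RigidCoverLemmas

set_option autoImplicit false
set_option linter.unusedSectionVars false
set_option linter.style.haveILetI false
open ModularCurve ModularCurve.IgusaScheme IntermediateField Polynomial TensorProduct
open Fermat.Agent.Igusa

noncomputable section
namespace Fermat.Agent.Good.InstOdd

/-! ### The base ring `ℤ_(ℓ)` -/

section Base

variable (ℓ : ℕ) [Fact ℓ.Prime]

set_option quotPrecheck false in
local notation "ℤℓ" => ↥(GaloisRep.ratLocalizedAt ℓ)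

/-- A natural number prime to `ℓ` is a unit of `ℤ_(ℓ)`. -/
theorem isUnit_natCast_zl {n : ℕ} (hn : ¬ ℓ ∣ n) : IsUnit ((n : ℕ) : ℤℓ) := by
  have hℓ : ℓ.Prime := Fact.out
  have hn0 : n ≠ 0 := by rintro rfl; exact hn (dvd_zero _)
  have hmem : ((n : ℚ))⁻¹ ∈ GaloisRep.ratLocalizedAt ℓ := by
    show ((n : ℚ))⁻¹.den.Coprime ℓ
    rw [Rat.inv_natCast_den_of_pos (Nat.pos_of_ne_zero hn0)]
    exact ((Nat.Prime.coprime_iff_not_dvd hℓ).mpr hn).symm
  refine IsUnit.of_mul_eq_one ⟨_, hmem⟩ (Subtype.ext ?_)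
  rw [Subring.coe_mul, Subring.coe_natCast, Subring.coe_one]
  exact mul_inv_cancel₀ (by exact_mod_cast hn0)

/-- `2` is invertible in `ℤ_(ℓ)` for `ℓ` odd. -/
@[instance_reducible]
def invertibleTwo (hℓ2 : ℓ ≠ 2) : Invertible (2 : ℤℓ) := by
  have h : IsUnit (((2 : ℕ) : ℕ) : ℤℓ) := isUnit_natCast_zl ℓ (n := 2) (by
    intro h
    exact hℓ2 ((Nat.prime_dvd_prime_iff_eq Fact.out Nat.prime_two).mp h))
  have h' : IsUnit (2 : ℤℓ) := by simpa using h
  exact h'.invertible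

/-- `3` is invertible in `ℤ_(ℓ)` for `ℓ ≠ 3`. -/
@[instance_reducible]
def invertibleThree (hℓ3 : ℓ ≠ 3) : Invertible (3 : ℤℓ) := by
  have h : IsUnit (((3 : ℕ) : ℕ) : ℤℓ) := isUnit_natCast_zl ℓ (n := 3) (by
    intro h
    exact hℓ3 ((Nat.prime_dvd_prime_iff_eq Fact.out Nat.prime_three).mp h))
  have h' : IsUnit (3 : ℤℓ) := by simpa using h
  exact h'.invertible

variable (k : Type*) [Field k] [CharP k ℓ] [Algebra ↥(GaloisRep.ratLocalizedAt ℓ) k]

/-- The kernel of `ℤ_(ℓ) → k` is generated by `ℓ`, for every field `k` of characteristic `ℓ`. -/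
theorem ker_algebraMap_zl : RingHom.ker (algebraMap ℤℓ k) = Ideal.span {zlPrime ℓ} := by
  rw [zl_algebraMap_eq ℓ k, ← ker_zlResidue ℓ]
  ext x
  rw [RingHom.mem_ker, RingHom.mem_ker, RingHom.comp_apply]
  letI := ZMod.algebra k ℓ
  exact map_eq_zero_iff _ (algebraMap (ZMod ℓ) k).injective

theorem algebraMap_zlPrime : algebraMap ℤℓ k (zlPrime ℓ) = 0 := by
  have h : zlPrime ℓ ∈ RingHom.ker (algebraMap ℤℓ k) := by
    rw [ker_algebraMap_zl]
    exact Ideal.mem_span_singleton_self _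
  exact h

/-- A natural number prime to `ℓ` is a unit of `k`. -/
theorem isUnit_natCast_of_not_dvd {n : ℕ} (hn : ¬ ℓ ∣ n) : IsUnit ((n : ℕ) : k) := by
  rw [isUnit_iff_ne_zero, Ne, CharP.cast_eq_zero_iff k ℓ]
  exact hn

/-- `2` is invertible in `k` for `ℓ` odd. -/
@[instance_reducible]
def invertibleTwoField (hℓ2 : ℓ ≠ 2) : Invertible (2 : k) := by
  have h : IsUnit (((2 : ℕ) : ℕ) : k) := isUnit_natCast_of_not_dvd ℓ k (n := 2) (by
    intro h
    exact hℓ2 ((Nat.prime_dvd_prime_iff_eq Fact.out Nat.prime_two).mp h))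
  have h' : IsUnit (2 : k) := by simpa using h
  exact h'.invertible

/-- The order of the Legendre group `S₃` is invertible in `k` for `ℓ ≥ 5`: the tame case. -/
theorem isUnit_card_legG (hℓ2 : ℓ ≠ 2) (hℓ3 : ℓ ≠ 3) :
    IsUnit ((Fintype.card LegG : ℕ) : k) := by
  rw [LegG.card_eq]
  apply isUnit_natCast_of_not_dvd ℓ k
  intro h
  have hℓ : ℓ.Prime := Fact.out
  have h6 : (6 : ℕ) = 2 * 3 := by norm_num
  rw [h6] at h
  rcases (Nat.Prime.dvd_mul hℓ).mp h with h | h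
  · exact hℓ2 ((Nat.prime_dvd_prime_iff_eq hℓ Nat.prime_two).mp h)
  · exact hℓ3 ((Nat.prime_dvd_prime_iff_eq hℓ Nat.prime_three).mp h)

end Base

/-! ### The polynomial structure `ℤ_(ℓ)[X] → F_N`, `X ↦ j` -/

section Poly

variable (N : ℕ) [NeZero N] (ℓ : ℕ) [Fact ℓ.Prime]

set_option quotPrecheck false in
local notation "ℤℓ" => ↥(GaloisRep.ratLocalizedAt ℓ)

set_option quotPrecheck false in
local notation "F" => ↥(modularFunctionFieldFull N)

attribute [local instance] chartBaseAlgebra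
attribute [local instance 2000] chartBaseSMul S28X.chartBaseModule

/-- The structure of `ℤ_(ℓ)[X]`-algebra on `F_N`, `X ↦ j`; use with `letI`. -/
@[reducible]
def polyAlgebraFull : Algebra ℤℓ[X] F := (Polynomial.aeval (jFull N)).toRingHom.toAlgebra

theorem polyAlgebraFull_algebraMap (P : ℤℓ[X]) :
    letI := polyAlgebraFull N ℓ
    algebraMap ℤℓ[X] F P = Polynomial.aeval (jFull N) P := rfl

theorem polyAlgebraFull_isScalarTower :
    letI := polyAlgebraFull N ℓ
    IsScalarTower ℤℓ ℤℓ[X] F := by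
  letI := polyAlgebraFull N ℓ
  refine IsScalarTower.of_algebraMap_eq fun r => ?_
  rw [polyAlgebraFull_algebraMap, Polynomial.algebraMap_apply, Polynomial.aeval_C]
  rfl

theorem polyAlgebraFull_injective :
    letI := polyAlgebraFull N ℓ
    Function.Injective (algebraMap ℤℓ[X] F) :=
  transcendental_iff_injective.mp (ChartBaseAux.transcendental_jFull_zl N ℓ)

theorem polyAlgebraFull_algebraMap_X :
    letI := polyAlgebraFull N ℓ
    algebraMap ℤℓ[X] F X = jFull N := by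
  rw [polyAlgebraFull_algebraMap, aeval_X]

/-- The image of `P : ℤ_(ℓ)[X]` in `F_N` through `ℤ_(ℓ)[j]`. -/
theorem coe_aeval_jAdjFin (P : ℤℓ[X]) :
    ((Polynomial.aeval (R := ℤℓ) (ChartBaseAux.jAdjFin N ℓ) P :
      ↥(Algebra.adjoin ℤℓ ({jFull N} : Set F))) : F) = Polynomial.aeval (jFull N) P := by
  rw [← Subalgebra.coe_val, ← Polynomial.aeval_algHom_apply]
  rfl

/-- **`integralClosure ℤ_(ℓ)[X] F_N = chartAlgFin N ℓ`.** -/
theorem mem_integralClosure_poly_iff (x : F) :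
    letI := polyAlgebraFull N ℓ
    x ∈ integralClosure ℤℓ[X] F ↔ x ∈ chartAlgFin N ℓ := by
  letI := polyAlgebraFull N ℓ
  letI : Algebra ℤℓ[X] ↥(Algebra.adjoin ℤℓ ({jFull N} : Set F)) :=
    (Polynomial.aeval (R := ℤℓ) (ChartBaseAux.jAdjFin N ℓ)).toRingHom.toAlgebra
  haveI : IsScalarTower ℤℓ[X] ↥(Algebra.adjoin ℤℓ ({jFull N} : Set F)) F :=
    IsScalarTower.of_algebraMap_eq fun P => (coe_aeval_jAdjFin N ℓ P).symm
  haveI : Algebra.IsIntegral ℤℓ[X] ↥(Algebra.adjoin ℤℓ ({jFull N} : Set F)) :=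
    Algebra.isIntegral_of_surjective (S28X.aeval_jAdjFin_surjective N ℓ)
  rw [mem_integralClosure_iff, mem_chartAlg_iff]
  constructor
  · intro h
    exact h.tower_top
  · intro h
    exact isIntegral_trans (A := ↥(Algebra.adjoin ℤℓ ({jFull N} : Set F))) x h

/-- The equivalence `integralClosure ℤ_(ℓ)[X] F_N ≃ chartAlgFin N ℓ` (identity on elements). -/
def b0Equiv :
    letI := polyAlgebraFull N ℓ
    haveI := polyAlgebraFull_isScalarTower N ℓ
    ↥(integralClosure ℤℓ[X] F) ≃ₐ[ℤℓ] ↥(chartAlgFin N ℓ) :=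
  letI := polyAlgebraFull N ℓ
  haveI := polyAlgebraFull_isScalarTower N ℓ
  { toFun := fun x => ⟨x.1, (mem_integralClosure_poly_iff N ℓ x.1).mp x.2⟩
    invFun := fun x => ⟨x.1, (mem_integralClosure_poly_iff N ℓ x.1).mpr x.2⟩
    left_inv := fun _ => rfl
    right_inv := fun _ => rfl
    map_mul' := fun _ _ => rfl
    map_add' := fun _ _ => rfl
    commutes' := fun r => Subtype.ext (by
      show ((algebraMap ℤℓ ↥(integralClosure ℤℓ[X] F) r : ↥(integralClosure ℤℓ[X] F)) : F) =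
        ((algebraMap ℤℓ ↥(chartAlgFin N ℓ) r : ↥(chartAlgFin N ℓ)) : F)
      rfl) }

theorem coe_b0Equiv :
    letI := polyAlgebraFull N ℓ
    haveI := polyAlgebraFull_isScalarTower N ℓ
    ∀ x : ↥(integralClosure ℤℓ[X] F), ((b0Equiv N ℓ x : ↥(chartAlgFin N ℓ)) : F) = (x : F) :=
  fun _ => rfl

theorem coe_b0Equiv_symm :
    letI := polyAlgebraFull N ℓ
    haveI := polyAlgebraFull_isScalarTower N ℓ
    ∀ x : ↥(chartAlgFin N ℓ), (((b0Equiv N ℓ).symm x : ↥(integralClosure ℤℓ[X] F)) : F) = (x : F) :=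
  fun _ => rfl

/-- `b0Equiv` is `ℤ_(ℓ)[X]`-linear. -/
theorem b0Equiv_smul :
    letI := polyAlgebraFull N ℓ
    haveI := polyAlgebraFull_isScalarTower N ℓ
    letI := S28X.polyAlgebraFin N ℓ
    ∀ (P : ℤℓ[X]) (x : ↥(integralClosure ℤℓ[X] F)), b0Equiv N ℓ (P • x) = P • b0Equiv N ℓ x := by
  letI := polyAlgebraFull N ℓ
  haveI := polyAlgebraFull_isScalarTower N ℓ
  letI := S28X.polyAlgebraFin N ℓ
  intro P x
  apply Subtype.ext
  have h1 : ((b0Equiv N ℓ (P • x) : ↥(chartAlgFin N ℓ)) : F) =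
      Polynomial.aeval (jFull N) P * (x : F) := by
    rw [coe_b0Equiv, Algebra.smul_def]
    rfl
  have h2 : ((P • b0Equiv N ℓ x : ↥(chartAlgFin N ℓ)) : F) =
      Polynomial.aeval (jFull N) P * (x : F) := by
    rw [Algebra.smul_def, S28X.polyAlgebraFin_algebraMap]
    show ((Polynomial.aeval (jChartFin N ℓ) P : ↥(chartAlgFin N ℓ)) : F) *
      ((b0Equiv N ℓ x : ↥(chartAlgFin N ℓ)) : F) = _
    rw [coe_b0Equiv, ← Subalgebra.coe_val (chartAlgFin N ℓ), ← Polynomial.aeval_algHom_apply]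
    rfl
  rw [h1, h2]

/-- `integralClosure ℤ_(ℓ)[X] F_N` is a finite `ℤ_(ℓ)[X]`-module. -/
theorem finite_integralClosure_poly :
    letI := polyAlgebraFull N ℓ
    Module.Finite ℤℓ[X] ↥(integralClosure ℤℓ[X] F) := by
  letI := polyAlgebraFull N ℓ
  haveI := polyAlgebraFull_isScalarTower N ℓ
  letI := S28X.polyAlgebraFin N ℓ
  haveI := S28X.finite_poly_chartAlgFin N ℓ
  let e : ↥(chartAlgFin N ℓ) ≃ₗ[ℤℓ[X]] ↥(integralClosure ℤℓ[X] F) :=
    { (b0Equiv N ℓ).symm.toAddEquiv with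
      map_smul' := fun P x => by
        show (b0Equiv N ℓ).symm (P • x) = P • (b0Equiv N ℓ).symm x
        apply (b0Equiv N ℓ).injective
        rw [b0Equiv_smul, AlgEquiv.apply_symm_apply, AlgEquiv.apply_symm_apply] }
  exact Module.Finite.equiv e

end Poly

end Fermat.Agent.Good.InstOdd
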