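/-
L-GEN (Program L, S18), node [G-INST-ODD], part 2: the generic fibre over `ℚ`.

`A₀ = ℚ[X] → F_N`, `X ↦ j`; `K₀ = ℚ(j) = ℚ⟮jFull N⟯ ⊆ F_N` as a fraction field of `ℚ[X]`;
`B₀ = integralClosure ℚ[X] F_N` is a Dedekind domain, finite and torsion free over `ℚ[X]`, with
fraction field `F_N`; `F_N / ℚ(j)` is finite separable.  These are the `A₀, B₀, K₀, F` inputs of
helper20's Abhyankar-lite (`Good/AbhyankarLocal.lean`).
-/
import Mathlib
import Fermat.Agent.Good.InstOddBase
import Fermat.Agent.Good.FracBridge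

set_option autoImplicit false
set_option linter.unusedSectionVars false
set_option linter.style.haveILetI false
open ModularCurve ModularCurve.IgusaScheme IntermediateField Polynomial
open Fermat.Agent.Igusa
open scoped IntermediateField.algebraAdjoinAdjoin

noncomputable section
namespace Fermat.Agent.Good.InstOdd

section QSide

variable (N : ℕ) [NeZero N]

set_option quotPrecheck false in
local notation "F" => ↥(modularFunctionFieldFull N)

/-- The structure of `ℚ[X]`-algebra on `F_N`, `X ↦ j`; use with `letI`. -/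
@[reducible]
def polyAlgebraFullQ : Algebra ℚ[X] F := (Polynomial.aeval (jFull N)).toRingHom.toAlgebra

theorem polyAlgebraFullQ_algebraMap (P : ℚ[X]) :
    letI := polyAlgebraFullQ N
    algebraMap ℚ[X] F P = Polynomial.aeval (jFull N) P := rfl

theorem polyAlgebraFullQ_isScalarTower :
    letI := polyAlgebraFullQ N
    IsScalarTower ℚ ℚ[X] F := by
  letI := polyAlgebraFullQ N
  refine IsScalarTower.of_algebraMap_eq fun r => ?_
  rw [polyAlgebraFullQ_algebraMap, Polynomial.algebraMap_apply, Polynomial.aeval_C]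
  rfl

theorem polyAlgebraFullQ_injective :
    letI := polyAlgebraFullQ N
    Function.Injective (algebraMap ℚ[X] F) :=
  transcendental_iff_injective.mp (ChartBaseAux.transcendental_jFull_rat N)

/-- `j` as an element of `ℚ(j)`. -/
def jQj : ↥ℚ⟮jFull N⟯ := ⟨jFull N, IntermediateField.mem_adjoin_simple_self ℚ _⟩

/-- The structure of `ℚ[X]`-algebra on `ℚ(j)`, `X ↦ j`; use with `letI`. -/
@[reducible]
def polyAlgebraQj : Algebra ℚ[X] ↥ℚ⟮jFull N⟯ := (Polynomial.aeval (jQj N)).toRingHom.toAlgebra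

theorem polyAlgebraQj_algebraMap (P : ℚ[X]) :
    letI := polyAlgebraQj N
    algebraMap ℚ[X] ↥ℚ⟮jFull N⟯ P = Polynomial.aeval (jQj N) P := rfl

theorem coe_aeval_jQj (P : ℚ[X]) :
    ((Polynomial.aeval (jQj N) P : ↥ℚ⟮jFull N⟯) : F) = Polynomial.aeval (jFull N) P := by
  rw [← IntermediateField.coe_val, ← Polynomial.aeval_algHom_apply]
  rfl

theorem polyAlgebraQj_isScalarTower :
    letI := polyAlgebraFullQ N
    letI := polyAlgebraQj N
    IsScalarTower ℚ[X] ↥ℚ⟮jFull N⟯ F := by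
  letI := polyAlgebraFullQ N
  letI := polyAlgebraQj N
  refine IsScalarTower.of_algebraMap_eq fun P => ?_
  rw [polyAlgebraFullQ_algebraMap, polyAlgebraQj_algebraMap]
  exact (coe_aeval_jQj N P).symm

/-- `ℚ(j)` is the fraction field of `ℚ[X]` (`X ↦ j`). -/
theorem polyAlgebraQj_isFractionRing :
    letI := polyAlgebraQj N
    IsFractionRing ℚ[X] ↥ℚ⟮jFull N⟯ := by
  letI := polyAlgebraQj N
  -- `ℚ[X] → ℚ[j]` is bijective and `ℚ(j) = Frac ℚ[j]`
  let f : ℚ[X] →+* ↥(Algebra.adjoin ℚ ({jFull N} : Set F)) :=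
    (Polynomial.aeval (R := ℚ)
      (⟨jFull N, Algebra.subset_adjoin (Set.mem_singleton _)⟩ :
        ↥(Algebra.adjoin ℚ ({jFull N} : Set F)))).toRingHom
  have hf_coe : ∀ P : ℚ[X], ((f P : ↥(Algebra.adjoin ℚ ({jFull N} : Set F))) : F) =
      Polynomial.aeval (jFull N) P := by
    intro P
    show ((Polynomial.aeval (R := ℚ) (⟨jFull N, Algebra.subset_adjoin (Set.mem_singleton _)⟩ :
        ↥(Algebra.adjoin ℚ ({jFull N} : Set F))) P : ↥(Algebra.adjoin ℚ ({jFull N} : Set F))) : F)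
      = _
    rw [← Subalgebra.coe_val, ← Polynomial.aeval_algHom_apply]
    rfl
  have hf : Function.Bijective f := by
    constructor
    · intro P Q hPQ
      apply polyAlgebraFullQ_injective N
      have := congrArg (fun z : ↥(Algebra.adjoin ℚ ({jFull N} : Set F)) => (z : F)) hPQ
      simp only [hf_coe] at this
      exact this
    · rintro ⟨x, hx⟩
      rw [Algebra.adjoin_singleton_eq_range_aeval] at hx
      obtain ⟨P, rfl⟩ := hx
      exact ⟨P, Subtype.ext (hf_coe P)⟩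
  refine FracBridge.isFractionRing_of_bijective
    (A := ↥(Algebra.adjoin ℚ ({jFull N} : Set F))) (K := ↥ℚ⟮jFull N⟯) f hf fun P => ?_
  apply Subtype.ext
  rw [polyAlgebraQj_algebraMap, coe_aeval_jQj, ← hf_coe]
  rfl

/-- `F_N / ℚ(j)` is separable (characteristic zero). -/
theorem isSeparable_full_Qj : Algebra.IsSeparable ↥ℚ⟮jFull N⟯ F := by
  haveI := finiteDimensional_full N
  infer_instance

/-- The integral closure of `ℚ[X]` in `F_N` is a Dedekind domain. -/
theorem isDedekindDomain_integralClosureQ :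
    letI := polyAlgebraFullQ N
    IsDedekindDomain ↥(integralClosure ℚ[X] F) := by
  letI := polyAlgebraFullQ N
  letI := polyAlgebraQj N
  haveI := polyAlgebraQj_isScalarTower N
  haveI := polyAlgebraQj_isFractionRing N
  haveI := finiteDimensional_full N
  haveI := isSeparable_full_Qj N
  exact integralClosure.isDedekindDomain ℚ[X] ↥ℚ⟮jFull N⟯ F

/-- The integral closure of `ℚ[X]` in `F_N` is a finite `ℚ[X]`-module. -/
theorem finite_integralClosureQ :
    letI := polyAlgebraFullQ N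
    Module.Finite ℚ[X] ↥(integralClosure ℚ[X] F) := by
  letI := polyAlgebraFullQ N
  letI := polyAlgebraQj N
  haveI := polyAlgebraQj_isScalarTower N
  haveI := polyAlgebraQj_isFractionRing N
  haveI := finiteDimensional_full N
  haveI := isSeparable_full_Qj N
  exact IsIntegralClosure.finite ℚ[X] ↥ℚ⟮jFull N⟯ F ↥(integralClosure ℚ[X] F)

/-- `F_N` is the fraction field of the integral closure of `ℚ[X]`. -/
theorem isFractionRing_integralClosureQ :
    letI := polyAlgebraFullQ N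
    IsFractionRing ↥(integralClosure ℚ[X] F) F := by
  letI := polyAlgebraFullQ N
  letI := polyAlgebraQj N
  haveI := polyAlgebraQj_isScalarTower N
  haveI := polyAlgebraQj_isFractionRing N
  haveI := finiteDimensional_full N
  exact integralClosure.isFractionRing_of_finite_extension ↥ℚ⟮jFull N⟯ F

/-- The integral closure of `ℚ[X]` in `F_N` is torsion free over `ℚ[X]`. -/
theorem isTorsionFree_integralClosureQ :
    letI := polyAlgebraFullQ N
    Module.IsTorsionFree ℚ[X] ↥(integralClosure ℚ[X] F) := by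
  letI := polyAlgebraFullQ N
  haveI : FaithfulSMul ℚ[X] F :=
    (faithfulSMul_iff_algebraMap_injective _ _).mpr (polyAlgebraFullQ_injective N)
  haveI : Module.IsTorsionFree ℚ[X] F := inferInstance
  exact IsIntegralClosure.isTorsionFree ℚ[X] F

end QSide

/-! ### `ℚ = ℤ_(ℓ)[1/ℓ]` and the comparison of the `ℤ_(ℓ)[X]`- and `ℚ[X]`-structures -/

section Compare

variable (ℓ : ℕ) [Fact ℓ.Prime]

set_option quotPrecheck false in
local notation "ℤℓ" => ↥(GaloisRep.ratLocalizedAt ℓ)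

theorem exists_pow_mul_mem_zl (q : ℚ) :
    ∃ n : ℕ, q * (ℓ : ℚ) ^ n ∈ GaloisRep.ratLocalizedAt ℓ := by
  have hℓ : ℓ.Prime := Fact.out
  obtain ⟨a, d', hd', hden⟩ := Nat.exists_eq_pow_mul_and_not_dvd q.den_ne_zero ℓ hℓ.ne_one
  refine ⟨a, ?_⟩
  have hd0' : d' ≠ 0 := by rintro rfl; exact hd' (dvd_zero _)
  have hd0 : (d' : ℚ) ≠ 0 := by exact_mod_cast hd0'
  have hℓ0 : (ℓ : ℚ) ≠ 0 := by exact_mod_cast hℓ.ne_zero
  have hq : q * (ℓ : ℚ) ^ a = (q.num : ℚ) / ((d' : ℤ) : ℚ) := by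
    have h1 : (q.den : ℚ) = (ℓ : ℚ) ^ a * d' := by exact_mod_cast hden
    have h2 : (q.num : ℚ) = q * q.den := (Rat.mul_den_eq_num q).symm
    rw [h2, h1, Int.cast_natCast]
    field_simp
  show (q * (ℓ : ℚ) ^ a).den.Coprime ℓ
  rw [hq]
  have h := Rat.den_dvd q.num (d' : ℤ)
  rw [Rat.divInt_eq_div] at h
  have h' : (((q.num : ℚ) / ((d' : ℤ) : ℚ)).den : ℤ) ∣ ((d' : ℕ) : ℤ) := h
  have h'' : ((q.num : ℚ) / ((d' : ℤ) : ℚ)).den ∣ d' := Int.natCast_dvd_natCast.mp h'
  exact Nat.Coprime.coprime_dvd_left h'' ((Nat.Prime.coprime_iff_not_dvd hℓ).mpr hd').symm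

/-- `ℚ = ℤ_(ℓ)[1/ℓ]`. -/
theorem isLocalization_away_zlPrime_rat : IsLocalization.Away (zlPrime ℓ) ℚ := by
  have hℓ : ℓ.Prime := Fact.out
  have hℓ0 : (ℓ : ℚ) ≠ 0 := by exact_mod_cast hℓ.ne_zero
  have hcoe : ∀ x : ℤℓ, algebraMap ℤℓ ℚ x = (x : ℚ) := fun _ => rfl
  refine ⟨⟨?_, ?_, ?_⟩⟩
  · rintro ⟨_, n, rfl⟩
    rw [map_pow, hcoe, coe_zlPrime]
    exact (isUnit_iff_ne_zero.mpr hℓ0).pow n
  · intro q
    obtain ⟨n, hn⟩ := exists_pow_mul_mem_zl ℓ q
    refine ⟨(⟨_, hn⟩, ⟨zlPrime ℓ ^ n, n, rfl⟩), ?_⟩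
    show q * algebraMap ℤℓ ℚ (zlPrime ℓ ^ n) = _
    rw [map_pow, hcoe, coe_zlPrime]
    rfl
  · intro x y hxy
    exact ⟨1, by rw [Subtype.ext hxy]⟩

variable (N : ℕ) [NeZero N]

set_option quotPrecheck false in
local notation "F" => ↥(modularFunctionFieldFull N)

/-- The `ℚ[X]`-structure extends the `ℤ_(ℓ)[X]`-structure on `F_N`. -/
theorem polyAlgebraFullQ_map (P : ℤℓ[X]) :
    letI := polyAlgebraFullQ N
    letI := polyAlgebraFull N ℓ
    algebraMap ℚ[X] F (P.map (algebraMap ℤℓ ℚ)) = algebraMap ℤℓ[X] F P := by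
  letI := polyAlgebraFullQ N
  letI := polyAlgebraFull N ℓ
  rw [polyAlgebraFullQ_algebraMap, polyAlgebraFull_algebraMap, Polynomial.aeval_map_algebraMap]

/-- Integral over `ℤ_(ℓ)[X]` implies integral over `ℚ[X]`. -/
theorem isIntegral_polyQ_of_isIntegral_poly (x : F)
    (hx : letI := polyAlgebraFull N ℓ
      IsIntegral ℤℓ[X] x) :
    letI := polyAlgebraFullQ N
    IsIntegral ℚ[X] x := by
  letI := polyAlgebraFullQ N
  letI := polyAlgebraFull N ℓ
  refine IsIntegral.map_of_comp_eq (Polynomial.mapRingHom (algebraMap ℤℓ ℚ)) (RingHom.id F) ?_ hx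
  refine RingHom.ext fun P => ?_
  simp only [RingHom.comp_apply, Polynomial.coe_mapRingHom, RingHom.id_apply]
  exact polyAlgebraFullQ_map ℓ N P

end Compare

end Fermat.Agent.Good.InstOdd
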