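import Mathlib
import Fermat.Agent.Good.OmegaExt

/-!
# Curves over `Λ[ω]` (track L-GEN, node G-INST-2, part 1)

Shape-independent transport lemmas for the `ℓ = 2` instantiation of GOODQUOT: the function field
`F₀[ω] = OmegaExt F₀` over `(O₀[ω])[X]`.

* `omegaPoly_irreducible_of_le` : `X² + X + 1` is irreducible over every subfield of `ℚ((q))`.
* `OmegaExt.isIntegral_repr_iff` : `a + b ω` is integral iff `a` and `b` are (`3` invertible).
* `OmegaExt.tensorEquiv` : `O₀[ω] ⊗ B ≃ B[ω]`; `OmegaExt.tensorCancel` : `B[ω] ⊗_{O₀[ω]} k ≃ B ⊗_{O₀} k`.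
* `OmegaExt.polyEquiv` : `(O₀[ω])[X] ≃ (O₀[X])[ω]`, with the normal form `p + q ω`.
* `OmegaExt.polyHom` : the structure map `(O₀[ω])[X] → F₀[ω]`; integrality over it.
-/

set_option autoImplicit false

namespace Fermat.Agent.Good

open Polynomial TensorProduct

/-! ### part 1 -/
/-- `X² + X + 1` has no root in `ℚ((q))`. -/
theorem omegaPoly_no_root_laurentSeries (x : LaurentSeries ℚ) : x ^ 2 + x + 1 ≠ 0 := by
  intro h
  -- `x` is integral over `ℚ⟦q⟧`, hence a power series
  have hint : IsIntegral (PowerSeries ℚ) x := by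
    refine ⟨X ^ 2 + X + 1, by monicity!, ?_⟩
    simp only [eval₂_add, eval₂_pow, eval₂_X, eval₂_one]
    exact h
  obtain ⟨y, rfl⟩ := IsIntegrallyClosed.algebraMap_eq_of_integral hint
  have hy : y ^ 2 + y + 1 = 0 := by
    apply IsFractionRing.injective (PowerSeries ℚ) (LaurentSeries ℚ)
    simpa using h
  have hc := congrArg (PowerSeries.constantCoeff (R := ℚ)) hy
  simp only [map_add, map_pow, map_one, map_zero] at hc
  nlinarith [sq_nonneg (PowerSeries.constantCoeff (R := ℚ) y + 1 / 2)]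

/-- `X² + X + 1` is irreducible over every subfield of `ℚ((q))`. -/
theorem omegaPoly_irreducible_of_le (F : IntermediateField ℚ (LaurentSeries ℚ)) :
    Irreducible (omegaPoly F) := by
  apply irreducible_of_degree_le_three_of_not_isRoot
  · rw [omegaPoly_natDegree]; decide
  · intro x hx
    apply omegaPoly_no_root_laurentSeries (x : LaurentSeries ℚ)
    unfold omegaPoly at hx
    simp only [IsRoot.def, eval_add, eval_pow, eval_X, eval_one] at hx
    have := congrArg (fun t : F => (t : LaurentSeries ℚ)) hx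
    simpa using this

/-! ### part 2 -/
namespace OmegaExt

section Integral

variable {A : Type*} [CommRing A] {F₀ : Type*} [CommRing F₀] [Algebra A F₀]

theorem isIntegral_ω : IsIntegral A (ω F₀) := by
  refine ⟨X ^ 2 + X + 1, by monicity!, ?_⟩
  simp only [eval₂_add, eval₂_pow, eval₂_X, eval₂_one]
  exact ω_quad F₀

theorem isIntegral_repr {a b : F₀} (ha : IsIntegral A a) (hb : IsIntegral A b) :
    IsIntegral A (algebraMap F₀ (OmegaExt F₀) a + algebraMap F₀ _ b * ω F₀) := by
  have ha' : IsIntegral A (algebraMap F₀ (OmegaExt F₀) a) :=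
    ha.map (IsScalarTower.toAlgHom A F₀ (OmegaExt F₀))
  have hb' : IsIntegral A (algebraMap F₀ (OmegaExt F₀) b) :=
    hb.map (IsScalarTower.toAlgHom A F₀ (OmegaExt F₀))
  exact ha'.add (hb'.mul isIntegral_ω)

/-- the conjugation as an `A`-algebra automorphism -/
noncomputable def conjₐ : OmegaExt F₀ ≃ₐ[A] OmegaExt F₀ := (conj F₀).restrictScalars A

theorem conjₐ_apply (z : OmegaExt F₀) : conjₐ (A := A) z = conj F₀ z := rfl

theorem add_conj (a b : F₀) :
    (algebraMap F₀ (OmegaExt F₀) a + algebraMap F₀ _ b * ω F₀) +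
      conj F₀ (algebraMap F₀ (OmegaExt F₀) a + algebraMap F₀ _ b * ω F₀) =
      algebraMap F₀ _ (2 * a - b) := by
  simp only [map_add, map_mul, AlgEquiv.commutes, conj_ω, map_sub, map_ofNat]
  ring

theorem ω_mul_add_conj (a b : F₀) :
    ω F₀ * (algebraMap F₀ (OmegaExt F₀) a + algebraMap F₀ _ b * ω F₀) +
      conj F₀ (ω F₀ * (algebraMap F₀ (OmegaExt F₀) a + algebraMap F₀ _ b * ω F₀)) =
      algebraMap F₀ _ (-a - b) := by
  have h := ω_quad F₀
  simp only [map_add, map_mul, AlgEquiv.commutes, conj_ω, map_sub, map_neg]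
  linear_combination (2 * algebraMap F₀ (OmegaExt F₀) b) * h

/-- an element `a + b ω` of `F₀[ω]` is integral over `A` iff `a` and `b` are (`3` invertible) -/
theorem isIntegral_repr_iff [Nontrivial F₀] (h3 : IsUnit (3 : A)) {a b : F₀} :
    IsIntegral A (algebraMap F₀ (OmegaExt F₀) a + algebraMap F₀ _ b * ω F₀) ↔
      IsIntegral A a ∧ IsIntegral A b := by
  constructor
  · intro hz
    set z := algebraMap F₀ (OmegaExt F₀) a + algebraMap F₀ _ b * ω F₀ with hzdef
    have hinj : Function.Injective (IsScalarTower.toAlgHom A F₀ (OmegaExt F₀)) :=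
      algebraMap_injective
    have hcz : IsIntegral A (conj F₀ z) := hz.map (conjₐ (A := A) (F₀ := F₀))
    have hωz : IsIntegral A (ω F₀ * z) := isIntegral_ω.mul hz
    have hcωz : IsIntegral A (conj F₀ (ω F₀ * z)) := hωz.map (conjₐ (A := A) (F₀ := F₀))
    have h1 : IsIntegral A (algebraMap F₀ (OmegaExt F₀) (2 * a - b)) := by
      rw [← add_conj]; exact hz.add hcz
    have h2 : IsIntegral A (algebraMap F₀ (OmegaExt F₀) (-a - b)) := by
      rw [← ω_mul_add_conj]; exact hωz.add hcωz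
    have h1' : IsIntegral A (2 * a - b) :=
      (isIntegral_algHom_iff (IsScalarTower.toAlgHom A F₀ (OmegaExt F₀)) hinj).mp h1
    have h2' : IsIntegral A (-a - b) :=
      (isIntegral_algHom_iff (IsScalarTower.toAlgHom A F₀ (OmegaExt F₀)) hinj).mp h2
    obtain ⟨i3, hi3⟩ := h3.exists_right_inv
    have hi3' : (3 : F₀) * algebraMap A F₀ i3 = 1 := by
      rw [← map_ofNat (algebraMap A F₀) 3, ← map_mul, hi3, map_one]
    have hi : IsIntegral A (algebraMap A F₀ i3) := isIntegral_algebraMap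
    refine ⟨?_, ?_⟩
    · have : a = algebraMap A F₀ i3 * ((2 * a - b) - (-a - b)) := by
        linear_combination (-a) * hi3'
      rw [this]
      exact hi.mul (h1'.sub h2')
    · have : b = -(algebraMap A F₀ i3 * ((2 * a - b) + 2 * (-a - b))) := by
        linear_combination (-b) * hi3'
      rw [this]
      have h2i : IsIntegral A (2 : F₀) := by
        rw [← map_ofNat (algebraMap A F₀) 2]; exact isIntegral_algebraMap
      exact (hi.mul (h1'.add (h2i.mul h2'))).neg
  · rintro ⟨ha, hb⟩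
    exact isIntegral_repr ha hb

end Integral

end OmegaExt

/-! ### part 3 -/
namespace OmegaExt

section Tensor

variable (O₀ : Type*) [CommRing O₀] (B : Type*) [CommRing B] [Algebra O₀ B]

/-- `B[ω]` as an algebra over `O₀[ω]` (use as a local instance) -/
@[reducible] noncomputable def algebraOmega : Algebra (OmegaExt O₀) (OmegaExt B) :=
  (map (algebraMap O₀ B)).toAlgebra

attribute [local instance] algebraOmega

theorem algebraMap_omega_eq :
    algebraMap (OmegaExt O₀) (OmegaExt B) = map (algebraMap O₀ B) := rfl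

instance isScalarTower_omega : IsScalarTower O₀ (OmegaExt O₀) (OmegaExt B) :=
  .of_algebraMap_eq fun a => by
    rw [algebraMap_omega_eq, map_algebraMap, IsScalarTower.algebraMap_apply O₀ B (OmegaExt B)]

/-- `B → B[ω]` as an `O₀`-algebra map -/
noncomputable def ofₐ : B →ₐ[O₀] OmegaExt B := IsScalarTower.toAlgHom O₀ B (OmegaExt B)

/-- the comparison map `O₀[ω] ⊗ B → B[ω]` -/
noncomputable def tensorTo : OmegaExt O₀ ⊗[O₀] B →ₐ[OmegaExt O₀] OmegaExt B :=
  Algebra.TensorProduct.lift (Algebra.ofId (OmegaExt O₀) (OmegaExt B)) (ofₐ O₀ B)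
    (fun _ _ => Commute.all _ _)

@[simp] theorem tensorTo_tmul (o : OmegaExt O₀) (b : B) :
    tensorTo O₀ B (o ⊗ₜ b) = map (algebraMap O₀ B) o * algebraMap B (OmegaExt B) b := by
  simp [tensorTo, ofₐ, Algebra.ofId_apply, algebraMap_omega_eq]

/-- the inverse comparison map `B[ω] → O₀[ω] ⊗ B` -/
noncomputable def tensorFrom : OmegaExt B →+* OmegaExt O₀ ⊗[O₀] B :=
  AdjoinRoot.lift (Algebra.TensorProduct.includeRight : B →ₐ[O₀] OmegaExt O₀ ⊗[O₀] B).toRingHom
    (ω O₀ ⊗ₜ 1) (by
      show eval₂ _ _ (X ^ 2 + X + 1) = 0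
      simp only [eval₂_add, eval₂_pow, eval₂_X, eval₂_one]
      have h := ω_quad O₀
      have : (ω O₀ ⊗ₜ[O₀] (1 : B)) ^ 2 + ω O₀ ⊗ₜ[O₀] (1 : B) + 1 =
          (ω O₀ ^ 2 + ω O₀ + 1) ⊗ₜ[O₀] (1 : B) := by
        rw [TensorProduct.add_tmul, TensorProduct.add_tmul, Algebra.TensorProduct.tmul_pow,
          one_pow, Algebra.TensorProduct.one_def]
      rw [this, h, TensorProduct.zero_tmul])

@[simp] theorem tensorFrom_ω : tensorFrom O₀ B (ω B) = ω O₀ ⊗ₜ 1 := by
  unfold tensorFrom ω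
  exact AdjoinRoot.lift_root _

@[simp] theorem tensorFrom_algebraMap (b : B) :
    tensorFrom O₀ B (algebraMap B (OmegaExt B) b) = 1 ⊗ₜ b := by
  unfold tensorFrom
  exact AdjoinRoot.lift_of _

theorem tensorFrom_map (o : OmegaExt O₀) :
    tensorFrom O₀ B (map (algebraMap O₀ B) o) = o ⊗ₜ 1 := by
  obtain ⟨a, b, rfl⟩ := exists_repr O₀ o
  simp only [map_add, map_mul, map_algebraMap, map_ω, tensorFrom_algebraMap, tensorFrom_ω]
  rw [TensorProduct.add_tmul, Algebra.TensorProduct.tmul_mul_tmul, one_mul, mul_one]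
  congr 1
  · rw [← mul_one (algebraMap O₀ (OmegaExt O₀) a), ← Algebra.smul_def,
      TensorProduct.smul_tmul, Algebra.smul_def, mul_one]
  · rw [← Algebra.smul_def, TensorProduct.smul_tmul, Algebra.smul_def, mul_one]

/-- `O₀[ω] ⊗ B ≃ B[ω]` -/
noncomputable def tensorEquiv : OmegaExt O₀ ⊗[O₀] B ≃ₐ[OmegaExt O₀] OmegaExt B :=
  AlgEquiv.ofBijective (tensorTo O₀ B) (by
    have h1 : ∀ z, tensorFrom O₀ B (tensorTo O₀ B z) = z := by
      intro z
      induction z using TensorProduct.induction_on with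
      | zero => simp
      | tmul o b =>
        rw [tensorTo_tmul, map_mul, tensorFrom_map, tensorFrom_algebraMap,
          Algebra.TensorProduct.tmul_mul_tmul, one_mul, mul_one]
      | add x y hx hy => rw [map_add, map_add, hx, hy]
    have h2 : ∀ z, tensorTo O₀ B (tensorFrom O₀ B z) = z := by
      intro z
      obtain ⟨a, b, rfl⟩ := exists_repr B z
      simp only [map_add, map_mul, tensorFrom_algebraMap, tensorFrom_ω, tensorTo_tmul, map_one,
        map_ω, one_mul, mul_one]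
    exact ⟨Function.LeftInverse.injective h1, Function.RightInverse.surjective h2⟩)

@[simp] theorem tensorEquiv_tmul (o : OmegaExt O₀) (b : B) :
    tensorEquiv O₀ B (o ⊗ₜ b) = map (algebraMap O₀ B) o * algebraMap B (OmegaExt B) b :=
  tensorTo_tmul O₀ B o b

variable (k : Type*) [CommRing k] [Algebra O₀ k] [Algebra (OmegaExt O₀) k]
  [IsScalarTower O₀ (OmegaExt O₀) k]

/-- `B[ω] ⊗_{O₀[ω]} k ≃ B ⊗_{O₀} k` -/
noncomputable def tensorCancel : OmegaExt B ⊗[OmegaExt O₀] k ≃+* B ⊗[O₀] k :=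
  (Algebra.TensorProduct.comm (OmegaExt O₀) (OmegaExt B) k).toRingEquiv.trans
    ((Algebra.TensorProduct.congr (AlgEquiv.refl (R := OmegaExt O₀) (A₁ := k))
        (tensorEquiv O₀ B).symm).toRingEquiv.trans
      ((Algebra.TensorProduct.cancelBaseChange O₀ (OmegaExt O₀) (OmegaExt O₀) k B).toRingEquiv.trans
        (Algebra.TensorProduct.comm O₀ k B).toRingEquiv))

theorem tensorCancel_tmul_algebraMap (b : B) (c : k) :
    tensorCancel O₀ B k (algebraMap B (OmegaExt B) b ⊗ₜ c) = b ⊗ₜ c := by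
  have h : (tensorEquiv O₀ B).symm (AdjoinRoot.of (omegaPoly B) b) = 1 ⊗ₜ b := by
    rw [AlgEquiv.symm_apply_eq, tensorEquiv_tmul, map_one, one_mul]
    rfl
  simp [tensorCancel, h]

end Tensor

end OmegaExt

/-! ### part 4 -/
namespace OmegaExt

section PolyEquiv

variable (O₀ : Type*) [CommRing O₀]

/-- `(O₀[ω])[X] → (O₀[X])[ω]` -/
noncomputable def polyTo : (OmegaExt O₀)[X] →+* OmegaExt O₀[X] :=
  eval₂RingHom (map (C : O₀ →+* O₀[X])) (algebraMap O₀[X] (OmegaExt O₀[X]) X)

/-- `(O₀[X])[ω] → (O₀[ω])[X]` -/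
noncomputable def polyFrom : OmegaExt O₀[X] →+* (OmegaExt O₀)[X] :=
  AdjoinRoot.lift (mapRingHom (algebraMap O₀ (OmegaExt O₀))) (C (ω O₀)) (by
    show eval₂ _ _ (X ^ 2 + X + 1) = 0
    simp only [eval₂_add, eval₂_pow, eval₂_X, eval₂_one]
    rw [← C_pow, ← C_add, ← C_1, ← C_add, ω_quad, C_0])

@[simp] theorem polyTo_X : polyTo O₀ X = algebraMap O₀[X] (OmegaExt O₀[X]) X := by
  simp [polyTo]

@[simp] theorem polyTo_C (o : OmegaExt O₀) : polyTo O₀ (C o) = map C o := by
  simp [polyTo]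

@[simp] theorem polyFrom_ω : polyFrom O₀ (ω O₀[X]) = C (ω O₀) := by
  unfold polyFrom ω
  exact AdjoinRoot.lift_root _

@[simp] theorem polyFrom_algebraMap (p : O₀[X]) :
    polyFrom O₀ (algebraMap O₀[X] (OmegaExt O₀[X]) p) = p.map (algebraMap O₀ (OmegaExt O₀)) := by
  unfold polyFrom
  exact AdjoinRoot.lift_of _

@[simp] theorem polyFrom_of (p : O₀[X]) :
    polyFrom O₀ (AdjoinRoot.of (omegaPoly O₀[X]) p) = p.map (AdjoinRoot.of (omegaPoly O₀)) :=
  polyFrom_algebraMap O₀ p

theorem polyTo_map (p : O₀[X]) :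
    polyTo O₀ (p.map (algebraMap O₀ (OmegaExt O₀))) = algebraMap O₀[X] (OmegaExt O₀[X]) p := by
  induction p using Polynomial.induction_on' with
  | add p q hp hq => rw [Polynomial.map_add, map_add, map_add, hp, hq]
  | monomial n a =>
    rw [← C_mul_X_pow_eq_monomial, Polynomial.map_mul, Polynomial.map_pow, map_C, map_X, map_mul,
      map_pow, polyTo_C, polyTo_X, map_algebraMap, ← map_pow, ← map_mul]

@[simp] theorem polyTo_map_of (p : O₀[X]) :
    polyTo O₀ (p.map (AdjoinRoot.of (omegaPoly O₀))) = AdjoinRoot.of (omegaPoly O₀[X]) p :=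
  polyTo_map O₀ p

theorem polyFrom_polyTo (p : (OmegaExt O₀)[X]) : polyFrom O₀ (polyTo O₀ p) = p := by
  have : (polyFrom O₀).comp (polyTo O₀) = RingHom.id _ := by
    apply Polynomial.ringHom_ext
    · intro o
      obtain ⟨a, b, rfl⟩ := exists_repr O₀ o
      simp
    · simp
  exact DFunLike.congr_fun this p

theorem polyTo_polyFrom (z : OmegaExt O₀[X]) : polyTo O₀ (polyFrom O₀ z) = z := by
  obtain ⟨a, b, rfl⟩ := exists_repr O₀[X] z
  simp

/-- `(O₀[ω])[X] ≃ (O₀[X])[ω]` -/
noncomputable def polyEquiv : (OmegaExt O₀)[X] ≃+* OmegaExt O₀[X] :=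
  RingEquiv.ofRingHom (polyTo O₀) (polyFrom O₀)
    (RingHom.ext (polyTo_polyFrom O₀)) (RingHom.ext (polyFrom_polyTo O₀))

@[simp] theorem polyEquiv_apply (p : (OmegaExt O₀)[X]) : polyEquiv O₀ p = polyTo O₀ p := rfl

@[simp] theorem polyEquiv_symm_apply (z : OmegaExt O₀[X]) :
    (polyEquiv O₀).symm z = polyFrom O₀ z := rfl

/-- every polynomial over `O₀[ω]` is `p + q ω` with `p, q` polynomials over `O₀` -/
theorem exists_poly_repr (P : (OmegaExt O₀)[X]) :
    ∃ p q : O₀[X], P = p.map (algebraMap O₀ (OmegaExt O₀)) +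
      q.map (algebraMap O₀ (OmegaExt O₀)) * C (ω O₀) := by
  obtain ⟨p, q, h⟩ := exists_repr O₀[X] (polyTo O₀ P)
  refine ⟨p, q, ?_⟩
  have := congrArg (polyFrom O₀) h
  rw [polyFrom_polyTo] at this
  rw [this]
  simp

theorem poly_repr_unique [Nontrivial O₀] {p q p' q' : O₀[X]}
    (h : p.map (algebraMap O₀ (OmegaExt O₀)) + q.map (algebraMap O₀ (OmegaExt O₀)) * C (ω O₀) =
      p'.map (algebraMap O₀ (OmegaExt O₀)) + q'.map (algebraMap O₀ (OmegaExt O₀)) * C (ω O₀)) :
    p = p' ∧ q = q' := by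
  have key : ∀ p q : O₀[X], polyTo O₀ (p.map (algebraMap O₀ (OmegaExt O₀)) +
      q.map (algebraMap O₀ (OmegaExt O₀)) * C (ω O₀)) =
      algebraMap O₀[X] (OmegaExt O₀[X]) p + algebraMap O₀[X] _ q * ω O₀[X] := by
    intro p q
    have e : ∀ p : O₀[X], p.map (algebraMap O₀ (OmegaExt O₀)) =
        polyFrom O₀ (algebraMap O₀[X] (OmegaExt O₀[X]) p) := fun p => (polyFrom_algebraMap O₀ p).symm
    rw [e p, e q, ← polyFrom_ω, ← map_mul, ← map_add, polyTo_polyFrom]
  have := congrArg (polyTo O₀) h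
  rw [key, key] at this
  exact repr_unique O₀[X] this

end PolyEquiv

end OmegaExt

/-! ### part 5 -/
namespace OmegaExt

section MapInj

variable {Λ Λ' : Type*} [CommRing Λ] [CommRing Λ'] [Nontrivial Λ']

theorem map_injective (f : Λ →+* Λ') (hf : Function.Injective f) :
    Function.Injective (map f) := by
  rw [injective_iff_map_eq_zero]
  intro z hz
  obtain ⟨a, b, rfl⟩ := exists_repr Λ z
  rw [map_add, map_mul, map_algebraMap, map_algebraMap, map_ω] at hz
  have h0 : algebraMap Λ' (OmegaExt Λ') (f a) + algebraMap Λ' _ (f b) * ω Λ' =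
      algebraMap Λ' _ 0 + algebraMap Λ' _ 0 * ω Λ' := by
    rw [hz]; simp
  obtain ⟨ha, hb⟩ := repr_unique Λ' h0
  rw [← map_zero f] at ha hb
  rw [hf ha, hf hb]; simp

end MapInj

section Curve

variable {O₀ : Type*} [CommRing O₀] {F₀ : Type*} [Field F₀] [Algebra O₀[X] F₀]

/-- the structure map `(O₀[ω])[X] → F₀[ω]` induced by `O₀[X] → F₀` -/
noncomputable def polyHom : (OmegaExt O₀)[X] →+* OmegaExt F₀ :=
  (map (algebraMap O₀[X] F₀)).comp (polyTo O₀)

theorem polyHom_map (p : O₀[X]) :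
    polyHom (F₀ := F₀) (p.map (algebraMap O₀ (OmegaExt O₀))) =
      algebraMap F₀ (OmegaExt F₀) (algebraMap O₀[X] F₀ p) := by
  rw [polyHom, RingHom.comp_apply, polyTo_map, map_algebraMap]

theorem polyHom_C_ω : polyHom (F₀ := F₀) (C (ω O₀)) = ω F₀ := by
  rw [polyHom, RingHom.comp_apply, polyTo_C, map_ω, map_ω]

theorem polyHom_injective (h : Function.Injective (algebraMap O₀[X] F₀)) :
    Function.Injective (polyHom (O₀ := O₀) (F₀ := F₀)) := by
  have h1 := map_injective (algebraMap O₀[X] F₀) h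
  intro p q hpq
  have := h1 hpq
  have h2 := congrArg (polyFrom O₀) this
  rwa [polyFrom_polyTo, polyFrom_polyTo] at h2

theorem polyHom_comp_mapRingHom :
    (polyHom (O₀ := O₀) (F₀ := F₀)).comp (mapRingHom (algebraMap O₀ (OmegaExt O₀))) =
      algebraMap O₀[X] (OmegaExt F₀) := by
  ext p
  · simp only [RingHom.comp_apply, coe_mapRingHom]
    rw [polyHom_map, ← IsScalarTower.algebraMap_apply]
  · simp only [RingHom.comp_apply, coe_mapRingHom]
    rw [polyHom_map, ← IsScalarTower.algebraMap_apply]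

/-- every value of `polyHom` is integral over `O₀[X]` -/
theorem isIntegral_polyHom (P : (OmegaExt O₀)[X]) : IsIntegral O₀[X] (polyHom (F₀ := F₀) P) := by
  obtain ⟨p, q, rfl⟩ := exists_poly_repr O₀ P
  rw [map_add, map_mul, polyHom_map, polyHom_map, polyHom_C_ω]
  exact isIntegral_repr isIntegral_algebraMap isIntegral_algebraMap

/-- integrality over `(O₀[ω])[X]` (via `polyHom`) is integrality over `O₀[X]` -/
theorem isIntegralElem_polyHom_iff (z : OmegaExt F₀) :
    (polyHom (O₀ := O₀) (F₀ := F₀)).IsIntegralElem z ↔ IsIntegral O₀[X] z := by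
  constructor
  · intro hz
    let S := integralClosure O₀[X] (OmegaExt F₀)
    let g : (OmegaExt O₀)[X] →+* S :=
      (polyHom (O₀ := O₀) (F₀ := F₀)).codRestrict S.toSubring (fun P => isIntegral_polyHom P)
    have hcomp : (algebraMap S (OmegaExt F₀)).comp g = polyHom := by
      ext P <;> rfl
    rw [← hcomp] at hz
    have hzS : IsIntegral S z := RingHom.IsIntegralElem.of_comp hz
    exact isIntegral_trans (A := S) z hzS
  · intro hz
    have : ((polyHom (O₀ := O₀) (F₀ := F₀)).comp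
        (mapRingHom (algebraMap O₀ (OmegaExt O₀)))).IsIntegralElem z := by
      rw [polyHom_comp_mapRingHom]; exact hz
    exact RingHom.IsIntegralElem.of_comp this

/-- the integral closure of `(O₀[ω])[X]` in `F₀[ω]` is `B₀ ⊕ B₀ ω`, `B₀` the integral closure of
`O₀[X]` in `F₀` -/
theorem isIntegralElem_polyHom_repr_iff (h3 : IsUnit (3 : O₀)) (a b : F₀) :
    (polyHom (O₀ := O₀) (F₀ := F₀)).IsIntegralElem
        (algebraMap F₀ (OmegaExt F₀) a + algebraMap F₀ _ b * ω F₀) ↔
      IsIntegral O₀[X] a ∧ IsIntegral O₀[X] b := by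
  rw [isIntegralElem_polyHom_iff]
  have h3' : IsUnit (3 : O₀[X]) := by
    have := h3.map (C : O₀ →+* O₀[X])
    rwa [map_ofNat] at this
  exact isIntegral_repr_iff h3'

end Curve

end OmegaExt

end Fermat.Agent.Good
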