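import Mathlib

/-!
# Purity of the branch locus "by hand" (track L-GEN, node G3-alt, Lemma A)

Abstract commutative algebra, no modular objects.

Setting: `R` a domain with a prime element `ℓ`, `S` a finite `R`-algebra, and a "reduction pair"
`φ : R →+* κ`, `ρ : S →+* Λ` into fields (`κ = Frac (R/ℓ)`, `Λ = Frac (S/ℓS)` in the applications).

* `Good.Purity.linearIndependent_of_span_eq_top` : `n` generators of a finite module that contains `n`
  linearly independent elements are linearly independent (Orzech).
* `Good.Purity.span_eq_top_of_nakayama` : generators modulo an ideal in the Jacobson radical generate.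
* `Good.Purity.basisOfReduction` : the resulting basis.
* `Good.Purity.map_trace_eq_trace`, `Good.Purity.map_discr_eq_discr` : trace and discriminant commute with a
  reduction pair carrying a basis to a basis.
* `Good.Purity.isUnit_of_isUnit_away_of_not_dvd` : an element not divisible by the prime `ℓ` which is a
  unit of `R[1/ℓ]` is a unit of `R`.
* `Good.Purity.isUnit_discr_of_reduction` : **purity by hand**: if the reduction is separable and the
  discriminant is a unit away from `ℓ`, the discriminant is a unit.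
* `Good.Purity.mem_span_of_isIntegral_of_isUnit_discr` : an order with unit discriminant is integrally
  closed (contains every integral element of its fraction field).
-/

set_option autoImplicit false

open Module

namespace Fermat.Agent.Good.Purity

section Free

variable {R M : Type*} [CommRing R] [AddCommGroup M] [Module R M]

/-- `n` generators of a finite module containing `n` linearly independent elements are linearly
independent. -/
theorem linearIndependent_of_span_eq_top [Module.Finite R M] {ι : Type*} [Fintype ι]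
    (b v : ι → M) (hb : Submodule.span R (Set.range b) = ⊤) (hv : LinearIndependent R v) :
    LinearIndependent R b := by
  rw [linearIndependent_iff_injective_fintypeLinearCombination]
  refine OrzechProperty.injective_of_surjective_of_injective
    (Fintype.linearCombination R v) (Fintype.linearCombination R b)
    hv.fintypeLinearCombination_injective ?_
  rw [← LinearMap.range_eq_top, Fintype.range_linearCombination, hb]

/-- Nakayama: a family generating `M` modulo `I • M`, `I` in the Jacobson radical, generates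
`M`. -/
theorem span_eq_top_of_nakayama [Module.Finite R M] {ι : Type*} (b : ι → M) (I : Ideal R)
    (hI : I ≤ (⊥ : Ideal R).jacobson)
    (hb : ∀ m : M, ∃ m' ∈ Submodule.span R (Set.range b), m - m' ∈ I • (⊤ : Submodule R M)) :
    Submodule.span R (Set.range b) = ⊤ := by
  rw [eq_top_iff]
  refine Submodule.le_of_le_smul_of_le_jacobson_bot Module.Finite.fg_top hI ?_
  intro m _
  obtain ⟨m', hm', hmm'⟩ := hb m
  rw [Submodule.mem_sup]
  exact ⟨m', hm', m - m', hmm', by abel⟩

/-- The basis obtained from generators modulo `I` and a rank bound. -/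
noncomputable def basisOfReduction [Module.Finite R M] {ι : Type*} [Fintype ι] (b v : ι → M)
    (I : Ideal R) (hI : I ≤ (⊥ : Ideal R).jacobson)
    (hb : ∀ m : M, ∃ m' ∈ Submodule.span R (Set.range b), m - m' ∈ I • (⊤ : Submodule R M))
    (hv : LinearIndependent R v) : Basis ι R M :=
  Basis.mk (linearIndependent_of_span_eq_top b v (span_eq_top_of_nakayama b I hI hb) hv)
    (span_eq_top_of_nakayama b I hI hb).ge

@[simp]
theorem basisOfReduction_apply [Module.Finite R M] {ι : Type*} [Fintype ι] (b v : ι → M)
    (I : Ideal R) (hI : I ≤ (⊥ : Ideal R).jacobson)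
    (hb : ∀ m : M, ∃ m' ∈ Submodule.span R (Set.range b), m - m' ∈ I • (⊤ : Submodule R M))
    (hv : LinearIndependent R v) (i : ι) :
    basisOfReduction b v I hI hb hv i = b i := by
  rw [basisOfReduction, Basis.mk_apply]

end Free

section Reduction

variable {R S κ Λ : Type*} [CommRing R] [CommRing S] [Algebra R S] [CommRing κ] [CommRing Λ]
  [Algebra κ Λ] {ι : Type*} [Fintype ι] [DecidableEq ι]

/-- A reduction pair `(φ, ρ)` carrying the basis `b` of `S/R` to the basis `bΛ` of `Λ/κ`
transports coordinates. -/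
theorem map_repr_eq_repr (φ : R →+* κ) (ρ : S →+* Λ)
    (hρ : ∀ r : R, ρ (algebraMap R S r) = algebraMap κ Λ (φ r))
    (b : Basis ι R S) (bΛ : Basis ι κ Λ) (hb : ∀ i, bΛ i = ρ (b i)) (x : S) (i : ι) :
    bΛ.repr (ρ x) i = φ (b.repr x i) := by
  have hx : ρ x = ∑ j, φ (b.repr x j) • bΛ j := by
    conv_lhs => rw [← b.sum_repr x]
    rw [map_sum]
    refine Finset.sum_congr rfl fun j _ => ?_
    rw [Algebra.smul_def, map_mul, hρ, hb, Algebra.smul_def]
  rw [hx, map_sum, Finset.sum_apply']
  simp [Basis.repr_self, Finsupp.single_apply]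

/-- The trace commutes with a reduction pair carrying a basis to a basis. -/
theorem map_trace_eq_trace (φ : R →+* κ) (ρ : S →+* Λ)
    (hρ : ∀ r : R, ρ (algebraMap R S r) = algebraMap κ Λ (φ r))
    (b : Basis ι R S) (bΛ : Basis ι κ Λ) (hb : ∀ i, bΛ i = ρ (b i)) (x : S) :
    φ (Algebra.trace R S x) = Algebra.trace κ Λ (ρ x) := by
  rw [Algebra.trace_eq_matrix_trace b, Algebra.trace_eq_matrix_trace bΛ, Matrix.trace,
    Matrix.trace, map_sum]
  refine Finset.sum_congr rfl fun i _ => ?_
  rw [Matrix.diag_apply, Matrix.diag_apply, Algebra.leftMulMatrix_eq_repr_mul,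
    Algebra.leftMulMatrix_eq_repr_mul, hb, ← map_mul,
    map_repr_eq_repr φ ρ hρ b bΛ hb]

/-- The discriminant commutes with a reduction pair carrying a basis to a basis. -/
theorem map_discr_eq_discr (φ : R →+* κ) (ρ : S →+* Λ)
    (hρ : ∀ r : R, ρ (algebraMap R S r) = algebraMap κ Λ (φ r))
    (b : Basis ι R S) (bΛ : Basis ι κ Λ) (hb : ∀ i, bΛ i = ρ (b i)) :
    φ (Algebra.discr R b) = Algebra.discr κ bΛ := by
  rw [Algebra.discr_def, Algebra.discr_def, RingHom.map_det]
  congr 1
  ext i j
  rw [RingHom.mapMatrix_apply, Matrix.map_apply, Algebra.traceMatrix_apply,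
    Algebra.traceMatrix_apply, Algebra.traceForm_apply, Algebra.traceForm_apply,
    map_trace_eq_trace φ ρ hρ b bΛ hb, map_mul, hb, hb]

end Reduction

section ReductionField

variable {R S κ Λ : Type*} [CommRing R] [CommRing S] [Algebra R S] [Field κ] [Field Λ]
  [Algebra κ Λ] {ι : Type*} [Fintype ι] [DecidableEq ι]

/-- If the reduction is separable, the discriminant does not vanish under `φ`. -/
theorem map_discr_ne_zero [Algebra.IsSeparable κ Λ] (φ : R →+* κ) (ρ : S →+* Λ)
    (hρ : ∀ r : R, ρ (algebraMap R S r) = algebraMap κ Λ (φ r))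
    (b : Basis ι R S) (bΛ : Basis ι κ Λ) (hb : ∀ i, bΛ i = ρ (b i)) :
    φ (Algebra.discr R b) ≠ 0 := by
  have : Module.Finite κ Λ := Module.Finite.of_basis bΛ
  rw [map_discr_eq_discr φ ρ hρ b bΛ hb]
  exact Algebra.discr_not_zero_of_basis κ bΛ

end ReductionField

section Unit

variable {R : Type*} [CommRing R] [IsDomain R]

/-- If `d * x = ℓ ^ a` with `ℓ` prime not dividing `d`, then `d` is a unit. -/
theorem isUnit_of_mul_eq_pow {ℓ d : R} (hℓ : Prime ℓ) (hd : ¬ ℓ ∣ d) :
    ∀ (a : ℕ) (x : R), d * x = ℓ ^ a → IsUnit d := by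
  intro a
  induction a with
  | zero =>
    intro x hx
    rw [pow_zero] at hx
    exact IsUnit.of_mul_eq_one x hx
  | succ a ih =>
    intro x hx
    have h1 : ℓ ∣ d * x := ⟨ℓ ^ a, by rw [hx, pow_succ, mul_comm]⟩
    obtain ⟨x', rfl⟩ := (hℓ.dvd_or_dvd h1).resolve_left hd
    refine ih x' (mul_left_cancel₀ hℓ.ne_zero ?_)
    rw [← pow_succ', ← hx]
    ring

/-- An element not divisible by the prime `ℓ` which becomes a unit in `R[1/ℓ]` is a unit. -/
theorem isUnit_of_isUnit_away_of_not_dvd {ℓ d : R} (hℓ : Prime ℓ) (hd : ¬ ℓ ∣ d)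
    (T : Type*) [CommRing T] [Algebra R T] [IsLocalization.Away ℓ T]
    (hu : IsUnit (algebraMap R T d)) : IsUnit d := by
  obtain ⟨t, ht⟩ := hu.exists_right_inv
  obtain ⟨⟨x, s⟩, hxs⟩ := IsLocalization.surj (Submonoid.powers ℓ) t
  obtain ⟨a, ha⟩ := s.2
  have ha' : (s : R) = ℓ ^ a := ha.symm
  simp only at hxs
  have h1 : algebraMap R T (d * x) = algebraMap R T (ℓ ^ a) := by
    rw [map_mul, ← hxs, ← mul_assoc, ht, one_mul, ha']
  obtain ⟨⟨c, m, hm⟩, hc⟩ := (IsLocalization.eq_iff_exists (Submonoid.powers ℓ) T).1 h1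
  simp only at hc hm
  have hc0 : c ≠ 0 := by
    rw [← hm]
    exact pow_ne_zero m hℓ.ne_zero
  exact isUnit_of_mul_eq_pow hℓ hd a x (mul_left_cancel₀ hc0 hc)

end Unit

section PurityGen

variable {R S κ Λ : Type*} [CommRing R] [IsDomain R] [CommRing S] [Algebra R S] [CommRing κ]
  [CommRing Λ] [Algebra κ Λ] {ι : Type*} [Fintype ι] [DecidableEq ι]

/-- **Purity of the branch locus by hand, general form.**  `S` free over the domain `R` with basis
`b`, `ℓ` a prime element of `R`, `(φ, ρ)` a reduction pair with `φ ℓ = 0` carrying `b` to a basis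
`bΛ` of the `κ`-algebra `Λ` (any commutative rings) whose discriminant is *nonzero*.  If the
discriminant of `b` is a unit of `R[1/ℓ]`, then it is a unit of `R`; hence so is the discriminant
of `bΛ`. -/
theorem isUnit_discr_of_reduction_of_ne_zero {ℓ : R} (hℓ : Prime ℓ)
    (φ : R →+* κ) (hφ : φ ℓ = 0) (ρ : S →+* Λ)
    (hρ : ∀ r : R, ρ (algebraMap R S r) = algebraMap κ Λ (φ r))
    (b : Basis ι R S) (bΛ : Basis ι κ Λ) (hb : ∀ i, bΛ i = ρ (b i))
    (hne : Algebra.discr κ bΛ ≠ 0)
    (T : Type*) [CommRing T] [Algebra R T] [IsLocalization.Away ℓ T]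
    (hu : IsUnit (algebraMap R T (Algebra.discr R b))) :
    IsUnit (Algebra.discr R b) ∧ IsUnit (Algebra.discr κ bΛ) := by
  have h1 : IsUnit (Algebra.discr R b) := by
    refine isUnit_of_isUnit_away_of_not_dvd hℓ (fun hdvd => ?_) T hu
    obtain ⟨y, hy⟩ := hdvd
    apply hne
    rw [← map_discr_eq_discr φ ρ hρ b bΛ hb, hy, map_mul, hφ, zero_mul]
  exact ⟨h1, map_discr_eq_discr φ ρ hρ b bΛ hb ▸ h1.map φ⟩

end PurityGen

section Purity

variable {R S κ Λ : Type*} [CommRing R] [IsDomain R] [CommRing S] [Algebra R S] [Field κ]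
  [Field Λ] [Algebra κ Λ] {ι : Type*} [Fintype ι] [DecidableEq ι]

/-- **Purity of the branch locus by hand.**  `S` free over the domain `R` with basis `b`, `ℓ` a
prime element of `R`, `(φ, ρ)` a reduction pair with `ker φ = (ℓ)` carrying `b` to a basis of a
*separable* field extension `Λ/κ`.  If the discriminant of `b` is a unit of `R[1/ℓ]` (the cover is
unramified away from `ℓ`), then it is a unit of `R`. -/
theorem isUnit_discr_of_reduction [Algebra.IsSeparable κ Λ] {ℓ : R} (hℓ : Prime ℓ)
    (φ : R →+* κ) (hφ : φ ℓ = 0) (ρ : S →+* Λ)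
    (hρ : ∀ r : R, ρ (algebraMap R S r) = algebraMap κ Λ (φ r))
    (b : Basis ι R S) (bΛ : Basis ι κ Λ) (hb : ∀ i, bΛ i = ρ (b i))
    (T : Type*) [CommRing T] [Algebra R T] [IsLocalization.Away ℓ T]
    (hu : IsUnit (algebraMap R T (Algebra.discr R b))) : IsUnit (Algebra.discr R b) := by
  refine isUnit_of_isUnit_away_of_not_dvd hℓ (fun hdvd => ?_) T hu
  obtain ⟨y, hy⟩ := hdvd
  exact map_discr_ne_zero φ ρ hρ b bΛ hb (by rw [hy, map_mul, hφ, zero_mul])

end Purity

section Order

variable {A K L : Type*} [CommRing A] [IsIntegrallyClosed A] [Field K]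
  [Algebra A K] [IsFractionRing A K] [Field L] [Algebra K L] [Algebra A L] [IsScalarTower A K L]
  {ι : Type*} [Fintype ι] [DecidableEq ι]

/-- **An order with unit discriminant is maximal**: if `b` is a `K`-basis of `L` consisting of
integral elements whose discriminant is a unit of the integrally closed domain `A`, then every
element of `L` integral over `A` is an `A`-linear combination of `b`. -/
theorem mem_span_of_isIntegral_of_isUnit_discr (b : Basis ι K L)
    (hb_int : ∀ i, IsIntegral A (b i)) (u : A) (hu : IsUnit u)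
    (hdisc : Algebra.discr K b = algebraMap A K u) (x : L) (hx : IsIntegral A x) :
    x ∈ Submodule.span A (Set.range b) := by
  classical
  have : FiniteDimensional K L := Module.Finite.of_basis b
  -- the trace matrix has entries in `A`
  have hT : ∀ i j, ∃ t : A, algebraMap A K t = Algebra.trace K L (b i * b j) := fun i j =>
    IsIntegrallyClosed.algebraMap_eq_of_integral
      (Algebra.isIntegral_trace ((hb_int i).mul (hb_int j)))
  choose T hTij using hT
  let TA : Matrix ι ι A := Matrix.of T
  have hTA : (algebraMap A K).mapMatrix TA = Algebra.traceMatrix K b := by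
    ext i j
    rw [RingHom.mapMatrix_apply, Matrix.map_apply, Algebra.traceMatrix_apply,
      Algebra.traceForm_apply]
    exact hTij i j
  have hdet : TA.det = u := by
    apply IsFractionRing.injective A K
    rw [RingHom.map_det, hTA, ← Algebra.discr_def, hdisc]
  have hdetu : IsUnit TA.det := hdet ▸ hu
  -- the traces `Tr(b i * x)` lie in `A`
  have ha : ∀ i, ∃ a : A, algebraMap A K a = Algebra.trace K L (b i * x) := fun i =>
    IsIntegrallyClosed.algebraMap_eq_of_integral
      (Algebra.isIntegral_trace ((hb_int i).mul hx))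
  choose a haa using ha
  -- candidate coefficients
  let c' : ι → A := TA⁻¹.mulVec a
  have hTc' : TA.mulVec c' = a := by
    rw [Matrix.mulVec_mulVec, Matrix.mul_nonsing_inv _ hdetu, Matrix.one_mulVec]
  -- the coefficient vector `c` of `x` satisfies the same linear system over `K`
  have hc : (Algebra.traceMatrix K b).mulVec (fun j => b.repr x j) =
      fun i => algebraMap A K (a i) := by
    ext i
    rw [haa i]
    conv_rhs => rw [← b.sum_repr x, Finset.mul_sum, map_sum]
    rw [Matrix.mulVec, dotProduct]
    refine Finset.sum_congr rfl fun j _ => ?_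
    rw [Algebra.traceMatrix_apply, Algebra.traceForm_apply, mul_smul_comm, map_smul,
      smul_eq_mul, mul_comm]
  have hc' : (Algebra.traceMatrix K b).mulVec (fun j => algebraMap A K (c' j)) =
      fun i => algebraMap A K (a i) := by
    ext i
    rw [← hTA, RingHom.mapMatrix_apply]
    have := RingHom.map_mulVec (algebraMap A K) TA c' i
    rw [hTc'] at this
    exact this.symm
  have hunitT : IsUnit (Algebra.traceMatrix K b) := by
    rw [Matrix.isUnit_iff_isUnit_det, ← Algebra.discr_def, hdisc]
    exact hu.map _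
  have hcc' : (fun j => b.repr x j) = fun j => algebraMap A K (c' j) :=
    Matrix.mulVec_injective_of_isUnit hunitT (hc.trans hc'.symm)
  have hxsum : x = ∑ j, c' j • b j := by
    conv_lhs => rw [← b.sum_repr x]
    refine Finset.sum_congr rfl fun j _ => ?_
    rw [congrFun hcc' j, algebraMap_smul]
  rw [hxsum]
  exact Submodule.sum_mem _ fun j _ =>
    Submodule.smul_mem _ _ (Submodule.subset_span (Set.mem_range_self j))

end Order

section ReductionNormal

variable {R S A κ Λ : Type*} [CommRing R] [CommRing S] [Algebra R S] [CommRing A]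
  [IsIntegrallyClosed A] [Field κ] [Algebra A κ] [IsFractionRing A κ] [Field Λ] [Algebra κ Λ]
  [Algebra A Λ] [IsScalarTower A κ Λ] {ι : Type*} [Fintype ι] [DecidableEq ι]

/-- **The reduction of an order with unit discriminant is integrally closed.**  `S` free over `R`
with basis `b` and unit discriminant; `φ₀ : R → A` surjective onto an integrally closed domain with
fraction field `κ`; `ρ : S → Λ` compatible, carrying `b` to a `κ`-basis of the field `Λ`.  Then
every element of `Λ` integral over `A` is in the image of `ρ`. -/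
theorem exists_map_eq_of_isIntegral_of_isUnit_discr (φ₀ : R →+* A)
    (hφ₀ : Function.Surjective φ₀) (ρ : S →+* Λ)
    (hρ : ∀ r : R, ρ (algebraMap R S r) = algebraMap κ Λ (algebraMap A κ (φ₀ r)))
    (b : Basis ι R S) (bΛ : Basis ι κ Λ) (hb : ∀ i, bΛ i = ρ (b i))
    (hd : IsUnit (Algebra.discr R b)) (x : Λ) (hx : IsIntegral A x) : ∃ s : S, ρ s = x := by
  have hρ' : ∀ r : R, ρ (algebraMap R S r) =
      algebraMap κ Λ (((algebraMap A κ).comp φ₀) r) := fun r => by
    rw [hρ, RingHom.comp_apply]
  -- the basis elements are integral over `A`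
  have hint : ∀ i, IsIntegral A (bΛ i) := by
    intro i
    have : Module.Finite R S := Module.Finite.of_basis b
    obtain ⟨p, hpm, hp⟩ := Algebra.IsIntegral.isIntegral (R := R) (b i)
    refine ⟨p.map φ₀, hpm.map φ₀, ?_⟩
    have h1 : Polynomial.eval₂ (algebraMap A Λ) (bΛ i) (p.map φ₀) =
        ρ (Polynomial.eval₂ (algebraMap R S) (b i) p) := by
      rw [Polynomial.eval₂_map, Polynomial.hom_eval₂, hb]
      congr 1
      ext r
      rw [RingHom.comp_apply, RingHom.comp_apply, hρ, ← IsScalarTower.algebraMap_apply]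
    rw [h1, hp, map_zero]
  have hdisc : Algebra.discr κ bΛ = algebraMap A κ (φ₀ (Algebra.discr R b)) := by
    rw [← map_discr_eq_discr ((algebraMap A κ).comp φ₀) ρ hρ' b bΛ hb, RingHom.comp_apply]
  have hmem := mem_span_of_isIntegral_of_isUnit_discr (A := A) bΛ hint
    (φ₀ (Algebra.discr R b)) (hd.map φ₀) hdisc x hx
  -- an `A`-combination of the `bΛ i` is the image of an `R`-combination of the `b i`
  refine Submodule.span_induction (p := fun y _ => ∃ s : S, ρ s = y) ?_ ?_ ?_ ?_ hmem
  · rintro _ ⟨i, rfl⟩
    exact ⟨b i, (hb i).symm⟩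
  · exact ⟨0, map_zero ρ⟩
  · rintro y z _ _ ⟨s, rfl⟩ ⟨t, rfl⟩
    exact ⟨s + t, map_add ρ s t⟩
  · rintro a y _ ⟨s, rfl⟩
    obtain ⟨r, rfl⟩ := hφ₀ a
    refine ⟨algebraMap R S r * s, ?_⟩
    rw [map_mul, hρ, ← IsScalarTower.algebraMap_apply, Algebra.smul_def]

end ReductionNormal

end Fermat.Agent.Good.Purity
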