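import Mathlib
import Fermat.Agent.Good.OmegaCurve
import Fermat.Agent.Good.PurityByHand

/-!
# Transport of the GOODQUOT hypotheses along `O₀ → O₀[ω]` (track L-GEN, node G-INST-2, part 2)

Setting: `O₀` a commutative ring, `F₀` a field with `[Algebra O₀[X] F₀]`; `F₀[ω] = OmegaExt F₀` is an
algebra over `(O₀[ω])[X]` by `OmegaExt.polyAlgebra` (a reducible def, use as local instance).
`B₀`, `B₀'` are the integral closures of `O₀[X]` in `F₀` and of `(O₀[ω])[X]` in `F₀[ω]`.

* `OmegaExt.closureEquiv`, `OmegaExt.closureAlgEquiv` : `B₀[ω] ≃ B₀'` (`3` invertible in `O₀`).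
* `OmegaExt.finite_closure` : `B₀'` is finite over `(O₀[ω])[X]` if `B₀` is finite over `O₀[X]`.
* `OmegaExt.closureTensorEquiv` : `B₀' ⊗_{O₀[ω]} k ≃+* B₀ ⊗_{O₀} k`.
* `OmegaExt.fracHom`, `OmegaExt.basisOfBasis`, `OmegaExt.discr_basisOfBasis_eq`,
  `OmegaExt.isIntegral_algebraMap_of_isIntegral`, `OmegaExt.not_C_dvd_map` : transport of (H1).
-/

set_option autoImplicit false

namespace Fermat.Agent.Good

open Polynomial TensorProduct

/-! ### part 1 -/
namespace OmegaExt

section Closure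

variable {O₀ : Type*} [CommRing O₀] {F₀ : Type*} [Field F₀] [Algebra O₀[X] F₀]

/-- the `(O₀[ω])[X]`-algebra structure on `F₀[ω]` (use as a local instance) -/
@[reducible] noncomputable def polyAlgebra : Algebra (OmegaExt O₀)[X] (OmegaExt F₀) :=
  (polyHom (O₀ := O₀) (F₀ := F₀)).toAlgebra

attribute [local instance] polyAlgebra

theorem algebraMap_polyAlgebra :
    algebraMap (OmegaExt O₀)[X] (OmegaExt F₀) = polyHom (O₀ := O₀) (F₀ := F₀) := rfl

theorem isIntegral_polyAlgebra_iff (z : OmegaExt F₀) :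
    IsIntegral (OmegaExt O₀)[X] z ↔ IsIntegral O₀[X] z :=
  isIntegralElem_polyHom_iff z

theorem mem_integralClosure_repr_iff (h3 : IsUnit (3 : O₀)) (a b : F₀) :
    algebraMap F₀ (OmegaExt F₀) a + algebraMap F₀ _ b * ω F₀ ∈
        integralClosure (OmegaExt O₀)[X] (OmegaExt F₀) ↔
      a ∈ integralClosure O₀[X] F₀ ∧ b ∈ integralClosure O₀[X] F₀ :=
  isIntegralElem_polyHom_repr_iff h3 a b

variable (O₀ F₀) in
/-- `B₀[ω] → B₀'`, where `B₀`, `B₀'` are the integral closures of `O₀[X]` in `F₀` and of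
`(O₀[ω])[X]` in `F₀[ω]` -/
noncomputable def closureHom : OmegaExt ↥(integralClosure O₀[X] F₀) →+*
    ↥(integralClosure (OmegaExt O₀)[X] (OmegaExt F₀)) :=
  (map (integralClosure O₀[X] F₀).val.toRingHom).codRestrict
    (integralClosure (OmegaExt O₀)[X] (OmegaExt F₀)).toSubring (fun z => by
      obtain ⟨a, b, rfl⟩ := exists_repr _ z
      rw [map_add, map_mul, map_algebraMap, map_algebraMap, map_ω]
      show IsIntegral (OmegaExt O₀)[X] _
      rw [isIntegral_polyAlgebra_iff]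
      exact isIntegral_repr a.2 b.2)

theorem coe_closureHom (z : OmegaExt ↥(integralClosure O₀[X] F₀)) :
    (closureHom O₀ F₀ z : OmegaExt F₀) = map (integralClosure O₀[X] F₀).val.toRingHom z := rfl

theorem closureHom_injective : Function.Injective (closureHom O₀ F₀) := by
  intro x y h
  have := congrArg (Subtype.val) h
  rw [coe_closureHom, coe_closureHom] at this
  exact map_injective _ Subtype.val_injective this

theorem closureHom_surjective (h3 : IsUnit (3 : O₀)) : Function.Surjective (closureHom O₀ F₀) := by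
  rintro ⟨z, hz⟩
  obtain ⟨a, b, rfl⟩ := exists_repr _ z
  obtain ⟨ha, hb⟩ := (mem_integralClosure_repr_iff h3 a b).mp hz
  refine ⟨algebraMap ↥(integralClosure O₀[X] F₀) _ ⟨a, ha⟩ +
    algebraMap ↥(integralClosure O₀[X] F₀) _ ⟨b, hb⟩ * ω _, ?_⟩
  apply Subtype.ext
  rw [coe_closureHom, map_add, map_mul, map_algebraMap, map_algebraMap, map_ω]
  rfl

/-- `B₀[ω] ≃ B₀'` -/
noncomputable def closureEquiv (h3 : IsUnit (3 : O₀)) : OmegaExt ↥(integralClosure O₀[X] F₀) ≃+*
    ↥(integralClosure (OmegaExt O₀)[X] (OmegaExt F₀)) :=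
  RingEquiv.ofBijective (closureHom O₀ F₀) ⟨closureHom_injective, closureHom_surjective h3⟩

theorem closureEquiv_apply (h3 : IsUnit (3 : O₀)) (z : OmegaExt ↥(integralClosure O₀[X] F₀)) :
    closureEquiv h3 z = closureHom O₀ F₀ z := rfl

end Closure

end OmegaExt

/-! ### part 2 -/
namespace OmegaExt

section ClosureAlg

variable {O₀ : Type*} [CommRing O₀] {F₀ : Type*} [Field F₀] [Algebra O₀[X] F₀]
  [Algebra O₀ F₀] [IsScalarTower O₀ O₀[X] F₀]

attribute [local instance] polyAlgebra algebraOmega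

instance isScalarTower_polyAlgebra :
    IsScalarTower (OmegaExt O₀) (OmegaExt O₀)[X] (OmegaExt F₀) :=
  .of_algebraMap_eq fun o => by
    rw [algebraMap_polyAlgebra, algebraMap_omega_eq, Polynomial.algebraMap_apply,
      Algebra.algebraMap_self, RingHom.id_apply, polyHom, RingHom.comp_apply, polyTo_C]
    obtain ⟨a, b, rfl⟩ := exists_repr O₀ o
    simp only [map_add, map_mul, map_algebraMap, map_ω]
    rw [IsScalarTower.algebraMap_apply O₀ O₀[X] F₀ a, IsScalarTower.algebraMap_apply O₀ O₀[X] F₀ b]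
    rfl

theorem coe_algebraMap_closure (o : OmegaExt O₀) :
    ((algebraMap (OmegaExt O₀) ↥(integralClosure (OmegaExt O₀)[X] (OmegaExt F₀)) o :
      ↥(integralClosure (OmegaExt O₀)[X] (OmegaExt F₀))) : OmegaExt F₀) =
      map (algebraMap O₀ F₀) o := rfl

theorem closureHom_algebraMap (o : OmegaExt O₀) :
    closureHom O₀ F₀ (algebraMap (OmegaExt O₀) (OmegaExt ↥(integralClosure O₀[X] F₀)) o) =
      algebraMap (OmegaExt O₀) ↥(integralClosure (OmegaExt O₀)[X] (OmegaExt F₀)) o := by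
  apply Subtype.ext
  rw [coe_closureHom, coe_algebraMap_closure, algebraMap_omega_eq]
  obtain ⟨a, b, rfl⟩ := exists_repr O₀ o
  simp only [map_add, map_mul, map_algebraMap, map_ω]
  rfl

/-- `B₀[ω] ≃ B₀'` as `O₀[ω]`-algebras -/
noncomputable def closureAlgEquiv (h3 : IsUnit (3 : O₀)) :
    OmegaExt ↥(integralClosure O₀[X] F₀) ≃ₐ[OmegaExt O₀]
      ↥(integralClosure (OmegaExt O₀)[X] (OmegaExt F₀)) :=
  AlgEquiv.ofRingEquiv (f := closureEquiv h3) (fun o => closureHom_algebraMap o)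

theorem closureAlgEquiv_apply (h3 : IsUnit (3 : O₀)) (z : OmegaExt ↥(integralClosure O₀[X] F₀)) :
    (closureAlgEquiv (F₀ := F₀) h3) z = closureHom O₀ F₀ z := rfl

end ClosureAlg

end OmegaExt

/-! ### part 3 -/
namespace OmegaExt

section ClosureTensor

variable {O₀ : Type*} [CommRing O₀] {F₀ : Type*} [Field F₀] [Algebra O₀[X] F₀]
  [Algebra O₀ F₀] [IsScalarTower O₀ O₀[X] F₀]

attribute [local instance] polyAlgebra algebraOmega

/-- the inclusion `B₀ → B₀'` -/
noncomputable def closureOf : ↥(integralClosure O₀[X] F₀) →+*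
    ↥(integralClosure (OmegaExt O₀)[X] (OmegaExt F₀)) :=
  (closureHom O₀ F₀).comp (algebraMap ↥(integralClosure O₀[X] F₀) (OmegaExt ↥(integralClosure O₀[X] F₀)))

omit [Algebra O₀ F₀] [IsScalarTower O₀ O₀[X] F₀] in
theorem coe_closureOf (b : ↥(integralClosure O₀[X] F₀)) :
    ((closureOf b : ↥(integralClosure (OmegaExt O₀)[X] (OmegaExt F₀))) : OmegaExt F₀) =
      algebraMap F₀ (OmegaExt F₀) (b : F₀) := by
  rw [closureOf, RingHom.comp_apply, coe_closureHom, map_algebraMap]
  rfl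

/-- the element `ω` of `B₀'` -/
noncomputable def closureω : ↥(integralClosure (OmegaExt O₀)[X] (OmegaExt F₀)) :=
  closureHom O₀ F₀ (ω _)

omit [Algebra O₀ F₀] [IsScalarTower O₀ O₀[X] F₀] in
theorem coe_closureω :
    ((closureω : ↥(integralClosure (OmegaExt O₀)[X] (OmegaExt F₀))) : OmegaExt F₀) = ω F₀ := by
  rw [closureω, coe_closureHom, map_ω]

theorem closureω_eq :
    (closureω : ↥(integralClosure (OmegaExt O₀)[X] (OmegaExt F₀))) =
      algebraMap (OmegaExt O₀) _ (ω O₀) := by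
  apply Subtype.ext
  rw [coe_closureω, coe_algebraMap_closure, map_ω]

omit [Algebra O₀ F₀] [IsScalarTower O₀ O₀[X] F₀] in
theorem exists_closure_repr (h3 : IsUnit (3 : O₀))
    (z : ↥(integralClosure (OmegaExt O₀)[X] (OmegaExt F₀))) :
    ∃ a b : ↥(integralClosure O₀[X] F₀), z = closureOf a + closureOf b * closureω := by
  obtain ⟨y, rfl⟩ := closureHom_surjective h3 z
  obtain ⟨a, b, rfl⟩ := exists_repr _ y
  exact ⟨a, b, by rw [map_add, map_mul]; rfl⟩

omit [Algebra O₀ F₀] [IsScalarTower O₀ O₀[X] F₀] in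
theorem closureOf_smul (p : O₀[X]) (b : ↥(integralClosure O₀[X] F₀)) :
    closureOf (p • b) = (p.map (algebraMap O₀ (OmegaExt O₀))) • closureOf b := by
  apply Subtype.ext
  rw [coe_closureOf]
  show _ = algebraMap (OmegaExt O₀)[X] (OmegaExt F₀) _ * _
  rw [coe_closureOf, algebraMap_polyAlgebra, polyHom_map, ← map_mul, Subalgebra.coe_smul,
    Algebra.smul_def]

omit [Algebra O₀ F₀] [IsScalarTower O₀ O₀[X] F₀] in
/-- `B₀'` is finite over `(O₀[ω])[X]` if `B₀` is finite over `O₀[X]` -/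
theorem finite_closure (h3 : IsUnit (3 : O₀)) [Module.Finite O₀[X] ↥(integralClosure O₀[X] F₀)] :
    Module.Finite (OmegaExt O₀)[X] ↥(integralClosure (OmegaExt O₀)[X] (OmegaExt F₀)) := by
  classical
  obtain ⟨S, hS⟩ := (Module.Finite.fg_top :
    (⊤ : Submodule O₀[X] ↥(integralClosure O₀[X] F₀)).FG)
  refine ⟨⟨S.image closureOf, ?_⟩⟩
  rw [eq_top_iff]
  have key : ∀ a : ↥(integralClosure O₀[X] F₀), closureOf a ∈
      Submodule.span (OmegaExt O₀)[X]
        ((S.image closureOf : Finset _) : Set ↥(integralClosure (OmegaExt O₀)[X] (OmegaExt F₀))) := by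
    intro a
    have ha : a ∈ Submodule.span O₀[X] (S : Set ↥(integralClosure O₀[X] F₀)) := by
      rw [hS]; trivial
    induction ha using Submodule.span_induction with
    | mem x hx =>
      apply Submodule.subset_span
      rw [Finset.coe_image]
      exact ⟨x, hx, rfl⟩
    | zero => rw [map_zero]; exact Submodule.zero_mem _
    | add x y _ _ hx hy => rw [map_add]; exact Submodule.add_mem _ hx hy
    | smul p x _ hx => rw [closureOf_smul]; exact Submodule.smul_mem _ _ hx
  rintro z -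
  obtain ⟨a, b, rfl⟩ := exists_closure_repr h3 z
  refine Submodule.add_mem _ (key a) ?_
  have : closureOf b * (closureω : ↥(integralClosure (OmegaExt O₀)[X] (OmegaExt F₀))) =
      (C (ω O₀) : (OmegaExt O₀)[X]) • closureOf b := by
    apply Subtype.ext
    show _ = algebraMap (OmegaExt O₀)[X] (OmegaExt F₀) _ * _
    rw [algebraMap_polyAlgebra, polyHom_C_ω, mul_comm]
    rw [Subalgebra.coe_mul, coe_closureω]
  rw [this]
  exact Submodule.smul_mem _ _ (key b)

variable (k : Type*) [CommRing k] [Algebra O₀ k] [Algebra (OmegaExt O₀) k]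
  [IsScalarTower O₀ (OmegaExt O₀) k]

/-- `B₀' ⊗_{O₀[ω]} k ≃ B₀ ⊗_{O₀} k` -/
noncomputable def closureTensorEquiv (h3 : IsUnit (3 : O₀)) :
    ↥(integralClosure (OmegaExt O₀)[X] (OmegaExt F₀)) ⊗[OmegaExt O₀] k ≃+*
      ↥(integralClosure O₀[X] F₀) ⊗[O₀] k :=
  (Algebra.TensorProduct.congr (closureAlgEquiv (F₀ := F₀) h3).symm
    (AlgEquiv.refl (R := OmegaExt O₀) (A₁ := k))).toRingEquiv.trans
    (tensorCancel O₀ ↥(integralClosure O₀[X] F₀) k)

theorem closureTensorEquiv_tmul (h3 : IsUnit (3 : O₀)) (b : ↥(integralClosure O₀[X] F₀)) (c : k) :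
    closureTensorEquiv (F₀ := F₀) k h3 (closureOf b ⊗ₜ c) = b ⊗ₜ c := by
  have h : (closureAlgEquiv (F₀ := F₀) h3).symm (closureOf b) =
      algebraMap ↥(integralClosure O₀[X] F₀) (OmegaExt ↥(integralClosure O₀[X] F₀)) b := by
    rw [AlgEquiv.symm_apply_eq]; rfl
  rw [closureTensorEquiv, RingEquiv.trans_apply]
  have h2 : (Algebra.TensorProduct.congr (closureAlgEquiv (F₀ := F₀) h3).symm
      (AlgEquiv.refl (R := OmegaExt O₀) (A₁ := k))).toRingEquiv (closureOf b ⊗ₜ c) =
      algebraMap ↥(integralClosure O₀[X] F₀) (OmegaExt ↥(integralClosure O₀[X] F₀)) b ⊗ₜ c := by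
    show (Algebra.TensorProduct.congr (closureAlgEquiv (F₀ := F₀) h3).symm
      (AlgEquiv.refl (R := OmegaExt O₀) (A₁ := k))) (closureOf b ⊗ₜ c) = _
    rw [Algebra.TensorProduct.congr_apply, Algebra.TensorProduct.map_tmul]
    simp only [AlgEquiv.coe_toAlgHom, h, AlgEquiv.coe_refl, id_eq]
  rw [h2]
  exact tensorCancel_tmul_algebraMap O₀ _ k b c

end ClosureTensor

end OmegaExt

/-! ### part 4 -/
namespace OmegaExt

section Basis

variable {O₀ : Type*} [CommRing O₀] [IsDomain O₀] {F₀ : Type*} [Field F₀] [Algebra O₀[X] F₀]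
  {K₀ : Type*} [Field K₀] [Algebra O₀[X] K₀] [IsFractionRing O₀[X] K₀] [Algebra K₀ F₀]
  [IsScalarTower O₀[X] K₀ F₀]
  {K' : Type*} [Field K'] [Algebra (OmegaExt O₀)[X] K'] [IsFractionRing (OmegaExt O₀)[X] K']
  [Algebra K' (OmegaExt F₀)]

attribute [local instance] polyAlgebra

variable [IsScalarTower (OmegaExt O₀)[X] K' (OmegaExt F₀)]

theorem mapRingHom_of_injective :
    Function.Injective (mapRingHom (algebraMap O₀ (OmegaExt O₀))) :=
  Polynomial.map_injective _ algebraMap_injective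

variable (O₀ K₀ K') in
/-- the embedding `Frac O₀[X] → Frac (O₀[ω])[X]` -/
noncomputable def fracHom : K₀ →+* K' :=
  IsFractionRing.lift (A := O₀[X]) (K := K₀)
    (g := (algebraMap (OmegaExt O₀)[X] K').comp (mapRingHom (algebraMap O₀ (OmegaExt O₀))))
    ((IsFractionRing.injective (OmegaExt O₀)[X] K').comp mapRingHom_of_injective)

theorem fracHom_algebraMap (p : O₀[X]) :
    fracHom O₀ K₀ K' (algebraMap O₀[X] K₀ p) =
      algebraMap (OmegaExt O₀)[X] K' (p.map (algebraMap O₀ (OmegaExt O₀))) := by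
  rw [fracHom, IsFractionRing.lift_algebraMap]
  rfl

theorem algebraMap_fracHom (c : K₀) :
    algebraMap K' (OmegaExt F₀) (fracHom O₀ K₀ K' c) =
      algebraMap F₀ (OmegaExt F₀) (algebraMap K₀ F₀ c) := by
  have : (algebraMap K' (OmegaExt F₀)).comp (fracHom O₀ K₀ K') =
      (algebraMap F₀ (OmegaExt F₀)).comp (algebraMap K₀ F₀) := by
    apply IsLocalization.ringHom_ext (nonZeroDivisors O₀[X])
    refine RingHom.ext fun p => ?_
    simp only [RingHom.comp_apply]
    rw [fracHom_algebraMap,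
      ← IsScalarTower.algebraMap_apply (OmegaExt O₀)[X] K' (OmegaExt F₀),
      algebraMap_polyAlgebra, polyHom_map, ← IsScalarTower.algebraMap_apply O₀[X] K₀ F₀]
  exact DFunLike.congr_fun this c

omit [IsDomain O₀] [IsFractionRing (OmegaExt O₀)[X] K'] in
theorem algebraMap_C_ω :
    algebraMap K' (OmegaExt F₀) (algebraMap (OmegaExt O₀)[X] K' (C (ω O₀))) = ω F₀ := by
  rw [← IsScalarTower.algebraMap_apply (OmegaExt O₀)[X] K' (OmegaExt F₀),
    algebraMap_polyAlgebra, polyHom_C_ω]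

variable {ι : Type*} [Fintype ι]

variable (O₀) in
include O₀ in
omit [IsDomain O₀] in
theorem linearIndependent_of_basis (b : Module.Basis ι K₀ F₀) :
    LinearIndependent K' (fun i => algebraMap F₀ (OmegaExt F₀) (b i)) := by
  classical
  rw [Fintype.linearIndependent_iff]
  intro g hg
  obtain ⟨s, hs⟩ := IsLocalization.exist_integer_multiples_of_finset
    (nonZeroDivisors (OmegaExt O₀)[X]) (Finset.univ.image g)
  have hs' : ∀ i, ∃ P : (OmegaExt O₀)[X], algebraMap _ K' P = (s : (OmegaExt O₀)[X]) • g i :=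
    fun i => hs (g i) (Finset.mem_image_of_mem g (Finset.mem_univ i))
  choose P hP using hs'
  -- the relation over `(O₀[ω])[X]`
  have hrel : ∑ i, polyHom (F₀ := F₀) (P i) * algebraMap F₀ (OmegaExt F₀) (b i) = 0 := by
    have : ∑ i, polyHom (F₀ := F₀) (P i) * algebraMap F₀ (OmegaExt F₀) (b i) =
        (s : (OmegaExt O₀)[X]) • ∑ i, g i • algebraMap F₀ (OmegaExt F₀) (b i) := by
      rw [Finset.smul_sum]
      refine Finset.sum_congr rfl fun i _ => ?_
      rw [← algebraMap_polyAlgebra, IsScalarTower.algebraMap_apply (OmegaExt O₀)[X] K' (OmegaExt F₀),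
        hP, ← Algebra.smul_def, smul_assoc]
    rw [this, hg, smul_zero]
  choose p q hpq using fun i => exists_poly_repr O₀ (P i)
  have hrel' : algebraMap F₀ (OmegaExt F₀) (∑ i, algebraMap O₀[X] F₀ (p i) * b i) +
      algebraMap F₀ (OmegaExt F₀) (∑ i, algebraMap O₀[X] F₀ (q i) * b i) * ω F₀ =
      algebraMap F₀ (OmegaExt F₀) 0 + algebraMap F₀ (OmegaExt F₀) 0 * ω F₀ := by
    rw [map_zero, zero_mul, add_zero, ← hrel, map_sum, map_sum, Finset.sum_mul,
      ← Finset.sum_add_distrib]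
    refine Finset.sum_congr rfl fun i _ => ?_
    have hPi : polyHom (F₀ := F₀) (P i) = algebraMap F₀ (OmegaExt F₀) (algebraMap O₀[X] F₀ (p i)) +
        algebraMap F₀ (OmegaExt F₀) (algebraMap O₀[X] F₀ (q i)) * ω F₀ := by
      conv_lhs => rw [hpq i]
      rw [map_add, map_mul, polyHom_map, polyHom_map, polyHom_C_ω]
    rw [hPi, map_mul, map_mul]
    ring
  obtain ⟨h1, h2⟩ := repr_unique F₀ hrel'
  have hb := Fintype.linearIndependent_iff.mp b.linearIndependent
  have hp : ∀ i, p i = 0 := by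
    intro i
    have := hb (fun i => algebraMap O₀[X] K₀ (p i)) (by
      rw [← h1]
      refine Finset.sum_congr rfl fun i _ => ?_
      rw [Algebra.smul_def, ← IsScalarTower.algebraMap_apply]) i
    exact (IsFractionRing.injective O₀[X] K₀) (by rw [this, map_zero])
  have hq : ∀ i, q i = 0 := by
    intro i
    have := hb (fun i => algebraMap O₀[X] K₀ (q i)) (by
      rw [← h2]
      refine Finset.sum_congr rfl fun i _ => ?_
      rw [Algebra.smul_def, ← IsScalarTower.algebraMap_apply]) i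
    exact (IsFractionRing.injective O₀[X] K₀) (by rw [this, map_zero])
  intro i
  have hPi : P i = 0 := by rw [hpq i, hp, hq]; simp
  have h0 : (s : (OmegaExt O₀)[X]) • g i = 0 := by rw [← hP, hPi, map_zero]
  rw [Algebra.smul_def] at h0
  rcases mul_eq_zero.mp h0 with h | h
  · exfalso
    exact (IsLocalization.map_units K' s).ne_zero h
  · exact h

end Basis

end OmegaExt

/-! ### part 5 -/
namespace OmegaExt

section Basis2

variable {O₀ : Type*} [CommRing O₀] [IsDomain O₀] {F₀ : Type*} [Field F₀] [Algebra O₀[X] F₀]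
  {K₀ : Type*} [Field K₀] [Algebra O₀[X] K₀] [IsFractionRing O₀[X] K₀] [Algebra K₀ F₀]
  [IsScalarTower O₀[X] K₀ F₀]
  {K' : Type*} [Field K'] [Algebra (OmegaExt O₀)[X] K'] [IsFractionRing (OmegaExt O₀)[X] K']
  [Algebra K' (OmegaExt F₀)]

attribute [local instance] polyAlgebra

variable [IsScalarTower (OmegaExt O₀)[X] K' (OmegaExt F₀)]

variable {ι : Type*} [Fintype ι]

variable (O₀) in
include O₀ in
theorem span_of_basis (b : Module.Basis ι K₀ F₀) :
    ⊤ ≤ Submodule.span K' (Set.range fun i => algebraMap F₀ (OmegaExt F₀) (b i)) := by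
  have key : ∀ a : F₀, algebraMap F₀ (OmegaExt F₀) a ∈
      Submodule.span K' (Set.range fun i => algebraMap F₀ (OmegaExt F₀) (b i)) := by
    intro a
    rw [← b.sum_repr a, map_sum]
    refine Submodule.sum_mem _ fun i _ => ?_
    rw [Algebra.smul_def, map_mul, ← algebraMap_fracHom (O₀ := O₀) (K' := K'), ← Algebra.smul_def]
    exact Submodule.smul_mem _ _ (Submodule.subset_span ⟨i, rfl⟩)
  rintro z -
  obtain ⟨a, c, rfl⟩ := exists_repr F₀ z
  refine Submodule.add_mem _ (key a) ?_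
  rw [mul_comm, ← algebraMap_C_ω (O₀ := O₀) (K' := K'), ← Algebra.smul_def]
  exact Submodule.smul_mem _ _ (key c)

variable (O₀ K') in
/-- the `Frac (O₀[ω])[X]`-basis of `F₀[ω]` induced by a `Frac O₀[X]`-basis of `F₀` -/
noncomputable def basisOfBasis (b : Module.Basis ι K₀ F₀) : Module.Basis ι K' (OmegaExt F₀) :=
  Module.Basis.mk (linearIndependent_of_basis O₀ b) (span_of_basis O₀ b)

@[simp] theorem basisOfBasis_apply (b : Module.Basis ι K₀ F₀) (i : ι) :
    basisOfBasis O₀ K' b i = algebraMap F₀ (OmegaExt F₀) (b i) := by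
  rw [basisOfBasis, Module.Basis.mk_apply]

theorem discr_basisOfBasis [DecidableEq ι] (b : Module.Basis ι K₀ F₀) :
    Algebra.discr K' (basisOfBasis O₀ K' b) = fracHom O₀ K₀ K' (Algebra.discr K₀ b) :=
  (Purity.map_discr_eq_discr (fracHom O₀ K₀ K') (algebraMap F₀ (OmegaExt F₀))
    (fun c => (algebraMap_fracHom c).symm) b (basisOfBasis O₀ K' b)
    (fun i => basisOfBasis_apply b i)).symm

theorem discr_basisOfBasis_eq [DecidableEq ι] (b : Module.Basis ι K₀ F₀) (d : O₀[X])
    (hd : Algebra.discr K₀ b = algebraMap O₀[X] K₀ d) :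
    Algebra.discr K' (basisOfBasis O₀ K' b) =
      algebraMap (OmegaExt O₀)[X] K' (d.map (algebraMap O₀ (OmegaExt O₀))) := by
  rw [discr_basisOfBasis, hd, fracHom_algebraMap]

omit [IsDomain O₀] in
theorem isIntegral_algebraMap_of_isIntegral {x : F₀} (hx : IsIntegral O₀[X] x) :
    IsIntegral (OmegaExt O₀)[X] (algebraMap F₀ (OmegaExt F₀) x) := by
  rw [isIntegral_polyAlgebra_iff]
  exact hx.map (IsScalarTower.toAlgHom O₀[X] F₀ (OmegaExt F₀))

omit [IsDomain O₀] in
/-- `C p ∤ d` is preserved by `O₀[X] → (O₀[ω])[X]` -/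
theorem not_C_dvd_map [Nontrivial O₀] {p : O₀} {d : O₀[X]} (h : ¬ C p ∣ d) :
    ¬ C (algebraMap O₀ (OmegaExt O₀) p) ∣ d.map (algebraMap O₀ (OmegaExt O₀)) := by
  rintro ⟨Q, hQ⟩
  obtain ⟨q₁, q₂, rfl⟩ := exists_poly_repr O₀ Q
  have h1 : d.map (algebraMap O₀ (OmegaExt O₀)) +
      (0 : O₀[X]).map (algebraMap O₀ (OmegaExt O₀)) * C (ω O₀) =
      (C p * q₁).map (algebraMap O₀ (OmegaExt O₀)) +
        (C p * q₂).map (algebraMap O₀ (OmegaExt O₀)) * C (ω O₀) := by
    rw [Polynomial.map_zero, zero_mul, add_zero, hQ, Polynomial.map_mul, Polynomial.map_mul,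
      Polynomial.map_C]
    ring
  obtain ⟨h2, -⟩ := poly_repr_unique O₀ h1
  exact h ⟨q₁, h2⟩

end Basis2

end OmegaExt

end Fermat.Agent.Good
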