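import Mathlib
import Fermat.Agent.Good.OmegaTransport
import Fermat.Agent.Good.HesseBase
import Fermat.Agent.Good.InstOddQ
import Fermat.Agent.X0.Defs

/-!
# L-GEN, node [G-INST-2], part 3: the generic fibre over `ℚ(ω)` for `ℓ = 2`

* generic: `OmegaExt.isLocalization_away` (`K = O₀[1/π] ⇒ K[ω] = O₀[ω][1/π]`),
  `OmegaExt.polyHom_map_map` (compatibility of the polynomial structures);
* `Komega = ℚ(ω) = OmegaExt ℚ`, `Otwo → Komega`, `Komega = Otwo[1/2]`, `otwoKomegaCoverHom`;
* `Fomega N = F_N(ω) = OmegaExt F_N` (a field), `polyAlgebraOmegaQ N : Algebra Komega[X] (Fomega N)`,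
  `polyAlgebraOmega N : Algebra Otwo[X] (Fomega N)` (`X ↦ j`), compatibility;
* `integralClosure Komega[X] (Fomega N)` is Dedekind, finite, torsion free, with fraction field
  `Fomega N`; `Fomega N / Frac Komega[X]` is finite separable;
* the embedding `omegaEmb N : Fomega N →+* Fb N` (`ω ↦ ζ`), compatible with
  `sigmaBar : Komega →+* ℚ̄` and `X ↦ jBar N`.
-/

set_option autoImplicit false
set_option linter.style.haveILetI false
set_option linter.unusedSectionVars false

open ModularCurve ModularCurve.IgusaScheme IntermediateField Polynomial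
open Fermat.Agent.Igusa Fermat.Agent.Good Fermat.Agent.X0

namespace Fermat.Agent.Good

open TensorProduct

namespace OmegaExt

section Away

variable {O₀ K : Type*} [CommRing O₀] [CommRing K] [Nontrivial K] [Algebra O₀ K]

attribute [local instance] algebraOmega

/-- `K = O₀[1/π]` implies `K[ω] = O₀[ω][1/π]` -/
theorem isLocalization_away (π : O₀) [IsLocalization.Away π K] :
    IsLocalization.Away (algebraMap O₀ (OmegaExt O₀) π) (OmegaExt K) := by
  have hπ : IsUnit (algebraMap O₀ K π) := IsLocalization.Away.algebraMap_isUnit π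
  have hmap : ∀ n : ℕ, algebraMap (OmegaExt O₀) (OmegaExt K) (algebraMap O₀ (OmegaExt O₀) π ^ n) =
      algebraMap K (OmegaExt K) (algebraMap O₀ K π ^ n) := by
    intro n
    rw [map_pow, map_pow, algebraMap_omega_eq, map_algebraMap]
  refine (isLocalization_iff _ _).mpr ⟨?_, ?_, ?_⟩
  · rintro ⟨_, n, rfl⟩
    rw [hmap]
    exact (hπ.pow n).map _
  · intro z
    obtain ⟨a, b, rfl⟩ := exists_repr K z
    obtain ⟨n, a', ha⟩ := IsLocalization.Away.surj π a
    obtain ⟨m, b', hb⟩ := IsLocalization.Away.surj π b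
    refine ⟨(algebraMap O₀ (OmegaExt O₀) (a' * π ^ m) +
      algebraMap O₀ (OmegaExt O₀) (b' * π ^ n) * ω O₀,
      ⟨algebraMap O₀ (OmegaExt O₀) π ^ (n + m), n + m, rfl⟩), ?_⟩
    show _ * algebraMap (OmegaExt O₀) (OmegaExt K) (algebraMap O₀ (OmegaExt O₀) π ^ (n + m)) =
      algebraMap (OmegaExt O₀) (OmegaExt K) _
    rw [hmap, algebraMap_omega_eq]
    simp only [map_add, map_mul, map_pow, map_algebraMap, map_ω]
    rw [← ha, ← hb]
    simp only [map_mul, map_pow]
    ring
  · intro x y hxy
    obtain ⟨a, b, rfl⟩ := exists_repr O₀ x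
    obtain ⟨a', b', rfl⟩ := exists_repr O₀ y
    rw [algebraMap_omega_eq] at hxy
    simp only [map_add, map_mul, map_algebraMap, map_ω] at hxy
    obtain ⟨h1, h2⟩ := repr_unique K hxy
    obtain ⟨⟨_, n, rfl⟩, hc₁⟩ := IsLocalization.exists_of_eq (M := Submonoid.powers π) h1
    obtain ⟨⟨_, m, rfl⟩, hc₂⟩ := IsLocalization.exists_of_eq (M := Submonoid.powers π) h2
    refine ⟨⟨algebraMap O₀ (OmegaExt O₀) π ^ (n + m), n + m, rfl⟩, ?_⟩
    simp only at hc₁ hc₂ ⊢
    have e1 : algebraMap O₀ (OmegaExt O₀) π ^ (n + m) * algebraMap O₀ (OmegaExt O₀) a =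
        algebraMap O₀ (OmegaExt O₀) π ^ (n + m) * algebraMap O₀ (OmegaExt O₀) a' := by
      rw [← map_pow, ← map_mul, ← map_mul, pow_add, mul_comm (π ^ n), mul_assoc, hc₁, mul_assoc]
    have e2 : algebraMap O₀ (OmegaExt O₀) π ^ (n + m) * algebraMap O₀ (OmegaExt O₀) b =
        algebraMap O₀ (OmegaExt O₀) π ^ (n + m) * algebraMap O₀ (OmegaExt O₀) b' := by
      rw [← map_pow, ← map_mul, ← map_mul, pow_add, mul_assoc, hc₂, mul_assoc]
    rw [mul_add, mul_add, ← mul_assoc, ← mul_assoc, e1, e2]

end Away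

section Compat

variable {O₀ K₁ : Type*} [CommRing O₀] [CommRing K₁] [Algebra O₀ K₁]
  {F₀ : Type*} [Field F₀] [Algebra O₀[X] F₀] [Algebra K₁[X] F₀]

/-- compatibility of the structure maps `(O₀[ω])[X] → F₀[ω]` and `(K₁[ω])[X] → F₀[ω]` -/
theorem polyHom_map_map
    (h : ∀ p : O₀[X], algebraMap K₁[X] F₀ (p.map (algebraMap O₀ K₁)) = algebraMap O₀[X] F₀ p)
    (P : (OmegaExt O₀)[X]) :
    polyHom (O₀ := K₁) (F₀ := F₀) (P.map (map (algebraMap O₀ K₁))) =
      polyHom (O₀ := O₀) (F₀ := F₀) P := by
  obtain ⟨p, q, rfl⟩ := exists_poly_repr O₀ P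
  have e : ∀ p : O₀[X], (p.map (algebraMap O₀ (OmegaExt O₀))).map (map (algebraMap O₀ K₁)) =
      (p.map (algebraMap O₀ K₁)).map (algebraMap K₁ (OmegaExt K₁)) := by
    intro p
    rw [Polynomial.map_map, Polynomial.map_map]
    congr 1
    ext a
    simp
  rw [Polynomial.map_add, Polynomial.map_mul, Polynomial.map_C, map_ω, e, e, map_add, map_mul,
    map_add, map_mul, polyHom_map, polyHom_map, polyHom_map, polyHom_map, polyHom_C_ω,
    polyHom_C_ω, h, h]

end Compat

end OmegaExt

end Fermat.Agent.Good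

noncomputable section
namespace Fermat.Agent.Good.InstTwo

/-! ## part 2 -/
/-! ### The field `ℚ(ω)` -/

/-- `X² + X + 1` is irreducible over `ℚ`. -/
theorem omegaPoly_irreducible_rat : Irreducible (omegaPoly ℚ) := by
  apply irreducible_of_degree_le_three_of_not_isRoot
  · rw [omegaPoly_natDegree]; decide
  · intro x hx
    unfold omegaPoly at hx
    simp only [IsRoot.def, eval_add, eval_pow, eval_X, eval_one] at hx
    nlinarith [sq_nonneg (x + 1 / 2)]

instance fact_irreducible_omegaPoly_rat : Fact (Irreducible (omegaPoly ℚ)) :=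
  ⟨omegaPoly_irreducible_rat⟩

/-- `ℚ(ω)` -/
abbrev Komega : Type := OmegaExt ℚ

instance : CharZero Komega := charZero_of_injective_algebraMap (algebraMap ℚ Komega).injective

instance invertible_three_rat : Invertible (3 : ℚ) := invertibleThree

/-- `ℤ_(2)[ω] → ℚ(ω)` -/
instance algebraOtwoKomega : Algebra Otwo Komega := OmegaExt.algebraOmega Ztwo ℚ

theorem algebraMap_otwo_komega :
    algebraMap Otwo Komega = OmegaExt.map (algebraMap Ztwo ℚ) := rfl

/-- `ℚ(ω) = ℤ_(2)[ω][1/2]` -/
instance isLocalization_away_two : IsLocalization.Away (2 : Otwo) Komega := by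
  haveI : IsLocalization.Away (zlPrime 2) ℚ := InstOdd.isLocalization_away_zlPrime_rat 2
  have h := OmegaExt.isLocalization_away (O₀ := Ztwo) (K := ℚ) (zlPrime 2)
  rw [algebraMap_zlPrime_two] at h
  exact h

theorem algebraMap_otwo_komega_omega :
    algebraMap Otwo Komega (HesseDatum.omega : Otwo) = (HesseDatum.omega : Komega) := by
  rw [OmegaExt.hesseDatum_omega, OmegaExt.hesseDatum_omega, algebraMap_otwo_komega,
    OmegaExt.map_ω]

/-- the base change morphism of Hesse covers `ℤ_(2)[ω] → ℚ(ω)` -/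
def otwoKomegaCoverHom :
    RigidCover.Hom (algebraMap Otwo Komega) (HesseRing.cover Otwo) (HesseRing.cover Komega) :=
  HesseRing.coverHom (algebraMap Otwo Komega) algebraMap_otwo_komega_omega

/-! ## part 3 -/
section Curve

variable (N : ℕ) [NeZero N]

set_option quotPrecheck false in
local notation "F" => ↥(modularFunctionFieldFull N)

instance fact_irreducible_omegaPoly_full : Fact (Irreducible (omegaPoly F)) :=
  ⟨omegaPoly_irreducible_of_le _⟩

/-- `F_N(ω)` -/
abbrev Fomega : Type := OmegaExt F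

/-- the `ℚ(ω)[X]`-algebra structure on `F_N(ω)`, `X ↦ j` (use with `letI`) -/
@[reducible]
def polyAlgebraOmegaQ : Algebra Komega[X] (Fomega N) :=
  letI := InstOdd.polyAlgebraFullQ N
  OmegaExt.polyAlgebra (O₀ := ℚ) (F₀ := F)

/-- the `ℤ_(2)[ω][X]`-algebra structure on `F_N(ω)`, `X ↦ j` (use with `letI`) -/
@[reducible]
def polyAlgebraOmega : Algebra Otwo[X] (Fomega N) :=
  letI := InstOdd.polyAlgebraFull N 2
  OmegaExt.polyAlgebra (O₀ := Ztwo) (F₀ := F)

theorem polyAlgebraOmegaQ_injective :
    letI := polyAlgebraOmegaQ N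
    Function.Injective (algebraMap Komega[X] (Fomega N)) := by
  letI := InstOdd.polyAlgebraFullQ N
  exact OmegaExt.polyHom_injective (InstOdd.polyAlgebraFullQ_injective N)

theorem polyAlgebraOmega_injective :
    letI := polyAlgebraOmega N
    Function.Injective (algebraMap Otwo[X] (Fomega N)) := by
  letI := InstOdd.polyAlgebraFull N 2
  exact OmegaExt.polyHom_injective (InstOdd.polyAlgebraFull_injective N 2)

/-- the two structures are compatible -/
theorem polyAlgebraOmegaQ_map (P : Otwo[X]) :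
    letI := polyAlgebraOmegaQ N
    letI := polyAlgebraOmega N
    algebraMap Komega[X] (Fomega N) (P.map (algebraMap Otwo Komega)) =
      algebraMap Otwo[X] (Fomega N) P := by
  letI := InstOdd.polyAlgebraFullQ N
  letI := InstOdd.polyAlgebraFull N 2
  exact OmegaExt.polyHom_map_map (O₀ := Ztwo) (K₁ := ℚ) (F₀ := F)
    (fun p => InstOdd.polyAlgebraFullQ_map 2 N p) P

end Curve

/-! ## part 4 -/
section CurveQ

variable (N : ℕ) [NeZero N]

set_option quotPrecheck false in
local notation "F" => ↥(modularFunctionFieldFull N)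

attribute [local instance] FractionRing.liftAlgebra FractionRing.isScalarTower_liftAlgebra

theorem faithfulSMul_polyAlgebraOmegaQ :
    letI := polyAlgebraOmegaQ N
    FaithfulSMul Komega[X] (Fomega N) := by
  letI := polyAlgebraOmegaQ N
  exact (faithfulSMul_iff_algebraMap_injective _ _).mpr (polyAlgebraOmegaQ_injective N)

/-- `F_N(ω)` is finite over `ℚ(ω)(j) = Frac ℚ(ω)[X]` -/
theorem finiteDimensional_fomega :
    letI := polyAlgebraOmegaQ N
    haveI := faithfulSMul_polyAlgebraOmegaQ N
    FiniteDimensional (FractionRing Komega[X]) (Fomega N) := by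
  letI := polyAlgebraOmegaQ N
  haveI := faithfulSMul_polyAlgebraOmegaQ N
  letI := InstOdd.polyAlgebraFullQ N
  letI := InstOdd.polyAlgebraQj N
  haveI := InstOdd.polyAlgebraQj_isScalarTower N
  haveI := InstOdd.polyAlgebraQj_isFractionRing N
  haveI := finiteDimensional_full N
  let b := Module.finBasis ↥ℚ⟮jFull N⟯ F
  exact Module.Finite.of_basis
    (OmegaExt.basisOfBasis ℚ (FractionRing Komega[X]) b)

end CurveQ

/-! ## part 5 -/
section CurveQ

variable (N : ℕ) [NeZero N]

set_option quotPrecheck false in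
local notation "F" => ↥(modularFunctionFieldFull N)

attribute [local instance] FractionRing.liftAlgebra FractionRing.isScalarTower_liftAlgebra

instance : CharZero (FractionRing Komega[X]) :=
  charZero_of_injective_algebraMap
    ((IsFractionRing.injective Komega[X] (FractionRing Komega[X])).comp
      (Polynomial.C_injective (R := Komega)) : Function.Injective
        ((algebraMap Komega[X] (FractionRing Komega[X])).comp (C : Komega →+* Komega[X])))

theorem isSeparable_fomega :
    letI := polyAlgebraOmegaQ N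
    haveI := faithfulSMul_polyAlgebraOmegaQ N
    Algebra.IsSeparable (FractionRing Komega[X]) (Fomega N) := by
  letI := polyAlgebraOmegaQ N
  haveI := faithfulSMul_polyAlgebraOmegaQ N
  haveI := finiteDimensional_fomega N
  infer_instance

/-- the integral closure of `ℚ(ω)[X]` in `F_N(ω)` is a Dedekind domain -/
theorem isDedekindDomain_integralClosureOmegaQ :
    letI := polyAlgebraOmegaQ N
    IsDedekindDomain ↥(integralClosure Komega[X] (Fomega N)) := by
  letI := polyAlgebraOmegaQ N
  haveI := faithfulSMul_polyAlgebraOmegaQ N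
  haveI := finiteDimensional_fomega N
  haveI := isSeparable_fomega N
  exact integralClosure.isDedekindDomain Komega[X] (FractionRing Komega[X]) (Fomega N)

theorem finite_integralClosureOmegaQ :
    letI := polyAlgebraOmegaQ N
    Module.Finite Komega[X] ↥(integralClosure Komega[X] (Fomega N)) := by
  letI := polyAlgebraOmegaQ N
  haveI := faithfulSMul_polyAlgebraOmegaQ N
  haveI := finiteDimensional_fomega N
  haveI := isSeparable_fomega N
  exact IsIntegralClosure.finite Komega[X] (FractionRing Komega[X]) (Fomega N)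
    ↥(integralClosure Komega[X] (Fomega N))

theorem isFractionRing_integralClosureOmegaQ :
    letI := polyAlgebraOmegaQ N
    IsFractionRing ↥(integralClosure Komega[X] (Fomega N)) (Fomega N) := by
  letI := polyAlgebraOmegaQ N
  haveI := faithfulSMul_polyAlgebraOmegaQ N
  haveI := finiteDimensional_fomega N
  exact integralClosure.isFractionRing_of_finite_extension (FractionRing Komega[X]) (Fomega N)

theorem isTorsionFree_integralClosureOmegaQ :
    letI := polyAlgebraOmegaQ N
    Module.IsTorsionFree Komega[X] ↥(integralClosure Komega[X] (Fomega N)) := by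
  letI := polyAlgebraOmegaQ N
  haveI := faithfulSMul_polyAlgebraOmegaQ N
  haveI : Module.IsTorsionFree Komega[X] (Fomega N) := inferInstance
  exact IsIntegralClosure.isTorsionFree Komega[X] (Fomega N)

end CurveQ

/-! ## part 6 -/
/-! ### The embedding `F_N(ω) → Fb N` -/

theorem exists_zetaBar : ∃ z : Kb, z ^ 2 + z + 1 = 0 := by
  obtain ⟨z, hz⟩ := IsAlgClosed.exists_root (omegaPoly Kb) (by
    rw [degree_eq_natDegree (omegaPoly_monic Kb).ne_zero, omegaPoly_natDegree]; norm_num)
  refine ⟨z, ?_⟩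
  unfold omegaPoly at hz
  simpa [IsRoot.def] using hz

/-- a primitive cube root of unity in `ℚ̄` -/
def zetaBar : Kb := exists_zetaBar.choose

theorem zetaBar_quad : zetaBar ^ 2 + zetaBar + 1 = 0 := exists_zetaBar.choose_spec

/-- `ℚ(ω) → ℚ̄` -/
def sigmaBar : Komega →+* Kb :=
  AdjoinRoot.lift (algebraMap ℚ Kb) zetaBar (by
    show eval₂ _ _ (X ^ 2 + X + 1) = 0
    simp only [eval₂_add, eval₂_pow, eval₂_X, eval₂_one]
    exact zetaBar_quad)

@[simp] theorem sigmaBar_ω : sigmaBar (OmegaExt.ω ℚ) = zetaBar := by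
  unfold sigmaBar OmegaExt.ω
  exact AdjoinRoot.lift_root _

@[simp] theorem sigmaBar_of (a : ℚ) :
    sigmaBar (AdjoinRoot.of (omegaPoly ℚ) a) = algebraMap ℚ Kb a := by
  unfold sigmaBar
  exact AdjoinRoot.lift_of _

section Curve

variable (N : ℕ) [NeZero N]

set_option quotPrecheck false in
local notation "F" => ↥(modularFunctionFieldFull N)

/-- `F_N → Fb N`, extension of constants on `q`-expansions -/
def fullEmb : F →+* Fb N :=
  ((coeffEmb Kb).comp (algebraMap F (LaurentSeries ℚ))).codRestrict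
    (modularFunctionFieldBar N).toSubfield.toSubring
    (fun x => coeffEmb_mem_laurentBaseChange Kb x.2)

theorem coe_fullEmb (x : F) : ((fullEmb N x : Fb N) : LaurentSeries Kb) = coeffEmb Kb (x : LaurentSeries ℚ) :=
  rfl

theorem fullEmb_jFull : fullEmb N (jFull N) = jBar N := rfl

theorem fullEmb_algebraMap (a : ℚ) :
    fullEmb N (algebraMap ℚ F a) = algebraMap Kb (Fb N) (algebraMap ℚ Kb a) := by
  rw [eq_ratCast (algebraMap ℚ F) a, eq_ratCast (algebraMap ℚ Kb) a, map_ratCast, map_ratCast]

/-- `F_N(ω) → Fb N`, `ω ↦ ζ` -/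
def omegaEmb : Fomega N →+* Fb N :=
  AdjoinRoot.lift (fullEmb N) (algebraMap Kb (Fb N) zetaBar) (by
    show eval₂ _ _ (X ^ 2 + X + 1) = 0
    simp only [eval₂_add, eval₂_pow, eval₂_X, eval₂_one]
    rw [← map_pow, ← map_add, ← map_one (algebraMap Kb (Fb N)), ← map_add, zetaBar_quad, map_zero])

@[simp] theorem omegaEmb_ω : omegaEmb N (OmegaExt.ω F) = algebraMap Kb (Fb N) zetaBar := by
  unfold omegaEmb OmegaExt.ω
  exact AdjoinRoot.lift_root _

@[simp] theorem omegaEmb_algebraMap (x : F) :
    omegaEmb N (algebraMap F (Fomega N) x) = fullEmb N x := by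
  unfold omegaEmb
  exact AdjoinRoot.lift_of _

theorem omegaEmb_injective : Function.Injective (omegaEmb N) := (omegaEmb N).injective

/-- the embedding is compatible with the polynomial structures -/
theorem omegaEmb_algebraMap_poly (g : Komega[X]) :
    letI := polyAlgebraOmegaQ N
    omegaEmb N (algebraMap Komega[X] (Fomega N) g) = aeval (jBar N) (g.map sigmaBar) := by
  letI := InstOdd.polyAlgebraFullQ N
  show omegaEmb N (OmegaExt.polyHom (O₀ := ℚ) (F₀ := F) g) = _
  have h : (omegaEmb N).comp (OmegaExt.polyHom (O₀ := ℚ) (F₀ := F)) =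
      ((aeval (jBar N) : Kb[X] →ₐ[Kb] Fb N) : Kb[X] →+* Fb N).comp (mapRingHom sigmaBar) := by
    apply Polynomial.ringHom_ext
    · intro c
      obtain ⟨a, b, rfl⟩ := OmegaExt.exists_repr ℚ c
      simp only [RingHom.comp_apply, coe_mapRingHom, Polynomial.map_C, RingHom.coe_coe, aeval_C]
      rw [OmegaExt.polyHom, RingHom.comp_apply, OmegaExt.polyTo_C]
      simp only [map_add, map_mul, OmegaExt.map_algebraMap, OmegaExt.map_ω, omegaEmb_algebraMap,
        omegaEmb_ω, sigmaBar_ω]
      have e1 : ∀ a : ℚ, fullEmb N (algebraMap ℚ[X] F (C a)) = algebraMap Kb (Fb N) (a : Kb) := by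
        intro a
        rw [InstOdd.polyAlgebraFullQ_algebraMap, aeval_C, fullEmb_algebraMap,
          eq_ratCast (algebraMap ℚ Kb) a]
      have e2 : ∀ (f : ℚ →+* OmegaExt ℚ) (a : ℚ), sigmaBar (f a) = (a : Kb) := by
        intro f a
        rw [eq_ratCast f a, map_ratCast]
      rw [e1, e1, e2, e2]
    · simp only [RingHom.comp_apply, coe_mapRingHom, Polynomial.map_X, RingHom.coe_coe, aeval_X]
      rw [OmegaExt.polyHom, RingHom.comp_apply, OmegaExt.polyTo_X, OmegaExt.map_algebraMap,
        omegaEmb_algebraMap, InstOdd.polyAlgebraFullQ_algebraMap, aeval_X, fullEmb_jFull]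
  exact DFunLike.congr_fun h g

end Curve

end Fermat.Agent.Good.InstTwo
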