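/-
L-GEN (Program L, S18), nodes [G-INST-ODD]/[G-INST-2]: transfer between the literal integral
closure `↥(integralClosure A F)` (a `Subalgebra A F`) and a subalgebra `B : Subalgebra O F` over a
smaller base `O → A` with the same carrier (e.g. `A = O[X]`, `B = chartAlgFin N ℓ`).

* `subalgEquiv B hB : ↥(integralClosure A F) ≃ₐ[O] ↥B` (identity on elements);
* `tensorLeftEquiv B hB k : k ⊗[O] ↥(integralClosure A F) ≃ₐ[O] ↥B ⊗[O] k`;
* transfer of `IsDomain` (from `B ⊗ k` to `k ⊗ integralClosure`) and of `IsIntegrallyClosed`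
  (from `k ⊗ integralClosure` to `B ⊗ k`).

Mathlib only; everything is generic in `O`, so that no instance path on a concrete base ring is
fixed here.
-/
import Mathlib

set_option autoImplicit false

noncomputable section
namespace Fermat.Agent.Good.IntClosureTransfer

open TensorProduct

variable {O A F : Type*} [CommRing O] [CommRing A] [CommRing F] [Algebra O A] [Algebra A F]
  [Algebra O F] [IsScalarTower O A F]
  (B : Subalgebra O F) (hB : ∀ x : F, x ∈ B ↔ IsIntegral A x)

/-- The identity on elements, `integralClosure A F ≃ B`. -/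
def subalgEquiv : ↥(integralClosure A F) ≃ₐ[O] ↥B where
  toFun x := ⟨x.1, (hB x.1).mpr x.2⟩
  invFun x := ⟨x.1, (hB x.1).mp x.2⟩
  left_inv _ := rfl
  right_inv _ := rfl
  map_mul' _ _ := rfl
  map_add' _ _ := rfl
  commutes' r := Subtype.ext (by
    show ((algebraMap O ↥(integralClosure A F) r : ↥(integralClosure A F)) : F) =
      ((algebraMap O ↥B r : ↥B) : F)
    rfl)

@[simp] theorem coe_subalgEquiv (x : ↥(integralClosure A F)) :
    ((subalgEquiv B hB x : ↥B) : F) = (x : F) := rfl

@[simp] theorem coe_subalgEquiv_symm (x : ↥B) :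
    (((subalgEquiv B hB).symm x : ↥(integralClosure A F)) : F) = (x : F) := rfl

variable (k : Type*) [CommRing k] [Algebra O k]

/-- `k ⊗[O] integralClosure A F ≃ B ⊗[O] k`. -/
def tensorLeftEquiv : k ⊗[O] ↥(integralClosure A F) ≃ₐ[O] ↥B ⊗[O] k :=
  (Algebra.TensorProduct.comm O k ↥(integralClosure A F)).trans
    (Algebra.TensorProduct.congr (subalgEquiv B hB) AlgEquiv.refl)

theorem tensorLeftEquiv_tmul (c : k) (x : ↥(integralClosure A F)) :
    tensorLeftEquiv B hB k (c ⊗ₜ[O] x) = subalgEquiv B hB x ⊗ₜ[O] c := rfl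

/-- `integralClosure A F ⊗[O] k ≃ B ⊗[O] k`. -/
def tensorRightEquiv : ↥(integralClosure A F) ⊗[O] k ≃ₐ[O] ↥B ⊗[O] k :=
  Algebra.TensorProduct.congr (subalgEquiv B hB) AlgEquiv.refl

theorem tensorRightEquiv_tmul (x : ↥(integralClosure A F)) (c : k) :
    tensorRightEquiv B hB k (x ⊗ₜ[O] c) = subalgEquiv B hB x ⊗ₜ[O] c := rfl

include hB in
/-- (D): `B ⊗ k` a domain ⇒ `k ⊗ integralClosure A F` a domain. -/
theorem isDomain_tensor_left [IsDomain (↥B ⊗[O] k)] : IsDomain (k ⊗[O] ↥(integralClosure A F)) :=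
  MulEquiv.isDomain _ (tensorLeftEquiv B hB k).toMulEquiv

include hB in
/-- (D): `B ⊗ k` a domain ⇒ `integralClosure A F ⊗ k` a domain. -/
theorem isDomain_tensor_right [IsDomain (↥B ⊗[O] k)] :
    IsDomain (↥(integralClosure A F) ⊗[O] k) :=
  MulEquiv.isDomain _ (tensorRightEquiv B hB k).toMulEquiv

include hB in
/-- `k ⊗ integralClosure A F` integrally closed ⇒ `B ⊗ k` integrally closed. -/
theorem isIntegrallyClosed_of_tensor_left [IsIntegrallyClosed (k ⊗[O] ↥(integralClosure A F))] :
    IsIntegrallyClosed (↥B ⊗[O] k) :=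
  IsIntegrallyClosed.of_equiv (tensorLeftEquiv B hB k).toRingEquiv

include hB in
/-- `integralClosure A F ⊗ k` integrally closed ⇒ `B ⊗ k` integrally closed. -/
theorem isIntegrallyClosed_of_tensor_right [IsIntegrallyClosed (↥(integralClosure A F) ⊗[O] k)] :
    IsIntegrallyClosed (↥B ⊗[O] k) :=
  IsIntegrallyClosed.of_equiv (tensorRightEquiv B hB k).toRingEquiv

/-- `subalgEquiv` is `A`-semilinear: it intertwines the `A`-action on the integral closure with
multiplication by the image of `a` in `F`. -/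
theorem coe_subalgEquiv_smul (a : A) (x : ↥(integralClosure A F)) :
    ((subalgEquiv B hB (a • x) : ↥B) : F) = algebraMap A F a * (x : F) := by
  rw [coe_subalgEquiv, Algebra.smul_def]
  rfl

end Fermat.Agent.Good.IntClosureTransfer
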