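import Mathlib
import Fermat.Agent.Good.InstTwoQ
import Fermat.Agent.Good.IntClosureTransfer
import Fermat.Agent.Good.IgusaDiscFin
import Fermat.Agent.Good.GoodQuotCover

/-!
# L-GEN, node [G-INST-2], part 4: GOODQUOT for `ℓ = 2`, finite chart, modulo (H2)

* `algebraOtwoOfRoot k w hw : Algebra Otwo k` for a `ℤ_(2)`-algebra `k` with a root `w` of
  `X² + X + 1`; `span_two_isMaximal`, `algebraMap_otwo_two`, `ker_algebraMap_otwo`;
* generic in/out adapters `omegaTensorRightEquiv`, `isDomain_omega_tensor_right`,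
  `isIntegrallyClosed_of_omega_tensor_right` (and `_left`);
* `exists_basis_discr_omega` : (H1) for `F_N(ω)` over `ℤ_(2)[ω][X]` (from `S28X.exists_basis_discr_fin`);
* `isIntegrallyClosed_tensor_fin_two_of_H2` : (H2) for the Hesse cover over `ℤ_(2)[ω]` implies
  `IsIntegrallyClosed (chartAlgFin N 2 ⊗[ℤ_(2)] k)` for `k` algebraically closed of characteristic `2`.
-/

set_option autoImplicit false
set_option linter.style.haveILetI false
set_option linter.unusedSectionVars false

open ModularCurve ModularCurve.IgusaScheme IntermediateField Polynomial TensorProduct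
open Fermat.Agent.Igusa Fermat.Agent.Good Fermat.Agent.X0

noncomputable section
namespace Fermat.Agent.Good.InstTwo

/-! ### The base `O₂ = ℤ_(2)[ω] → k` -/

section Base

theorem span_two_isMaximal : (Ideal.span {(2 : Otwo)}).IsMaximal := by
  rw [← ker_otwoResidue']
  exact RingHom.ker_isMaximal_of_surjective _ otwoResidue_surjective

variable (k : Type*) [Field k] [Algebra Ztwo k]

/-- the `O₂`-algebra structure on a `ℤ_(2)`-algebra `k` with a chosen root of `X² + X + 1`
(use with `letI`) -/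
@[reducible] noncomputable def algebraOtwoOfRoot (w : k) (hw : w ^ 2 + w + 1 = 0) : Algebra Otwo k :=
  (AdjoinRoot.lift (algebraMap Ztwo k) w (by
    show eval₂ _ _ (X ^ 2 + X + 1) = 0
    simp only [eval₂_add, eval₂_pow, eval₂_X, eval₂_one]
    exact hw)).toAlgebra

variable {k} in
theorem algebraOtwoOfRoot_ω (w : k) (hw : w ^ 2 + w + 1 = 0) :
    letI := algebraOtwoOfRoot k w hw
    algebraMap Otwo k (OmegaExt.ω Ztwo) = w := by
  letI := algebraOtwoOfRoot k w hw
  show AdjoinRoot.lift _ _ _ (OmegaExt.ω Ztwo) = w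
  unfold OmegaExt.ω
  exact AdjoinRoot.lift_root _

variable {k} in
theorem algebraOtwoOfRoot_isScalarTower (w : k) (hw : w ^ 2 + w + 1 = 0) :
    letI := algebraOtwoOfRoot k w hw
    IsScalarTower Ztwo Otwo k := by
  letI := algebraOtwoOfRoot k w hw
  refine IsScalarTower.of_algebraMap_eq fun a => ?_
  show _ = AdjoinRoot.lift _ _ _ (AdjoinRoot.of _ a)
  rw [AdjoinRoot.lift_of]

end Base

section Ker

variable {k : Type*} [Field k] [CharP k 2] [Algebra Otwo k]

theorem algebraMap_otwo_two : algebraMap Otwo k 2 = 0 := by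
  rw [map_ofNat]
  exact CharTwo.two_eq_zero

theorem ker_algebraMap_otwo : RingHom.ker (algebraMap Otwo k) = Ideal.span {(2 : Otwo)} := by
  symm
  apply span_two_isMaximal.eq_of_le (RingHom.ker_ne_top _)
  rw [Ideal.span_singleton_le_iff_mem, RingHom.mem_ker]
  exact algebraMap_otwo_two

end Ker

/-! ### Generic in/out adapters for the `ω`-extension -/

section Adapters

variable {O₀ : Type*} [CommRing O₀] {F₀ : Type*} [Field F₀] [Algebra O₀[X] F₀]
  [Algebra O₀ F₀] [IsScalarTower O₀ O₀[X] F₀]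
  (B : Subalgebra O₀ F₀) (hB : ∀ x : F₀, x ∈ B ↔ IsIntegral O₀[X] x)
  (k : Type*) [CommRing k] [Algebra O₀ k] [Algebra (OmegaExt O₀) k]
  [IsScalarTower O₀ (OmegaExt O₀) k] (h3 : IsUnit (3 : O₀))

attribute [local instance] OmegaExt.polyAlgebra OmegaExt.algebraOmega

/-- `B₀' ⊗_{O₀[ω]} k ≃+* B ⊗_{O₀} k` -/
noncomputable def omegaTensorRightEquiv :
    ↥(integralClosure (OmegaExt O₀)[X] (OmegaExt F₀)) ⊗[OmegaExt O₀] k ≃+* ↥B ⊗[O₀] k :=
  (OmegaExt.closureTensorEquiv (F₀ := F₀) k h3).trans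
    (IntClosureTransfer.tensorRightEquiv B hB k).toRingEquiv

/-- `k ⊗_{O₀[ω]} B₀' ≃+* B ⊗_{O₀} k` -/
noncomputable def omegaTensorLeftEquiv :
    k ⊗[OmegaExt O₀] ↥(integralClosure (OmegaExt O₀)[X] (OmegaExt F₀)) ≃+* ↥B ⊗[O₀] k :=
  (Algebra.TensorProduct.comm (OmegaExt O₀) k
    ↥(integralClosure (OmegaExt O₀)[X] (OmegaExt F₀))).toRingEquiv.trans
    (omegaTensorRightEquiv B hB k h3)

include hB h3 in
theorem isDomain_omega_tensor_right [IsDomain (↥B ⊗[O₀] k)] :
    IsDomain (↥(integralClosure (OmegaExt O₀)[X] (OmegaExt F₀)) ⊗[OmegaExt O₀] k) :=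
  MulEquiv.isDomain _ (omegaTensorRightEquiv B hB k h3).toMulEquiv

include hB h3 in
theorem isDomain_omega_tensor_left [IsDomain (↥B ⊗[O₀] k)] :
    IsDomain (k ⊗[OmegaExt O₀] ↥(integralClosure (OmegaExt O₀)[X] (OmegaExt F₀))) :=
  MulEquiv.isDomain _ (omegaTensorLeftEquiv B hB k h3).toMulEquiv

include hB h3 in
theorem isIntegrallyClosed_of_omega_tensor_right
    [IsIntegrallyClosed
      (↥(integralClosure (OmegaExt O₀)[X] (OmegaExt F₀)) ⊗[OmegaExt O₀] k)] :
    IsIntegrallyClosed (↥B ⊗[O₀] k) :=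
  IsIntegrallyClosed.of_equiv
    (R := ↥(integralClosure (OmegaExt O₀)[X] (OmegaExt F₀)) ⊗[OmegaExt O₀] k)
    (omegaTensorRightEquiv B hB k h3)

include hB h3 in
theorem isIntegrallyClosed_of_omega_tensor_left
    [IsIntegrallyClosed
      (k ⊗[OmegaExt O₀] ↥(integralClosure (OmegaExt O₀)[X] (OmegaExt F₀)))] :
    IsIntegrallyClosed (↥B ⊗[O₀] k) :=
  IsIntegrallyClosed.of_equiv
    (R := k ⊗[OmegaExt O₀] ↥(integralClosure (OmegaExt O₀)[X] (OmegaExt F₀)))
    (omegaTensorLeftEquiv B hB k h3)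

end Adapters

section H1

variable (N : ℕ) [NeZero N]

set_option quotPrecheck false in
local notation "F" => ↥(modularFunctionFieldFull N)

attribute [local instance] FractionRing.liftAlgebra FractionRing.isScalarTower_liftAlgebra

theorem faithfulSMul_polyAlgebraOmega :
    letI := polyAlgebraOmega N
    FaithfulSMul Otwo[X] (Fomega N) := by
  letI := polyAlgebraOmega N
  exact (faithfulSMul_iff_algebraMap_injective _ _).mpr (polyAlgebraOmega_injective N)

/-- **(H1) for `ℓ = 2` over `ℤ_(2)[ω][X]`.** -/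
theorem exists_basis_discr_omega (hN : ¬ 2 ∣ N) :
    letI := polyAlgebraOmega N
    haveI := faithfulSMul_polyAlgebraOmega N
    ∃ b : Module.Basis (Fin (dedekindPsi N)) (FractionRing Otwo[X]) (Fomega N),
      (∀ i, IsIntegral Otwo[X] (b i)) ∧
      ∃ d : Otwo[X], Algebra.discr (FractionRing Otwo[X]) b =
          algebraMap Otwo[X] (FractionRing Otwo[X]) d ∧ ¬ C (2 : Otwo) ∣ d := by
  letI := InstOdd.polyAlgebraFull N 2
  haveI : FaithfulSMul Ztwo[X] F :=
    (faithfulSMul_iff_algebraMap_injective _ _).mpr (InstOdd.polyAlgebraFull_injective N 2)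
  letI := polyAlgebraOmega N
  haveI := faithfulSMul_polyAlgebraOmega N
  obtain ⟨b, -, hbmem, d, hd, hdvd⟩ :=
    S28X.exists_basis_discr_fin N 2 hN (fun p => rfl) (FractionRing Ztwo[X])
  refine ⟨OmegaExt.basisOfBasis Ztwo (FractionRing Otwo[X]) b, ?_,
    d.map (algebraMap Ztwo Otwo), OmegaExt.discr_basisOfBasis_eq b d hd, ?_⟩
  · intro i
    rw [OmegaExt.basisOfBasis_apply]
    exact OmegaExt.isIntegral_algebraMap_of_isIntegral
      ((InstOdd.mem_integralClosure_poly_iff N 2 _).mpr (hbmem i))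
  · have := OmegaExt.not_C_dvd_map hdvd
    rwa [algebraMap_zlPrime_two] at this

end H1

section Final

variable (N : ℕ) [NeZero N]

set_option quotPrecheck false in
local notation "FN" => ↥(modularFunctionFieldFull N)

attribute [local instance] FractionRing.liftAlgebra FractionRing.isScalarTower_liftAlgebra
attribute [local instance] Algebra.TensorProduct.rightAlgebra

theorem isUnit_three_ztwo : IsUnit (3 : Ztwo) := isUnit_of_invertible 3

/-- **GOODQUOT for `ℓ = 2`, finite chart**, modulo (H2) in the shape of Layer 3. -/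
theorem isIntegrallyClosed_tensor_fin_two_of_H2 (hN : ¬ 2 ∣ N)
    (k : Type*) [Field k] [IsAlgClosed k] [CharP k 2] [Algebra Ztwo k]
    (H2 : letI := polyAlgebraOmega N
      haveI := faithfulSMul_polyAlgebraOmega N
      letI := Aux.algebraFrac Otwo[X] (HesseRing.cover Otwo).R (Fomega N)
        (FractionRing (HesseRing.cover Otwo).R)
      ∃ c' : Module.Basis (Fin (dedekindPsi N)) (FractionRing (HesseRing.cover Otwo).R)
          (Fomega N ⊗[Otwo[X]] (HesseRing.cover Otwo).R),
        (∀ i, IsIntegral (HesseRing.cover Otwo).R (c' i)) ∧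
        ∃ dc' : (HesseRing.cover Otwo).R,
          algebraMap (HesseRing.cover Otwo).R (FractionRing (HesseRing.cover Otwo).R) dc' =
            Algebra.discr (FractionRing (HesseRing.cover Otwo).R) c' ∧
          ∃ m : ℕ, dc' ∣ (HesseRing.cover Otwo).const (2 : Otwo) ^ m) :
    IsIntegrallyClosed (↥(chartAlgFin N 2) ⊗[Ztwo] k) := by
  -- the structures on `k`
  obtain ⟨w, hw⟩ : ∃ w : k, w ^ 2 + w + 1 = 0 := by
    obtain ⟨z, hz⟩ := IsAlgClosed.exists_root (omegaPoly k) (by
      rw [degree_eq_natDegree (omegaPoly_monic k).ne_zero, omegaPoly_natDegree]; norm_num)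
    refine ⟨z, ?_⟩
    unfold omegaPoly at hz
    simpa [IsRoot.def] using hz
  letI algk : Algebra Otwo k := algebraOtwoOfRoot k w hw
  haveI towk : IsScalarTower Ztwo Otwo k := algebraOtwoOfRoot_isScalarTower w hw
  letI hdk : HesseDatum k := HesseDatum.ofRingHom (algebraMap Otwo k)
  -- the structures on `F_N` and `F_N(ω)`
  letI := InstOdd.polyAlgebraFull N 2
  haveI := InstOdd.polyAlgebraFull_isScalarTower N 2
  letI := polyAlgebraOmega N
  haveI := faithfulSMul_polyAlgebraOmega N
  letI : Algebra Otwo (Fomega N) := OmegaExt.algebraOmega Ztwo FN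
  have hB : ∀ x : FN, x ∈ chartAlgFin N 2 ↔ IsIntegral Ztwo[X] x :=
    fun x => (InstOdd.mem_integralClosure_poly_iff N 2 x).symm
  -- (D)
  haveI := S28X.isDomain_tensor_fin N 2 hN k
  haveI hD : IsDomain (↥(integralClosure Otwo[X] (Fomega N)) ⊗[Otwo] k) :=
    isDomain_omega_tensor_right (chartAlgFin N 2) hB k isUnit_three_ztwo
  -- (H1)
  obtain ⟨b, hb, d, hd, hdvd⟩ := exists_basis_discr_omega N hN
  -- Layer 3
  haveI hIC : IsIntegrallyClosed (↥(integralClosure Otwo[X] (Fomega N)) ⊗[Otwo] k) :=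
    GQ3.isIntegrallyClosed_tensor_right_of_rigidCover
      (HesseRing.coverHom (algebraMap Otwo k) rfl)
      (F := Fomega N) (B0 := ↥(integralClosure Otwo[X] (Fomega N)))
      (K0 := FractionRing Otwo[X]) (L := FractionRing (HesseRing.cover Otwo).R)
      (2 : Otwo) otwo_prime_two.ne_zero algebraMap_otwo_two span_two_isMaximal
      b hb d hd hdvd H2
  exact isIntegrallyClosed_of_omega_tensor_right (chartAlgFin N 2) hB k isUnit_three_ztwo

end Final

end Fermat.Agent.Good.InstTwo
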