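import Fermat.Agent.Good.RamDataCharts

/-!
# L-GEN (H2): the curve side of (RAM) in the shape consumed by `H2C`

For a char-0 field `K` with `σ : K →+* ℚ̄`, a Dedekind domain `B₀`, torsion free over `K[X]`,
and an injective `ι : B₀ →+* Fb N` with `ι (g) = (σ g)(jBar N)` for all `g : K[X]`, the three
curve-side hypotheses `hX`, `h1728`, `hgen` of `H2C.exists_basis_isIntegral_discr_dvd_pow`
(Good/H2Cover.lean) hold.  Generic in `K`, `B₀`, `ι`: use for `K = ℚ` (`ℓ` odd) and `K = ℚ(ω)`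
(`ℓ = 2`).
-/

set_option autoImplicit false
set_option linter.unusedSectionVars false

open Polynomial AlgebraicCurve

namespace Fermat.Agent.Good.CurveSide

open Fermat.Agent.X0 Fermat.Agent.Good.RamDesc

variable (N : ℕ) [NeZero N] {K : Type*} [Field K] [CharZero K] (σ : K →+* Kb)
  {B₀ : Type*} [CommRing B₀] [IsDedekindDomain B₀] [Algebra K[X] B₀]
  [Module.IsTorsionFree K[X] B₀]
  (ι : B₀ →+* Fb N) (hι : Function.Injective ι)
  (hιp : ∀ g : K[X], ι (algebraMap K[X] B₀ g) = aeval (jBar N) (g.map σ))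

include hι hιp

theorem map_X : ι (algebraMap K[X] B₀ X) = jBar N := by
  rw [hιp, Polynomial.map_X, aeval_X]

theorem map_C (c : K) : ι (algebraMap K[X] B₀ (C c)) = algebraMap Kb (Fb N) (σ c) := by
  rw [hιp, Polynomial.map_C, aeval_C]

/-- `hX` of `H2C.exists_basis_isIntegral_discr_dvd_pow`. -/
theorem ramCount_X_dvd_three :
    ∀ Q : Ideal B₀, Q.IsPrime → algebraMap K[X] B₀ X ∈ Q → ramCount (X : K[X]) Q ∣ 3 :=
  ramCount_dvd_fin N σ ι hι (map_X N σ ι hι hιp) (map_C N σ ι hι hιp) irreducible_X monic_X 3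
    (fun _ => rfl) (fun h => by
      exfalso
      have h1 := congrArg (Polynomial.eval 0) h
      simp only [eval_X, eval_sub, eval_C] at h1
      norm_num at h1)

/-- `h1728` of `H2C.exists_basis_isIntegral_discr_dvd_pow`. -/
theorem ramCount_X_sub_dvd_two :
    ∀ Q : Ideal B₀, Q.IsPrime → algebraMap K[X] B₀ (X - C 1728) ∈ Q →
      ramCount (X - C 1728 : K[X]) Q ∣ 2 :=
  ramCount_dvd_fin N σ ι hι (map_X N σ ι hι hιp) (map_C N σ ι hι hιp)
    (irreducible_X_sub_C 1728) (monic_X_sub_C 1728) 2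
    (fun h => by
      exfalso
      have h1 := congrArg (Polynomial.eval 0) h
      simp only [eval_X, eval_sub, eval_C] at h1
      norm_num at h1) (fun _ => rfl)

/-- `hgen` of `H2C.exists_basis_isIntegral_discr_dvd_pow`. -/
theorem ramCount_generic_eq_one :
    ∀ ϖ : K[X], Irreducible ϖ → ϖ.Monic → ϖ ≠ X → ϖ ≠ X - C 1728 →
      ∀ Q : Ideal B₀, Q.IsPrime → algebraMap K[X] B₀ ϖ ∈ Q → ramCount ϖ Q = 1 :=
  fun ϖ hirr hmon h1 h2 Q hQ hmem => Nat.dvd_one.mp
    (ramCount_dvd_fin N σ ι hι (map_X N σ ι hι hιp) (map_C N σ ι hι hιp) hirr hmon 1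
      (fun h => absurd h h1) (fun h => absurd h h2) Q hQ hmem)

end Fermat.Agent.Good.CurveSide
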