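import Fermat.Agent.Good.InstTwoQ
import Fermat.Agent.Good.CurveSideRam
import Fermat.Agent.Good.H2Cover
import Fermat.Agent.Good.RigidCoverHesse

/-!
# L-GEN [G-INST-2] slice (S-c): the curve side of (RAM) and (H2) for `ℓ = 2`

`K = Komega = ℚ(ω)`, `F' = Fomega N = F_N(ω)`, `B₀ = integralClosure Komega[X] (Fomega N)`,
`ι = omegaEmb N ∘ (B₀ → F') : B₀ →+* Fb N`.

* `closureEmb N`, `closureEmb_injective`, `closureEmb_algebraMap`.
* `ramCount_X_dvd_three`, `ramCount_X_sub_dvd_two`, `ramCount_generic_eq_one` : the hypotheses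
  `hX`, `h1728`, `hgen` of `H2C.exists_basis_isIntegral_discr_dvd_pow` for `B₀`.
* `exists_basis_isIntegral_discr_dvd_pow_hesse` : **(H2) for the Hesse cover over `Otwo`**:
  the hypothesis (H2) of `GQ3.isIntegrallyClosed_tensor_of_rigidCover` for
  `P = HesseRing.cover Otwo`, `p = 2`, `F = Fomega N` (with `polyAlgebraOmega N`).
-/

set_option autoImplicit false
set_option linter.style.haveILetI false
set_option linter.unusedSectionVars false
set_option linter.overlappingInstances false

open ModularCurve ModularCurve.IgusaScheme Polynomial TensorProduct Module AlgebraicCurve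
open Fermat.Agent.Good Fermat.Agent.X0

noncomputable section

namespace Fermat.Agent.Good.InstTwoRam

open Fermat.Agent.Good.InstTwo

variable (N : ℕ) [NeZero N]

/-- `ι : B₀ →+* Fb N`, `B₀` the integral closure of `ℚ(ω)[X]` in `F_N(ω)`. -/
def closureEmb :
    letI := polyAlgebraOmegaQ N
    ↥(integralClosure Komega[X] (Fomega N)) →+* Fb N :=
  letI := polyAlgebraOmegaQ N
  (omegaEmb N).comp (algebraMap ↥(integralClosure Komega[X] (Fomega N)) (Fomega N))

theorem closureEmb_injective :
    letI := polyAlgebraOmegaQ N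
    Function.Injective (closureEmb N) := by
  letI := polyAlgebraOmegaQ N
  exact (omegaEmb_injective N).comp Subtype.val_injective

theorem closureEmb_algebraMap (g : Komega[X]) :
    letI := polyAlgebraOmegaQ N
    closureEmb N (algebraMap Komega[X] ↥(integralClosure Komega[X] (Fomega N)) g) =
      aeval (jBar N) (g.map sigmaBar) := by
  letI := polyAlgebraOmegaQ N
  show omegaEmb N (algebraMap ↥(integralClosure Komega[X] (Fomega N)) (Fomega N)
    (algebraMap Komega[X] ↥(integralClosure Komega[X] (Fomega N)) g)) = _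
  rw [← IsScalarTower.algebraMap_apply]
  exact omegaEmb_algebraMap_poly N g

/-- `hX` for `ℓ = 2`. -/
theorem ramCount_X_dvd_three :
    letI := polyAlgebraOmegaQ N
    haveI := isDedekindDomain_integralClosureOmegaQ N
    haveI := isTorsionFree_integralClosureOmegaQ N
    ∀ Q : Ideal ↥(integralClosure Komega[X] (Fomega N)), Q.IsPrime →
      algebraMap Komega[X] ↥(integralClosure Komega[X] (Fomega N)) X ∈ Q →
      ramCount (X : Komega[X]) Q ∣ 3 := by
  letI := polyAlgebraOmegaQ N
  haveI := isDedekindDomain_integralClosureOmegaQ N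
  haveI := isTorsionFree_integralClosureOmegaQ N
  exact CurveSide.ramCount_X_dvd_three N sigmaBar (closureEmb N) (closureEmb_injective N)
    (closureEmb_algebraMap N)

/-- `h1728` for `ℓ = 2`. -/
theorem ramCount_X_sub_dvd_two :
    letI := polyAlgebraOmegaQ N
    haveI := isDedekindDomain_integralClosureOmegaQ N
    haveI := isTorsionFree_integralClosureOmegaQ N
    ∀ Q : Ideal ↥(integralClosure Komega[X] (Fomega N)), Q.IsPrime →
      algebraMap Komega[X] ↥(integralClosure Komega[X] (Fomega N)) (X - C 1728) ∈ Q →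
      ramCount (X - C 1728 : Komega[X]) Q ∣ 2 := by
  letI := polyAlgebraOmegaQ N
  haveI := isDedekindDomain_integralClosureOmegaQ N
  haveI := isTorsionFree_integralClosureOmegaQ N
  exact CurveSide.ramCount_X_sub_dvd_two N sigmaBar (closureEmb N) (closureEmb_injective N)
    (closureEmb_algebraMap N)

/-- `hgen` for `ℓ = 2`. -/
theorem ramCount_generic_eq_one :
    letI := polyAlgebraOmegaQ N
    haveI := isDedekindDomain_integralClosureOmegaQ N
    haveI := isTorsionFree_integralClosureOmegaQ N
    ∀ ϖ : Komega[X], Irreducible ϖ → ϖ.Monic → ϖ ≠ X → ϖ ≠ X - C 1728 →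
      ∀ Q : Ideal ↥(integralClosure Komega[X] (Fomega N)), Q.IsPrime →
        algebraMap Komega[X] ↥(integralClosure Komega[X] (Fomega N)) ϖ ∈ Q →
        ramCount ϖ Q = 1 := by
  letI := polyAlgebraOmegaQ N
  haveI := isDedekindDomain_integralClosureOmegaQ N
  haveI := isTorsionFree_integralClosureOmegaQ N
  exact CurveSide.ramCount_generic_eq_one N sigmaBar (closureEmb N) (closureEmb_injective N)
    (closureEmb_algebraMap N)

/-- `6` is invertible in `ℚ(ω)`. -/
theorem isUnit_six_komega : IsUnit (6 : Komega) :=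
  IsUnit.mk0 _ (by norm_num)

attribute [local instance] FractionRing.liftAlgebra FractionRing.isScalarTower_liftAlgebra
attribute [local instance] Algebra.TensorProduct.rightAlgebra

theorem faithfulSMul_polyAlgebraOmega :
    letI := polyAlgebraOmega N
    FaithfulSMul Otwo[X] (Fomega N) := by
  letI := polyAlgebraOmega N
  exact (faithfulSMul_iff_algebraMap_injective _ _).mpr (polyAlgebraOmega_injective N)

/-- **(H2) for the Hesse cover over `Otwo = ℤ_(2)[ω]`**: the hypothesis (H2) of
`GQ3.isIntegrallyClosed_tensor_of_rigidCover`, for `P = HesseRing.cover Otwo`, `p = 2`,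
`F = Fomega N` with `polyAlgebraOmega N`, `E = F ⊗[Otwo[X]] P.R`. -/
theorem exists_basis_isIntegral_discr_dvd_pow_hesse
    (L : Type*) [Field L] [Algebra (HesseRing.cover Otwo).R L]
    [IsFractionRing (HesseRing.cover Otwo).R L]
    {ι : Type*} [Fintype ι] [DecidableEq ι]
    (hι :
      letI := polyAlgebraOmegaQ N
      haveI := faithfulSMul_polyAlgebraOmegaQ N
      Fintype.card ι = Module.finrank (FractionRing Komega[X]) (Fomega N)) :
    letI := polyAlgebraOmega N
    haveI := faithfulSMul_polyAlgebraOmega N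
    letI := Aux.algebraFrac Otwo[X] (HesseRing.cover Otwo).R (Fomega N) L
    ∃ c' : Basis ι L (Fomega N ⊗[Otwo[X]] (HesseRing.cover Otwo).R),
      (∀ i, IsIntegral (HesseRing.cover Otwo).R (c' i)) ∧
      ∃ d' : (HesseRing.cover Otwo).R, algebraMap (HesseRing.cover Otwo).R L d' =
        Algebra.discr L c' ∧ ∃ m : ℕ, d' ∣ (HesseRing.cover Otwo).const 2 ^ m := by
  letI := polyAlgebraOmega N
  letI := polyAlgebraOmegaQ N
  haveI := faithfulSMul_polyAlgebraOmegaQ N
  haveI := faithfulSMul_polyAlgebraOmega N
  haveI := isDedekindDomain_integralClosureOmegaQ N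
  haveI := finite_integralClosureOmegaQ N
  haveI := isTorsionFree_integralClosureOmegaQ N
  haveI := isFractionRing_integralClosureOmegaQ N
  haveI := finiteDimensional_fomega N
  haveI := isSeparable_fomega N
  exact H2C.exists_basis_isIntegral_discr_dvd_pow (O := Otwo) (K := Komega) (2 : Otwo)
    otwoKomegaCoverHom (F := Fomega N) ↥(integralClosure Komega[X] (Fomega N))
    (FractionRing Komega[X]) L
    (hesseU0_separable Komega isUnit_six_komega) (hesseV1_separable Komega isUnit_six_komega)
    (polyAlgebraOmegaQ_map N)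
    (ramCount_X_dvd_three N) (ramCount_X_sub_dvd_two N) (ramCount_generic_eq_one N) hι

/-- Variant: the index type is that of any basis of `F_N(ω)` over `Frac ℚ(ω)[X]`. -/
theorem exists_basis_isIntegral_discr_dvd_pow_hesse_of_basis
    (L : Type*) [Field L] [Algebra (HesseRing.cover Otwo).R L]
    [IsFractionRing (HesseRing.cover Otwo).R L]
    {ι : Type*} [Fintype ι] [DecidableEq ι]
    (b :
      letI := polyAlgebraOmegaQ N
      haveI := faithfulSMul_polyAlgebraOmegaQ N
      Basis ι (FractionRing Komega[X]) (Fomega N)) :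
    letI := polyAlgebraOmega N
    haveI := faithfulSMul_polyAlgebraOmega N
    letI := Aux.algebraFrac Otwo[X] (HesseRing.cover Otwo).R (Fomega N) L
    ∃ c' : Basis ι L (Fomega N ⊗[Otwo[X]] (HesseRing.cover Otwo).R),
      (∀ i, IsIntegral (HesseRing.cover Otwo).R (c' i)) ∧
      ∃ d' : (HesseRing.cover Otwo).R, algebraMap (HesseRing.cover Otwo).R L d' =
        Algebra.discr L c' ∧ ∃ m : ℕ, d' ∣ (HesseRing.cover Otwo).const 2 ^ m := by
  letI := polyAlgebraOmegaQ N
  haveI := faithfulSMul_polyAlgebraOmegaQ N
  exact exists_basis_isIntegral_discr_dvd_pow_hesse N L (Module.finrank_eq_card_basis b).symm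

end Fermat.Agent.Good.InstTwoRam
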