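import Mathlib
import Fermat.Agent.Good.InstTwo
import Fermat.Agent.Good.InstTwoRam

/-!
# L-GEN, node [G-INST-2], final: GOODQUOT for `ℓ = 2`, finite chart

`InstTwo.isIntegrallyClosed_tensor_fin_two` : for `2 ∤ N` and `k` an algebraically closed field of
characteristic `2` with `[Algebra ℤ_(2) k]`, the ring `chartAlgFin N 2 ⊗[ℤ_(2)] k` is integrally
closed.  This is the `ℓ = 2` companion of `InstOdd.isIntegrallyClosed_tensor_fin`; together they
give `isIntegrallyClosed_tensor_fin_all` for every prime `ℓ ∤ N`.

Proof: `InstTwo.isIntegrallyClosed_tensor_fin_two_of_H2` (GOODQUOT Layer 3 over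
`ℤ_(2)[ω]` with the Hesse cover) fed with `InstTwoRam.exists_basis_isIntegral_discr_dvd_pow_hesse`
((H2) over `ℚ(ω)`), the index type being `Fin (ψ(N))`.
-/

set_option autoImplicit false
set_option linter.style.haveILetI false
set_option linter.unusedSectionVars false

open ModularCurve ModularCurve.IgusaScheme IntermediateField Polynomial TensorProduct
open Fermat.Agent.Igusa Fermat.Agent.Good Fermat.Agent.X0

noncomputable section
namespace Fermat.Agent.Good.InstTwo

section Final

variable (N : ℕ) [NeZero N]

set_option quotPrecheck false in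
local notation "FN" => ↥(modularFunctionFieldFull N)

attribute [local instance] FractionRing.liftAlgebra FractionRing.isScalarTower_liftAlgebra
attribute [local instance] Algebra.TensorProduct.rightAlgebra

/-- `[F_N(ω) : ℚ(ω)(j)] = ψ(N)` -/
theorem finrank_fomega :
    letI := polyAlgebraOmegaQ N
    haveI := faithfulSMul_polyAlgebraOmegaQ N
    Module.finrank (FractionRing Komega[X]) (Fomega N) = dedekindPsi N := by
  letI := polyAlgebraOmegaQ N
  haveI := faithfulSMul_polyAlgebraOmegaQ N
  letI := InstOdd.polyAlgebraFullQ N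
  letI := InstOdd.polyAlgebraQj N
  haveI := InstOdd.polyAlgebraQj_isScalarTower N
  haveI := InstOdd.polyAlgebraQj_isFractionRing N
  haveI := finiteDimensional_full N
  let b : Module.Basis (Fin (dedekindPsi N)) ↥ℚ⟮jFull N⟯ FN :=
    Module.finBasisOfFinrankEq _ _ (S28X.finrank_full_eq_dedekindPsi N)
  rw [Module.finrank_eq_card_basis (OmegaExt.basisOfBasis ℚ (FractionRing Komega[X]) b),
    Fintype.card_fin]

/-- **GOODQUOT for `ℓ = 2`, finite chart.**  For `2 ∤ N` and `k` an algebraically closed field of
characteristic `2`, `chartAlgFin N 2 ⊗[ℤ_(2)] k` is integrally closed. -/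
theorem isIntegrallyClosed_tensor_fin_two (hN : ¬ 2 ∣ N)
    (k : Type*) [Field k] [IsAlgClosed k] [CharP k 2] [Algebra Ztwo k] :
    IsIntegrallyClosed (↥(chartAlgFin N 2) ⊗[Ztwo] k) :=
  isIntegrallyClosed_tensor_fin_two_of_H2 N hN k
    (InstTwoRam.exists_basis_isIntegral_discr_dvd_pow_hesse N
      (FractionRing (HesseRing.cover Otwo).R)
      (by rw [Fintype.card_fin]; exact (finrank_fomega N).symm))

end Final

end Fermat.Agent.Good.InstTwo
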