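import Mathlib
import Fermat.Agent.Good.InstTwoFinal
import Fermat.Agent.Good.InstOdd

/-!
# L-GEN: normality of the special fibre of the finite chart for every prime `ℓ ∤ N`

`isIntegrallyClosed_tensor_fin_all` = `InstOdd.isIntegrallyClosed_tensor_fin` (`ℓ` odd, Legendre
cover) + `InstTwo.isIntegrallyClosed_tensor_fin_two` (`ℓ = 2`, Hesse cover over `ℤ_(2)[ω]`).
-/

set_option autoImplicit false
set_option linter.style.haveILetI false
set_option linter.unusedSectionVars false

open ModularCurve ModularCurve.IgusaScheme IntermediateField Polynomial TensorProduct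
open Fermat.Agent.Igusa Fermat.Agent.Good

noncomputable section
namespace Fermat.Agent.Good

/-- **Normality of the special fibre of the finite chart, every prime `ℓ ∤ N`.** -/
theorem isIntegrallyClosed_tensor_fin_all (N : ℕ) [NeZero N] (ℓ : ℕ) [Fact ℓ.Prime]
    (hℓN : ¬ ℓ ∣ N) (k : Type*) [Field k] [IsAlgClosed k] [CharP k ℓ]
    [Algebra ↥(GaloisRep.ratLocalizedAt ℓ) k] :
    IsIntegrallyClosed (↥(chartAlgFin N ℓ) ⊗[↥(GaloisRep.ratLocalizedAt ℓ)] k) := by
  by_cases hℓ2 : ℓ = 2
  · subst hℓ2
    exact InstTwo.isIntegrallyClosed_tensor_fin_two N hℓN k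
  · exact InstOdd.isIntegrallyClosed_tensor_fin N ℓ hℓN hℓ2 k

end Fermat.Agent.Good
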