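import Mathlib

set_option autoImplicit false

open Polynomial

namespace Fermat.Agent.Good.TraceInt

/-- The trace of a square matrix over a field `K` killed by a monic polynomial with coefficients
in `R` is integral over `R`. -/
theorem isIntegral_trace_matrix {R K : Type*} [CommRing R] [Field K] [Algebra R K]
    {n : Type*} [Fintype n] [DecidableEq n] (M : Matrix n n K) (p : R[X]) (hp : p.Monic)
    (hM : aeval M p = 0) : IsIntegral R M.trace := by
  rcases isEmpty_or_nonempty n with hn | hn
  · have : M.trace = 0 := by simp [Matrix.trace]
    rw [this]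
    exact isIntegral_zero
  let Kb := AlgebraicClosure K
  let M' : Matrix n n Kb := (algebraMap K Kb).mapMatrix M
  have hM' : aeval M' p = 0 := by
    have h1 : aeval M' p = (algebraMap K Kb).mapMatrix (aeval M p) := by
      rw [aeval_def, aeval_def, hom_eval₂]
      congr 1
      ext r i j
      simp [Matrix.algebraMap_matrix_apply, IsScalarTower.algebraMap_apply R K Kb]
      split_ifs <;> simp
    rw [h1, hM, map_zero]
  have htr : M'.trace = algebraMap K Kb M.trace := by
    simp [M', Matrix.trace, map_sum]
  rw [← isIntegral_algebraMap_iff (algebraMap K Kb).injective, ← htr,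
    Matrix.trace_eq_sum_roots_charpoly]
  refine IsIntegral.multiset_sum fun μ hμ => ?_
  have hroot : M'.charpoly.IsRoot μ := (mem_roots (Matrix.charpoly_monic M').ne_zero).mp hμ
  have hspec : μ ∈ spectrum Kb M' := Matrix.mem_spectrum_iff_isRoot_charpoly.mpr hroot
  have h2 := spectrum.subset_polynomial_aeval M' (p.map (algebraMap R Kb)) ⟨μ, hspec, rfl⟩
  rw [aeval_map_algebraMap, hM', spectrum.zero_eq, Set.mem_singleton_iff] at h2
  exact ⟨p, hp, by rw [← eval_map]; exact h2⟩

/-- **Integrality of traces** for a finite-dimensional commutative algebra `E` over a field `K`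
(not necessarily a field): the trace of an element integral over `R` is integral over `R`. -/
theorem isIntegral_trace {R K E : Type*} [CommRing R] [Field K] [CommRing E] [Algebra R K]
    [Algebra K E] [Algebra R E] [IsScalarTower R K E] [Module.Finite K E] {z : E}
    (hz : IsIntegral R z) : IsIntegral R (Algebra.trace K E z) := by
  classical
  obtain ⟨p, hp, hpz⟩ := hz
  let b := Module.finBasis K E
  rw [Algebra.trace_eq_matrix_trace b]
  refine isIntegral_trace_matrix _ p hp ?_
  have h1 : aeval (Algebra.leftMulMatrix b z) p = Algebra.leftMulMatrix b (aeval z p) := by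
    rw [← aeval_map_algebraMap K, ← aeval_map_algebraMap K (x := z), aeval_algHom_apply]
  rw [h1, aeval_def, hpz, map_zero]

end Fermat.Agent.Good.TraceInt
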