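import Fermat.Agent.Good.AuxAlgebra
import Fermat.Agent.Good.TraceIntegral
import Fermat.Agent.Good.PurityByHand

/-!
# L-GEN [G-INST-CUSP]: the trace retraction in the AUX model `E = F ⊗[A0] R`

`A0` a commutative ring, `R` a finite free `A0`-algebra, `F` a field over `A0`,
`E = F ⊗[A0] R` (an `R`-algebra through the right factor).  Given an `A0`-linear retraction
`proj : R → A0` which is a multiple of the trace (`u * Tr r = proj r`; for the Kummer cover
`proj = covProj`, `u = 1/N`):

* `AuxRet.projE proj : E →ₗ[F] F`, `x ⊗ r ↦ proj r • x`;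
* `AuxRet.smul_trace_eq_projE` : `u • Tr_{E/F} z = projE z`;
* `AuxRet.isIntegral_projE` : `projE` maps `R`-integral elements to `A0`-integral elements;
* for `A` the integral closure of `A0` in `F` (`IsIntegralClosure A A0 F`):
  `AuxRet.inclHom : A →+* integralClosure R E`, the algebra structure `AuxRet.inclAlgebra`, and the
  `A`-linear retraction `AuxRet.rho : integralClosure R E →ₗ[A] A` (`rho_algebraMap`).
-/

set_option autoImplicit false
set_option linter.unusedSectionVars false
set_option linter.style.haveILetI false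

open TensorProduct

noncomputable section

namespace Fermat.Agent.Good.AuxRet

attribute [local instance] Algebra.TensorProduct.rightAlgebra

variable (A0 R F : Type*) [CommRing A0] [CommRing R] [Field F] [Algebra A0 R] [Algebra A0 F]

/-- `id ⊗ proj : F ⊗[A0] R → F`. -/
def projE (proj : R →ₗ[A0] A0) : F ⊗[A0] R →ₗ[F] F :=
  (Algebra.TensorProduct.rid A0 F F).toLinearMap ∘ₗ (proj.baseChange F)

variable {A0 R F}

@[simp] theorem projE_tmul (proj : R →ₗ[A0] A0) (x : F) (r : R) :
    projE A0 R F proj (x ⊗ₜ[A0] r) = algebraMap A0 F (proj r) * x := by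
  rw [projE, LinearMap.comp_apply, LinearMap.baseChange_tmul]
  show Algebra.TensorProduct.rid A0 F F (x ⊗ₜ[A0] proj r) = _
  rw [Algebra.TensorProduct.rid_tmul, Algebra.smul_def]

theorem projE_tmul_one (proj : R →ₗ[A0] A0) (hproj : ∀ a, proj (algebraMap A0 R a) = a)
    (x : F) : projE A0 R F proj (x ⊗ₜ[A0] (1 : R)) = x := by
  rw [projE_tmul, ← map_one (algebraMap A0 R), hproj, map_one, one_mul]

section Trace

variable [Module.Free A0 R] [Module.Finite A0 R]

theorem trace_one_tmul (r : R) :
    Algebra.trace F (F ⊗[A0] R) ((1 : F) ⊗ₜ[A0] r) = algebraMap A0 F (Algebra.trace A0 R r) := by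
  classical
  let b := Module.Free.chooseBasis A0 R
  refine (Purity.map_trace_eq_trace (algebraMap A0 F)
    (Algebra.TensorProduct.includeRight : R →ₐ[A0] F ⊗[A0] R).toRingHom ?_ b
    (Algebra.TensorProduct.basis F b) (fun i => by simp) r).symm
  intro a
  show (1 : F) ⊗ₜ[A0] (algebraMap A0 R a) = algebraMap F (F ⊗[A0] R) (algebraMap A0 F a)
  rw [Algebra.TensorProduct.algebraMap_apply, Algebra.algebraMap_self_apply,
    Aux.algebraMap_tmul_one]

theorem trace_tmul (x : F) (r : R) :
    Algebra.trace F (F ⊗[A0] R) (x ⊗ₜ[A0] r) = x * algebraMap A0 F (Algebra.trace A0 R r) := by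
  have h1 : x ⊗ₜ[A0] r = x • ((1 : F) ⊗ₜ[A0] r) := by
    rw [TensorProduct.smul_tmul', smul_eq_mul, mul_one]
  rw [h1, map_smul, trace_one_tmul, smul_eq_mul]

/-- `projE` is `u` times the trace. -/
theorem smul_trace_eq_projE (proj : R →ₗ[A0] A0) (u : A0)
    (htr : ∀ r, u * Algebra.trace A0 R r = proj r) (z : F ⊗[A0] R) :
    algebraMap A0 F u * Algebra.trace F (F ⊗[A0] R) z = projE A0 R F proj z := by
  induction z using TensorProduct.induction_on with
  | zero => simp
  | add z z' hz hz' => rw [map_add, mul_add, hz, hz', map_add]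
  | tmul x r =>
    rw [trace_tmul, projE_tmul, ← htr, map_mul]
    ring

/-- `projE` maps `R`-integral elements to `A0`-integral elements. -/
theorem isIntegral_projE (proj : R →ₗ[A0] A0) (u : A0)
    (htr : ∀ r, u * Algebra.trace A0 R r = proj r) {z : F ⊗[A0] R} (hz : IsIntegral R z) :
    IsIntegral A0 (projE A0 R F proj z) := by
  rw [← smul_trace_eq_projE proj u htr]
  have h1 : IsIntegral A0 z := isIntegral_trans _ hz
  exact isIntegral_algebraMap.mul (TraceInt.isIntegral_trace h1)

end Trace

section Retract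

variable (A0 R F)
variable (A : Type*) [CommRing A] [Algebra A0 A] [Algebra A F] [IsScalarTower A0 A F]
  [IsIntegralClosure A A0 F]

theorem isIntegral_algebraMap_tmul_one (a : A) :
    IsIntegral R ((algebraMap A F a) ⊗ₜ[A0] (1 : R)) := by
  have h1 : IsIntegral A0 (algebraMap A F a) :=
    (IsIntegralClosure.isIntegral_iff (A := A)).mpr ⟨a, rfl⟩
  have h2 : IsIntegral A0 ((algebraMap A F a) ⊗ₜ[A0] (1 : R)) :=
    h1.map (Algebra.TensorProduct.includeLeft : F →ₐ[A0] F ⊗[A0] R)
  exact h2.tower_top

/-- `a ↦ a ⊗ 1`, from the integral closure `A` of `A0` in `F` to the integral closure of `R` in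
`E = F ⊗[A0] R`. -/
def inclHom : A →+* integralClosure R (F ⊗[A0] R) :=
  (((Algebra.TensorProduct.includeLeft : F →ₐ[A0] F ⊗[A0] R).toRingHom).comp
    (algebraMap A F)).codRestrict (integralClosure R (F ⊗[A0] R))
    (fun a => isIntegral_algebraMap_tmul_one A0 R F A a)

theorem coe_inclHom (a : A) :
    ((inclHom A0 R F A a : integralClosure R (F ⊗[A0] R)) : F ⊗[A0] R) =
      (algebraMap A F a) ⊗ₜ[A0] (1 : R) := rfl

/-- The integral closure of `R` in `E` as an algebra over `A`. -/
@[reducible] def inclAlgebra : Algebra A (integralClosure R (F ⊗[A0] R)) :=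
  (inclHom A0 R F A).toAlgebra

/-- compatibility of the two maps from `A0` -/
theorem inclHom_algebraMap (x : A0) :
    inclHom A0 R F A (algebraMap A0 A x) =
      algebraMap R (integralClosure R (F ⊗[A0] R)) (algebraMap A0 R x) := by
  apply Subtype.ext
  rw [coe_inclHom, ← IsScalarTower.algebraMap_apply A0 A F, Aux.algebraMap_tmul_one]
  rfl

variable [Module.Free A0 R] [Module.Finite A0 R]
variable {A0 R F}

/-- **The retraction** `integralClosure R E → A`, `z ↦ (id ⊗ proj) z`. -/
def rho (proj : R →ₗ[A0] A0) (u : A0) (htr : ∀ r, u * Algebra.trace A0 R r = proj r) :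
    letI := inclAlgebra A0 R F A
    integralClosure R (F ⊗[A0] R) →ₗ[A] A :=
  letI := inclAlgebra A0 R F A
  { toFun := fun z => IsIntegralClosure.mk' A (projE A0 R F proj (z : F ⊗[A0] R))
      (isIntegral_projE proj u htr z.2)
    map_add' := fun z z' => by
      apply IsIntegralClosure.algebraMap_injective A A0 F
      rw [map_add, IsIntegralClosure.algebraMap_mk', IsIntegralClosure.algebraMap_mk',
        IsIntegralClosure.algebraMap_mk', Subalgebra.coe_add, map_add]
    map_smul' := fun a z => by
      apply IsIntegralClosure.algebraMap_injective A A0 F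
      rw [RingHom.id_apply, smul_eq_mul, map_mul, IsIntegralClosure.algebraMap_mk',
        IsIntegralClosure.algebraMap_mk']
      have h1 : ((a • z : integralClosure R (F ⊗[A0] R)) : F ⊗[A0] R) =
          (algebraMap A F a) • (z : F ⊗[A0] R) := by
        rw [Algebra.smul_def (algebraMap A F a), Algebra.TensorProduct.algebraMap_apply,
          Algebra.algebraMap_self_apply]
        rfl
      rw [h1, map_smul, smul_eq_mul] }

theorem algebraMap_rho (proj : R →ₗ[A0] A0) (u : A0)
    (htr : ∀ r, u * Algebra.trace A0 R r = proj r) (z : integralClosure R (F ⊗[A0] R)) :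
    letI := inclAlgebra A0 R F A
    algebraMap A F (rho A proj u htr z) = projE A0 R F proj (z : F ⊗[A0] R) := by
  letI := inclAlgebra A0 R F A
  exact IsIntegralClosure.algebraMap_mk' A _ (isIntegral_projE proj u htr z.2)

/-- `rho` is a retraction of the structure map. -/
theorem rho_algebraMap (proj : R →ₗ[A0] A0) (hproj : ∀ a, proj (algebraMap A0 R a) = a) (u : A0)
    (htr : ∀ r, u * Algebra.trace A0 R r = proj r) (a : A) :
    letI := inclAlgebra A0 R F A
    rho A proj u htr (algebraMap A (integralClosure R (F ⊗[A0] R)) a) = a := by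
  letI := inclAlgebra A0 R F A
  apply IsIntegralClosure.algebraMap_injective A A0 F
  rw [algebraMap_rho]
  show projE A0 R F proj ((inclHom A0 R F A a : integralClosure R (F ⊗[A0] R)) : F ⊗[A0] R) = _
  rw [coe_inclHom, projE_tmul_one proj hproj]

end Retract

end Fermat.Agent.Good.AuxRet
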