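import Fermat.Agent.Good.KummerAlg
import Fermat.Agent.Good.TraceIntegral
import Fermat.Prelude.Def_ModularCurve_IgusaScheme

/-!
# L-GEN [G-KUM]: the cusp chart, Kummer cover and its retraction (generic in the chart set `S`)

`F = modularFunctionFieldFull N` (the function field of `X₀(N)` over `ℚ`), `w = 1/j ∈ F`,
`ℤℓ = ℤ_(ℓ)`, `ℓ ∤ N`.

* `Ec N = Kum.KumAlg F w N = F[y]/(y^N - w)` : the Kummer algebra (`= F ⊗_{ℚ(w)} ℚ(y)`), free of
  rank `N` over `F`;
* `BE N ℓ S` : the integral closure of `ℤℓ[S]` in `Ec N`, for a set `S ⊆ F`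
  (`chartAlg N ℓ S` is the integral closure of `ℤℓ[S]` in `F`);
* `incl : chartAlg N ℓ S →ₐ[ℤℓ] BE N ℓ S` and the retraction
  `rho : BE N ℓ S →ₗ[chartAlg N ℓ S] chartAlg N ℓ S` (`= kumProj = (1/N)·Tr`), `rho_incl`;
* `kumY_mem_BE` : `y ∈ BE N ℓ S` as soon as `w ∈ ℤℓ[S]`.
-/

set_option autoImplicit false
set_option linter.unusedSectionVars false
set_option linter.style.haveILetI false
set_option synthInstance.maxHeartbeats 400000

noncomputable section

namespace Fermat.Agent.Good.CuspChart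

open ModularCurve ModularCurve.IgusaScheme Fermat.Agent.Good.Kum

variable (N : ℕ) [NeZero N] (ℓ : ℕ) [Fact ℓ.Prime]

set_option quotPrecheck false in
local notation "ℤℓ" => ↥(GaloisRep.ratLocalizedAt ℓ)

set_option quotPrecheck false in
local notation "F" => ↥(modularFunctionFieldFull N)

/-- `w = 1/j` in the function field `F`. -/
def wF : F := (jFull N)⁻¹

/-- The Kummer algebra `F[y]/(y^N - w)`. -/
abbrev Ec : Type := KumAlg F (wF N) N

theorem N_pos : 0 < N := Nat.pos_of_ne_zero (NeZero.ne N)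

/-! ### `N` is invertible in `ℤ_(ℓ)` -/

variable {N ℓ} in
/-- `1/N` as an element of `ℤ_(ℓ)`, for `ℓ ∤ N`. -/
def invN (hℓN : ¬ ℓ ∣ N) : ℤℓ :=
  ⟨(N : ℚ)⁻¹, by
    show ((N : ℚ)⁻¹).den.Coprime ℓ
    rw [Rat.inv_natCast_den, if_neg (NeZero.ne N)]
    exact (Nat.Coprime.symm ((Nat.Prime.coprime_iff_not_dvd (Fact.out)).mpr hℓN))⟩

variable {N ℓ} in
theorem algebraMap_invN_mul (hℓN : ¬ ℓ ∣ N) :
    algebraMap ℤℓ F (invN hℓN) * (N : F) = 1 := by
  have h1 : algebraMap ℤℓ F (invN hℓN) = algebraMap ℚ F ((N : ℚ)⁻¹) := rfl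
  rw [h1, ← map_natCast (algebraMap ℚ F) N, ← map_mul,
    inv_mul_cancel₀ (Nat.cast_ne_zero.mpr (NeZero.ne N)), map_one]

/-! ### The integral closure of `ℤℓ[S]` in the Kummer algebra -/

variable (S : Set ↥(modularFunctionFieldFull N))

/-- The integral closure of `ℤℓ[S]` in the Kummer algebra `Ec N`. -/
def BE : Subalgebra ℤℓ (Ec N) where
  carrier := {z | IsIntegral (Algebra.adjoin ℤℓ S) z}
  mul_mem' ha hb := ha.mul hb
  one_mem' := isIntegral_one
  add_mem' ha hb := ha.add hb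
  zero_mem' := isIntegral_zero
  algebraMap_mem' a := by
    have : IsIntegral (Algebra.adjoin ℤℓ S)
        (algebraMap (Algebra.adjoin ℤℓ S) (Ec N) (algebraMap ℤℓ (Algebra.adjoin ℤℓ S) a)) :=
      isIntegral_algebraMap
    rw [← IsScalarTower.algebraMap_apply] at this
    exact this

variable {N ℓ S}

theorem mem_BE_iff {z : Ec N} : z ∈ BE N ℓ S ↔ IsIntegral (Algebra.adjoin ℤℓ S) z := Iff.rfl

/-- Elements of the chart algebra are integral in the Kummer algebra. -/
theorem algebraMap_mem_BE {x : F} (hx : x ∈ chartAlg N ℓ S) :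
    algebraMap F (Ec N) x ∈ BE N ℓ S := by
  rw [mem_BE_iff]
  exact ((mem_chartAlg_iff N ℓ).mp hx).algebraMap

/-- The Kummer generator `y` is integral as soon as `w ∈ ℤℓ[S]`. -/
theorem kumY_mem_BE (hw : wF N ∈ Algebra.adjoin ℤℓ S) : kumY F (wF N) N ∈ BE N ℓ S := by
  rw [mem_BE_iff]
  refine IsIntegral.of_pow (N_pos N) ?_
  rw [kumY_pow]
  have h1 : algebraMap F (Ec N) (wF N) =
      algebraMap (Algebra.adjoin ℤℓ S) (Ec N) ⟨wF N, hw⟩ := by
    rw [IsScalarTower.algebraMap_apply (Algebra.adjoin ℤℓ S) F (Ec N)]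
    rfl
  rw [h1]
  exact isIntegral_algebraMap

/-- **The retraction lands in the chart algebra**: for `z` integral over `ℤℓ[S]`, the coordinate
`kumProj z = (1/N) · Tr z` is integral over `ℤℓ[S]`. -/
theorem kumProj_mem_chartAlg (hℓN : ¬ ℓ ∣ N) {z : Ec N} (hz : z ∈ BE N ℓ S) :
    kumProj F (wF N) (N_pos N) z ∈ chartAlg N ℓ S := by
  rw [mem_chartAlg_iff]
  have htr : IsIntegral (Algebra.adjoin ℤℓ S) (Algebra.trace F (Ec N) z) :=
    TraceInt.isIntegral_trace (mem_BE_iff.mp hz)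
  rw [trace_eq_smul_kumProj F (wF N) (N_pos N)] at htr
  have h1 : kumProj F (wF N) (N_pos N) z =
      algebraMap (Algebra.adjoin ℤℓ S) F (algebraMap ℤℓ (Algebra.adjoin ℤℓ S) (invN hℓN)) *
        ((N : F) * kumProj F (wF N) (N_pos N) z) := by
    rw [← IsScalarTower.algebraMap_apply, ← mul_assoc, algebraMap_invN_mul hℓN, one_mul]
  rw [h1]
  exact isIntegral_algebraMap.mul htr

variable (N ℓ S)

/-- The inclusion of the chart algebra into the integral closure in the Kummer algebra. -/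
def incl : chartAlg N ℓ S →ₐ[ℤℓ] BE N ℓ S where
  toFun x := ⟨algebraMap F (Ec N) x, algebraMap_mem_BE x.2⟩
  map_one' := Subtype.ext (map_one _)
  map_mul' x y := Subtype.ext (map_mul _ _ _)
  map_zero' := Subtype.ext (map_zero _)
  map_add' x y := Subtype.ext (map_add _ _ _)
  commutes' a := Subtype.ext (by
    show algebraMap F (Ec N) (algebraMap ℤℓ F a) = algebraMap ℤℓ (Ec N) a
    rw [← IsScalarTower.algebraMap_apply])

@[simp] theorem coe_incl (x : chartAlg N ℓ S) :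
    ((incl N ℓ S x : BE N ℓ S) : Ec N) = algebraMap F (Ec N) (x : F) := rfl

/-- `BE N ℓ S` as an algebra over the chart algebra. -/
instance algebraBE : Algebra (chartAlg N ℓ S) (BE N ℓ S) := (incl N ℓ S).toRingHom.toAlgebra

theorem algebraMap_BE_def (x : chartAlg N ℓ S) :
    algebraMap (chartAlg N ℓ S) (BE N ℓ S) x = incl N ℓ S x := rfl

instance isScalarTower_BE : IsScalarTower ℤℓ (chartAlg N ℓ S) (BE N ℓ S) :=
  IsScalarTower.of_algebraMap_eq fun a => ((incl N ℓ S).commutes a).symm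

variable {N ℓ} in
/-- **The retraction** `BE → chartAlg`, `z ↦ kumProj z = (1/N)·Tr z`, linear over the chart
algebra. -/
def rho (hℓN : ¬ ℓ ∣ N) : BE N ℓ S →ₗ[chartAlg N ℓ S] chartAlg N ℓ S where
  toFun z := ⟨kumProj F (wF N) (N_pos N) (z : Ec N), kumProj_mem_chartAlg hℓN z.2⟩
  map_add' z z' := Subtype.ext (by
    show kumProj F (wF N) (N_pos N) ((z : Ec N) + (z' : Ec N)) = _
    rw [map_add]; rfl)
  map_smul' a z := Subtype.ext (by
    show kumProj F (wF N) (N_pos N) (((a • z : BE N ℓ S) : Ec N)) =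
      (a : F) * kumProj F (wF N) (N_pos N) (z : Ec N)
    have h1 : ((a • z : BE N ℓ S) : Ec N) = (a : F) • (z : Ec N) := by
      rw [Algebra.smul_def, algebraMap_BE_def, Subalgebra.coe_mul, coe_incl, ← Algebra.smul_def]
    rw [h1, map_smul, smul_eq_mul])

variable {N ℓ} in
@[simp] theorem coe_rho (hℓN : ¬ ℓ ∣ N) (z : BE N ℓ S) :
    ((rho S hℓN z : chartAlg N ℓ S) : F) = kumProj F (wF N) (N_pos N) (z : Ec N) := rfl

variable {N ℓ} in
/-- `rho` is a retraction of the inclusion. -/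
theorem rho_incl (hℓN : ¬ ℓ ∣ N) (x : chartAlg N ℓ S) :
    rho S hℓN (incl N ℓ S x) = x :=
  Subtype.ext (by rw [coe_rho, coe_incl, kumProj_algebraMap])

variable {N ℓ} in
theorem rho_algebraMap (hℓN : ¬ ℓ ∣ N) (x : chartAlg N ℓ S) :
    rho S hℓN (algebraMap (chartAlg N ℓ S) (BE N ℓ S) x) = x :=
  rho_incl S hℓN x

theorem incl_injective : Function.Injective (incl N ℓ S) := by
  intro x x' h
  have h1 := congrArg (fun z : BE N ℓ S => kumProj F (wF N) (N_pos N) (z : Ec N)) h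
  simp only [coe_incl, kumProj_algebraMap] at h1
  exact Subtype.ext h1

end Fermat.Agent.Good.CuspChart
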