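import Mathlib

/-!
# Program L (S18), L-GEN, node [G-KUM] (iii): glueing normality along a cover by basic opens

Pure commutative algebra.

* `Glue.denomIdeal K x` : for a domain `C` with fraction field `K` and `x : K`, the ideal of
  denominators `{c : C | c x ∈ C}`; `x ∈ C` iff it is the unit ideal.
* `Glue.isIntegrallyClosed_of_span_eq_top` : if the `f ∈ s` (finite set) generate the unit ideal
  of a domain `C` and every `C[1/f]` is integrally closed then `C` is integrally closed.
* `Glue.isIntegrallyClosed_of_away_cover` : two-element form with arbitrary models `Cf`, `Cg` of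
  the localisations: `a f + b g = 1`, `Cf`, `Cg` integrally closed ⇒ `C` integrally closed.
-/

set_option autoImplicit false

namespace Fermat.Agent.Good.Glue

open scoped nonZeroDivisors

section Denom

variable (C : Type*) [CommRing C] (K : Type*) [Field K] [Algebra C K]

/-- The ideal of denominators of `x : K`. -/
def denomIdeal (x : K) : Ideal C where
  carrier := {c | ∃ y : C, algebraMap C K c * x = algebraMap C K y}
  zero_mem' := ⟨0, by simp⟩
  add_mem' := by
    rintro c c' ⟨y, hy⟩ ⟨y', hy'⟩
    exact ⟨y + y', by rw [map_add, add_mul, hy, hy', map_add]⟩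
  smul_mem' := by
    rintro d c ⟨y, hy⟩
    exact ⟨d * y, by rw [smul_eq_mul, map_mul, mul_assoc, hy, map_mul]⟩

variable {C K}

theorem mem_denomIdeal {x : K} {c : C} :
    c ∈ denomIdeal C K x ↔ ∃ y : C, algebraMap C K c * x = algebraMap C K y := Iff.rfl

theorem mem_range_of_denomIdeal_eq_top {x : K} (h : denomIdeal C K x = ⊤) :
    ∃ y : C, algebraMap C K y = x := by
  have h1 : (1 : C) ∈ denomIdeal C K x := by rw [h]; exact Submodule.mem_top
  obtain ⟨y, hy⟩ := h1
  exact ⟨y, by rw [← hy, map_one, one_mul]⟩

/-- An element of the localisation `C[1/f] ⊆ K` has a power of `f` as a denominator. -/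
theorem exists_pow_mem_denomIdeal [IsDomain C] [IsFractionRing C K] {f : C}
    (hS : Submonoid.powers f ≤ C⁰) {x : K}
    (hx : x ∈ Localization.subalgebra.ofField K (Submonoid.powers f) hS) :
    ∃ n : ℕ, f ^ n ∈ denomIdeal C K x := by
  obtain ⟨a, s, ⟨n, rfl⟩, rfl⟩ := hx
  refine ⟨n, a, ?_⟩
  have hne : algebraMap C K (f ^ n) ≠ 0 := by
    have : f ^ n ∈ C⁰ := hS ⟨n, rfl⟩
    exact IsFractionRing.to_map_ne_zero_of_mem_nonZeroDivisors this
  field_simp

end Denom

section Cover

variable {C : Type*} [CommRing C]

/-- If finitely many `f` generate the unit ideal and each has a power in an ideal `I`, then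
`I = ⊤`. -/
theorem eq_top_of_forall_pow_mem (s : Finset C) (hs : Ideal.span (s : Set C) = ⊤) (I : Ideal C)
    (h : ∀ f ∈ s, ∃ n : ℕ, f ^ n ∈ I) : I = ⊤ := by
  classical
  choose! n hn using h
  set N := s.sup n with hN
  have hpow : ∀ f ∈ s, f ^ N ∈ I := by
    intro f hf
    have hle : n f ≤ N := Finset.le_sup hf
    have : f ^ N = f ^ (N - n f) * f ^ n f := by rw [← pow_add, Nat.sub_add_cancel hle]
    rw [this]
    exact I.mul_mem_left _ (hn f hf)
  have htop := Ideal.span_pow_eq_top (s : Set C) hs N
  rw [eq_top_iff, ← htop, Ideal.span_le]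
  rintro _ ⟨f, hf, rfl⟩
  exact hpow f hf

/-- **Glue lemma, finite cover form.** If the elements of a finite set `s` of nonzero elements
generate the unit ideal of the domain `C` and every `C[1/f]`, `f ∈ s`, is integrally closed, then
`C` is integrally closed. -/
theorem isIntegrallyClosed_of_span_eq_top [IsDomain C] (s : Finset C) (hs0 : ∀ f ∈ s, f ≠ 0)
    (hs : Ideal.span (s : Set C) = ⊤)
    (h : ∀ f ∈ s, IsIntegrallyClosed (Localization.Away f)) : IsIntegrallyClosed C := by
  classical
  have hS : ∀ f : s, Submonoid.powers (f : C) ≤ C⁰ := fun f =>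
    Submonoid.powers_le.2 (mem_nonZeroDivisors_of_ne_zero (hs0 f f.2))
  refine IsIntegrallyClosed.of_localization_submonoid (fun f : s => Submonoid.powers (f : C)) hS
    (fun f => h f f.2) ?_
  rw [eq_bot_iff]
  intro x hx
  rw [Algebra.mem_iInf] at hx
  have htop : denomIdeal C (FractionRing C) x = ⊤ := by
    apply eq_top_of_forall_pow_mem s hs
    intro f hf
    have := hx ⟨f, hf⟩
    rw [← Localization.subalgebra.ofField_eq] at this
    exact exists_pow_mem_denomIdeal (hS ⟨f, hf⟩) this
  obtain ⟨y, rfl⟩ := mem_range_of_denomIdeal_eq_top htop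
  exact Subalgebra.algebraMap_mem _ y

/-- **Glue lemma, two-element form with arbitrary models of the localisations.** -/
theorem isIntegrallyClosed_of_away_cover [IsDomain C] (f g : C) (hf : f ≠ 0) (hg : g ≠ 0)
    (hfg : ∃ a b : C, a * f + b * g = 1)
    (Cf Cg : Type*) [CommRing Cf] [CommRing Cg] [Algebra C Cf] [Algebra C Cg]
    [IsLocalization.Away f Cf] [IsLocalization.Away g Cg]
    [hCf : IsIntegrallyClosed Cf] [hCg : IsIntegrallyClosed Cg] : IsIntegrallyClosed C := by
  classical
  refine isIntegrallyClosed_of_span_eq_top {f, g} ?_ ?_ ?_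
  · intro x hx
    rcases Finset.mem_insert.1 hx with rfl | hx
    · exact hf
    · rw [Finset.mem_singleton.1 hx]; exact hg
  · obtain ⟨a, b, hab⟩ := hfg
    rw [Ideal.eq_top_iff_one, ← hab]
    refine Ideal.add_mem _ (Ideal.mul_mem_left _ _ (Ideal.subset_span ?_))
      (Ideal.mul_mem_left _ _ (Ideal.subset_span ?_))
    · simp
    · simp
  · intro x hx
    rcases Finset.mem_insert.1 hx with rfl | hx
    · exact hCf.of_equiv
        (IsLocalization.algEquiv (Submonoid.powers x) Cf (Localization.Away x)).toRingEquiv
    · rw [Finset.mem_singleton.1 hx]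
      exact hCg.of_equiv
        (IsLocalization.algEquiv (Submonoid.powers g) Cg (Localization.Away g)).toRingEquiv

end Cover

end Fermat.Agent.Good.Glue
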