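import Mathlib
import Fermat.Agent.Good.GlueNormal

/-!
# Program L (S18), L-GEN, node [G-KUM] (iii): localisation commutes with quotient and base change

* `Glue.isLocalization_quotient` / `Glue.isLocalization_away_quotient` : `B_f / I B_f` is the
  localisation of `B / I` away from `f mod I`.
* `Glue.isLocalization_away_tensor` : `B_f ⊗[R] K` is the localisation of `B ⊗[R] K` away from
  `f ⊗ 1`.
* `Glue.isIntegrallyClosed_away` : a localisation `C_f` (`f ≠ 0`) of an integrally closed domain
  is integrally closed.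
* `Glue.isIntegrallyClosed_of_away_cover'` : the two-element glue lemma without the hypotheses
  `f ≠ 0`, `g ≠ 0`.
-/

set_option autoImplicit false

namespace Fermat.Agent.Good.Glue

open scoped nonZeroDivisors TensorProduct

section Quotient

variable {B : Type*} [CommRing B] (M : Submonoid B) (Bf : Type*) [CommRing Bf] [Algebra B Bf]
  [IsLocalization M Bf] (I : Ideal B)

/-- The map `B ⧸ I → B_f ⧸ I B_f`. -/
noncomputable def quotientMapLoc : B ⧸ I →+* Bf ⧸ I.map (algebraMap B Bf) :=
  Ideal.quotientMap (I.map (algebraMap B Bf)) (algebraMap B Bf) Ideal.le_comap_map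

@[simp] theorem quotientMapLoc_mk (b : B) :
    quotientMapLoc Bf I (Ideal.Quotient.mk I b) =
      Ideal.Quotient.mk (I.map (algebraMap B Bf)) (algebraMap B Bf b) := rfl

/-- **Localisation commutes with quotients.** -/
theorem isLocalization_quotient :
    letI := (quotientMapLoc Bf I).toAlgebra
    IsLocalization (M.map (Ideal.Quotient.mk I)) (Bf ⧸ I.map (algebraMap B Bf)) := by
  let _ := (quotientMapLoc Bf I).toAlgebra
  have halg : ∀ x : B ⧸ I, algebraMap (B ⧸ I) (Bf ⧸ I.map (algebraMap B Bf)) x =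
      quotientMapLoc Bf I x := fun _ => rfl
  refine (isLocalization_iff _ _).mpr ⟨?_, ?_, ?_⟩
  · rintro ⟨_, m, hm, rfl⟩
    rw [halg, quotientMapLoc_mk]
    exact (IsLocalization.map_units Bf ⟨m, hm⟩).map _
  · intro z
    obtain ⟨z', rfl⟩ := Ideal.Quotient.mk_surjective z
    obtain ⟨⟨b, m⟩, hbm⟩ := IsLocalization.surj M z'
    refine ⟨(Ideal.Quotient.mk I b, ⟨Ideal.Quotient.mk I m, m, m.2, rfl⟩), ?_⟩
    rw [halg, halg, quotientMapLoc_mk, quotientMapLoc_mk, ← map_mul, hbm]
  · intro x y hxy
    obtain ⟨x', rfl⟩ := Ideal.Quotient.mk_surjective x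
    obtain ⟨y', rfl⟩ := Ideal.Quotient.mk_surjective y
    rw [halg, halg, quotientMapLoc_mk, quotientMapLoc_mk, Ideal.Quotient.eq, ← map_sub,
      IsLocalization.mem_map_algebraMap_iff M] at hxy
    obtain ⟨⟨i, m⟩, him⟩ := hxy
    rw [← map_mul, IsLocalization.eq_iff_exists M] at him
    obtain ⟨c, hc⟩ := him
    refine ⟨⟨Ideal.Quotient.mk I (c * m), c * m, (c * m).2, rfl⟩, ?_⟩
    show Ideal.Quotient.mk I ((c * m : M) : B) * Ideal.Quotient.mk I x' =
      Ideal.Quotient.mk I ((c * m : M) : B) * Ideal.Quotient.mk I y'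
    rw [← map_mul, ← map_mul, Ideal.Quotient.eq]
    have : ((c * m : M) : B) * x' - ((c * m : M) : B) * y' = (c : B) * (i : B) := by
      rw [← hc, Submonoid.coe_mul]
      ring
    rw [this]
    exact I.mul_mem_left _ i.2

/-- `B_f ⧸ I B_f` is the localisation of `B ⧸ I` away from `f mod I`. -/
theorem isLocalization_away_quotient (f : B) (Bf : Type*) [CommRing Bf] [Algebra B Bf]
    [IsLocalization.Away f Bf] (I : Ideal B) :
    letI := (quotientMapLoc Bf I).toAlgebra
    IsLocalization.Away (Ideal.Quotient.mk I f) (Bf ⧸ I.map (algebraMap B Bf)) := by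
  let _ := (quotientMapLoc Bf I).toAlgebra
  have h := isLocalization_quotient (Submonoid.powers f) Bf I
  rw [Submonoid.map_powers] at h
  exact h

end Quotient

section Tensor

variable (R : Type*) [CommRing R] (B : Type*) [CommRing B] [Algebra R B]
  (Bf : Type*) [CommRing Bf] [Algebra R Bf] [Algebra B Bf] [IsScalarTower R B Bf]
  (K : Type*) [CommRing K] [Algebra R K]

/-- The map `B ⊗[R] K → B_f ⊗[R] K`. -/
noncomputable def tensorMapLoc : B ⊗[R] K →ₐ[R] Bf ⊗[R] K :=
  Algebra.TensorProduct.map (IsScalarTower.toAlgHom R B Bf) (AlgHom.id R K)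

@[simp] theorem tensorMapLoc_tmul (b : B) (x : K) :
    tensorMapLoc R B Bf K (b ⊗ₜ[R] x) = algebraMap B Bf b ⊗ₜ[R] x := by
  simp [tensorMapLoc]

/-- **Localisation commutes with base change.** `B_f ⊗[R] K` is the localisation of
`B ⊗[R] K` away from `f ⊗ 1`. -/
theorem isLocalization_away_tensor (f : B) [IsLocalization.Away f Bf] :
    letI := (tensorMapLoc R B Bf K).toRingHom.toAlgebra
    IsLocalization.Away (f ⊗ₜ[R] (1 : K)) (Bf ⊗[R] K) := by
  let _ := (tensorMapLoc R B Bf K).toRingHom.toAlgebra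
  have : IsScalarTower B (B ⊗[R] K) (Bf ⊗[R] K) := by
    refine IsScalarTower.of_algebraMap_eq fun b => ?_
    show algebraMap B (Bf ⊗[R] K) b = tensorMapLoc R B Bf K (algebraMap B (B ⊗[R] K) b)
    rw [Algebra.TensorProduct.algebraMap_apply, Algebra.TensorProduct.algebraMap_apply,
      tensorMapLoc_tmul]
    simp
  have H : (algebraMap (B ⊗[R] K) (Bf ⊗[R] K)).comp
      (Algebra.TensorProduct.includeRight : K →ₐ[R] B ⊗[R] K).toRingHom =
      (Algebra.TensorProduct.includeRight : K →ₐ[R] Bf ⊗[R] K).toRingHom := by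
    ext x
    show tensorMapLoc R B Bf K ((1 : B) ⊗ₜ[R] x) = (1 : Bf) ⊗ₜ[R] x
    rw [tensorMapLoc_tmul, map_one]
  have h := IsLocalization.tensorProduct_tensorProduct R K (Submonoid.powers f) Bf H
  have hpow : Submonoid.powers (f ⊗ₜ[R] (1 : K)) =
      Algebra.algebraMapSubmonoid (B ⊗[R] K) (Submonoid.powers f) := by simp
  rw [IsLocalization.Away, hpow]
  exact h

end Tensor

section Closed

variable {C : Type*} [CommRing C] [IsDomain C]

/-- A localisation `C_f`, `f ≠ 0`, of an integrally closed domain is integrally closed. -/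
theorem isIntegrallyClosed_away [IsIntegrallyClosed C] {f : C} (hf : f ≠ 0) (Cf : Type*)
    [CommRing Cf] [Algebra C Cf] [IsLocalization.Away f Cf] : IsIntegrallyClosed Cf :=
  isIntegrallyClosed_of_isLocalization Cf (Submonoid.powers f)
    (Submonoid.powers_le.2 (mem_nonZeroDivisors_of_ne_zero hf))

/-- **Glue lemma, two-element form**, without the hypotheses `f ≠ 0`, `g ≠ 0`. -/
theorem isIntegrallyClosed_of_away_cover' (f g : C) (hfg : ∃ a b : C, a * f + b * g = 1)
    (Cf Cg : Type*) [CommRing Cf] [CommRing Cg] [Algebra C Cf] [Algebra C Cg]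
    [IsLocalization.Away f Cf] [IsLocalization.Away g Cg]
    [hCf : IsIntegrallyClosed Cf] [hCg : IsIntegrallyClosed Cg] : IsIntegrallyClosed C := by
  by_cases hf : f = 0
  · -- then `g` is a unit and `C ≃ C_g`
    obtain ⟨a, b, hab⟩ := hfg
    rw [hf, mul_zero, zero_add] at hab
    have hgu : IsUnit g := IsUnit.of_mul_eq_one b (by rw [mul_comm]; exact hab)
    have hle : Submonoid.powers g ≤ IsUnit.submonoid C := by
      rw [Submonoid.powers_le]
      exact hgu
    exact hCg.of_equiv (IsLocalization.atUnits C (Submonoid.powers g) (S := Cg) hle).symm.toRingEquiv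
  by_cases hg : g = 0
  · obtain ⟨a, b, hab⟩ := hfg
    rw [hg, mul_zero, add_zero] at hab
    have hfu : IsUnit f := IsUnit.of_mul_eq_one a (by rw [mul_comm]; exact hab)
    have hle : Submonoid.powers f ≤ IsUnit.submonoid C := by
      rw [Submonoid.powers_le]
      exact hfu
    exact hCf.of_equiv (IsLocalization.atUnits C (Submonoid.powers f) (S := Cf) hle).symm.toRingEquiv
  exact isIntegrallyClosed_of_away_cover f g hf hg hfg Cf Cg

end Closed

end Fermat.Agent.Good.Glue
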