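import Mathlib
import Fermat.Agent.Good.KummerCover
import Fermat.Agent.Good.GlueBaseChange
import Fermat.Agent.Igusa.ZlDvr

/-!
# Program L (S18), L-GEN, node [G-INST-CUSP] (R1): the two fibres of the Kummer cover ring

`R = Kum.RCov ℤ_(ℓ) N = ℤ_(ℓ)[y][1/(1 - 1728 y^N)]`, `π = ℓ`.

* generic: `pawTensorEquiv : O[X][1/c] ⊗[O] k ≃+* k[X][1/c̄]` (localisation commutes with base
  change), for any commutative ring `O`, `O`-algebra `k`, `c : O[X]`;
* `covPi N ℓ = algebraMap ℤ_(ℓ) R ℓ` is prime, `R / π` is a domain and a PID;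
* for a field `k` of characteristic `ℓ` with `[Algebra ℤ_(ℓ) k]`: `R ⊗[ℤ_(ℓ)] k ≃+* RCov k N` is a
  domain, a PID and not a field.
-/

set_option autoImplicit false
set_option linter.style.haveILetI false
set_option linter.unusedSectionVars false

open Polynomial TensorProduct
open Fermat.Agent.Good.Kum Fermat.Agent.Good.Glue Fermat.Agent.Igusa

namespace Fermat.Agent.Good.CuspCover

/-! ### Localisation of a polynomial ring commutes with base change -/

section PawTensor

variable (O : Type*) [CommRing O] (k : Type*) [CommRing k] [Algebra O k] (c : O[X])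

/-- `O[X] ⊗[O] k ≃ k[X]`. -/
noncomputable def polyTensorEquiv : O[X] ⊗[O] k ≃ₐ[O] k[X] :=
  (Algebra.TensorProduct.comm O O[X] k).trans (polyEquivTensor O k).symm

@[simp] theorem polyTensorEquiv_tmul (p : O[X]) (a : k) :
    polyTensorEquiv O k (p ⊗ₜ[O] a) = a • p.map (algebraMap O k) := by
  rw [polyTensorEquiv, AlgEquiv.trans_apply, Algebra.TensorProduct.comm_tmul,
    polyEquivTensor_symm_apply_tmul_eq_smul]

theorem polyTensorEquiv_tmul_one (p : O[X]) :
    polyTensorEquiv O k (p ⊗ₜ[O] 1) = p.map (algebraMap O k) := by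
  rw [polyTensorEquiv_tmul, one_smul]

variable (c' : k[X]) (hc : c.map (algebraMap O k) = c')

/-- **`O[X][1/c] ⊗[O] k ≃ k[X][1/c̄]`.** -/
noncomputable def pawTensorEquiv :
    Localization.Away c ⊗[O] k ≃+* Localization.Away c' :=
  letI := (tensorMapLoc O O[X] (Localization.Away c) k).toRingHom.toAlgebra
  haveI := isLocalization_away_tensor O O[X] (Localization.Away c) k c
  IsLocalization.ringEquivOfRingEquiv (M := Submonoid.powers (c ⊗ₜ[O] (1 : k)))
    (Localization.Away c ⊗[O] k) (T := Submonoid.powers c')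
    (Localization.Away c') (polyTensorEquiv O k).toRingEquiv (by
      rw [Submonoid.map_powers]
      exact congrArg Submonoid.powers ((polyTensorEquiv_tmul_one O k c).trans hc))

theorem pawTensorEquiv_tmul (p : O[X]) (a : k) :
    pawTensorEquiv O k c c' hc (algebraMap O[X] (Localization.Away c) p ⊗ₜ[O] a) =
      algebraMap k[X] (Localization.Away c') (a • p.map (algebraMap O k)) := by
  letI := (tensorMapLoc O O[X] (Localization.Away c) k).toRingHom.toAlgebra
  haveI := isLocalization_away_tensor O O[X] (Localization.Away c) k c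
  have h1 : algebraMap O[X] (Localization.Away c) p ⊗ₜ[O] a =
      algebraMap (O[X] ⊗[O] k) (Localization.Away c ⊗[O] k) (p ⊗ₜ[O] a) :=
    (tensorMapLoc_tmul O O[X] (Localization.Away c) k p a).symm
  rw [h1, pawTensorEquiv, IsLocalization.ringEquivOfRingEquiv_eq]
  exact congrArg _ (polyTensorEquiv_tmul O k p a)

theorem pawTensorEquiv_tmul_one (p : O[X]) :
    pawTensorEquiv O k c c' hc (algebraMap O[X] (Localization.Away c) p ⊗ₜ[O] 1) =
      algebraMap k[X] (Localization.Away c') (p.map (algebraMap O k)) := by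
  rw [pawTensorEquiv_tmul, one_smul]

theorem pawTensorEquiv_one_tmul (a : k) :
    pawTensorEquiv O k c c' hc (1 ⊗ₜ[O] a) = pawConst c' a := by
  have := pawTensorEquiv_tmul O k c c' hc 1 a
  rw [map_one, Polynomial.map_one] at this
  rw [this, pawConst_apply]
  congr 1
  rw [Algebra.smul_def, mul_one]
  rfl

end PawTensor

/-! ### `RCov k N` over a field -/

section Field

variable (k : Type*) [Field k] (N : ℕ) [NeZero N]

theorem N_pos' : 0 < N := Nat.pos_of_ne_zero (NeZero.ne N)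

theorem isDomain_rCov_field : IsDomain (RCov k N) := isDomain_rCov k (N_pos' N)

theorem isPrincipalIdealRing_rCov_field : IsPrincipalIdealRing (RCov k N) :=
  isPrincipalIdealRing_paw (cCov k N)

/-- `y` is not a unit of `k[y][1/(1 - 1728 y^N)]`. -/
theorem not_isUnit_yCov : ¬ IsUnit (yCov k N) := by
  intro hu
  obtain ⟨z, hz⟩ := hu.exists_right_inv
  obtain ⟨n, a, ha⟩ := IsLocalization.Away.surj (S := RCov k N) (cCov k N) z
  -- `X * a = c ^ n` in `k[X]`
  have h1 : algebraMap k[X] (RCov k N) (X * a) = algebraMap k[X] (RCov k N) (cCov k N ^ n) := by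
    rw [map_mul, ← ha, map_pow]
    have : algebraMap k[X] (RCov k N) X = yCov k N := rfl
    rw [this, ← mul_assoc, hz, one_mul]
  have hinj : Function.Injective (algebraMap k[X] (RCov k N)) :=
    IsLocalization.injective (RCov k N)
      (powers_le_nonZeroDivisors_of_ne_zero (cCov_ne_zero k (N_pos' N)))
  have h2 := hinj h1
  have h3 := congrArg (fun p => Polynomial.coeff p 0) h2
  simp only [Polynomial.coeff_X_mul_zero] at h3
  rw [Polynomial.coeff_zero_eq_eval_zero, Polynomial.eval_pow,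
    ← Polynomial.coeff_zero_eq_eval_zero, coeff_zero_cCov k (N_pos' N), one_pow] at h3
  exact zero_ne_one h3

theorem yCov_ne_zero : yCov k N ≠ 0 := by
  have hinj : Function.Injective (algebraMap k[X] (RCov k N)) :=
    IsLocalization.injective (RCov k N)
      (powers_le_nonZeroDivisors_of_ne_zero (cCov_ne_zero k (N_pos' N)))
  intro h
  have : algebraMap k[X] (RCov k N) X = algebraMap k[X] (RCov k N) 0 := by
    rw [map_zero]; exact h
  exact Polynomial.X_ne_zero (hinj this)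

theorem not_isField_rCov_field : ¬ IsField (RCov k N) := by
  intro hF
  obtain ⟨z, hz⟩ := hF.mul_inv_cancel (yCov_ne_zero k N)
  exact not_isUnit_yCov k N (.of_mul_eq_one z hz)

end Field

/-! ### The cover ring over `ℤ_(ℓ)` -/

section Zl

variable (N : ℕ) [NeZero N] (ℓ : ℕ) [Fact ℓ.Prime]

set_option quotPrecheck false in
local notation "ℤℓ" => ↥(GaloisRep.ratLocalizedAt ℓ)

theorem algebraMap_zl_rCov (a : ℤℓ) : algebraMap ℤℓ (RCov ℤℓ N) a = covConst ℤℓ N a := by
  rw [IsScalarTower.algebraMap_apply ℤℓ ℤℓ[X] (RCov ℤℓ N)]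
  rfl

theorem algebraMap_zl_lamC (a : ℤℓ) : algebraMap ℤℓ (LamC ℤℓ) a = lamConst ℤℓ a := by
  rw [IsScalarTower.algebraMap_apply ℤℓ ℤℓ[X] (LamC ℤℓ)]
  rfl

/-- `π = ℓ` in the cover ring. -/
noncomputable def covPi : RCov ℤℓ N := algebraMap ℤℓ (RCov ℤℓ N) (zlPrime ℓ)

theorem covPi_eq_covConst : covPi N ℓ = covConst ℤℓ N (zlPrime ℓ) := algebraMap_zl_rCov N ℓ _

theorem covPi_eq_natCast : covPi N ℓ = ((ℓ : ℕ) : RCov ℤℓ N) := by
  rw [covPi, zlPrime_eq_natCast, map_natCast]

theorem isMaximal_span_zlPrime : (Ideal.span {zlPrime ℓ} : Ideal ℤℓ).IsMaximal := by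
  rw [← ker_zlResidue]
  exact RingHom.ker_isMaximal_of_surjective _ (zlResidue_surjective ℓ)

theorem isDomain_rCov_zl : IsDomain (RCov ℤℓ N) := isDomain_rCov ℤℓ (N_pos' N)

theorem isIntegrallyClosed_rCov_zl : IsIntegrallyClosed (RCov ℤℓ N) :=
  haveI : IsIntegrallyClosed ℤℓ := inferInstance
  isIntegrallyClosed_rCov ℤℓ (N_pos' N)

theorem isNoetherianRing_rCov_zl : IsNoetherianRing (RCov ℤℓ N) := inferInstance

theorem prime_covPi : Prime (covPi N ℓ) := by
  rw [covPi_eq_covConst]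
  exact prime_covConst (N_pos' N) (ZlDvr.zlPrime_prime ℓ)

theorem isDomain_rCov_quotient : IsDomain (RCov ℤℓ N ⧸ Ideal.span {covPi N ℓ}) := by
  have h := prime_covPi N ℓ
  have : (Ideal.span {covPi N ℓ}).IsPrime := (Ideal.span_singleton_prime h.ne_zero).mpr h
  exact Ideal.Quotient.isDomain _

theorem isPrincipalIdealRing_rCov_quotient_zl :
    IsPrincipalIdealRing (RCov ℤℓ N ⧸ Ideal.span {covPi N ℓ}) := by
  rw [covPi_eq_covConst]
  exact isPrincipalIdealRing_rCov_quotient N (isMaximal_span_zlPrime ℓ)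

/-! ### The geometric special fibre `R ⊗[ℤ_(ℓ)] k` -/

variable (k : Type*) [Field k] [Algebra (GaloisRep.ratLocalizedAt ℓ) k]

/-- **`RCov ℤ_(ℓ) N ⊗[ℤ_(ℓ)] k ≃ RCov k N`.** -/
noncomputable def covTensorEquiv : RCov ℤℓ N ⊗[ℤℓ] k ≃+* RCov k N :=
  pawTensorEquiv ℤℓ k (cCov ℤℓ N) (cCov k N) (cCov_map N _)

/-- **`LamC ℤ_(ℓ) ⊗[ℤ_(ℓ)] k ≃ LamC k`.** -/
noncomputable def lamTensorEquiv : LamC ℤℓ ⊗[ℤℓ] k ≃+* LamC k :=
  pawTensorEquiv ℤℓ k (cLam ℤℓ) (cLam k) (cLam_map _)

theorem covTensorEquiv_yCov_tmul (a : k) :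
    covTensorEquiv N ℓ k (yCov ℤℓ N ⊗ₜ[ℤℓ] a) = covConst k N a * yCov k N := by
  have := pawTensorEquiv_tmul ℤℓ k (cCov ℤℓ N) (cCov k N) (cCov_map N _) X a
  rw [Polynomial.map_X, Polynomial.smul_eq_C_mul, map_mul] at this
  exact this

theorem covTensorEquiv_one_tmul (a : k) :
    covTensorEquiv N ℓ k (1 ⊗ₜ[ℤℓ] a) = covConst k N a :=
  pawTensorEquiv_one_tmul ℤℓ k (cCov ℤℓ N) (cCov k N) (cCov_map N _) a

theorem isDomain_rCov_tensor : IsDomain (RCov ℤℓ N ⊗[ℤℓ] k) :=
  haveI := isDomain_rCov_field k N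
  (covTensorEquiv N ℓ k).toMulEquiv.isDomain (RCov k N)

theorem isPrincipalIdealRing_rCov_tensor : IsPrincipalIdealRing (RCov ℤℓ N ⊗[ℤℓ] k) :=
  haveI := isPrincipalIdealRing_rCov_field k N
  IsPrincipalIdealRing.of_surjective (covTensorEquiv N ℓ k).symm.toRingHom
    (covTensorEquiv N ℓ k).symm.surjective

theorem not_isField_rCov_tensor : ¬ IsField (RCov ℤℓ N ⊗[ℤℓ] k) := fun h =>
  not_isField_rCov_field k N ((covTensorEquiv N ℓ k).symm.toMulEquiv.isField h)

theorem isDomain_lamC_tensor : IsDomain (LamC ℤℓ ⊗[ℤℓ] k) :=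
  (lamTensorEquiv ℓ k).toMulEquiv.isDomain (LamC k)

theorem isPrincipalIdealRing_lamC_tensor : IsPrincipalIdealRing (LamC ℤℓ ⊗[ℤℓ] k) :=
  haveI : IsPrincipalIdealRing (LamC k) := isPrincipalIdealRing_paw (cLam k)
  IsPrincipalIdealRing.of_surjective (lamTensorEquiv ℓ k).symm.toRingHom
    (lamTensorEquiv ℓ k).symm.surjective

end Zl

end Fermat.Agent.Good.CuspCover
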