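import Mathlib
import Fermat.Prelude.Def_ModularCurve_IgusaScheme
import Fermat.Agent.Igusa.ChartBase
import Fermat.Agent.Good.CuspGlue

/-!
# Program L (S18), L-GEN, node [G-KUM] (iii), complement: a concrete model of the cusp chart

With `w = 1/j` and `g = 1 - 1728 w`, the chart algebra
`chartAlgInfC N ℓ = chartAlg N ℓ {w, g⁻¹}` (the integral closure of `ℤ_(ℓ)[w, 1/(1-1728w)]` in the
modular function field) is the localisation of `chartAlgInf N ℓ` away from `g`.  Combined with
`CuspGlue.isIntegrallyClosed_inf_tensor` this reduces the normality of the special fibre of the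
chart at infinity to that of the finite chart and of the cusp chart `chartAlgInfC`.
-/

set_option autoImplicit false
set_option linter.style.haveILetI false
set_option linter.unusedSectionVars false

open ModularCurve ModularCurve.IgusaScheme TensorProduct

namespace Fermat.Agent.Good.CuspGlue

variable (N : ℕ) [NeZero N] (ℓ : ℕ) [Fact ℓ.Prime]

set_option quotPrecheck false in
local notation "ℤℓ" => ↥(GaloisRep.ratLocalizedAt ℓ)

set_option quotPrecheck false in
local notation "F" => ↥(modularFunctionFieldFull N)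

set_option synthInstance.maxHeartbeats 400000

/-- `g = 1 - 1728 / j`. -/
noncomputable def gFull : F := 1 - 1728 * (jFull N)⁻¹

theorem gFull_ne_zero : gFull N ≠ 0 := by
  intro h0
  have hw : (jFull N)⁻¹ = algebraMap ℚ F (1 / 1728) := by
    have h1 : (1728 : F) * (jFull N)⁻¹ = 1 := by
      have := h0
      rw [gFull, sub_eq_zero] at this
      exact this.symm
    have h2 : (1728 : F) ≠ 0 := by norm_num
    rw [map_div₀, map_one, eq_div_iff (by simp)]
    rw [mul_comm]
    simpa using h1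
  have halg : IsAlgebraic ℚ ((jFull N)⁻¹ : F) := by
    rw [hw]
    exact isAlgebraic_algebraMap _
  exact Fermat.Agent.Igusa.ChartBaseAux.transcendental_jFull_inv_rat N halg

/-- Integrality over a subalgebra passes to a bigger subalgebra. -/
theorem isIntegral_of_subalgebra_le {R A : Type*} [CommRing R] [CommRing A] [Algebra R A]
    {S S' : Subalgebra R A} (h : S ≤ S') {x : A} (hx : IsIntegral S x) : IsIntegral S' x := by
  obtain ⟨p, hp, hpx⟩ := hx
  refine ⟨p.map (Subalgebra.inclusion h).toRingHom, hp.map _, ?_⟩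
  rw [Polynomial.eval₂_map]
  exact hpx

/-- `chartAlg` only depends on the subalgebra generated by the set. -/
theorem chartAlg_le_of_adjoin_le {S S' : Set F}
    (h : Algebra.adjoin ℤℓ S ≤ Algebra.adjoin ℤℓ S') : chartAlg N ℓ S ≤ chartAlg N ℓ S' := by
  intro x hx
  rw [mem_chartAlg_iff] at hx ⊢
  exact isIntegral_of_subalgebra_le h hx

/-- The chart algebra of the cusp chart `D(1 - 1728 w) ⊆ Spec ℤ_(ℓ)[w]`. -/
noncomputable abbrev chartAlgInfC : Subalgebra ℤℓ F :=
  chartAlg N ℓ {(jFull N)⁻¹, (gFull N)⁻¹}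

theorem sInfC_subset : ({(jFull N)⁻¹} : Set F) ⊆ {(jFull N)⁻¹, (gFull N)⁻¹} :=
  Set.singleton_subset_iff.mpr (Set.mem_insert _ _)

/-- The inclusion `chartAlgInf → chartAlgInfC`. -/
noncomputable abbrev inclInfC : chartAlgInf N ℓ →ₐ[ℤℓ] chartAlgInfC N ℓ :=
  chartIncl N ℓ (sInfC_subset N)

theorem gFull_mem_adjoin : gFull N ∈ Algebra.adjoin ℤℓ ({(jFull N)⁻¹} : Set F) := by
  rw [gFull]
  refine sub_mem (one_mem _) (mul_mem ?_ (Algebra.subset_adjoin rfl))
  have : (1728 : F) = algebraMap ℤℓ F 1728 := (map_ofNat (algebraMap ℤℓ F) 1728).symm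
  rw [this]
  exact Subalgebra.algebraMap_mem _ _

theorem coe_one_sub_jInvChartInf :
    ((1 - 1728 * jInvChartInf N ℓ : chartAlgInf N ℓ) : F) = gFull N := by
  rw [gFull, Subalgebra.coe_sub, Subalgebra.coe_one, Subalgebra.coe_mul]
  have h1 : ((1728 : chartAlgInf N ℓ) : F) = 1728 := map_ofNat (chartAlgInf N ℓ).val 1728
  rw [h1]
  rfl

theorem isUnit_inclInfC_g : IsUnit (inclInfC N ℓ (1 - 1728 * jInvChartInf N ℓ)) := by
  refine .of_mul_eq_one ⟨(gFull N)⁻¹, subset_chartAlg N ℓ _ (by simp)⟩ (Subtype.ext ?_)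
  rw [Subalgebra.coe_mul, Subalgebra.coe_one, coe_chartIncl, coe_one_sub_jInvChartInf]
  exact mul_inv_cancel₀ (gFull_ne_zero N)

/-- **`chartAlgInfC = chartAlgInf[1/(1 - 1728 w)]`.** -/
theorem isLocalization_away_inclInfC :
    letI := (inclInfC N ℓ).toRingHom.toAlgebra
    IsLocalization.Away (1 - 1728 * jInvChartInf N ℓ) (chartAlgInfC N ℓ) := by
  letI := (inclInfC N ℓ).toRingHom.toAlgebra
  refine (isLocalization_iff _ _).mpr ⟨?_, ?_, ?_⟩
  · rintro ⟨_, n, rfl⟩
    rw [RingHom.algebraMap_toAlgebra, map_pow]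
    exact (isUnit_inclInfC_g N ℓ).pow n
  · intro z
    have hz : (z : F) ∈ chartAlg N ℓ (insert (gFull N)⁻¹ {gFull N, (jFull N)⁻¹}) := by
      refine chartAlg_mono N ℓ ?_ z.2
      intro y hy
      rcases hy with rfl | rfl
      · exact Set.mem_insert_of_mem _ (Set.mem_insert_of_mem _ rfl)
      · exact Set.mem_insert _ _
    obtain ⟨n, hn⟩ := exists_pow_mul_mem_chartAlg (Set.mem_insert _ _) (gFull_ne_zero N) hz
    have hle : chartAlg N ℓ {gFull N, (jFull N)⁻¹} ≤ chartAlgInf N ℓ := by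
      apply chartAlg_le_of_adjoin_le
      rw [Algebra.adjoin_le_iff]
      rintro y (rfl | rfl)
      · exact gFull_mem_adjoin N ℓ
      · exact Algebra.subset_adjoin rfl
    refine ⟨(⟨(gFull N) ^ n * z, hle hn⟩, ⟨(1 - 1728 * jInvChartInf N ℓ) ^ n, n, rfl⟩),
      Subtype.ext ?_⟩
    simp only [RingHom.algebraMap_toAlgebra, map_pow, Subalgebra.coe_mul, Subalgebra.coe_pow,
      AlgHom.toRingHom_eq_coe, AlgHom.coe_toRingHom, coe_chartIncl, coe_one_sub_jInvChartInf]
    exact mul_comm _ _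
  · intro x y h
    refine ⟨1, ?_⟩
    rw [RingHom.algebraMap_toAlgebra] at h
    rw [chartIncl_injective N ℓ _ h]

theorem isScalarTower_inf_infC :
    letI := (inclInfC N ℓ).toRingHom.toAlgebra
    IsScalarTower ℤℓ (chartAlgInf N ℓ) (chartAlgInfC N ℓ) := by
  letI := (inclInfC N ℓ).toRingHom.toAlgebra
  exact IsScalarTower.of_algebraMap_eq fun r => ((inclInfC N ℓ).commutes r).symm

/-- **The glue, concrete form.** If the special fibres `chartAlgFin ⊗ K` and `chartAlgInfC ⊗ K`
are normal, so is `chartAlgInf ⊗ K`. -/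
theorem isIntegrallyClosed_inf_tensor_of_infC (K : Type*) [Field K]
    [Algebra (GaloisRep.ratLocalizedAt ℓ) K]
    [IsDomain (chartAlgFin N ℓ ⊗[ℤℓ] K)] [Nontrivial (chartAlgMid N ℓ ⊗[ℤℓ] K)]
    [IsDomain (chartAlgInf N ℓ ⊗[ℤℓ] K)] [IsIntegrallyClosed (chartAlgFin N ℓ ⊗[ℤℓ] K)]
    [IsIntegrallyClosed (chartAlgInfC N ℓ ⊗[ℤℓ] K)] :
    IsIntegrallyClosed (chartAlgInf N ℓ ⊗[ℤℓ] K) := by
  letI := (inclInfC N ℓ).toRingHom.toAlgebra
  haveI := isScalarTower_inf_infC N ℓ
  haveI := isLocalization_away_inclInfC N ℓ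
  exact isIntegrallyClosed_inf_tensor N ℓ K (chartAlgInfC N ℓ)

end Fermat.Agent.Good.CuspGlue
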