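import Mathlib
import Fermat.Agent.Good.CuspChartAway
import Fermat.Agent.Good.IgusaExtract

/-!
# Program L (S18), L-GEN, node [G-INST-CUSP]: the concrete cusp chart, side conditions

`chartAlgInfC N ℓ = chartAlg N ℓ {w, g⁻¹}` (`w = 1/j`, `g = 1 - 1728 w`).  This file provides

* `hSInfC` : the generators have `ℓ`-integral `q`-expansions, so `chartRes` is defined;
* `redDataInfC` : the `q`-expansion principle (`ReductionData`) on the cusp chart, by localisation
  from the chart at infinity; `isDomain_tensor_infC` : its special fibre is geometrically integral;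
* `isIntegrallyClosed_inf_tensor_of_fin_infC` : the glue of `Good/CuspChartAway.lean` with all
  side conditions discharged (`ℓ ∤ N`).
-/

set_option autoImplicit false
set_option linter.style.haveILetI false
set_option linter.unusedSectionVars false

open ModularCurve ModularCurve.IgusaScheme TensorProduct
open Fermat.Agent.Igusa

namespace Fermat.Agent.Good.CuspGlue

variable (N : ℕ) [NeZero N] (ℓ : ℕ) [Fact ℓ.Prime]

set_option quotPrecheck false in
local notation "ℤℓ" => ↥(GaloisRep.ratLocalizedAt ℓ)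

set_option quotPrecheck false in
local notation "F" => ↥(modularFunctionFieldFull N)

set_option synthInstance.maxHeartbeats 400000

/-- The reduction of `g = 1 - 1728 w` on the chart at infinity. -/
theorem chartRes_gInf :
    chartRes N ℓ (hSInf N ℓ) (1 - 1728 * jInvChartInf N ℓ) =
      1 - 1728 * (jqModC (ZMod ℓ))⁻¹ := by
  rw [map_sub, map_one, map_mul, map_ofNat,
    chartRes_jFull_inv N ℓ (hSInf N ℓ) (jInvChartInf N ℓ) rfl]

theorem chartRes_gInf_ne_zero :
    chartRes N ℓ (hSInf N ℓ) (1 - 1728 * jInvChartInf N ℓ) ≠ 0 := by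
  rw [chartRes_gInf]
  intro h0
  apply ChartBaseAux.transcendental_jqModC_inv (ZMod ℓ)
  refine ⟨1 - Polynomial.C 1728 * Polynomial.X, ?_, ?_⟩
  · intro h
    have := congrArg (fun p => Polynomial.coeff p 0) h
    simp at this
  · have h1728 : (algebraMap (ZMod ℓ) (LaurentSeries (ZMod ℓ))) 1728 = 1728 := map_ofNat _ 1728
    simpa [h1728] using h0

theorem coe_gFull_mem_gaussSubring : ((gFull N : F) : LaurentSeries ℚ) ∈ gaussSubring ℓ :=
  coe_mem_gaussSubring_of_mem_adjoin N ℓ (hSInf N ℓ) (gFull_mem_adjoin N ℓ)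

theorem gaussRes_gFull_ne_zero :
    gaussRes ℓ ⟨((gFull N : F) : LaurentSeries ℚ), coe_gFull_mem_gaussSubring N ℓ⟩ ≠ 0 := by
  have h := chartRes_gInf_ne_zero N ℓ
  rw [chartRes_apply] at h
  intro h0
  apply h
  rw [← h0]
  congr 1

/-- The generators of the cusp chart have `ℓ`-integral `q`-expansions. -/
theorem hSInfC : ∀ s ∈ ({(jFull N)⁻¹, (gFull N)⁻¹} : Set F),
    ((s : F) : LaurentSeries ℚ) ∈ gaussSubring ℓ := by
  rintro s (rfl | rfl)
  · exact hSInf N ℓ _ rfl
  · rw [IntermediateField.coe_inv]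
    exact inv_mem_gaussSubring_of_gaussRes_ne_zero ℓ
      ⟨((gFull N : F) : LaurentSeries ℚ), coe_gFull_mem_gaussSubring N ℓ⟩
      (gaussRes_gFull_ne_zero N ℓ)

open Fermat.Agent.Good.S28X in
/-- **The `q`-expansion principle on the cusp chart** (`ℓ ∤ N`), by localisation from the chart at
infinity. -/
noncomputable def redDataInfC (hℓN : ¬ ℓ ∣ N) : ReductionData ℓ ↥(chartAlgInfC N ℓ) where
  ρ := chartRes N ℓ (hSInfC N ℓ)
  map_algebraMap := chartRes_algebraMap N ℓ (hSInfC N ℓ)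
  ker_le := by
    intro x hx
    letI := (inclInfC N ℓ).toRingHom.toAlgebra
    haveI := isLocalization_away_inclInfC N ℓ
    obtain ⟨⟨y, ⟨_, n, rfl⟩⟩, hy⟩ :=
      IsLocalization.surj (Submonoid.powers (1 - 1728 * jInvChartInf N ℓ)) x
    have hy' : x * inclInfC N ℓ ((1 - 1728 * jInvChartInf N ℓ) ^ n) = inclInfC N ℓ y := hy
    have h1 : chartRes N ℓ (hSInf N ℓ) y = chartRes N ℓ (hSInfC N ℓ) (inclInfC N ℓ y) :=
      chartRes_congr N ℓ _ _ _ _ (coe_chartIncl N ℓ _ y).symm
    rw [← hy', map_mul, hx, zero_mul] at h1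
    obtain ⟨z, hz⟩ := (redDataInf N ℓ hℓN).ker_le y h1
    obtain ⟨u, hu⟩ := (isUnit_inclInfC_g N ℓ).pow n
    refine ⟨↑u⁻¹ * inclInfC N ℓ z, ?_⟩
    have h2 : x * ↑u = algebraMap ℤℓ ↥(chartAlgInfC N ℓ) (zlPrime ℓ) * inclInfC N ℓ z := by
      rw [hu, ← map_pow, hy', hz, map_mul, AlgHom.commutes]
    calc x = x * ↑u * ↑u⁻¹ := by rw [mul_assoc, Units.mul_inv, mul_one]
      _ = _ := by rw [h2]; ring

open Fermat.Agent.Good.S28X in
/-- Geometric integrality of the special fibre of the cusp chart. -/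
theorem isDomain_tensor_infC (hℓN : ¬ ℓ ∣ N) (K : Type*) [Field K] [CharP K ℓ]
    [Algebra (GaloisRep.ratLocalizedAt ℓ) K] :
    IsDomain (↥(chartAlgInfC N ℓ) ⊗[ℤℓ] K) :=
  (redDataInfC N ℓ hℓN).isDomain_tensor ℓ K

open Fermat.Agent.Good.S28X in
/-- **The glue, final form.** For `ℓ ∤ N` and a field `K` of characteristic `ℓ`: if the special
fibres of the finite chart and of the cusp chart are normal, so is the special fibre of the chart
at infinity. -/
theorem isIntegrallyClosed_inf_tensor_of_fin_infC (hℓN : ¬ ℓ ∣ N) (K : Type*) [Field K]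
    [CharP K ℓ] [Algebra (GaloisRep.ratLocalizedAt ℓ) K]
    [IsIntegrallyClosed (chartAlgFin N ℓ ⊗[ℤℓ] K)]
    [IsIntegrallyClosed (chartAlgInfC N ℓ ⊗[ℤℓ] K)] :
    IsIntegrallyClosed (chartAlgInf N ℓ ⊗[ℤℓ] K) := by
  haveI := isDomain_tensor_fin N ℓ hℓN K
  haveI := isDomain_tensor_inf N ℓ hℓN K
  haveI : IsDomain (chartAlgMid N ℓ ⊗[ℤℓ] K) := (redDataMid N ℓ hℓN).isDomain_tensor ℓ K
  exact isIntegrallyClosed_inf_tensor_of_infC N ℓ K

end Fermat.Agent.Good.CuspGlue
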