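import Mathlib
import Fermat.Agent.Good.CuspChartModel
import Fermat.Agent.Good.KummerCover

/-!
# Program L (S18), L-GEN, node [G-INST-CUSP]: the base ring of the cusp chart

`w = 1/j`, `g = 1 - 1728 w`.  The base ring of the cusp chart `chartAlgInfC N ℓ` is
`adjInfC N ℓ = ℤ_(ℓ)[w, 1/g] ⊆ F`.  This file shows

* `isLocalization_away_adjInclInfC` : `ℤ_(ℓ)[w, 1/g] = ℤ_(ℓ)[w][1/g]`;
* `adjInfC` is noetherian, integrally closed, with fraction field `ℚ(j)`;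
* `chartAlgInfC` is a finite `adjInfC`-module, integrally closed, with fraction field `F`;
* `lamEquivAdjInfC : Kum.LamC ℤ_(ℓ) ≃ₐ[ℤ_(ℓ)] adjInfC N ℓ`, `wLam ↦ w` (the abstract model of
  `Good/KummerCover.lean`).
-/

set_option autoImplicit false
set_option linter.style.haveILetI false
set_option linter.unusedSectionVars false

open ModularCurve ModularCurve.IgusaScheme TensorProduct IntermediateField
open Fermat.Agent.Igusa

namespace Fermat.Agent.Good.CuspGlue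

variable (N : ℕ) [NeZero N] (ℓ : ℕ) [Fact ℓ.Prime]

set_option quotPrecheck false in
local notation "ℤℓ" => ↥(GaloisRep.ratLocalizedAt ℓ)

set_option quotPrecheck false in
local notation "F" => ↥(modularFunctionFieldFull N)

set_option synthInstance.maxHeartbeats 400000

/-- The base ring `ℤ_(ℓ)[w, 1/(1 - 1728 w)]` of the cusp chart. -/
noncomputable abbrev adjInfC : Subalgebra ℤℓ F :=
  Algebra.adjoin ℤℓ ({(jFull N)⁻¹, (gFull N)⁻¹} : Set F)

/-- `g` as an element of `ℤ_(ℓ)[w]`. -/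
noncomputable def gAdjInf : ↥(Algebra.adjoin ℤℓ ({(jFull N)⁻¹} : Set F)) :=
  ⟨gFull N, gFull_mem_adjoin N ℓ⟩

/-- the inclusion `ℤ_(ℓ)[w] → ℤ_(ℓ)[w, 1/g]` -/
noncomputable abbrev adjInclInfC : ↥(Algebra.adjoin ℤℓ ({(jFull N)⁻¹} : Set F)) →ₐ[ℤℓ]
    ↥(adjInfC N ℓ) :=
  Subalgebra.inclusion (Algebra.adjoin_mono (sInfC_subset N))

theorem gFull_mem_Qj : gFull N ∈ ℚ⟮jFull N⟯ := by
  rw [gFull]
  exact sub_mem (one_mem _) (mul_mem (by
    have : (1728 : F) = algebraMap ℚ F 1728 := (map_ofNat (algebraMap ℚ F) 1728).symm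
    rw [this]
    exact ℚ⟮jFull N⟯.algebraMap_mem _) (ℚ⟮jFull N⟯.inv_mem (jFull_mem_Qj N)))

theorem sInfC_subset_Qj :
    ({(jFull N)⁻¹, (gFull N)⁻¹} : Set F) ⊆ (ℚ⟮jFull N⟯ : Set F) := by
  rintro x (rfl | rfl)
  · exact ℚ⟮jFull N⟯.inv_mem (jFull_mem_Qj N)
  · exact ℚ⟮jFull N⟯.inv_mem (gFull_mem_Qj N)

/-- **`ℤ_(ℓ)[w, 1/g]` is the localisation of `ℤ_(ℓ)[w]` away from `g`.** -/
theorem isLocalization_away_adjInclInfC :
    letI := (adjInclInfC N ℓ).toRingHom.toAlgebra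
    IsLocalization.Away (gAdjInf N ℓ) ↥(adjInfC N ℓ) := by
  letI := (adjInclInfC N ℓ).toRingHom.toAlgebra
  refine (isLocalization_iff _ _).mpr ⟨?_, ?_, ?_⟩
  · rintro ⟨_, n, rfl⟩
    rw [RingHom.algebraMap_toAlgebra, map_pow]
    refine IsUnit.pow n ?_
    refine .of_mul_eq_one ⟨(gFull N)⁻¹, Algebra.subset_adjoin (by simp)⟩ (Subtype.ext ?_)
    exact mul_inv_cancel₀ (gFull_ne_zero N)
  · intro z
    have hz : (z : F) ∈ Algebra.adjoin ℤℓ (insert (gFull N)⁻¹ ({gFull N, (jFull N)⁻¹} : Set F)) := by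
      refine Algebra.adjoin_mono ?_ z.2
      rintro y (rfl | rfl)
      · exact Set.mem_insert_of_mem _ (Set.mem_insert_of_mem _ rfl)
      · exact Set.mem_insert _ _
    obtain ⟨n, hn⟩ := exists_pow_mul_mem_adjoin (Set.mem_insert _ _) (gFull_ne_zero N) hz
    have hle : Algebra.adjoin ℤℓ ({gFull N, (jFull N)⁻¹} : Set F) ≤
        Algebra.adjoin ℤℓ ({(jFull N)⁻¹} : Set F) := by
      rw [Algebra.adjoin_le_iff]
      rintro y (rfl | rfl)
      · exact gFull_mem_adjoin N ℓ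
      · exact Algebra.subset_adjoin rfl
    refine ⟨(⟨(gFull N) ^ n * z, hle hn⟩, ⟨gAdjInf N ℓ ^ n, n, rfl⟩), Subtype.ext ?_⟩
    rw [RingHom.algebraMap_toAlgebra]
    show (z : F) * (gFull N) ^ n = (gFull N) ^ n * (z : F)
    exact mul_comm _ _
  · intro x y h
    refine ⟨1, ?_⟩
    rw [RingHom.algebraMap_toAlgebra] at h
    rw [Subalgebra.inclusion_injective _ h]

theorem gAdjInf_ne_zero : gAdjInf N ℓ ≠ 0 := fun h =>
  gFull_ne_zero N (congrArg Subtype.val h)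

theorem isIntegrallyClosed_adjInfC : IsIntegrallyClosed ↥(adjInfC N ℓ) := by
  let _ := (adjInclInfC N ℓ).toRingHom.toAlgebra
  have := isLocalization_away_adjInclInfC N ℓ
  have : IsIntegrallyClosed ↥(Algebra.adjoin ℤℓ ({(jFull N)⁻¹} : Set F)) :=
    ChartBaseAux.isIntegrallyClosed_adjInf N ℓ
  refine isIntegrallyClosed_of_isLocalization _ (Submonoid.powers (gAdjInf N ℓ)) ?_
  rintro x ⟨n, rfl⟩
  exact mem_nonZeroDivisors_of_ne_zero (pow_ne_zero n (gAdjInf_ne_zero N ℓ))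

theorem isNoetherianRing_adjInfC : IsNoetherianRing ↥(adjInfC N ℓ) := by
  let _ := (adjInclInfC N ℓ).toRingHom.toAlgebra
  have := isLocalization_away_adjInclInfC N ℓ
  exact IsLocalization.isNoetherianRing (Submonoid.powers (gAdjInf N ℓ)) _
    (ChartBaseAux.isNoetherianRing_adjInf N ℓ)

/-- `Frac ℤ_(ℓ)[w, 1/g] = ℚ(j)`. -/
theorem isFractionRing_adjInfC :
    letI := adjoinAlgebraQj N ℓ (sInfC_subset_Qj N)
    IsFractionRing ↥(adjInfC N ℓ) ↥ℚ⟮jFull N⟯ :=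
  adjoinQj_isFractionRing N ℓ (sInfC_subset_Qj N) (Or.inr (Algebra.subset_adjoin (by simp)))

attribute [local instance] chartBaseAlgebra
attribute [local instance 2000] chartBaseSMul

/-- The cusp chart algebra is a finite module over `ℤ_(ℓ)[w, 1/g]`. -/
theorem finite_chartAlgInfC : Module.Finite ↥(adjInfC N ℓ) ↥(chartAlgInfC N ℓ) := by
  let _ := adjoinAlgebraQj N ℓ (sInfC_subset_Qj N)
  have := adjoinQj_isScalarTower N ℓ (sInfC_subset_Qj N)
  have := isFractionRing_adjInfC N ℓ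
  have := finiteDimensional_full N
  have : IsIntegrallyClosed ↥(adjInfC N ℓ) := isIntegrallyClosed_adjInfC N ℓ
  have : IsNoetherianRing ↥(adjInfC N ℓ) := isNoetherianRing_adjInfC N ℓ
  exact IsIntegralClosure.finite ↥(adjInfC N ℓ) ↥ℚ⟮jFull N⟯ F ↥(chartAlgInfC N ℓ)

/-- `F_N` is the fraction field of the cusp chart algebra. -/
theorem isFractionRing_chartAlgInfC : IsFractionRing ↥(chartAlgInfC N ℓ) F := by
  let _ := adjoinAlgebraQj N ℓ (sInfC_subset_Qj N)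
  have := adjoinQj_isScalarTower N ℓ (sInfC_subset_Qj N)
  have := isFractionRing_adjInfC N ℓ
  have := finiteDimensional_full N
  exact IsIntegralClosure.isFractionRing_of_finite_extension
    ↥(adjInfC N ℓ) ↥ℚ⟮jFull N⟯ F ↥(chartAlgInfC N ℓ)

/-- The cusp chart algebra is integrally closed. -/
theorem isIntegrallyClosed_chartAlgInfC : IsIntegrallyClosed ↥(chartAlgInfC N ℓ) := by
  have := isFractionRing_chartAlgInfC N ℓ
  rw [isIntegrallyClosed_iff F]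
  intro x hx
  have : Algebra.IsIntegral ↥(adjInfC N ℓ) ↥(chartAlgInfC N ℓ) :=
    IsIntegralClosure.isIntegral_algebra ↥(adjInfC N ℓ) F
  have h1 : IsIntegral ↥(adjInfC N ℓ) x :=
    isIntegral_trans (A := ↥(chartAlgInfC N ℓ)) x hx
  exact ⟨⟨x, (mem_chartAlg_iff N ℓ).mpr h1⟩, rfl⟩

/-! ### The abstract model `Kum.LamC ℤ_(ℓ)` -/

open Polynomial Fermat.Agent.Good.Kum

/-- `ℤ_(ℓ)[X] ≃ ℤ_(ℓ)[w]`. -/
noncomputable def polyEquivAdjInf :
    ℤℓ[X] ≃ₐ[ℤℓ] ↥(Algebra.adjoin ℤℓ ({(jFull N)⁻¹} : Set F)) :=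
  Polynomial.algEquivOfTranscendental ℤℓ _ (ChartBaseAux.transcendental_jFull_inv_zl N ℓ)

theorem coe_polyEquivAdjInf (p : ℤℓ[X]) :
    ((polyEquivAdjInf N ℓ p : ↥(Algebra.adjoin ℤℓ ({(jFull N)⁻¹} : Set F))) : F) =
      aeval (jFull N)⁻¹ p := by
  rw [polyEquivAdjInf, Polynomial.algEquivOfTranscendental_apply]
  exact (Polynomial.aeval_algHom_apply (Algebra.adjoin ℤℓ ({(jFull N)⁻¹} : Set F)).val
    (⟨(jFull N)⁻¹, _⟩ : ↥(Algebra.adjoin ℤℓ ({(jFull N)⁻¹} : Set F))) p).symm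

theorem polyEquivAdjInf_cLam : polyEquivAdjInf N ℓ (cLam ℤℓ) = gAdjInf N ℓ := by
  apply Subtype.ext
  rw [coe_polyEquivAdjInf, cLam, map_sub, map_one, map_mul, aeval_X, aeval_C]
  have : algebraMap ℤℓ F 1728 = 1728 := map_ofNat (algebraMap ℤℓ F) 1728
  rw [this]
  rfl

/-- **`Kum.LamC ℤ_(ℓ) ≃ ℤ_(ℓ)[w, 1/(1 - 1728 w)]`.** -/
noncomputable def lamEquivAdjInfC : LamC ℤℓ ≃ₐ[ℤℓ] ↥(adjInfC N ℓ) :=
  letI := (adjInclInfC N ℓ).toRingHom.toAlgebra
  haveI := isLocalization_away_adjInclInfC N ℓ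
  haveI : IsScalarTower ℤℓ ↥(Algebra.adjoin ℤℓ ({(jFull N)⁻¹} : Set F)) ↥(adjInfC N ℓ) :=
    IsScalarTower.of_algebraMap_eq fun r => ((adjInclInfC N ℓ).commutes r).symm
  IsLocalization.algEquivOfAlgEquiv (M := Submonoid.powers (cLam ℤℓ)) (LamC ℤℓ)
    (T := Submonoid.powers (gAdjInf N ℓ)) ↥(adjInfC N ℓ) (polyEquivAdjInf N ℓ) (by
      rw [Submonoid.map_powers]
      congr 1
      exact polyEquivAdjInf_cLam N ℓ)

theorem coe_lamEquivAdjInfC_algebraMap (p : ℤℓ[X]) :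
    ((lamEquivAdjInfC N ℓ (algebraMap ℤℓ[X] (LamC ℤℓ) p) : ↥(adjInfC N ℓ)) : F) =
      aeval (jFull N)⁻¹ p := by
  letI := (adjInclInfC N ℓ).toRingHom.toAlgebra
  haveI := isLocalization_away_adjInclInfC N ℓ
  haveI : IsScalarTower ℤℓ ↥(Algebra.adjoin ℤℓ ({(jFull N)⁻¹} : Set F)) ↥(adjInfC N ℓ) :=
    IsScalarTower.of_algebraMap_eq fun r => ((adjInclInfC N ℓ).commutes r).symm
  rw [lamEquivAdjInfC, IsLocalization.algEquivOfAlgEquiv_eq, ← coe_polyEquivAdjInf]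
  rfl

theorem coe_lamEquivAdjInfC_wLam :
    ((lamEquivAdjInfC N ℓ (wLam ℤℓ) : ↥(adjInfC N ℓ)) : F) = (jFull N)⁻¹ := by
  rw [wLam, coe_lamEquivAdjInfC_algebraMap, aeval_X]

theorem coe_lamEquivAdjInfC_lamConst (a : ℤℓ) :
    ((lamEquivAdjInfC N ℓ (lamConst ℤℓ a) : ↥(adjInfC N ℓ)) : F) = algebraMap ℤℓ F a := by
  rw [pawConst_apply, coe_lamEquivAdjInfC_algebraMap, aeval_C]

end Fermat.Agent.Good.CuspGlue
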