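import Mathlib

/-!
# Changing the base field of a basis along an isomorphism (Mathlib only)

Let `e : K ≃+* K'` be an isomorphism of commutative rings and `F` a commutative ring which is an
algebra over both, compatibly (`algebraMap K' F ∘ e = algebraMap K F`).  A `K`-basis of `F` is a
`K'`-basis (`FracBridge.basisAlong`), traces correspond and the discriminant is transported by `e`
(`FracBridge.discr_basisAlong`).  Main application: `K`, `K'` two fraction fields of the same
domain `A` with `IsScalarTower A K F`, `IsScalarTower A K' F`
(`FracBridge.basisFrac`, `FracBridge.discr_basisFrac`, `FracBridge.discr_basisFrac_algebraMap`).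
-/

set_option autoImplicit false

open Module

namespace Fermat.Agent.Good.FracBridge

section Along

variable {K K' F ι : Type*} [CommRing K] [CommRing K'] [CommRing F] [Algebra K F] [Algebra K' F]
  (e : K ≃+* K') (he : (algebraMap K' F).comp (e : K →+* K') = algebraMap K F)

include he in
theorem smul_along (c : K) (x : F) : e c • x = c • x := by
  rw [Algebra.smul_def, Algebra.smul_def, ← he]
  rfl

/-- A `K`-basis of `F` as a `K'`-basis, along `e : K ≃+* K'`. -/
noncomputable def basisAlong (b : Basis ι K F) : Basis ι K' F :=
  b.mapCoeffs e (smul_along e he)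

@[simp] theorem basisAlong_apply (b : Basis ι K F) (i : ι) : basisAlong e he b i = b i :=
  Basis.mapCoeffs_apply b e (smul_along e he) i

theorem coe_basisAlong (b : Basis ι K F) : ⇑(basisAlong e he b) = ⇑b :=
  funext (basisAlong_apply e he b)

include he in
/-- The discriminant of a family is transported by `e`. -/
theorem discr_along [Fintype ι] [DecidableEq ι] (v : ι → F) :
    Algebra.discr K' v = e (Algebra.discr K v) := by
  rw [Algebra.discr_def, Algebra.discr_def, ← RingEquiv.coe_toRingHom, RingHom.map_det]
  congr 1
  ext i j
  simp only [RingHom.mapMatrix_apply, Matrix.map_apply, Algebra.traceMatrix_apply,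
    Algebra.traceForm_apply, RingEquiv.coe_toRingHom]
  exact (Algebra.trace_eq_of_ringEquiv e he _).symm

theorem discr_basisAlong [Fintype ι] [DecidableEq ι] (b : Basis ι K F) :
    Algebra.discr K' (basisAlong e he b) = e (Algebra.discr K b) := by
  rw [coe_basisAlong]
  exact discr_along e he _

end Along

section Frac

variable (A : Type*) {K K' F ι : Type*} [CommRing A] [CommRing K] [CommRing K'] [CommRing F]
  [Algebra A K] [Algebra A K'] [IsFractionRing A K] [IsFractionRing A K']
  [Algebra A F] [Algebra K F] [Algebra K' F] [IsScalarTower A K F] [IsScalarTower A K' F]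

/-- The canonical isomorphism between two fraction rings of `A`. -/
noncomputable def fracEquiv : K ≃ₐ[A] K' :=
  IsLocalization.algEquiv (nonZeroDivisors A) K K'

variable (K K' F) in
theorem fracEquiv_comp :
    (algebraMap K' F).comp ((fracEquiv A (K := K) (K' := K')).toRingEquiv : K →+* K') =
      algebraMap K F := by
  apply IsLocalization.ringHom_ext (nonZeroDivisors A)
  ext a
  simp only [RingHom.comp_apply]
  have h1 : ((fracEquiv A (K := K) (K' := K')).toRingEquiv : K →+* K') (algebraMap A K a) =
      algebraMap A K' a := (fracEquiv A (K := K) (K' := K')).commutes a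
  rw [h1, ← IsScalarTower.algebraMap_apply, ← IsScalarTower.algebraMap_apply]

/-- A basis over one fraction field of `A` is a basis over any other one (same vectors). -/
noncomputable def basisFrac (b : Basis ι K F) : Basis ι K' F :=
  basisAlong (fracEquiv A (K := K) (K' := K')).toRingEquiv (fracEquiv_comp A K K' F) b

@[simp] theorem basisFrac_apply (b : Basis ι K F) (i : ι) :
    basisFrac A (K' := K') b i = b i :=
  basisAlong_apply _ _ b i

theorem discr_frac [Fintype ι] [DecidableEq ι] (v : ι → F) :
    Algebra.discr K' v = fracEquiv A (K := K) (K' := K') (Algebra.discr K v) :=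
  discr_along (fracEquiv A (K := K) (K' := K')).toRingEquiv (fracEquiv_comp A K K' F) v

theorem discr_basisFrac [Fintype ι] [DecidableEq ι] (b : Basis ι K F) :
    Algebra.discr K' (basisFrac A (K' := K') b) =
      fracEquiv A (K := K) (K' := K') (Algebra.discr K b) :=
  discr_basisAlong _ _ b

/-- If the discriminant over `K` comes from `d : A`, so does the discriminant over `K'`. -/
theorem discr_frac_algebraMap [Fintype ι] [DecidableEq ι] (v : ι → F) {d : A}
    (hd : Algebra.discr K v = algebraMap A K d) :
    Algebra.discr K' v = algebraMap A K' d := by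
  rw [discr_frac A (K := K) (K' := K'), hd]
  exact (fracEquiv A (K := K) (K' := K')).commutes d

theorem discr_basisFrac_algebraMap [Fintype ι] [DecidableEq ι] (b : Basis ι K F) {d : A}
    (hd : Algebra.discr K b = algebraMap A K d) :
    Algebra.discr K' (basisFrac A (K' := K') b) = algebraMap A K' d := by
  rw [discr_basisFrac, hd]
  exact (fracEquiv A (K := K) (K' := K')).commutes d

end Frac

section BaseChange

/-! Restored from the first version of this file (helper19, 2ff5138; used by `Good/InstOddQ.lean`):
transport of the base of a fraction field along a bijective ring homomorphism. -/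

variable {A₀ A K : Type*} [CommRing A₀] [CommRing A] [Field K]
  [Algebra A K] [IsFractionRing A K] [Algebra A₀ K]

/-- Transport of the base of a fraction field along a bijective ring homomorphism
(e.g. `O[X] → O[j]`, `j` transcendental). -/
theorem isFractionRing_of_bijective (f : A₀ →+* A) (hf : Function.Bijective f)
    (hcomp : ∀ a, algebraMap A K (f a) = algebraMap A₀ K a) : IsFractionRing A₀ K := by
  have hinj : Function.Injective (algebraMap A₀ K) := by
    intro a b hab
    rw [← hcomp, ← hcomp] at hab
    exact hf.1 (IsFractionRing.injective A K hab)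
  have : FaithfulSMul A₀ K := (faithfulSMul_iff_algebraMap_injective _ _).mpr hinj
  refine IsFractionRing.of_field (R := A₀) (K := K) fun z => ?_
  obtain ⟨x, y, _, hxy⟩ := IsFractionRing.div_surjective (A := A) z
  obtain ⟨x₀, rfl⟩ := hf.2 x
  obtain ⟨y₀, rfl⟩ := hf.2 y
  exact ⟨x₀, y₀, by rw [← hxy, hcomp, hcomp]⟩

end BaseChange

end Fermat.Agent.Good.FracBridge
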