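import Mathlib
import Fermat.Agent.Good.CuspLamModel
import Fermat.Agent.Good.CuspCoverFibre
import Fermat.Agent.Good.FracBridge
import Fermat.Agent.Good.IgusaDisc

/-!
# Program L (S18), L-GEN, node [G-INST-CUSP]: (H1c), the discriminant hypothesis on the cusp chart

* `not_dvd_algebraMap_rCov` : `ℓ ∤ d` in `LamC ℤ_(ℓ)` ⇒ `ℓ ∤ d` in `RCov ℤ_(ℓ) N`;
* `CuspDiscCore N ℓ` : a `ℚ(j)`-basis of `F_N` inside the cusp chart algebra whose discriminant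
  has nonzero reduction mod `ℓ`;
* `h1c_of_core` : **(H1c)** from the core, over an arbitrary fraction field `K0` of `LamC ℤ_(ℓ)`;
* `FinDiscCore N ℓ` : the same for the finite chart (= (H1), helper27's `IgusaDisc`);
  `cuspDiscCore_of_finDiscCore` : the core on the cusp chart from the core on the finite chart, by
  scaling the basis with powers of `w = 1/j`.
-/

set_option autoImplicit false
set_option linter.style.haveILetI false
set_option linter.unusedSectionVars false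

open ModularCurve ModularCurve.IgusaScheme TensorProduct IntermediateField Polynomial Module
open Fermat.Agent.Igusa Fermat.Agent.Good.Kum Fermat.Agent.Good.CuspCover

namespace Fermat.Agent.Good.CuspGlue

variable (N : ℕ) [NeZero N] (ℓ : ℕ) [Fact ℓ.Prime]

set_option quotPrecheck false in
local notation "ℤℓ" => ↥(GaloisRep.ratLocalizedAt ℓ)

set_option quotPrecheck false in
local notation "F" => ↥(modularFunctionFieldFull N)

set_option synthInstance.maxHeartbeats 400000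

/-! ### Divisibility by `ℓ` in the cover ring -/

/-- `ℓ ∤ d` in `LamC ℤ_(ℓ)` implies `ℓ ∤ d` in the cover ring `RCov ℤ_(ℓ) N`. -/
theorem not_dvd_algebraMap_rCov {d : LamC ℤℓ} (hd : ¬ lamConst ℤℓ (zlPrime ℓ) ∣ d) :
    ¬ (algebraMap ℤℓ (RCov ℤℓ N) (zlPrime ℓ)) ∣ algebraMap (LamC ℤℓ) (RCov ℤℓ N) d := by
  rintro ⟨r, hr⟩
  apply hd
  have hN := N_pos' N
  have h1 : algebraMap ℤℓ (RCov ℤℓ N) (zlPrime ℓ) =
      algebraMap (LamC ℤℓ) (RCov ℤℓ N) (lamConst ℤℓ (zlPrime ℓ)) := by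
    rw [algebraMap_zl_rCov, algebraMap_lamConst]
  rw [h1, ← Algebra.smul_def] at hr
  have h2 := congrArg (covProj ℤℓ hN) hr
  rw [covProj_algebraMap, map_smul, smul_eq_mul] at h2
  exact ⟨_, h2⟩

/-! ### (H1c) from the core -/

attribute [local instance] lamAlgebraFull

/-- **Core of (H1c)**: a `ℚ(j)`-basis of `F_N` inside the cusp chart algebra whose discriminant
(an element of the chart) has nonzero reduction mod `ℓ`. -/
def CuspDiscCore : Prop :=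
  ∃ (b : Basis (Fin (dedekindPsi N)) ↥ℚ⟮jFull N⟯ F) (a : ↥(chartAlgInfC N ℓ)),
    (∀ i, b i ∈ chartAlgInfC N ℓ) ∧ ((a : F) ∈ adjInfC N ℓ) ∧
    ((Algebra.discr ↥ℚ⟮jFull N⟯ b : ↥ℚ⟮jFull N⟯) : F) = (a : F) ∧
    chartRes N ℓ (hSInfC N ℓ) a ≠ 0

/-- `ℚ(j)` as a `LamC ℤ_(ℓ)`-algebra (`X ↦ 1/j`). -/
@[instance_reducible]
noncomputable def lamAlgebraQj : Algebra (LamC ℤℓ) ↥ℚ⟮jFull N⟯ :=
  ((adjoinToQj N ℓ (sInfC_subset_Qj N)).comp
    (lamEquivAdjInfC N ℓ).toRingEquiv.toRingHom).toAlgebra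

attribute [local instance] lamAlgebraQj

theorem coe_algebraMap_lam_qj (a : LamC ℤℓ) :
    ((algebraMap (LamC ℤℓ) ↥ℚ⟮jFull N⟯ a : ↥ℚ⟮jFull N⟯) : F) = lamToF N ℓ a := rfl

theorem isScalarTower_lam_qj_full : IsScalarTower (LamC ℤℓ) ↥ℚ⟮jFull N⟯ F :=
  IsScalarTower.of_algebraMap_eq fun _ => rfl

theorem isFractionRing_lam_qj : IsFractionRing (LamC ℤℓ) ↥ℚ⟮jFull N⟯ := by
  letI := adjoinAlgebraQj N ℓ (sInfC_subset_Qj N)
  haveI := isFractionRing_adjInfC N ℓ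
  have h := IsLocalization.isLocalization_of_base_ringEquiv (nonZeroDivisors ↥(adjInfC N ℓ))
    ↥ℚ⟮jFull N⟯ (lamEquivAdjInfC N ℓ).symm.toRingEquiv
  have hM : Submonoid.map (lamEquivAdjInfC N ℓ).symm.toRingEquiv
      (nonZeroDivisors ↥(adjInfC N ℓ)) = nonZeroDivisors (LamC ℤℓ) :=
    MulEquivClass.map_nonZeroDivisors _
  rw [hM] at h
  exact h

/-- **(H1c) from the core**, over an arbitrary fraction field `K0` of `LamC ℤ_(ℓ)`. -/
theorem h1c_of_core (h : CuspDiscCore N ℓ) (K0 : Type*) [Field K0] [Algebra (LamC ℤℓ) K0]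
    [IsFractionRing (LamC ℤℓ) K0] [Algebra K0 F] [IsScalarTower (LamC ℤℓ) K0 F] :
    ∃ b : Basis (Fin (dedekindPsi N)) K0 F, (∀ i, b i ∈ chartAlgInfC N ℓ) ∧
      ∃ d : LamC ℤℓ, Algebra.discr K0 b = algebraMap (LamC ℤℓ) K0 d ∧
        ¬ lamConst ℤℓ (zlPrime ℓ) ∣ d := by
  obtain ⟨b, a, hb, ha, hdisc, hres⟩ := h
  haveI := isScalarTower_lam_qj_full N ℓ
  haveI := isFractionRing_lam_qj N ℓ
  refine ⟨FracBridge.basisFrac (LamC ℤℓ) (K' := K0) b, fun i => ?_,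
    (lamEquivAdjInfC N ℓ).symm ⟨(a : F), ha⟩, ?_, ?_⟩
  · rw [FracBridge.basisFrac_apply]
    exact hb i
  · refine FracBridge.discr_basisFrac_algebraMap (LamC ℤℓ) b ?_
    apply Subtype.ext
    rw [hdisc, coe_algebraMap_lam_qj, lamToF_apply, AlgEquiv.apply_symm_apply]
  · rintro ⟨c, hc⟩
    apply hres
    have h1 : a = lamToInfC N ℓ ((lamEquivAdjInfC N ℓ).symm ⟨(a : F), ha⟩) := by
      apply Subtype.ext
      rw [coe_lamToInfC, lamToF_apply, AlgEquiv.apply_symm_apply]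
    have h2 : lamToInfC N ℓ (lamConst ℤℓ (zlPrime ℓ)) =
        algebraMap ℤℓ ↥(chartAlgInfC N ℓ) (zlPrime ℓ) := by
      apply Subtype.ext
      rw [coe_lamToInfC, lamToF_lamConst]
      rfl
    rw [h1, hc, map_mul, h2, map_mul, chartRes_algebraMap, zlResidue_zlPrime, map_zero, zero_mul]

/-! ### The core on the cusp chart from the core on the finite chart -/

/-- **Core of (H1)** on the finite chart: a `ℚ(j)`-basis of `F_N` inside `chartAlgFin` whose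
discriminant (an element of the chart) has nonzero reduction mod `ℓ`. -/
def FinDiscCore : Prop :=
  ∃ (b : Basis (Fin (dedekindPsi N)) ↥ℚ⟮jFull N⟯ F) (a : ↥(chartAlgFin N ℓ)),
    (∀ i, b i ∈ chartAlgFin N ℓ) ∧
    ((Algebra.discr ↥ℚ⟮jFull N⟯ b : ↥ℚ⟮jFull N⟯) : F) = (a : F) ∧
    chartRes N ℓ (hSFin N ℓ) a ≠ 0

/-- Scaling a basis by units multiplies the discriminant by the square of their product. -/
theorem discr_unitsSMul_eq {K E ι : Type*} [CommRing K] [CommRing E] [Algebra K E] [Fintype ι]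
    [DecidableEq ι] (b : Basis ι K E) (u : ι → Kˣ) :
    Algebra.discr K (b.unitsSMul u) = (∏ i, (u i : K)) ^ 2 * Algebra.discr K b := by
  have h1 : (⇑(b.unitsSMul u) : ι → E) =
      ((Matrix.diagonal fun i => ((u i : Kˣ) : K)).map (algebraMap K E)).mulVec ⇑b := by
    funext i
    rw [Matrix.diagonal_map (map_zero _), Matrix.mulVec_diagonal, Basis.unitsSMul_apply,
      Units.smul_def, Algebra.smul_def]
  rw [h1, Algebra.discr_of_matrix_mulVec, Matrix.det_diagonal]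

/-- `w = 1/j` as an element of `ℚ(j)`. -/
noncomputable def wQj : ↥ℚ⟮jFull N⟯ :=
  ⟨(jFull N)⁻¹, ℚ⟮jFull N⟯.inv_mem (jFull_mem_Qj N)⟩

theorem coe_wQj : ((wQj N : ↥ℚ⟮jFull N⟯) : F) = (jFull N)⁻¹ := rfl

theorem wQj_ne_zero : wQj N ≠ 0 := fun h =>
  inv_ne_zero (jFull_ne_zero N) (congrArg Subtype.val h)

/-- The reduction of a product, computed in the Gauss ring. -/
theorem gaussRes_mul_of_coe {x y z : LaurentSeries ℚ}
    (hx : x ∈ gaussSubring ℓ) (hy : y ∈ gaussSubring ℓ) (hz : z ∈ gaussSubring ℓ)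
    (h : z = x * y) :
    gaussRes ℓ ⟨z, hz⟩ = gaussRes ℓ ⟨x, hx⟩ * gaussRes ℓ ⟨y, hy⟩ := by
  subst h
  rw [← map_mul]
  rfl

/-- Scaling exponents: `w^n b ∈ chartAlgInf` for `b ∈ chartAlgFin`. -/
theorem exists_pow_mul_mem_chartAlgInf {x : F} (hx : x ∈ chartAlgFin N ℓ) :
    ∃ n : ℕ, (jFull N)⁻¹ ^ n * x ∈ chartAlgInf N ℓ := by
  have hz : x ∈ chartAlg N ℓ (insert (jFull N)⁻¹⁻¹ {(jFull N)⁻¹}) := by
    rw [inv_inv]
    exact chartAlg_mono N ℓ (sFin_subset N) hx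
  exact exists_pow_mul_mem_chartAlg (Set.mem_singleton _) (inv_ne_zero (jFull_ne_zero N)) hz

/-- Nonvanishing of the reduction of `w^m a`, `a` in the finite chart with nonzero reduction. -/
theorem chartRes_pow_mul_ne_zero (m : ℕ) (a : ↥(chartAlgFin N ℓ))
    (hres : chartRes N ℓ (hSFin N ℓ) a ≠ 0)
    (hmem : (jFull N)⁻¹ ^ m * (a : F) ∈ chartAlgInfC N ℓ) :
    chartRes N ℓ (hSInfC N ℓ) ⟨_, hmem⟩ ≠ 0 := by
  rw [chartRes_apply]
  have hw0 : (jFull N)⁻¹ ∈ chartAlgInf N ℓ := subset_chartAlg N ℓ _ (Set.mem_singleton _)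
  have hw : ((jFull N)⁻¹ ^ m : F) ∈ chartAlgInf N ℓ := pow_mem hw0 m
  have hwG := coe_mem_gaussSubring_of_mem_chartAlg N ℓ (hSInf N ℓ) hw
  have haG := coe_mem_gaussSubring_of_mem_chartAlg N ℓ (hSFin N ℓ) a.2
  have hmul := gaussRes_mul_of_coe ℓ hwG haG
    (coe_mem_gaussSubring_of_mem_chartAlg N ℓ (hSInfC N ℓ) hmem) rfl
  refine hmul ▸ mul_ne_zero ?_ ?_
  · have h1 : gaussRes ℓ ⟨_, hwG⟩ = chartRes N ℓ (hSInf N ℓ) (jInvChartInf N ℓ ^ m) := by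
      rw [chartRes_apply]
      rfl
    rw [h1, map_pow, chartRes_jFull_inv N ℓ (hSInf N ℓ) (jInvChartInf N ℓ) rfl]
    exact pow_ne_zero _ (inv_ne_zero (jqModC_ne_zero_of_nontrivial (ZMod ℓ)))
  · rw [chartRes_apply] at hres
    exact hres

/-- The discriminant of a family in the cusp chart lies in `ℤ_(ℓ)[w, 1/g]`. -/
theorem discr_mem_adjInfC {ι : Type*} [Fintype ι] [DecidableEq ι] (v : ι → F)
    (hv : ∀ i, v i ∈ chartAlgInfC N ℓ) :
    ((Algebra.discr ↥ℚ⟮jFull N⟯ v : ↥ℚ⟮jFull N⟯) : F) ∈ adjInfC N ℓ := by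
  letI := adjoinAlgebraQj N ℓ (sInfC_subset_Qj N)
  haveI := adjoinQj_isScalarTower N ℓ (sInfC_subset_Qj N)
  haveI := isFractionRing_adjInfC N ℓ
  haveI := finiteDimensional_full N
  haveI : IsIntegrallyClosed ↥(adjInfC N ℓ) := isIntegrallyClosed_adjInfC N ℓ
  have hint : IsIntegral ↥(adjInfC N ℓ) (Algebra.discr ↥ℚ⟮jFull N⟯ v) :=
    Algebra.discr_isIntegral ↥ℚ⟮jFull N⟯ fun i => (mem_chartAlg_iff N ℓ).mp (hv i)
  obtain ⟨y, hy⟩ := IsIntegrallyClosed.isIntegral_iff.mp hint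
  rw [← hy]
  exact y.2

theorem cuspDiscCore_of_finDiscCore (h : FinDiscCore N ℓ) : CuspDiscCore N ℓ := by
  classical
  obtain ⟨b, a, hb, hdisc, hres⟩ := h
  choose n hn using fun i => exists_pow_mul_mem_chartAlgInf N ℓ (hb i)
  let u : Fin (dedekindPsi N) → (↥ℚ⟮jFull N⟯)ˣ := fun i => Units.mk0 (wQj N) (wQj_ne_zero N) ^ n i
  have hb'_apply : ∀ i, ((b.unitsSMul u) i : F) = (jFull N)⁻¹ ^ n i * (b i : F) := by
    intro i
    rw [Basis.unitsSMul_apply, Units.smul_def, Algebra.smul_def, Units.val_pow_eq_pow_val,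
      Units.val_mk0, map_pow]
    rfl
  have hb'_mem : ∀ i, ((b.unitsSMul u) i : F) ∈ chartAlgInfC N ℓ := by
    intro i
    rw [hb'_apply]
    exact chartAlg_mono N ℓ (sInfC_subset N) (hn i)
  have hprod : (∏ i, ((u i : (↥ℚ⟮jFull N⟯)ˣ) : ↥ℚ⟮jFull N⟯)) = wQj N ^ (∑ i, n i) := by
    rw [← Finset.prod_pow_eq_pow_sum]
    refine Finset.prod_congr rfl fun i _ => ?_
    rw [Units.val_pow_eq_pow_val, Units.val_mk0]
  -- the discriminant as an element of `F`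
  have hF : ((Algebra.discr ↥ℚ⟮jFull N⟯ (b.unitsSMul u) : ↥ℚ⟮jFull N⟯) : F) =
      (jFull N)⁻¹ ^ (2 * ∑ i, n i) * (a : F) := by
    rw [discr_unitsSMul_eq, hprod, ← pow_mul, mul_comm (∑ i, n i) 2, MulMemClass.coe_mul,
      SubmonoidClass.coe_pow, coe_wQj, hdisc]
  have hadj : (jFull N)⁻¹ ^ (2 * ∑ i, n i) * (a : F) ∈ adjInfC N ℓ := by
    rw [← hF]
    exact discr_mem_adjInfC N ℓ _ hb'_mem
  have hchart : (jFull N)⁻¹ ^ (2 * ∑ i, n i) * (a : F) ∈ chartAlgInfC N ℓ :=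
    Algebra.adjoin_le (subset_chartAlg N ℓ _) hadj
  exact ⟨b.unitsSMul u, ⟨_, hchart⟩, hb'_mem, hadj, hF,
    chartRes_pow_mul_ne_zero N ℓ _ a hres hchart⟩

/-! ### The core, unconditionally (from helper27's `IgusaDisc`) -/

open Fermat.Agent.Good.S28X in
/-- **The core of (H1c) holds** (`ℓ ∤ N`). -/
theorem cuspDiscCore (hℓN : ¬ ℓ ∣ N) : CuspDiscCore N ℓ := by
  letI := adjoinAlgebraQj N ℓ (singleton_jFull_inv_subset_Qj N)
  haveI := adjoinQj_isScalarTower N ℓ (singleton_jFull_inv_subset_Qj N)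
  haveI := isFractionRing_adjoin_jFull_inv N ℓ
  obtain ⟨β, d0, hβ, hd0, hdvd⟩ := exists_basis_discr_adjInf N ℓ hℓN ↥ℚ⟮jFull N⟯
  have hd0F : ((Algebra.discr ↥ℚ⟮jFull N⟯ β : ↥ℚ⟮jFull N⟯) : F) = (d0 : F) := by
    rw [← hd0]
    rfl
  have hadj : (d0 : F) ∈ adjInfC N ℓ := Algebra.adjoin_mono (sInfC_subset N) d0.2
  have hchart : (d0 : F) ∈ chartAlgInfC N ℓ := Algebra.adjoin_le (subset_chartAlg N ℓ _) hadj
  refine ⟨β, ⟨_, hchart⟩, fun i => ?_, hadj, hd0F, ?_⟩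
  · rw [hβ i]
    exact chartAlg_mono N ℓ (sInfC_subset N) (famInf N ℓ hℓN i).2
  · intro h0
    apply hdvd
    refine ChartBaseAux.ellAdj_dvd_of_adjRes_eq_zero_inf N ℓ d0 ?_
    rw [ChartBaseAux.adjRes_apply, ← h0]
    exact chartRes_congr N ℓ _ _ _ _ rfl

/-- **(H1c)**: for `ℓ ∤ N` and any fraction field `K0` of `LamC ℤ_(ℓ)` acting compatibly on `F_N`,
there is a `K0`-basis of `F_N` inside the cusp chart algebra whose discriminant is the image of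
some `d : LamC ℤ_(ℓ)` not divisible by `ℓ`. -/
theorem h1c (hℓN : ¬ ℓ ∣ N) (K0 : Type*) [Field K0] [Algebra (LamC ℤℓ) K0]
    [IsFractionRing (LamC ℤℓ) K0] [Algebra K0 F] [IsScalarTower (LamC ℤℓ) K0 F] :
    ∃ b : Basis (Fin (dedekindPsi N)) K0 F, (∀ i, b i ∈ chartAlgInfC N ℓ) ∧
      ∃ d : LamC ℤℓ, Algebra.discr K0 b = algebraMap (LamC ℤℓ) K0 d ∧
        ¬ lamConst ℤℓ (zlPrime ℓ) ∣ d :=
  h1c_of_core N ℓ (cuspDiscCore N ℓ hℓN) K0

/-- (H1c) with the divisibility statement in the cover ring `RCov ℤ_(ℓ) N`. -/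
theorem h1c_rCov (hℓN : ¬ ℓ ∣ N) (K0 : Type*) [Field K0] [Algebra (LamC ℤℓ) K0]
    [IsFractionRing (LamC ℤℓ) K0] [Algebra K0 F] [IsScalarTower (LamC ℤℓ) K0 F] :
    ∃ b : Basis (Fin (dedekindPsi N)) K0 F, (∀ i, b i ∈ chartAlgInfC N ℓ) ∧
      ∃ d : LamC ℤℓ, Algebra.discr K0 b = algebraMap (LamC ℤℓ) K0 d ∧
        ¬ (algebraMap ℤℓ (RCov ℤℓ N) (zlPrime ℓ)) ∣ algebraMap (LamC ℤℓ) (RCov ℤℓ N) d := by
  obtain ⟨b, hb, d, hd, hdvd⟩ := h1c N ℓ hℓN K0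
  exact ⟨b, hb, d, hd, not_dvd_algebraMap_rCov N ℓ hdvd⟩

end Fermat.Agent.Good.CuspGlue
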