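import Mathlib

/-!
# Program L (S18), L-GEN, node [G-KUM] (ii): a direct summand of a normal ring is normal

Pure commutative algebra, elementwise (no total ring of fractions).

For a commutative ring `B` we say that `B` is *quotient closed* (`Kum.QuotClosed B`) if for every
monic `p : B[X]` and `x y : B` with `y` a non-zero-divisor, `y ^ deg p * p (x / y) = 0`
(`(p.scaleRoots y).eval x = 0`) implies `y ∣ x`: the fraction `x / y` of the total ring of
fractions, integral over `B`, lies in `B`.

* `Kum.quotClosed_of_isIntegrallyClosed` : an integrally closed domain is quotient closed;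
* `Kum.quotClosed_of_forall_localization` : a ring all of whose localisations at maximal ideals are
  integrally closed domains (e.g. discrete valuation rings) is quotient closed;
* `Kum.isIntegrallyClosed_of_retraction` **(Lemma DS)** : if `A` is a domain, `B` an `A`-algebra in
  which the nonzero elements of `A` are non-zero-divisors, `ρ : B →ₗ[A] A` an `A`-linear map with
  `ρ 1 = 1`, and `B` is quotient closed, then `A` is integrally closed;
* `Kum.isIntegrallyClosed_of_retraction_of_localization` : the combination used for the cusp chart.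
-/

set_option autoImplicit false

open Polynomial
open scoped nonZeroDivisors

namespace Fermat.Agent.Good.Kum

/-- A commutative ring is *quotient closed* if every fraction `x / y` (`y` a non-zero-divisor)
which is integral over the ring lies in the ring. -/
def QuotClosed (B : Type*) [CommRing B] : Prop :=
  ∀ (p : B[X]) (x y : B), p.Monic → y ∈ B⁰ → (p.scaleRoots y).eval x = 0 → y ∣ x

/-- An integrally closed domain is quotient closed. -/
theorem quotClosed_of_isIntegrallyClosed (B : Type*) [CommRing B] [IsDomain B]
    [IsIntegrallyClosed B] : QuotClosed B := by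
  intro p x y hp hy hxy
  have hy0 : y ≠ 0 := nonZeroDivisors.ne_zero hy
  set L := FractionRing B
  have hyL : algebraMap B L y ≠ 0 := by
    rwa [Ne, map_eq_zero_iff _ (IsFractionRing.injective B L)]
  -- `x / y` is a root of `p`
  have hroot : eval₂ (algebraMap B L) (algebraMap B L x / algebraMap B L y) p = 0 := by
    have h1 := scaleRoots_eval₂_mul (p := p) (algebraMap B L)
      (algebraMap B L x / algebraMap B L y) y
    rw [mul_div_cancel₀ _ hyL] at h1
    have h2 : eval₂ (algebraMap B L) (algebraMap B L x) (p.scaleRoots y) = 0 := by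
      rw [eval₂_at_apply, hxy, map_zero]
    rw [h2] at h1
    exact (mul_eq_zero.mp h1.symm).resolve_left (pow_ne_zero _ hyL)
  have hint : IsIntegral B (algebraMap B L x / algebraMap B L y) := ⟨p, hp, hroot⟩
  obtain ⟨b, hb⟩ := IsIntegrallyClosed.isIntegral_iff.mp hint
  refine ⟨b, ?_⟩
  apply IsFractionRing.injective B L
  rw [map_mul, hb, mul_div_cancel₀ _ hyL]

/-- A ring whose localisations at all maximal ideals are integrally closed domains is quotient
closed. -/
theorem quotClosed_of_forall_localization (B : Type*) [CommRing B]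
    (h : ∀ (P : Ideal B) [P.IsMaximal],
      IsDomain (Localization.AtPrime P) ∧ IsIntegrallyClosed (Localization.AtPrime P)) :
    QuotClosed B := by
  intro p x y hp hy hxy
  -- the colon ideal `(y) : x`
  let I : Ideal B :=
    { carrier := {c | y ∣ c * x}
      add_mem' := fun {a b} ha hb => by
        change y ∣ (a + b) * x
        rw [add_mul]
        exact dvd_add ha hb
      zero_mem' := by
        change y ∣ 0 * x
        rw [zero_mul]
        exact dvd_zero y
      smul_mem' := fun c a ha => by
        change y ∣ (c • a) * x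
        rw [smul_eq_mul, mul_assoc]
        exact Dvd.dvd.mul_left ha c }
  have hI : ∀ c : B, c ∈ I ↔ y ∣ c * x := fun c => Iff.rfl
  suffices hI1 : I = ⊤ by
    have : (1 : B) ∈ I := hI1 ▸ Submodule.mem_top
    simpa using (hI 1).mp this
  by_contra hne
  obtain ⟨P, hP, hIP⟩ := Ideal.exists_le_maximal I hne
  obtain ⟨hdom, hic⟩ := h P
  set BP := Localization.AtPrime P
  have hQ : QuotClosed BP := quotClosed_of_isIntegrallyClosed BP
  -- the image of `y` is a non-zero-divisor
  have hyP : algebraMap B BP y ∈ BP⁰ :=
    IsLocalization.map_nonZeroDivisors_le P.primeCompl BP ⟨y, hy, rfl⟩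
  have hpP : (p.map (algebraMap B BP)).Monic := hp.map _
  have hxyP : ((p.map (algebraMap B BP)).scaleRoots (algebraMap B BP y)).eval
      (algebraMap B BP x) = 0 := by
    have hlc : algebraMap B BP p.leadingCoeff ≠ 0 := by
      rw [hp.leadingCoeff, map_one]; exact one_ne_zero
    rw [← Polynomial.map_scaleRoots p y (algebraMap B BP) hlc, eval_map, eval₂_at_apply, hxy,
      map_zero]
  obtain ⟨β, hβ⟩ := hQ _ _ _ hpP hyP hxyP
  obtain ⟨b, s, rfl⟩ := IsLocalization.exists_mk'_eq P.primeCompl β
  -- `x = y * (b / s)` in the localisation, so `t s x = t y b` for some `t ∉ P`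
  have h1 : algebraMap B BP (x * s) = algebraMap B BP (y * b) := by
    rw [map_mul, map_mul, hβ, mul_assoc, IsLocalization.mk'_spec]
  obtain ⟨t, ht⟩ := (IsLocalization.eq_iff_exists P.primeCompl BP).mp h1
  have hts : (t : B) * s ∈ I := by
    rw [hI]
    refine ⟨t * b, ?_⟩
    calc (t : B) * s * x = t * (x * s) := by ring
      _ = t * (y * b) := ht
      _ = y * (t * b) := by ring
  have : (t : B) * s ∈ P := hIP hts
  rcases (Ideal.IsMaximal.isPrime hP).mem_or_mem this with h2 | h2
  · exact t.2 h2
  · exact s.2 h2

section DS

variable {A B : Type*} [CommRing A] [IsDomain A] [CommRing B] [Algebra A B]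

/-- **Lemma (DS)**: a direct summand of a quotient closed ring is integrally closed. -/
theorem isIntegrallyClosed_of_retraction (ρ : B →ₗ[A] A) (hρ : ρ 1 = 1)
    (hnzd : ∀ a : A, a ≠ 0 → algebraMap A B a ∈ B⁰) (hB : QuotClosed B) :
    IsIntegrallyClosed A := by
  set L := FractionRing A
  refine (isIntegrallyClosed_iff L).mpr fun {z} hz => ?_
  obtain ⟨a, b, rfl⟩ := IsLocalization.exists_mk'_eq A⁰ z
  obtain ⟨p, hp, hroot⟩ := hz
  have hb0 : (b : A) ≠ 0 := nonZeroDivisors.ne_zero b.2
  have hbL : algebraMap A L b ≠ 0 := by
    rwa [Ne, map_eq_zero_iff _ (IsFractionRing.injective A L)]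
  -- the homogenised equation holds in `A`
  have h1 : (p.scaleRoots b).eval a = 0 := by
    apply IsFractionRing.injective A L
    rw [map_zero, ← eval₂_at_apply]
    have h2 := scaleRoots_eval₂_eq_zero (p := p) (algebraMap A L) (s := (b : A)) hroot
    rwa [IsLocalization.mk'_spec' L a b] at h2
  -- transport to `B`
  have hpB : (p.map (algebraMap A B)).Monic := hp.map _
  have h3 : ((p.map (algebraMap A B)).scaleRoots (algebraMap A B b)).eval (algebraMap A B a) = 0 := by
    by_cases hB1 : Nontrivial B
    · have hlc : algebraMap A B p.leadingCoeff ≠ 0 := by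
        rw [hp.leadingCoeff, map_one]; exact one_ne_zero
      rw [← Polynomial.map_scaleRoots p b (algebraMap A B) hlc, eval_map, eval₂_at_apply, h1,
        map_zero]
    · rw [not_nontrivial_iff_subsingleton] at hB1
      exact Subsingleton.elim _ _
  obtain ⟨β, hβ⟩ := hB _ _ _ hpB (hnzd b hb0) h3
  refine ⟨ρ β, ?_⟩
  -- `a = b * ρ β`
  have h4 : a = b * ρ β := by
    have : ρ (algebraMap A B a) = ρ (algebraMap A B b * β) := by rw [hβ]
    rw [Algebra.algebraMap_eq_smul_one, map_smul, hρ, smul_eq_mul, mul_one,
      ← Algebra.smul_def, map_smul, smul_eq_mul] at this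
    exact this
  rw [IsLocalization.eq_mk'_iff_mul_eq, ← map_mul, h4, mul_comm]

/-- The form used for the cusp chart: `B` has integrally closed local rings. -/
theorem isIntegrallyClosed_of_retraction_of_localization (ρ : B →ₗ[A] A) (hρ : ρ 1 = 1)
    (hnzd : ∀ a : A, a ≠ 0 → algebraMap A B a ∈ B⁰)
    (h : ∀ (P : Ideal B) [P.IsMaximal],
      IsDomain (Localization.AtPrime P) ∧ IsIntegrallyClosed (Localization.AtPrime P)) :
    IsIntegrallyClosed A :=
  isIntegrallyClosed_of_retraction ρ hρ hnzd (quotClosed_of_forall_localization B h)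

end DS

end Fermat.Agent.Good.Kum
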