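import Fermat.Agent.Good.IntCoeffs
import Fermat.Agent.Good.PurityByHand

/-!
# L-GEN node [G-ET]: the etale bridge

`S` a base ring, `A` a finite free `S`-algebra with a basis `b` of UNIT discriminant.

* `isRadical_map` : `I A` is radical for every radical ideal `I` of `S` (reduced fibres);
  `isReduced` : `A` is reduced when `S` is.
* `map_under_eq_maximalIdeal` : for every prime `Q` of `A`, `(Q ∩ S) A_Q` is the maximal ideal of
  `A_Q`.
* for `S` a PID: `isDomain_localization`, `isDiscreteValuationRing_localization` : `A_Q` is a DVR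
  (uniformiser = generator of `Q ∩ S`) for every prime `Q` not over `0`.
* `bijective_algebraMap_quotient` : residue fields are `kb` when those of `S` are
  (`surjective_algebraMap_quotient_of_finiteType` : Nullstellensatz for `S` of finite type over
  `kb` algebraically closed).
* `mem_range_of_isIntegral` : `A` is integrally closed in any finite `Frac S`-algebra `E` in which
  `b` becomes a basis (e.g. `E = Frac S ⊗[S] A`).
-/

set_option autoImplicit false

open Module

namespace Fermat.Agent.Good.ET

section Basic

variable {S A : Type*} [CommRing S] [CommRing A] [Algebra S A] {ι : Type*} [Fintype ι]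
  [DecidableEq ι] (b : Basis ι S A)

/-- The traces `Tr(b j * x)` are the trace matrix applied to the coordinates of `x`. -/
theorem traceMatrix_mulVec_repr (x : A) :
    (Algebra.traceMatrix S b).mulVec (fun i => b.repr x i) =
      fun j => Algebra.trace S A (b j * x) := by
  ext j
  conv_rhs => rw [← b.sum_repr x, Finset.mul_sum, map_sum]
  rw [Matrix.mulVec, dotProduct]
  refine Finset.sum_congr rfl fun i _ => ?_
  rw [Algebra.traceMatrix_apply, Algebra.traceForm_apply, mul_smul_comm, map_smul,
    smul_eq_mul, mul_comm]

/-- With unit discriminant, the coordinates of `x` lie in an ideal `I` as soon as all the traces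
`Tr(b j * x)` do. -/
theorem repr_mem_of_trace_mem (hb : IsUnit (Algebra.discr S b)) (I : Ideal S) (x : A)
    (h : ∀ j, Algebra.trace S A (b j * x) ∈ I) (i : ι) : b.repr x i ∈ I := by
  have hdet : IsUnit (Algebra.traceMatrix S b).det := hb
  have h1 : (fun i => b.repr x i) =
      (Algebra.traceMatrix S b)⁻¹.mulVec (fun j => Algebra.trace S A (b j * x)) := by
    rw [← traceMatrix_mulVec_repr b x, Matrix.mulVec_mulVec, Matrix.nonsing_inv_mul _ hdet,
      Matrix.one_mulVec]
  have h2 := congrFun h1 i
  rw [h2, Matrix.mulVec, dotProduct]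
  exact Ideal.sum_mem _ fun j _ => Ideal.mul_mem_left _ _ (h j)

/-- The matrix of multiplication by an element of `I A` has entries in `I`. -/
theorem leftMulMatrix_mem_of_mem_map (I : Ideal S) {w : A}
    (hw : w ∈ I.map (algebraMap S A)) (i j : ι) : Algebra.leftMulMatrix b w i j ∈ I := by
  have hw' : w ∈ I • (⊤ : Submodule S A) := by
    rw [Ideal.smul_top_eq_map]; exact hw
  refine Submodule.smul_induction_on hw' ?_ ?_
  · intro r hr a _
    rw [map_smul, Matrix.smul_apply, smul_eq_mul]
    exact Ideal.mul_mem_right _ _ hr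
  · intro x y hx hy
    rw [map_add, Matrix.add_apply]
    exact Ideal.add_mem _ hx hy

include b in
/-- If `I` is radical and `z ^ n ∈ I A` then `Tr z ∈ I`. -/
theorem trace_mem_of_pow_mem (I : Ideal S) (hI : I.IsRadical) {z : A} {n : ℕ}
    (hz : z ^ n ∈ I.map (algebraMap S A)) : Algebra.trace S A z ∈ I := by
  have hred : IsReduced (S ⧸ I) := (Ideal.isRadical_iff_quotient_reduced I).mp hI
  set N := Algebra.leftMulMatrix b z with hN
  have h1 : (N.map (Ideal.Quotient.mk I)) ^ n = 0 := by
    have : (N.map (Ideal.Quotient.mk I)) ^ n = (N ^ n).map (Ideal.Quotient.mk I) := by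
      rw [← RingHom.mapMatrix_apply, ← RingHom.mapMatrix_apply, map_pow]
    rw [this, hN, ← map_pow]
    ext i j
    rw [Matrix.map_apply, Matrix.zero_apply, Ideal.Quotient.eq_zero_iff_mem]
    exact leftMulMatrix_mem_of_mem_map b I hz i j
  have h2 : IsNilpotent (N.map (Ideal.Quotient.mk I)) := ⟨n, h1⟩
  have h3 := (Matrix.isNilpotent_trace_of_isNilpotent h2).eq_zero
  rw [Algebra.trace_eq_matrix_trace b, ← Ideal.Quotient.eq_zero_iff_mem]
  rw [← h3, Matrix.trace, Matrix.trace, map_sum]
  rfl

/-- **[G-ET] (2a).** A finite free algebra with unit discriminant has radical fibres: `I A` is a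
radical ideal for every radical ideal `I` of the base. -/
theorem isRadical_map (hb : IsUnit (Algebra.discr S b)) (I : Ideal S) (hI : I.IsRadical) :
    (I.map (algebraMap S A)).IsRadical := by
  rintro x ⟨n, hn⟩
  have hc : ∀ i, b.repr x i ∈ I := by
    refine repr_mem_of_trace_mem b hb I x fun j => ?_
    refine trace_mem_of_pow_mem b I hI (n := n) ?_
    rw [mul_pow]
    exact Ideal.mul_mem_left _ _ hn
  rw [← b.sum_repr x]
  refine Ideal.sum_mem _ fun i _ => ?_
  rw [Algebra.smul_def]
  exact Ideal.mul_mem_right _ _ (Ideal.mem_map_of_mem _ (hc i))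

/-- **[G-ET] (1).** A finite free algebra with unit discriminant over a reduced ring is reduced. -/
theorem isReduced (hb : IsUnit (Algebra.discr S b)) [IsReduced S] : IsReduced A := by
  have h0 : (⊥ : Ideal S).IsRadical := by
    rintro x ⟨n, hn⟩
    exact (Ideal.mem_bot).mpr (IsReduced.eq_zero x ⟨n, (Ideal.mem_bot).mp hn⟩)
  have h := isRadical_map b hb ⊥ h0
  rw [Ideal.map_bot] at h
  refine ⟨fun x hx => ?_⟩
  obtain ⟨n, hn⟩ := hx
  exact (Ideal.mem_bot).mp (h ⟨n, (Ideal.mem_bot).mpr hn⟩)

end Basic

section LocalDVR

/-- A Noetherian local ring whose maximal ideal is generated by a non-zero-divisor: every nonzero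
element is a unit times a power of the generator. -/
theorem exists_eq_pow_mul_unit {R : Type*} [CommRing R] [IsNoetherianRing R] [IsLocalRing R]
    {s : R} (hs : IsLocalRing.maximalIdeal R = Ideal.span {s}) {x : R} (hx : x ≠ 0) :
    ∃ (n : ℕ) (u : R), IsUnit u ∧ x = s ^ n * u := by
  have hkrull : ⨅ i : ℕ, IsLocalRing.maximalIdeal R ^ i = ⊥ :=
    Ideal.iInf_pow_eq_bot_of_isLocalRing _ (IsLocalRing.maximalIdeal.isMaximal R).ne_top
  have hex : ∃ n : ℕ, x ∉ IsLocalRing.maximalIdeal R ^ n := by
    by_contra hcon
    have hcon' : ∀ n : ℕ, x ∈ IsLocalRing.maximalIdeal R ^ n := fun n => by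
      by_contra h
      exact hcon ⟨n, h⟩
    have : x ∈ ⨅ i : ℕ, IsLocalRing.maximalIdeal R ^ i := (Ideal.mem_iInf).mpr hcon'
    rw [hkrull] at this
    exact hx ((Ideal.mem_bot).mp this)
  classical
  let n := Nat.find hex
  have hn : x ∉ IsLocalRing.maximalIdeal R ^ n := Nat.find_spec hex
  have hn0 : n ≠ 0 := by
    intro h0
    rw [h0, pow_zero, Ideal.one_eq_top] at hn
    exact hn trivial
  obtain ⟨k, hk⟩ := Nat.exists_eq_succ_of_ne_zero hn0
  have hk' : x ∈ IsLocalRing.maximalIdeal R ^ k := by
    by_contra hcon
    have := Nat.find_min' hex hcon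
    omega
  rw [hs, Ideal.span_singleton_pow, Ideal.mem_span_singleton] at hk'
  obtain ⟨u, hu⟩ := hk'
  refine ⟨k, u, ?_, hu⟩
  by_contra hnu
  have humem : u ∈ IsLocalRing.maximalIdeal R := (IsLocalRing.mem_maximalIdeal u).mpr hnu
  rw [hs, Ideal.mem_span_singleton] at humem
  obtain ⟨v, hv⟩ := humem
  apply hn
  rw [hk, hs, Ideal.span_singleton_pow, Ideal.mem_span_singleton]
  exact ⟨v, by rw [hu, hv, pow_succ]; ring⟩

/-- A Noetherian local ring whose maximal ideal is generated by a non-zero-divisor is a domain. -/
theorem isDomain_of_maximalIdeal_eq_span {R : Type*} [CommRing R] [IsNoetherianRing R]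
    [IsLocalRing R] {s : R} (hs : IsLocalRing.maximalIdeal R = Ideal.span {s})
    (hs0 : s ∈ nonZeroDivisors R) : IsDomain R := by
  have : NoZeroDivisors R := by
    refine ⟨fun {x y} hxy => ?_⟩
    by_contra hcon
    have hx0 : x ≠ 0 := fun h => hcon (Or.inl h)
    have hy0 : y ≠ 0 := fun h => hcon (Or.inr h)
    obtain ⟨n, u, hu, rfl⟩ := exists_eq_pow_mul_unit hs hx0
    obtain ⟨k, v, hv, rfl⟩ := exists_eq_pow_mul_unit hs hy0
    have h1 : s ^ (n + k) * (u * v) = 0 := by
      rw [← hxy, pow_add]; ring
    have h2 : s ^ (n + k) = 0 := (hu.mul hv).mul_left_eq_zero.mp h1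
    have h3 : s ^ (n + k) ∈ nonZeroDivisors R := pow_mem hs0 _
    have h4 : (1 : R) = 0 := by
      have := (mem_nonZeroDivisors_iff.mp h3).2 1 (by rw [one_mul]; exact h2)
      exact this
    exact one_ne_zero h4
  exact NoZeroDivisors.to_isDomain R

/-- A Noetherian local ring whose maximal ideal is generated by a non-zero-divisor non-unit is a
discrete valuation ring. -/
theorem isDiscreteValuationRing_of_maximalIdeal_eq_span {R : Type*} [CommRing R]
    [IsNoetherianRing R] [IsLocalRing R] [IsDomain R] {s : R}
    (hs : IsLocalRing.maximalIdeal R = Ideal.span {s}) (hs0 : s ≠ 0) :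
    IsDiscreteValuationRing R := by
  have hnf : ¬ IsField R := by
    rw [IsLocalRing.isField_iff_maximalIdeal_eq, hs, Ideal.span_singleton_eq_bot]
    exact hs0
  have hprin : (IsLocalRing.maximalIdeal R).IsPrincipal := ⟨⟨s, hs⟩⟩
  exact ((IsDiscreteValuationRing.TFAE R hnf).out 4 0).mp hprin

end LocalDVR

section Loc

variable {S A : Type*} [CommRing S] [CommRing A] [Algebra S A] {ι : Type*} [Fintype ι]
  [DecidableEq ι] (b : Basis ι S A)

/-- **[G-ET] (2b).** In the localisation of `A` at a prime `Q`, the maximal ideal is generated by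
the prime `Q ∩ S` of the base. -/
theorem map_under_eq_maximalIdeal (hb : IsUnit (Algebra.discr S b)) (Q : Ideal A) [Q.IsPrime] :
    (Q.under S).map (algebraMap S (Localization.AtPrime Q)) =
      IsLocalRing.maximalIdeal (Localization.AtPrime Q) := by
  have hfin : Module.Finite S A := Module.Finite.of_basis b
  have hint : Algebra.IsIntegral S A := Algebra.IsIntegral.of_finite S A
  have hrad := isRadical_map b hb (Q.under S) (Ideal.IsPrime.isRadical inferInstance)
  rw [IsScalarTower.algebraMap_eq S A (Localization.AtPrime Q), ← Ideal.map_map,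
    ← hrad.radical, IsLocalization.map_radical Q.primeCompl,
    IsLocalization.AtPrime.radical_map_of_mem_minimalPrimes (Localization.AtPrime Q) Q,
    Localization.AtPrime.map_eq_maximalIdeal]
  exact Ideal.IsIntegral.mem_minimalPrimes_map_under Q

include b in
theorem algebraMap_mem_nonZeroDivisors [IsDomain S] {s : S} (hs : s ≠ 0) :
    algebraMap S A s ∈ nonZeroDivisors A := by
  rw [mem_nonZeroDivisors_iff_right]
  intro a ha
  have h1 : s • a = 0 := by rw [Algebra.smul_def, mul_comm]; exact ha
  have h2 : ∀ i, b.repr a i = 0 := by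
    intro i
    have := congrArg (fun f => f i) (congrArg b.repr h1)
    simp only [map_smul, Finsupp.smul_apply, smul_eq_mul, map_zero, Finsupp.zero_apply] at this
    exact (mul_eq_zero.mp this).resolve_left hs
  exact b.repr.map_eq_zero_iff.mp (Finsupp.ext h2)

variable [IsDomain S] [IsPrincipalIdealRing S]

/-- the maximal ideal of `A_Q` is generated by the generator of `Q ∩ S`. -/
theorem maximalIdeal_eq_span_generator (hb : IsUnit (Algebra.discr S b)) (Q : Ideal A)
    [Q.IsPrime] :
    IsLocalRing.maximalIdeal (Localization.AtPrime Q) =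
      Ideal.span {algebraMap S (Localization.AtPrime Q)
        (Submodule.IsPrincipal.generator (Q.under S))} := by
  rw [← map_under_eq_maximalIdeal b hb Q]
  conv_lhs => rw [← Ideal.span_singleton_generator (Q.under S)]
  rw [Ideal.map_span, Set.image_singleton]

include b in
theorem isNoetherianRing_localization (Q : Ideal A) [Q.IsPrime] :
    IsNoetherianRing (Localization.AtPrime Q) := by
  have hfin : Module.Finite S A := Module.Finite.of_basis b
  have : IsNoetherianRing A := IsNoetherianRing.of_finite S A
  exact IsLocalization.isNoetherianRing Q.primeCompl (Localization.AtPrime Q) inferInstance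

/-- **[G-ET] (3a).** `A_Q` is a domain for every prime `Q` of `A` not lying over `0`. -/
theorem isDomain_localization (hb : IsUnit (Algebra.discr S b)) (Q : Ideal A) [Q.IsPrime]
    (hQ : Q.under S ≠ ⊥) : IsDomain (Localization.AtPrime Q) := by
  have := isNoetherianRing_localization b Q
  refine isDomain_of_maximalIdeal_eq_span (maximalIdeal_eq_span_generator b hb Q) ?_
  have hs : Submodule.IsPrincipal.generator (Q.under S) ≠ 0 := by
    intro h0
    apply hQ
    rw [← Ideal.span_singleton_generator (Q.under S), h0, Ideal.span_singleton_eq_bot]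
  have h1 := algebraMap_mem_nonZeroDivisors b hs
  rw [IsScalarTower.algebraMap_apply S A (Localization.AtPrime Q)]
  exact IsLocalization.map_nonZeroDivisors_le Q.primeCompl (Localization.AtPrime Q)
    (Submonoid.mem_map_of_mem _ h1)

/-- **[G-ET] (3b).** `A_Q` is a discrete valuation ring for every prime `Q` of `A` not lying over
`0` (the `IsDomain` instance is provided by `isDomain_localization`). -/
theorem isDiscreteValuationRing_localization (hb : IsUnit (Algebra.discr S b)) (Q : Ideal A)
    [Q.IsPrime] [IsDomain (Localization.AtPrime Q)] (hQ : Q.under S ≠ ⊥) :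
    IsDiscreteValuationRing (Localization.AtPrime Q) := by
  have := isNoetherianRing_localization b Q
  refine isDiscreteValuationRing_of_maximalIdeal_eq_span
    (maximalIdeal_eq_span_generator b hb Q) ?_
  have hs : Submodule.IsPrincipal.generator (Q.under S) ≠ 0 := by
    intro h0
    apply hQ
    rw [← Ideal.span_singleton_generator (Q.under S), h0, Ideal.span_singleton_eq_bot]
  have h1 := algebraMap_mem_nonZeroDivisors b hs
  rw [IsScalarTower.algebraMap_apply S A (Localization.AtPrime Q)]
  intro h0
  have h2 : algebraMap A (Localization.AtPrime Q)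
      (algebraMap S A (Submodule.IsPrincipal.generator (Q.under S))) ∈
        nonZeroDivisors (Localization.AtPrime Q) :=
    IsLocalization.map_nonZeroDivisors_le Q.primeCompl (Localization.AtPrime Q)
      (Submonoid.mem_map_of_mem _ h1)
  exact nonZeroDivisors.ne_zero h2 h0

/-- bundled form of (3). -/
theorem exists_isDiscreteValuationRing_localization (hb : IsUnit (Algebra.discr S b))
    (Q : Ideal A) [Q.IsPrime] (hQ : Q.under S ≠ ⊥) :
    ∃ _ : IsDomain (Localization.AtPrime Q), IsDiscreteValuationRing (Localization.AtPrime Q) :=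
  have h := isDomain_localization b hb Q hQ
  ⟨h, isDiscreteValuationRing_localization b hb Q hQ⟩

include b in
/-- a maximal ideal of `A` does not lie over `0` when `S` is not a field. -/
theorem under_ne_bot_of_isMaximal (hS : ¬ IsField S) (Q : Ideal A) [Q.IsMaximal] :
    Q.under S ≠ ⊥ := by
  have hfin : Module.Finite S A := Module.Finite.of_basis b
  have hint : Algebra.IsIntegral S A := Algebra.IsIntegral.of_finite S A
  have hmax : (Q.under S).IsMaximal := Ideal.isMaximal_comap_of_isIntegral_of_isMaximal Q
  intro h0
  rw [h0] at hmax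
  exact hS (Ring.isField_iff_maximal_bot.mpr hmax)

end Loc

section Residue

variable {kb S A : Type*} [Field kb] [IsAlgClosed kb] [CommRing S] [CommRing A] [Algebra S A]
  [Algebra kb S] [Algebra kb A] [IsScalarTower kb S A]

/-- Nullstellensatz: the residue fields of a finite-type algebra over an algebraically closed
field are the base field. -/
theorem surjective_algebraMap_quotient_of_finiteType [Algebra.FiniteType kb S] (m : Ideal S)
    [m.IsMaximal] : Function.Surjective (algebraMap kb (S ⧸ m)) := by
  let _ : Field (S ⧸ m) := Ideal.Quotient.field m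
  have hft : Algebra.FiniteType kb (S ⧸ m) :=
    Algebra.FiniteType.of_surjective (Ideal.Quotient.mkₐ kb m) (Ideal.Quotient.mkₐ_surjective kb m)
  have hfin : Module.Finite kb (S ⧸ m) := finite_of_finite_type_of_isJacobsonRing kb (S ⧸ m)
  have hint : Algebra.IsIntegral kb (S ⧸ m) := Algebra.IsIntegral.of_finite kb (S ⧸ m)
  exact (IsAlgClosed.algebraMap_bijective_of_isIntegral (k := kb) (K := S ⧸ m)).2

/-- **[G-ET] (3), residue fields.** If the residue field of `S` at `Q ∩ S` is `kb`, so is the
residue field of the finite `S`-algebra `A` at the maximal ideal `Q`. -/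
theorem bijective_algebraMap_quotient {ι : Type*} [Finite ι] (b : Basis ι S A) (Q : Ideal A)
    [Q.IsMaximal] (hres : Function.Surjective (algebraMap kb (S ⧸ Q.under S))) :
    Function.Bijective (algebraMap kb (A ⧸ Q)) := by
  classical
  have _ := Fintype.ofFinite ι
  let _ : Field (A ⧸ Q) := Ideal.Quotient.field Q
  have hfin : Module.Finite kb (A ⧸ Q) := by
    refine ⟨⟨Finset.univ.image fun i => Ideal.Quotient.mk Q (b i), ?_⟩⟩
    rw [eq_top_iff]
    rintro y -
    obtain ⟨x, rfl⟩ := Ideal.Quotient.mk_surjective y
    rw [← b.sum_repr x, map_sum]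
    refine Submodule.sum_mem _ fun i _ => ?_
    obtain ⟨lam, hlam⟩ := hres (Ideal.Quotient.mk _ (b.repr x i))
    have hmem : b.repr x i - algebraMap kb S lam ∈ Q.under S := by
      rw [← Ideal.Quotient.eq_zero_iff_mem, map_sub, ← hlam]
      exact sub_self _
    have hmem' : algebraMap S A (b.repr x i - algebraMap kb S lam) ∈ Q := hmem
    have h1 : Ideal.Quotient.mk Q (b.repr x i • b i) = lam • Ideal.Quotient.mk Q (b i) := by
      rw [Algebra.smul_def, map_mul, Algebra.smul_def]
      congr 1
      have h2 : Ideal.Quotient.mk Q (algebraMap S A (b.repr x i - algebraMap kb S lam)) = 0 :=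
        Ideal.Quotient.eq_zero_iff_mem.mpr hmem'
      rw [map_sub, map_sub, sub_eq_zero] at h2
      rw [h2, ← IsScalarTower.algebraMap_apply kb S A]
      rfl
    rw [h1]
    refine Submodule.smul_mem _ _ (Submodule.subset_span ?_)
    exact Finset.mem_coe.mpr (Finset.mem_image_of_mem _ (Finset.mem_univ i))
  have hint : Algebra.IsIntegral kb (A ⧸ Q) := Algebra.IsIntegral.of_finite kb (A ⧸ Q)
  exact IsAlgClosed.algebraMap_bijective_of_isIntegral (k := kb) (K := A ⧸ Q)

end Residue

section IntClosed

variable {S A L E : Type*} [CommRing S] [IsDomain S] [IsIntegrallyClosed S] [CommRing A]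
  [Algebra S A] [Field L] [Algebra S L] [IsFractionRing S L] [CommRing E] [Algebra L E]
  [Algebra S E] [IsScalarTower S L E] {ι : Type*} [Fintype ι] [DecidableEq ι]

/-- **[G-ET] (4).** `A` finite free over the integrally closed domain `S` with a basis `b` of unit
discriminant, `E` a finite `L`-algebra (`L = Frac S`; `E` need not be a field) with an `S`-algebra
map `φ : A → E` carrying `b` to an `L`-basis of `E` (e.g. `E = L ⊗[S] A`).  Then every element of
`E` integral over `S` lies in the image of `A`. -/
theorem mem_range_of_isIntegral (b : Basis ι S A) (hb : IsUnit (Algebra.discr S b))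
    (φ : A →ₐ[S] E) (bE : Basis ι L E) (hbE : ∀ i, bE i = φ (b i)) (x : E)
    (hx : IsIntegral S x) : x ∈ φ.range := by
  have hfinE : Module.Finite L E := Module.Finite.of_basis bE
  have hfinA : Module.Finite S A := Module.Finite.of_basis b
  have hρ : ∀ r : S, φ.toRingHom (algebraMap S A r) = algebraMap L E (algebraMap S L r) := by
    intro r
    rw [← IsScalarTower.algebraMap_apply S L E]
    exact φ.commutes r
  have htr : ∀ a : A, algebraMap S L (Algebra.trace S A a) = Algebra.trace L E (φ a) := fun a =>
    Purity.map_trace_eq_trace (algebraMap S L) φ.toRingHom hρ b bE hbE a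
  have hM : Algebra.traceMatrix L bE = (Algebra.traceMatrix S b).map (algebraMap S L) := by
    ext i j
    rw [Matrix.map_apply, Algebra.traceMatrix_apply, Algebra.traceMatrix_apply,
      Algebra.traceForm_apply, Algebra.traceForm_apply, hbE, hbE, ← map_mul, ← htr]
  have hint : ∀ i, IsIntegral S (bE i) := fun i => by
    rw [hbE]
    exact (Algebra.IsIntegral.isIntegral (R := S) (b i)).map φ
  -- the traces `Tr(bE j * x)` lie in `S`
  have ha : ∀ j, ∃ a : S, algebraMap S L a = Algebra.trace L E (bE j * x) := fun j =>
    IsIntegrallyClosed.algebraMap_eq_of_integral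
      (isIntegral_trace_alg (R := S) (L := L) ((hint j).mul hx))
  choose a haa using ha
  have hdet : IsUnit (Algebra.traceMatrix S b).det := hb
  let c' : ι → S := (Algebra.traceMatrix S b)⁻¹.mulVec a
  have hTc' : (Algebra.traceMatrix S b).mulVec c' = a := by
    rw [Matrix.mulVec_mulVec, Matrix.mul_nonsing_inv _ hdet, Matrix.one_mulVec]
  have hc : (Algebra.traceMatrix L bE).mulVec (fun i => bE.repr x i) =
      fun j => algebraMap S L (a j) := by
    rw [traceMatrix_mulVec_repr bE x]
    ext j
    exact (haa j).symm
  have hc' : (Algebra.traceMatrix L bE).mulVec (fun i => algebraMap S L (c' i)) =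
      fun j => algebraMap S L (a j) := by
    ext j
    rw [hM]
    have := RingHom.map_mulVec (algebraMap S L) (Algebra.traceMatrix S b) c' j
    rw [hTc'] at this
    exact this.symm
  have hunit : IsUnit (Algebra.traceMatrix L bE) := by
    rw [Matrix.isUnit_iff_isUnit_det, hM, ← RingHom.mapMatrix_apply, ← RingHom.map_det]
    exact hdet.map _
  have hcc' : (fun i => bE.repr x i) = fun i => algebraMap S L (c' i) :=
    Matrix.mulVec_injective_of_isUnit hunit (hc.trans hc'.symm)
  refine (AlgHom.mem_range φ).mpr ⟨∑ i, c' i • b i, ?_⟩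
  conv_rhs => rw [← bE.sum_repr x]
  rw [map_sum]
  refine Finset.sum_congr rfl fun i _ => ?_
  rw [map_smul, congrFun hcc' i, hbE, algebraMap_smul]

/-- Tensor form of (4): `A` is integrally closed in `L ⊗[S] A`. -/
theorem exists_eq_tmul_of_isIntegral (b : Basis ι S A) (hb : IsUnit (Algebra.discr S b))
    (x : TensorProduct S L A) (hx : IsIntegral S x) : ∃ a : A, x = (1 : L) ⊗ₜ[S] a := by
  obtain ⟨a, ha⟩ := mem_range_of_isIntegral b hb
    (Algebra.TensorProduct.includeRight : A →ₐ[S] TensorProduct S L A)
    (Algebra.TensorProduct.basis L b) (fun i => by simp) x hx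
  exact ⟨a, ha.symm⟩

end IntClosed

section Summary

variable {kb S A : Type*} [Field kb] [IsAlgClosed kb] [CommRing S] [IsDomain S]
  [IsPrincipalIdealRing S] [Algebra kb S] [Algebra.FiniteType kb S] [CommRing A] [Algebra S A]
  [Algebra kb A] [IsScalarTower kb S A] {ι : Type*} [Fintype ι] [DecidableEq ι]

/-- **[G-ET], summary in the application shape.** `S` a PID (not a field) of finite type over the
algebraically closed field `kb`, `A` finite free over `S` with a basis of unit discriminant.  For
every maximal ideal `Q` of `A`: `A_Q` is a discrete valuation ring whose maximal ideal is generated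
by the generator of `Q ∩ S`, and the residue field `A ⧸ Q` is `kb`. -/
theorem etaleBridge_maximal (hS : ¬ IsField S) (b : Basis ι S A)
    (hb : IsUnit (Algebra.discr S b)) (Q : Ideal A) [Q.IsMaximal] :
    (∃ _ : IsDomain (Localization.AtPrime Q), IsDiscreteValuationRing (Localization.AtPrime Q)) ∧
      IsLocalRing.maximalIdeal (Localization.AtPrime Q) =
        Ideal.span {algebraMap S (Localization.AtPrime Q)
          (Submodule.IsPrincipal.generator (Q.under S))} ∧
      Function.Bijective (algebraMap kb (A ⧸ Q)) := by
  have hfin : Module.Finite S A := Module.Finite.of_basis b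
  have hint : Algebra.IsIntegral S A := Algebra.IsIntegral.of_finite S A
  have hmax : (Q.under S).IsMaximal := Ideal.isMaximal_comap_of_isIntegral_of_isMaximal Q
  exact ⟨exists_isDiscreteValuationRing_localization b hb Q (under_ne_bot_of_isMaximal b hS Q),
    maximalIdeal_eq_span_generator b hb Q,
    bijective_algebraMap_quotient b Q
      (surjective_algebraMap_quotient_of_finiteType (kb := kb) (Q.under S))⟩

end Summary

end Fermat.Agent.Good.ET
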