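import Mathlib

/-!
# L-GEN [G-KUM]: base change of a retraction, and the regularity hypothesis of Lemma (DS)

Generic commutative algebra (Mathlib only).

* `RetractBC.tensorHom R A B K : A ⊗[R] K →ₐ[R] B ⊗[R] K` for an `A`-algebra `B` (tower over `R`);
* `RetractBC.rhoTensor ρ K : B ⊗[R] K →ₗ[A ⊗[R] K] A ⊗[R] K` : the base change of an `A`-linear
  map `ρ : B →ₗ[A] A` (module structure through `tensorHom`), and `rhoTensor_algebraMap` : it is a
  retraction of `tensorHom` if `ρ` is a retraction of `algebraMap A B`;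
* `RetractBC.algebraMap_mem_nonZeroDivisors_of_isIntegral` : if the domain `A` is integral over
  `Λ` and the elements of `Λ` which are nonzero in `A` are non-zero-divisors of `B`, then all
  nonzero elements of `A` are non-zero-divisors of `B`.
-/

set_option autoImplicit false
set_option linter.unusedSectionVars false
set_option linter.style.haveILetI false

open TensorProduct
open scoped nonZeroDivisors

noncomputable section

namespace Fermat.Agent.Good.RetractBC

section Tensor

variable (R : Type*) [CommRing R] (A B : Type*) [CommRing A] [CommRing B] [Algebra R A]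
  [Algebra R B] [Algebra A B] [IsScalarTower R A B] (K : Type*) [CommRing K] [Algebra R K]

/-- The base change `A ⊗ K → B ⊗ K` of the structure map `A → B`. -/
def tensorHom : A ⊗[R] K →ₐ[R] B ⊗[R] K :=
  Algebra.TensorProduct.map (IsScalarTower.toAlgHom R A B) (AlgHom.id R K)

@[simp] theorem tensorHom_tmul (a : A) (k : K) :
    tensorHom R A B K (a ⊗ₜ[R] k) = algebraMap A B a ⊗ₜ[R] k := rfl

/-- `B ⊗ K` as an algebra over `A ⊗ K`. -/
abbrev tensorAlgebra : Algebra (A ⊗[R] K) (B ⊗[R] K) := (tensorHom R A B K).toRingHom.toAlgebra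

variable {A B}

/-- The `R`-linear base change of `ρ`. -/
def rhoTensorAux (ρ : B →ₗ[A] A) : B ⊗[R] K →ₗ[R] A ⊗[R] K :=
  TensorProduct.map (ρ.restrictScalars R) LinearMap.id

@[simp] theorem rhoTensorAux_tmul (ρ : B →ₗ[A] A) (b : B) (k : K) :
    rhoTensorAux R K ρ (b ⊗ₜ[R] k) = ρ b ⊗ₜ[R] k := rfl

theorem rhoTensorAux_mul (ρ : B →ₗ[A] A) (x : A ⊗[R] K) (y : B ⊗[R] K) :
    rhoTensorAux R K ρ (tensorHom R A B K x * y) = x * rhoTensorAux R K ρ y := by
  induction x using TensorProduct.induction_on with
  | zero => simp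
  | add x x' hx hx' => rw [map_add, add_mul, map_add, hx, hx', add_mul]
  | tmul a k =>
    induction y using TensorProduct.induction_on with
    | zero => simp
    | add y y' hy hy' => rw [mul_add, map_add, hy, hy', map_add, mul_add]
    | tmul b k' =>
      rw [tensorHom_tmul, Algebra.TensorProduct.tmul_mul_tmul, rhoTensorAux_tmul,
        rhoTensorAux_tmul, Algebra.TensorProduct.tmul_mul_tmul, ← Algebra.smul_def, map_smul,
        smul_eq_mul]

/-- **Base change of a linear retraction.** -/
def rhoTensor (ρ : B →ₗ[A] A) :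
    letI := tensorAlgebra R A B K
    B ⊗[R] K →ₗ[A ⊗[R] K] A ⊗[R] K :=
  letI := tensorAlgebra R A B K
  { toFun := rhoTensorAux R K ρ
    map_add' := map_add _
    map_smul' := fun x y => by
      rw [Algebra.smul_def, RingHom.id_apply, smul_eq_mul]
      exact rhoTensorAux_mul R K ρ x y }

theorem rhoTensor_apply (ρ : B →ₗ[A] A) (y : B ⊗[R] K) :
    letI := tensorAlgebra R A B K
    rhoTensor R K ρ y = rhoTensorAux R K ρ y := rfl

/-- The base change of a retraction is a retraction. -/
theorem rhoTensor_algebraMap (ρ : B →ₗ[A] A) (hρ : ∀ a : A, ρ (algebraMap A B a) = a)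
    (x : A ⊗[R] K) :
    letI := tensorAlgebra R A B K
    rhoTensor R K ρ (algebraMap (A ⊗[R] K) (B ⊗[R] K) x) = x := by
  letI := tensorAlgebra R A B K
  show rhoTensorAux R K ρ (tensorHom R A B K x) = x
  induction x using TensorProduct.induction_on with
  | zero => simp
  | add x x' hx hx' => rw [map_add, map_add, hx, hx']
  | tmul a k => rw [tensorHom_tmul, rhoTensorAux_tmul, hρ]

/-- In particular the base-changed structure map is injective. -/
theorem tensorHom_injective (ρ : B →ₗ[A] A) (hρ : ∀ a : A, ρ (algebraMap A B a) = a) :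
    Function.Injective (tensorHom R A B K) := by
  intro x x' h
  have h1 := congrArg (rhoTensorAux R K ρ) h
  have e := rhoTensor_algebraMap R K ρ hρ
  have e1 : rhoTensorAux R K ρ (tensorHom R A B K x) = x := e x
  have e2 : rhoTensorAux R K ρ (tensorHom R A B K x') = x' := e x'
  rw [e1, e2] at h1
  exact h1

end Tensor

section Regular

/-- If the domain `A` is integral over `Λ` and every element of `Λ` which is nonzero in `A` is a
non-zero-divisor of `B`, then every nonzero element of `A` is a non-zero-divisor of `B`. -/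
theorem algebraMap_mem_nonZeroDivisors_of_isIntegral {Λ A B : Type*} [CommRing Λ] [CommRing A]
    [IsDomain A] [CommRing B] [Algebra Λ A] [Algebra A B] [Algebra.IsIntegral Λ A]
    (h : ∀ c : Λ, algebraMap Λ A c ≠ 0 → algebraMap A B (algebraMap Λ A c) ∈ B⁰)
    (a : A) (ha : a ≠ 0) : algebraMap A B a ∈ B⁰ := by
  -- the image of `Λ` in `A`
  let Λ' : Subring A := (algebraMap Λ A).range
  have hint : IsIntegral Λ' a := by
    obtain ⟨p, hp, hpa⟩ := Algebra.IsIntegral.isIntegral (R := Λ) a
    refine ⟨p.map (algebraMap Λ A).rangeRestrict, hp.map _, ?_⟩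
    rw [Polynomial.eval₂_map]
    exact hpa
  have halg : IsAlgebraic Λ' a := hint.isAlgebraic
  obtain ⟨r, hr0, b, hb⟩ := halg.exists_nonzero_dvd (mem_nonZeroDivisors_of_ne_zero ha)
  obtain ⟨c, hc⟩ := r.2
  have hcA : algebraMap Λ A c ≠ 0 := by
    intro h0
    apply hr0
    apply Subtype.ext
    rw [← hc, h0]
    rfl
  have h1 := h c hcA
  have h2 : algebraMap A B a * algebraMap A B b = algebraMap A B (algebraMap Λ A c) := by
    rw [← map_mul, ← hb, hc]
    rfl
  rw [← h2] at h1
  exact (mul_mem_nonZeroDivisors.mp h1).1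

end Regular

end Fermat.Agent.Good.RetractBC
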