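import Fermat.Agent.Good.PurityByHand
import Fermat.Agent.Good.RetractBaseChange

/-!
# L-GEN: a basis of the reduction `B/πB` over `R/π` gives a basis of `B ⊗[O] k` over `R ⊗[O] k`

`O` a commutative ring, `p : O`, `k` an `O`-algebra in which `p = 0`; `R` an `O`-algebra, `B` an
`R`-algebra; `φ : R → κ` onto with kernel `(π)`, `ρ : B → Λ` onto with kernel `π B`
(`π = algebraMap O R p`), compatible (this is the shape of `DiscRedData`).

* `SFB.baseHom : κ →+* R ⊗[O] k`, `baseHom (φ r) = r ⊗ₜ 1`;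
* `SFB.fibreHom : Λ →+* B ⊗[O] k`, `fibreHom (ρ x) = x ⊗ₜ 1`;
* `SFB.fibreBasis` : for a `κ`-basis `bΛ` of `Λ`, the family `fibreHom (bΛ i)` is a basis of
  `B ⊗[O] k` over `R ⊗[O] k` (algebra structure `RetractBC.tensorAlgebra O R B k`);
* `SFB.discr_fibreBasis` : its discriminant is `baseHom (discr κ bΛ)`; in particular it is a unit
  when `discr κ bΛ` is.
-/

set_option autoImplicit false
set_option linter.unusedSectionVars false
set_option linter.style.haveILetI false

open TensorProduct Module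

noncomputable section

namespace Fermat.Agent.Good.SFB

variable {O R B κ Λ : Type*} [CommRing O] [CommRing R] [CommRing B] [Algebra O R] [Algebra R B]
  [Algebra O B] [IsScalarTower O R B] [CommRing κ] [CommRing Λ] [Algebra κ Λ]
  (k : Type*) [CommRing k] [Algebra O k]

/-- The reduction data: `φ : R → κ` onto with kernel `(π)`, `ρ : B → Λ` onto with kernel `π B`,
`π = algebraMap O R p`, where `p = 0` in `k`. -/
structure FibreData (p : O) (φ : R →+* κ) (ρ : B →+* Λ) : Prop where
  hpk : algebraMap O k p = 0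
  φ_surj : Function.Surjective φ
  φ_ker : ∀ r, φ r = 0 → algebraMap O R p ∣ r
  ρ_surj : Function.Surjective ρ
  ρ_ker : ∀ x, ρ x = 0 → ∃ y, x = algebraMap O R p • y
  compat : ∀ r, ρ (algebraMap R B r) = algebraMap κ Λ (φ r)

variable {k} {p : O} {φ : R →+* κ} {ρ : B →+* Λ}

namespace FibreData

variable (D : FibreData k p φ ρ)

include D

theorem tmul_eq_zero_of_map_eq_zero {r : R} (hr : φ r = 0) (c : k) : r ⊗ₜ[O] c = 0 := by
  obtain ⟨r', rfl⟩ := D.φ_ker r hr
  rw [← Algebra.smul_def, TensorProduct.smul_tmul, Algebra.smul_def, D.hpk, zero_mul,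
    TensorProduct.tmul_zero]

theorem tmul_eq_zero_of_map_eq_zero' {x : B} (hx : ρ x = 0) (c : k) : x ⊗ₜ[O] c = 0 := by
  obtain ⟨y, rfl⟩ := D.ρ_ker x hx
  rw [algebraMap_smul, TensorProduct.smul_tmul, Algebra.smul_def, D.hpk, zero_mul,
    TensorProduct.tmul_zero]

/-- `κ = R/π → R ⊗[O] k`. -/
def baseHom : κ →+* R ⊗[O] k :=
  φ.liftOfRightInverse (Function.surjInv D.φ_surj) (Function.rightInverse_surjInv D.φ_surj)
    ⟨(Algebra.TensorProduct.includeLeft : R →ₐ[O] R ⊗[O] k).toRingHom, fun r hr => by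
      rw [RingHom.mem_ker] at hr ⊢
      exact D.tmul_eq_zero_of_map_eq_zero hr 1⟩

@[simp] theorem baseHom_apply (r : R) : D.baseHom (φ r) = r ⊗ₜ[O] (1 : k) :=
  φ.liftOfRightInverse_comp_apply _ _ _ r

/-- `Λ = B/πB → B ⊗[O] k`. -/
def fibreHom : Λ →+* B ⊗[O] k :=
  ρ.liftOfRightInverse (Function.surjInv D.ρ_surj) (Function.rightInverse_surjInv D.ρ_surj)
    ⟨(Algebra.TensorProduct.includeLeft : B →ₐ[O] B ⊗[O] k).toRingHom, fun x hx => by
      rw [RingHom.mem_ker] at hx ⊢
      exact D.tmul_eq_zero_of_map_eq_zero' hx 1⟩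

@[simp] theorem fibreHom_apply (x : B) : D.fibreHom (ρ x) = x ⊗ₜ[O] (1 : k) :=
  ρ.liftOfRightInverse_comp_apply _ _ _ x

/-- compatibility of `fibreHom` and `baseHom` -/
theorem fibreHom_algebraMap (a : κ) :
    D.fibreHom (algebraMap κ Λ a) = RetractBC.tensorHom O R B k (D.baseHom a) := by
  obtain ⟨r, rfl⟩ := D.φ_surj a
  rw [← D.compat, fibreHom_apply, baseHom_apply, RetractBC.tensorHom_tmul]

theorem fibreHom_smul (a : κ) (x : Λ) :
    D.fibreHom (a • x) = RetractBC.tensorHom O R B k (D.baseHom a) * D.fibreHom x := by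
  rw [Algebra.smul_def, map_mul, fibreHom_algebraMap]

section Coord

variable {ι : Type*} [Fintype ι] [DecidableEq ι] (bΛ : Basis ι κ Λ)

theorem map_smul_left (o : O) (x : B) : ρ (o • x) = φ (algebraMap O R o) • ρ x := by
  rw [← algebraMap_smul R o x, Algebra.smul_def, map_mul, D.compat, ← Algebra.smul_def]

/-- the `i`-th coordinate as an `O`-linear map `B → R ⊗[O] k` -/
def coordO (i : ι) : B →ₗ[O] R ⊗[O] k where
  toFun x := D.baseHom (bΛ.repr (ρ x) i)
  map_add' x y := by simp only [map_add, Finsupp.add_apply]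
  map_smul' o x := by
    rw [D.map_smul_left, map_smul, Finsupp.smul_apply, smul_eq_mul, map_mul, baseHom_apply,
      RingHom.id_apply, Algebra.smul_def, Algebra.TensorProduct.algebraMap_apply]

/-- the `i`-th coordinate on `B ⊗[O] k`, first as an `O`-linear map -/
def coordAux (i : ι) : B ⊗[O] k →ₗ[O] R ⊗[O] k :=
  TensorProduct.lift ((LinearMap.mul O (R ⊗[O] k)).compl₁₂ (D.coordO bΛ i)
    (Algebra.TensorProduct.includeRight : k →ₐ[O] R ⊗[O] k).toLinearMap)

theorem coordAux_tmul (i : ι) (x : B) (c : k) :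
    D.coordAux bΛ i (x ⊗ₜ[O] c) = D.baseHom (bΛ.repr (ρ x) i) * ((1 : R) ⊗ₜ[O] c) := rfl

theorem coordAux_mul (i : ι) (s : R ⊗[O] k) (z : B ⊗[O] k) :
    D.coordAux bΛ i (RetractBC.tensorHom O R B k s * z) = s * D.coordAux bΛ i z := by
  induction s using TensorProduct.induction_on with
  | zero => simp
  | add s s' hs hs' => rw [map_add, add_mul, map_add, hs, hs', add_mul]
  | tmul r c' =>
    induction z using TensorProduct.induction_on with
    | zero => simp
    | add z z' hz hz' => rw [mul_add, map_add, hz, hz', map_add, mul_add]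
    | tmul x c =>
      rw [RetractBC.tensorHom_tmul, Algebra.TensorProduct.tmul_mul_tmul, coordAux_tmul,
        coordAux_tmul, map_mul, D.compat, ← Algebra.smul_def, map_smul, Finsupp.smul_apply,
        smul_eq_mul, map_mul, baseHom_apply]
      have h1 : (1 : R) ⊗ₜ[O] (c' * c) = ((1 : R) ⊗ₜ[O] c') * ((1 : R) ⊗ₜ[O] c) := by
        rw [Algebra.TensorProduct.tmul_mul_tmul, one_mul]
      have h2 : r ⊗ₜ[O] c' = (r ⊗ₜ[O] (1 : k)) * ((1 : R) ⊗ₜ[O] c') := by
        rw [Algebra.TensorProduct.tmul_mul_tmul, one_mul, mul_one]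
      rw [h1, h2]
      ring

/-- The family `fibreHom (bΛ i)`. -/
def fibreFamily (i : ι) : B ⊗[O] k := D.fibreHom (bΛ i)

theorem coordAux_fibreFamily (i j : ι) :
    D.coordAux bΛ i (D.fibreFamily bΛ j) = if j = i then 1 else 0 := by
  obtain ⟨x, hx⟩ := D.ρ_surj (bΛ j)
  rw [fibreFamily, ← hx, fibreHom_apply, coordAux_tmul, hx, Basis.repr_self,
    Finsupp.single_apply]
  split_ifs
  · rw [← map_one φ, baseHom_apply, Algebra.TensorProduct.tmul_mul_tmul, one_mul, one_mul]
    rfl
  · rw [map_zero, zero_mul]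

end Coord

section TheBasis

variable {ι : Type*} [Fintype ι] [DecidableEq ι] (bΛ : Basis ι κ Λ)

theorem linearIndependent_fibreFamily :
    letI := RetractBC.tensorAlgebra O R B k
    LinearIndependent (R ⊗[O] k) (D.fibreFamily bΛ) := by
  letI := RetractBC.tensorAlgebra O R B k
  rw [Fintype.linearIndependent_iff]
  intro g hg i
  have h1 := congrArg (D.coordAux bΛ i) hg
  rw [map_sum, map_zero] at h1
  have h2 : ∀ j, D.coordAux bΛ i (g j • D.fibreFamily bΛ j) =
      g j * (if j = i then 1 else 0) := by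
    intro j
    rw [Algebra.smul_def]
    show D.coordAux bΛ i (RetractBC.tensorHom O R B k (g j) * _) = _
    rw [coordAux_mul, coordAux_fibreFamily]
  simp only [h2, mul_ite, mul_one, mul_zero, Finset.sum_ite_eq', Finset.mem_univ, if_true] at h1
  exact h1

theorem span_fibreFamily :
    letI := RetractBC.tensorAlgebra O R B k
    ⊤ ≤ Submodule.span (R ⊗[O] k) (Set.range (D.fibreFamily bΛ)) := by
  letI := RetractBC.tensorAlgebra O R B k
  rintro z -
  induction z using TensorProduct.induction_on with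
  | zero => exact Submodule.zero_mem _
  | add z z' hz hz' => exact Submodule.add_mem _ hz hz'
  | tmul x c =>
    have h1 : x ⊗ₜ[O] c = ((1 : R) ⊗ₜ[O] c) • (x ⊗ₜ[O] (1 : k)) := by
      rw [Algebra.smul_def]
      show _ = RetractBC.tensorHom O R B k _ * _
      rw [RetractBC.tensorHom_tmul, map_one, Algebra.TensorProduct.tmul_mul_tmul, one_mul,
        mul_one]
    rw [h1]
    refine Submodule.smul_mem _ _ ?_
    rw [← fibreHom_apply D, ← bΛ.sum_repr (ρ x), map_sum]
    refine Submodule.sum_mem _ fun j _ => ?_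
    rw [fibreHom_smul]
    have h2 : RetractBC.tensorHom O R B k (D.baseHom (bΛ.repr (ρ x) j)) * D.fibreHom (bΛ j) =
        (D.baseHom (bΛ.repr (ρ x) j)) • D.fibreFamily bΛ j := by
      rw [Algebra.smul_def]
      rfl
    rw [h2]
    exact Submodule.smul_mem _ _ (Submodule.subset_span (Set.mem_range_self j))

/-- **The basis of the special fibre**: `fibreHom (bΛ i)` is a basis of `B ⊗[O] k` over
`R ⊗[O] k`. -/
def fibreBasis :
    letI := RetractBC.tensorAlgebra O R B k
    Basis ι (R ⊗[O] k) (B ⊗[O] k) :=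
  letI := RetractBC.tensorAlgebra O R B k
  Basis.mk (D.linearIndependent_fibreFamily bΛ) (D.span_fibreFamily bΛ)

theorem fibreBasis_apply (i : ι) :
    letI := RetractBC.tensorAlgebra O R B k
    D.fibreBasis bΛ i = D.fibreHom (bΛ i) := by
  letI := RetractBC.tensorAlgebra O R B k
  rw [fibreBasis, Basis.mk_apply]
  rfl

/-- The discriminant of the basis of the special fibre. -/
theorem discr_fibreBasis :
    letI := RetractBC.tensorAlgebra O R B k
    Algebra.discr (R ⊗[O] k) (D.fibreBasis bΛ) = D.baseHom (Algebra.discr κ bΛ) := by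
  letI := RetractBC.tensorAlgebra O R B k
  exact (Purity.map_discr_eq_discr D.baseHom D.fibreHom (fun a => D.fibreHom_algebraMap a) bΛ
    (D.fibreBasis bΛ) (fun i => D.fibreBasis_apply bΛ i)).symm

theorem isUnit_discr_fibreBasis (h : IsUnit (Algebra.discr κ bΛ)) :
    letI := RetractBC.tensorAlgebra O R B k
    IsUnit (Algebra.discr (R ⊗[O] k) (D.fibreBasis bΛ)) := by
  letI := RetractBC.tensorAlgebra O R B k
  rw [discr_fibreBasis]
  exact h.map _

end TheBasis

end FibreData

end Fermat.Agent.Good.SFB
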