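import Fermat.Agent.Good.DiscReduction
import Fermat.Agent.Good.EtaleBridge
import Fermat.Agent.Good.DirectSummand
import Fermat.Agent.Good.SpecialFibreBasis

/-!
# L-GEN [G-INST-CUSP]: the cusp chart chain, abstract form

`O` a base ring with `p : O` (`O = ℤ_(ℓ)`, `p = ℓ`), `k` a field which is an `O`-algebra with
`p = 0` in `k`.  `R` a cover ring over `O` (`R = ℤ_(ℓ)[y][1/(1 - 1728 y^N)]`): a noetherian
integrally closed domain in which `π = p` is prime with `R/π` a PID, and with special fibre
`R ⊗[O] k` a PID (not a field).  `E` a finite algebra over `L = Frac R` (not necessarily a field),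
`B = integralClosure R E`.  `A` an `O`-algebra (the chart algebra) such that `B` is an `A`-algebra
with an `A`-linear retraction `ρ : B → A`, and `A ⊗[O] k` is a domain.

Hypotheses:
* (H1c) an `L`-basis of `E` of `R`-integral elements with discriminant prime to `π`;
* (H2c) an `L`-basis of `E` of `R`-integral elements with discriminant dividing a power of `π`;
* `A` is integral over a ring `Λ₀` (`= ℤ_(ℓ)[w][1/(1 - 1728 w)]`) which maps compatibly to `R`.

Conclusion (`CuspQuot.isIntegrallyClosed_tensor_of_cover`): `A ⊗[O] k` is integrally closed.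

Chain: Lemma A (`DiscRedData.exists_basis_isUnit_discr`) gives an `R/π`-basis of `B/πB` of unit
discriminant; `SFB.fibreBasis` turns it into an `R ⊗ k`-basis of `B ⊗ k` of unit discriminant; the
etale bridge makes all local rings of `B ⊗ k` at maximal ideals discrete valuation rings; Lemma
(DS) descends normality along the retraction `ρ ⊗ k`.
-/

set_option autoImplicit false
set_option linter.unusedSectionVars false
set_option linter.style.haveILetI false

open TensorProduct Module
open scoped nonZeroDivisors

namespace Fermat.Agent.Good.CuspQuot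

section Integral

variable (O : Type*) [CommRing O] (Λ A : Type*) [CommRing Λ] [CommRing A] [Algebra O Λ]
  [Algebra O A] [Algebra Λ A] [IsScalarTower O Λ A] (k : Type*) [CommRing k] [Algebra O k]

/-- Base change preserves integrality (in the orientation `A ⊗[O] k` over `Λ ⊗[O] k`). -/
theorem isIntegral_tensor [Algebra.IsIntegral Λ A] :
    letI := RetractBC.tensorAlgebra O Λ A k
    Algebra.IsIntegral (Λ ⊗[O] k) (A ⊗[O] k) := by
  letI := RetractBC.tensorAlgebra O Λ A k
  refine ⟨fun z => ?_⟩
  induction z using TensorProduct.induction_on with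
  | zero => exact isIntegral_zero
  | add z z' hz hz' => exact hz.add hz'
  | tmul a c =>
    have h1 : a ⊗ₜ[O] c = (a ⊗ₜ[O] (1 : k)) * algebraMap (Λ ⊗[O] k) (A ⊗[O] k) ((1 : Λ) ⊗ₜ[O] c) := by
      show _ = _ * RetractBC.tensorHom O Λ A k _
      rw [RetractBC.tensorHom_tmul, map_one, Algebra.TensorProduct.tmul_mul_tmul, mul_one, one_mul]
    rw [h1]
    refine IsIntegral.mul ?_ isIntegral_algebraMap
    obtain ⟨q, hq, hqa⟩ := Algebra.IsIntegral.isIntegral (R := Λ) a
    refine ⟨q.map (Algebra.TensorProduct.includeLeft : Λ →ₐ[O] Λ ⊗[O] k).toRingHom, hq.map _, ?_⟩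
    rw [Polynomial.eval₂_map]
    have h2 : (algebraMap (Λ ⊗[O] k) (A ⊗[O] k)).comp
        (Algebra.TensorProduct.includeLeft : Λ →ₐ[O] Λ ⊗[O] k).toRingHom =
        ((Algebra.TensorProduct.includeLeft : A →ₐ[O] A ⊗[O] k).toRingHom).comp
          (algebraMap Λ A) := by
      ext x
      show RetractBC.tensorHom O Λ A k (x ⊗ₜ[O] 1) = algebraMap Λ A x ⊗ₜ[O] 1
      rw [RetractBC.tensorHom_tmul]
    rw [h2]
    have h3 : a ⊗ₜ[O] (1 : k) =
        (Algebra.TensorProduct.includeLeft : A →ₐ[O] A ⊗[O] k).toRingHom a := rfl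
    rw [h3, ← Polynomial.hom_eval₂, hqa, map_zero]

end Integral

section Main

variable {O : Type*} [CommRing O] (p : O) {k : Type*} [Field k] [Algebra O k]
  {R : Type*} [CommRing R] [IsDomain R] [IsIntegrallyClosed R] [IsNoetherianRing R] [Algebra O R]
  {L E : Type*} [Field L] [Algebra R L] [IsFractionRing R L] [CommRing E] [Algebra L E]
  [Algebra R E] [IsScalarTower R L E] [Algebra O E] [IsScalarTower O R E]
  {A : Type*} [CommRing A] [Algebra O A]
  {Λ₀ : Type*} [CommRing Λ₀] [Algebra O Λ₀] [Algebra Λ₀ A] [Algebra Λ₀ R] [IsScalarTower O Λ₀ A]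
  [IsScalarTower O Λ₀ R]

/-- **The cusp chart chain, abstract form.** -/
theorem isIntegrallyClosed_tensor_of_cover (hpk : algebraMap O k p = 0)
    (hπ : Prime (algebraMap O R p))
    [IsDomain (R ⧸ Ideal.span {algebraMap O R p})]
    [IsPrincipalIdealRing (R ⧸ Ideal.span {algebraMap O R p})]
    [IsDomain (R ⊗[O] k)] [IsPrincipalIdealRing (R ⊗[O] k)] (hnf : ¬ IsField (R ⊗[O] k))
    {ι : Type*} [Fintype ι] [DecidableEq ι]
    (c : Basis ι L E) (hc : ∀ i, IsIntegral R (c i)) (dc : R)
    (hdc : algebraMap R L dc = Algebra.discr L c) (hπdc : ¬ algebraMap O R p ∣ dc)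
    (c' : Basis ι L E) (hc' : ∀ i, IsIntegral R (c' i)) (dc' : R)
    (hdc' : algebraMap R L dc' = Algebra.discr L c') (m : ℕ)
    (hm : dc' ∣ (algebraMap O R p) ^ m)
    [IsDomain (A ⊗[O] k)]
    [Algebra A (integralClosure R E)] [IsScalarTower O A (integralClosure R E)]
    (ρ : integralClosure R E →ₗ[A] A)
    (hρ : ∀ a : A, ρ (algebraMap A (integralClosure R E) a) = a)
    [Algebra.IsIntegral Λ₀ A]
    (hcomp : ∀ x : Λ₀, algebraMap A (integralClosure R E) (algebraMap Λ₀ A x) =
      algebraMap R (integralClosure R E) (algebraMap Λ₀ R x)) :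
    IsIntegrallyClosed (A ⊗[O] k) := by
  classical
  set π := algebraMap O R p with hπdef
  let D := DiscRedData.quotient R E π
  haveI : Module.Finite L E := Module.Finite.of_basis c
  obtain ⟨n, bΛ, b, bE, f, d, hb, hbE, hf1, hf2, hd, hdΛ, hunit⟩ :=
    D.exists_basis_isUnit_discr L hπ c hc dc hdc hπdc c' hc' dc' hdc' m hm
  have FD : SFB.FibreData k p D.φ D.ρ :=
    { hpk := hpk
      φ_surj := D.φ_surj
      φ_ker := fun r hr => (D.φ_ker r).mp hr
      ρ_surj := D.ρ_surj
      ρ_ker := fun x hx => (D.ρ_ker x).mp hx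
      compat := D.compat }
  letI algSB := RetractBC.tensorAlgebra O R (integralClosure R E) k
  let bk := FD.fibreBasis bΛ
  have hbk : IsUnit (Algebra.discr (R ⊗[O] k) bk) := FD.isUnit_discr_fibreBasis bΛ hunit
  -- all local rings of `B ⊗ k` at maximal ideals are discrete valuation rings
  have hloc : ∀ (P : Ideal (integralClosure R E ⊗[O] k)) [P.IsMaximal],
      IsDomain (Localization.AtPrime P) ∧ IsIntegrallyClosed (Localization.AtPrime P) := by
    intro P hP
    obtain ⟨hdom, hdvr⟩ := ET.exists_isDiscreteValuationRing_localization bk hbk P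
      (ET.under_ne_bot_of_isMaximal bk hnf P)
    haveI := hdom
    haveI := hdvr
    haveI : IsPrincipalIdealRing (Localization.AtPrime P) := hdvr.toIsPrincipalIdealRing
    haveI : IsDedekindDomain (Localization.AtPrime P) :=
      IsPrincipalIdealRing.isDedekindDomain _
    exact ⟨hdom, IsDedekindRing.toIsIntegralClosure⟩
  letI algAB := RetractBC.tensorAlgebra O A (integralClosure R E) k
  refine Kum.isIntegrallyClosed_of_retraction_of_localization
    (RetractBC.rhoTensor O k ρ) ?_ ?_ hloc
  · have h1 := RetractBC.rhoTensor_algebraMap O k ρ hρ 1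
    rwa [map_one] at h1
  · intro a ha
    letI algΛA := RetractBC.tensorAlgebra O Λ₀ A k
    haveI := isIntegral_tensor O Λ₀ A k
    refine RetractBC.algebraMap_mem_nonZeroDivisors_of_isIntegral (Λ := Λ₀ ⊗[O] k) ?_ a ha
    intro x hx
    have key : ∀ x : Λ₀ ⊗[O] k,
        RetractBC.tensorHom O A (integralClosure R E) k (RetractBC.tensorHom O Λ₀ A k x) =
        RetractBC.tensorHom O R (integralClosure R E) k (RetractBC.tensorHom O Λ₀ R k x) := by
      intro x
      induction x using TensorProduct.induction_on with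
      | zero => simp
      | add x x' hx hx' => rw [map_add, map_add, hx, hx', map_add, map_add]
      | tmul x c =>
        rw [RetractBC.tensorHom_tmul, RetractBC.tensorHom_tmul, RetractBC.tensorHom_tmul,
          RetractBC.tensorHom_tmul, hcomp]
    show RetractBC.tensorHom O A (integralClosure R E) k (RetractBC.tensorHom O Λ₀ A k x) ∈ _
    rw [key]
    have hs : RetractBC.tensorHom O Λ₀ R k x ≠ 0 := by
      intro h0
      apply hx
      apply RetractBC.tensorHom_injective O k ρ hρ
      show RetractBC.tensorHom O A (integralClosure R E) k (RetractBC.tensorHom O Λ₀ A k x) =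
        RetractBC.tensorHom O A (integralClosure R E) k 0
      rw [key, h0, map_zero, map_zero]
    exact ET.algebraMap_mem_nonZeroDivisors bk hs

end Main

end Fermat.Agent.Good.CuspQuot
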