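import Fermat.Agent.Good.KummerCover

/-!
# Ramification of the Kummer cover `y ^ N = w` (cover side of (RAM) for the cusp chart)

Program L / L-GEN, input for (H2c) ([G-RAM-KUM]).  `K` a field, `LamC K = K[w][1/(1-1728 w)]`,
`RCov K N = K[y][1/(1-1728 y^N)]`, `w ↦ y ^ N`.

General lemmas on a localisation `S = R[1/c]` of a UFD:
* `prime_algebraMap_away` : a prime `π ∤ c` of `R` stays prime in `S`;
* `exists_prime_associated_away` : every prime of `S` is associated to the image of such a `π`.

The Kummer cover: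
* `prime_yCov` : `y` is a prime element of `RCov K N`;
* `exists_ramData` : every prime element `u` of `RCov K N` lies over the prime `g(w)` of `LamC K`,
  `g : K[X]` monic irreducible, `g ∤ 1 - 1728 X`; `g(w) = w' * u ^ m` with `u ∤ w'`, `0 < m`, and
  `m = N` if `g = X` (the cover is totally ramified over `w = 0`);
* `eval_zero_ne_zero`, `eval_ne_zero_of_not_dvd_cLam` : for `g ≠ X` as above, `g(0) ≠ 0` and
  `g(1/1728) ≠ 0` (the hypotheses of the unramified case on the curve side).
-/

set_option autoImplicit false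
set_option linter.unusedSectionVars false
set_option linter.style.haveILetI false

open Polynomial

namespace Fermat.Agent.Good.Kum

section General

variable {R : Type*} [CommRing R] [IsDomain R] (c : R) (S : Type*) [CommRing S] [Algebra R S]
  [IsLocalization.Away c S]

include c in
theorem algebraMap_away_injective (hc : c ≠ 0) : Function.Injective (algebraMap R S) :=
  IsLocalization.injective S (powers_le_nonZeroDivisors_of_noZeroDivisors hc)

include c in
theorem isDomain_away (hc : c ≠ 0) : IsDomain S :=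
  IsLocalization.isDomain_of_le_nonZeroDivisors S
    (powers_le_nonZeroDivisors_of_noZeroDivisors hc)

/-- A prime `π ∤ c` of `R` stays prime in `R[1/c]`. -/
theorem prime_algebraMap_away (hc : c ≠ 0) {π : R} (hπ : Prime π) (hπc : ¬ π ∣ c) :
    Prime (algebraMap R S π) := by
  have hI : (Ideal.span {π} : Ideal R).IsPrime :=
    (Ideal.span_singleton_prime hπ.ne_zero).mpr hπ
  have hdisj : Disjoint (Submonoid.powers c : Set R) (Ideal.span {π} : Ideal R) := by
    rw [Set.disjoint_left]
    rintro x ⟨n, rfl⟩ hx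
    rw [SetLike.mem_coe, Ideal.mem_span_singleton] at hx
    exact hπc (hπ.dvd_of_dvd_pow hx)
  have h1 := IsLocalization.isPrime_of_isPrime_disjoint (Submonoid.powers c) S _ hI hdisj
  rw [Ideal.map_span, Set.image_singleton] at h1
  have hne : algebraMap R S π ≠ 0 := by
    rw [Ne, map_eq_zero_iff _ (algebraMap_away_injective c S hc)]
    exact hπ.ne_zero
  exact (Ideal.span_singleton_prime hne).mp h1

/-- Every prime of `R[1/c]` (`R` a UFD) is associated to the image of a prime `π ∤ c` of `R`. -/
theorem exists_prime_associated_away [UniqueFactorizationMonoid R] (hc : c ≠ 0) (u : S)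
    (hu : Prime u) : ∃ π : R, Prime π ∧ ¬ π ∣ c ∧ Associated u (algebraMap R S π) := by
  haveI := isDomain_away c S hc
  obtain ⟨⟨p, s⟩, hps⟩ := IsLocalization.surj (Submonoid.powers c) u
  simp only at hps
  have hsu : IsUnit (algebraMap R S (s : R)) := IsLocalization.map_units S s
  have hup : u ∣ algebraMap R S p := ⟨algebraMap R S (s : R), hps.symm⟩
  have hp0 : p ≠ 0 := by
    rintro rfl
    rw [map_zero] at hps
    rcases mul_eq_zero.mp hps with h | h
    · exact hu.ne_zero h
    · exact hsu.ne_zero h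
  have key : ∀ n : R, n ≠ 0 → u ∣ algebraMap R S n →
      ∃ π : R, Prime π ∧ u ∣ algebraMap R S π := by
    intro n
    induction n using UniqueFactorizationMonoid.induction_on_prime with
    | h₁ => exact fun h => absurd rfl h
    | h₂ x hx =>
      intro _ hdvd
      exact absurd (isUnit_of_dvd_unit hdvd (hx.map _)) hu.not_isUnit
    | h₃ a π ha hπ ih =>
      intro _ hdvd
      rw [map_mul] at hdvd
      rcases hu.dvd_or_dvd hdvd with h | h
      · exact ⟨π, hπ, h⟩
      · exact ih ha h
  obtain ⟨π, hπ, hdvd⟩ := key p hp0 hup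
  have hπc : ¬ π ∣ c := by
    intro h
    have hcu : IsUnit (algebraMap R S c) :=
      IsLocalization.map_units S (⟨c, Submonoid.mem_powers c⟩ : Submonoid.powers c)
    exact hu.not_isUnit (isUnit_of_dvd_unit (hdvd.trans (map_dvd _ h)) hcu)
  exact ⟨π, hπ, hπc, hu.associated_of_dvd (prime_algebraMap_away c S hc hπ hπc) hdvd⟩

end General

section Cover

variable (K : Type*) [Field K] (N : ℕ) [NeZero N]

/-- `y` is a prime element of `RCov K N`. -/
theorem prime_yCov : Prime (yCov K N) := by
  have hN : 0 < N := Nat.pos_of_ne_zero (NeZero.ne N)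
  refine prime_algebraMap_away (cCov K N) (RCov K N) (cCov_ne_zero K hN) prime_X ?_
  rw [X_dvd_iff, coeff_zero_cCov K hN]
  exact one_ne_zero

/-- A monic irreducible `g ≠ X` does not vanish at `0`. -/
theorem eval_zero_ne_zero {g : K[X]} (hg : Irreducible g) (hm : g.Monic) (hX : g ≠ X) :
    g.eval 0 ≠ 0 := by
  intro h0
  have hdvd : (X : K[X]) ∣ g := by
    rw [X_dvd_iff, coeff_zero_eq_eval_zero]
    exact h0
  exact hX (eq_of_monic_of_associated hm monic_X (irreducible_X.associated_of_dvd hg hdvd).symm)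

/-- An irreducible `g ∤ 1 - 1728 X` does not vanish at `1/1728`. -/
theorem eval_ne_zero_of_not_dvd_cLam {g : K[X]} (hg : Irreducible g) (hc : ¬ g ∣ cLam K)
    (h1728 : (1728 : K) ≠ 0) : g.eval ((1728 : K)⁻¹) ≠ 0 := by
  intro h0
  have hdvd : (X - C ((1728 : K)⁻¹)) ∣ g := dvd_iff_isRoot.mpr h0
  have hass : Associated (X - C ((1728 : K)⁻¹)) g :=
    (irreducible_X_sub_C _).associated_of_dvd hg hdvd
  apply hc
  refine hass.symm.dvd.trans ⟨-C (1728 : K), ?_⟩
  rw [cLam, sub_mul, mul_neg, mul_neg, ← C_mul, inv_mul_cancel₀ h1728, mul_comm X, C_1]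
  ring

/-- **The Kummer-cover side of (RAM).**  Every prime element `u` of `RCov K N` lies over a prime
`g(w)` of `LamC K` (`g` monic irreducible, prime to `1 - 1728 X`), `g(w) = w' * u ^ m` with
`u ∤ w'`, `0 < m`, and `m = N` if `g = X`. -/
theorem exists_ramData (u : RCov K N) (hu : Prime u) :
    ∃ (g : K[X]) (m : ℕ) (w' : RCov K N), Irreducible g ∧ g.Monic ∧ ¬ g ∣ cLam K ∧
      Prime (algebraMap K[X] (LamC K) g) ∧ 0 < m ∧
      algebraMap (LamC K) (RCov K N) (algebraMap K[X] (LamC K) g) = w' * u ^ m ∧ ¬ u ∣ w' ∧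
      (g = X → m = N) := by
  classical
  have hN : 0 < N := Nat.pos_of_ne_zero (NeZero.ne N)
  haveI := isDomain_rCov K hN
  haveI : IsPrincipalIdealRing (RCov K N) := isPrincipalIdealRing_paw (cCov K N)
  haveI : IsPrincipalIdealRing (LamC K) := isPrincipalIdealRing_paw (cLam K)
  -- the prime of `LamC K` below `u`
  set P0 : Ideal (LamC K) := (Ideal.span {u}).comap (algebraMap (LamC K) (RCov K N)) with hP0
  haveI hspan : (Ideal.span {u} : Ideal (RCov K N)).IsPrime :=
    (Ideal.span_singleton_prime hu.ne_zero).mpr hu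
  haveI hP0prime : P0.IsPrime := Ideal.comap_isPrime _ _
  have hP0bot : P0 ≠ ⊥ :=
    Ideal.comap_ne_bot_of_integral_mem hu.ne_zero (Ideal.mem_span_singleton_self u)
      (Algebra.IsIntegral.isIntegral u)
  obtain ⟨ϖ, hϖ⟩ := (IsPrincipalIdealRing.principal P0).principal
  have hϖ0 : ϖ ≠ 0 := by
    rintro rfl
    apply hP0bot
    rw [hϖ]
    exact Ideal.span_singleton_eq_bot.mpr rfl
  have hϖprime : Prime ϖ := by
    rw [← Ideal.span_singleton_prime hϖ0]
    have : Ideal.span {ϖ} = P0 := hϖ.symm
    rw [this]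
    exact hP0prime
  -- polynomial normal form of `ϖ`
  obtain ⟨π, hπ, hπc, hass⟩ :=
    exists_prime_associated_away (cLam K) (LamC K) (cLam_ne_zero K) ϖ hϖprime
  set g : K[X] := normalize π with hg
  have hgπ : Associated g π := normalize_associated π
  have hgirr : Irreducible g := hgπ.symm.irreducible hπ.irreducible
  have hgmon : g.Monic := Polynomial.monic_normalize hπ.ne_zero
  have hgc : ¬ g ∣ cLam K := fun h => hπc (hgπ.symm.dvd.trans h)
  have hgprime : Prime (algebraMap K[X] (LamC K) g) :=
    prime_algebraMap_away (cLam K) (LamC K) (cLam_ne_zero K) (hgπ.symm.prime hπ) hgc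
  have hassg : Associated ϖ (algebraMap K[X] (LamC K) g) :=
    hass.trans (hgπ.symm.map (algebraMap K[X] (LamC K)))
  -- `u` divides the image of `g(w)`
  have hϖmem : ϖ ∈ P0 := by
    rw [hϖ]; exact Ideal.mem_span_singleton_self ϖ
  have hudvdϖ : u ∣ algebraMap (LamC K) (RCov K N) ϖ := by
    rw [hP0, Ideal.mem_comap, Ideal.mem_span_singleton] at hϖmem
    exact hϖmem
  have hudvd : u ∣ algebraMap (LamC K) (RCov K N) (algebraMap K[X] (LamC K) g) :=
    hudvdϖ.trans (map_dvd _ hassg.dvd)
  have hne : algebraMap (LamC K) (RCov K N) (algebraMap K[X] (LamC K) g) ≠ 0 := by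
    rw [Ne, map_eq_zero_iff _ (algebraMap_lamC_rCov_injective K hN)]
    exact hgprime.ne_zero
  by_cases hX : g = X
  · -- totally ramified over `w = 0`
    have hy : algebraMap (LamC K) (RCov K N) (algebraMap K[X] (LamC K) g) = yCov K N ^ N := by
      rw [hX]; exact algebraMap_wLam K N
    rw [hy] at hudvd
    have huy : u ∣ yCov K N := hu.dvd_of_dvd_pow hudvd
    obtain ⟨ε, hε⟩ := hu.associated_of_dvd (prime_yCov K N) huy
    refine ⟨g, N, ((ε ^ N : (RCov K N)ˣ) : RCov K N), hgirr, hgmon, hgc, hgprime, hN, ?_, ?_,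
      fun _ => rfl⟩
    · rw [hy, ← hε, mul_pow, Units.val_pow_eq_pow_val, mul_comm]
    · intro h
      exact hu.not_isUnit (isUnit_of_dvd_unit h (ε ^ N).isUnit)
  · have hfin : FiniteMultiplicity u
        (algebraMap (LamC K) (RCov K N) (algebraMap K[X] (LamC K) g)) :=
      FiniteMultiplicity.of_not_isUnit hu.not_isUnit hne
    obtain ⟨w', hw', hnd⟩ := hfin.exists_eq_pow_mul_and_not_dvd
    refine ⟨g, multiplicity u _, w', hgirr, hgmon, hgc, hgprime, ?_, hw'.trans (mul_comm _ _), hnd,
      fun h => absurd h hX⟩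
    rcases Nat.eq_zero_or_pos (multiplicity u
      (algebraMap (LamC K) (RCov K N) (algebraMap K[X] (LamC K) g))) with h0 | hpos
    · rw [h0, pow_zero, one_mul] at hw'
      exact absurd (hw' ▸ hudvd) hnd
    · exact hpos

end Cover

end Fermat.Agent.Good.Kum
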