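import Fermat.Agent.Good.H2Tensor
import Fermat.Agent.Good.RamDataCharts
import Fermat.Agent.Good.KummerCoverRam
import Fermat.Agent.Good.CuspLamModel
import Fermat.Agent.Good.CuspCoverFibre
import Fermat.Agent.Good.InstOddQ

/-!
# (H2c): the hypothesis (H2) for the cusp chart, in the auxiliary tensor model

Program L / L-GEN node [G-H2C].  Model (helper8's decision): `A0' = Kum.LamC ℤ_(ℓ)` acting on
`F = F_N` through `CuspGlue.lamAlgebraFull` (`w ↦ 1/j`), `R = Kum.RCov ℤ_(ℓ) N`,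
`E = F ⊗[LamC ℤ_(ℓ)] R`, `L` a fraction field of `R` with `Aux.algebraFrac`, `π = covPi N ℓ`.

* `awayAlgebra`, `awayAlgebra_isScalarTower`, `awayAlgebra_isFractionRing` : `A[1/π0] → Frac A`.
* `lamQToF`, `lamQAlgebraFull` : `LamC ℚ → F_N`, `w ↦ 1/j`; `lamQToF_lamMap` (compatibility with
  the `LamC ℤ_(ℓ)`-structure), `lamQToF_injective`.
* `hram_rat` : the (RAM) hypothesis of Abhyankar-lite for `A₀ = LamC ℚ`, `A₁ = RCov ℚ N`,
  `B₀ = integralClosure (LamC ℚ) F_N` (cover side `Kum.exists_ramData`, curve side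
  `RamDesc.ramCount_dvd_level` / `RamDesc.ramCount_eq_one_cusp_of_map`).
* `exists_basis_isIntegral_discr_dvd_pow` : **(H2c)**, for any fraction field `K₀` of
  `LamC ℤ_(ℓ)` inside `F_N` (with `F_N / K₀` finite) and any `ι` of cardinality `[F_N : K₀]`.

To state/use the main theorem activate
`attribute [local instance] Algebra.TensorProduct.rightAlgebra CuspGlue.lamAlgebraFull
  CuspCover.isDomain_rCov_zl CuspGlue.faithfulSMul_lam_full`.
-/

set_option autoImplicit false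
set_option linter.style.haveILetI false
set_option linter.unusedSectionVars false
set_option linter.unusedVariables false
set_option synthInstance.maxHeartbeats 400000

open ModularCurve ModularCurve.IgusaScheme TensorProduct IntermediateField Polynomial Module
open Fermat.Agent.Igusa Fermat.Agent.Good.Kum Fermat.Agent.Good.CuspGlue

namespace Fermat.Agent.Good.H2Cusp

section Away

variable {A A' : Type*} [CommRing A] [IsDomain A] [CommRing A'] [Algebra A A'] (π0 : A)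
  [IsLocalization.Away π0 A'] (K₀ : Type*) [Field K₀] [Algebra A K₀] [IsFractionRing A K₀]

theorem isUnit_algebraMap_of_ne_zero {a : A} (ha : a ≠ 0) : IsUnit (algebraMap A K₀ a) :=
  isUnit_iff_ne_zero.2 ((map_ne_zero_iff _ (IsFractionRing.injective A K₀)).2 ha)

/-- The structure map `A[1/π0] → Frac A`; use with `letI`. -/
@[reducible] noncomputable def awayAlgebra (hπ0 : π0 ≠ 0) : Algebra A' K₀ :=
  (IsLocalization.Away.lift (S := A') π0 (g := algebraMap A K₀)
    (isUnit_algebraMap_of_ne_zero K₀ hπ0)).toAlgebra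

theorem awayAlgebra_isScalarTower (hπ0 : π0 ≠ 0) :
    letI := awayAlgebra (A' := A') π0 K₀ hπ0
    IsScalarTower A A' K₀ := by
  letI := awayAlgebra (A' := A') π0 K₀ hπ0
  refine IsScalarTower.of_algebraMap_eq fun a => ?_
  exact (IsLocalization.Away.lift_eq π0 _ a).symm

theorem awayAlgebra_isFractionRing (hπ0 : π0 ≠ 0) :
    letI := awayAlgebra (A' := A') π0 K₀ hπ0
    IsFractionRing A' K₀ := by
  letI := awayAlgebra (A' := A') π0 K₀ hπ0
  haveI := awayAlgebra_isScalarTower (A' := A') π0 K₀ hπ0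
  exact IsFractionRing.isFractionRing_of_isDomain_of_isLocalization (Submonoid.powers π0) A' K₀

end Away

section QSide

variable (N : ℕ) [NeZero N]

set_option quotPrecheck false in
local notation "F" => ↥(modularFunctionFieldFull N)

/-- `1 - 1728 / j` is the image of `1 - 1728 X` under `X ↦ 1/j`. -/
theorem aeval_cLam_rat : aeval (jFull N)⁻¹ (cLam ℚ) = gFull N := by
  rw [cLam, map_sub, map_one, map_mul, aeval_X, aeval_C]
  have : algebraMap ℚ F 1728 = 1728 := map_ofNat (algebraMap ℚ F) 1728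
  rw [this]
  rfl

/-- `LamC ℚ → F_N`, `w ↦ 1/j`. -/
noncomputable def lamQToF : LamC ℚ →+* F :=
  IsLocalization.Away.lift (S := LamC ℚ) (cLam ℚ)
    (g := (aeval (jFull N)⁻¹ : ℚ[X] →ₐ[ℚ] F).toRingHom) (by
      show IsUnit (aeval (jFull N)⁻¹ (cLam ℚ))
      rw [aeval_cLam_rat]
      exact isUnit_iff_ne_zero.2 (gFull_ne_zero N))

theorem lamQToF_algebraMap (p : ℚ[X]) :
    lamQToF N (algebraMap ℚ[X] (LamC ℚ) p) = aeval (jFull N)⁻¹ p := by
  rw [lamQToF, IsLocalization.Away.lift_eq]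
  rfl

/-- The structure of `LamC ℚ`-algebra on `F_N`, `w ↦ 1/j`; use with `letI`. -/
@[reducible] noncomputable def lamQAlgebraFull : Algebra (LamC ℚ) F := (lamQToF N).toAlgebra

theorem lamQToF_injective : Function.Injective (lamQToF N) := by
  haveI : IsDomain (LamC ℚ) := inferInstance
  rw [injective_iff_map_eq_zero]
  intro a ha
  obtain ⟨⟨p, s⟩, hs⟩ := IsLocalization.surj (Submonoid.powers (cLam ℚ)) a
  simp only at hs
  have h1 : lamQToF N (algebraMap ℚ[X] (LamC ℚ) p) = 0 := by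
    rw [← hs, map_mul, ha, zero_mul]
  rw [lamQToF_algebraMap] at h1
  have hp : p = 0 := by
    by_contra hp
    exact ChartBaseAux.transcendental_jFull_inv_rat N ⟨p, hp, h1⟩
  rw [hp, map_zero] at hs
  have hunit : IsUnit (algebraMap ℚ[X] (LamC ℚ) (s : ℚ[X])) := IsLocalization.map_units _ s
  exact (hunit.mul_left_eq_zero).1 hs

variable (ℓ : ℕ) [Fact ℓ.Prime]

set_option quotPrecheck false in
local notation "ℤℓ" => ↥(GaloisRep.ratLocalizedAt ℓ)

/-- The `LamC ℚ`-structure on `F_N` extends the `LamC ℤ_(ℓ)`-structure. -/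
theorem lamQToF_lamMap (a : LamC ℤℓ) :
    lamQToF N (lamMap (algebraMap ℤℓ ℚ) a) = lamToF N ℓ a := by
  have h : (lamQToF N).comp (lamMap (algebraMap ℤℓ ℚ)) = lamToF N ℓ := by
    refine IsLocalization.ringHom_ext (Submonoid.powers (cLam ℤℓ)) (RingHom.ext fun p => ?_)
    simp only [RingHom.comp_apply]
    rw [lamMap, pawMap_algebraMap, lamQToF_algebraMap, lamToF_algebraMap,
      Polynomial.aeval_map_algebraMap]
  exact RingHom.congr_fun h a

end QSide

section Main

open Fermat.Agent.Good.RamDesc Fermat.Agent.Good.CuspCover Fermat.Agent.X0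

variable (N : ℕ) [NeZero N] (ℓ : ℕ) [Fact ℓ.Prime]

set_option quotPrecheck false in
local notation "F" => ↥(modularFunctionFieldFull N)

set_option quotPrecheck false in
local notation "ℤℓ" => ↥(GaloisRep.ratLocalizedAt ℓ)

attribute [local instance] Algebra.TensorProduct.rightAlgebra
attribute [local instance] lamAlgebraFull

omit [NeZero N] in
/-- `fullToBar` on polynomials in an arbitrary element. -/
theorem fullToBar_aeval' (x : F) (p : ℚ[X]) :
    fullToBar N (aeval x p) = aeval (fullToBar N x) (p.map (algebraMap ℚ Kb)) := by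
  induction p using Polynomial.induction_on' with
  | add p q hp hq => rw [map_add, map_add, Polynomial.map_add, map_add, hp, hq]
  | monomial n a =>
    rw [← C_mul_X_pow_eq_monomial, map_mul, map_pow, aeval_C, aeval_X, map_mul, map_pow,
      Polynomial.map_mul, Polynomial.map_pow, map_C, map_X, map_mul, map_pow, aeval_C, aeval_X,
      fullToBar_algebraMap]

theorem zlPrime_ne_zero : zlPrime ℓ ≠ 0 := by
  intro h
  have h1 := congrArg (fun x : ℤℓ => (x : ℚ)) h
  simp only [coe_zlPrime] at h1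
  have hℓ : ℓ.Prime := Fact.out
  exact hℓ.ne_zero (by exact_mod_cast h1)

attribute [local instance] lamQAlgebraFull
attribute [local instance] isDomain_rCov_zl
attribute [local instance] faithfulSMul_lam_full

omit [Fact ℓ.Prime] in
/-- **The hypothesis `hram` of Abhyankar-lite for the cusp chart over `ℚ`** (Kummer cover
`RCov ℚ N` over `LamC ℚ`, curve side `B₀ = integralClosure (LamC ℚ) F_N`). -/
theorem hram_rat [IsDedekindDomain ↥(integralClosure (LamC ℚ) F)]
    [Module.IsTorsionFree (LamC ℚ) ↥(integralClosure (LamC ℚ) F)] :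
    ∀ u : RCov ℚ N, Prime u → ∃ (ϖ : LamC ℚ) (w : RCov ℚ N) (m : ℕ), Prime ϖ ∧ 0 < m ∧
      algebraMap (LamC ℚ) (RCov ℚ N) ϖ = w * u ^ m ∧ ¬ u ∣ w ∧
      ∀ P : Ideal ↥(integralClosure (LamC ℚ) F), P.IsPrime →
        algebraMap (LamC ℚ) ↥(integralClosure (LamC ℚ) F) ϖ ∈ P → ramCount ϖ P ∣ m := by
  intro u hu
  obtain ⟨g, m, w', hirr, hmon, hc, hprime, hm, hfac, hnd, hN⟩ := Kum.exists_ramData ℚ N u hu
  refine ⟨algebraMap ℚ[X] (LamC ℚ) g, w', m, hprime, hm, hfac, hnd, ?_⟩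
  -- the embedding of `B₀` into `Fb N`
  set B₀ := ↥(integralClosure (LamC ℚ) F) with hB₀
  let ι0 : B₀ →+* Fb N := (fullToBar N).comp (algebraMap B₀ F)
  have hι0 : Function.Injective ι0 :=
    (fullToBar_injective N).comp Subtype.val_injective
  let ρ : ℚ →+* B₀ := (algebraMap (LamC ℚ) B₀).comp
    ((algebraMap ℚ[X] (LamC ℚ)).comp (C : ℚ →+* ℚ[X]))
  have himage : ∀ p : ℚ[X], ι0 (algebraMap (LamC ℚ) B₀ (algebraMap ℚ[X] (LamC ℚ) p)) =
      aeval (jBar N)⁻¹ (p.map (algebraMap ℚ Kb)) := by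
    intro p
    have h1 : algebraMap B₀ F (algebraMap (LamC ℚ) B₀ (algebraMap ℚ[X] (LamC ℚ) p)) =
        aeval (jFull N)⁻¹ p := by
      rw [← IsScalarTower.algebraMap_apply (LamC ℚ) B₀ F]
      exact lamQToF_algebraMap N p
    show fullToBar N (algebraMap B₀ F _) = _
    rw [h1, fullToBar_aeval', map_inv₀, fullToBar_jFull]
  have hg0 : algebraMap ℚ[X] (LamC ℚ) g ≠ 0 := hprime.ne_zero
  by_cases hX : g = X
  · rw [hN hX]
    refine ramCount_dvd_level N ι0 hι0 ρ hg0 ?_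
    rw [himage, hX, Polynomial.map_X, aeval_X]
  · intro P hP hmem
    have h1 := ramCount_eq_one_cusp_of_map N (algebraMap ℚ Kb) ι0 hι0 ρ hg0 g hirr.separable
      (Kum.eval_zero_ne_zero ℚ hirr hmon hX)
      (by
        have := Kum.eval_ne_zero_of_not_dvd_cLam ℚ hirr hc (by norm_num)
        rwa [one_div])
      (himage g) P hP hmem
    rw [h1]
    exact one_dvd m

/-- **(H2c)**: the hypothesis (H2) for the cusp chart, in the auxiliary tensor model
`E = F_N ⊗[LamC ℤ_(ℓ)] RCov ℤ_(ℓ) N`, `L` any fraction field of `RCov ℤ_(ℓ) N`, `K₀` any fraction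
field of `LamC ℤ_(ℓ)` inside `F_N`. -/
theorem exists_basis_isIntegral_discr_dvd_pow
    (K₀ : Type*) [Field K₀] [Algebra (LamC ℤℓ) K₀] [IsFractionRing (LamC ℤℓ) K₀] [Algebra K₀ F]
    [IsScalarTower (LamC ℤℓ) K₀ F] [FiniteDimensional K₀ F]
    (L : Type*) [Field L] [Algebra (RCov ℤℓ N) L] [IsFractionRing (RCov ℤℓ N) L]
    {ι : Type*} [Fintype ι] [DecidableEq ι] (hι : Fintype.card ι = Module.finrank K₀ F) :
    letI := Aux.algebraFrac (LamC ℤℓ) (RCov ℤℓ N) F L
    ∃ c' : Basis ι L (F ⊗[LamC ℤℓ] RCov ℤℓ N), (∀ i, IsIntegral (RCov ℤℓ N) (c' i)) ∧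
      ∃ d' : RCov ℤℓ N, algebraMap (RCov ℤℓ N) L d' = Algebra.discr L c' ∧
        ∃ m : ℕ, d' ∣ covPi N ℓ ^ m := by
  classical
  have hN : 0 < N := Nat.pos_of_ne_zero (NeZero.ne N)
  haveI locQ : IsLocalization.Away (zlPrime ℓ) ℚ := InstOdd.isLocalization_away_zlPrime_rat ℓ
  -- base side: `LamC ℚ = (LamC ℤ_(ℓ))[1/ℓ]`
  letI aLam : Algebra (LamC ℤℓ) (LamC ℚ) := (lamMap (algebraMap ℤℓ ℚ)).toAlgebra
  haveI locLam : IsLocalization.Away (lamConst ℤℓ (zlPrime ℓ)) (LamC ℚ) :=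
    isLocalization_away_lamC ℚ (zlPrime ℓ)
  have hπ0 : lamConst ℤℓ (zlPrime ℓ) ≠ 0 := by
    intro h0
    exact zlPrime_ne_zero ℓ (pawConst_injective (cLam_ne_zero ℤℓ) (h0.trans (map_zero _).symm))
  letI aK₀ : Algebra (LamC ℚ) K₀ := awayAlgebra (A' := LamC ℚ) (lamConst ℤℓ (zlPrime ℓ)) K₀ hπ0
  haveI tK₀ : IsScalarTower (LamC ℤℓ) (LamC ℚ) K₀ :=
    awayAlgebra_isScalarTower (A' := LamC ℚ) (lamConst ℤℓ (zlPrime ℓ)) K₀ hπ0
  haveI fK₀ : IsFractionRing (LamC ℚ) K₀ :=
    awayAlgebra_isFractionRing (A' := LamC ℚ) (lamConst ℤℓ (zlPrime ℓ)) K₀ hπ0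
  haveI tF : IsScalarTower (LamC ℚ) K₀ F := by
    have h : algebraMap (LamC ℚ) F = (algebraMap K₀ F).comp (algebraMap (LamC ℚ) K₀) := by
      refine IsLocalization.ringHom_ext (Submonoid.powers (lamConst ℤℓ (zlPrime ℓ)))
        (RingHom.ext fun a => ?_)
      simp only [RingHom.comp_apply]
      rw [← IsScalarTower.algebraMap_apply (LamC ℤℓ) (LamC ℚ) K₀,
        ← IsScalarTower.algebraMap_apply (LamC ℤℓ) K₀ F]
      exact lamQToF_lamMap N ℓ a
    exact IsScalarTower.of_algebraMap_eq fun a => RingHom.congr_fun h a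
  haveI pidLam : IsPrincipalIdealRing (LamC ℚ) := isPrincipalIdealRing_paw (cLam ℚ)
  haveI : CharZero K₀ := (algebraMap K₀ F).charZero
  haveI sep : Algebra.IsSeparable K₀ F := inferInstance
  -- the curve side
  haveI dedB : IsDedekindDomain ↥(integralClosure (LamC ℚ) F) :=
    integralClosure.isDedekindDomain (LamC ℚ) K₀ F
  haveI finB : Module.Finite (LamC ℚ) ↥(integralClosure (LamC ℚ) F) :=
    IsIntegralClosure.finite (LamC ℚ) K₀ F ↥(integralClosure (LamC ℚ) F)
  haveI fracB : IsFractionRing ↥(integralClosure (LamC ℚ) F) F :=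
    integralClosure.isFractionRing_of_finite_extension K₀ F
  haveI : FaithfulSMul (LamC ℚ) F :=
    (faithfulSMul_iff_algebraMap_injective _ _).mpr (lamQToF_injective N)
  haveI : Module.IsTorsionFree (LamC ℚ) F := inferInstance
  haveI tfB : Module.IsTorsionFree (LamC ℚ) ↥(integralClosure (LamC ℚ) F) :=
    IsIntegralClosure.isTorsionFree (LamC ℚ) F
  -- cover side: `RCov ℚ N = (RCov ℤ_(ℓ) N)[1/ℓ]`
  haveI domA₁ : IsDomain (RCov ℚ N) := isDomain_rCov ℚ hN
  haveI pidA₁ : IsPrincipalIdealRing (RCov ℚ N) := isPrincipalIdealRing_paw (cCov ℚ N)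
  letI aCov : Algebra (RCov ℤℓ N) (RCov ℚ N) := (covMap N (algebraMap ℤℓ ℚ)).toAlgebra
  haveI locCov : IsLocalization.Away (covPi N ℓ) (RCov ℚ N) := by
    rw [covPi_eq_covConst]
    exact isLocalization_away_rCov N ℚ (zlPrime ℓ)
  have hπ : covPi N ℓ ≠ 0 := (prime_covPi N ℓ).ne_zero
  letI aA₁L : Algebra (RCov ℚ N) L := awayAlgebra (A' := RCov ℚ N) (covPi N ℓ) L hπ
  haveI tA₁L : IsScalarTower (RCov ℤℓ N) (RCov ℚ N) L :=
    awayAlgebra_isScalarTower (A' := RCov ℚ N) (covPi N ℓ) L hπ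
  haveI fA₁L : IsFractionRing (RCov ℚ N) L :=
    awayAlgebra_isFractionRing (A' := RCov ℚ N) (covPi N ℓ) L hπ
  letI aA0'A₁ : Algebra (LamC ℤℓ) (RCov ℚ N) :=
    ((algebraMap (LamC ℚ) (RCov ℚ N)).comp (algebraMap (LamC ℤℓ) (LamC ℚ))).toAlgebra
  haveI t1 : IsScalarTower (LamC ℤℓ) (LamC ℚ) (RCov ℚ N) := .of_algebraMap_eq fun _ => rfl
  haveI t2 : IsScalarTower (LamC ℤℓ) (RCov ℤℓ N) (RCov ℚ N) := .of_algebraMap_eq fun a => by
    show algebraMap (LamC ℚ) (RCov ℚ N) (lamMap (algebraMap ℤℓ ℚ) a) =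
      covMap N (algebraMap ℤℓ ℚ) (algebraMap (LamC ℤℓ) (RCov ℤℓ N) a)
    rw [covMap_algebraMap]
  exact H2T.exists_basis_tensor_isIntegral_discr_dvd_pow (LamC ℤℓ) (RCov ℤℓ N) F L ℚ
    ↥(integralClosure (LamC ℚ) F) K₀ (covPi N ℓ) (hram_rat N) hι

end Main

end Fermat.Agent.Good.H2Cusp
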