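import Mathlib
import Fermat.Agent.Good.CuspQuot
import Fermat.Agent.Good.AuxRetract
import Fermat.Agent.Good.H2Cusp
import Fermat.Agent.Good.CuspDisc
import Fermat.Agent.Good.CuspChart

/-!
# Program L (S18), L-GEN, node [G-INST-CUSP]: the cusp chart chain, instantiated

`IsIntegrallyClosed (chartAlgInfC N ℓ ⊗[ℤ_(ℓ)] k)` for `ℓ ∤ N` and `k` a field of characteristic
`ℓ`: instantiation of `CuspQuot.isIntegrallyClosed_tensor_of_cover` at `O = ℤ_(ℓ)`, `p = ℓ`,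
`R = RCov ℤ_(ℓ) N`, `L = Frac R`, `E = F_N ⊗[LamC ℤ_(ℓ)] R` (AUX model), `A = chartAlgInfC N ℓ`,
`Λ₀ = LamC ℤ_(ℓ)`, with (H1c) = `CuspGlue.h1c_rCov`, (H2c) = `H2Cusp.exists_basis_…`, the
retraction `AuxRet.rho` (`proj = covProj`, `u = 1/N`) and the fibres of `Good/CuspCoverFibre.lean`.
-/

set_option autoImplicit false
set_option linter.style.haveILetI false
set_option linter.unusedSectionVars false
set_option synthInstance.maxHeartbeats 400000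

open ModularCurve ModularCurve.IgusaScheme TensorProduct IntermediateField Polynomial Module
open Fermat.Agent.Igusa Fermat.Agent.Good.Kum Fermat.Agent.Good.CuspGlue
open Fermat.Agent.Good.CuspCover

namespace Fermat.Agent.Good.CuspInstH7

variable (N : ℕ) [NeZero N] (ℓ : ℕ) [Fact ℓ.Prime]

set_option quotPrecheck false in
local notation "ℤℓ" => ↥(GaloisRep.ratLocalizedAt ℓ)

set_option quotPrecheck false in
local notation "F" => ↥(modularFunctionFieldFull N)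

attribute [local instance] Algebra.TensorProduct.rightAlgebra lamAlgebraFull lamAlgebraInfC
  isDomain_rCov_zl faithfulSMul_lam_full

/-! ### Preliminaries -/

theorem isScalarTower_zl_lam_rCov : IsScalarTower ℤℓ (LamC ℤℓ) (RCov ℤℓ N) :=
  IsScalarTower.of_algebraMap_eq fun a => by
    rw [algebraMap_zl_rCov, algebraMap_zl_lamC, algebraMap_lamConst]

variable {N ℓ} in
/-- `1/N` in `LamC ℤ_(ℓ)`. -/
noncomputable def invNLam (hℓN : ¬ ℓ ∣ N) : LamC ℤℓ :=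
  algebraMap ℤℓ (LamC ℤℓ) (CuspChart.invN hℓN)

variable {N ℓ} in
theorem invNLam_mul (hℓN : ¬ ℓ ∣ N) : invNLam hℓN * (N : LamC ℤℓ) = 1 := by
  have h1 : CuspChart.invN hℓN * (N : ℤℓ) = 1 := by
    have hinj : Function.Injective (algebraMap ℤℓ F) := by
      have h : (algebraMap ℤℓ F) = (algebraMap ℚ F).comp (algebraMap ℤℓ ℚ) := rfl
      rw [h]
      exact (algebraMap ℚ F).injective.comp Subtype.val_injective
    apply hinj
    rw [map_mul, map_natCast, CuspChart.algebraMap_invN_mul hℓN, map_one]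
  rw [invNLam, ← map_natCast (algebraMap ℤℓ (LamC ℤℓ)), ← map_mul, h1, map_one]

variable {N ℓ} in
theorem invNLam_mul_trace (hℓN : ¬ ℓ ∣ N) (r : RCov ℤℓ N) :
    invNLam hℓN * Algebra.trace (LamC ℤℓ) (RCov ℤℓ N) r = covProj ℤℓ (N_pos' N) r := by
  rw [trace_eq_smul_covProj ℤℓ (N_pos' N), ← mul_assoc, invNLam_mul, one_mul]

/-- The cusp chart algebra is the integral closure of `LamC ℤ_(ℓ)` in `F_N`. -/
theorem isIntegralClosure_infC : IsIntegralClosure ↥(chartAlgInfC N ℓ) (LamC ℤℓ) F where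
  algebraMap_injective := Subtype.val_injective
  isIntegral_iff := by
    intro x
    rw [← mem_chartAlgInfC_iff_isIntegral_lam]
    exact ⟨fun h => ⟨⟨x, h⟩, rfl⟩, fun ⟨y, hy⟩ => hy ▸ y.2⟩

/-! ### The instantiation -/

open Fermat.Agent.Good.S28X in
/-- **Normality of the special fibre of the cusp chart.** -/
theorem isIntegrallyClosed_tensor_infC (hℓN : ¬ ℓ ∣ N) (k : Type*) [Field k] [CharP k ℓ]
    [Algebra (GaloisRep.ratLocalizedAt ℓ) k] :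
    IsIntegrallyClosed (↥(chartAlgInfC N ℓ) ⊗[ℤℓ] k) := by
  classical
  -- the rings
  haveI : IsIntegrallyClosed (RCov ℤℓ N) := isIntegrallyClosed_rCov_zl N ℓ
  haveI : IsNoetherianRing (RCov ℤℓ N) := isNoetherianRing_rCov_zl N ℓ
  haveI tZLR : IsScalarTower ℤℓ (LamC ℤℓ) (RCov ℤℓ N) := isScalarTower_zl_lam_rCov N ℓ
  haveI tZLF : IsScalarTower ℤℓ (LamC ℤℓ) F := isScalarTower_zl_lam_full N ℓ
  haveI tZLA : IsScalarTower ℤℓ (LamC ℤℓ) ↥(chartAlgInfC N ℓ) := isScalarTower_zl_lam_infC N ℓ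
  haveI tLAF : IsScalarTower (LamC ℤℓ) ↥(chartAlgInfC N ℓ) F := isScalarTower_lam_infC_full N ℓ
  haveI icA : IsIntegralClosure ↥(chartAlgInfC N ℓ) (LamC ℤℓ) F := isIntegralClosure_infC N ℓ
  haveI intA : Algebra.IsIntegral (LamC ℤℓ) ↥(chartAlgInfC N ℓ) := isIntegral_lam_infC N ℓ
  -- the fraction fields
  letI aK0 : Algebra (LamC ℤℓ) ↥ℚ⟮jFull N⟯ := lamAlgebraQj N ℓ
  haveI tK0 : IsScalarTower (LamC ℤℓ) ↥ℚ⟮jFull N⟯ F := isScalarTower_lam_qj_full N ℓ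
  haveI fK0 : IsFractionRing (LamC ℤℓ) ↥ℚ⟮jFull N⟯ := isFractionRing_lam_qj N ℓ
  haveI fdK0 : FiniteDimensional ↥ℚ⟮jFull N⟯ F := finiteDimensional_full N
  -- the auxiliary algebra
  letI aLE : Algebra (FractionRing (RCov ℤℓ N)) (F ⊗[LamC ℤℓ] RCov ℤℓ N) :=
    Aux.algebraFrac (LamC ℤℓ) (RCov ℤℓ N) F (FractionRing (RCov ℤℓ N))
  haveI tRLE : IsScalarTower (RCov ℤℓ N) (FractionRing (RCov ℤℓ N)) (F ⊗[LamC ℤℓ] RCov ℤℓ N) :=
    Aux.isScalarTower_frac (LamC ℤℓ) (RCov ℤℓ N) F (FractionRing (RCov ℤℓ N))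
  haveI tORE : IsScalarTower ℤℓ (RCov ℤℓ N) (F ⊗[LamC ℤℓ] RCov ℤℓ N) := by
    refine IsScalarTower.of_algebraMap_eq fun a => ?_
    rw [Algebra.TensorProduct.algebraMap_apply, Aux.algebraMap_right_apply,
      IsScalarTower.algebraMap_apply ℤℓ (LamC ℤℓ) F, Aux.algebraMap_tmul_one,
      ← IsScalarTower.algebraMap_apply ℤℓ (LamC ℤℓ) (RCov ℤℓ N)]
  -- the fibres of the cover ring
  have hpk : algebraMap ℤℓ k (zlPrime ℓ) = 0 := InstOdd.algebraMap_zlPrime ℓ k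
  have hπ : Prime (algebraMap ℤℓ (RCov ℤℓ N) (zlPrime ℓ)) := prime_covPi N ℓ
  haveI : IsDomain (RCov ℤℓ N ⧸ Ideal.span {algebraMap ℤℓ (RCov ℤℓ N) (zlPrime ℓ)}) :=
    isDomain_rCov_quotient N ℓ
  haveI : IsPrincipalIdealRing
      (RCov ℤℓ N ⧸ Ideal.span {algebraMap ℤℓ (RCov ℤℓ N) (zlPrime ℓ)}) :=
    isPrincipalIdealRing_rCov_quotient_zl N ℓ
  haveI : IsDomain (RCov ℤℓ N ⊗[ℤℓ] k) := isDomain_rCov_tensor N ℓ k
  haveI : IsPrincipalIdealRing (RCov ℤℓ N ⊗[ℤℓ] k) := isPrincipalIdealRing_rCov_tensor N ℓ k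
  have hnf : ¬ IsField (RCov ℤℓ N ⊗[ℤℓ] k) := not_isField_rCov_tensor N ℓ k
  -- (H1c)
  obtain ⟨b, hb, d, hd, hdvd⟩ := h1c_rCov N ℓ hℓN ↥ℚ⟮jFull N⟯
  have hc : ∀ i, IsIntegral (RCov ℤℓ N)
      (Aux.auxBasis (LamC ℤℓ) (RCov ℤℓ N) F (FractionRing (RCov ℤℓ N)) b i) := by
    intro i
    rw [Aux.auxBasis_apply, Aux.isIntegral_tmul_one_iff]
    exact (mem_chartAlgInfC_iff_isIntegral_lam N ℓ _).mp (hb i)
  have hdc : algebraMap (RCov ℤℓ N) (FractionRing (RCov ℤℓ N))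
      (algebraMap (LamC ℤℓ) (RCov ℤℓ N) d) =
      Algebra.discr (FractionRing (RCov ℤℓ N))
        (Aux.auxBasis (LamC ℤℓ) (RCov ℤℓ N) F (FractionRing (RCov ℤℓ N)) b) :=
    (Aux.discr_auxBasis (LamC ℤℓ) (RCov ℤℓ N) F (FractionRing (RCov ℤℓ N)) b d hd).symm
  -- (H2c)
  have hι : Fintype.card (Fin (dedekindPsi N)) = Module.finrank ↥ℚ⟮jFull N⟯ F := by
    rw [Fintype.card_fin, finrank_full_eq_dedekindPsi]
  obtain ⟨c', hc', dc', hdc', m, hm⟩ :=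
    H2Cusp.exists_basis_isIntegral_discr_dvd_pow N ℓ ↥ℚ⟮jFull N⟯
      (FractionRing (RCov ℤℓ N)) hι
  -- the chart algebra and the retraction
  haveI : IsDomain (↥(chartAlgInfC N ℓ) ⊗[ℤℓ] k) := isDomain_tensor_infC N ℓ hℓN k
  letI aAB : Algebra ↥(chartAlgInfC N ℓ) (integralClosure (RCov ℤℓ N) (F ⊗[LamC ℤℓ] RCov ℤℓ N)) :=
    AuxRet.inclAlgebra (LamC ℤℓ) (RCov ℤℓ N) F ↥(chartAlgInfC N ℓ)
  haveI tOAB : IsScalarTower ℤℓ ↥(chartAlgInfC N ℓ)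
      (integralClosure (RCov ℤℓ N) (F ⊗[LamC ℤℓ] RCov ℤℓ N)) := by
    refine IsScalarTower.of_algebraMap_eq fun a => Subtype.ext ?_
    show algebraMap ℤℓ (F ⊗[LamC ℤℓ] RCov ℤℓ N) a =
      (algebraMap ℤℓ F a) ⊗ₜ[LamC ℤℓ] (1 : RCov ℤℓ N)
    rw [Algebra.TensorProduct.algebraMap_apply]
  exact CuspQuot.isIntegrallyClosed_tensor_of_cover (zlPrime ℓ) (Λ₀ := LamC ℤℓ) hpk hπ hnf
    (Aux.auxBasis (LamC ℤℓ) (RCov ℤℓ N) F (FractionRing (RCov ℤℓ N)) b) hc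
    (algebraMap (LamC ℤℓ) (RCov ℤℓ N) d) hdc hdvd c' hc' dc' hdc' m hm
    (AuxRet.rho ↥(chartAlgInfC N ℓ) (covProj ℤℓ (N_pos' N)) (invNLam hℓN)
      (invNLam_mul_trace hℓN))
    (AuxRet.rho_algebraMap ↥(chartAlgInfC N ℓ) (covProj ℤℓ (N_pos' N))
      (covProj_algebraMap ℤℓ (N_pos' N)) (invNLam hℓN) (invNLam_mul_trace hℓN))
    (AuxRet.inclHom_algebraMap (LamC ℤℓ) (RCov ℤℓ N) F ↥(chartAlgInfC N ℓ))

end Fermat.Agent.Good.CuspInstH7
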