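import Mathlib
import Fermat.Agent.Good.CuspChartModel
import Fermat.Agent.Good.InstOdd

/-!
# Program L (S18), L-GEN: normality of the special fibre of the chart at infinity

`chartAlgInf N ℓ ⊗[ℤ_(ℓ)] k` is integrally closed as soon as the special fibres of the finite chart
`chartAlgFin N ℓ` and of the cusp chart `chartAlgInfC N ℓ = chartAlgInf[1/(1 - 1728/j)]` are
(`CuspGlue.isIntegrallyClosed_inf_tensor_of_fin_infC`).  This file records the statement with
explicit (non-instance) hypotheses, and plugs the finite chart for `ℓ` odd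
(`InstOdd.isIntegrallyClosed_tensor_fin`).
-/

set_option autoImplicit false
set_option linter.style.haveILetI false
set_option linter.unusedSectionVars false

open ModularCurve ModularCurve.IgusaScheme TensorProduct
open Fermat.Agent.Good.CuspGlue

namespace Fermat.Agent.Good.NormalInf

variable (N : ℕ) [NeZero N] (ℓ : ℕ) [Fact ℓ.Prime]

set_option quotPrecheck false in
local notation "ℤℓ" => ↥(GaloisRep.ratLocalizedAt ℓ)

set_option synthInstance.maxHeartbeats 400000

/-- **Normality of the chart at infinity from the finite chart and the cusp chart**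
(explicit hypotheses). -/
theorem isIntegrallyClosed_tensor_inf_of (hℓN : ¬ ℓ ∣ N) (k : Type*) [Field k] [CharP k ℓ]
    [Algebra (GaloisRep.ratLocalizedAt ℓ) k]
    (hfin : IsIntegrallyClosed (↥(chartAlgFin N ℓ) ⊗[ℤℓ] k))
    (hcusp : IsIntegrallyClosed (↥(chartAlgInfC N ℓ) ⊗[ℤℓ] k)) :
    IsIntegrallyClosed (↥(chartAlgInf N ℓ) ⊗[ℤℓ] k) :=
  isIntegrallyClosed_inf_tensor_of_fin_infC N ℓ hℓN k

/-- **`ℓ` odd**: the chart at infinity is normal on the special fibre as soon as the cusp chart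
is. -/
theorem isIntegrallyClosed_tensor_inf_odd (hℓN : ¬ ℓ ∣ N) (hℓ2 : ℓ ≠ 2)
    (k : Type*) [Field k] [IsAlgClosed k] [CharP k ℓ] [Algebra (GaloisRep.ratLocalizedAt ℓ) k]
    (hcusp : IsIntegrallyClosed (↥(chartAlgInfC N ℓ) ⊗[ℤℓ] k)) :
    IsIntegrallyClosed (↥(chartAlgInf N ℓ) ⊗[ℤℓ] k) :=
  isIntegrallyClosed_tensor_inf_of N ℓ hℓN k
    (InstOdd.isIntegrallyClosed_tensor_fin N ℓ hℓN hℓ2 k) hcusp

/-- **Both charts at once** (the shape consumed by the chart bridge): from the two normality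
statements `fin` and `InfC`. -/
theorem isIntegrallyClosed_tensor_fin_and_inf_of (hℓN : ¬ ℓ ∣ N) (k : Type*) [Field k]
    [CharP k ℓ] [Algebra (GaloisRep.ratLocalizedAt ℓ) k]
    (hfin : IsIntegrallyClosed (↥(chartAlgFin N ℓ) ⊗[ℤℓ] k))
    (hcusp : IsIntegrallyClosed (↥(chartAlgInfC N ℓ) ⊗[ℤℓ] k)) :
    IsIntegrallyClosed (↥(chartAlgFin N ℓ) ⊗[ℤℓ] k) ∧
      IsIntegrallyClosed (↥(chartAlgInf N ℓ) ⊗[ℤℓ] k) :=
  ⟨hfin, isIntegrallyClosed_tensor_inf_of N ℓ hℓN k hfin hcusp⟩

end Fermat.Agent.Good.NormalInf
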