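import Mathlib
import Fermat.Agent.Good.NormalInf
import Fermat.Agent.Good.CuspQuotInstH7
import Fermat.Agent.Good.InstFinAll

/-!
# Program L (S18), L-GEN: normality of the special fibres of both charts, unconditionally

For every prime `ℓ ∤ N` and every algebraically closed field `k` of characteristic `ℓ` with
`[Algebra ℤ_(ℓ) k]`:

* `isIntegrallyClosed_tensor_infC_all` : the cusp chart `chartAlgInfC N ℓ ⊗ k` is normal
  (`CuspInstH7.isIntegrallyClosed_tensor_infC`; `k` need not be algebraically closed);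
* `isIntegrallyClosed_tensor_inf_all` : the chart at infinity `chartAlgInf N ℓ ⊗ k` is normal
  (finite chart `isIntegrallyClosed_tensor_fin_all` + cusp chart + the glue `CuspGlue`).
-/

set_option autoImplicit false
set_option linter.style.haveILetI false
set_option linter.unusedSectionVars false

open ModularCurve ModularCurve.IgusaScheme TensorProduct
open Fermat.Agent.Good.CuspGlue

namespace Fermat.Agent.Good

set_option synthInstance.maxHeartbeats 400000

/-- **Normality of the special fibre of the cusp chart, every prime `ℓ ∤ N`.** -/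
theorem isIntegrallyClosed_tensor_infC_all (N : ℕ) [NeZero N] (ℓ : ℕ) [Fact ℓ.Prime]
    (hℓN : ¬ ℓ ∣ N) (k : Type*) [Field k] [CharP k ℓ]
    [Algebra ↥(GaloisRep.ratLocalizedAt ℓ) k] :
    IsIntegrallyClosed (↥(chartAlgInfC N ℓ) ⊗[↥(GaloisRep.ratLocalizedAt ℓ)] k) :=
  CuspInstH7.isIntegrallyClosed_tensor_infC N ℓ hℓN k

/-- **Normality of the special fibre of the chart at infinity, every prime `ℓ ∤ N`.** -/
theorem isIntegrallyClosed_tensor_inf_all (N : ℕ) [NeZero N] (ℓ : ℕ) [Fact ℓ.Prime]
    (hℓN : ¬ ℓ ∣ N) (k : Type*) [Field k] [IsAlgClosed k] [CharP k ℓ]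
    [Algebra ↥(GaloisRep.ratLocalizedAt ℓ) k] :
    IsIntegrallyClosed (↥(chartAlgInf N ℓ) ⊗[↥(GaloisRep.ratLocalizedAt ℓ)] k) :=
  NormalInf.isIntegrallyClosed_tensor_inf_of N ℓ hℓN k
    (isIntegrallyClosed_tensor_fin_all N ℓ hℓN k)
    (CuspInstH7.isIntegrallyClosed_tensor_infC N ℓ hℓN k)

end Fermat.Agent.Good
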