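import Fermat.Agent.X0.ModFinal

/-!
# L-GEN node [G-RAM], part 1: ramification bounds for `j` on `X₀(N)` over `ℚ̄`, place by place

The S24 closure (`X0/ModFinalCore`) proves, together with the counts of places over
`j = 0, 1728, ∞`, the individual divisibility statements; they were not exported.  Here they are:

* `ord_jBar_dvd_three`        : `0 < v.ord j → v.ord j ∣ 3`;
* `ord_jBar_sub_1728_dvd_two` : `0 < v.ord (j - 1728) → v.ord (j - 1728) ∣ 2`;
* `ord_jBar_sub_le_one'`      : `a ≠ 0, 1728 → v.ord (j - a) ≤ 1` (re-export);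
* `neg_ord_jBar_dvd_level`    : `v.ord j < 0 → (- v.ord j) ∣ N`.
-/

set_option autoImplicit false

namespace Fermat.Agent.Good.RamBar

open AlgebraicCurve IntermediateField ModularCurve MulAction Function UpperHalfPlane
open Fermat.Agent.X0
open scoped MatrixGroups

variable (N : ℕ) [NeZero N]

/-- Over `j = 0` every ramification index divides `3`. -/
theorem ord_jBar_dvd_three (v : Place Kb (Fb N)) (hv : 0 < v.ord (jBar N)) :
    v.ord (jBar N) ∣ (3 : ℤ) := by
  have key := (card_placesOver_of_wPt N (jBar_isSepVar N) (thetaC_injective_cosets N) 0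
    UpperHalfPlane.ρ (ModularGroup.S * ModularGroup.T) 3 (by norm_num) ST_smul_ρ
    (modST_cube_smul_coset N) (wPt_jBar_sub_ρ N) (wPt_dvd_ρ N)).2 v
  simp only [map_zero, sub_zero] at key
  exact_mod_cast key hv

/-- Over `j = 1728` every ramification index divides `2`. -/
theorem ord_jBar_sub_1728_dvd_two (v : Place Kb (Fb N))
    (hv : 0 < v.ord (jBar N - algebraMap Kb (Fb N) 1728)) :
    v.ord (jBar N - algebraMap Kb (Fb N) 1728) ∣ (2 : ℤ) := by
  have key := (card_placesOver_of_wPt N (jBar_isSepVar N) (thetaC_injective_cosets N) 1728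
    UpperHalfPlane.I ModularGroup.S 2 two_pos S_smul_I
    (modS_sq_smul_coset N) (wPt_jBar_sub_I N) (wPt_dvd_I N)).2 v
  exact_mod_cast key hv

/-- `j` is unramified outside `0, 1728, ∞` (re-export of `X0.ord_jBar_sub_le_one`). -/
theorem ord_jBar_sub_le_one' (v : Place Kb (Fb N)) (a : Kb) (h0 : a ≠ 0) (h1 : a ≠ 1728) :
    v.ord (jBar N - algebraMap Kb (Fb N) a) ≤ 1 :=
  ord_jBar_sub_le_one N v a h0 h1

/-- At the cusps every ramification index (pole order of `j`) divides the level `N`. -/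
theorem neg_ord_jBar_dvd_level (v : Place Kb (Fb N)) (hv : v.ord (jBar N) < 0) :
    (- v.ord (jBar N)) ∣ (N : ℤ) := by
  classical
  let _ : Fintype (SL(2, ℤ) ⧸ CongruenceSubgroup.Gamma0 N) := Fintype.ofFinite _
  have hsep := jBar_isSepVar N
  have hdist := thetaC_injective_cosets N
  have : FiniteDimensional Kb⟮jBar N⟯ (Fb N) := hsep.finite
  have hcard : Fintype.card (SL(2, ℤ) ⧸ CongruenceSubgroup.Gamma0 N) =
      Module.finrank Kb⟮jBar N⟯ (Fb N) := by
    rw [fintype_card_cosets, hsep.finrank_eq]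
  have hN : 0 < N := Nat.pos_of_ne_zero (NeZero.ne N)
  set x : Fb N := (jBar N)⁻¹ with hxdef
  have hxsep : IsSepVar Kb x (dedekindPsi N) := isSepVar_inv hsep
  have hx0 : x ≠ 0 := by
    intro h0
    exact hxsep.transcendental (h0 ▸ isAlgebraic_zero)
  have hE : Kb⟮jBar N⟯ ≤ Kb⟮x⟯ := (adjoin_simple_inv (jBar N)).ge
  have key := card_places_eq_card_orbits (K := Kb) (F := Fb N) hxsep
    (C := SL(2, ℤ) ⧸ CongruenceSubgroup.Gamma0 N) (fintype_card_cosets N)
    (MulAction.toPerm ModularGroup.T) N hN (toPerm_T_pow_eq_one N) (wInf N)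
    (wInf_mul N) (wInf_add N) (wInf_const N) (wInf_x N) (wInf_eps N)
    (fun c k hk hfix f hf => wInf_div N c k hk hfix f hf)
    (fun f hf hpos v hv => by
      let c₀ : SL(2, ℤ) ⧸ CongruenceSubgroup.Gamma0 N := ((1 : SL(2, ℤ)) : _)
      have hW := isValLike_wInf N c₀
      have hy : 0 < wInf N c₀ x := by
        rw [wInf_x N c₀]
        exact_mod_cast hN
      have hfint : IsIntegral Kb⟮jBar N⟯ f :=
        (Algebra.IsIntegral.of_finite Kb⟮jBar N⟯ (Fb N)).isIntegral f
      refine ord_nonneg_of_minpoly_coeff hW hx0 hy Kb⟮jBar N⟯ hE hfint (fun i => ?_) v hv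
      rcases coeff_minpoly_wInf_nonneg N hcard hdist hf hpos i with h | h
      · exact Or.inl h
      · exact Or.inr (h c₀))
  have h2 := key.2 v
  rw [hxdef, Place.ord_inv] at h2
  exact h2 (by omega)

end Fermat.Agent.Good.RamBar
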