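import Fermat.Agent.Good.GenTop
import Fermat.Agent.Good.GenusNormalChartsConst

/-!
# L-GEN: the two lifting properties `LiftsFin`, `LiftsInf` from the chart bridge

`Good/GenTop.lean` reduces `Red.GenDeliverable N A` (hence S18) to the two Props `LiftsFin`,
`LiftsInf`.  Here they are derived, in hypothesis form, from the outputs of the chart bridge:
a set `B` of Gauss-integral elements of `F̄_N` (the image of `chartAlgFin`, resp. `chartAlgInf`),
regular outside the poles (resp. zeros) of `j`, whose residues span over `k` the integral closure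
of `k[j̃]` (resp. `k[j̃⁻¹]`) in `F̃_N` (normality of the special fibre of the chart).

* `lifts_poleDiv_of_span`, `lifts_zeroDiv_of_span` : the abstract statements over a `Val.ConstRed`;
* `liftsFin_of_bridge`, `liftsInf_of_bridge` : `LiftsFin N hℓN A hA`, `LiftsInf N hℓN A hA`;
* `genDeliverable_of_bridge` : `Red.GenDeliverable N A`.
-/

set_option autoImplicit false
set_option linter.style.haveILetI false
set_option linter.unusedSectionVars false

open AlgebraicCurve

namespace Fermat.Agent.Good.GenusCharts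

open Fermat.Agent.Red Fermat.Agent.X0 Fermat.Agent.Val

section Abstract

variable {K F k Ft : Type*} [Field K] [Field F] [Algebra K F] [Field k] [Field Ft]
  [Algebra k Ft] {A : ValuationSubring K} {π : A →+* k}

/-- **(N1) from a spanning chart**, `ConstRed` form; `x` and `xt` need not be related. -/
theorem lifts_poleDiv_of_span (S : ConstRed (F := F) (Ft := Ft) A π)
    (hπ : Function.Surjective π) (hF : RiemannPkg K F) (hFt : RiemannPkg k Ft)
    {x : F} {xt : Ft} (hpolet : ∃ Q : Place k Ft, Q.ord xt < 0)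
    (B : Set F) (hBO : ∀ b ∈ B, b ∈ S.O) (hB : ∀ b ∈ B, PolesAtPoles K x b)
    (hint : ∀ ft : Ft, IsIntegral (Algebra.adjoin k {xt}) ft →
      ft ∈ Submodule.span k (S.resF '' B)) :
    haveI := hF.principal; haveI := hFt.principal
    ∀ t : Ft, (∃ s : ℕ, t ∈ riemannRochSpace (s • poleDiv k xt)) →
      ∃ s : ℕ, ∃ f ∈ riemannRochSpace (s • poleDiv K x), ∃ hf : f ∈ S.O, S.res ⟨f, hf⟩ = t := by
  haveI := hF.principal
  haveI := hFt.principal
  rintro t ⟨s, hs⟩
  have hP : PolesAtPoles k xt t := polesAtPoles_of_mem hs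
  obtain ⟨s', f, hf, hfO, hft⟩ :=
    exists_lift_of_mem_span_constRed S hπ (poleDiv_nonneg x) B hBO (fun b hb => by
      refine exists_mem_nsmul_of_poles (poleDiv_nonneg x) fun P hP => ?_
      rw [poleDiv_apply]
      exact lt_max_of_lt_right (by have := hB b hb P hP; omega))
      (hint t (isIntegral_of_polesAtPoles hFt hpolet hP))
  exact ⟨s', f, hf, hfO, by rw [← S.resF_of_mem hfO]; exact hft⟩

/-- **(N2) from a spanning chart**, `ConstRed` form. -/
theorem lifts_zeroDiv_of_span (S : ConstRed (F := F) (Ft := Ft) A π)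
    (hπ : Function.Surjective π) (hF : RiemannPkg K F) (hFt : RiemannPkg k Ft)
    {x : F} {xt : Ft} (hzerot : ∃ Q : Place k Ft, 0 < Q.ord xt)
    (B : Set F) (hBO : ∀ b ∈ B, b ∈ S.O) (hB : ∀ b ∈ B, PolesAtZeros K x b)
    (hint : ∀ ft : Ft, IsIntegral (Algebra.adjoin k {xt⁻¹}) ft →
      ft ∈ Submodule.span k (S.resF '' B)) :
    haveI := hF.principal; haveI := hFt.principal
    ∀ t : Ft, (∃ s : ℕ, t ∈ riemannRochSpace (s • zeroDiv k xt)) →
      ∃ s : ℕ, ∃ f ∈ riemannRochSpace (s • zeroDiv K x), ∃ hf : f ∈ S.O, S.res ⟨f, hf⟩ = t := by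
  haveI := hF.principal
  haveI := hFt.principal
  rintro t ⟨s, hs⟩
  have hP : PolesAtZeros k xt t := by
    intro Q hQ
    have h1 := pos_of_mem_nsmul hs Q hQ
    rw [zeroDiv_apply] at h1
    by_contra hcon
    exact h1 (max_eq_left (by omega))
  obtain ⟨s', f, hf, hfO, hft⟩ :=
    exists_lift_of_mem_span_constRed S hπ (zeroDiv_nonneg x) B hBO (fun b hb => by
      refine exists_mem_nsmul_of_poles (zeroDiv_nonneg x) fun P hP => ?_
      rw [zeroDiv_apply]
      exact lt_max_of_lt_right (hB b hb P hP))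
      (hint t (isIntegral_of_polesAtZeros hFt hzerot hP))
  exact ⟨s', f, hf, hfO, by rw [← S.resF_of_mem hfO]; exact hft⟩

/-- A function whose polar divisor has positive degree has a pole. -/
theorem exists_pole_of_degree_poleDiv_pos [HasPrincipalDivisors k Ft] {xt : Ft}
    (h : 0 < Divisor.degree (poleDiv k xt)) : ∃ Q : Place k Ft, Q.ord xt < 0 := by
  apply Classical.byContradiction
  intro hcon
  push Not at hcon
  have h0 : poleDiv k xt = 0 := by
    ext Q
    rw [poleDiv_apply, Finsupp.zero_apply, max_eq_left (by have := hcon Q; omega)]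
  rw [h0, map_zero] at h
  exact lt_irrefl _ h

end Abstract

section Modular

open ModularCurve IsLocalRing Fermat.Agent.Good

set_option synthInstance.maxHeartbeats 400000

variable (N : ℕ) [NeZero N] {ℓ : ℕ} [hℓ : Fact ℓ.Prime] (hℓN : ¬ ℓ ∣ N)
variable (A : ValuationSubring (AlgebraicClosure ℚ)) (hA : A.LiesOverPrime ℓ)

include hℓN hA in
theorem exists_pole_jFullC :
    ∃ Q : Place (ResidueField A) (modularFunctionFieldFullC (ResidueField A) N),
      Q.ord (Val.jFullC (ResidueField A) N) < 0 := by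
  haveI := (Val.riemannPkg_modL_residueField N hℓN A hA).principal
  apply exists_pole_of_degree_poleDiv_pos
  rw [degree_poleDiv_jFullC N hℓN A hA]
  exact_mod_cast (Val.jBar_isSepVarS N).pos

/-- **`LiftsFin` from the chart bridge.** -/
theorem liftsFin_of_bridge (Bf : Set (modularFunctionFieldBar N))
    (hBO : ∀ b ∈ Bf, b ∈ (Val.constRedBar N hℓN A hA).O)
    (hB : ∀ b ∈ Bf, PolesAtPoles (AlgebraicClosure ℚ) (jBar N) b)
    (hint : ∀ ft : modularFunctionFieldFullC (ResidueField A) N,
      IsIntegral (Algebra.adjoin (ResidueField A) {Val.jFullC (ResidueField A) N}) ft →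
      ft ∈ Submodule.span (ResidueField A) ((Val.constRedBar N hℓN A hA).resF '' Bf)) :
    LiftsFin N hℓN A hA :=
  lifts_poleDiv_of_span (Val.constRedBar N hℓN A hA) (Val.residue_surjective' A)
    (Val.riemannPkg_bar N) (Val.riemannPkg_modL_residueField N hℓN A hA)
    (exists_pole_jFullC N hℓN A hA) Bf hBO hB hint

/-- **`LiftsInf` from the chart bridge.** -/
theorem liftsInf_of_bridge (Bi : Set (modularFunctionFieldBar N))
    (hBO : ∀ b ∈ Bi, b ∈ (Val.constRedBar N hℓN A hA).O)
    (hB : ∀ b ∈ Bi, PolesAtZeros (AlgebraicClosure ℚ) (jBar N) b)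
    (hint : ∀ ft : modularFunctionFieldFullC (ResidueField A) N,
      IsIntegral (Algebra.adjoin (ResidueField A) {(Val.jFullC (ResidueField A) N)⁻¹}) ft →
      ft ∈ Submodule.span (ResidueField A) ((Val.constRedBar N hℓN A hA).resF '' Bi)) :
    LiftsInf N hℓN A hA :=
  lifts_zeroDiv_of_span (Val.constRedBar N hℓN A hA) (Val.residue_surjective' A)
    (Val.riemannPkg_bar N) (Val.riemannPkg_modL_residueField N hℓN A hA)
    (exists_zero_of_exists_pole (Val.riemannPkg_modL_residueField N hℓN A hA)
      (exists_pole_jFullC N hℓN A hA)) Bi hBO hB hint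

/-- **(I6) from the chart bridge**: `Red.GenDeliverable N A`. -/
theorem genDeliverable_of_bridge (Bf Bi : Set (modularFunctionFieldBar N))
    (hBfO : ∀ b ∈ Bf, b ∈ (Val.constRedBar N hℓN A hA).O)
    (hBiO : ∀ b ∈ Bi, b ∈ (Val.constRedBar N hℓN A hA).O)
    (hBf : ∀ b ∈ Bf, PolesAtPoles (AlgebraicClosure ℚ) (jBar N) b)
    (hBi : ∀ b ∈ Bi, PolesAtZeros (AlgebraicClosure ℚ) (jBar N) b)
    (hintf : ∀ ft : modularFunctionFieldFullC (ResidueField A) N,
      IsIntegral (Algebra.adjoin (ResidueField A) {Val.jFullC (ResidueField A) N}) ft →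
      ft ∈ Submodule.span (ResidueField A) ((Val.constRedBar N hℓN A hA).resF '' Bf))
    (hinti : ∀ ft : modularFunctionFieldFullC (ResidueField A) N,
      IsIntegral (Algebra.adjoin (ResidueField A) {(Val.jFullC (ResidueField A) N)⁻¹}) ft →
      ft ∈ Submodule.span (ResidueField A) ((Val.constRedBar N hℓN A hA).resF '' Bi)) :
    GenDeliverable N A :=
  genDeliverable N hℓN A hA (liftsFin_of_bridge N hℓN A hA Bf hBfO hBf hintf)
    (liftsInf_of_bridge N hℓN A hA Bi hBiO hBi hinti)

end Modular

end Fermat.Agent.Good.GenusCharts
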