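import Mathlib
import Fermat.Agent.Red.RRReduction
import Fermat.Agent.Red.FFLemmas

/-!
# Program L / L-GEN: the ending — genus inequality from lifting of sections

`Good.genusFF_le_of_chart_lifts` : let `S` be a `Red.RedSetup` (valued function field `F/K`
with residue function field `Ft/k`), `x ∈ F` with `div x = D0 - D` (`D, D0 ≥ 0`, `deg D > 0`),
nonzero residue `xt`, and assume that the reductions `r_* D`, `r_* D0` are disjoint.  If

* (N1) every function on the special fibre which is regular outside `r_* D` is the residue of an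
  integral function regular outside `D`, and
* (N2) the same for `D0`

(this is what *normality of the special fibres of the two charts* `X ∖ D`, `X ∖ D0` gives), then
`genusFF K F ≤ genusFF k Ft`.

The proof is pure Riemann–Roch linear algebra on the special fibre:
`L~((s+1) Dt) = L~(s Dt) + xt · L~(s Dt)` for `s ≥ s₀` (dimension count), hence
`L~((s₀+m) Dt)` is spanned by the `xt^i τ`, `i ≤ m`, `τ ∈ L~(s₀ Dt)`, and each of these lifts to
`L((s₀+m) D) ∩ O` for `m` large, using chart 1 for small `i` and chart 2 for large `i`.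
-/

set_option autoImplicit false

namespace Fermat.Agent.Good

open AlgebraicCurve Module Fermat.Agent.Red

section FunctionField

variable {K F : Type*} [Field K] [Field F] [Algebra K F]

lemma place_ord_pow (P : Place K F) (f : F) (n : ℕ) : P.ord (f ^ n) = n * P.ord f := by
  have := P.ord_zpow f n
  simpa using this

lemma nsmul_divisor_apply (s : ℕ) (D : Divisor K F) (P : Place K F) :
    (s • D) P = (s : ℤ) * D P := by
  rw [Finsupp.smul_apply, nsmul_eq_mul]

variable {x : F} {D D0 : Divisor K F}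

/-- `f ∈ L(sD)` ⇒ `x^i f ∈ L((s+i)D)` when `div x ≥ -D`. -/
lemma pow_mul_mem_riemannRochSpace (hD0 : 0 ≤ D0) (hdiv : ∀ P, P.ord x = D0 P - D P) (hx : x ≠ 0)
    (i s : ℕ) {f : F} (hf : f ∈ riemannRochSpace (s • D)) :
    x ^ i * f ∈ riemannRochSpace ((s + i) • D) := by
  rw [mem_riemannRochSpace_iff] at hf ⊢
  intro P
  rcases hf P with h0 | h1
  · left; rw [h0, mul_zero]
  · by_cases hf0 : f = 0
    · left; rw [hf0, mul_zero]
    right
    rw [P.ord_mul (pow_ne_zero i hx) hf0, place_ord_pow, hdiv, nsmul_divisor_apply]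
    rw [nsmul_divisor_apply] at h1
    have h0 : 0 ≤ D0 P := hD0 P
    push_cast
    nlinarith [mul_nonneg (Nat.cast_nonneg (α := ℤ) i) h0]

/-- `g ∈ L(b D0)`, `b ≤ e` ⇒ `x^e g ∈ L(e D)`. -/
lemma pow_mul_mem_riemannRochSpace' (hD0 : 0 ≤ D0) (hdiv : ∀ P, P.ord x = D0 P - D P)
    (hx : x ≠ 0) {b e : ℕ} (hbe : b ≤ e) {g : F} (hg : g ∈ riemannRochSpace (b • D0)) :
    x ^ e * g ∈ riemannRochSpace (e • D) := by
  rw [mem_riemannRochSpace_iff] at hg ⊢
  intro P
  rcases hg P with h0 | h1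
  · left; rw [h0, mul_zero]
  · by_cases hg0 : g = 0
    · left; rw [hg0, mul_zero]
    right
    rw [P.ord_mul (pow_ne_zero e hx) hg0, place_ord_pow, hdiv, nsmul_divisor_apply]
    rw [nsmul_divisor_apply] at h1
    have h0 : 0 ≤ D0 P := hD0 P
    have hbe' : (b : ℤ) ≤ e := by exact_mod_cast hbe
    nlinarith [mul_nonneg (sub_nonneg.mpr hbe') h0]

/-- `f ∈ L(sD)` ⇒ `f / x^s ∈ L(s D0)`. -/
lemma mul_inv_pow_mem_riemannRochSpace (hD : 0 ≤ D) (hdiv : ∀ P, P.ord x = D0 P - D P)
    (hx : x ≠ 0) (s : ℕ) {f : F} (hf : f ∈ riemannRochSpace (s • D)) :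
    f * (x ^ s)⁻¹ ∈ riemannRochSpace (s • D0) := by
  rw [mem_riemannRochSpace_iff] at hf ⊢
  intro P
  rcases hf P with h0 | h1
  · left; rw [h0, zero_mul]
  · by_cases hf0 : f = 0
    · left; rw [hf0, zero_mul]
    right
    rw [P.ord_mul hf0 (inv_ne_zero (pow_ne_zero s hx)), P.ord_inv, place_ord_pow, hdiv,
      nsmul_divisor_apply]
    rw [nsmul_divisor_apply] at h1
    have _h0 : 0 ≤ D P := hD P
    nlinarith

/-- `f, x f ∈ L((s+1)D)` ⇒ `f ∈ L(sD)` when the zeros and poles of `x` are `D0`, `D` (disjoint). -/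
lemma mem_riemannRochSpace_of_mul_mem (hdiv : ∀ P, P.ord x = D0 P - D P)
    (hdisj : ∀ P, D P = 0 ∨ D0 P = 0) (hx : x ≠ 0) (s : ℕ) {f : F}
    (hf : f ∈ riemannRochSpace ((s + 1) • D)) (hxf : x * f ∈ riemannRochSpace ((s + 1) • D)) :
    f ∈ riemannRochSpace (s • D) := by
  rw [mem_riemannRochSpace_iff] at hf hxf ⊢
  intro P
  by_cases hf0 : f = 0
  · exact Or.inl hf0
  right
  have h1 := (hf P).resolve_left hf0
  have h2 := (hxf P).resolve_left (mul_ne_zero hx hf0)
  rw [P.ord_mul hx hf0, hdiv] at h2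
  rw [nsmul_divisor_apply] at h1 h2 ⊢
  push_cast at h1 h2
  rcases hdisj P with h | h
  · rw [h] at h1 ⊢
    linarith
  · rw [h] at h2
    linarith

lemma nsmul_divisor_mono (hD : 0 ≤ D) {s t : ℕ} (hst : s ≤ t) : s • D ≤ t • D := by
  intro P
  rw [nsmul_divisor_apply, nsmul_divisor_apply]
  have h0 : 0 ≤ D P := hD P
  have : (s : ℤ) ≤ t := by exact_mod_cast hst
  nlinarith

lemma degree_nsmul (s : ℕ) (D : Divisor K F) :
    Divisor.degree (s • D) = (s : ℤ) * Divisor.degree D := by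
  rw [map_nsmul, nsmul_eq_mul]

/-- **Graded generation.** For `s` large, `L((s+1)D) = L(sD) + x · L(sD)`. -/
theorem riemannRochSpace_succ_eq_sup (hpkg : RiemannPkg K F) (hD : 0 ≤ D) (hD0 : 0 ≤ D0)
    (hdiv : ∀ P, P.ord x = D0 P - D P) (hdisj : ∀ P, D P = 0 ∨ D0 P = 0) (hx : x ≠ 0)
    (hdeg : 0 < Divisor.degree D) :
    ∃ s0 : ℕ, ∀ s : ℕ, s0 ≤ s →
      riemannRochSpace ((s + 1) • D) =
        riemannRochSpace (s • D) ⊔ (riemannRochSpace (s • D)).map (LinearMap.mulLeft K x) := by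
  obtain ⟨c, hc⟩ := hpkg.riemann_eq
  refine ⟨c.toNat + 1, fun s hs => ?_⟩
  obtain ⟨t, rfl⟩ : ∃ t, s = t + 1 := ⟨s - 1, by omega⟩
  have ht : c ≤ (t : ℤ) := by
    have : c.toNat ≤ t := by omega
    have h2 : c ≤ (c.toNat : ℤ) := Int.self_le_toNat c
    exact h2.trans (by exact_mod_cast this)
  set n := Divisor.degree D with hn
  have hn1 : 1 ≤ n := hdeg
  have hdeg_t : c ≤ Divisor.degree (t • D) := by
    rw [degree_nsmul]
    have : (0 : ℤ) ≤ t := Nat.cast_nonneg t
    nlinarith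
  have hdeg_t1 : c ≤ Divisor.degree ((t + 1) • D) := by
    rw [degree_nsmul]
    have : (0 : ℤ) ≤ t := Nat.cast_nonneg t
    push_cast
    nlinarith
  have hdeg_t2 : c ≤ Divisor.degree ((t + 1 + 1) • D) := by
    rw [degree_nsmul]
    have : (0 : ℤ) ≤ t := Nat.cast_nonneg t
    push_cast
    nlinarith
  have e0 := hc _ hdeg_t
  have e1 := hc _ hdeg_t1
  have e2 := hc _ hdeg_t2
  rw [degree_nsmul] at e0 e1 e2
  have := hpkg.finite_L (t • D)
  have := hpkg.finite_L ((t + 1) • D)
  have := hpkg.finite_L ((t + 1 + 1) • D)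
  have hinj : Function.Injective (LinearMap.mulLeft K x) := by
    intro a b hab
    exact mul_left_cancel₀ hx hab
  set V := riemannRochSpace ((t + 1) • D) with hV
  set V' := V.map (LinearMap.mulLeft K x) with hV'
  have hle : V ⊔ V' ≤ riemannRochSpace ((t + 1 + 1) • D) := by
    refine sup_le (riemannRochSpace_mono (nsmul_divisor_mono hD (Nat.le_succ _))) ?_
    rintro _ ⟨f, hf, rfl⟩
    have := pow_mul_mem_riemannRochSpace hD0 hdiv hx 1 (t + 1) hf
    simpa using this
  have hV'dim : finrank K V' = finrank K V :=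
    (LinearEquiv.finrank_eq (Submodule.equivMapOfInjective _ hinj V)).symm
  have hinf : V ⊓ V' ≤ (riemannRochSpace (t • D)).map (LinearMap.mulLeft K x) := by
    rintro y ⟨hy1, f, hf, rfl⟩
    exact ⟨f, mem_riemannRochSpace_of_mul_mem hdiv hdisj hx t hf hy1, rfl⟩
  have hinfdim : finrank K (V ⊓ V' : Submodule K F) ≤ finrank K (riemannRochSpace (t • D)) := by
    have h1 : finrank K ((riemannRochSpace (t • D)).map (LinearMap.mulLeft K x)) =
        finrank K (riemannRochSpace (t • D)) :=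
      (LinearEquiv.finrank_eq (Submodule.equivMapOfInjective _ hinj _)).symm
    rw [← h1]
    exact Submodule.finrank_mono hinf
  have hsum := Submodule.finrank_sup_add_finrank_inf_eq V V'
  symm
  apply Submodule.eq_of_le_of_finrank_le hle
  have : (finrank K (riemannRochSpace ((t + 1 + 1) • D)) : ℤ) ≤ (finrank K (V ⊔ V' : Submodule K F) : ℤ) := by
    have h3 : (finrank K (V ⊔ V' : Submodule K F) : ℤ) + (finrank K (V ⊓ V' : Submodule K F) : ℤ) =
        (finrank K V : ℤ) + (finrank K V' : ℤ) := by exact_mod_cast hsum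
    have h4 : (finrank K (V ⊓ V' : Submodule K F) : ℤ) ≤ (finrank K (riemannRochSpace (t • D)) : ℤ) := by
      exact_mod_cast hinfdim
    rw [hV'dim] at h3
    push_cast at e0 e1 e2
    rw [e2]
    rw [e1] at h3
    rw [e0] at h4
    linarith
  exact_mod_cast this

/-- For `s₀` large, `L((s₀+m)D)` is spanned by the `x^i τ`, `i ≤ m`, `τ ∈ L(s₀ D)`. -/
theorem riemannRochSpace_add_le_span (hpkg : RiemannPkg K F) (hD : 0 ≤ D) (hD0 : 0 ≤ D0)
    (hdiv : ∀ P, P.ord x = D0 P - D P) (hdisj : ∀ P, D P = 0 ∨ D0 P = 0) (hx : x ≠ 0)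
    (hdeg : 0 < Divisor.degree D) :
    ∃ s0 : ℕ, ∀ m : ℕ, riemannRochSpace ((s0 + m) • D) ≤
      Submodule.span K {y | ∃ i ≤ m, ∃ τ ∈ riemannRochSpace (s0 • D), y = x ^ i * τ} := by
  obtain ⟨s0, hs0⟩ := riemannRochSpace_succ_eq_sup hpkg hD hD0 hdiv hdisj hx hdeg
  refine ⟨s0, fun m => ?_⟩
  induction m with
  | zero =>
    intro f hf
    exact Submodule.subset_span ⟨0, le_rfl, f, hf, by rw [pow_zero, one_mul]⟩
  | succ m ih =>
    have hmono : Submodule.span K {y | ∃ i ≤ m, ∃ τ ∈ riemannRochSpace (s0 • D), y = x ^ i * τ} ≤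
        Submodule.span K {y | ∃ i ≤ m + 1, ∃ τ ∈ riemannRochSpace (s0 • D), y = x ^ i * τ} := by
      apply Submodule.span_mono
      rintro y ⟨i, hi, τ, hτ, rfl⟩
      exact ⟨i, Nat.le_succ_of_le hi, τ, hτ, rfl⟩
    rw [← add_assoc, hs0 (s0 + m) (Nat.le_add_right _ _)]
    refine sup_le (ih.trans hmono) ?_
    rw [Submodule.map_le_iff_le_comap]
    refine ih.trans ?_
    rw [Submodule.span_le]
    rintro y ⟨i, hi, τ, hτ, rfl⟩
    rw [SetLike.mem_coe, Submodule.mem_comap, LinearMap.mulLeft_apply]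
    refine Submodule.subset_span ⟨i + 1, Nat.succ_le_succ hi, τ, hτ, ?_⟩
    rw [pow_succ]; ring

/-- A function regular outside the support of `D ≥ 0` lies in `L(sD)` for `s` large. -/
theorem exists_nsmul_mem_riemannRochSpace (hpkg : RiemannPkg K F) (hD : 0 ≤ D) (y : F)
    (hy : ∀ P : Place K F, D P = 0 → 0 ≤ P.ord y) : ∃ s : ℕ, y ∈ riemannRochSpace (s • D) := by
  have := hpkg.principal
  refine ⟨(divOf K y).support.sup fun P => (P.ord y).natAbs, ?_⟩
  rw [mem_riemannRochSpace_iff]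
  intro P
  right
  rw [nsmul_divisor_apply]
  by_cases hP : D P = 0
  · rw [hP, mul_zero, neg_zero]
    exact hy P hP
  · have hDP : 1 ≤ D P := by
      have h0 : 0 ≤ D P := hD P
      omega
    by_cases hord : P.ord y = 0
    · rw [hord]
      have : (0 : ℤ) ≤ (((divOf K y).support.sup fun P => (P.ord y).natAbs : ℕ) : ℤ) :=
        Nat.cast_nonneg _
      nlinarith
    · have hmem : P ∈ (divOf K y).support := by
        rw [Finsupp.mem_support_iff, divOf_apply]; exact hord
      have hle : (P.ord y).natAbs ≤ (divOf K y).support.sup fun P => (P.ord y).natAbs :=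
        Finset.le_sup (f := fun P : Place K F => (P.ord y).natAbs) hmem
      have hle' : ((P.ord y).natAbs : ℤ) ≤
          (((divOf K y).support.sup fun P => (P.ord y).natAbs : ℕ) : ℤ) := by exact_mod_cast hle
      have habs : -((P.ord y).natAbs : ℤ) ≤ P.ord y := by
        have := neg_abs_le (P.ord y)
        rwa [Int.abs_eq_natAbs] at this
      have h0 : (0 : ℤ) ≤ ((P.ord y).natAbs : ℤ) := Nat.cast_nonneg _
      nlinarith

/-- **Disjointness from the degree of the polar divisor.** If `div x = D0 - D` with `D, D0 ≥ 0`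
and the polar divisor `Pinf` of `x` has the same degree as `D`, then `D` and `D0` are disjoint
(and `D = Pinf`). -/
theorem disjoint_of_degree_polar (hpkg : RiemannPkg K F) (hD : 0 ≤ D) (hD0 : 0 ≤ D0)
    (hdiv : ∀ P, P.ord x = D0 P - D P) (Pinf : Divisor K F)
    (hPinf : ∀ P, Pinf P = max 0 (-P.ord x)) (hdeg : Divisor.degree Pinf = Divisor.degree D) :
    ∀ P, D P = 0 ∨ D0 P = 0 := by
  have hE : 0 ≤ D - Pinf := by
    intro P
    rw [Finsupp.zero_apply, Finsupp.sub_apply, hPinf, hdiv]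
    have h1 : 0 ≤ D P := hD P
    have h2 : 0 ≤ D0 P := hD0 P
    rcases le_total 0 (-(D0 P - D P)) with h | h
    · rw [max_eq_right h]; linarith
    · rw [max_eq_left h]; linarith
  have hE0 : D - Pinf = 0 :=
    eq_zero_of_nonneg_of_degree_eq_zero hpkg hE (by rw [map_sub, hdeg, sub_self])
  intro P
  have := congrArg (fun E : Divisor K F => E P) hE0
  simp only [Finsupp.sub_apply, Finsupp.zero_apply, hPinf, hdiv] at this
  have h1 : 0 ≤ D P := hD P
  have h2 : 0 ≤ D0 P := hD0 P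
  rcases le_total 0 (-(D0 P - D P)) with h | h
  · rw [max_eq_right h] at this
    right; linarith
  · rw [max_eq_left h] at this
    left; linarith

end FunctionField

section Cover

/-- A finite-dimensional subspace covered by an increasing sequence of subspaces lies in one of
them. -/
theorem exists_le_of_forall_exists_mem {k V : Type*} [Field k] [AddCommGroup V] [Module k V]
    (W : Submodule k V) [FiniteDimensional k W] (R : ℕ → Submodule k V) (hR : Monotone R)
    (h : ∀ t ∈ W, ∃ s, t ∈ R s) : ∃ s, W ≤ R s := by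
  classical
  let b := Module.finBasis k W
  choose a ha using fun i => h (b i : V) (b i).2
  refine ⟨Finset.univ.sup a, ?_⟩
  intro w hw
  have hrepr := b.sum_repr ⟨w, hw⟩
  have hw' : w = ∑ i, (b.repr ⟨w, hw⟩ i) • (b i : V) := by
    conv_lhs => rw [show w = ((⟨w, hw⟩ : W) : V) from rfl, ← hrepr]
    rw [Submodule.coe_sum]
    rfl
  rw [hw']
  refine Submodule.sum_mem _ fun i _ => Submodule.smul_mem _ _ ?_
  exact hR (Finset.le_sup (Finset.mem_univ i)) (ha i)

end Cover

section Main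

variable {K F k Ft : Type*} [Field K] [Field F] [Algebra K F] [Field k] [Field Ft]
  [Algebra k Ft] {A : ValuationSubring K} {π : A →+* k}

/-- **Genus inequality from lifting of sections (normal charts).** -/
theorem genusFF_le_of_chart_lifts (S : RedSetup (F := F) (Ft := Ft) A π)
    (hπ : Function.Surjective π) (hF : RiemannPkg K F) (hFt : RiemannPkg k Ft)
    (D D0 : Divisor K F) (hD : 0 ≤ D) (hD0 : 0 ≤ D0) (hdeg : 0 < Divisor.degree D)
    (x : F) (hx : S.resF x ≠ 0) (hxdiv : ∀ P, P.ord x = D0 P - D P)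
    (hdisj : ∀ Q, Finsupp.mapDomain S.r D Q = 0 ∨ Finsupp.mapDomain S.r D0 Q = 0)
    (N1 : ∀ t : Ft, (∃ s : ℕ, t ∈ riemannRochSpace (s • Finsupp.mapDomain S.r D)) →
      ∃ s : ℕ, ∃ y ∈ riemannRochSpace (s • D), y ∈ S.O ∧ S.resF y = t)
    (N2 : ∀ t : Ft, (∃ s : ℕ, t ∈ riemannRochSpace (s • Finsupp.mapDomain S.r D0)) →
      ∃ s : ℕ, ∃ y ∈ riemannRochSpace (s • D0), y ∈ S.O ∧ S.resF y = t) :
    genusFF K F ≤ genusFF k Ft := by
  classical
  -- notation
  have hxO : x ∈ S.O := S.mem_of_resF_ne_zero hx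
  have hx0 : x ≠ 0 := S.ne_zero_of_resF_ne_zero hx
  set xt := S.resF x with hxt
  set Dt := Finsupp.mapDomain S.r D with hDt
  set D0t := Finsupp.mapDomain S.r D0 with hD0t
  have hDt0 : 0 ≤ Dt := Finsupp.mapDomain_nonneg hD
  have hD0t0 : 0 ≤ D0t := Finsupp.mapDomain_nonneg hD0
  have hdegt : 0 < Divisor.degree Dt := by rw [hDt, S.degree_mapDomain]; exact hdeg
  -- conservation: `div xt = D0t - Dt`
  have hdivt : ∀ Q, Q.ord xt = D0t Q - Dt Q := by
    intro Q
    have h := S.mapDomain_div_apply hx (D0 - D)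
      (fun P => by rw [Finsupp.sub_apply, hxdiv]) Q
    rw [← h]
    have : Finsupp.mapDomain S.r (D0 - D) = D0t - Dt :=
      (Finsupp.mapDomain.addMonoidHom S.r).map_sub D0 D
    rw [this, Finsupp.sub_apply]
  -- graded generation on the special fibre
  obtain ⟨s0, hs0⟩ := riemannRochSpace_add_le_span hFt hDt0 hD0t0 hdivt hdisj hx hdegt
  -- the residue spaces
  let R : ℕ → Submodule k Ft := fun s => S.resSpace hπ (riemannRochSpace (s • D))
  let R' : ℕ → Submodule k Ft := fun s => S.resSpace hπ (riemannRochSpace (s • D0))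
  have hRmono : Monotone R := fun s t hst =>
    S.resSpace_mono hπ (riemannRochSpace_mono (nsmul_divisor_mono hD hst))
  have hR'mono : Monotone R' := fun s t hst =>
    S.resSpace_mono hπ (riemannRochSpace_mono (nsmul_divisor_mono hD0 hst))
  -- chart 1: `L~(s0 Dt) ≤ R a`
  have := hFt.finite_L (s0 • Dt)
  obtain ⟨a, ha⟩ := exists_le_of_forall_exists_mem (riemannRochSpace (s0 • Dt)) R hRmono
    (fun t ht => by
      obtain ⟨s, y, hy, hyO, hyt⟩ := N1 t ⟨s0, ht⟩
      exact ⟨s, y, hy, hyO, hyt⟩)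
  -- chart 2: `L~(s0 Dt) / xt^s0 ≤ R' b`
  obtain ⟨b, hb⟩ := exists_le_of_forall_exists_mem
    ((riemannRochSpace (s0 • Dt)).map (LinearMap.mulRight k (xt ^ s0)⁻¹)) R' hR'mono
    (by
      rintro _ ⟨τ, hτ, rfl⟩
      have hmem := mul_inv_pow_mem_riemannRochSpace hDt0 hdivt hx s0 hτ
      obtain ⟨s, y, hy, hyO, hyt⟩ := N2 _ ⟨s0, hmem⟩
      exact ⟨s, y, hy, hyO, by rw [hyt]; rfl⟩)
  -- the level
  obtain ⟨c, hc⟩ := hF.riemann_eq
  obtain ⟨c', hc'⟩ := hFt.riemann_eq
  set M := a + b + (max c c').toNat with hM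
  -- every generator lifts at level `s0 + M`
  have hkey : riemannRochSpace ((s0 + M) • Dt) ≤ R (s0 + M) := by
    refine (hs0 M).trans ?_
    rw [Submodule.span_le]
    rintro _ ⟨i, hi, τ, hτ, rfl⟩
    by_cases hib : b ≤ i + s0
    · -- chart 2
      obtain ⟨g, hg, hgO, hgt⟩ := hb ⟨τ, hτ, rfl⟩
      refine ⟨x ^ (i + s0) * g, ?_, S.O.mul_mem _ _ (pow_mem hxO _) hgO, ?_⟩
      · have h1 := pow_mul_mem_riemannRochSpace' hD0 hxdiv hx0 hib hg
        exact riemannRochSpace_mono (nsmul_divisor_mono hD (by omega)) h1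
      · rw [S.resF_mul (pow_mem hxO _) hgO, S.resF_pow hxO, hgt, LinearMap.mulRight_apply]
        have hxt0 : xt ≠ 0 := hx
        rw [pow_add]
        field_simp
        rw [← hxt]
        ring
    · -- chart 1
      obtain ⟨f, hf, hfO, hft⟩ := ha hτ
      refine ⟨x ^ i * f, ?_, S.O.mul_mem _ _ (pow_mem hxO _) hfO, ?_⟩
      · have h1 := pow_mul_mem_riemannRochSpace hD0 hxdiv hx0 i a hf
        exact riemannRochSpace_mono (nsmul_divisor_mono hD (by omega)) h1
      · rw [S.resF_mul (pow_mem hxO _) hfO, S.resF_pow hxO, hft]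
  -- dimension count
  have := hF.finite_L ((s0 + M) • D)
  have := hFt.finite_L ((s0 + M) • Dt)
  have h1 : finrank k (riemannRochSpace ((s0 + M) • Dt)) ≤ finrank K (riemannRochSpace ((s0 + M) • D)) :=
    (Submodule.finrank_mono hkey).trans (S.finrank_resSpace_le hπ _)
  have hn1 : 1 ≤ Divisor.degree D := hdeg
  have hlevel : max c c' ≤ ((s0 + M : ℕ) : ℤ) := by
    have h2 : max c c' ≤ ((max c c').toNat : ℤ) := Int.self_le_toNat _
    have h3 : ((max c c').toNat : ℤ) ≤ ((s0 + M : ℕ) : ℤ) := by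
      have : (max c c').toNat ≤ s0 + M := by omega
      exact_mod_cast this
    exact h2.trans h3
  have hdegD : max c c' ≤ Divisor.degree ((s0 + M) • D) := by
    rw [degree_nsmul]
    have : (0 : ℤ) ≤ ((s0 + M : ℕ) : ℤ) := Nat.cast_nonneg _
    nlinarith
  have e1 := hc ((s0 + M) • D) ((le_max_left _ _).trans hdegD)
  have e2 := hc' ((s0 + M) • Dt) (by
    rw [degree_nsmul, hDt, S.degree_mapDomain, ← degree_nsmul]
    exact (le_max_right _ _).trans hdegD)
  rw [degree_nsmul] at e1 e2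
  rw [hDt, S.degree_mapDomain] at e2
  have h1' : (finrank k (riemannRochSpace ((s0 + M) • Dt)) : ℤ) ≤
      (finrank K (riemannRochSpace ((s0 + M) • D)) : ℤ) := by exact_mod_cast h1
  rw [hDt, e1, e2] at h1'
  have : (genusFF K F : ℤ) ≤ (genusFF k Ft : ℤ) := by linarith
  exact_mod_cast this

/-- Variant of `genusFF_le_of_chart_lifts` with the lifting hypotheses phrased through the poles
and zeros of the residue `xt = res x`:
(N1') every `t` regular outside the poles of `xt` lifts to an integral function regular outside `D`;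
(N2') every `t` regular outside the zeros of `xt` lifts to an integral function regular outside
`D0`. -/
theorem genusFF_le_of_chart_lifts' (S : RedSetup (F := F) (Ft := Ft) A π)
    (hπ : Function.Surjective π) (hF : RiemannPkg K F) (hFt : RiemannPkg k Ft)
    (D D0 : Divisor K F) (hD : 0 ≤ D) (hD0 : 0 ≤ D0) (hdeg : 0 < Divisor.degree D)
    (x : F) (hx : S.resF x ≠ 0) (hxdiv : ∀ P, P.ord x = D0 P - D P)
    (hdisj : ∀ Q, Finsupp.mapDomain S.r D Q = 0 ∨ Finsupp.mapDomain S.r D0 Q = 0)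
    (N1 : ∀ t : Ft, (∀ Q : Place k Ft, 0 ≤ Q.ord (S.resF x) → 0 ≤ Q.ord t) →
      ∃ s : ℕ, ∃ y ∈ riemannRochSpace (s • D), y ∈ S.O ∧ S.resF y = t)
    (N2 : ∀ t : Ft, (∀ Q : Place k Ft, Q.ord (S.resF x) ≤ 0 → 0 ≤ Q.ord t) →
      ∃ s : ℕ, ∃ y ∈ riemannRochSpace (s • D0), y ∈ S.O ∧ S.resF y = t) :
    genusFF K F ≤ genusFF k Ft := by
  have hDt0 : 0 ≤ Finsupp.mapDomain S.r D := Finsupp.mapDomain_nonneg hD
  have hD0t0 : 0 ≤ Finsupp.mapDomain S.r D0 := Finsupp.mapDomain_nonneg hD0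
  have hdivt : ∀ Q, Q.ord (S.resF x) = Finsupp.mapDomain S.r D0 Q - Finsupp.mapDomain S.r D Q := by
    intro Q
    have h := S.mapDomain_div_apply hx (D0 - D)
      (fun P => by rw [Finsupp.sub_apply, hxdiv]) Q
    rw [← h]
    have : Finsupp.mapDomain S.r (D0 - D) = Finsupp.mapDomain S.r D0 - Finsupp.mapDomain S.r D :=
      (Finsupp.mapDomain.addMonoidHom S.r).map_sub D0 D
    rw [this, Finsupp.sub_apply]
  refine genusFF_le_of_chart_lifts S hπ hF hFt D D0 hD hD0 hdeg x hx hxdiv hdisj ?_ ?_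
  · rintro t ⟨s, ht⟩
    refine N1 t fun Q hQ => ?_
    rw [mem_riemannRochSpace_iff] at ht
    rcases ht Q with h0 | h1
    · rw [h0, Place.ord_zero]
    · rw [nsmul_divisor_apply] at h1
      have hQ0 : Finsupp.mapDomain S.r D Q = 0 := by
        rcases hdisj Q with h | h
        · exact h
        · rw [hdivt, h] at hQ
          have := hDt0 Q
          rw [Finsupp.zero_apply] at this
          linarith
      rw [hQ0] at h1
      linarith
  · rintro t ⟨s, ht⟩
    refine N2 t fun Q hQ => ?_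
    rw [mem_riemannRochSpace_iff] at ht
    rcases ht Q with h0 | h1
    · rw [h0, Place.ord_zero]
    · rw [nsmul_divisor_apply] at h1
      have hQ0 : Finsupp.mapDomain S.r D0 Q = 0 := by
        rcases hdisj Q with h | h
        · rw [hdivt, h] at hQ
          have := hD0t0 Q
          rw [Finsupp.zero_apply] at this
          linarith
        · exact h
      rw [hQ0] at h1
      linarith

/-- **Genus equality** under the hypotheses of `genusFF_le_of_chart_lifts`
(the inequality `≤` is `Red.RedSetup.genusFF_le`). -/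
theorem genusFF_eq_of_chart_lifts (S : RedSetup (F := F) (Ft := Ft) A π)
    (hπ : Function.Surjective π) (hF : RiemannPkg K F) (hFt : RiemannPkg k Ft)
    (D D0 : Divisor K F) (hD : 0 ≤ D) (hD0 : 0 ≤ D0) (hdeg : 0 < Divisor.degree D)
    (x : F) (hx : S.resF x ≠ 0) (hxdiv : ∀ P, P.ord x = D0 P - D P)
    (hdisj : ∀ Q, Finsupp.mapDomain S.r D Q = 0 ∨ Finsupp.mapDomain S.r D0 Q = 0)
    (N1 : ∀ t : Ft, (∃ s : ℕ, t ∈ riemannRochSpace (s • Finsupp.mapDomain S.r D)) →
      ∃ s : ℕ, ∃ y ∈ riemannRochSpace (s • D), y ∈ S.O ∧ S.resF y = t)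
    (N2 : ∀ t : Ft, (∃ s : ℕ, t ∈ riemannRochSpace (s • Finsupp.mapDomain S.r D0)) →
      ∃ s : ℕ, ∃ y ∈ riemannRochSpace (s • D0), y ∈ S.O ∧ S.resF y = t) :
    genusFF k Ft = genusFF K F :=
  le_antisymm (S.genusFF_le hπ hF hFt)
    (genusFF_le_of_chart_lifts S hπ hF hFt D D0 hD hD0 hdeg x hx hxdiv hdisj N1 N2)

end Main

end Fermat.Agent.Good
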