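import Mathlib
import Fermat.Agent.Good.GenusLift
import Fermat.Agent.Val.ConstRedLattice

/-!
# Program L / L-GEN: the ending, place-map-free form

The same theorem as `Good.genusFF_le_of_chart_lifts`, but for a `Val.ConstRed` (a valued function
field with residue function field, *without* a reduction map of places): the special-fibre
divisors `Dt`, `D0t` (polar and zero divisor of the residue `xt` of `x`) are parameters.
This form is available before any place reduction `r` has been constructed (needed for S37),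
and `hdisj` is trivial for `Dt = poleDiv xt`, `D0t = zeroDiv xt`.
-/

set_option autoImplicit false

namespace Fermat.Agent.Good

open AlgebraicCurve Module Fermat.Agent.Red Fermat.Agent.Val

variable {K F k Ft : Type*} [Field K] [Field F] [Algebra K F] [Field k] [Field Ft]
  [Algebra k Ft] {A : ValuationSubring K} {π : A →+* k}

/-- **Genus inequality from lifting of sections, `r`-free form** (`resF` phrasing). -/
theorem genusFF_le_of_constRed_lifts (S : ConstRed (F := F) (Ft := Ft) A π)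
    (hπ : Function.Surjective π) (hF : RiemannPkg K F) (hFt : RiemannPkg k Ft)
    (D D0 : Divisor K F) (hD : 0 ≤ D) (hD0 : 0 ≤ D0) (hdeg : 0 < Divisor.degree D)
    (x : F) (hx : S.resF x ≠ 0) (hxdiv : ∀ P, P.ord x = D0 P - D P)
    (Dt D0t : Divisor k Ft) (hDt0 : 0 ≤ Dt) (hD0t0 : 0 ≤ D0t)
    (hdivt : ∀ Q, Q.ord (S.resF x) = D0t Q - Dt Q)
    (hdisj : ∀ Q, Dt Q = 0 ∨ D0t Q = 0) (hdegD : Divisor.degree Dt = Divisor.degree D)
    (N1 : ∀ t : Ft, (∃ s : ℕ, t ∈ riemannRochSpace (s • Dt)) →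
      ∃ s : ℕ, ∃ y ∈ riemannRochSpace (s • D), y ∈ S.O ∧ S.resF y = t)
    (N2 : ∀ t : Ft, (∃ s : ℕ, t ∈ riemannRochSpace (s • D0t)) →
      ∃ s : ℕ, ∃ y ∈ riemannRochSpace (s • D0), y ∈ S.O ∧ S.resF y = t) :
    genusFF K F ≤ genusFF k Ft := by
  classical
  have hxO : x ∈ S.O := S.mem_of_resF_ne_zero hx
  have hx0 : x ≠ 0 := S.ne_zero_of_resF_ne_zero hx
  set xt := S.resF x with hxt
  have hdegt : 0 < Divisor.degree Dt := by rw [hdegD]; exact hdeg
  -- graded generation on the special fibre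
  obtain ⟨s0, hs0⟩ := riemannRochSpace_add_le_span hFt hDt0 hD0t0 hdivt hdisj hx hdegt
  -- the residue spaces
  let R : ℕ → Submodule k Ft := fun s => S.resSpace hπ (riemannRochSpace (s • D))
  let R' : ℕ → Submodule k Ft := fun s => S.resSpace hπ (riemannRochSpace (s • D0))
  have hRmono : Monotone R := fun s t hst =>
    S.resSpace_mono hπ (riemannRochSpace_mono (nsmul_divisor_mono hD hst))
  have hR'mono : Monotone R' := fun s t hst =>
    S.resSpace_mono hπ (riemannRochSpace_mono (nsmul_divisor_mono hD0 hst))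
  -- chart 1: `L~(s0 Dt) ≤ R a`
  have := hFt.finite_L (s0 • Dt)
  obtain ⟨a, ha⟩ := exists_le_of_forall_exists_mem (riemannRochSpace (s0 • Dt)) R hRmono
    (fun t ht => by
      obtain ⟨s, y, hy, hyO, hyt⟩ := N1 t ⟨s0, ht⟩
      exact ⟨s, y, hy, hyO, hyt⟩)
  -- chart 2: `L~(s0 Dt) / xt^s0 ≤ R' b`
  obtain ⟨b, hb⟩ := exists_le_of_forall_exists_mem
    ((riemannRochSpace (s0 • Dt)).map (LinearMap.mulRight k (xt ^ s0)⁻¹)) R' hR'mono
    (by
      rintro _ ⟨τ, hτ, rfl⟩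
      have hmem := mul_inv_pow_mem_riemannRochSpace hDt0 hdivt hx s0 hτ
      obtain ⟨s, y, hy, hyO, hyt⟩ := N2 _ ⟨s0, hmem⟩
      exact ⟨s, y, hy, hyO, by rw [hyt]; rfl⟩)
  -- the level
  obtain ⟨c, hc⟩ := hF.riemann_eq
  obtain ⟨c', hc'⟩ := hFt.riemann_eq
  set M := a + b + (max c c').toNat with hM
  -- every generator lifts at level `s0 + M`
  have hkey : riemannRochSpace ((s0 + M) • Dt) ≤ R (s0 + M) := by
    refine (hs0 M).trans ?_
    rw [Submodule.span_le]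
    rintro _ ⟨i, hi, τ, hτ, rfl⟩
    by_cases hib : b ≤ i + s0
    · -- chart 2
      obtain ⟨g, hg, hgO, hgt⟩ := hb ⟨τ, hτ, rfl⟩
      refine ⟨x ^ (i + s0) * g, ?_, S.O.mul_mem _ _ (pow_mem hxO _) hgO, ?_⟩
      · have h1 := pow_mul_mem_riemannRochSpace' hD0 hxdiv hx0 hib hg
        exact riemannRochSpace_mono (nsmul_divisor_mono hD (by omega)) h1
      · rw [S.resF_mul (pow_mem hxO _) hgO, S.resF_pow hxO, hgt, LinearMap.mulRight_apply]
        have hxt0 : xt ≠ 0 := hx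
        rw [pow_add]
        field_simp
        rw [← hxt]
        ring
    · -- chart 1
      obtain ⟨f, hf, hfO, hft⟩ := ha hτ
      refine ⟨x ^ i * f, ?_, S.O.mul_mem _ _ (pow_mem hxO _) hfO, ?_⟩
      · have h1 := pow_mul_mem_riemannRochSpace hD0 hxdiv hx0 i a hf
        exact riemannRochSpace_mono (nsmul_divisor_mono hD (by omega)) h1
      · rw [S.resF_mul (pow_mem hxO _) hfO, S.resF_pow hxO, hft]
  -- dimension count
  have := hF.finite_L ((s0 + M) • D)
  have := hFt.finite_L ((s0 + M) • Dt)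
  have h1 : finrank k (riemannRochSpace ((s0 + M) • Dt)) ≤
      finrank K (riemannRochSpace ((s0 + M) • D)) :=
    (Submodule.finrank_mono hkey).trans (S.finrank_resSpace_le hπ _)
  have hn1 : 1 ≤ Divisor.degree D := hdeg
  have hlevel : max c c' ≤ ((s0 + M : ℕ) : ℤ) := by
    have h2 : max c c' ≤ ((max c c').toNat : ℤ) := Int.self_le_toNat _
    have h3 : ((max c c').toNat : ℤ) ≤ ((s0 + M : ℕ) : ℤ) := by
      have : (max c c').toNat ≤ s0 + M := by omega
      exact_mod_cast this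
    exact h2.trans h3
  have hdegD' : max c c' ≤ Divisor.degree ((s0 + M) • D) := by
    rw [degree_nsmul]
    have : (0 : ℤ) ≤ ((s0 + M : ℕ) : ℤ) := Nat.cast_nonneg _
    nlinarith
  have e1 := hc ((s0 + M) • D) ((le_max_left _ _).trans hdegD')
  have e2 := hc' ((s0 + M) • Dt) (by
    rw [degree_nsmul, hdegD, ← degree_nsmul]
    exact (le_max_right _ _).trans hdegD')
  rw [degree_nsmul] at e1 e2
  rw [hdegD] at e2
  have h1' : (finrank k (riemannRochSpace ((s0 + M) • Dt)) : ℤ) ≤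
      (finrank K (riemannRochSpace ((s0 + M) • D)) : ℤ) := by exact_mod_cast h1
  rw [e1, e2] at h1'
  have : (genusFF K F : ℤ) ≤ (genusFF k Ft : ℤ) := by linarith
  exact_mod_cast this

/-- **Genus inequality from lifting of sections, `r`-free form** (`res` phrasing of the lifting
hypotheses, as an element of `O`). -/
theorem genusFF_le_of_constRed_lifts' (S : ConstRed (F := F) (Ft := Ft) A π)
    (hπ : Function.Surjective π) (hF : RiemannPkg K F) (hFt : RiemannPkg k Ft)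
    (D D0 : Divisor K F) (hD : 0 ≤ D) (hD0 : 0 ≤ D0) (hdeg : 0 < Divisor.degree D)
    (x : F) (hxO : x ∈ S.O) (hx : S.res ⟨x, hxO⟩ ≠ 0) (hxdiv : ∀ P, P.ord x = D0 P - D P)
    (Dt D0t : Divisor k Ft) (hDt0 : 0 ≤ Dt) (hD0t0 : 0 ≤ D0t)
    (hdivt : ∀ Q, Q.ord (S.res ⟨x, hxO⟩) = D0t Q - Dt Q)
    (hdisj : ∀ Q, Dt Q = 0 ∨ D0t Q = 0) (hdegD : Divisor.degree Dt = Divisor.degree D)
    (N1 : ∀ t : Ft, (∃ s : ℕ, t ∈ riemannRochSpace (s • Dt)) →
      ∃ s : ℕ, ∃ f ∈ riemannRochSpace (s • D), ∃ hf : f ∈ S.O, S.res ⟨f, hf⟩ = t)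
    (N2 : ∀ t : Ft, (∃ s : ℕ, t ∈ riemannRochSpace (s • D0t)) →
      ∃ s : ℕ, ∃ f ∈ riemannRochSpace (s • D0), ∃ hf : f ∈ S.O, S.res ⟨f, hf⟩ = t) :
    genusFF K F ≤ genusFF k Ft := by
  have hres : S.resF x = S.res ⟨x, hxO⟩ := S.resF_of_mem hxO
  refine genusFF_le_of_constRed_lifts S hπ hF hFt D D0 hD hD0 hdeg x (by rw [hres]; exact hx)
    hxdiv Dt D0t hDt0 hD0t0 (fun Q => by rw [hres]; exact hdivt Q) hdisj hdegD ?_ ?_
  · intro t ht
    obtain ⟨s, f, hf, hfO, hft⟩ := N1 t ht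
    exact ⟨s, f, hf, hfO, by rw [S.resF_of_mem hfO]; exact hft⟩
  · intro t ht
    obtain ⟨s, f, hf, hfO, hft⟩ := N2 t ht
    exact ⟨s, f, hf, hfO, by rw [S.resF_of_mem hfO]; exact hft⟩

/-- The same statement for a `Red.RedSetup`, still with the special-fibre divisors as parameters
(no use of the place map `S.r`). -/
theorem genusFF_le_of_redSetup_lifts (S : RedSetup (F := F) (Ft := Ft) A π)
    (hπ : Function.Surjective π) (hF : RiemannPkg K F) (hFt : RiemannPkg k Ft)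
    (D D0 : Divisor K F) (hD : 0 ≤ D) (hD0 : 0 ≤ D0) (hdeg : 0 < Divisor.degree D)
    (x : F) (hxO : x ∈ S.O) (hx : S.res ⟨x, hxO⟩ ≠ 0) (hxdiv : ∀ P, P.ord x = D0 P - D P)
    (Dt D0t : Divisor k Ft) (hDt0 : 0 ≤ Dt) (hD0t0 : 0 ≤ D0t)
    (hdivt : ∀ Q, Q.ord (S.res ⟨x, hxO⟩) = D0t Q - Dt Q)
    (hdisj : ∀ Q, Dt Q = 0 ∨ D0t Q = 0) (hdegD : Divisor.degree Dt = Divisor.degree D)
    (N1 : ∀ t : Ft, (∃ s : ℕ, t ∈ riemannRochSpace (s • Dt)) →
      ∃ s : ℕ, ∃ f ∈ riemannRochSpace (s • D), ∃ hf : f ∈ S.O, S.res ⟨f, hf⟩ = t)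
    (N2 : ∀ t : Ft, (∃ s : ℕ, t ∈ riemannRochSpace (s • D0t)) →
      ∃ s : ℕ, ∃ f ∈ riemannRochSpace (s • D0), ∃ hf : f ∈ S.O, S.res ⟨f, hf⟩ = t) :
    genusFF K F ≤ genusFF k Ft :=
  genusFF_le_of_constRed_lifts' S.toConstRed hπ hF hFt D D0 hD hD0 hdeg x hxO hx hxdiv Dt D0t
    hDt0 hD0t0 hdivt hdisj hdegD N1 N2

end Fermat.Agent.Good
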