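import Fermat.Agent.Good.GenInstance
import Fermat.Agent.Good.GenusLiftConst
import Fermat.Agent.Good.GenDeliverable

/-!
# L-GEN: the top of the assembly for `F̄_N`, `F̃_N`

`A` a valuation subring of `ℚ̄` over `ℓ ∤ N`, `k` its residue field, `C := Val.constRedBar`
(the Gauss constant reduction of `F̄_N`, place-map-free).

* `LiftsFin`, `LiftsInf` : the two lifting hypotheses (N1), (N2) (= normality of the two charts of
  the special fibre, to be supplied by the adapter): every function of `F̃_N` with poles only at
  the poles (resp. zeros) of `j̃` is the residue of an integral function of `F̄_N` with poles only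
  at the poles (resp. zeros) of `j`.
* `genusFF_bar_le` : `g(F̄_N) ≤ g(F̃_N)` from `LiftsFin`, `LiftsInf` (place-map-free).
* `genDeliverable` : `Red.GenDeliverable N A` from `LiftsFin`, `LiftsInf`.
-/

set_option autoImplicit false
set_option linter.style.haveILetI false

noncomputable section
namespace Fermat.Agent.Good

open AlgebraicCurve ModularCurve IsLocalRing Fermat.Agent.X0 Fermat.Agent.Red GenusCharts

set_option synthInstance.maxHeartbeats 400000

variable (N : ℕ) [NeZero N] {ℓ : ℕ} [hℓ : Fact ℓ.Prime] (hℓN : ¬ ℓ ∣ N)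
variable (A : ValuationSubring (AlgebraicClosure ℚ)) (hA : A.LiesOverPrime ℓ)

/-- (N1): lifting from the finite chart of the special fibre. -/
def LiftsFin : Prop :=
  haveI := Val.hasPrincipalDivisors_bar N
  haveI := (Val.riemannPkg_modL_residueField N hℓN A hA).principal
  ∀ t : modularFunctionFieldFullC (ResidueField A) N,
    (∃ s : ℕ, t ∈ riemannRochSpace (s • poleDiv (ResidueField A) (Val.jFullC (ResidueField A) N))) →
    ∃ s : ℕ, ∃ f ∈ riemannRochSpace (s • poleDiv (AlgebraicClosure ℚ) (jBar N)),
      ∃ hf : f ∈ (Val.constRedBar N hℓN A hA).O, (Val.constRedBar N hℓN A hA).res ⟨f, hf⟩ = t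

/-- (N2): lifting from the chart at infinity of the special fibre. -/
def LiftsInf : Prop :=
  haveI := Val.hasPrincipalDivisors_bar N
  haveI := (Val.riemannPkg_modL_residueField N hℓN A hA).principal
  ∀ t : modularFunctionFieldFullC (ResidueField A) N,
    (∃ s : ℕ, t ∈ riemannRochSpace (s • zeroDiv (ResidueField A) (Val.jFullC (ResidueField A) N))) →
    ∃ s : ℕ, ∃ f ∈ riemannRochSpace (s • zeroDiv (AlgebraicClosure ℚ) (jBar N)),
      ∃ hf : f ∈ (Val.constRedBar N hℓN A hA).O, (Val.constRedBar N hℓN A hA).res ⟨f, hf⟩ = t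

/-- **`g ≤ g~`** (place-map-free): the genus of `F̄_N` is at most the genus of `F̃_N`, given the
two lifting properties. -/
theorem genusFF_bar_le (h1 : LiftsFin N hℓN A hA) (h2 : LiftsInf N hℓN A hA) :
    genusFF (AlgebraicClosure ℚ) (modularFunctionFieldBar N) ≤
      genusFF (ResidueField A) (modularFunctionFieldFullC (ResidueField A) N) := by
  have hF := Val.riemannPkg_bar N
  have hFt := Val.riemannPkg_modL_residueField N hℓN A hA
  haveI := Val.hasPrincipalDivisors_bar N
  haveI := hFt.principal
  have hres := res_jBar N hℓN A hA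
  have hpsi : 0 < dedekindPsi N := (Val.jBar_isSepVarS N).pos
  refine genusFF_le_of_constRed_lifts' (Val.constRedBar N hℓN A hA) (Val.residue_surjective' A)
    hF hFt (poleDiv (AlgebraicClosure ℚ) (jBar N)) (zeroDiv (AlgebraicClosure ℚ) (jBar N))
    (poleDiv_nonneg _) (zeroDiv_nonneg _) ?_ (jBar N) (jBar_mem_O N hℓN A hA) ?_ ?_
    (poleDiv (ResidueField A) (Val.jFullC (ResidueField A) N))
    (zeroDiv (ResidueField A) (Val.jFullC (ResidueField A) N))
    (poleDiv_nonneg _) (zeroDiv_nonneg _) ?_ ?_ ?_ h1 h2
  · rw [degree_poleDiv_jBar N]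
    exact_mod_cast hpsi
  · rw [hres]
    exact fun h0 => Val.transcendental_jFullC (ResidueField A) N (h0 ▸ isAlgebraic_zero)
  · intro P
    have := DFunLike.congr_fun (zeroDiv_sub_poleDiv (kb := AlgebraicClosure ℚ) (jBar N)) P
    rw [Finsupp.sub_apply, divOf_apply] at this
    exact this.symm
  · intro Q
    rw [hres]
    have := DFunLike.congr_fun
      (zeroDiv_sub_poleDiv (kb := ResidueField A) (Val.jFullC (ResidueField A) N)) Q
    rw [Finsupp.sub_apply, divOf_apply] at this
    exact this.symm
  · intro Q
    rw [poleDiv_apply, zeroDiv_apply]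
    rcases le_total 0 (Q.ord (Val.jFullC (ResidueField A) N)) with h | h
    · left; exact max_eq_left (by omega)
    · right; exact max_eq_left h
  · rw [degree_poleDiv_jFullC N hℓN A hA, degree_poleDiv_jBar N]

/-- **(I6)** the deliverable of L-GEN, from the two lifting properties. -/
theorem genDeliverable (h1 : LiftsFin N hℓN A hA) (h2 : LiftsInf N hℓN A hA) :
    GenDeliverable N A :=
  genDeliverable_of_le N A (Val.valDeliverable N hℓN A hA) (Val.riemannPkg_bar N)
    (Val.riemannPkg_modL_residueField N hℓN A hA) fun _ => genusFF_bar_le N hℓN A hA h1 h2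

end Fermat.Agent.Good
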