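import Fermat.Agent.Good.GenTopCharts
import Fermat.Agent.Val.GenusSemicont

/-!
# L-GEN / S37 (GEQ): the unconditional genus equality, chart form

`A` a valuation subring of `ℚ̄` over `ℓ ∤ N`, `k` its residue field.

* `genusFF_modL_le_bar` : `g(F̃_N) ≤ g(F̄_N)` with NO hypothesis (semicontinuity of the genus
  for the Gauss constant reduction, `Val.ConstRed.genusFF_le` at `Val.constRedBar`).
* `genusFF_modL_eq_bar_of_charts` : `g(F̃_N) = g(F̄_N)` from the chart data of
  `genusFF_bar_le_of_charts` (two sets of Gauss-integral elements of `F̄_N` whose residues span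
  the integral closures of `k[j̃]`, `k[1/j̃]` in `F̃_N`).  No place map, no
  `ReductionInputsModL` hypothesis: this is the input `hg` of `Hecke/RedInputs.lean`.
-/

set_option autoImplicit false
set_option linter.style.haveILetI false

noncomputable section
namespace Fermat.Agent.Good

open AlgebraicCurve ModularCurve IsLocalRing Fermat.Agent.X0 Fermat.Agent.Red GenusCharts

set_option synthInstance.maxHeartbeats 400000

variable (N : ℕ) [NeZero N] {ℓ : ℕ} [hℓ : Fact ℓ.Prime] (hℓN : ¬ ℓ ∣ N)
variable (A : ValuationSubring (AlgebraicClosure ℚ)) (hA : A.LiesOverPrime ℓ)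

include hℓN hA in
/-- **`g~ ≤ g`, unconditional** (semicontinuity of the genus under the Gauss reduction). -/
theorem genusFF_modL_le_bar :
    genusFF (ResidueField A) (modularFunctionFieldFullC (ResidueField A) N) ≤
      genusFF (AlgebraicClosure ℚ) (modularFunctionFieldBar N) := by
  haveI : IsAlgClosed (ResidueField A) := Val.residueField_isAlgClosed A
  exact (Val.constRedBar N hℓN A hA).genusFF_le (Val.residue_surjective' A)
    (Val.riemannPkg_bar N) (Val.riemannPkg_modL_residueField N hℓN A hA)

/-- **The genus equality `g~ = g`, chart form** (place-map-free, no reduction hypothesis). -/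
theorem genusFF_modL_eq_bar_of_charts (Bf Bi : Set (modularFunctionFieldBar N))
    (hBfO : ∀ b ∈ Bf, b ∈ (Val.constRedBar N hℓN A hA).O)
    (hBiO : ∀ b ∈ Bi, b ∈ (Val.constRedBar N hℓN A hA).O)
    (hBf : ∀ b ∈ Bf, PolesAtPoles (AlgebraicClosure ℚ) (jBar N) b)
    (hBi : ∀ b ∈ Bi, PolesAtZeros (AlgebraicClosure ℚ) (jBar N) b)
    (hintf : ∀ ft : modularFunctionFieldFullC (ResidueField A) N,
      IsIntegral (Algebra.adjoin (ResidueField A) {Val.jFullC (ResidueField A) N}) ft →
      ft ∈ Submodule.span (ResidueField A) ((Val.constRedBar N hℓN A hA).resF '' Bf))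
    (hinti : ∀ ft : modularFunctionFieldFullC (ResidueField A) N,
      IsIntegral (Algebra.adjoin (ResidueField A) {(Val.jFullC (ResidueField A) N)⁻¹}) ft →
      ft ∈ Submodule.span (ResidueField A) ((Val.constRedBar N hℓN A hA).resF '' Bi)) :
    genusFF (ResidueField A) (modularFunctionFieldFullC (ResidueField A) N) =
      genusFF (AlgebraicClosure ℚ) (modularFunctionFieldBar N) :=
  le_antisymm (genusFF_modL_le_bar N hℓN A hA)
    (genusFF_bar_le_of_charts N hℓN A hA Bf Bi hBfO hBiO hBf hBi hintf hinti)

end Fermat.Agent.Good
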