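import Fermat.Agent.X0.ModFinal
import Fermat.Agent.X0.Count
import Fermat.Agent.X0.Alg.PrincipalDeg
import Fermat.Prelude.Def_ModularCurve_ReductionModL

/-!
# L-GEN, node G-CUSP (weak form): the reduction has at most `cuspCount N` cusps

Let `A` be a valuation subring of `ℚ̄` and `k` its residue field.  Given the reduction inputs of
S18 (`ReductionInputsModL A N`: a place reduction `r` with conservation of the divisors of
integral functions), every pole of `j̃` on `F̃ = modularFunctionFieldFullC k N` is the reduction of
a pole of `j` on `F̄ = modularFunctionFieldBar N` (conservation for the integral function `1/j`).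
Since `F̄` has exactly `cuspCount N` poles of `j` (S24, `X0.card_placesOverInfty`), `F̃` has at
most `cuspCount N` poles of `j̃`.

* `jInvC R` : the series `1/j` with coefficients in any commutative ring `R`;
* `exists_pole_of_pole` : every pole of `j̃` is `r P` for a pole `P` of `j`;
* `finite_poles_jC`, `card_poles_jC_le` : finiteness and the bound by `cuspCount N`.
-/

set_option autoImplicit false
set_option linter.unusedSectionVars false
set_option linter.style.haveILetI false
set_option synthInstance.maxHeartbeats 400000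

noncomputable section

namespace Fermat.Agent.Good.CuspBound

open AlgebraicCurve ModularCurve HahnSeries Fermat.Agent.X0

/-! ### The series `1/j` over an arbitrary coefficient ring -/

section Inverse

variable (R : Type*) [CommRing R]

/-- The series `1/j = q - 744 q² + …` with coefficients in `R`. -/
def jInvC : LaurentSeries R :=
  HahnSeries.single (1 : ℤ) 1 *
    HahnSeries.ofPowerSeries ℤ R (PowerSeries.invOfUnit (jNum.map (Int.castRingHom R)) 1)

theorem jqModC_mul_jInvC : jqModC R * jInvC R = 1 := by
  have hc : PowerSeries.constantCoeff (jNum.map (Int.castRingHom R)) = ((1 : Rˣ) : R) := by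
    rw [← PowerSeries.coeff_zero_eq_constantCoeff, PowerSeries.coeff_map,
      PowerSeries.coeff_zero_eq_constantCoeff, constantCoeff_jNum]
    simp
  have h1 := PowerSeries.mul_invOfUnit (jNum.map (Int.castRingHom R)) 1 hc
  have hA : HahnSeries.single (-1 : ℤ) (1 : R) * HahnSeries.single (1 : ℤ) 1 = 1 := by
    rw [HahnSeries.single_mul_single]
    simp
  have hB : HahnSeries.ofPowerSeries ℤ R (jNum.map (Int.castRingHom R)) *
      HahnSeries.ofPowerSeries ℤ R (PowerSeries.invOfUnit (jNum.map (Int.castRingHom R)) 1) =
      1 := by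
    rw [← map_mul, h1, map_one]
  unfold jqModC jInvC
  calc HahnSeries.single (-1 : ℤ) (1 : R) *
        HahnSeries.ofPowerSeries ℤ R (jNum.map (Int.castRingHom R)) *
      (HahnSeries.single (1 : ℤ) 1 * HahnSeries.ofPowerSeries ℤ R
        (PowerSeries.invOfUnit (jNum.map (Int.castRingHom R)) 1))
      = (HahnSeries.single (-1 : ℤ) (1 : R) * HahnSeries.single (1 : ℤ) 1) *
          (HahnSeries.ofPowerSeries ℤ R (jNum.map (Int.castRingHom R)) *
            HahnSeries.ofPowerSeries ℤ R
              (PowerSeries.invOfUnit (jNum.map (Int.castRingHom R)) 1)) := by ring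
    _ = 1 := by rw [hA, hB, one_mul]

variable {R}

theorem coeffMap_jInvC_mul {S : Type*} [CommRing S] (f : R →+* S) :
    jqModC S * coeffMap f (jInvC R) = 1 := by
  rw [← coeffMap_jqModC f, ← map_mul, jqModC_mul_jInvC, map_one]

theorem coeffMap_jInvC_eq_inv {S : Type*} [Field S] (f : R →+* S) :
    coeffMap f (jInvC R) = (jqModC S)⁻¹ :=
  eq_inv_of_mul_eq_one_right (coeffMap_jInvC_mul f)

end Inverse

/-! ### Poles of `j̃` come from poles of `j` -/

section Main

variable (N : ℕ) [NeZero N] (A : ValuationSubring (AlgebraicClosure ℚ))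

local notation "kA" => IsLocalRing.ResidueField A

/-- `j̃` as an element of the function field `F̃`. -/
def jC : modularFunctionFieldFullC kA N := ⟨jqModC kA, jqModC_mem_full kA N⟩

theorem coe_jBar_eq : ((jBar N : Fb N) : LaurentSeries Kb) = jqModC Kb := by
  rw [coe_jBar, coeffEmb, ← jqModC_rat, coeffMap_jqModC]

theorem jC_ne_zero : jC N A ≠ 0 := by
  intro h
  have h1 := congrArg Subtype.val h
  exact jqModC_ne_zero_of_nontrivial kA h1

theorem jBar_ne_zero : jBar N ≠ 0 := by
  intro h
  have h1 := congrArg Subtype.val h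
  rw [coe_jBar_eq] at h1
  exact jqModC_ne_zero_of_nontrivial Kb h1

variable {N A}

set_option maxHeartbeats 400000 in
/-- **Every pole of `j̃` is the reduction of a pole of `j`.** -/
theorem exists_pole_of_pole (h : ReductionInputsModL A N)
    (Q : Place kA (modularFunctionFieldFullC kA N)) (hQ : Q.ord (jC N A) < 0) :
    ∃ P : Place Kb (Fb N), P.ord (jBar N) < 0 ∧ placeReductionModL h P = Q := by
  classical
  have hr := isPlaceReductionModL_placeReductionModL h
  -- the integral function `1/j`
  have e1 : coeffMap A.subtype (jInvC A) = (jqModC Kb)⁻¹ := coeffMap_jInvC_eq_inv _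
  have e2 : coeffMap (IsLocalRing.residue A) (jInvC A) = (jqModC kA)⁻¹ := coeffMap_jInvC_eq_inv _
  have hy : coeffMap A.subtype (jInvC A) ∈ modularFunctionFieldBar N := by
    rw [e1, ← coe_jBar_eq N]
    exact (modularFunctionFieldBar N).inv_mem (jBar N).2
  have hyk : coeffMap (IsLocalRing.residue A) (jInvC A) ∈ modularFunctionFieldFullC kA N := by
    rw [e2]
    exact (modularFunctionFieldFullC kA N).inv_mem (jqModC_mem_full kA N)
  have hne : coeffMap (IsLocalRing.residue A) (jInvC A) ≠ 0 := by
    rw [e2]
    exact inv_ne_zero (jqModC_ne_zero_of_nontrivial kA)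
  have hyF : (⟨coeffMap A.subtype (jInvC A), hy⟩ : Fb N) = (jBar N)⁻¹ := by
    apply Subtype.ext
    show coeffMap A.subtype (jInvC A) = (((jBar N)⁻¹ : Fb N) : LaurentSeries Kb)
    rw [IntermediateField.coe_inv, coe_jBar_eq, e1]
  have hyFt : (⟨coeffMap (IsLocalRing.residue A) (jInvC A), hyk⟩ :
      modularFunctionFieldFullC kA N) = (jC N A)⁻¹ := by
    apply Subtype.ext
    show coeffMap (IsLocalRing.residue A) (jInvC A) =
      (((jC N A)⁻¹ : modularFunctionFieldFullC kA N) : LaurentSeries kA)
    rw [IntermediateField.coe_inv, e2]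
    rfl
  -- the divisor of `1/j`
  haveI : HasPrincipalDivisors Kb (Fb N) := hasPrincipalDivisors (jBar_isSepVar N)
  obtain ⟨D, hD, -⟩ := HasPrincipalDivisors.exists_divisor (K := Kb) ((jBar N)⁻¹)
    (inv_ne_zero (jBar_ne_zero N))
  have hcons := hr.2 (jInvC A) hy hyk hne D (fun P => by rw [hD P, hyF]) Q
  rw [hyFt, Place.ord_inv] at hcons
  -- a summand of the fibre sum is positive
  have hpos : 0 < Finsupp.mapDomain (placeReductionModL h) D Q := by
    rw [hcons]; omega
  rw [Finsupp.mapDomain, Finsupp.sum_apply] at hpos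
  have hex : ∃ P ∈ D.support, 0 < (Finsupp.single (placeReductionModL h P) (D P)) Q := by
    by_contra hno
    push Not at hno
    exact absurd hpos (not_lt.mpr (Finset.sum_nonpos hno))
  obtain ⟨P, -, hP⟩ := hex
  rw [Finsupp.single_apply] at hP
  split_ifs at hP with hPQ
  · refine ⟨P, ?_, hPQ⟩
    rw [hD P, Place.ord_inv] at hP
    omega
  · exact absurd hP (lt_irrefl 0)

/-- A choice of a pole of `j` above each pole of `j̃`. -/
theorem exists_injective_poles (h : ReductionInputsModL A N) :
    ∃ f : {Q : Place kA (modularFunctionFieldFullC kA N) // Q.ord (jC N A) < 0} →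
      placesOverInfty Kb (jBar N), Function.Injective f := by
  choose g hg1 hg2 using fun Q : {Q : Place kA (modularFunctionFieldFullC kA N) //
    Q.ord (jC N A) < 0} => exists_pole_of_pole h Q.1 Q.2
  refine ⟨fun Q => ⟨g Q, hg1 Q⟩, ?_⟩
  intro Q Q' hQQ'
  have h1 : g Q = g Q' := congrArg Subtype.val hQQ'
  apply Subtype.ext
  rw [← hg2 Q, ← hg2 Q', h1]

variable (N) in
theorem finite_placesOverInfty_jBar : Finite (placesOverInfty Kb (jBar N)) := by
  apply Nat.finite_of_card_ne_zero
  rw [card_placesOverInfty, orbitCount_T]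
  have h1 : 1 ∈ N.divisors := Nat.one_mem_divisors.mpr (NeZero.ne N)
  have h2 : 0 < Nat.totient (Nat.gcd 1 (N / 1)) := by simp
  unfold cuspCount
  exact (Finset.sum_pos' (fun _ _ => Nat.zero_le _) ⟨1, h1, h2⟩).ne'

/-- `F̃` has finitely many poles of `j̃`. -/
theorem finite_poles_jC (h : ReductionInputsModL A N) :
    Finite {Q : Place kA (modularFunctionFieldFullC kA N) // Q.ord (jC N A) < 0} := by
  obtain ⟨f, hf⟩ := exists_injective_poles h
  haveI := finite_placesOverInfty_jBar N
  exact Finite.of_injective f hf

/-- **G-CUSP (weak form)**: `F̃` has at most `cuspCount N` poles of `j̃`. -/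
theorem card_poles_jC_le (h : ReductionInputsModL A N) :
    Nat.card {Q : Place kA (modularFunctionFieldFullC kA N) // Q.ord (jC N A) < 0} ≤
      cuspCount N := by
  obtain ⟨f, hf⟩ := exists_injective_poles h
  haveI := finite_placesOverInfty_jBar N
  have h1 := Nat.card_le_card_of_injective f hf
  rwa [card_placesOverInfty, orbitCount_T] at h1

end Main

end Fermat.Agent.Good.CuspBound
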