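import Mathlib

/-!
# L-GEN, node [G-DISC], part 0: integrality of characteristic polynomials in finite algebras

`R` an integrally closed domain with fraction field `L`, `E` a finite commutative `L`-algebra
(NOT assumed to be a field or a domain), `x : E` integral over `R`.  Then all coefficients of the
characteristic polynomial of multiplication by `x` lie in `R`.  Conversely an element whose
characteristic polynomial has coefficients in `R` is integral (Cayley–Hamilton).

Main results: `isIntegral_coeff_mulCharpoly`, `isIntegral_trace_alg` (trace of an integral element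
of a finite algebra is integral), `minpoly_coeff_mem_of_isIntegral`, `minpoly_algebraMap_mul`,
`isIntegral_of_mul_of_mul` (saturation: `π w`, `r w` integral, `π` prime, `π ∤ r` ⇒ `w` integral),
`discr_smul_mem_span` (dual basis bound).
-/

set_option autoImplicit false

open Polynomial

namespace Fermat.Agent.Good

section

variable {R L E : Type*} [CommRing R] [Field L] [Algebra R L]
  [CommRing E] [Algebra L E] [Algebra R E] [IsScalarTower R L E] [Module.Finite L E]

/-- the characteristic polynomial of multiplication by `x` -/
noncomputable def mulCharpoly (L : Type*) {E : Type*} [Field L] [CommRing E] [Algebra L E]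
    [Module.Finite L E] (x : E) : L[X] :=
  (Algebra.lmul L E x).charpoly

theorem mulCharpoly_monic (x : E) : (mulCharpoly L x).Monic :=
  LinearMap.charpoly_monic _

theorem aeval_mulCharpoly (x : E) : aeval x (mulCharpoly L x) = 0 := by
  have h := LinearMap.aeval_self_charpoly (Algebra.lmul L E x)
  have h2 : aeval (Algebra.lmul L E x) (mulCharpoly L x) = Algebra.lmul L E (aeval x (mulCharpoly L x)) :=
    Polynomial.aeval_algHom_apply (Algebra.lmul L E) x _
  have h3 : Algebra.lmul L E (aeval x (mulCharpoly L x)) = 0 := by
    rw [← h2]; exact h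
  have := congrArg (fun f : Module.End L E => f 1) h3
  simpa using this

/-- every root (in any field extension) of the characteristic polynomial of multiplication by an
`R`-integral element is `R`-integral. -/
theorem isIntegral_of_isRoot_mulCharpoly {Ω : Type*} [Field Ω] [Algebra L Ω] [Algebra R Ω]
    [IsScalarTower R L Ω] {x : E} (hx : IsIntegral R x) {ρ : Ω}
    (hρ : ((mulCharpoly L x).map (algebraMap L Ω)).IsRoot ρ) : IsIntegral R ρ := by
  classical
  obtain ⟨p, hpm, hp⟩ := hx
  set f : Module.End L E := Algebra.lmul L E x with hf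
  set fΩ : Module.End Ω (TensorProduct L Ω E) := f.baseChange Ω with hfΩ
  have hchar : fΩ.charpoly = (mulCharpoly L x).map (algebraMap L Ω) := by
    rw [hfΩ, LinearMap.charpoly_baseChange]; rfl
  have hev : fΩ.HasEigenvalue ρ := by
    rw [Module.End.hasEigenvalue_iff_isRoot_charpoly, hchar]; exact hρ
  obtain ⟨v, hv⟩ := hev.exists_hasEigenvector
  -- `p(f) = 0`
  have hpf : aeval f p = 0 := by
    have h2 : aeval ((Algebra.lmul L E).restrictScalars R x) p
        = (Algebra.lmul L E).restrictScalars R (aeval x p) :=
      Polynomial.aeval_algHom_apply ((Algebra.lmul L E).restrictScalars R) x p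
    have : aeval x p = 0 := by rw [aeval_def]; exact hp
    rw [this, map_zero] at h2
    exact h2
  -- `p(fΩ) = 0`
  have hpfΩ : aeval fΩ (p.map (algebraMap R Ω)) = 0 := by
    rw [Polynomial.aeval_map_algebraMap]
    have h2 : aeval ((Module.End.baseChangeHom L Ω E).restrictScalars R f) p
        = (Module.End.baseChangeHom L Ω E).restrictScalars R (aeval f p) :=
      Polynomial.aeval_algHom_apply ((Module.End.baseChangeHom L Ω E).restrictScalars R) f p
    rw [hpf, map_zero] at h2
    exact h2
  have h3 := Module.End.aeval_apply_of_hasEigenvector (p := p.map (algebraMap R Ω)) hv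
  rw [hpfΩ, LinearMap.zero_apply] at h3
  have h4 : (p.map (algebraMap R Ω)).eval ρ = 0 := by
    by_contra hne
    exact hv.2 ((smul_eq_zero.mp h3.symm).resolve_left hne)
  refine ⟨p, hpm, ?_⟩
  rw [← Polynomial.eval_map]; exact h4

/-- all coefficients of the characteristic polynomial of multiplication by an integral element
are integral. -/
theorem isIntegral_coeff_mulCharpoly {x : E} (hx : IsIntegral R x) (k : ℕ) :
    IsIntegral R ((mulCharpoly L x).coeff k) := by
  classical
  let Om := AlgebraicClosure L
  rw [← isIntegral_algebraMap_iff (algebraMap L Om).injective]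
  set P : Om[X] := (mulCharpoly L x).map (algebraMap L Om) with hP
  have hsplit : P.Splits := IsAlgClosed.splits P
  have hmonic : P.Monic := (mulCharpoly_monic (L := L) x).map _
  have hcoeff : algebraMap L Om ((mulCharpoly L x).coeff k) = P.coeff k := by
    rw [hP, Polynomial.coeff_map]
  rw [hcoeff]
  by_cases hk : k ≤ P.natDegree
  · rw [Polynomial.coeff_eq_esymm_roots_of_splits hsplit hk, hmonic.leadingCoeff, one_mul]
    refine IsIntegral.mul ?_ ?_
    · exact (IsIntegral.neg isIntegral_one).pow _
    · rw [Multiset.esymm]
      refine IsIntegral.multiset_sum ?_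
      intro y hy
      rw [Multiset.mem_map] at hy
      obtain ⟨s, hs, rfl⟩ := hy
      refine IsIntegral.multiset_prod ?_
      intro ρ hρ
      have hρ' : ρ ∈ P.roots := Multiset.mem_of_le (Multiset.mem_powersetCard.mp hs).1 hρ
      exact isIntegral_of_isRoot_mulCharpoly (R := R) (L := L) hx (Polynomial.isRoot_of_mem_roots hρ')
  · rw [Polynomial.coeff_eq_zero_of_natDegree_lt (not_le.mp hk)]
    exact isIntegral_zero

/-- the trace of an integral element of a finite algebra is integral -/
theorem isIntegral_trace_alg {x : E} (hx : IsIntegral R x) :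
    IsIntegral R (Algebra.trace L E x) := by
  classical
  have h1 : Algebra.trace L E x = -(mulCharpoly L x).nextCoeff := by
    rw [Algebra.trace_apply, mulCharpoly]
    set f := Algebra.lmul L E x
    rw [LinearMap.trace_eq_matrix_trace L (Module.Free.chooseBasis L E) f,
      Matrix.trace_eq_neg_charpoly_nextCoeff, LinearMap.charpoly_def]
  rw [h1, Polynomial.nextCoeff]
  split_ifs
  · simpa using isIntegral_zero
  · exact (isIntegral_coeff_mulCharpoly (R := R) hx _).neg

end

section

variable {L E : Type*} [Field L] [CommRing E] [Algebra L E]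

/-- minimal polynomial of a scalar multiple -/
theorem minpoly_algebraMap_mul {a : L} (ha : a ≠ 0) {w : E} (hw : IsIntegral L w) :
    minpoly L (algebraMap L E a * w) = (minpoly L w).scaleRoots a := by
  have hw' : IsIntegral L (algebraMap L E a * w) := isIntegral_algebraMap.mul hw
  refine eq_of_monic_of_associated (minpoly.monic hw')
    ((monic_scaleRoots_iff a).mpr (minpoly.monic hw))
    (associated_of_dvd_dvd (minpoly.dvd _ _ ?_) ?_)
  · exact scaleRoots_aeval_eq_zero (minpoly.aeval _ _)
  · rw [← Polynomial.scaleRoots_dvd_iff _ _ (r := a⁻¹) (IsUnit.mk0 _ (inv_ne_zero ha)),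
      ← scaleRoots_mul, mul_inv_cancel₀ ha, scaleRoots_one]
    refine minpoly.dvd _ _ ?_
    have h := scaleRoots_aeval_eq_zero (r := a⁻¹) (minpoly.aeval L (algebraMap L E a * w))
    rwa [← mul_assoc, ← map_mul, inv_mul_cancel₀ ha, map_one, one_mul] at h

end


section

variable {R L E : Type*} [CommRing R] [Field L] [Algebra R L]
  [CommRing E] [Algebra L E] [Algebra R E] [IsScalarTower R L E]

/-- the minimal polynomial over `Frac R` of an `R`-integral element has coefficients in `R`. -/
theorem minpoly_coeff_mem_of_isIntegral [IsIntegrallyClosed R] [IsFractionRing R L] {x : E} (hx : IsIntegral R x) (k : ℕ) :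
    ∃ s : R, algebraMap R L s = (minpoly L x).coeff k := by
  obtain ⟨p, hpm, hp⟩ := hx
  have hxL : IsIntegral L x := ⟨p.map (algebraMap R L), hpm.map _, by
    rw [eval₂_map, ← IsScalarTower.algebraMap_eq]; exact hp⟩
  have hdvd : minpoly L x ∣ p.map (algebraMap R L) := by
    refine minpoly.dvd _ _ ?_
    rw [aeval_def, eval₂_map, ← IsScalarTower.algebraMap_eq]; exact hp
  obtain ⟨g, hg⟩ := IsIntegrallyClosed.eq_map_mul_C_of_dvd L hpm hdvd
  rw [(minpoly.monic hxL).leadingCoeff, C_1, mul_one] at hg
  exact ⟨g.coeff k, by rw [← hg, coeff_map]⟩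

theorem isIntegral_of_forall_coeff_minpoly {w : E} (hw : IsIntegral L w)
    (h : ∀ k, ∃ s : R, algebraMap R L s = (minpoly L w).coeff k) : IsIntegral R w := by
  have hl : minpoly L w ∈ Polynomial.lifts (algebraMap R L) := by
    rw [Polynomial.lifts_iff_coeff_lifts]
    intro k
    obtain ⟨s, hs⟩ := h k
    exact ⟨s, hs⟩
  obtain ⟨q, hq, -, hqm⟩ := Polynomial.lifts_and_degree_eq_and_monic hl (minpoly.monic hw)
  refine ⟨q, hqm, ?_⟩
  have := minpoly.aeval L w
  rw [← hq, aeval_def, eval₂_map, ← IsScalarTower.algebraMap_eq] at this
  exact this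

/-- **Saturation.** If `π w` and `r w` are integral over the integrally closed domain `R`,
`π` prime and `π ∤ r`, then `w` is integral. -/
theorem isIntegral_of_mul_of_mul [IsDomain R] [IsIntegrallyClosed R] [IsFractionRing R L]
    [Module.Finite L E] {π r : R} (hπ : Prime π) (hr : ¬ π ∣ r) {w : E}
    (h1 : IsIntegral R (algebraMap R E π * w)) (h2 : IsIntegral R (algebraMap R E r * w)) :
    IsIntegral R w := by
  have hw : IsIntegral L w := Algebra.IsIntegral.isIntegral w
  have hinj := IsFractionRing.injective R L
  have hπ0 : algebraMap R L π ≠ 0 := fun h => hπ.ne_zero (hinj (by rw [h, map_zero]))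
  have hr0 : algebraMap R L r ≠ 0 := fun h => hr (by
    have : r = 0 := hinj (by rw [h, map_zero])
    rw [this]; exact dvd_zero _)
  set μ := minpoly L w with hμ
  set m := μ.natDegree with hm
  have key : ∀ a : R, algebraMap R L a ≠ 0 → IsIntegral R (algebraMap R E a * w) →
      ∀ k, ∃ s : R, algebraMap R L s = μ.coeff k * (algebraMap R L a) ^ (m - k) := by
    intro a ha hint k
    have h3 : algebraMap R E a * w = algebraMap L E (algebraMap R L a) * w := by
      rw [← IsScalarTower.algebraMap_apply]
    rw [h3] at hint
    obtain ⟨s, hs⟩ := minpoly_coeff_mem_of_isIntegral (L := L) hint k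
    rw [minpoly_algebraMap_mul ha hw, coeff_scaleRoots] at hs
    exact ⟨s, hs⟩
  refine isIntegral_of_forall_coeff_minpoly (R := R) hw (fun k => ?_)
  obtain ⟨u, hu⟩ := key π hπ0 h1 k
  obtain ⟨v, hv⟩ := key r hr0 h2 k
  have huv : u * r ^ (m - k) = v * π ^ (m - k) := by
    apply hinj
    rw [map_mul, map_mul, map_pow, map_pow, hu, hv]; ring
  have hdvd : π ^ (m - k) ∣ u := by
    refine hπ.pow_dvd_of_dvd_mul_right (b := r ^ (m - k)) (m - k)
      (fun h => hr (hπ.dvd_of_dvd_pow h)) ?_
    rw [huv]; exact dvd_mul_left _ _
  obtain ⟨u', hu'⟩ := hdvd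
  refine ⟨u', ?_⟩
  have h4 : algebraMap R L u' * (algebraMap R L π) ^ (m - k)
      = μ.coeff k * (algebraMap R L π) ^ (m - k) := by
    rw [← hu, hu', map_mul, map_pow]; ring
  exact mul_right_cancel₀ (pow_ne_zero _ hπ0) h4

end

section

variable {R L E : Type*} [CommRing R] [IsIntegrallyClosed R] [Field L] [Algebra R L]
  [IsFractionRing R L]
  [CommRing E] [Algebra L E] [Algebra R E] [IsScalarTower R L E]
  {ι : Type*} [Fintype ι] [DecidableEq ι]

/-- **Dual basis bound.**  If `c` is a basis of `E` consisting of integral elements, with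
discriminant (the image of) `d`, then `d • x` is an `R`-combination of the `c i` for every
integral `x`. -/
theorem discr_smul_mem_span (c : Module.Basis ι L E) (hc : ∀ i, IsIntegral R (c i)) (d : R)
    (hd : algebraMap R L d = Algebra.discr L c) {x : E} (hx : IsIntegral R x) :
    d • x ∈ Submodule.span R (Set.range c) := by
  classical
  have : Module.Finite L E := Module.Finite.of_basis c
  have hT : ∀ i j, ∃ t : R, algebraMap R L t = Algebra.trace L E (c i * c j) := fun i j =>
    IsIntegrallyClosed.algebraMap_eq_of_integral
      (isIntegral_trace_alg ((hc i).mul (hc j)))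
  choose T hTij using hT
  let TA : Matrix ι ι R := Matrix.of T
  have hTA : (algebraMap R L).mapMatrix TA = Algebra.traceMatrix L c := by
    ext i j
    rw [RingHom.mapMatrix_apply, Matrix.map_apply, Algebra.traceMatrix_apply,
      Algebra.traceForm_apply]
    exact hTij i j
  have ha : ∀ i, ∃ a : R, algebraMap R L a = Algebra.trace L E (c i * x) := fun i =>
    IsIntegrallyClosed.algebraMap_eq_of_integral
      (isIntegral_trace_alg ((hc i).mul hx))
  choose a haa using ha
  -- the coefficient vector of `x` solves the linear system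
  have hsys : (Algebra.traceMatrix L c).mulVec (fun j => c.repr x j) =
      fun i => algebraMap R L (a i) := by
    ext i
    rw [haa i]
    conv_rhs => rw [← c.sum_repr x, Finset.mul_sum, map_sum]
    rw [Matrix.mulVec, dotProduct]
    refine Finset.sum_congr rfl fun j _ => ?_
    rw [Algebra.traceMatrix_apply, Algebra.traceForm_apply, mul_smul_comm, map_smul,
      smul_eq_mul, mul_comm]
  -- Cramer
  let r : ι → R := TA.adjugate.mulVec a
  have hr : ∀ j, algebraMap R L (r j) = algebraMap R L d * c.repr x j := by
    intro j
    have h1 : (Algebra.traceMatrix L c).adjugate.mulVec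
        ((Algebra.traceMatrix L c).mulVec (fun j => c.repr x j)) =
        (Algebra.traceMatrix L c).det • (fun j => c.repr x j) := by
      rw [Matrix.mulVec_mulVec, Matrix.adjugate_mul, Matrix.smul_mulVec, Matrix.one_mulVec]
    rw [hsys, ← hTA, RingHom.mapMatrix_apply] at h1
    have hadj : (TA.map (algebraMap R L)).adjugate = TA.adjugate.map (algebraMap R L) :=
      (RingHom.map_adjugate (algebraMap R L) TA).symm
    have hdet : (TA.map (algebraMap R L)).det = algebraMap R L d := by
      rw [hd, Algebra.discr_def, ← hTA, RingHom.mapMatrix_apply]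
    rw [hadj, hdet] at h1
    have h2 := RingHom.map_mulVec (algebraMap R L) TA.adjugate a j
    have h3 := congrFun h1 j
    rw [Pi.smul_apply, smul_eq_mul] at h3
    rw [← h3]
    exact h2
  have hxsum : d • x = ∑ j, r j • c j := by
    conv_lhs => rw [← c.sum_repr x, Finset.smul_sum]
    refine Finset.sum_congr rfl fun j _ => ?_
    rw [← algebraMap_smul L (r j) (c j), hr j, mul_smul, algebraMap_smul]
  rw [hxsum]
  exact Submodule.sum_mem _ fun j _ =>
    Submodule.smul_mem _ _ (Submodule.subset_span (Set.mem_range_self j))

end

end Fermat.Agent.Good
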