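import Mathlib
import Fermat.Agent.Good.IntCoeffs

/-!
# L-GEN [G-AB0]: abstract globalisation of a unit discriminant over a PID

`A1` a PID with fraction field `K1`, `E` a finite commutative `K1`-algebra of dimension `n`.
If `E` has some `K1`-basis of `A1`-integral elements with non-zero discriminant, and for every
prime `u` of `A1` a `K1`-basis of `A1`-integral elements whose discriminant is (the image of) an
element of `A1` prime to `u`, then the integral closure of `A1` in `E` is `A1`-free on a
`K1`-basis `β` of `E` whose discriminant is a unit of `A1`.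
-/

set_option autoImplicit false

open Module

namespace Fermat.Agent.Good.DG

/-- `E` is torsion-free over `A1`. -/
theorem smul_eq_zero_imp {A1 : Type*} (K1 : Type*) {E : Type*} [CommRing A1] [Field K1]
    [Algebra A1 K1] [IsFractionRing A1 K1] [CommRing E] [Algebra K1 E] [Algebra A1 E]
    [IsScalarTower A1 K1 E] {a : A1} {z : E} (h : a • z = 0) : a = 0 ∨ z = 0 := by
  rw [← algebraMap_smul K1 a z, smul_eq_zero] at h
  rcases h with h | h
  · left
    exact (IsFractionRing.injective A1 K1) (by rw [h, map_zero])
  · right; exact h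

variable {A1 K1 E : Type*} [CommRing A1] [IsDomain A1] [Field K1]
  [Algebra A1 K1] [IsFractionRing A1 K1] [CommRing E] [Algebra K1 E] [Algebra A1 E]
  [IsScalarTower A1 K1 E] {ι : Type*} [Fintype ι] [DecidableEq ι]

omit [IsDomain A1] in
/-- The discriminant of a family of integral elements comes from the (integrally closed) base. -/
theorem exists_discr_eq [IsIntegrallyClosed A1] [Module.Finite K1 E] (y : ι → E)
    (hy : ∀ i, IsIntegral A1 (y i)) :
    ∃ d : A1, algebraMap A1 K1 d = Algebra.discr K1 y := by
  refine IsIntegrallyClosed.algebraMap_eq_of_integral ?_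
  rw [Algebra.discr_def]
  refine IsIntegral.det fun i j => ?_
  rw [Algebra.traceMatrix_apply, Algebra.traceForm_apply]
  exact isIntegral_trace_alg ((hy i).mul (hy j))

omit [IsDomain A1] [IsFractionRing A1 K1] in
/-- Change of family inside the `A1`-span: the discriminant is multiplied by a square from `A1`. -/
theorem discr_eq_of_mem_span (β : ι → E) (x : ι → E)
    (hx : ∀ j, x j ∈ Submodule.span A1 (Set.range β)) :
    ∃ t : A1, Algebra.discr K1 x = algebraMap A1 K1 t ^ 2 * Algebra.discr K1 β := by
  have hT : ∀ j, ∃ c : ι → A1, ∑ i, c i • β i = x j := fun j =>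
    (Submodule.mem_span_range_iff_exists_fun A1).mp (hx j)
  choose c hc using hT
  let T : Matrix ι ι A1 := Matrix.of fun i j => c j i
  have hxe : x = Matrix.vecMul β ((T.map (algebraMap A1 K1)).map (algebraMap K1 E)) := by
    ext j
    rw [← hc j, Matrix.vecMul, dotProduct]
    refine Finset.sum_congr rfl fun i _ => ?_
    have hT : T i j = c j i := rfl
    rw [Matrix.map_apply, Matrix.map_apply, hT, ← IsScalarTower.algebraMap_apply,
      Algebra.smul_def, mul_comm]
  refine ⟨T.det, ?_⟩
  rw [hxe, Algebra.discr_of_matrix_vecMul, RingHom.map_det, RingHom.mapMatrix_apply]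

omit [IsDomain A1] in
/-- The integral closure of `A1` in `E` is a finite `A1`-module as soon as there is a basis of
integral elements with non-zero discriminant. -/
theorem finite_integralClosure [IsNoetherianRing A1] [IsIntegrallyClosed A1]
    (y : Basis ι K1 E) (hy : ∀ i, IsIntegral A1 (y i))
    (hd : Algebra.discr K1 y ≠ 0) : Module.Finite A1 (integralClosure A1 E) := by
  have : Module.Finite K1 E := Module.Finite.of_basis y
  obtain ⟨d0, hd0⟩ := exists_discr_eq (A1 := A1) (K1 := K1) y hy
  have hd00 : d0 ≠ 0 := by
    rintro rfl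
    rw [map_zero] at hd0
    exact hd hd0.symm
  let N : Submodule A1 E := Submodule.span A1 (Set.range y)
  have hN : IsNoetherian A1 N := isNoetherian_span_of_finite A1 (Set.finite_range y)
  let f : integralClosure A1 E →ₗ[A1] N :=
    { toFun := fun z => ⟨d0 • (z : E), discr_smul_mem_span y hy d0 hd0 z.2⟩
      map_add' := fun z w => by
        ext
        simp only [Subalgebra.coe_add, smul_add, Submodule.coe_add]
      map_smul' := fun c z => by
        ext
        simp only [Subalgebra.coe_smul, RingHom.id_apply, Submodule.coe_smul]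
        rw [smul_comm] }
  have hf : Function.Injective f := by
    rw [← LinearMap.ker_eq_bot, LinearMap.ker_eq_bot']
    intro z hz
    have h1 : d0 • (z : E) = 0 := congrArg Subtype.val hz
    rcases smul_eq_zero_imp K1 h1 with h | h
    · exact absurd h hd00
    · exact Subtype.ext h
  exact Module.Finite.of_injective f hf

omit [Fintype ι] [DecidableEq ι] in
/-- A `K1`-basis of `E` that is an `A1`-basis of the integral closure. -/
theorem exists_basis_span_eq [IsPrincipalIdealRing A1] [Module.Finite K1 E]
    (hfin : Module.Finite A1 (integralClosure A1 E)) :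
    ∃ β : Basis (Fin (Module.finrank K1 E)) K1 E,
      Submodule.span A1 (Set.range β) = Subalgebra.toSubmodule (integralClosure A1 E) := by
  classical
  set B1 := integralClosure A1 E with hB1
  have htf : Module.IsTorsionFree A1 B1 := ⟨fun r hr x y hxy => by
    have hr0 : r ≠ 0 := hr.ne_zero
    have h1 : r • ((x : E) - y) = 0 := by
      rw [smul_sub, sub_eq_zero]
      exact congrArg Subtype.val hxy
    rcases smul_eq_zero_imp K1 h1 with h | h
    · exact absurd h hr0
    · exact Subtype.ext (sub_eq_zero.mp h)⟩
  have hfree : Module.Free A1 B1 := Module.free_of_finite_type_torsion_free'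
  let b1 := Module.Free.chooseBasis A1 B1
  let v : Module.Free.ChooseBasisIndex A1 B1 → E := fun i => (b1 i : E)
  have hspanA : Submodule.span A1 (Set.range v) = Subalgebra.toSubmodule B1 := by
    apply le_antisymm
    · rw [Submodule.span_le]
      rintro _ ⟨i, rfl⟩
      exact (b1 i).2
    · intro z hz
      have h1 : (⟨z, hz⟩ : B1) = ∑ i, b1.repr ⟨z, hz⟩ i • b1 i := (b1.sum_repr _).symm
      have h2 : z = ∑ i, b1.repr ⟨z, hz⟩ i • v i := by
        have h := congrArg (fun w : B1 => B1.val w) h1
        simp only [map_sum, map_smul] at h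
        exact h
      rw [h2]
      exact Submodule.sum_mem _ fun i _ =>
        Submodule.smul_mem _ _ (Submodule.subset_span (Set.mem_range_self i))
  have hliA : LinearIndependent A1 v :=
    b1.linearIndependent.map' B1.val.toLinearMap
      (LinearMap.ker_eq_bot.mpr Subtype.val_injective)
  have hliK : LinearIndependent K1 v := hliA.localization K1 (nonZeroDivisors A1)
  have hspK : ⊤ ≤ Submodule.span K1 (Set.range v) := by
    intro e _
    obtain ⟨m, hm⟩ := IsIntegral.exists_multiple_integral_of_isLocalization (nonZeroDivisors A1) e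
      (Algebra.IsIntegral.isIntegral (R := K1) e)
    have h1 : (m : A1) • e ∈ Submodule.span A1 (Set.range v) := by
      rw [hspanA]; exact hm
    have h2 : (m : A1) • e ∈ Submodule.span K1 (Set.range v) :=
      Submodule.span_subset_span A1 K1 _ h1
    have hm0 : algebraMap A1 K1 (m : A1) ≠ 0 := by
      intro h
      have : (m : A1) = 0 := (IsFractionRing.injective A1 K1) (by rw [h, map_zero])
      exact (nonZeroDivisors.ne_zero m.2) this
    have h3 : e = (algebraMap A1 K1 (m : A1))⁻¹ • ((m : A1) • e) := by
      rw [← algebraMap_smul K1 (m : A1) e, smul_smul, inv_mul_cancel₀ hm0, one_smul]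
    rw [h3]
    exact Submodule.smul_mem _ _ h2
  let bK : Basis (Module.Free.ChooseBasisIndex A1 B1) K1 E := Basis.mk hliK hspK
  have hcard : Fintype.card (Module.Free.ChooseBasisIndex A1 B1) = Module.finrank K1 E :=
    (Module.finrank_eq_card_basis bK).symm
  let e := Fintype.equivFinOfCardEq hcard
  refine ⟨bK.reindex e, ?_⟩
  rw [Basis.range_reindex, Basis.coe_mk]
  exact hspanA

end Fermat.Agent.Good.DG

namespace Fermat.Agent.Good

/-- **Abstract globalisation of the unit discriminant over a PID.** -/
theorem exists_basis_isUnit_discr_of_local {A1 K1 E : Type*} [CommRing A1] [IsDomain A1]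
    [IsPrincipalIdealRing A1] [Field K1] [Algebra A1 K1] [IsFractionRing A1 K1] [CommRing E]
    [Algebra K1 E] [Algebra A1 E] [IsScalarTower A1 K1 E] [Module.Finite K1 E]
    (hglob : ∃ y : Module.Basis (Fin (Module.finrank K1 E)) K1 E,
      (∀ i, IsIntegral A1 (y i)) ∧ Algebra.discr K1 y ≠ 0)
    (hloc : ∀ u : A1, Prime u → ∃ x : Module.Basis (Fin (Module.finrank K1 E)) K1 E,
      (∀ i, IsIntegral A1 (x i)) ∧
        ∃ d : A1, ¬ u ∣ d ∧ algebraMap A1 K1 d = Algebra.discr K1 x) :
    ∃ β : Module.Basis (Fin (Module.finrank K1 E)) K1 E, (∀ i, IsIntegral A1 (β i)) ∧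
      (∀ z : E, IsIntegral A1 z → z ∈ Submodule.span A1 (Set.range β)) ∧
      ∃ d : A1, IsUnit d ∧ algebraMap A1 K1 d = Algebra.discr K1 β := by
  obtain ⟨y, hy, hyd⟩ := hglob
  have hfin := DG.finite_integralClosure y hy hyd
  obtain ⟨β, hβ⟩ := DG.exists_basis_span_eq (K1 := K1) hfin
  have hβint : ∀ i, IsIntegral A1 (β i) := fun i => by
    have h1 : β i ∈ Subalgebra.toSubmodule (integralClosure A1 E) := by
      rw [← hβ]; exact Submodule.subset_span (Set.mem_range_self i)
    exact h1
  have hmem : ∀ z : E, IsIntegral A1 z → z ∈ Submodule.span A1 (Set.range β) := fun z hz => by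
    rw [hβ]; exact hz
  obtain ⟨D, hD⟩ := DG.exists_discr_eq (A1 := A1) (K1 := K1) β hβint
  refine ⟨β, hβint, hmem, D, ?_, hD⟩
  have hD0 : D ≠ 0 := by
    rintro rfl
    obtain ⟨t, ht⟩ := DG.discr_eq_of_mem_span (A1 := A1) (K1 := K1) β y (fun j => hmem _ (hy j))
    rw [← hD, map_zero, mul_zero] at ht
    exact hyd ht
  by_contra hu
  obtain ⟨p, hp, hpD⟩ := WfDvdMonoid.exists_irreducible_factor hu hD0
  have hpp : Prime p := UniqueFactorizationMonoid.irreducible_iff_prime.mp hp
  obtain ⟨x, hx, d, hud, hdx⟩ := hloc p hpp
  obtain ⟨t, ht⟩ := DG.discr_eq_of_mem_span (A1 := A1) (K1 := K1) β x (fun j => hmem _ (hx j))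
  have hdt : d = t ^ 2 * D :=
    (IsFractionRing.injective A1 K1) (by rw [hdx, ht, map_mul, map_pow, hD])
  exact hud (hdt ▸ Dvd.dvd.mul_left hpD _)

end Fermat.Agent.Good
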