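import Fermat.Agent.Good.DiscReduction

/-!
# L-GEN: wrapper from the `A1`-form output of Abhyankar-lite to the (H2) hypothesis of Lemma A

`R` a domain, `π : R`, `A1 = R[1/π]` (a domain), `K1` the common fraction field, `E` a finite
commutative `K1`-algebra with a `K1`-basis `xb` of `A1`-integral elements whose discriminant is a
unit of `A1`.  Then `E` has a `K1`-basis `c'` of `R`-integral elements whose discriminant is the
image of some `d' : R` dividing a power of `π`.
-/

set_option autoImplicit false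

open Module

namespace Fermat.Agent.Good.H2W

variable {R A1 K1 E : Type*} [CommRing R] [IsDomain R] [CommRing A1] [IsDomain A1] [Field K1]
  [CommRing E] [Algebra R A1] [Algebra A1 K1] [Algebra R K1] [IsScalarTower R A1 K1]
  [Algebra K1 E] [Algebra A1 E] [Algebra R E] [IsScalarTower R A1 E] [IsScalarTower R K1 E]
  [IsFractionRing A1 K1] {ι : Type*} [Fintype ι] [DecidableEq ι]

/-- A unit of `R[1/π]` is `r / π ^ a` with `r` dividing a power of `π`. -/
theorem exists_dvd_pow_of_isUnit (π : R) [IsLocalization.Away π A1] {d : A1} (hd : IsUnit d) :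
    ∃ (r : R) (a : ℕ), d * algebraMap R A1 (π ^ a) = algebraMap R A1 r ∧ ∃ m : ℕ, r ∣ π ^ m := by
  have hinj : Function.Injective (algebraMap R A1) := by
    refine IsLocalization.injective A1 (M := Submonoid.powers π) ?_
    have hπ0 : π ≠ 0 := by
      rintro rfl
      have h1 : IsUnit (algebraMap R A1 (0 : R)) :=
        IsLocalization.map_units A1 (⟨(0 : R), Submonoid.mem_powers _⟩ : Submonoid.powers (0 : R))
      rw [map_zero] at h1
      exact not_isUnit_zero h1
    exact powers_le_nonZeroDivisors_of_noZeroDivisors hπ0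
  obtain ⟨u, rfl⟩ := hd
  obtain ⟨⟨r, ⟨_, a, rfl⟩⟩, hr⟩ := IsLocalization.surj (Submonoid.powers π) (u : A1)
  obtain ⟨⟨r', ⟨_, b, rfl⟩⟩, hr'⟩ := IsLocalization.surj (Submonoid.powers π) ((u⁻¹ : A1ˣ) : A1)
  simp only at hr hr'
  refine ⟨r, a, hr, a + b, r', ?_⟩
  apply hinj
  rw [map_mul, ← hr, ← hr', map_pow, map_pow, map_pow]
  have h1 : (u : A1) * ((u⁻¹ : A1ˣ) : A1) = 1 := Units.mul_inv u
  calc algebraMap R A1 π ^ (a + b)
      = ((u : A1) * ((u⁻¹ : A1ˣ) : A1)) * algebraMap R A1 π ^ (a + b) := by rw [h1, one_mul]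
    _ = _ := by rw [pow_add]; ring

/-- **(H2) wrapper.** -/
theorem exists_basis_of_isUnit_discr (π : R) [IsLocalization.Away π A1] (xb : Basis ι K1 E)
    (hx : ∀ i, IsIntegral A1 (xb i)) (d : A1) (hd : IsUnit d)
    (hdx : algebraMap A1 K1 d = Algebra.discr K1 xb) :
    ∃ c' : Basis ι K1 E, (∀ i, IsIntegral R (c' i)) ∧
      ∃ d' : R, algebraMap R K1 d' = Algebra.discr K1 c' ∧ ∃ m : ℕ, d' ∣ π ^ m := by
  obtain ⟨r, a, hra, mr, hrm⟩ := exists_dvd_pow_of_isUnit (A1 := A1) π hd
  have hmul : ∀ i, ∃ k : ℕ, IsIntegral R (π ^ k • xb i) := by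
    intro i
    obtain ⟨⟨_, k, rfl⟩, hm⟩ :=
      IsIntegral.exists_multiple_integral_of_isLocalization (Submonoid.powers π) (xb i) (hx i)
    exact ⟨k, hm⟩
  choose k hk using hmul
  set K : ℕ := (∑ i, k i) + a with hK
  have hint : ∀ i, IsIntegral R (π ^ K • xb i) := by
    intro i
    have hle : k i ≤ K := by
      have : k i ≤ ∑ j, k j := Finset.single_le_sum (fun _ _ => Nat.zero_le _) (Finset.mem_univ i)
      omega
    have h1 : π ^ K • xb i = π ^ (K - k i) • (π ^ k i • xb i) := by
      rw [smul_smul, ← pow_add, Nat.sub_add_cancel hle]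
    rw [h1]
    exact (hk i).smul _
  have hinjA : Function.Injective (algebraMap A1 K1) := IsFractionRing.injective A1 K1
  have hπA : algebraMap R A1 π ≠ 0 := by
    have h1 : IsUnit (algebraMap R A1 π) :=
      IsLocalization.map_units A1 (⟨π, Submonoid.mem_powers _⟩ : Submonoid.powers π)
    exact h1.ne_zero
  have hπK : algebraMap R K1 π ≠ 0 := by
    rw [IsScalarTower.algebraMap_apply R A1 K1]
    exact fun h => hπA (hinjA (by rw [h, map_zero]))
  set w : K1 := algebraMap R K1 (π ^ K) with hw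
  have hw0 : w ≠ 0 := by rw [hw, map_pow]; exact pow_ne_zero _ hπK
  let c' : Basis ι K1 E := xb.isUnitSMul (fun _ => (isUnit_iff_ne_zero.mpr hw0))
  have hc' : ∀ i, c' i = π ^ K • xb i := by
    intro i
    rw [Basis.isUnitSMul_apply, hw, algebraMap_smul]
  refine ⟨c', fun i => by rw [hc']; exact hint i, ?_⟩
  have hdisc : Algebra.discr K1 c' = w ^ (2 * Fintype.card ι) * Algebra.discr K1 xb := by
    rw [← discr_smul_family]
    congr 1
    ext i
    rw [Basis.isUnitSMul_apply]
  -- `d = r / π ^ a` in `K1`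
  have hdK : algebraMap A1 K1 d * algebraMap R K1 (π ^ a) = algebraMap R K1 r := by
    rw [IsScalarTower.algebraMap_apply R A1 K1, IsScalarTower.algebraMap_apply R A1 K1, ← map_mul,
      hra]
  rcases Nat.eq_zero_or_pos (Fintype.card ι) with h0 | hpos
  · refine ⟨1, ?_, 0, by simp⟩
    have : IsEmpty ι := Fintype.card_eq_zero_iff.mp h0
    rw [map_one, Algebra.discr_def]
    simp
  · have hle : a ≤ 2 * Fintype.card ι * K := by
      have : a ≤ K := by omega
      nlinarith
    refine ⟨π ^ (2 * Fintype.card ι * K - a) * r, ?_, 2 * Fintype.card ι * K - a + mr,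
      by rw [pow_add]; exact mul_dvd_mul_left _ hrm⟩
    rw [hdisc, ← hdx, map_mul, ← hdK, hw, map_pow, map_pow, map_pow, ← pow_mul]
    have h3 : algebraMap R K1 π ^ (K * (2 * Fintype.card ι)) =
        algebraMap R K1 π ^ (2 * Fintype.card ι * K - a) * algebraMap R K1 π ^ a := by
      rw [← pow_add]
      congr 1
      rw [Nat.sub_add_cancel hle]
      ring
    rw [h3]
    ring

end Fermat.Agent.Good.H2W
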