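/-
L-GEN / [G-AB0] (helper20), part 4: Abhyankar-lite, global form, and the (H2) hypothesis of Lemma A.

Setting: `A₀` a PID over a characteristic zero field `k`, `B₀` a Dedekind domain finite and
torsion-free over `A₀` with separable fraction field extension `F / K₀`; `A₁ ⊇ A₀` a PID with
fraction field `K₁`, `E` a finite commutative `K₁`-algebra with a ring homomorphism `φ : F → E`
semilinear over `ψ : K₀ → K₁` mapping a `K₀`-basis of `F` to a `K₁`-basis of `E`
(`E = F ⊗_{K₀} K₁`).  Hypothesis (RAM): every prime `u` of `A₁` divides the image of a prime `ϖ`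
of `A₀` exactly to a power `m` such that all multiplicities `ramCount ϖ P` (`P` a prime of `B₀`
over `ϖ`) divide `m`.

* `exists_basis_isUnit_discr_of_ramCount_dvd`: the integral closure of `A₁` in `E` is free on a
  `K₁`-basis of `E` with unit discriminant.
* `exists_basis_isIntegral_discr_dvd_pow`: if moreover `A₁ = R[1/π]`, then `E` has a `K₁`-basis of
  `R`-integral elements whose discriminant divides a power of `π`  (= (H2) of
  `GQ.isIntegrallyClosed_tensor_of_cover`).
-/
import Fermat.Agent.Good.AbhyankarLocal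
import Fermat.Agent.Good.DiscGlobalise
import Fermat.Agent.Good.H2Wrapper

set_option autoImplicit false
set_option linter.unusedSectionVars false
set_option linter.style.haveILetI false
set_option linter.unusedVariables false

namespace Fermat.Agent.Good

open Ideal UniqueFactorizationMonoid Module Matrix
open scoped nonZeroDivisors

attribute [local instance] FractionRing.liftAlgebra FractionRing.isScalarTower_liftAlgebra

universe u v

section Assemble

variable (k : Type*) [Field k] [CharZero k]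
  {A₀ : Type u} {B₀ : Type v} [CommRing A₀] [IsDomain A₀] [IsPrincipalIdealRing A₀]
  [Algebra k A₀] [CommRing B₀] [IsDedekindDomain B₀] [Algebra A₀ B₀] [Module.Finite A₀ B₀]
  [Module.IsTorsionFree A₀ B₀]
  (K₀ F : Type*) [Field K₀] [Field F] [Algebra A₀ K₀] [IsFractionRing A₀ K₀] [Algebra B₀ F]
  [IsFractionRing B₀ F] [Algebra K₀ F] [Algebra A₀ F] [IsScalarTower A₀ K₀ F]
  [IsScalarTower A₀ B₀ F] [FiniteDimensional K₀ F] [Algebra.IsSeparable K₀ F]
  {A₁ : Type*} [CommRing A₁] [IsDomain A₁] [IsIntegrallyClosed A₁] [Algebra A₀ A₁]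
  (K₁ E : Type*) [Field K₁] [Algebra A₁ K₁] [IsFractionRing A₁ K₁] [CommRing E] [Algebra K₁ E]
  [Algebra A₁ E] [IsScalarTower A₁ K₁ E] [Module.Finite K₁ E]
  (ψ : K₀ →+* K₁)
  (hψ : ∀ a : A₀, ψ (algebraMap A₀ K₀ a) = algebraMap A₁ K₁ (algebraMap A₀ A₁ a))
  (φ : F →+* E) (hφ : ∀ x : K₀, φ (algebraMap K₀ F x) = algebraMap K₁ E (ψ x))
  {ι' : Type*} [Fintype ι'] [DecidableEq ι'] (c : Basis ι' K₀ F) (cE : Basis ι' K₁ E)
  (hc : ∀ i, cE i = φ (c i))

include K₀ F c cE in
/-- `rank_{A₀} B₀ = dim_{K₁} E`. -/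
theorem finrank_eq_finrank_of_bases : Module.finrank A₀ B₀ = Module.finrank K₁ E := by
  haveI : IsIntegralClosure B₀ A₀ F := IsIntegralClosure.of_isIntegrallyClosed B₀ A₀ F
  haveI : IsLocalization (Algebra.algebraMapSubmonoid B₀ A₀⁰) F :=
    IsIntegralClosure.isLocalization A₀ K₀ F B₀
  have h1 : Module.finrank K₀ F = Module.finrank A₀ B₀ := by
    rw [Module.finrank_eq_card_basis
      ((Module.Free.chooseBasis A₀ B₀).localizationLocalization K₀ A₀⁰ F),
      Module.finrank_eq_card_chooseBasisIndex]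
  rw [← h1, Module.finrank_eq_card_basis c, Module.finrank_eq_card_basis cE]

/-- A family with nonzero discriminant and the right cardinality is a basis; reindexed by
`Fin (finrank K₁ E)`. -/
theorem exists_basis_fin_of_discr_ne_zero {ι : Type*} [Fintype ι] [DecidableEq ι] (x : ι → E)
    (hcard : Fintype.card ι = Module.finrank K₁ E) (hd : Algebra.discr K₁ x ≠ 0) :
    ∃ β : Basis (Fin (Module.finrank K₁ E)) K₁ E,
      (∀ i, ∃ a, β i = x a) ∧ Algebra.discr K₁ β = Algebra.discr K₁ x := by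
  have hli : LinearIndependent K₁ x := by
    by_contra h
    exact hd (Algebra.discr_zero_of_not_linearIndependent K₁ h)
  let β₀ : Basis ι K₁ E := basisOfLinearIndependentOfCardEqFinrank' x hli hcard
  have hβ₀ : (β₀ : ι → E) = x := coe_basisOfLinearIndependentOfCardEqFinrank' x hli hcard
  let e : ι ≃ Fin (Module.finrank K₁ E) := Fintype.equivFinOfCardEq hcard
  refine ⟨β₀.reindex e, fun i => ⟨e.symm i, ?_⟩, ?_⟩
  · rw [Basis.reindex_apply, hβ₀]
  · have := Algebra.discr_reindex K₁ β₀ e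
    rw [hβ₀] at this
    rw [← this]
    congr 1
    ext i
    rw [Basis.reindex_apply, hβ₀]
    rfl

variable (B₀)

include k K₀ F B₀ hψ hφ c cE hc in
/-- The global input of the globalisation step: some basis of `E` consisting of integral elements
with nonzero discriminant. -/
theorem exists_basis_isIntegral_discr_ne_zero :
    ∃ y : Basis (Fin (Module.finrank K₁ E)) K₁ E,
      (∀ i, IsIntegral A₁ (y i)) ∧ Algebra.discr K₁ y ≠ 0 := by
  classical
  haveI : IsIntegralClosure B₀ A₀ F := IsIntegralClosure.of_isIntegrallyClosed B₀ A₀ F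
  haveI hsep : Algebra.IsSeparable (FractionRing A₀) (FractionRing B₀) :=
    X0.RR.isSeparable_fractionRing_of_isFractionRing A₀ K₀ (L := F) (B := B₀)
  let β := Module.Free.chooseBasis A₀ B₀
  let g : B₀ →+* E := φ.comp (algebraMap B₀ F)
  have hgA : ∀ a : A₀, g (algebraMap A₀ B₀ a) = algebraMap A₁ E (algebraMap A₀ A₁ a) := by
    intro a
    simp only [g, RingHom.comp_apply]
    rw [← IsScalarTower.algebraMap_apply A₀ B₀ F, IsScalarTower.algebraMap_apply A₀ K₀ F, hφ, hψ,
      ← IsScalarTower.algebraMap_apply A₁ K₁ E]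
  have hgint : ∀ b : B₀, IsIntegral A₁ (g b) := by
    intro b
    refine IsIntegral.map_of_comp_eq (algebraMap A₀ A₁) g ?_ (Algebra.IsIntegral.isIntegral b)
    ext a
    exact (hgA a).symm
  let x : Module.Free.ChooseBasisIndex A₀ B₀ → E := fun i => g (β i)
  have hdx : Algebra.discr K₁ x = ψ (algebraMap A₀ K₀ (Algebra.discr A₀ β)) := by
    have h1 := semilinear_discr ψ φ hφ c cE hc (fun a => algebraMap B₀ F (β a))
    rw [discr_algebraMap_family (A₀ := A₀) K₀ F β] at h1
    exact h1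
  have hne : Algebra.discr K₁ x ≠ 0 := by
    rw [hdx]
    intro h0
    have h1 : algebraMap A₀ K₀ (Algebra.discr A₀ β) = 0 := by
      rwa [map_eq_zero] at h0
    rw [map_eq_zero_iff _ (IsFractionRing.injective A₀ K₀)] at h1
    exact discr_basis_ne_zero K₀ F β h1
  have hcard : Fintype.card (Module.Free.ChooseBasisIndex A₀ B₀) = Module.finrank K₁ E := by
    rw [← Module.finrank_eq_card_chooseBasisIndex]
    exact finrank_eq_finrank_of_bases K₀ F K₁ E c cE
  obtain ⟨y, hy1, hy2⟩ := exists_basis_fin_of_discr_ne_zero K₁ E x hcard hne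
  refine ⟨y, fun i => ?_, ?_⟩
  · obtain ⟨a, ha⟩ := hy1 i
    rw [ha]
    exact hgint _
  · rw [hy2]; exact hne

include k K₀ F hψ hφ c cE hc in
/-- The local input of the globalisation step at a prime `u` of `A₁`. -/
theorem exists_basis_isIntegral_not_dvd_discr {ϖ : A₀} (hϖ : Prime ϖ) {u w : A₁} {m : ℕ}
    (hu : Prime u) (hm : 0 < m) (hfac : algebraMap A₀ A₁ ϖ = w * u ^ m) (hw : ¬ u ∣ w)
    (hram : ∀ P : Ideal B₀, P.IsPrime → algebraMap A₀ B₀ ϖ ∈ P → ramCount ϖ P ∣ m) :
    ∃ x : Basis (Fin (Module.finrank K₁ E)) K₁ E,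
      (∀ i, IsIntegral A₁ (x i)) ∧
      ∃ d : A₁, ¬ u ∣ d ∧ algebraMap A₁ K₁ d = Algebra.discr K₁ x := by
  classical
  obtain ⟨fam, _, x, hxint, d, hud, hd⟩ :=
    exists_integral_family_not_dvd_discr k K₀ F K₁ E ψ hψ φ hφ c cE hc hϖ hu hm hfac hw hram
  have hd0 : d ≠ 0 := by
    rintro rfl
    exact hud (dvd_zero u)
  have hne : Algebra.discr K₁ x ≠ 0 := by
    rw [← hd]
    exact (map_ne_zero_iff _ (IsFractionRing.injective A₁ K₁)).mpr hd0
  have hcard : Fintype.card fam.ι = Module.finrank K₁ E := by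
    rw [fam.card_eq]
    exact finrank_eq_finrank_of_bases K₀ F K₁ E c cE
  obtain ⟨y, hy1, hy2⟩ := exists_basis_fin_of_discr_ne_zero K₁ E x hcard hne
  refine ⟨y, fun i => ?_, d, hud, ?_⟩
  · obtain ⟨a, ha⟩ := hy1 i
    rw [ha]
    exact hxint _
  · rw [hy2, hd]

include k K₀ F B₀ hψ hφ c cE hc in
/-- **Abhyankar-lite, global form.**  `A₁` a PID over `A₀`; every prime `u` of `A₁` divides (the image
of) a prime `ϖ` of `A₀` exactly to a power `m` which is a multiple of all the multiplicities of `B₀`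
over `ϖ`.  Then the integral closure of `A₁` in `E = F ⊗_{K₀} K₁` is free on a `K₁`-basis of `E`
with unit discriminant. -/
theorem exists_basis_isUnit_discr_of_ramCount_dvd [IsPrincipalIdealRing A₁]
    (hram : ∀ u : A₁, Prime u → ∃ (ϖ : A₀) (w : A₁) (m : ℕ), Prime ϖ ∧ 0 < m ∧
      algebraMap A₀ A₁ ϖ = w * u ^ m ∧ ¬ u ∣ w ∧
      ∀ P : Ideal B₀, P.IsPrime → algebraMap A₀ B₀ ϖ ∈ P → ramCount ϖ P ∣ m) :
    ∃ β : Basis (Fin (Module.finrank K₁ E)) K₁ E, (∀ i, IsIntegral A₁ (β i)) ∧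
      (∀ z : E, IsIntegral A₁ z → z ∈ Submodule.span A₁ (Set.range β)) ∧
      ∃ d : A₁, IsUnit d ∧ algebraMap A₁ K₁ d = Algebra.discr K₁ β :=
  exists_basis_isUnit_discr_of_local
    (exists_basis_isIntegral_discr_ne_zero k B₀ K₀ F K₁ E ψ hψ φ hφ c cE hc)
    (fun u hu => by
      obtain ⟨ϖ, w, m, hϖ, hm, hfac, hw, hr⟩ := hram u hu
      exact exists_basis_isIntegral_not_dvd_discr k B₀ K₀ F K₁ E ψ hψ φ hφ c cE hc hϖ hu hm hfac
        hw hr)

include k K₀ F B₀ hψ hφ c cE hc in
/-- **(H2) of Lemma A from Abhyankar-lite.**  `R` a domain, `π : R`, `A₁ = R[1/π]` a PID.  Under the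
ramification hypothesis of `exists_basis_isUnit_discr_of_ramCount_dvd`, `E` has a `K₁`-basis of
`R`-integral elements whose discriminant is (the image of) a divisor of a power of `π`.  The
index type `ι` is arbitrary of the right cardinality. -/
theorem exists_basis_isIntegral_discr_dvd_pow [IsPrincipalIdealRing A₁]
    {R : Type*} [CommRing R] [IsDomain R] [Algebra R A₁] [Algebra R K₁] [IsScalarTower R A₁ K₁]
    [Algebra R E] [IsScalarTower R A₁ E] [IsScalarTower R K₁ E] (π : R)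
    [IsLocalization.Away π A₁]
    (hram : ∀ u : A₁, Prime u → ∃ (ϖ : A₀) (w : A₁) (m : ℕ), Prime ϖ ∧ 0 < m ∧
      algebraMap A₀ A₁ ϖ = w * u ^ m ∧ ¬ u ∣ w ∧
      ∀ P : Ideal B₀, P.IsPrime → algebraMap A₀ B₀ ϖ ∈ P → ramCount ϖ P ∣ m)
    {ι : Type*} [Fintype ι] [DecidableEq ι] (hι : Fintype.card ι = Module.finrank K₁ E) :
    ∃ c' : Basis ι K₁ E, (∀ i, IsIntegral R (c' i)) ∧
      ∃ d' : R, algebraMap R K₁ d' = Algebra.discr K₁ c' ∧ ∃ m : ℕ, d' ∣ π ^ m := by
  obtain ⟨β, hβ, -, d, hd, hdβ⟩ :=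
    exists_basis_isUnit_discr_of_ramCount_dvd k B₀ K₀ F K₁ E ψ hψ φ hφ c cE hc hram
  let e : Fin (Module.finrank K₁ E) ≃ ι := (Fintype.equivFinOfCardEq hι).symm
  have hdβ' : algebraMap A₁ K₁ d = Algebra.discr K₁ (β.reindex e) := by
    rw [hdβ, ← Algebra.discr_reindex K₁ β e]
    congr 1
    ext i
    rw [Basis.reindex_apply]
    rfl
  exact H2W.exists_basis_of_isUnit_discr π (β.reindex e)
    (fun i => by rw [Basis.reindex_apply]; exact hβ _) d hd hdβ'

end Assemble

end Fermat.Agent.Good
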