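/-
L-GEN / [G-AB0] (helper20), part 2: the tame discriminant bound for a CRT-adapted family.

`A` a PID which is an algebra over a field `k` of characteristic zero, `ϖ : A` prime, `B` Dedekind,
finite and torsion free over `A`, separable fraction fields.  For a CRT-adapted family `fam`
(`Good/AdaptedFamily.lean`) the discriminant of the family satisfies
`s * ϖ ^ #{a | k a ≠ 0} = t * discr A fam.b` with `ϖ ∤ s` (`exists_mul_pow_eq_mul_discr`):
the `ϖ`-adic valuation of the discriminant is at most `∑_P f_P (e_P - 1)`.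

Proof: the tame different (`X0/RR/TameDifferent`) gives `B^∨ ⊆ ϖ⁻¹ rad(ϖ B)` up to a factor
prime to `ϖ`; expressing the dual basis in the adapted family and taking determinants gives the
bound.  No Smith normal form, no norms of ideals.
-/
import Fermat.Agent.Good.AdaptedFamily
import Fermat.Agent.X0.RR.DeltaFormula
import Fermat.Agent.X0.RR.DeltaCount

set_option autoImplicit false
set_option linter.unusedSectionVars false
set_option linter.style.haveILetI false
set_option linter.unusedVariables false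

namespace Fermat.Agent.Good

open Ideal UniqueFactorizationMonoid Module Matrix
open scoped nonZeroDivisors

attribute [local instance] FractionRing.liftAlgebra FractionRing.isScalarTower_liftAlgebra

universe u v

section Count

variable {B : Type*} [CommRing B] [IsDedekindDomain B]

/-- `P ^ k ∣ I ↔ k ≤ count_P I`. -/
theorem prime_pow_dvd_iff_le_count [DecidableEq (Ideal B)] {P I : Ideal B} (hP : Prime P)
    (hI : I ≠ ⊥) (k : ℕ) : P ^ k ∣ I ↔ k ≤ (normalizedFactors I).count P := by
  rw [pow_dvd_iff_le_emultiplicity,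
    emultiplicity_eq_count_normalizedFactors hP.irreducible hI, normalize_eq, Nat.cast_le]

end Count

section Different

variable (k : Type*) [Field k] [CharZero k]
  {A : Type u} {B : Type v} [CommRing A] [IsDomain A] [IsPrincipalIdealRing A]
  [CommRing B] [IsDedekindDomain B] [Algebra A B] [Module.Finite A B] [Module.IsTorsionFree A B]
  [Algebra k A] [Algebra.IsSeparable (FractionRing A) (FractionRing B)]

include k in
/-- The different exponent at a prime over `ϖ` (characteristic zero). -/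
theorem count_differentIdeal_eq_ramCount_sub_one {ϖ : A} (hϖ : Prime ϖ) {P : Ideal B}
    (hP : P ∈ primesAbove (B := B) ϖ) [DecidableEq (Ideal B)] :
    (normalizedFactors (differentIdeal A B)).count P = ramCount ϖ P - 1 := by
  haveI := isMaximal_of_mem_primesAbove hϖ.ne_zero hP
  haveI := liesOver_of_mem_primesAbove hϖ hP
  haveI := isMaximal_span_of_prime hϖ
  have hp : Ideal.span {ϖ} ≠ (⊥ : Ideal A) := by
    rw [Ne, Ideal.span_singleton_eq_bot]; exact hϖ.ne_zero
  rw [ramCount_eq_ramificationIdx hϖ hP]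
  convert X0.RR.count_normalizedFactors_differentIdeal_of_charZero k A (p := Ideal.span {ϖ}) P hp


/-- Nakayama-type: an ideal of `B` coprime to `ϖ B` contains an element of `A` prime to `ϖ`. -/
theorem exists_not_dvd_algebraMap_mem {ϖ : A} (hϖ : Prime ϖ) (J : Ideal B)
    (hJ : J ⊔ Ideal.span {algebraMap A B ϖ} = ⊤) :
    ∃ s : A, ¬ ϖ ∣ s ∧ algebraMap A B s ∈ J := by
  have hfg : (⊤ : Submodule A (B ⧸ J)).FG := Module.finite_def.mp inferInstance
  have hle : (⊤ : Submodule A (B ⧸ J)) ≤ (Ideal.span {ϖ}) • (⊤ : Submodule A (B ⧸ J)) := by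
    intro x _
    obtain ⟨b, rfl⟩ := Ideal.Quotient.mk_surjective x
    have h1 : (1 : B) ∈ J ⊔ Ideal.span {algebraMap A B ϖ} := hJ ▸ Submodule.mem_top
    obtain ⟨d, hd, w, hw, hdw⟩ := Submodule.mem_sup.mp h1
    obtain ⟨z, rfl⟩ := Ideal.mem_span_singleton'.mp hw
    have h2 : Ideal.Quotient.mk J b = ϖ • Ideal.Quotient.mk J (z * b) := by
      have hsm : ϖ • Ideal.Quotient.mk J (z * b) = Ideal.Quotient.mk J (ϖ • (z * b)) := by
        rw [← Ideal.Quotient.mkₐ_eq_mk A, map_smul]
      rw [hsm, Ideal.Quotient.eq]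
      have : b - ϖ • (z * b) = d * b := by
        rw [Algebra.smul_def]
        linear_combination (-b) * hdw
      rw [this]
      exact Ideal.mul_mem_right _ _ hd
    rw [h2]
    exact Submodule.smul_mem_smul (Ideal.mem_span_singleton_self ϖ) Submodule.mem_top
  obtain ⟨r, hr1, hr2⟩ :=
    Submodule.exists_sub_one_mem_and_smul_eq_zero_of_fg_of_le_smul _ _ hfg hle
  refine ⟨r, ?_, ?_⟩
  · intro hdvd
    have h1 : ϖ ∣ r - 1 := Ideal.mem_span_singleton.mp hr1
    have h2 : ϖ ∣ 1 := by
      have := dvd_sub hdvd h1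
      simpa using this
    exact hϖ.not_isUnit (isUnit_of_dvd_one h2)
  · have := hr2 (Ideal.Quotient.mk J 1) Submodule.mem_top
    have hsm : r • Ideal.Quotient.mk J 1 = Ideal.Quotient.mk J (r • (1 : B)) := by
      rw [← Ideal.Quotient.mkₐ_eq_mk A, map_smul]
    rw [hsm, Ideal.Quotient.eq_zero_iff_mem, Algebra.smul_def, mul_one] at this
    exact this


include k in
/-- **Tame bound for the inverse different, in element form**: up to a factor `s` prime to `ϖ`,
`ϖ` lies in `𝔇 * ∏_{P ∣ ϖ} P`. -/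
theorem exists_mul_mem_different_mul_rad {ϖ : A} (hϖ : Prime ϖ) :
    ∃ s : A, ¬ ϖ ∣ s ∧ algebraMap A B (s * ϖ) ∈
      differentIdeal A B * ∏ P ∈ primesAbove (B := B) ϖ, P := by
  classical
  set S := primesAbove (B := B) ϖ with hS
  have h0 := hϖ.ne_zero
  have hSprime : ∀ P ∈ S, Prime P := fun P hP => prime_of_mem_primesAbove h0 hP
  have hD : differentIdeal A B ≠ ⊥ := differentIdeal_ne_bot
  have hcop : ∀ P ∈ S, ∀ Q ∈ S, P ≠ Q → ∀ a b : ℕ, IsCoprime (P ^ a) (Q ^ b) := by
    intro P hP Q hQ hPQ a b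
    rw [Ideal.isCoprime_iff_sup_eq]
    exact Ideal.pow_sup_pow_eq_top (IsMaximal.coprime_of_ne
      (isMaximal_of_mem_primesAbove h0 hP) (isMaximal_of_mem_primesAbove h0 hQ) hPQ)
  -- `∏ P ^ (e_P - 1) ∣ 𝔇`
  have h1 : ∏ P ∈ S, P ^ (ramCount ϖ P - 1) ∣ differentIdeal A B := by
    refine Finset.prod_dvd_of_coprime ?_ ?_
    · intro P hP Q hQ hPQ
      exact hcop P hP Q hQ hPQ _ _
    · intro P hP
      rw [prime_pow_dvd_iff_le_count (hSprime P hP) hD,
        count_differentIdeal_eq_ramCount_sub_one k hϖ hP]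
  -- `ϖ B ∣ 𝔇 * rad`
  have h2 : Ideal.span {algebraMap A B ϖ} ∣ differentIdeal A B * ∏ P ∈ S, P := by
    rw [← prod_primesAbove_pow h0]
    have : ∏ P ∈ S, P ^ ramCount ϖ P = (∏ P ∈ S, P ^ (ramCount ϖ P - 1)) * ∏ P ∈ S, P := by
      rw [← Finset.prod_mul_distrib]
      refine Finset.prod_congr rfl fun P hP => ?_
      rw [← pow_succ, Nat.sub_add_cancel (ramCount_pos hP)]
    rw [this]
    exact mul_dvd_mul_right h1 _
  obtain ⟨J, hJ⟩ := h2
  -- `J` is coprime to `ϖ B`
  have hJcop : J ⊔ Ideal.span {algebraMap A B ϖ} = ⊤ := by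
    by_contra hne
    obtain ⟨M, hM, hle⟩ := Ideal.exists_le_maximal _ hne
    have hMS : M ∈ S := (mem_primesAbove_iff h0).mpr
      ⟨hM.isPrime, hle (Ideal.mem_sup_right (Ideal.mem_span_singleton_self _))⟩
    have hMJ : M ∣ J := Ideal.dvd_iff_le.mpr (le_sup_left.trans hle)
    have hMprime := hSprime M hMS
    -- `M ^ (e + 1) ∣ 𝔇 * rad`
    have h3 : M ^ (ramCount ϖ M + 1) ∣ differentIdeal A B * ∏ P ∈ S, P := by
      rw [hJ, pow_succ]
      refine mul_dvd_mul ?_ hMJ
      rw [prime_pow_dvd_iff_le_count hMprime (span_algebraMap_ne_bot h0)]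
      exact le_of_eq rfl
    rw [← Finset.mul_prod_erase S _ hMS, ← mul_assoc, mul_comm (differentIdeal A B) M, mul_assoc,
      pow_succ', mul_dvd_mul_iff_left hMprime.ne_zero] at h3
    have h4 : ¬ M ∣ ∏ P ∈ S.erase M, P := by
      intro h
      obtain ⟨P, hP, hMP⟩ := (Prime.dvd_finsetProd_iff hMprime _).mp h
      have hPS := Finset.mem_of_mem_erase hP
      have hPmax := isMaximal_of_mem_primesAbove h0 hPS
      have : P = M := hPmax.eq_of_le hM.ne_top (Ideal.dvd_iff_le.mp hMP)
      exact (Finset.ne_of_mem_erase hP) this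
    have h5 := hMprime.pow_dvd_of_dvd_mul_right _ h4 h3
    rw [prime_pow_dvd_iff_le_count hMprime hD,
      count_differentIdeal_eq_ramCount_sub_one k hϖ hMS] at h5
    have := ramCount_pos hMS
    omega
  obtain ⟨s, hs1, hs2⟩ := exists_not_dvd_algebraMap_mem hϖ J hJcop
  refine ⟨s, hs1, ?_⟩
  rw [hJ, map_mul, mul_comm (Ideal.span _) J]
  exact Ideal.mul_mem_mul hs2 (Ideal.mem_span_singleton_self _)


variable (K L : Type*) [Field K] [Field L] [Algebra A K] [IsFractionRing A K] [Algebra B L]
  [IsFractionRing B L] [Algebra K L] [Algebra A L] [IsScalarTower A K L] [IsScalarTower A B L]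
  [FiniteDimensional K L] [Algebra.IsSeparable K L]

include k in
/-- **Tame bound for the trace dual, element form.** -/
theorem exists_mem_primes_of_trace_mem {ϖ : A} (hϖ : Prime ϖ) :
    ∃ s : A, ¬ ϖ ∣ s ∧ ∀ x : L,
      (∀ y : B, Algebra.trace K L (x * algebraMap B L y) ∈ (algebraMap A K).range) →
      ∃ r : B, (∀ P ∈ primesAbove (B := B) ϖ, r ∈ P) ∧
        algebraMap B L r = algebraMap A L (s * ϖ) * x := by
  classical
  haveI : IsIntegralClosure B A L := IsIntegralClosure.of_isIntegrallyClosed B A L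
  obtain ⟨s, hs, hmem⟩ := exists_mul_mem_different_mul_rad k (B := B) hϖ
  refine ⟨s, hs, fun x hx => ?_⟩
  have hD : differentIdeal A B ≠ ⊥ := differentIdeal_ne_bot
  have hD0 : ((differentIdeal A B : Ideal B) : FractionalIdeal B⁰ L) ≠ 0 :=
    FractionalIdeal.coeIdeal_ne_zero.mpr hD
  have hxinv : x ∈ ((differentIdeal A B : Ideal B) : FractionalIdeal B⁰ L)⁻¹ :=
    (X0.RR.mem_inv_differentIdeal_iff_trace A K L x).mpr hx
  have hxd : ∀ d ∈ differentIdeal A B, ∃ b' : B, algebraMap B L b' = x * algebraMap B L d := by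
    intro d hd
    have h1 : x * algebraMap B L d ∈
        ((differentIdeal A B : Ideal B) : FractionalIdeal B⁰ L)⁻¹ *
          ((differentIdeal A B : Ideal B) : FractionalIdeal B⁰ L) :=
      FractionalIdeal.mul_mem_mul hxinv (FractionalIdeal.mem_coeIdeal_of_mem B⁰ hd)
    rw [inv_mul_cancel₀ hD0, FractionalIdeal.mem_one_iff] at h1
    exact h1
  set rad := ∏ P ∈ primesAbove (B := B) ϖ, P with hrad
  have key : ∀ w ∈ differentIdeal A B * rad, ∃ r ∈ rad, algebraMap B L r = algebraMap B L w * x := by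
    intro w hw
    refine Submodule.mul_induction_on hw ?_ ?_
    · intro d hd ρ hρ
      obtain ⟨b', hb'⟩ := hxd d hd
      refine ⟨b' * ρ, Ideal.mul_mem_left _ _ hρ, ?_⟩
      rw [map_mul, map_mul, hb']
      ring
    · rintro w₁ w₂ ⟨r₁, hr₁, h₁⟩ ⟨r₂, hr₂, h₂⟩
      exact ⟨r₁ + r₂, Ideal.add_mem _ hr₁ hr₂, by rw [map_add, map_add, h₁, h₂]; ring⟩
  obtain ⟨r, hr, hrx⟩ := key _ hmem
  refine ⟨r, fun P hP => ?_, ?_⟩
  · exact (Ideal.prod_le_inf.trans (Finset.inf_le hP)) hr
  · rw [hrx, ← IsScalarTower.algebraMap_apply]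


end Different

section Transition

variable {A : Type u} {B : Type v} [CommRing A] [IsDomain A] [IsPrincipalIdealRing A]
  [CommRing B] [IsDedekindDomain B] [Algebra A B] [Module.Finite A B] [Module.IsTorsionFree A B]

/-- A family spanning `B` modulo `ϖ`, with as many members as the rank: the transition matrix
from a basis has determinant prime to `ϖ`. -/
theorem not_dvd_det_toMatrix_of_span_mod {ι : Type*} [Fintype ι] [DecidableEq ι] {ϖ : A}
    (hϖ : Prime ϖ) (β : Basis ι A B) (b : ι → B)
    (hspan : ∀ z : B, ∃ c : ι → A, ∃ z' : B, z = ∑ a, c a • b a + algebraMap A B ϖ * z') :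
    ¬ ϖ ∣ (β.toMatrix b).det := by
  choose C z' hC using fun i => hspan (β i)
  let Cm : Matrix ι ι A := Matrix.of C
  let Z : Matrix ι ι A := Matrix.of fun i j => β.repr (z' i) j
  have hmat : (1 : Matrix ι ι A) = Cm * (β.toMatrix b)ᵀ + ϖ • Z := by
    ext i j
    have h1 := congrArg (fun w => β.repr w j) (hC i)
    simp only [Basis.repr_self, map_add, map_sum, map_smul, Finsupp.coe_add,
      Finsupp.coe_finsetSum, Finsupp.coe_smul, Pi.add_apply, Finset.sum_apply, Pi.smul_apply,
      smul_eq_mul] at h1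
    rw [Matrix.add_apply, Matrix.mul_apply, Matrix.smul_apply, Matrix.one_apply]
    rw [Finsupp.single_apply] at h1
    rw [h1]
    congr 1
    rw [← Algebra.smul_def, map_smul]
    simp [Z]
  intro hdvd
  have h2 : ϖ ∣ (Cm * (β.toMatrix b)ᵀ).det := by
    rw [Matrix.det_mul, Matrix.det_transpose]
    exact Dvd.dvd.mul_left hdvd _
  have h3 : Cm * (β.toMatrix b)ᵀ = 1 - ϖ • Z := by rw [hmat]; abel
  rw [h3] at h2
  let f := Ideal.Quotient.mk (Ideal.span {ϖ})
  have h4 : f (1 - ϖ • Z).det = 1 := by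
    rw [RingHom.map_det]
    have : f.mapMatrix (1 - ϖ • Z) = 1 := by
      ext i j
      simp only [RingHom.mapMatrix_apply, Matrix.map_apply, Matrix.sub_apply, Matrix.smul_apply,
        smul_eq_mul, map_sub, map_mul]
      have : f ϖ = 0 := Ideal.Quotient.eq_zero_iff_mem.mpr (Ideal.mem_span_singleton_self ϖ)
      rw [this, zero_mul, sub_zero]
      simp [Matrix.one_apply]
    rw [this, Matrix.det_one]
  have h5 : f (1 - ϖ • Z).det = 0 :=
    Ideal.Quotient.eq_zero_iff_mem.mpr (Ideal.mem_span_singleton.mpr h2)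
  rw [h4] at h5
  have htop : Ideal.span {ϖ} = ⊤ := by
    rw [Ideal.eq_top_iff_one, ← Ideal.Quotient.eq_zero_iff_mem]
    exact h5
  exact hϖ.not_isUnit (Ideal.span_singleton_eq_top.mp htop)


end Transition

section MainBound

variable (k : Type*) [Field k] [CharZero k]
  {A : Type u} {B : Type v} [CommRing A] [IsDomain A] [IsPrincipalIdealRing A]
  [CommRing B] [IsDedekindDomain B] [Algebra A B] [Module.Finite A B] [Module.IsTorsionFree A B]
  [Algebra k A] [Algebra.IsSeparable (FractionRing A) (FractionRing B)]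

variable (K L : Type*) [Field K] [Field L] [Algebra A K] [IsFractionRing A K] [Algebra B L]
  [IsFractionRing B L] [Algebra K L] [Algebra A L] [IsScalarTower A K L] [IsScalarTower A B L]
  [FiniteDimensional K L] [Algebra.IsSeparable K L]

include K L in
/-- The discriminant of an `A`-basis of `B` is nonzero (separable fraction fields). -/
theorem discr_basis_ne_zero {ι : Type*} [Fintype ι] [DecidableEq ι] (β : Basis ι A B) :
    Algebra.discr A β ≠ 0 := by
  haveI : IsIntegralClosure B A L := IsIntegralClosure.of_isIntegrallyClosed B A L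
  haveI : IsLocalization (Algebra.algebraMapSubmonoid B A⁰) L :=
    IsIntegralClosure.isLocalization A K L B
  have h1 := Algebra.discr_localizationLocalization A A⁰ L β (Rₘ := K)
  intro h0
  rw [h0, map_zero] at h1
  exact Algebra.discr_not_zero_of_basis K (β.localizationLocalization K A⁰ L) h1


include k K L in
/-- **Tame discriminant bound for a basis.** -/
theorem exists_mul_pow_eq_mul_discr_basis {ϖ : A} (hϖ : Prime ϖ) (fam : AdaptedFamily A B ϖ)
    [DecidableEq fam.ι] (β : Basis fam.ι A B) :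
    ∃ s t : A, ¬ ϖ ∣ s ∧
      s * ϖ ^ (∑ a, if fam.k a = 0 then 0 else 1) = t * Algebra.discr A β := by
  classical
  haveI : IsIntegralClosure B A L := IsIntegralClosure.of_isIntegrallyClosed B A L
  haveI : IsLocalization (Algebra.algebraMapSubmonoid B A⁰) L :=
    IsIntegralClosure.isLocalization A K L B
  set n := Fintype.card fam.ι with hn
  -- transition matrix
  set T := β.toMatrix fam.b with hT
  have hs₁ : ¬ ϖ ∣ T.det := not_dvd_det_toMatrix_of_span_mod hϖ β fam.b fam.span_mod
  set s₁ := T.det with hs₁def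
  -- trace matrix of the basis
  set Γ := Algebra.traceMatrix A β with hΓ
  set D := Γ.det with hD
  have hD0 : D ≠ 0 := discr_basis_ne_zero K L β
  -- the scaled dual basis
  let z : fam.ι → B := fun i => ∑ j, Γ.adjugate i j • β j
  have hz : ∀ i l, Algebra.trace A B (z i * β l) = if i = l then D else 0 := by
    intro i l
    have h1 : Algebra.trace A B (z i * β l) = ∑ j, Γ.adjugate i j * Γ j l := by
      simp only [z, Finset.sum_mul, map_sum, smul_mul_assoc, map_smul, smul_eq_mul]
      rfl
    rw [h1, ← Matrix.mul_apply, Matrix.adjugate_mul, Matrix.smul_apply, Matrix.one_apply,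
      smul_eq_mul]
    split_ifs <;> simp [hD]
  obtain ⟨s₂, hs₂, hdual⟩ := exists_mem_primes_of_trace_mem k K L (B := B) hϖ
  -- the elements `r i`
  have hr : ∀ i, ∃ r : B, (∀ P ∈ primesAbove (B := B) ϖ, r ∈ P) ∧ D • r = (s₂ * ϖ) • z i := by
    intro i
    have hDL : algebraMap A L D ≠ 0 := by
      rw [IsScalarTower.algebraMap_apply A B L]
      exact (map_ne_zero_iff _ (IsFractionRing.injective B L)).mpr
        ((map_ne_zero_iff _ (FaithfulSMul.algebraMap_injective A B)).mpr hD0)
    obtain ⟨r, hr1, hr2⟩ := hdual ((algebraMap A L D)⁻¹ * algebraMap B L (z i)) (by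
      intro y
      refine ⟨β.repr y i, ?_⟩
      have h1 : (algebraMap A L D)⁻¹ * algebraMap B L (z i) * algebraMap B L y =
          (algebraMap A K D)⁻¹ • algebraMap B L (z i * y) := by
        rw [Algebra.smul_def, map_inv₀, ← IsScalarTower.algebraMap_apply, map_mul]
        ring
      rw [h1, map_smul, Algebra.trace_localization A A⁰, smul_eq_mul]
      have h2 : Algebra.trace A B (z i * y) = D * β.repr y i := by
        conv_lhs => rw [← β.sum_repr y]
        simp only [Finset.mul_sum, mul_smul_comm, map_sum, map_smul, hz, smul_eq_mul]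
        simp [Finset.sum_ite_eq, mul_comm]
      rw [h2, map_mul]
      have hDK : algebraMap A K D ≠ 0 :=
        (map_ne_zero_iff _ (IsFractionRing.injective A K)).mpr hD0
      field_simp)
    refine ⟨r, hr1, ?_⟩
    apply IsFractionRing.injective B L
    rw [Algebra.smul_def, Algebra.smul_def, map_mul, map_mul, hr2,
      ← IsScalarTower.algebraMap_apply, ← IsScalarTower.algebraMap_apply]
    field_simp
  choose r hr1 hr2 using hr
  -- coordinates of `r i`
  let R : Matrix fam.ι fam.ι A := Matrix.of fun i j => β.repr (r i) j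
  have hRmat : (s₂ * ϖ) • Γ.adjugate = D • R := by
    ext i j
    have h1 := congrArg (fun w => β.repr w j) (hr2 i)
    simp only [map_smul, Finsupp.coe_smul, Pi.smul_apply, smul_eq_mul] at h1
    have h2 : β.repr (z i) j = Γ.adjugate i j := by
      simp only [z, map_sum, map_smul, Basis.repr_self, Finsupp.coe_finsetSum, Finsupp.coe_smul,
        Finset.sum_apply, Pi.smul_apply, smul_eq_mul, Finsupp.single_apply]
      simp [Finset.sum_ite_eq']
    rw [h2] at h1
    simp only [Matrix.smul_apply, smul_eq_mul, R, Matrix.of_apply]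
    exact h1.symm
  -- `s₁ • r i` in terms of the adapted family
  let R' : Matrix fam.ι fam.ι A := R * T.adjugateᵀ
  have hR' : ∀ i, s₁ • r i = ∑ a, R' i a • fam.b a := by
    intro i
    apply β.repr.injective
    ext j
    simp only [map_smul, map_sum, Finsupp.coe_smul, Finsupp.coe_finsetSum, Pi.smul_apply,
      Finset.sum_apply, smul_eq_mul]
    have h1 : ∀ a, β.repr (fam.b a) j = T j a := fun a => rfl
    simp only [h1, R', Matrix.mul_apply, Matrix.transpose_apply, Finset.sum_mul]
    rw [Finset.sum_comm]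
    have h2 : ∀ l, ∑ a, R i l * T.adjugate a l * T j a = R i l * (T * T.adjugate) j l := by
      intro l
      rw [Matrix.mul_apply, Finset.mul_sum]
      refine Finset.sum_congr rfl fun a _ => ?_
      ring
    simp only [h2, Matrix.mul_adjugate, Matrix.smul_apply, Matrix.one_apply, smul_eq_mul]
    simp [Finset.sum_ite_eq, mul_comm, R]
    exact Or.inl rfl
  have hdvd : ∀ i a, fam.k a = 0 → ϖ ∣ R' i a := by
    intro i a ha
    refine fam.indep_mod (fun a => R' i a) ?_ a ha
    intro P hP hϖP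
    rw [← hR' i, Algebra.smul_def]
    exact Ideal.mul_mem_left _ _
      (hr1 i P ((mem_primesAbove_iff hϖ.ne_zero).mpr ⟨hP, hϖP⟩))
  choose q hq using hdvd
  let R'' : Matrix fam.ι fam.ι A := Matrix.of fun i a =>
    if h : fam.k a = 0 then q i a h else R' i a
  let w : fam.ι → A := fun a => if fam.k a = 0 then ϖ else 1
  have hR'' : R' = R'' * Matrix.diagonal w := by
    ext i a
    rw [Matrix.mul_diagonal]
    simp only [R'', w, Matrix.of_apply]
    by_cases h : fam.k a = 0
    · rw [dif_pos h, if_pos h, mul_comm]; exact hq i a h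
    · rw [dif_neg h, if_neg h, mul_one]
  -- determinants
  have hnpos : 0 < n := by
    rw [hn, fam.card_eq]
    exact Module.finrank_pos
  have hE1 : (s₂ * ϖ) ^ n * D ^ (n - 1) = D ^ n * R.det := by
    have := congrArg Matrix.det hRmat
    rw [Matrix.det_smul, Matrix.det_smul, Matrix.det_adjugate] at this
    exact this
  have hE2 : (s₂ * ϖ) ^ n = D * R.det := by
    have h1 : D ^ n = D ^ (n - 1) * D := by
      rw [← pow_succ, Nat.sub_add_cancel hnpos]
    rw [h1] at hE1
    have h2 : D ^ (n - 1) * (s₂ * ϖ) ^ n = D ^ (n - 1) * (D * R.det) := by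
      rw [mul_comm, hE1]; ring
    exact mul_left_cancel₀ (pow_ne_zero _ hD0) h2
  have hdetR' : R'.det = R.det * s₁ ^ (n - 1) := by
    simp only [R']
    rw [Matrix.det_mul, Matrix.det_transpose, Matrix.det_adjugate]
  set n₀ := ∑ a, (if fam.k a = 0 then 1 else 0 : ℕ) with hn₀
  set δ := ∑ a, (if fam.k a = 0 then 0 else 1 : ℕ) with hδ
  have hnn : n₀ + δ = n := by
    rw [hn₀, hδ, ← Finset.sum_add_distrib, hn, Fintype.card_eq_sum_ones]
    refine Finset.sum_congr rfl fun a _ => ?_
    split_ifs <;> rfl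
  have hprodw : ∏ a, w a = ϖ ^ n₀ := by
    simp only [w]
    rw [Finset.prod_ite, Finset.prod_const, Finset.prod_const_one, mul_one, hn₀,
      Finset.sum_boole, Nat.cast_id]
  have hdetR'2 : R'.det = R''.det * ϖ ^ n₀ := by
    rw [hR'', Matrix.det_mul, Matrix.det_diagonal, hprodw]
  refine ⟨s₂ ^ n * s₁ ^ (n - 1), R''.det, ?_, ?_⟩
  · intro h
    rcases hϖ.dvd_or_dvd h with h | h
    · exact hs₂ (hϖ.dvd_of_dvd_pow h)
    · exact hs₁ (hϖ.dvd_of_dvd_pow h)
  · have h3 : ϖ ^ n₀ * (s₂ ^ n * s₁ ^ (n - 1) * ϖ ^ δ) = ϖ ^ n₀ * (R''.det * D) := by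
      have : (s₂ * ϖ) ^ n * s₁ ^ (n - 1) = D * (R''.det * ϖ ^ n₀) := by
        rw [hE2, ← hdetR'2, hdetR']; ring
      have hϖn : ϖ ^ n = ϖ ^ n₀ * ϖ ^ δ := by rw [← pow_add, hnn]
      rw [mul_pow, hϖn] at this
      linear_combination this
    have := mul_left_cancel₀ (pow_ne_zero _ hϖ.ne_zero) h3
    rw [this]
    rfl


include k K L in
/-- **Tame discriminant bound for a CRT-adapted family**: the `ϖ`-adic valuation of the
discriminant of the family is at most `#{a | k a ≠ 0} = ∑_P f_P (e_P - 1)`. -/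
theorem exists_mul_pow_eq_mul_discr {ϖ : A} (hϖ : Prime ϖ) (fam : AdaptedFamily A B ϖ)
    [DecidableEq fam.ι] :
    ∃ s t : A, ¬ ϖ ∣ s ∧
      s * ϖ ^ (∑ a, if fam.k a = 0 then 0 else 1) = t * Algebra.discr A fam.b := by
  let β₀ := Module.Free.chooseBasis A B
  have hcard : Fintype.card fam.ι = Fintype.card (Module.Free.ChooseBasisIndex A B) := by
    rw [fam.card_eq, Module.finrank_eq_card_chooseBasisIndex]
  let e := Fintype.equivOfCardEq hcard
  let β : Basis fam.ι A B := β₀.reindex e.symm
  obtain ⟨s, t, hs, hst⟩ := exists_mul_pow_eq_mul_discr_basis k K L hϖ fam β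
  set T := β.toMatrix fam.b with hT
  have hs₁ : ¬ ϖ ∣ T.det := not_dvd_det_toMatrix_of_span_mod hϖ β fam.b fam.span_mod
  have hb : fam.b = (β : fam.ι → B) ᵥ* T.map (algebraMap A B) := by
    ext a
    rw [Matrix.vecMul, dotProduct]
    conv_lhs => rw [← β.sum_repr (fam.b a)]
    refine Finset.sum_congr rfl fun i _ => ?_
    rw [Matrix.map_apply, Algebra.smul_def, mul_comm]
    rfl
  have hdisc : Algebra.discr A fam.b = T.det ^ 2 * Algebra.discr A β := by
    conv_lhs => rw [hb]
    exact Algebra.discr_of_matrix_vecMul _ _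
  refine ⟨T.det ^ 2 * s, t, ?_, ?_⟩
  · intro h
    rcases hϖ.dvd_or_dvd h with h | h
    · exact hs₁ (hϖ.dvd_of_dvd_pow h)
    · exact hs h
  · rw [hdisc, mul_assoc, hst]; ring


end MainBound

end Fermat.Agent.Good
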