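/-
L-GEN / [G-AB0] (helper20), part 3: Abhyankar-lite, local form.

`A₀ ⊆ B₀` as in `Good/TameDisc.lean` (PID, Dedekind, characteristic zero), `A₁ ⊇ A₀` an integrally
closed domain with fraction field `K₁`, `E` a finite commutative `K₁`-algebra with a ring
homomorphism `φ : F = Frac B₀ → E` which is semilinear over `ψ : K₀ → K₁` and maps a `K₀`-basis of
`F` to a `K₁`-basis of `E` (i.e. `E = F ⊗_{K₀} K₁`; `E` need NOT be a field).  If `ϖ = w * u ^ m`
in `A₁` with `u` prime, `u ∤ w`, and every prime of `B₀` over `ϖ` has multiplicity dividing `m`,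
then the elements `x a = φ (b a) / u ^ (k a * m / e a)` (`b` a CRT-adapted family) are integral over
`A₁` and their discriminant is prime to `u` (`exists_integral_family_not_dvd_discr`).
-/
import Fermat.Agent.Good.TameDisc
import Fermat.Agent.Good.IntCoeffs

set_option autoImplicit false
set_option linter.unusedSectionVars false
set_option linter.style.haveILetI false
set_option linter.unusedVariables false

namespace Fermat.Agent.Good

open Ideal UniqueFactorizationMonoid Module Matrix
open scoped nonZeroDivisors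

attribute [local instance] FractionRing.liftAlgebra FractionRing.isScalarTower_liftAlgebra

universe u v

section Semilinear

variable {K₀ F K₁ E : Type*} [Field K₀] [Field F] [Algebra K₀ F] [Field K₁] [CommRing E]
  [Algebra K₁ E] (ψ : K₀ →+* K₁) (φ : F →+* E)
  (hφ : ∀ x : K₀, φ (algebraMap K₀ F x) = algebraMap K₁ E (ψ x))
  {ι' : Type*} [Fintype ι'] [DecidableEq ι'] (c : Basis ι' K₀ F) (cE : Basis ι' K₁ E)
  (hc : ∀ i, cE i = φ (c i))

include hφ hc in
/-- Coordinates of `φ w` in the basis `φ ∘ c`. -/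
theorem semilinear_repr (w : F) (i : ι') : cE.repr (φ w) i = ψ (c.repr w i) := by
  have h1 : φ w = ∑ j, ψ (c.repr w j) • cE j := by
    conv_lhs => rw [← c.sum_repr w]
    rw [map_sum]
    refine Finset.sum_congr rfl fun j _ => ?_
    rw [Algebra.smul_def, map_mul, hφ, hc, Algebra.smul_def]
  rw [h1]
  simp [Finsupp.single_apply, Finset.sum_ite_eq']

include hφ hc in
/-- Trace compatibility for a base change `F → E = F ⊗ K₁`. -/
theorem semilinear_trace (y : F) : Algebra.trace K₁ E (φ y) = ψ (Algebra.trace K₀ F y) := by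
  rw [Algebra.trace_eq_matrix_trace cE, Algebra.trace_eq_matrix_trace c, Matrix.trace,
    Matrix.trace, map_sum]
  refine Finset.sum_congr rfl fun i _ => ?_
  rw [Matrix.diag_apply, Matrix.diag_apply, Algebra.leftMulMatrix_eq_repr_mul,
    Algebra.leftMulMatrix_eq_repr_mul, hc, ← map_mul]
  exact semilinear_repr ψ φ hφ c cE hc _ _

include hφ hc in
/-- Discriminant compatibility. -/
theorem semilinear_discr {ι : Type*} [Fintype ι] [DecidableEq ι] (b : ι → F) :
    Algebra.discr K₁ (fun i => φ (b i)) = ψ (Algebra.discr K₀ b) := by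
  rw [Algebra.discr_def, Algebra.discr_def, RingHom.map_det]
  congr 1
  ext i j
  rw [RingHom.mapMatrix_apply, Matrix.map_apply, Algebra.traceMatrix_apply,
    Algebra.traceMatrix_apply, Algebra.traceForm_apply, Algebra.traceForm_apply, ← map_mul]
  exact semilinear_trace ψ φ hφ c cE hc _

end Semilinear

section IntegralDiscr

variable {R L E : Type*} [CommRing R] [IsDomain R] [IsIntegrallyClosed R] [Field L] [Algebra R L]
  [IsFractionRing R L] [CommRing E] [Algebra L E] [Algebra R E] [IsScalarTower R L E]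
  [Module.Finite L E]

/-- The discriminant of a family of integral elements comes from the base ring. -/
theorem exists_algebraMap_eq_discr_of_isIntegral {ι : Type*} [Fintype ι] [DecidableEq ι]
    (x : ι → E) (hx : ∀ i, IsIntegral R (x i)) :
    ∃ d : R, algebraMap R L d = Algebra.discr L x := by
  have hT : ∀ i j, ∃ t : R, algebraMap R L t = Algebra.trace L E (x i * x j) := fun i j =>
    IsIntegrallyClosed.algebraMap_eq_of_integral (isIntegral_trace_alg ((hx i).mul (hx j)))
  choose T hT using hT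
  refine ⟨(Matrix.of T).det, ?_⟩
  rw [Algebra.discr_def, RingHom.map_det]
  congr 1
  ext i j
  rw [RingHom.mapMatrix_apply, Matrix.map_apply, Matrix.of_apply, hT,
    Algebra.traceMatrix_apply, Algebra.traceForm_apply]

end IntegralDiscr

section Local

variable (k : Type*) [Field k] [CharZero k]
  {A₀ : Type u} {B₀ : Type v} [CommRing A₀] [IsDomain A₀] [IsPrincipalIdealRing A₀]
  [Algebra k A₀] [CommRing B₀] [IsDedekindDomain B₀] [Algebra A₀ B₀] [Module.Finite A₀ B₀]
  [Module.IsTorsionFree A₀ B₀]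
  (K₀ F : Type*) [Field K₀] [Field F] [Algebra A₀ K₀] [IsFractionRing A₀ K₀] [Algebra B₀ F]
  [IsFractionRing B₀ F] [Algebra K₀ F] [Algebra A₀ F] [IsScalarTower A₀ K₀ F]
  [IsScalarTower A₀ B₀ F] [FiniteDimensional K₀ F] [Algebra.IsSeparable K₀ F]

include K₀ in
/-- The discriminant of a family in `B₀`, computed in the fraction fields. -/
theorem discr_algebraMap_family {ι : Type*} [Fintype ι] [DecidableEq ι] (b : ι → B₀) :
    Algebra.discr K₀ (fun i => algebraMap B₀ F (b i)) =
      algebraMap A₀ K₀ (Algebra.discr A₀ b) := by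
  haveI : IsIntegralClosure B₀ A₀ F := IsIntegralClosure.of_isIntegrallyClosed B₀ A₀ F
  haveI : IsLocalization (Algebra.algebraMapSubmonoid B₀ A₀⁰) F :=
    IsIntegralClosure.isLocalization A₀ K₀ F B₀
  rw [Algebra.discr_def, Algebra.discr_def, RingHom.map_det]
  congr 1
  ext i j
  rw [RingHom.mapMatrix_apply, Matrix.map_apply, Algebra.traceMatrix_apply,
    Algebra.traceMatrix_apply, Algebra.traceForm_apply, Algebra.traceForm_apply, ← map_mul,
    Algebra.trace_localization A₀ A₀⁰]

variable {A₁ : Type*} [CommRing A₁] [IsDomain A₁] [IsIntegrallyClosed A₁] [Algebra A₀ A₁]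
  (K₁ E : Type*) [Field K₁] [Algebra A₁ K₁] [IsFractionRing A₁ K₁] [CommRing E] [Algebra K₁ E]
  [Algebra A₁ E] [IsScalarTower A₁ K₁ E] [Module.Finite K₁ E]
  (ψ : K₀ →+* K₁)
  (hψ : ∀ a : A₀, ψ (algebraMap A₀ K₀ a) = algebraMap A₁ K₁ (algebraMap A₀ A₁ a))
  (φ : F →+* E) (hφ : ∀ x : K₀, φ (algebraMap K₀ F x) = algebraMap K₁ E (ψ x))
  {ι' : Type*} [Fintype ι'] [DecidableEq ι'] (c : Basis ι' K₀ F) (cE : Basis ι' K₁ E)
  (hc : ∀ i, cE i = φ (c i))

include k hψ hφ c cE hc in
/-- **Abhyankar-lite, local form at a prime `u` of `A₁`.**  If `ϖ = w * u ^ m` with `u ∤ w` and all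
ramification indices of `B₀` over `ϖ` divide `m` (characteristic zero), there is a family of
`finrank A₀ B₀` elements of `E`, integral over `A₁`, whose discriminant is (the image of) an element
of `A₁` prime to `u`. -/
theorem exists_integral_family_not_dvd_discr {ϖ : A₀} (hϖ : Prime ϖ) {u w : A₁} {m : ℕ}
    (hu : Prime u) (hm : 0 < m) (hfac : algebraMap A₀ A₁ ϖ = w * u ^ m) (hw : ¬ u ∣ w)
    (hram : ∀ P : Ideal B₀, P.IsPrime → algebraMap A₀ B₀ ϖ ∈ P → ramCount ϖ P ∣ m) :
    ∃ (fam : AdaptedFamily A₀ B₀ ϖ) (_ : DecidableEq fam.ι) (x : fam.ι → E),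
      (∀ a, IsIntegral A₁ (x a)) ∧
      ∃ d : A₁, ¬ u ∣ d ∧ algebraMap A₁ K₁ d = Algebra.discr K₁ x := by
  classical
  obtain ⟨fam⟩ := nonempty_adaptedFamily (B := B₀) hϖ
  haveI : IsIntegralClosure B₀ A₀ F := IsIntegralClosure.of_isIntegrallyClosed B₀ A₀ F
  haveI hsep : Algebra.IsSeparable (FractionRing A₀) (FractionRing B₀) :=
    X0.RR.isSeparable_fractionRing_of_isFractionRing A₀ K₀ (L := F) (B := B₀)
  obtain ⟨s, t, hs, hst⟩ := exists_mul_pow_eq_mul_discr k K₀ F hϖ fam
  have he : ∀ a, fam.e a ∣ m := by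
    intro a
    obtain ⟨P, hP, hϖP, hePa⟩ := fam.e_eq a
    rw [hePa]
    exact hram P hP hϖP
  have hepos : ∀ a, 0 < fam.e a := fun a => lt_of_le_of_lt (Nat.zero_le _) (fam.k_lt a)
  set uK := algebraMap A₁ K₁ u with huK
  have huK0 : uK ≠ 0 := (map_ne_zero_iff _ (IsFractionRing.injective A₁ K₁)).mpr hu.ne_zero
  let g : B₀ →+* E := φ.comp (algebraMap B₀ F)
  have hgA : ∀ a : A₀, g (algebraMap A₀ B₀ a) = algebraMap A₁ E (algebraMap A₀ A₁ a) := by
    intro a
    simp only [g, RingHom.comp_apply]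
    rw [← IsScalarTower.algebraMap_apply A₀ B₀ F, IsScalarTower.algebraMap_apply A₀ K₀ F, hφ, hψ,
      ← IsScalarTower.algebraMap_apply A₁ K₁ E]
  have hgint : ∀ b : B₀, IsIntegral A₁ (g b) := by
    intro b
    refine IsIntegral.map_of_comp_eq (algebraMap A₀ A₁) g ?_ (Algebra.IsIntegral.isIntegral b)
    ext a
    exact (hgA a).symm
  let x : fam.ι → E := fun a =>
    algebraMap K₁ E (uK⁻¹ ^ (fam.k a * (m / fam.e a))) * g (fam.b a)
  have hxint : ∀ a, IsIntegral A₁ (x a) := by
    intro a
    obtain ⟨cc, hcc⟩ := fam.pow_eq a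
    refine IsIntegral.of_pow (hepos a) ?_
    have h1 : x a ^ fam.e a = algebraMap A₁ E (w ^ fam.k a) * g cc := by
      have e1 : g (fam.b a) ^ fam.e a =
          algebraMap K₁ E ((algebraMap A₁ K₁ w * uK ^ m) ^ fam.k a) * g cc := by
        rw [← map_pow, hcc, map_mul, map_pow, hgA, hfac,
          IsScalarTower.algebraMap_apply A₁ K₁ E, map_mul, map_pow, ← huK, map_pow]
      have e2 : (algebraMap K₁ E (uK⁻¹ ^ (fam.k a * (m / fam.e a)))) ^ fam.e a =
          algebraMap K₁ E (uK⁻¹ ^ (fam.k a * m)) := by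
        rw [← map_pow, ← pow_mul, mul_assoc, Nat.div_mul_cancel (he a)]
      simp only [x]
      rw [mul_pow, e1, e2, ← mul_assoc, ← map_mul, IsScalarTower.algebraMap_apply A₁ K₁ E,
        map_pow]
      congr 2
      rw [mul_pow, ← pow_mul, inv_pow, mul_comm m]
      field_simp
    rw [h1]
    exact (isIntegral_algebraMap).mul (hgint cc)
  refine ⟨fam, inferInstance, x, hxint, ?_⟩
  · -- the discriminant
    obtain ⟨d, hd⟩ := exists_algebraMap_eq_discr_of_isIntegral (R := A₁) (L := K₁) x hxint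
    refine ⟨d, ?_, hd⟩
    set Ntot := ∑ a, fam.k a * (m / fam.e a) with hNtot
    set δ := ∑ a, (if fam.k a = 0 then 0 else 1 : ℕ) with hδ
    have hsumk : 2 * Ntot = m * δ := fam.sum_k m he
    set Dd := Algebra.discr A₀ fam.b with hDd
    -- discriminant of `x`
    let P : Matrix fam.ι fam.ι K₁ :=
      Matrix.diagonal fun a => uK⁻¹ ^ (fam.k a * (m / fam.e a))
    have hxP : x = (P.map (algebraMap K₁ E)) *ᵥ (fun a => g (fam.b a)) := by
      ext a
      simp only [x, P, Matrix.mulVec, dotProduct, Matrix.map_apply, Matrix.diagonal_apply]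
      rw [Finset.sum_eq_single a]
      · simp
      · intro b _ hba
        rw [if_neg (Ne.symm hba), map_zero, zero_mul]
      · intro h; exact absurd (Finset.mem_univ a) h
    have hdy : Algebra.discr K₁ (fun a => g (fam.b a)) =
        algebraMap A₁ K₁ (algebraMap A₀ A₁ Dd) := by
      have h1 := semilinear_discr ψ φ hφ c cE hc (fun a => algebraMap B₀ F (fam.b a))
      rw [discr_algebraMap_family (A₀ := A₀) K₀ F fam.b, hψ] at h1
      exact h1
    have hdx : Algebra.discr K₁ x =
        (uK⁻¹ ^ Ntot) ^ 2 * algebraMap A₁ K₁ (algebraMap A₀ A₁ Dd) := by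
      rw [hxP, Algebra.discr_of_matrix_mulVec, hdy, Matrix.det_diagonal, Finset.prod_pow_eq_pow_sum]
    -- back to `A₁`
    have h2 : d * u ^ (m * δ) = algebraMap A₀ A₁ Dd := by
      apply IsFractionRing.injective A₁ K₁
      rw [map_mul, map_pow, hd, hdx, ← huK, ← hsumk, ← pow_mul, mul_comm Ntot 2, inv_pow]
      field_simp
    have h3 : algebraMap A₀ A₁ t * d = algebraMap A₀ A₁ s * w ^ δ := by
      have h4 := congrArg (algebraMap A₀ A₁) hst
      rw [map_mul, map_mul, map_pow, hfac, ← h2, mul_pow, ← pow_mul] at h4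
      have h5 : u ^ (m * δ) * (algebraMap A₀ A₁ t * d) =
          u ^ (m * δ) * (algebraMap A₀ A₁ s * w ^ δ) := by
        linear_combination -h4
      exact mul_left_cancel₀ (pow_ne_zero _ hu.ne_zero) h5
    intro hud
    have h6 : u ∣ algebraMap A₀ A₁ s * w ^ δ := by
      rw [← h3]; exact Dvd.dvd.mul_left hud _
    rcases hu.dvd_or_dvd h6 with h7 | h7
    · -- `u ∣ s` in `A₁` forces `ϖ ∣ s`
      apply hs
      by_contra hns
      obtain ⟨a, b, hab⟩ := (hϖ.irreducible.coprime_iff_not_dvd.mpr hns)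
      have h8 := congrArg (algebraMap A₀ A₁) hab
      rw [map_add, map_mul, map_mul, map_one, hfac] at h8
      have h9 : u ∣ 1 := by
        rw [← h8]
        refine dvd_add ?_ (Dvd.dvd.mul_left h7 _)
        refine Dvd.dvd.mul_left (Dvd.dvd.mul_left (dvd_pow_self u hm.ne') _) _
      exact hu.not_isUnit (isUnit_of_dvd_one h9)
    · exact hw (hu.dvd_of_dvd_pow h7)

end Local

end Fermat.Agent.Good
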