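import Mathlib

/-!
# L-GEN node [G-AVG]: the tame case of Lemma B by averaging (Reynolds operator)

`red : B →+* A` a `G`-equivariant ring hom whose image spans the `k`-algebra `A`, `|G|` invertible
in `k`.  Then every `G`-fixed element of `A` lies in the `k`-span of the images of the `G`-fixed
elements of `B`.
-/

set_option autoImplicit false

namespace Fermat.Agent.Good.Avg

variable {B A G k : Type*} [CommRing B] [CommRing A] [Field k] [Algebra k A] [Group G]
  [Fintype G] [MulSemiringAction G B] [MulSemiringAction G A] [SMulCommClass G k A]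

/-- The sum over the group of the translates of `b` is fixed. -/
theorem smul_sum_smul (g : G) (b : B) : g • ∑ h : G, h • b = ∑ h : G, h • b := by
  rw [Finset.smul_sum]
  simp_rw [← mul_smul]
  exact Fintype.sum_bijective (fun h => g * h) (Group.mulLeft_bijective g) _ _ fun h => rfl

/-- **[G-AVG].** Tame case of Lemma B. -/
theorem fixed_mem_span_of_isUnit_card (red : B →+* A) (hequiv : ∀ (g : G) (b : B), red (g • b) = g • red b)
    (hspan : Submodule.span k (Set.range red) = ⊤) (hG : IsUnit ((Fintype.card G : ℕ) : k))
    (x : A) (hx : ∀ g : G, g • x = x) :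
    x ∈ Submodule.span k (red '' {b : B | ∀ g : G, g • b = b}) := by
  classical
  set C := Submodule.span k (red '' {b : B | ∀ g : G, g • b = b}) with hC
  -- the averaging operator maps the span of the image of `red` into `C`
  have havg : ∀ y ∈ Submodule.span k (Set.range red), ∑ g : G, g • y ∈ C := by
    intro y hy
    induction hy using Submodule.span_induction with
    | mem y hy =>
      obtain ⟨b, rfl⟩ := hy
      have : ∑ g : G, g • red b = red (∑ g : G, g • b) := by
        rw [map_sum]
        exact Finset.sum_congr rfl fun g _ => (hequiv g b).symm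
      rw [this]
      exact Submodule.subset_span ⟨_, fun g => smul_sum_smul g b, rfl⟩
    | zero => simp
    | add y z _ _ hy hz =>
      simp only [smul_add, Finset.sum_add_distrib]
      exact C.add_mem hy hz
    | smul c y _ hy =>
      have : ∑ g : G, g • (c • y) = c • ∑ g : G, g • y := by
        rw [Finset.smul_sum]
        exact Finset.sum_congr rfl fun g _ => smul_comm g c y
      rw [this]
      exact C.smul_mem c hy
  have hx' : x ∈ Submodule.span k (Set.range red) := by rw [hspan]; trivial
  have h1 : ∑ g : G, g • x = ((Fintype.card G : ℕ) : k) • x := by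
    simp_rw [hx]
    rw [Finset.sum_const, Finset.card_univ, Nat.cast_smul_eq_nsmul]
  have h2 := havg x hx'
  rw [h1] at h2
  obtain ⟨u, hu⟩ := hG
  have h3 : x = (↑u⁻¹ : k) • (((Fintype.card G : ℕ) : k) • x) := by
    rw [smul_smul, ← hu, Units.inv_mul, one_smul]
  rw [h3]
  exact C.smul_mem _ h2

/-- Variant with `(card G : k) ≠ 0`. -/
theorem fixed_mem_span_of_card_ne_zero (red : B →+* A)
    (hequiv : ∀ (g : G) (b : B), red (g • b) = g • red b)
    (hspan : Submodule.span k (Set.range red) = ⊤) (hG : ((Fintype.card G : ℕ) : k) ≠ 0)
    (x : A) (hx : ∀ g : G, g • x = x) :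
    x ∈ Submodule.span k (red '' {b : B | ∀ g : G, g • b = b}) :=
  fixed_mem_span_of_isUnit_card red hequiv hspan (isUnit_iff_ne_zero.mpr hG) x hx

/-- Variant: the characteristic exponent form, `p := ringChar k` does not divide `card G`. -/
theorem fixed_mem_span_of_not_dvd (p : ℕ) [CharP k p] (red : B →+* A)
    (hequiv : ∀ (g : G) (b : B), red (g • b) = g • red b)
    (hspan : Submodule.span k (Set.range red) = ⊤) (hG : ¬ p ∣ Fintype.card G)
    (x : A) (hx : ∀ g : G, g • x = x) :
    x ∈ Submodule.span k (red '' {b : B | ∀ g : G, g • b = b}) :=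
  fixed_mem_span_of_card_ne_zero red hequiv hspan
    (fun h => hG ((CharP.cast_eq_zero_iff k p _).mp h)) x hx

end Fermat.Agent.Good.Avg
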