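import Mathlib

/-!
# L-GEN node [G-BCN], general (etale-algebra) form: base change along a Galois extension
preserves integral closedness

`K` a field, `L / K` a (possibly infinite) Galois extension, `E` a commutative `K`-algebra and
`B ⊆ E` a `K`-subalgebra which is integrally closed in `E`.  Then the image of `B ⊗[K] L` in
`E ⊗[K] L` is integrally closed in `E ⊗[K] L` (`mem_range_cmp_of_isIntegralElem`).
No finiteness, Noetherian or domain hypotheses.
-/

set_option autoImplicit false

open scoped TensorProduct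

namespace Fermat.Agent.Good.BCN

section


variable {K L E : Type*} [Field K] [Field L] [Algebra K L] [CommRing E] [Algebra K E]

/-- The comparison map `B ⊗ L → E ⊗ L`. -/
noncomputable def cmp (B : Subalgebra K E) (L : Type*) [Field L] [Algebra K L] :
    B ⊗[K] L →ₐ[K] E ⊗[K] L :=
  Algebra.TensorProduct.map B.val (AlgHom.id K L)

@[simp]
theorem cmp_tmul (B : Subalgebra K E) (b : B) (l : L) : cmp B L (b ⊗ₜ l) = (b : E) ⊗ₜ l := by
  simp [cmp]

/-- Twisting the second factor by an automorphism of `L`. -/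
noncomputable def tw (E : Type*) [CommRing E] [Algebra K E] (τ : L ≃ₐ[K] L) :
    E ⊗[K] L →ₐ[E] E ⊗[K] L :=
  Algebra.TensorProduct.map (AlgHom.id E E) τ.toAlgHom

@[simp]
theorem tw_tmul (τ : L ≃ₐ[K] L) (e : E) (l : L) : tw E τ (e ⊗ₜ l) = e ⊗ₜ τ l := by
  simp [tw]

theorem isIntegralElem_tw (B : Subalgebra K E) (τ : L ≃ₐ[K] L) {z : E ⊗[K] L}
    (hz : (cmp B L).toRingHom.IsIntegralElem z) :
    (cmp B L).toRingHom.IsIntegralElem (tw E τ z) := by
  let ψ : B ⊗[K] L →ₐ[K] B ⊗[K] L := Algebra.TensorProduct.map (AlgHom.id K B) τ.toAlgHom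
  have hcomm : ∀ w, cmp B L (ψ w) = tw E τ (cmp B L w) := by
    intro w
    induction w using TensorProduct.induction_on with
    | zero => simp
    | tmul b l => simp [ψ]
    | add x y hx hy => simp only [map_add, hx, hy]
  obtain ⟨p, hp, hpz⟩ := hz
  refine ⟨p.map ψ.toRingHom, hp.map _, ?_⟩
  rw [Polynomial.eval₂_map]
  have h2 : (cmp B L).toRingHom.comp ψ.toRingHom =
      (tw E τ).toRingHom.comp (cmp B L).toRingHom := RingHom.ext hcomm
  have h3 := Polynomial.hom_eval₂ p (cmp B L).toRingHom (tw E τ).toRingHom z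
  rw [hpz, map_zero] at h3
  rw [h2]
  exact h3.symm

theorem mem_of_isIntegralElem_tmul_one [Algebra.IsAlgebraic K L] (B : Subalgebra K E)
    (hB : ∀ x : E, IsIntegral B x → x ∈ B) {e : E}
    (he : (cmp B L).toRingHom.IsIntegralElem (e ⊗ₜ[K] (1 : L))) : e ∈ B := by
  apply hB
  let _ : Algebra (B ⊗[K] L) (E ⊗[K] L) := (cmp B L).toRingHom.toAlgebra
  have : IsScalarTower B (B ⊗[K] L) (E ⊗[K] L) := by
    refine IsScalarTower.of_algebraMap_eq (R := B) (S := B ⊗[K] L) (A := E ⊗[K] L) fun b => ?_
    change algebraMap B (E ⊗[K] L) b = cmp B L (algebraMap B (B ⊗[K] L) b)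
    simp only [Algebra.TensorProduct.algebraMap_apply, cmp_tmul]
    rfl
  have : Algebra.IsIntegral K L := Algebra.IsAlgebraic.isIntegral
  have h1 : IsIntegral (B ⊗[K] L) (e ⊗ₜ[K] (1 : L)) := he
  have h2 : IsIntegral B (e ⊗ₜ[K] (1 : L)) := isIntegral_trans _ h1
  have hinj : Function.Injective
      (Algebra.TensorProduct.includeLeft : E →ₐ[B] E ⊗[K] L) :=
    Algebra.TensorProduct.includeLeft_injective (algebraMap K L).injective
  exact (isIntegral_algHom_iff _ hinj).mp h2

/-- The `E`-linear trace `E ⊗ L0 → E`. -/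
noncomputable def trT (E : Type*) [CommRing E] [Algebra K E] (L0 : Type*) [Field L0]
    [Algebra K L0] : E ⊗[K] L0 →ₗ[E] E :=
  (Algebra.TensorProduct.rid K E E).toLinearMap ∘ₗ (Algebra.trace K L0).baseChange E

@[simp]
theorem trT_tmul {L0 : Type*} [Field L0] [Algebra K L0] (e : E) (l : L0) :
    trT E L0 (e ⊗ₜ[K] l) = Algebra.trace K L0 l • e := by
  simp [trT]

/-- inclusion `E ⊗ L0 → E ⊗ L`. -/
noncomputable def incl (E : Type*) [CommRing E] [Algebra K E] (L0 : IntermediateField K L) :
    E ⊗[K] L0 →ₐ[E] E ⊗[K] L :=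
  Algebra.TensorProduct.map (AlgHom.id E E) L0.val

@[simp]
theorem incl_tmul (L0 : IntermediateField K L) (e : E) (l : L0) :
    incl E L0 (e ⊗ₜ l) = e ⊗ₜ (l : L) := by
  simp [incl]

theorem sum_tw_incl [Normal K L] (L0 : IntermediateField K L) [FiniteDimensional K L0]
    [IsGalois K L0] (z0 : E ⊗[K] L0) :
    ∑ σ : L0 ≃ₐ[K] L0, tw E (σ.liftNormal L) (incl E L0 z0) = trT E L0 z0 ⊗ₜ[K] (1 : L) := by
  induction z0 using TensorProduct.induction_on with
  | zero => simp
  | tmul e l =>
    have h1 : ∀ σ : L0 ≃ₐ[K] L0, tw E (σ.liftNormal L) (incl E L0 (e ⊗ₜ l)) =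
        e ⊗ₜ[K] ((σ l : L0) : L) := by
      intro σ
      rw [incl_tmul, tw_tmul]
      congr 1
      exact σ.liftNormal_commutes L l
    simp_rw [h1]
    rw [← TensorProduct.tmul_sum, trT_tmul]
    have h2 : ∑ σ : L0 ≃ₐ[K] L0, ((σ l : L0) : L) = algebraMap K L (Algebra.trace K L0 l) := by
      rw [IsScalarTower.algebraMap_apply K L0 L, trace_eq_sum_automorphisms]
      simp
    rw [h2, Algebra.algebraMap_eq_smul_one, TensorProduct.tmul_smul, TensorProduct.smul_tmul']
  | add x y hx hy =>
    simp only [map_add, Finset.sum_add_distrib, hx, hy, TensorProduct.add_tmul]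

theorem trT_mul_dual {L0 : Type*} [Field L0] [Algebra K L0] [FiniteDimensional K L0]
    [Algebra.IsSeparable K L0] {ι : Type*} [Finite ι] [DecidableEq ι] (b : Module.Basis ι K L0)
    (y0 : E ⊗[K] L0) (j : ι) :
    trT E L0 (y0 * (1 ⊗ₜ[K] ((Algebra.traceForm K L0).dualBasis (traceForm_nondegenerate K L0) b j)))
      = (Algebra.TensorProduct.basis E b).repr y0 j := by
  set d := (Algebra.traceForm K L0).dualBasis (traceForm_nondegenerate K L0) b with hd
  induction y0 using TensorProduct.induction_on with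
  | zero => simp
  | tmul e l =>
    rw [Algebra.TensorProduct.tmul_mul_tmul, mul_one, trT_tmul,
      Algebra.TensorProduct.basis_repr_tmul]
    have h1 : b.repr l j = Algebra.trace K L0 (l * d j) := by
      have h := LinearMap.BilinForm.dualBasis_repr_apply (B := Algebra.traceForm K L0)
        (traceForm_nondegenerate K L0) d l j
      rw [hd, LinearMap.BilinForm.dualBasis_dualBasis _ (Algebra.traceForm_isSymm K)] at h
      rw [h, Algebra.traceForm_apply]
    rw [← h1]
    simp [Algebra.smul_def, mul_comm]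
  | add x y hx hy =>
    simp only [add_mul, map_add, hx, hy, Finsupp.add_apply]


theorem isIntegralElem_sum {R S : Type*} [CommRing R] [CommRing S] (f : R →+* S) {ι : Type*}
    (s : Finset ι) (g : ι → S) (h : ∀ i ∈ s, f.IsIntegralElem (g i)) :
    f.IsIntegralElem (∑ i ∈ s, g i) := by
  classical
  induction s using Finset.induction_on with
  | empty => simpa using f.isIntegralElem_zero
  | insert a s ha ih =>
    rw [Finset.sum_insert ha]
    exact RingHom.IsIntegralElem.add f (h a (Finset.mem_insert_self a s))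
      (ih fun i hi => h i (Finset.mem_insert_of_mem hi))

/-- Every element of `E ⊗ L` comes from `E ⊗ L0` for a finite Galois subextension `L0`. -/
theorem exists_finite_galois_incl [IsGalois K L] (y : E ⊗[K] L) :
    ∃ (L0 : IntermediateField K L) (_ : FiniteDimensional K L0) (_ : IsGalois K L0)
      (y0 : E ⊗[K] L0), incl E L0 y0 = y := by
  obtain ⟨S, hS⟩ := TensorProduct.exists_finset y
  classical
  let T : Finset L := S.image Prod.snd
  let L1 : IntermediateField K L := IntermediateField.adjoin K (T : Set L)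
  have hfin : FiniteDimensional K L1 :=
    IntermediateField.finiteDimensional_adjoin fun x _ => Algebra.IsIntegral.isIntegral x
  let L0 : IntermediateField K L := IntermediateField.normalClosure K L1 L
  have hle : L1 ≤ L0 := IntermediateField.le_normalClosure L1
  have hmem : ∀ i ∈ S, i.2 ∈ L0 := fun i hi =>
    hle (IntermediateField.subset_adjoin K _ (Finset.mem_coe.mpr (Finset.mem_image_of_mem _ hi)))
  have hsep : Algebra.IsSeparable K L0 := Algebra.isSeparable_tower_bot_of_isSeparable K L0 L
  refine ⟨L0, inferInstance, ⟨⟩, ∑ i ∈ S.attach, i.1.1 ⊗ₜ[K] ⟨i.1.2, hmem i.1 i.2⟩, ?_⟩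
  rw [hS, map_sum, ← Finset.sum_attach S]
  refine Finset.sum_congr rfl fun i _ => ?_
  rw [incl_tmul]

/-- **[G-BCN], general form.** `L / K` Galois (possibly infinite), `B ⊆ E` a `K`-subalgebra
integrally closed in `E`.  Every element of `E ⊗[K] L` which is integral over `B ⊗[K] L` lies in
the image of `B ⊗[K] L`. -/
theorem mem_range_cmp_of_isIntegralElem [IsGalois K L] (B : Subalgebra K E)
    (hB : ∀ x : E, IsIntegral B x → x ∈ B) (y : E ⊗[K] L)
    (hy : (cmp B L).toRingHom.IsIntegralElem y) : y ∈ (cmp B L).range := by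
  classical
  obtain ⟨L0, hfin, hgal, y0, rfl⟩ := exists_finite_galois_incl (E := E) y
  let b := Module.finBasis K L0
  set d := (Algebra.traceForm K L0).dualBasis (traceForm_nondegenerate K L0) b with hd
  have hcoord : ∀ j, (Algebra.TensorProduct.basis E b).repr y0 j ∈ B := by
    intro j
    rw [← trT_mul_dual b y0 j]
    apply mem_of_isIntegralElem_tmul_one (L := L) B hB
    rw [← sum_tw_incl L0]
    refine isIntegralElem_sum _ _ _ fun σ _ => isIntegralElem_tw B _ ?_
    rw [map_mul]
    refine RingHom.IsIntegralElem.mul _ hy ?_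
    have : incl E L0 (1 ⊗ₜ[K] d j) = (cmp B L).toRingHom (1 ⊗ₜ[K] ((d j : L0) : L)) := by
      rw [incl_tmul]
      change _ = cmp B L _
      rw [cmp_tmul]
      rfl
    rw [this]
    exact (cmp B L).toRingHom.isIntegralElem_map
  have hy0 : y0 = ∑ j, (Algebra.TensorProduct.basis E b).repr y0 j ⊗ₜ[K] b j := by
    conv_lhs => rw [← (Algebra.TensorProduct.basis E b).sum_repr y0]
    refine Finset.sum_congr rfl fun j _ => ?_
    rw [Algebra.TensorProduct.basis_repr_symm_apply']
  refine ⟨∑ j, (⟨_, hcoord j⟩ : B) ⊗ₜ[K] ((b j : L0) : L), ?_⟩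
  conv_rhs => rw [hy0]
  rw [map_sum, map_sum]
  refine Finset.sum_congr rfl fun j _ => ?_
  rw [incl_tmul]
  exact cmp_tmul B _ _

/-! ### Integral-closure form -/

section IntegralClosure

variable (K L) (S : Type*) [CommRing S] [Algebra K S] [Algebra S E] [IsScalarTower K S E]

/-- The base-changed structure map `S ⊗ L → E ⊗ L`. -/
noncomputable def bmap : S ⊗[K] L →ₐ[K] E ⊗[K] L :=
  Algebra.TensorProduct.map (IsScalarTower.toAlgHom K S E) (AlgHom.id K L)

@[simp]
theorem bmap_tmul (s : S) (l : L) :
    bmap K L (E := E) S (s ⊗ₜ l) = algebraMap S E s ⊗ₜ l := by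
  simp [bmap]

/-- The integral closure of `S` in `E`, as a `K`-subalgebra. -/
noncomputable def icK : Subalgebra K E := (integralClosure S E).restrictScalars K

theorem mem_icK {x : E} : x ∈ icK K (E := E) S ↔ IsIntegral S x := Iff.rfl

theorem icK_closed (x : E) (hx : IsIntegral (icK K (E := E) S) x) : x ∈ icK K (E := E) S := by
  have h1 : IsIntegral (integralClosure S E) x := hx
  exact isIntegral_trans (A := integralClosure S E) x h1

/-- **[G-BCN], integral-closure form.** For `L / K` Galois, the integral closure of `S ⊗[K] L` in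
`E ⊗[K] L` is the image of `(integralClosure S E) ⊗[K] L`. -/
theorem isIntegralElem_bmap_iff [IsGalois K L] (y : E ⊗[K] L) :
    (bmap K L (E := E) S).toRingHom.IsIntegralElem y ↔ y ∈ (cmp (icK K (E := E) S) L).range := by
  set B := icK K (E := E) S with hBdef
  let g0 : S →ₐ[K] B := AlgHom.codRestrict (IsScalarTower.toAlgHom K S E) B
    (fun s => isIntegral_algebraMap)
  let g : S ⊗[K] L →ₐ[K] B ⊗[K] L := Algebra.TensorProduct.map g0 (AlgHom.id K L)
  have hfac : ∀ w, bmap K L (E := E) S w = cmp B L (g w) := by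
    intro w
    induction w using TensorProduct.induction_on with
    | zero => simp
    | tmul s l =>
      simp only [g, bmap_tmul, Algebra.TensorProduct.map_tmul, cmp_tmul, AlgHom.coe_id, id_eq]
      rfl
    | add x y hx hy => simp only [map_add, hx, hy]
  constructor
  · rintro ⟨p, hp, hpy⟩
    refine mem_range_cmp_of_isIntegralElem B (icK_closed K S) y
      ⟨p.map g.toRingHom, hp.map _, ?_⟩
    rw [Polynomial.eval₂_map]
    have : (cmp B L).toRingHom.comp g.toRingHom = (bmap K L (E := E) S).toRingHom :=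
      RingHom.ext fun w => (hfac w).symm
    rw [this]
    exact hpy
  · rintro ⟨w, rfl⟩
    induction w using TensorProduct.induction_on with
    | zero => simpa using (bmap K L (E := E) S).toRingHom.isIntegralElem_zero
    | tmul b l =>
      have h1 : (cmp B L).toRingHom (b ⊗ₜ[K] l) =
          ((b : E) ⊗ₜ[K] (1 : L)) * (bmap K L (E := E) S).toRingHom (1 ⊗ₜ[K] l) := by
        change cmp B L _ = _ * bmap K L (E := E) S _
        rw [cmp_tmul, bmap_tmul, map_one, Algebra.TensorProduct.tmul_mul_tmul, mul_one, one_mul]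
      rw [h1]
      refine RingHom.IsIntegralElem.mul _ ?_ (RingHom.isIntegralElem_map _)
      obtain ⟨q, hq, hqb⟩ : IsIntegral S (b : E) := b.2
      let iS : S →+* S ⊗[K] L := (Algebra.TensorProduct.includeLeft : S →ₐ[K] S ⊗[K] L).toRingHom
      let iE : E →+* E ⊗[K] L := (Algebra.TensorProduct.includeLeft : E →ₐ[K] E ⊗[K] L).toRingHom
      refine ⟨q.map iS, hq.map _, ?_⟩
      rw [Polynomial.eval₂_map]
      have h2 : (bmap K L (E := E) S).toRingHom.comp iS = iE.comp (algebraMap S E) := by
        ext s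
        simp [iS, iE]
      have h3 := Polynomial.hom_eval₂ q (algebraMap S E) iE (b : E)
      rw [hqb, map_zero] at h3
      rw [h2]
      exact h3.symm
    | add x y hx hy =>
      rw [map_add]
      exact RingHom.IsIntegralElem.add _ hx hy

end IntegralClosure

/-! ### Utilities: injectivity and descent of units -/

theorem cmp_injective (B : Subalgebra K E) : Function.Injective (cmp B L) := by
  have h := Module.Flat.rTensor_preserves_injective_linearMap (M := L) B.val.toLinearMap
    Subtype.val_injective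
  intro x y hxy
  apply h
  have h2 : ∀ w, (LinearMap.rTensor L B.val.toLinearMap) w = cmp B L w := by
    intro w
    induction w using TensorProduct.induction_on with
    | zero => simp
    | tmul b l => simp
    | add x y hx hy => simp only [map_add, hx, hy]
  rw [h2, h2, hxy]

/-- Units descend along `S → S ⊗[K] L` (`L` a nonzero `K`-algebra over a field `K`). -/
theorem isUnit_of_isUnit_tmul_one {S : Type*} [CommRing S] [Algebra K S] {s : S}
    (h : IsUnit (s ⊗ₜ[K] (1 : L))) : IsUnit s := by
  obtain ⟨ρ, hρ⟩ := LinearMap.exists_leftInverse_of_injective (Algebra.linearMap K L)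
    (LinearMap.ker_eq_bot.mpr (algebraMap K L).injective)
  have hρ1 : ρ 1 = 1 := by
    have := LinearMap.congr_fun hρ 1
    simpa using this
  let r : S ⊗[K] L →ₗ[S] S :=
    (Algebra.TensorProduct.rid K S S).toLinearMap ∘ₗ ρ.baseChange S
  obtain ⟨t, ht⟩ := h.exists_right_inv
  have h1 : r (s ⊗ₜ[K] (1 : L) * t) = s * r t := by
    have : s ⊗ₜ[K] (1 : L) * t = s • t := by
      rw [Algebra.smul_def, Algebra.TensorProduct.algebraMap_apply]
      rfl
    rw [this, map_smul, smul_eq_mul]
  have h2 : r (1 : S ⊗[K] L) = 1 := by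
    rw [Algebra.TensorProduct.one_def]
    simp [r, hρ1]
  rw [ht, h2] at h1
  exact IsUnit.of_mul_eq_one _ h1.symm

end

end Fermat.Agent.Good.BCN
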