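import Mathlib

/-!
# L-GEN node [G-BCN]: base-change normality

* `isDedekindDomain_of_isRadical_map` (local core): a Noetherian domain `B`, integral over a
  Dedekind domain `A`, such that `𝔭 B` is a radical ideal for every maximal ideal `𝔭` of `A`, is a
  Dedekind domain.  (Adaptation of Mathlib's `isDedekindDomain.of_formallyUnramified`, without
  module-finiteness.)
-/

set_option autoImplicit false

namespace Fermat.Agent.Good

section LocalCore

variable (A B : Type*) [CommRing A] [CommRing B] [Algebra A B] [IsDedekindDomain A] [IsDomain B]
  [IsNoetherianRing B] [Algebra.IsIntegral A B]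

include A in
/-- **[G-BCN] local core, DVR form.** -/
theorem isDedekindDomainDvr_of_isRadical_map
    (hrad : ∀ p : Ideal A, p.IsMaximal → (p.map (algebraMap A B)).IsRadical) :
    IsDedekindDomainDvr B where
  is_dvr_at_nonzero_prime := by
    intro q hq hqp
    let q' := IsLocalRing.maximalIdeal (Localization.AtPrime q)
    suffices q'.IsPrincipal from ((IsDiscreteValuationRing.TFAE (Localization.AtPrime q)
      (IsLocalization.AtPrime.not_isField B hq (Localization.AtPrime q))).out 4 0).mp this
    let p := q.under A
    let := Localization.AtPrime.algebraOfLiesOver p q
    have hpmax : p.IsMaximal := (hqp.under A).isMaximal (q.under_ne_bot A hq)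
    suffices q' = (p.map (algebraMap A B)).map (algebraMap B (Localization.AtPrime q)) by
      rw [this, Ideal.map_map, ← IsScalarTower.algebraMap_eq,
        IsScalarTower.algebraMap_eq A (Localization.AtPrime p) (Localization.AtPrime q),
        ← Ideal.map_map]
      infer_instance
    rw [← (hrad p hpmax).radical,
      IsLocalization.map_radical q.primeCompl,
      IsLocalization.AtPrime.radical_map_of_mem_minimalPrimes (Localization.AtPrime q) q,
      Localization.AtPrime.map_eq_maximalIdeal]
    exact Ideal.IsIntegral.mem_minimalPrimes_map_under q

include A in
/-- **[G-BCN] local core.** A Noetherian domain integral over a Dedekind domain `A`, all of whose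
fibres over the maximal ideals of `A` are reduced, is a Dedekind domain. -/
theorem isDedekindDomain_of_isRadical_map
    (hrad : ∀ p : Ideal A, p.IsMaximal → (p.map (algebraMap A B)).IsRadical) :
    IsDedekindDomain B :=
  have := isDedekindDomainDvr_of_isRadical_map A B hrad
  inferInstance

end LocalCore

end Fermat.Agent.Good
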