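import Mathlib

/-!
# L-GEN [G-BR-N]: normality bridge

`T'` an integrally closed domain over a field `k`, `τ : T' →ₐ[k] Ft` an injective homomorphism into
a field `Ft` which is the fraction field of the image.  If `xt ∈ τ(T')`, then every element of `Ft`
integral over `k[xt]` lies in `τ(T')`.  Span form: if `S` spans `T'` over `k`, such elements lie in
the `k`-span of `τ '' S`.
-/

set_option autoImplicit false
set_option linter.style.haveILetI false
set_option linter.unusedSectionVars false

namespace Fermat.Agent.Good.BridgeNormal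

variable {k T' Ft : Type*} [Field k] [CommRing T'] [IsDomain T'] [IsIntegrallyClosed T']
  [Algebra k T'] [Field Ft] [Algebra k Ft]

omit [IsDomain T'] [IsIntegrallyClosed T'] in
/-- `Ft` is the fraction field of `T'` through `τ`. -/
theorem isFractionRing_of_frac (τ : T' →ₐ[k] Ft) (hτ : Function.Injective τ)
    (hfrac : ∀ f : Ft, ∃ a b : T', b ≠ 0 ∧ f * τ b = τ a) :
    @IsFractionRing T' _ Ft _ τ.toRingHom.toAlgebra := by
  letI : Algebra T' Ft := τ.toRingHom.toAlgebra
  have hinj : Function.Injective (algebraMap T' Ft) := hτ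
  haveI : FaithfulSMul T' Ft := (faithfulSMul_iff_algebraMap_injective T' Ft).mpr hinj
  refine IsFractionRing.of_field (R := T') (K := Ft) fun z => ?_
  obtain ⟨a, b, hb, h⟩ := hfrac z
  refine ⟨a, b, ?_⟩
  have hb' : algebraMap T' Ft b ≠ 0 := fun h0 => hb (hinj (by rw [h0, map_zero]))
  rw [eq_div_iff hb']
  exact h

/-- **Normality bridge.** -/
theorem mem_range_of_isIntegral_adjoin (τ : T' →ₐ[k] Ft) (hτ : Function.Injective τ)
    (hfrac : ∀ f : Ft, ∃ a b : T', b ≠ 0 ∧ f * τ b = τ a) (xt : Ft) (hx : xt ∈ τ.range) :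
    ∀ ft : Ft, IsIntegral (Algebra.adjoin k {xt}) ft → ft ∈ τ.range := by
  intro ft hft
  letI : Algebra T' Ft := τ.toRingHom.toAlgebra
  haveI : IsFractionRing T' Ft := isFractionRing_of_frac τ hτ hfrac
  have hle : Algebra.adjoin k {xt} ≤ τ.range :=
    Algebra.adjoin_le (Set.singleton_subset_iff.mpr hx)
  let e := AlgEquiv.ofInjective τ hτ
  let φ : Algebra.adjoin k {xt} →+* T' :=
    (e.symm.toAlgHom.comp (Subalgebra.inclusion hle)).toRingHom
  have hφ : ∀ a : Algebra.adjoin k {xt}, τ (φ a) = (a : Ft) := by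
    intro a
    have h1 : (e (e.symm (Subalgebra.inclusion hle a)) : Ft) = (a : Ft) := by
      rw [AlgEquiv.apply_symm_apply]
      rfl
    exact h1
  have hint : IsIntegral T' ft := by
    have := IsIntegral.map_of_comp_eq (R := Algebra.adjoin k {xt}) (S := Ft) (T := T') (U := Ft)
      φ (RingHom.id Ft) ?_ hft
    · simpa using this
    · ext a
      exact hφ a
  obtain ⟨y, hy⟩ := IsIntegrallyClosed.isIntegral_iff.mp hint
  exact ⟨y, hy⟩

omit [IsDomain T'] [IsIntegrallyClosed T'] in
/-- the image of `τ` is the `k`-span of the image of a spanning set -/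
theorem range_eq_span_image (τ : T' →ₐ[k] Ft) (S : Set T') (hS : Submodule.span k S = ⊤) :
    LinearMap.range τ.toLinearMap = Submodule.span k (τ '' S) := by
  rw [LinearMap.range_eq_map, ← hS, Submodule.map_span]
  rfl

/-- **Normality bridge, span form.** -/
theorem mem_span_image_of_isIntegral_adjoin (τ : T' →ₐ[k] Ft) (hτ : Function.Injective τ)
    (hfrac : ∀ f : Ft, ∃ a b : T', b ≠ 0 ∧ f * τ b = τ a) (S : Set T')
    (hS : Submodule.span k S = ⊤) (xt : Ft) (hx : xt ∈ Submodule.span k (τ '' S)) :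
    ∀ ft : Ft, IsIntegral (Algebra.adjoin k {xt}) ft → ft ∈ Submodule.span k (τ '' S) := by
  intro ft hft
  rw [← range_eq_span_image τ S hS] at hx ⊢
  obtain ⟨y, hy⟩ := mem_range_of_isIntegral_adjoin τ hτ hfrac xt
    (by obtain ⟨x0, hx0⟩ := hx; exact ⟨x0, hx0⟩) ft hft
  exact ⟨y, hy⟩

end Fermat.Agent.Good.BridgeNormal
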