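/-
L-GEN (Program L, S18), node [G-BR] (B4)+(B5), chart at infinity: the ingredients of
"`F̃_K` is the fraction field of the image of `chartAlgInf N ℓ ⊗ K`", independent of the
comparison map itself.

* `frac_transfer` (Mathlib only): transfer of the "fraction field of the image" property from one
  injective algebra homomorphism to another;
* `chartRes_mul_of_coe_eq` : the reduction maps of the various charts are compatible with
  products computed in `F_N` (they are all restrictions of `gaussRes`);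
* `exists_jInv_pow_mul_mem_chartAlgInf` : `x ∈ chartAlgFin N ℓ → ∃ n, j⁻ⁿ x ∈ chartAlgInf N ℓ`.
-/
import Mathlib
import Fermat.Agent.Good.IgusaExtract

set_option autoImplicit false
set_option linter.unusedSectionVars false
set_option linter.style.haveILetI false
open ModularCurve ModularCurve.IgusaScheme IntermediateField Polynomial TensorProduct
open Fermat.Agent.Igusa

noncomputable section
namespace Fermat.Agent.Good.BridgeInt

section Generic

variable {K T₁ T₂ Ft : Type*} [Field K] [CommRing T₁] [CommRing T₂] [Algebra K T₁] [Algebra K T₂]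
  [Field Ft] [Algebra K Ft]

/-- If `Ft` is the fraction field of the image of `τ₁` and every element of the image of `τ₁`
is a fraction of elements of the image of `τ₂`, then `Ft` is the fraction field of the image of
`τ₂`. -/
theorem frac_transfer (τ₁ : T₁ →ₐ[K] Ft) (τ₂ : T₂ →ₐ[K] Ft)
    (hfrac : ∀ f : Ft, ∃ a b : T₁, τ₁ b ≠ 0 ∧ f * τ₁ b = τ₁ a)
    (h12 : ∀ t₁ : T₁, ∃ u t₂ : T₂, τ₂ u ≠ 0 ∧ τ₁ t₁ * τ₂ u = τ₂ t₂) :
    ∀ f : Ft, ∃ a b : T₂, τ₂ b ≠ 0 ∧ f * τ₂ b = τ₂ a := by
  intro f
  obtain ⟨a, b, hb, hab⟩ := hfrac f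
  obtain ⟨u, b₂, hu, hb₂⟩ := h12 b
  obtain ⟨u', a₂, hu', ha₂⟩ := h12 a
  refine ⟨a₂ * u, b₂ * u', ?_, ?_⟩
  · rw [map_mul, ← hb₂]
    exact mul_ne_zero (mul_ne_zero hb hu) hu'
  · rw [map_mul, map_mul, ← hb₂, ← ha₂, ← hab]
    ring

end Generic

section Charts

variable (N : ℕ) [NeZero N] (ℓ : ℕ) [Fact ℓ.Prime]

set_option quotPrecheck false in
local notation "ℤℓ" => ↥(GaloisRep.ratLocalizedAt ℓ)

set_option quotPrecheck false in
local notation "F" => ↥(modularFunctionFieldFull N)

/-- The reduction maps of the charts are compatible with products computed in `F_N`. -/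
theorem chartRes_mul_of_coe_eq {S S' S'' : Set F}
    (hS : ∀ s ∈ S, ((s : F) : LaurentSeries ℚ) ∈ gaussSubring ℓ)
    (hS' : ∀ s ∈ S', ((s : F) : LaurentSeries ℚ) ∈ gaussSubring ℓ)
    (hS'' : ∀ s ∈ S'', ((s : F) : LaurentSeries ℚ) ∈ gaussSubring ℓ)
    (x : chartAlg N ℓ S) (y : chartAlg N ℓ S') (z : chartAlg N ℓ S'')
    (h : (z : F) = (x : F) * (y : F)) :
    chartRes N ℓ hS'' z = chartRes N ℓ hS x * chartRes N ℓ hS' y := by
  rw [chartRes_apply, chartRes_apply, chartRes_apply, ← map_mul]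
  congr 1
  apply Subtype.ext
  show ((z : F) : LaurentSeries ℚ) = ((x : F) : LaurentSeries ℚ) * ((y : F) : LaurentSeries ℚ)
  rw [h]
  rfl

/-- The reduction maps of the charts agree on common elements. -/
theorem chartRes_eq_of_coe_eq {S S' : Set F}
    (hS : ∀ s ∈ S, ((s : F) : LaurentSeries ℚ) ∈ gaussSubring ℓ)
    (hS' : ∀ s ∈ S', ((s : F) : LaurentSeries ℚ) ∈ gaussSubring ℓ)
    (x : chartAlg N ℓ S) (y : chartAlg N ℓ S') (h : (y : F) = (x : F)) :
    chartRes N ℓ hS' y = chartRes N ℓ hS x := by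
  rw [chartRes_apply, chartRes_apply]
  congr 1
  apply Subtype.ext
  show ((y : F) : LaurentSeries ℚ) = ((x : F) : LaurentSeries ℚ)
  rw [h]

/-- Every element of the finite chart becomes an element of the chart at infinity after
multiplication by a power of `j⁻¹`. -/
theorem exists_jInv_pow_mul_mem_chartAlgInf {x : F} (hx : x ∈ chartAlgFin N ℓ) :
    ∃ n : ℕ, (jFull N)⁻¹ ^ n * x ∈ chartAlgInf N ℓ := by
  refine exists_pow_mul_mem_chartAlg (N := N) (ℓ := ℓ) (S := {(jFull N)⁻¹}) (s := (jFull N)⁻¹)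
    rfl (inv_ne_zero (jFull_ne_zero N)) ?_
  refine chartAlg_mono N ℓ ?_ hx
  rw [inv_inv]
  exact Set.singleton_subset_iff.mpr (Set.mem_insert _ _)

end Charts

end Fermat.Agent.Good.BridgeInt
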