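/-
L-GEN (Program L, S18), node [G-BR] (B4)+(B5), finite chart, Igusa side.

`K` an algebraically closed field of characteristic `ℓ ∤ N` with `[Algebra ℤ_(ℓ) K]`.  The
comparison map `tauFin : chartAlgFin N ℓ ⊗[ℤ_(ℓ)] K → F̃_K` is a `K`-algebra homomorphism whose
image has fraction field `F̃_K`; hence, if the special fibre `chartAlgFin N ℓ ⊗[ℤ_(ℓ)] K` is
integrally closed, every element of `F̃_K` integral over `K[j̃]` lies in the `K`-span of the
reductions `rhoT b`, `b ∈ chartAlgFin N ℓ`.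
-/
import Mathlib
import Fermat.Agent.Good.IgusaTensor
import Fermat.Agent.Good.BridgeNormal

set_option autoImplicit false
set_option linter.unusedSectionVars false
set_option linter.style.haveILetI false
open ModularCurve ModularCurve.IgusaScheme IntermediateField Polynomial TensorProduct
open Fermat.Agent.Igusa Fermat.Agent.Good.S28X

noncomputable section
namespace Fermat.Agent.Good.BridgeInt

attribute [local instance] Algebra.TensorProduct.rightAlgebra

variable (N : ℕ) [NeZero N] (ℓ : ℕ) [Fact ℓ.Prime]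

set_option quotPrecheck false in
local notation "ℤℓ" => ↥(GaloisRep.ratLocalizedAt ℓ)

variable (K : Type*) [Field K] [CharP K ℓ] [Algebra ↥(GaloisRep.ratLocalizedAt ℓ) K]

/-- `tauFin` as a `K`-algebra homomorphism (`K` acting on the right factor). -/
def tauFinAlg (hℓN : ¬ ℓ ∣ N) :
    ↥(chartAlgFin N ℓ) ⊗[ℤℓ] K →ₐ[K] ↥(modularFunctionFieldFullC K N) :=
  { tauFin N ℓ K hℓN with
    commutes' := fun c => tauFin_one_tmul N ℓ K hℓN c }

theorem tauFinAlg_apply (hℓN : ¬ ℓ ∣ N) (z : ↥(chartAlgFin N ℓ) ⊗[ℤℓ] K) :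
    tauFinAlg N ℓ K hℓN z = tauFin N ℓ K hℓN z := rfl

theorem tauFinAlg_injective (hℓN : ¬ ℓ ∣ N) : Function.Injective (tauFinAlg N ℓ K hℓN) :=
  tauFin_injective N ℓ K hℓN

/-- `j ⊗ 1`, the coordinate of the special fibre. -/
abbrev jTens : ↥(chartAlgFin N ℓ) ⊗[ℤℓ] K := jChartFin N ℓ ⊗ₜ[ℤℓ] (1 : K)

theorem tauFinAlg_jTens (hℓN : ¬ ℓ ∣ N) : tauFinAlg N ℓ K hℓN (jTens N ℓ K) = jT N K :=
  tauFin_j N ℓ K hℓN

theorem tauFinAlg_aeval (hℓN : ¬ ℓ ∣ N) (p : K[X]) :
    tauFinAlg N ℓ K hℓN (aeval (jTens N ℓ K) p) = aeval (jT N K) p := by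
  rw [← Polynomial.aeval_algHom_apply, tauFinAlg_jTens]

theorem tauFinAlg_tmul_one (hℓN : ¬ ℓ ∣ N) (x : ↥(chartAlgFin N ℓ)) :
    tauFinAlg N ℓ K hℓN (x ⊗ₜ[ℤℓ] (1 : K)) =
      @rhoT N _ ℓ _ K _ (ZMod.algebra K ℓ) hℓN x :=
  tauFin_tmul_one N ℓ K hℓN x

/-- **`F̃_K` is the fraction field of the image of the special fibre.** -/
theorem tauFinAlg_frac (hℓN : ¬ ℓ ∣ N) (hmono : HasIndepMonomials N K) :
    ∀ f : ↥(modularFunctionFieldFullC K N), ∃ a b : ↥(chartAlgFin N ℓ) ⊗[ℤℓ] K,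
      b ≠ 0 ∧ f * tauFinAlg N ℓ K hℓN b = tauFinAlg N ℓ K hℓN a := by
  classical
  letI : Algebra (ZMod ℓ) K := ZMod.algebra K ℓ
  haveI : IsDomain (↥(chartAlgFin N ℓ) ⊗[ℤℓ] K) := isDomain_tensor_fin N ℓ hℓN K
  set τ := tauFinAlg N ℓ K hℓN with hτdef
  have hτinj : Function.Injective τ := tauFinAlg_injective N ℓ K hℓN
  let S : ↥(modularFunctionFieldFullC K N) → Prop := fun f =>
    ∃ a b : ↥(chartAlgFin N ℓ) ⊗[ℤℓ] K, b ≠ 0 ∧ f * τ b = τ a
  have hS0 : S 0 := ⟨0, 1, one_ne_zero, by rw [zero_mul, map_zero]⟩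
  have hSadd : ∀ f g, S f → S g → S (f + g) := by
    rintro f g ⟨a, b, hb, hab⟩ ⟨a', b', hb', hab'⟩
    have hτb : τ b ≠ 0 := fun h => hb (hτinj (by rw [h, map_zero]))
    have hτb' : τ b' ≠ 0 := fun h => hb' (hτinj (by rw [h, map_zero]))
    refine ⟨a * b' + a' * b, b * b', ?_, ?_⟩
    · intro h
      have : τ b * τ b' = 0 := by rw [← map_mul, h, map_zero]
      exact (mul_ne_zero hτb hτb') this
    · rw [map_mul, map_add, map_mul, map_mul, ← hab, ← hab']
      ring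
  let β := basisFullC N ℓ K hℓN hmono
  have hSsmul : ∀ (c : ↥(KT N K)) (i : Fin (dedekindPsi N)), S (c • β i) := by
    intro c i
    obtain ⟨r, s, hrs⟩ := (IntermediateField.mem_adjoin_simple_iff K (c : ↥(modularFunctionFieldFullC K N))).mp c.2
    by_cases hs : aeval (jT N K) s = 0
    · have hc0 : c = 0 := by
        apply Subtype.ext
        rw [hrs, hs, div_zero]
        rfl
      rw [hc0, zero_smul]
      exact hS0
    · refine ⟨aeval (jTens N ℓ K) r * (famFin N ℓ hℓN i ⊗ₜ[ℤℓ] (1 : K)),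
        aeval (jTens N ℓ K) s, ?_, ?_⟩
      · intro h0
        apply hs
        rw [← tauFinAlg_aeval N ℓ K hℓN, h0, map_zero]
      · rw [map_mul, hτdef, tauFinAlg_aeval, tauFinAlg_aeval, tauFinAlg_tmul_one,
          ← basisFullC_apply N ℓ K hℓN hmono i, IntermediateField.smul_def, hrs, smul_eq_mul]
        show _ = _ * β i
        field_simp
  intro f
  rw [← β.sum_repr f]
  exact Finset.sum_induction _ S hSadd hS0 fun i _ => hSsmul _ i

/-- The image of `tauFin` is the `K`-span of the reductions `rhoT b`. -/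
theorem tauFinAlg_mem_span (hℓN : ¬ ℓ ∣ N) (z : ↥(chartAlgFin N ℓ) ⊗[ℤℓ] K) :
    tauFinAlg N ℓ K hℓN z ∈
      Submodule.span K (Set.range (@rhoT N _ ℓ _ K _ (ZMod.algebra K ℓ) hℓN)) := by
  induction z using TensorProduct.induction_on with
  | zero => rw [map_zero]; exact zero_mem _
  | tmul x c =>
    rw [tauFinAlg_apply, tauFin_tmul]
    exact Submodule.smul_mem _ _ (Submodule.subset_span ⟨x, rfl⟩)
  | add z w hz hw => rw [map_add]; exact add_mem hz hw

/-- **(B5), finite chart, Igusa side.**  If the special fibre of the finite chart is integrally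
closed then every element of `F̃_K` integral over `K[j̃]` is a `K`-linear combination of
reductions of elements of the chart. -/
theorem mem_span_rhoT_of_isIntegral (hℓN : ¬ ℓ ∣ N) [IsAlgClosed K]
    (hnorm : IsIntegrallyClosed (↥(chartAlgFin N ℓ) ⊗[ℤℓ] K)) :
    ∀ ft : ↥(modularFunctionFieldFullC K N),
      IsIntegral (Algebra.adjoin K {jT N K}) ft →
      ft ∈ Submodule.span K (Set.range (@rhoT N _ ℓ _ K _ (ZMod.algebra K ℓ) hℓN)) := by
  intro ft hft
  haveI : IsDomain (↥(chartAlgFin N ℓ) ⊗[ℤℓ] K) := isDomain_tensor_fin N ℓ hℓN K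
  have hmono : HasIndepMonomials N K := hasIndepMonomials_of_isAlgClosed N ℓ K hℓN
  obtain ⟨z, hz⟩ := BridgeNormal.mem_range_of_isIntegral_adjoin (tauFinAlg N ℓ K hℓN)
    (tauFinAlg_injective N ℓ K hℓN) (tauFinAlg_frac N ℓ K hℓN hmono) (jT N K)
    ⟨jTens N ℓ K, tauFinAlg_jTens N ℓ K hℓN⟩ ft hft
  rw [← hz]
  exact tauFinAlg_mem_span N ℓ K hℓN z

end Fermat.Agent.Good.BridgeInt
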