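/-
L-GEN (Program L, S18), node [G-BR] (B4)+(B5), chart at infinity, Igusa side.

`K` an algebraically closed field of characteristic `ℓ ∤ N` with `[Algebra ℤ_(ℓ) K]`.  The
comparison map `tauInf : chartAlgInf N ℓ ⊗[ℤ_(ℓ)] K → F̃_K` is a `K`-algebra homomorphism whose
image has fraction field `F̃_K`; hence, if the special fibre `chartAlgInf N ℓ ⊗[ℤ_(ℓ)] K` is
integrally closed, every element of `F̃_K` integral over `K[1/j̃]` lies in the `K`-span of the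
reductions `rhoTInf b`, `b ∈ chartAlgInf N ℓ`.
-/
import Mathlib
import Fermat.Agent.Good.IgusaTensorInf
import Fermat.Agent.Good.ChartBridgeIntFin

set_option autoImplicit false
set_option linter.unusedSectionVars false
set_option linter.style.haveILetI false
open ModularCurve ModularCurve.IgusaScheme IntermediateField Polynomial TensorProduct
open Fermat.Agent.Igusa Fermat.Agent.Good.S28X

noncomputable section
namespace Fermat.Agent.Good.BridgeInt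

attribute [local instance] Algebra.TensorProduct.rightAlgebra

section Rho

variable (N : ℕ) [NeZero N] (ℓ : ℕ) [Fact ℓ.Prime] (k : Type*) [Field k] [Algebra (ZMod ℓ) k]

set_option quotPrecheck false in
local notation "F" => ↥(modularFunctionFieldFull N)

/-- an element of the finite chart is `j^n` times an element of the chart at infinity, and the
reductions correspond -/
theorem exists_rhoKInf_eq_of_fin (x : ↥(chartAlgFin N ℓ)) :
    ∃ (n : ℕ) (y : ↥(chartAlgInf N ℓ)), rhoKInf N ℓ k y = (jqModC k)⁻¹ ^ n * rhoK N ℓ k x := by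
  have hz : ((x : ↥(chartAlgFin N ℓ)) : F) ∈
      chartAlg N ℓ (insert (jFull N)⁻¹⁻¹ {(jFull N)⁻¹}) := by
    rw [inv_inv]
    exact chartAlg_mono N ℓ (sFin_subset N) x.2
  obtain ⟨n, hn⟩ := exists_pow_mul_mem_chartAlg (Set.mem_singleton _)
    (inv_ne_zero (jFull_ne_zero N)) hz
  refine ⟨n, ⟨(jFull N)⁻¹ ^ n * (x : F), hn⟩, ?_⟩
  have hmid : inclInf N ℓ ⟨(jFull N)⁻¹ ^ n * (x : F), hn⟩ =
      inclInf N ℓ (jInvChartInf N ℓ) ^ n * inclFin N ℓ x := Subtype.ext (by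
    simp only [coe_chartIncl, Subalgebra.coe_mul, Subalgebra.coe_pow, coe_jInvChartInf])
  have h1 : chartRes N ℓ (hSInf N ℓ) ⟨(jFull N)⁻¹ ^ n * (x : F), hn⟩ =
      (jqModC (ZMod ℓ))⁻¹ ^ n * chartRes N ℓ (hSFin N ℓ) x := by
    rw [chartRes_congr N ℓ (hSInf N ℓ) (hSMid N ℓ) _
        (inclInf N ℓ ⟨(jFull N)⁻¹ ^ n * (x : F), hn⟩) rfl,
      hmid, RingHom.map_mul, RingHom.map_pow,
      chartRes_jFull_inv N ℓ (hSMid N ℓ) (inclInf N ℓ (jInvChartInf N ℓ)) rfl,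
      chartRes_congr N ℓ (hSMid N ℓ) (hSFin N ℓ) (inclFin N ℓ x) x rfl]
  rw [rhoKInf_apply, h1, map_mul, map_pow, map_inv₀, coeffMap_jqModC, ← rhoK_apply]

theorem exists_rhoTInf_eq_of_fin (hℓN : ¬ ℓ ∣ N) (x : ↥(chartAlgFin N ℓ)) :
    ∃ (n : ℕ) (y : ↥(chartAlgInf N ℓ)),
      rhoTInf N ℓ k hℓN y = (jT N k)⁻¹ ^ n * rhoT N ℓ k hℓN x := by
  obtain ⟨n, y, h⟩ := exists_rhoKInf_eq_of_fin N ℓ k x
  refine ⟨n, y, Subtype.ext ?_⟩
  rw [coe_rhoTInf, h]
  rfl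

end Rho


section Tensor

variable (N : ℕ) [NeZero N] (ℓ : ℕ) [Fact ℓ.Prime]

set_option quotPrecheck false in
local notation "ℤℓ" => ↥(GaloisRep.ratLocalizedAt ℓ)

variable (K : Type*) [Field K] [CharP K ℓ] [Algebra ↥(GaloisRep.ratLocalizedAt ℓ) K]

/-- `tauInf` as a `K`-algebra homomorphism (`K` acting on the right factor). -/
def tauInfAlg (hℓN : ¬ ℓ ∣ N) :
    ↥(chartAlgInf N ℓ) ⊗[ℤℓ] K →ₐ[K] ↥(modularFunctionFieldFullC K N) :=
  { tauInf N ℓ K hℓN with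
    commutes' := fun c => tauInf_one_tmul N ℓ K hℓN c }

theorem tauInfAlg_apply (hℓN : ¬ ℓ ∣ N) (z : ↥(chartAlgInf N ℓ) ⊗[ℤℓ] K) :
    tauInfAlg N ℓ K hℓN z = tauInf N ℓ K hℓN z := rfl

theorem tauInfAlg_injective (hℓN : ¬ ℓ ∣ N) : Function.Injective (tauInfAlg N ℓ K hℓN) :=
  tauInf_injective N ℓ K hℓN

/-- `j⁻¹ ⊗ 1`, the coordinate of the special fibre at infinity. -/
abbrev jInvTens : ↥(chartAlgInf N ℓ) ⊗[ℤℓ] K := jInvChartInf N ℓ ⊗ₜ[ℤℓ] (1 : K)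

theorem tauInfAlg_jInvTens (hℓN : ¬ ℓ ∣ N) :
    tauInfAlg N ℓ K hℓN (jInvTens N ℓ K) = (jT N K)⁻¹ :=
  tauInf_jInv N ℓ K hℓN

theorem tauInfAlg_aeval (hℓN : ¬ ℓ ∣ N) (p : K[X]) :
    tauInfAlg N ℓ K hℓN (aeval (jInvTens N ℓ K) p) = aeval (jT N K)⁻¹ p := by
  rw [← Polynomial.aeval_algHom_apply, tauInfAlg_jInvTens]

theorem tauInfAlg_tmul_one (hℓN : ¬ ℓ ∣ N) (x : ↥(chartAlgInf N ℓ)) :
    tauInfAlg N ℓ K hℓN (x ⊗ₜ[ℤℓ] (1 : K)) =
      @rhoTInf N _ ℓ _ K _ (ZMod.algebra K ℓ) hℓN x :=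
  tauInf_tmul_one N ℓ K hℓN x

set_option synthInstance.maxHeartbeats 400000 in
/-- every element of the image of the finite special fibre becomes an element of the image of the
special fibre at infinity after multiplication by a power of `1/j̃` -/
theorem exists_pow_mul_tauFinAlg_eq (hℓN : ¬ ℓ ∣ N) (z : ↥(chartAlgFin N ℓ) ⊗[ℤℓ] K) :
    ∃ (n : ℕ) (w : ↥(chartAlgInf N ℓ) ⊗[ℤℓ] K),
      (jT N K)⁻¹ ^ n * tauFinAlg N ℓ K hℓN z = tauInfAlg N ℓ K hℓN w := by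
  letI : Algebra (ZMod ℓ) K := ZMod.algebra K ℓ
  induction z using TensorProduct.induction_on with
  | zero => exact ⟨0, 0, by rw [map_zero, map_zero, mul_zero]⟩
  | tmul x c =>
    obtain ⟨n, y, hy⟩ := exists_rhoTInf_eq_of_fin N ℓ K hℓN x
    refine ⟨n, y ⊗ₜ[ℤℓ] c, ?_⟩
    rw [tauFinAlg_apply, tauFin_tmul, tauInfAlg_apply, tauInf_tmul, hy, mul_smul_comm]
  | add z w hz hw =>
    obtain ⟨n, a, ha⟩ := hz
    obtain ⟨m, b, hb⟩ := hw
    refine ⟨n + m, jInvTens N ℓ K ^ m * a + jInvTens N ℓ K ^ n * b, ?_⟩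
    rw [map_add, map_add, map_mul, map_mul, map_pow, map_pow, tauInfAlg_jInvTens, ← ha, ← hb,
      pow_add]
    ring

/-- **`F̃_K` is the fraction field of the image of the special fibre at infinity.** -/
theorem tauInfAlg_frac (hℓN : ¬ ℓ ∣ N) (hmono : HasIndepMonomials N K) :
    ∀ f : ↥(modularFunctionFieldFullC K N), ∃ a b : ↥(chartAlgInf N ℓ) ⊗[ℤℓ] K,
      b ≠ 0 ∧ f * tauInfAlg N ℓ K hℓN b = tauInfAlg N ℓ K hℓN a := by
  intro f
  obtain ⟨a, b, hb, hab⟩ := tauFinAlg_frac N ℓ K hℓN hmono f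
  obtain ⟨n, wb, hwb⟩ := exists_pow_mul_tauFinAlg_eq N ℓ K hℓN b
  obtain ⟨m, wa, hwa⟩ := exists_pow_mul_tauFinAlg_eq N ℓ K hℓN a
  have hj0 : (jT N K)⁻¹ ≠ 0 := by
    refine inv_ne_zero fun h => ?_
    have h1 := congrArg (fun z : ↥(modularFunctionFieldFullC K N) => (z : LaurentSeries K)) h
    exact jqModC_ne_zero_of_nontrivial K h1
  have hτb : tauFinAlg N ℓ K hℓN b ≠ 0 := fun h =>
    hb (tauFinAlg_injective N ℓ K hℓN (by rw [h, map_zero]))
  refine ⟨jInvTens N ℓ K ^ n * wa, jInvTens N ℓ K ^ m * wb, ?_, ?_⟩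
  · intro h0
    have h1 : tauInfAlg N ℓ K hℓN (jInvTens N ℓ K ^ m * wb) = 0 := by rw [h0, map_zero]
    rw [map_mul, map_pow, tauInfAlg_jInvTens, ← hwb] at h1
    exact mul_ne_zero (pow_ne_zero m hj0) (mul_ne_zero (pow_ne_zero n hj0) hτb) h1
  · rw [map_mul, map_mul, map_pow, map_pow, tauInfAlg_jInvTens, ← hwb, ← hwa, ← hab]
    ring

set_option synthInstance.maxHeartbeats 400000 in
/-- The image of `tauInf` is the `K`-span of the reductions `rhoTInf b`. -/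
theorem tauInfAlg_mem_span (hℓN : ¬ ℓ ∣ N) (z : ↥(chartAlgInf N ℓ) ⊗[ℤℓ] K) :
    tauInfAlg N ℓ K hℓN z ∈
      Submodule.span K (Set.range (@rhoTInf N _ ℓ _ K _ (ZMod.algebra K ℓ) hℓN)) := by
  induction z using TensorProduct.induction_on with
  | zero => rw [map_zero]; exact zero_mem _
  | tmul x c =>
    rw [tauInfAlg_apply, tauInf_tmul]
    exact Submodule.smul_mem _ _ (Submodule.subset_span ⟨x, rfl⟩)
  | add z w hz hw => rw [map_add]; exact add_mem hz hw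

/-- **(B5), chart at infinity, Igusa side.**  If the special fibre of the chart at infinity is
integrally closed then every element of `F̃_K` integral over `K[1/j̃]` is a `K`-linear combination
of reductions of elements of the chart. -/
theorem mem_span_rhoTInf_of_isIntegral (hℓN : ¬ ℓ ∣ N) [IsAlgClosed K]
    (hnorm : IsIntegrallyClosed (↥(chartAlgInf N ℓ) ⊗[ℤℓ] K)) :
    ∀ ft : ↥(modularFunctionFieldFullC K N),
      IsIntegral (Algebra.adjoin K {(jT N K)⁻¹}) ft →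
      ft ∈ Submodule.span K (Set.range (@rhoTInf N _ ℓ _ K _ (ZMod.algebra K ℓ) hℓN)) := by
  intro ft hft
  haveI : IsDomain (↥(chartAlgInf N ℓ) ⊗[ℤℓ] K) := isDomain_tensor_inf N ℓ hℓN K
  have hmono : HasIndepMonomials N K := hasIndepMonomials_of_isAlgClosed N ℓ K hℓN
  obtain ⟨z, hz⟩ := BridgeNormal.mem_range_of_isIntegral_adjoin (tauInfAlg N ℓ K hℓN)
    (tauInfAlg_injective N ℓ K hℓN) (tauInfAlg_frac N ℓ K hℓN hmono) (jT N K)⁻¹
    ⟨jInvTens N ℓ K, tauInfAlg_jInvTens N ℓ K hℓN⟩ ft hft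
  rw [← hz]
  exact tauInfAlg_mem_span N ℓ K hℓN z

end Tensor

end Fermat.Agent.Good.BridgeInt
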