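import Fermat.Agent.Good.GenusChartsIntegral
import Fermat.Agent.Good.RamDataCharts

/-!
# L-GEN [G-BR] (B3): chart elements have their poles at the poles (resp. zeros) of `j`

* `polesAtPoles_of_isIntegral` : an element integral over a subring all of whose elements have
  their poles at the poles of `xt` has its poles at the poles of `xt` (valuation rings are
  integrally closed); `polesAtZeros_of_isIntegral` likewise.
* `polesAtPoles_chartAlgFin` : the image in `Fb N` of every element of `chartAlgFin N ℓ` has its
  poles at the poles of `jBar N`.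
* `polesAtZeros_chartAlgInf` : the image in `Fb N` of every element of `chartAlgInf N ℓ` has its
  poles at the zeros of `jBar N`.
The embedding is `RamDesc.fullToBar N : F_N →+* Fb N` (coefficientwise, `rfl`-equal on series to
any other coefficientwise embedding: `coe_fullToBar`).
-/

set_option autoImplicit false
set_option linter.style.haveILetI false
set_option linter.unusedSectionVars false

open AlgebraicCurve ModularCurve ModularCurve.IgusaScheme

namespace Fermat.Agent.Good.BridgePoles

open Fermat.Agent.Red Fermat.Agent.X0 Fermat.Agent.Good.GenusCharts Fermat.Agent.Good.RamDesc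

section Generic

variable {kb Ft : Type*} [Field kb] [Field Ft] [Algebra kb Ft]

/-- The regular subalgebra `⋂ {O_P | xt ∈ O_P}` is integrally closed in `Ft`: an element integral
over a ring mapping into it lies in it. -/
theorem mem_regSubalgebra_of_isIntegral {R : Type*} [CommRing R] [Algebra R Ft] {xt : Ft}
    (hR : ∀ r : R, algebraMap R Ft r ∈ regSubalgebra kb xt) {y : Ft} (hy : IsIntegral R y) :
    y ∈ regSubalgebra kb xt := fun P hP =>
  mem_valuationSubring_of_isIntegral P.toValuationSubring (fun r => hR r P hP) hy

/-- **(B3), generic, finite chart.** -/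
theorem polesAtPoles_of_isIntegral {R : Type*} [CommRing R] [Algebra R Ft] {xt : Ft}
    (hR : ∀ r : R, PolesAtPoles kb xt (algebraMap R Ft r)) {y : Ft} (hy : IsIntegral R y) :
    PolesAtPoles kb xt y :=
  mem_regSubalgebra_iff.mp
    (mem_regSubalgebra_of_isIntegral (fun r => mem_regSubalgebra_iff.mpr (hR r)) hy)

/-- **(B3), generic, chart at infinity.** -/
theorem polesAtZeros_of_isIntegral {R : Type*} [CommRing R] [Algebra R Ft] {xt : Ft}
    (hR : ∀ r : R, PolesAtZeros kb xt (algebraMap R Ft r)) {y : Ft} (hy : IsIntegral R y) :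
    PolesAtZeros kb xt y :=
  polesAtPoles_inv_iff.mp
    (polesAtPoles_of_isIntegral (fun r => polesAtPoles_inv_iff.mpr (hR r)) hy)

/-- Image under a ring homomorphism into `Ft` of an element integral over `Algebra.adjoin O S`:
it suffices to control the images of `O` and of `S`. -/
theorem mem_regSubalgebra_map_of_isIntegral_adjoin {O F : Type*} [CommRing O] [CommRing F]
    [Algebra O F] (e : F →+* Ft) {xt : Ft} (S : Set F)
    (hO : ∀ a : O, e (algebraMap O F a) ∈ regSubalgebra kb xt)
    (hS : ∀ s ∈ S, e s ∈ regSubalgebra kb xt) {b : F} (hb : IsIntegral (Algebra.adjoin O S) b) :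
    e b ∈ regSubalgebra kb xt := by
  letI : Algebra (Algebra.adjoin O S) Ft := (e.comp (algebraMap (Algebra.adjoin O S) F)).toAlgebra
  have hR : ∀ r : Algebra.adjoin O S, algebraMap (Algebra.adjoin O S) Ft r ∈
      regSubalgebra kb xt := by
    rintro ⟨r, hr⟩
    show e r ∈ regSubalgebra kb xt
    induction hr using Algebra.adjoin_induction with
    | mem y hy => exact hS y hy
    | algebraMap a => exact hO a
    | add y z _ _ hy hz => rw [map_add]; exact add_mem hy hz
    | mul y z _ _ hy hz => rw [map_mul]; exact mul_mem hy hz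
  have hint : IsIntegral (Algebra.adjoin O S) (e b) :=
    IsIntegral.map_of_comp_eq (RingHom.id _) e (by ext; rfl) hb
  exact mem_regSubalgebra_of_isIntegral hR hint

end Generic

section Concrete

variable (N : ℕ) [NeZero N] (ℓ : ℕ) [Fact ℓ.Prime]

/-- the image of `ℤ_(ℓ)` in `Fb N` consists of constants -/
theorem fullToBar_algebraMap_zl (a : ↥(GaloisRep.ratLocalizedAt ℓ)) :
    fullToBar N (algebraMap ↥(GaloisRep.ratLocalizedAt ℓ) ↥(modularFunctionFieldFull N) a) =
      algebraMap Kb (Fb N) (algebraMap ℚ Kb (a : ℚ)) := by
  have : algebraMap ↥(GaloisRep.ratLocalizedAt ℓ) ↥(modularFunctionFieldFull N) a =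
      algebraMap ℚ ↥(modularFunctionFieldFull N) (a : ℚ) := rfl
  rw [this, fullToBar_algebraMap]

/-- **(B3), finite chart**: the poles of (the image of) an element of `chartAlgFin N ℓ` are poles
of `jBar N`. -/
theorem polesAtPoles_chartAlgFin {b : ↥(modularFunctionFieldFull N)} (hb : b ∈ chartAlgFin N ℓ) :
    PolesAtPoles Kb (jBar N) (fullToBar N b) := by
  rw [← mem_regSubalgebra_iff]
  refine mem_regSubalgebra_map_of_isIntegral_adjoin (kb := Kb) (fullToBar N) {jFull N} ?_ ?_
    ((mem_chartAlg_iff N ℓ).mp hb)
  · intro a
    rw [fullToBar_algebraMap_zl]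
    exact Subalgebra.algebraMap_mem _ _
  · intro s hs
    rw [Set.mem_singleton_iff] at hs
    rw [hs, fullToBar_jFull]
    exact self_mem_regSubalgebra _

/-- **(B3), chart at infinity**: the poles of (the image of) an element of `chartAlgInf N ℓ` are
zeros of `jBar N`. -/
theorem polesAtZeros_chartAlgInf {b : ↥(modularFunctionFieldFull N)} (hb : b ∈ chartAlgInf N ℓ) :
    PolesAtZeros Kb (jBar N) (fullToBar N b) := by
  rw [← polesAtPoles_inv_iff, ← mem_regSubalgebra_iff]
  refine mem_regSubalgebra_map_of_isIntegral_adjoin (kb := Kb) (fullToBar N) {(jFull N)⁻¹} ?_ ?_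
    ((mem_chartAlg_iff N ℓ).mp hb)
  · intro a
    rw [fullToBar_algebraMap_zl]
    exact Subalgebra.algebraMap_mem _ _
  · intro s hs
    rw [Set.mem_singleton_iff] at hs
    rw [hs, map_inv₀, fullToBar_jFull]
    exact self_mem_regSubalgebra _

end Concrete

end Fermat.Agent.Good.BridgePoles
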