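/-
L-GEN (Program L, S18), node [G-BR] (B1)+(B2) (parallel version by helper19): the images of the
two Igusa charts in `F̄_N` are Gauss integral at every valuation subring `A` of `ℚ̄` over `ℓ`, and
the Gauss residue map of `A` restricts on them to the reduction of `q`-expansions.

Laurent level: `coeffEmb ℚ̄ x ∈ gaussRingA A π` for `x ∈ gaussSubring ℓ`, with residue
`coeffMap (ZMod ℓ → k) (gaussRes ℓ x)`.
-/
import Mathlib
import Fermat.Agent.Val.Deliverable
import Fermat.Agent.Good.IgusaTensorInf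
import Fermat.Agent.Good.RamDataCharts
import Fermat.Agent.Good.ResidueAlgebra

set_option autoImplicit false
set_option linter.unusedSectionVars false
set_option linter.style.haveILetI false
open ModularCurve ModularCurve.IgusaScheme IsLocalRing
open Fermat.Agent.Igusa Fermat.Agent.X0 Fermat.Agent.Good.S28X Fermat.Agent.Good.RamDesc

noncomputable section
namespace Fermat.Agent.Good.BridgeResH19

set_option synthInstance.maxHeartbeats 400000

section Laurent

variable (A : ValuationSubring Kb) {ℓ : ℕ} [hℓ : Fact ℓ.Prime] (hA : A.LiesOverPrime ℓ)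

set_option quotPrecheck false in
local notation "ℤℓ" => ↥(GaloisRep.ratLocalizedAt ℓ)

/-- `ℤ_(ℓ)((q)) → A((q))`. -/
def zlToASeries : LaurentSeries ℤℓ →+* LaurentSeries A :=
  coeffMap (ResAlg.zlToValuationSubring A hA)

theorem aIota_zlToASeries (a : LaurentSeries ℤℓ) :
    Val.aIota A (zlToASeries A hA a) = coeffEmb Kb (zlIota ℓ a) := by
  ext n
  show ((ResAlg.zlToValuationSubring A hA (a.coeff n) : A) : Kb) =
    algebraMap ℚ Kb ((a.coeff n : ℤℓ) : ℚ)
  rw [ResAlg.coe_zlToValuationSubring, eq_ratCast]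

theorem aRed_zlToASeries [Algebra (ZMod ℓ) (ResidueField A)] (a : LaurentSeries ℤℓ) :
    Val.aRed (residue A) (zlToASeries A hA a) =
      coeffMap (algebraMap (ZMod ℓ) (ResidueField A)) (zlRed ℓ a) := by
  show coeffMap (residue A) (coeffMap (ResAlg.zlToValuationSubring A hA) a) =
    coeffMap (algebraMap (ZMod ℓ) (ResidueField A)) (coeffMap (zlResidue ℓ) a)
  rw [coeffMap_coeffMap, coeffMap_coeffMap]
  exact coeffMap_congr (zl_ringHom_ext ℓ _ _) a

theorem coeffMap_ne_zero_of_injective {R S : Type*} [CommRing R] [CommRing S] (f : R →+* S)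
    (hf : Function.Injective f) {y : LaurentSeries R} (hy : y ≠ 0) : coeffMap f y ≠ 0 := by
  intro h
  apply hy
  ext n
  have := congrArg (fun z => z.coeff n) h
  simp only [coeffMap_coeff, HahnSeries.coeff_zero] at this
  exact hf (this.trans (map_zero f).symm)

include hA in
/-- **Gauss integrality transfers from `ℤ_(ℓ)` to `A`.** -/
theorem coeffEmb_mem_gaussRingA {x : LaurentSeries ℚ} (hx : x ∈ gaussSubring ℓ) :
    coeffEmb Kb x ∈ Val.gaussRingA A (residue A) := by
  haveI : CharP (ResidueField A) ℓ := Val.charP_residueField_of_liesOverPrime A hA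
  letI : Algebra (ZMod ℓ) (ResidueField A) := ZMod.algebra (ResidueField A) ℓ
  obtain ⟨a, b, hb, hab⟩ := hx
  refine ⟨zlToASeries A hA a, zlToASeries A hA b, ?_, ?_⟩
  · rw [aRed_zlToASeries]
    exact coeffMap_ne_zero_of_injective _ (algebraMap (ZMod ℓ) (ResidueField A)).injective hb
  · rw [aIota_zlToASeries, aIota_zlToASeries, ← map_mul, hab]

include hA in
/-- **The residue of the image.** -/
theorem gaussResA_coeffEmb [Algebra (ZMod ℓ) (ResidueField A)] {x : LaurentSeries ℚ}
    (hx : x ∈ gaussSubring ℓ) (hx' : coeffEmb Kb x ∈ Val.gaussRingA A (residue A)) :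
    Val.gaussResA A (residue A) ⟨coeffEmb Kb x, hx'⟩ =
      coeffMap (algebraMap (ZMod ℓ) (ResidueField A)) (gaussRes ℓ ⟨x, hx⟩) := by
  have hx'' := hx
  obtain ⟨a, b, hb, hab⟩ := hx''
  have hb' : Val.aRed (residue A) (zlToASeries A hA b) ≠ 0 := by
    rw [aRed_zlToASeries]
    exact coeffMap_ne_zero_of_injective _ (algebraMap (ZMod ℓ) (ResidueField A)).injective hb
  have hab' : coeffEmb Kb x * Val.aIota A (zlToASeries A hA b) =
      Val.aIota A (zlToASeries A hA a) := by
    rw [aIota_zlToASeries, aIota_zlToASeries, ← map_mul, hab]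
  have h1 : Val.gaussResA A (residue A) ⟨coeffEmb Kb x, hx'⟩ =
      Val.aRed (residue A) (zlToASeries A hA a) / Val.aRed (residue A) (zlToASeries A hA b) :=
    Val.gaussResA_eq A (residue A) ⟨coeffEmb Kb x, hx'⟩ hb' hab'
  have h2 : gaussRes ℓ ⟨x, hx⟩ = zlRed ℓ a / zlRed ℓ b := gaussRes_eq ℓ ⟨x, hx⟩ hb hab
  rw [h1, h2, aRed_zlToASeries, aRed_zlToASeries]
  exact (map_div₀ (coeffMap (algebraMap (ZMod ℓ) (ResidueField A))) _ _).symm

end Laurent

section Charts

variable (N : ℕ) [NeZero N] {ℓ : ℕ} [hℓ : Fact ℓ.Prime] (hℓN : ¬ ℓ ∣ N)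
variable (A : ValuationSubring Kb) (hA : A.LiesOverPrime ℓ)

set_option quotPrecheck false in
local notation "F" => ↥(modularFunctionFieldFull N)

/-- **(B1)** for an arbitrary chart with Gauss-integral generators. -/
theorem fullToBar_mem_O_chartAlg {S : Set F}
    (hS : ∀ s ∈ S, ((s : F) : LaurentSeries ℚ) ∈ gaussSubring ℓ) {b : F}
    (hb : b ∈ chartAlg N ℓ S) :
    fullToBar N b ∈ (Val.constRedBar N hℓN A hA).O := by
  show ((fullToBar N b : Fb N) : LaurentSeries Kb) ∈ Val.gaussRingA A (residue A)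
  exact coeffEmb_mem_gaussRingA A hA (coe_mem_gaussSubring_of_mem_chartAlg N ℓ hS hb)

/-- **(B2)** for an arbitrary chart with Gauss-integral generators, Laurent series form. -/
theorem coe_resF_fullToBar_chartAlg [Algebra (ZMod ℓ) (ResidueField A)] {S : Set F}
    (hS : ∀ s ∈ S, ((s : F) : LaurentSeries ℚ) ∈ gaussSubring ℓ) {b : F}
    (hb : b ∈ chartAlg N ℓ S) :
    (((Val.constRedBar N hℓN A hA).resF (fullToBar N b) :
        modularFunctionFieldFullC (ResidueField A) N) : LaurentSeries (ResidueField A)) =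
      coeffMap (algebraMap (ZMod ℓ) (ResidueField A)) (chartRes N ℓ hS ⟨b, hb⟩) := by
  rw [(Val.constRedBar N hℓN A hA).resF_of_mem (fullToBar_mem_O_chartAlg N hℓN A hA hS hb)]
  show Val.gaussResA A (residue A)
    ⟨coeffEmb Kb ((b : F) : LaurentSeries ℚ), _⟩ = _
  rw [gaussResA_coeffEmb A hA (coe_mem_gaussSubring_of_mem_chartAlg N ℓ hS hb)]
  rfl

/-- **(B1), finite chart.** -/
theorem fullToBar_mem_O_fin :
    ∀ b ∈ chartAlgFin N ℓ, fullToBar N b ∈ (Val.constRedBar N hℓN A hA).O :=
  fun _ hb => fullToBar_mem_O_chartAlg N hℓN A hA (hSFin N ℓ) hb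

/-- **(B1), chart at infinity.** -/
theorem fullToBar_mem_O_inf :
    ∀ b ∈ chartAlgInf N ℓ, fullToBar N b ∈ (Val.constRedBar N hℓN A hA).O :=
  fun _ hb => fullToBar_mem_O_chartAlg N hℓN A hA (hSInf N ℓ) hb

/-- **(B2), finite chart.** -/
theorem resF_fullToBar_fin [Algebra (ZMod ℓ) (ResidueField A)] :
    ∀ b (hb : b ∈ chartAlgFin N ℓ),
      (Val.constRedBar N hℓN A hA).resF (fullToBar N b) =
        rhoT N ℓ (ResidueField A) hℓN ⟨b, hb⟩ :=
  fun _ hb => Subtype.ext (coe_resF_fullToBar_chartAlg N hℓN A hA (hSFin N ℓ) hb)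

/-- **(B2), chart at infinity.** -/
theorem resF_fullToBar_inf [Algebra (ZMod ℓ) (ResidueField A)] :
    ∀ b (hb : b ∈ chartAlgInf N ℓ),
      (Val.constRedBar N hℓN A hA).resF (fullToBar N b) =
        rhoTInf N ℓ (ResidueField A) hℓN ⟨b, hb⟩ :=
  fun _ hb => Subtype.ext (coe_resF_fullToBar_chartAlg N hℓN A hA (hSInf N ℓ) hb)

/-- **(B2), finite chart**, at the instance `ZMod.algebra` (shape of `Good.genDeliverable_of_B1B2`). -/
theorem resF_fullToBar_fin_zmod :
    letI : CharP (ResidueField A) ℓ := Val.charP_residueField_of_liesOverPrime A hA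
    ∀ b (hb : b ∈ chartAlgFin N ℓ),
      (Val.constRedBar N hℓN A hA).resF (fullToBar N b) =
        @rhoT N _ ℓ _ (ResidueField A) _ (ZMod.algebra (ResidueField A) ℓ) hℓN ⟨b, hb⟩ := by
  letI : CharP (ResidueField A) ℓ := Val.charP_residueField_of_liesOverPrime A hA
  letI : Algebra (ZMod ℓ) (ResidueField A) := ZMod.algebra (ResidueField A) ℓ
  exact resF_fullToBar_fin N hℓN A hA

/-- **(B2), chart at infinity**, at the instance `ZMod.algebra`. -/
theorem resF_fullToBar_inf_zmod :
    letI : CharP (ResidueField A) ℓ := Val.charP_residueField_of_liesOverPrime A hA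
    ∀ b (hb : b ∈ chartAlgInf N ℓ),
      (Val.constRedBar N hℓN A hA).resF (fullToBar N b) =
        @rhoTInf N _ ℓ _ (ResidueField A) _ (ZMod.algebra (ResidueField A) ℓ) hℓN ⟨b, hb⟩ := by
  letI : CharP (ResidueField A) ℓ := Val.charP_residueField_of_liesOverPrime A hA
  letI : Algebra (ZMod ℓ) (ResidueField A) := ZMod.algebra (ResidueField A) ℓ
  exact resF_fullToBar_inf N hℓN A hA

end Charts

end Fermat.Agent.Good.BridgeResH19
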