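import Fermat.Agent.Good.GenusEqUncond
import Fermat.Agent.Good.ChartBridgePoles

/-!
# L-GEN: the top of the assembly on the two Igusa charts

`Bf := fullToBar '' chartAlgFin N ℓ`, `Bi := fullToBar '' chartAlgInf N ℓ` (images in `F̄_N` of
the two chart algebras of S28 over `ℤ_(ℓ)`).  (B3) is `BridgePoles` (helper12).  Remaining inputs,
in hypothesis form:
* (B1) the images are Gauss-integral (lie in `constRedBar.O`);
* (B5) every element of `F̃_N` integral over `k[j̃]` (resp. `k[1/j̃]`) lies in the `k`-span of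
  the residues of `Bf` (resp. `Bi`)  [= normality of the two charts of the special fibre].
Outputs: `GenDeliverable N A` (hence S18) and the genus equality (hence S37).
-/

set_option autoImplicit false
set_option linter.style.haveILetI false
set_option linter.unusedSectionVars false

noncomputable section
namespace Fermat.Agent.Good

open AlgebraicCurve ModularCurve ModularCurve.IgusaScheme IsLocalRing Fermat.Agent.X0
  Fermat.Agent.Red GenusCharts Fermat.Agent.Good.RamDesc

set_option synthInstance.maxHeartbeats 400000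

variable (N : ℕ) [NeZero N] {ℓ : ℕ} [hℓ : Fact ℓ.Prime] (hℓN : ¬ ℓ ∣ N)
variable (A : ValuationSubring (AlgebraicClosure ℚ)) (hA : A.LiesOverPrime ℓ)

/-- The image of the finite chart in `F̄_N`. -/
def chartBarFin (ℓ : ℕ) [Fact ℓ.Prime] : Set (modularFunctionFieldBar N) :=
  fullToBar N '' (chartAlgFin N ℓ : Set (modularFunctionFieldFull N))

/-- The image of the chart at infinity in `F̄_N`. -/
def chartBarInf (ℓ : ℕ) [Fact ℓ.Prime] : Set (modularFunctionFieldBar N) :=
  fullToBar N '' (chartAlgInf N ℓ : Set (modularFunctionFieldFull N))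

/-- **(I6) from the two charts.** -/
theorem genDeliverable_of_chartBar
    (hB1f : ∀ b ∈ chartAlgFin N ℓ, fullToBar N b ∈ (Val.constRedBar N hℓN A hA).O)
    (hB1i : ∀ b ∈ chartAlgInf N ℓ, fullToBar N b ∈ (Val.constRedBar N hℓN A hA).O)
    (hintf : ∀ ft : modularFunctionFieldFullC (ResidueField A) N,
      IsIntegral (Algebra.adjoin (ResidueField A) {Val.jFullC (ResidueField A) N}) ft →
      ft ∈ Submodule.span (ResidueField A)
        ((Val.constRedBar N hℓN A hA).resF '' chartBarFin N ℓ))
    (hinti : ∀ ft : modularFunctionFieldFullC (ResidueField A) N,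
      IsIntegral (Algebra.adjoin (ResidueField A) {(Val.jFullC (ResidueField A) N)⁻¹}) ft →
      ft ∈ Submodule.span (ResidueField A)
        ((Val.constRedBar N hℓN A hA).resF '' chartBarInf N ℓ)) :
    GenDeliverable N A :=
  genDeliverable_of_charts N hℓN A hA (chartBarFin N ℓ) (chartBarInf N ℓ)
    (by rintro _ ⟨b, hb, rfl⟩; exact hB1f b hb)
    (by rintro _ ⟨b, hb, rfl⟩; exact hB1i b hb)
    (by rintro _ ⟨b, hb, rfl⟩; exact BridgePoles.polesAtPoles_chartAlgFin N ℓ hb)
    (by rintro _ ⟨b, hb, rfl⟩; exact BridgePoles.polesAtZeros_chartAlgInf N ℓ hb)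
    hintf hinti

/-- **The genus equality from the two charts.** -/
theorem genusFF_modL_eq_bar_of_chartBar
    (hB1f : ∀ b ∈ chartAlgFin N ℓ, fullToBar N b ∈ (Val.constRedBar N hℓN A hA).O)
    (hB1i : ∀ b ∈ chartAlgInf N ℓ, fullToBar N b ∈ (Val.constRedBar N hℓN A hA).O)
    (hintf : ∀ ft : modularFunctionFieldFullC (ResidueField A) N,
      IsIntegral (Algebra.adjoin (ResidueField A) {Val.jFullC (ResidueField A) N}) ft →
      ft ∈ Submodule.span (ResidueField A)
        ((Val.constRedBar N hℓN A hA).resF '' chartBarFin N ℓ))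
    (hinti : ∀ ft : modularFunctionFieldFullC (ResidueField A) N,
      IsIntegral (Algebra.adjoin (ResidueField A) {(Val.jFullC (ResidueField A) N)⁻¹}) ft →
      ft ∈ Submodule.span (ResidueField A)
        ((Val.constRedBar N hℓN A hA).resF '' chartBarInf N ℓ)) :
    genusFF (ResidueField A) (modularFunctionFieldFullC (ResidueField A) N) =
      genusFF (AlgebraicClosure ℚ) (modularFunctionFieldBar N) :=
  genusFF_modL_eq_bar_of_charts N hℓN A hA (chartBarFin N ℓ) (chartBarInf N ℓ)
    (by rintro _ ⟨b, hb, rfl⟩; exact hB1f b hb)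
    (by rintro _ ⟨b, hb, rfl⟩; exact hB1i b hb)
    (by rintro _ ⟨b, hb, rfl⟩; exact BridgePoles.polesAtPoles_chartAlgFin N ℓ hb)
    (by rintro _ ⟨b, hb, rfl⟩; exact BridgePoles.polesAtZeros_chartAlgInf N ℓ hb)
    hintf hinti

end Fermat.Agent.Good
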