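import Mathlib
import Fermat.Agent.Good.CuspLamModel
import Fermat.Agent.Good.CuspChart
import Fermat.Agent.Good.CuspCoverFibre

/-!
# Program L (S18), L-GEN, node [G-INST-CUSP] (R2)+(R3): the cover ring inside the Kummer algebra

`R = Kum.RCov ℤ_(ℓ) N = ℤ_(ℓ)[y][1/(1 - 1728 y^N)]`, `Ec N = F[y]/(y^N - w)` (`F = F_N`, `w = 1/j`).

* (R2) `covToEc : R →+* Ec N` (`y ↦ y`), `covToEc_yCov`, `covToEc_algebraMap_lam`,
  `rCovAlgebraEc : Algebra R (Ec N)` (a `def`), scalar towers, `isUnit_covToEc` (nonzero elements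
  of `R` are units of `Ec N`), `fracAlgebraEc : Algebra (FractionRing R) (Ec N)` (a `def`),
  `finite_frac_ec`;
* (R3) `isIntegral_rCov_iff : IsIntegral R z ↔ z ∈ CuspChart.BE N ℓ {w, 1/g}`.
-/

set_option autoImplicit false
set_option linter.style.haveILetI false
set_option linter.unusedSectionVars false

open ModularCurve ModularCurve.IgusaScheme TensorProduct IntermediateField Polynomial
open Fermat.Agent.Igusa Fermat.Agent.Good.Kum Fermat.Agent.Good.CuspChart
open Fermat.Agent.Good.CuspGlue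

namespace Fermat.Agent.Good.CuspCover

variable (N : ℕ) [NeZero N] (ℓ : ℕ) [Fact ℓ.Prime]

set_option quotPrecheck false in
local notation "ℤℓ" => ↥(GaloisRep.ratLocalizedAt ℓ)

set_option quotPrecheck false in
local notation "F" => ↥(modularFunctionFieldFull N)

set_option synthInstance.maxHeartbeats 400000

/-! ### (R2) the map `R → Ec` -/

/-- `ℤ_(ℓ)[X] → Ec N`, `X ↦ y`. -/
noncomputable def polyToEc : ℤℓ[X] →ₐ[ℤℓ] Ec N := Polynomial.aeval (kumY F (wF N) N)

theorem polyToEc_expand (p : ℤℓ[X]) :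
    polyToEc N ℓ (expand ℤℓ N p) = algebraMap F (Ec N) (Polynomial.aeval (jFull N)⁻¹ p) := by
  rw [polyToEc, Polynomial.expand_aeval, kumY_pow, Polynomial.aeval_algebraMap_apply]
  rfl

theorem polyToEc_cCov :
    polyToEc N ℓ (cCov ℤℓ N) = algebraMap F (Ec N) (gFull N) := by
  rw [← expand_cLam, polyToEc_expand, cLam, map_sub, map_one, map_mul, aeval_X, aeval_C]
  have : algebraMap ℤℓ F 1728 = 1728 := map_ofNat (algebraMap ℤℓ F) 1728
  rw [this]
  rfl

theorem isUnit_polyToEc_cCov : IsUnit ((polyToEc N ℓ).toRingHom (cCov ℤℓ N)) := by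
  show IsUnit (polyToEc N ℓ (cCov ℤℓ N))
  rw [polyToEc_cCov]
  exact (IsUnit.mk0 _ (gFull_ne_zero N)).map _

/-- **`R → Ec N`**, `y ↦ y`. -/
noncomputable def covToEc : RCov ℤℓ N →+* Ec N :=
  IsLocalization.Away.lift (S := RCov ℤℓ N) (cCov ℤℓ N) (isUnit_polyToEc_cCov N ℓ)

theorem covToEc_algebraMap (p : ℤℓ[X]) :
    covToEc N ℓ (algebraMap ℤℓ[X] (RCov ℤℓ N) p) = polyToEc N ℓ p := by
  rw [covToEc, IsLocalization.Away.lift_eq]
  rfl

theorem covToEc_yCov : covToEc N ℓ (yCov ℤℓ N) = kumY F (wF N) N := by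
  rw [yCov, covToEc_algebraMap, polyToEc, aeval_X]

theorem covToEc_algebraMap_zl (a : ℤℓ) :
    covToEc N ℓ (algebraMap ℤℓ (RCov ℤℓ N) a) = algebraMap ℤℓ (Ec N) a := by
  rw [IsScalarTower.algebraMap_apply ℤℓ ℤℓ[X] (RCov ℤℓ N), covToEc_algebraMap]
  exact (polyToEc N ℓ).commutes a

theorem covToEc_algebraMap_lam (a : LamC ℤℓ) :
    covToEc N ℓ (algebraMap (LamC ℤℓ) (RCov ℤℓ N) a) =
      algebraMap F (Ec N) (lamToF N ℓ a) := by
  have h : (covToEc N ℓ).comp (algebraMap (LamC ℤℓ) (RCov ℤℓ N)) =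
      (algebraMap F (Ec N)).comp (lamToF N ℓ) := by
    apply IsLocalization.ringHom_ext (Submonoid.powers (cLam ℤℓ))
    ext p
    · simp only [RingHom.comp_apply]
      rw [algebraMap_lamC_rCov, lamToCov_algebraMap, covToEc_algebraMap, polyToEc_expand,
        lamToF_algebraMap]
    · simp only [RingHom.comp_apply]
      rw [algebraMap_lamC_rCov, lamToCov_algebraMap, covToEc_algebraMap, polyToEc_expand,
        lamToF_algebraMap]
  exact RingHom.congr_fun h a

/-- `Ec N` as an algebra over the cover ring.  Not a global instance. -/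
@[instance_reducible]
noncomputable def rCovAlgebraEc : Algebra (RCov ℤℓ N) (Ec N) := (covToEc N ℓ).toAlgebra

attribute [local instance] rCovAlgebraEc

theorem algebraMap_rCov_ec (r : RCov ℤℓ N) : algebraMap (RCov ℤℓ N) (Ec N) r = covToEc N ℓ r := rfl

theorem isScalarTower_zl_rCov_ec : IsScalarTower ℤℓ (RCov ℤℓ N) (Ec N) :=
  IsScalarTower.of_algebraMap_eq fun a => (covToEc_algebraMap_zl N ℓ a).symm

attribute [local instance] lamAlgebraFull

/-- With `lamAlgebraFull` active, `Ec N` is a `LamC ℤ_(ℓ)`-algebra through `F`; the structure map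
is `a ↦ lamToF a`. -/
theorem algebraMap_lam_ec (a : LamC ℤℓ) :
    algebraMap (LamC ℤℓ) (Ec N) a = algebraMap F (Ec N) (lamToF N ℓ a) := rfl

theorem isScalarTower_lam_rCov_ec : IsScalarTower (LamC ℤℓ) (RCov ℤℓ N) (Ec N) :=
  IsScalarTower.of_algebraMap_eq fun a => (covToEc_algebraMap_lam N ℓ a).symm

/-- **Nonzero elements of the cover ring are units of the Kummer algebra.** -/
theorem isUnit_covToEc {r : RCov ℤℓ N} (hr : r ≠ 0) : IsUnit (covToEc N ℓ r) := by
  haveI := isDomain_rCov_zl N ℓ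
  have halg : IsAlgebraic (LamC ℤℓ) r :=
    (Algebra.IsIntegral.isIntegral (R := LamC ℤℓ) r).isAlgebraic
  obtain ⟨a, ha0, hdvd⟩ := halg.exists_nonzero_dvd (mem_nonZeroDivisors_of_ne_zero hr)
  have h1 : covToEc N ℓ r ∣ covToEc N ℓ (algebraMap (LamC ℤℓ) (RCov ℤℓ N) a) :=
    map_dvd (covToEc N ℓ) hdvd
  rw [covToEc_algebraMap_lam] at h1
  have h2 : IsUnit (algebraMap F (Ec N) (lamToF N ℓ a)) :=
    (IsUnit.mk0 _ (fun h => ha0 (lamToF_injective N ℓ (by rw [h, map_zero])))).map _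
  exact isUnit_of_dvd_unit h1 h2

theorem nontrivial_ec : Nontrivial (Ec N) := by
  refine AdjoinRoot.nontrivial _ ?_
  intro h
  have h1 := natDegree_kumPoly F (wF N) (N_pos N)
  rw [Polynomial.natDegree_eq_of_degree_eq_some (n := 0) (by simpa using h)] at h1
  exact (N_pos N).ne h1

theorem covToEc_injective : Function.Injective (covToEc N ℓ) := by
  haveI := nontrivial_ec N
  rw [injective_iff_map_eq_zero]
  intro r hr
  by_contra h
  have := isUnit_covToEc N ℓ h
  rw [hr] at this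
  exact not_isUnit_zero this

theorem isUnit_covToEc_of_mem_nonZeroDivisors (y : nonZeroDivisors (RCov ℤℓ N)) :
    IsUnit (covToEc N ℓ y) := by
  haveI := isDomain_rCov_zl N ℓ
  exact isUnit_covToEc N ℓ (nonZeroDivisors.ne_zero y.2)

/-- `Ec N` as an algebra over the fraction field of the cover ring.  Not a global instance. -/
@[instance_reducible]
noncomputable def fracAlgebraEc : Algebra (FractionRing (RCov ℤℓ N)) (Ec N) :=
  (IsLocalization.lift (M := nonZeroDivisors (RCov ℤℓ N)) (S := FractionRing (RCov ℤℓ N))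
    (g := covToEc N ℓ) (isUnit_covToEc_of_mem_nonZeroDivisors N ℓ)).toAlgebra

attribute [local instance] fracAlgebraEc

theorem algebraMap_frac_ec_algebraMap (r : RCov ℤℓ N) :
    algebraMap (FractionRing (RCov ℤℓ N)) (Ec N) (algebraMap (RCov ℤℓ N) _ r) =
      covToEc N ℓ r :=
  IsLocalization.lift_eq _ r

theorem isScalarTower_rCov_frac_ec :
    IsScalarTower (RCov ℤℓ N) (FractionRing (RCov ℤℓ N)) (Ec N) :=
  IsScalarTower.of_algebraMap_eq fun r => (algebraMap_frac_ec_algebraMap N ℓ r).symm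

/-! ### Finiteness over the fraction field of the cover ring -/

/-- `ℤ_(ℓ)[w, 1/g] → Frac R`. -/
noncomputable def adjToFrac : ↥(adjInfC N ℓ) →+* FractionRing (RCov ℤℓ N) :=
  (algebraMap (RCov ℤℓ N) (FractionRing (RCov ℤℓ N))).comp
    ((algebraMap (LamC ℤℓ) (RCov ℤℓ N)).comp (lamEquivAdjInfC N ℓ).symm.toRingEquiv.toRingHom)

theorem adjToFrac_injective : Function.Injective (adjToFrac N ℓ) := by
  haveI := isDomain_rCov_zl N ℓ
  refine (IsFractionRing.injective (RCov ℤℓ N) (FractionRing (RCov ℤℓ N))).comp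
    ((algebraMap_lamC_rCov_injective ℤℓ (N_pos N)).comp ?_)
  exact (lamEquivAdjInfC N ℓ).symm.injective

theorem algebraMap_frac_ec_adjToFrac (a : ↥(adjInfC N ℓ)) :
    algebraMap (FractionRing (RCov ℤℓ N)) (Ec N) (adjToFrac N ℓ a) =
      algebraMap F (Ec N) (a : F) := by
  show algebraMap (FractionRing (RCov ℤℓ N)) (Ec N) (algebraMap (RCov ℤℓ N) _
    (algebraMap (LamC ℤℓ) (RCov ℤℓ N) ((lamEquivAdjInfC N ℓ).symm a))) = _
  rw [algebraMap_frac_ec_algebraMap, covToEc_algebraMap_lam, lamToF_apply,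
    AlgEquiv.apply_symm_apply]

/-- `ℚ(j) → Frac R`. -/
noncomputable def qjToFrac : ↥ℚ⟮jFull N⟯ →+* FractionRing (RCov ℤℓ N) :=
  letI := adjoinAlgebraQj N ℓ (sInfC_subset_Qj N)
  haveI := isFractionRing_adjInfC N ℓ
  haveI := isDomain_rCov_zl N ℓ
  IsLocalization.lift (M := nonZeroDivisors ↥(adjInfC N ℓ)) (S := ↥ℚ⟮jFull N⟯)
    (g := adjToFrac N ℓ) (fun y => IsUnit.mk0 _ (fun h =>
      nonZeroDivisors.ne_zero y.2 (adjToFrac_injective N ℓ (by rw [h, map_zero]))))

theorem algebraMap_frac_ec_qjToFrac (x : ↥ℚ⟮jFull N⟯) :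
    algebraMap (FractionRing (RCov ℤℓ N)) (Ec N) (qjToFrac N ℓ x) =
      algebraMap F (Ec N) (x : F) := by
  letI := adjoinAlgebraQj N ℓ (sInfC_subset_Qj N)
  haveI := isFractionRing_adjInfC N ℓ
  haveI := isDomain_rCov_zl N ℓ
  have h : (algebraMap (FractionRing (RCov ℤℓ N)) (Ec N)).comp (qjToFrac N ℓ) =
      (algebraMap F (Ec N)).comp (algebraMap ↥ℚ⟮jFull N⟯ F) := by
    apply IsLocalization.ringHom_ext (nonZeroDivisors ↥(adjInfC N ℓ))
    ext a
    simp only [RingHom.comp_apply]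
    rw [qjToFrac, IsLocalization.lift_eq, algebraMap_frac_ec_adjToFrac]
    rfl
  exact RingHom.congr_fun h x

/-- **`Ec N` is a finite-dimensional algebra over the fraction field of the cover ring.** -/
theorem finite_frac_ec : Module.Finite (FractionRing (RCov ℤℓ N)) (Ec N) := by
  letI : Algebra ↥ℚ⟮jFull N⟯ (FractionRing (RCov ℤℓ N)) := (qjToFrac N ℓ).toAlgebra
  haveI : IsScalarTower ↥ℚ⟮jFull N⟯ (FractionRing (RCov ℤℓ N)) (Ec N) :=
    IsScalarTower.of_algebraMap_eq fun x => (algebraMap_frac_ec_qjToFrac N ℓ x).symm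
  haveI := finiteDimensional_full N
  haveI : Module.Finite ↥ℚ⟮jFull N⟯ (Ec N) := Module.Finite.trans F (Ec N)
  exact Module.Finite.of_restrictScalars_finite ↥ℚ⟮jFull N⟯ (FractionRing (RCov ℤℓ N)) (Ec N)

/-! ### (R3) the integral closure of the cover ring in the Kummer algebra -/

/-- **The integral closure of the cover ring `R` in `Ec N` is `CuspChart.BE`**, the integral
closure of `ℤ_(ℓ)[w, 1/g]`. -/
theorem isIntegral_rCov_iff (z : Ec N) :
    IsIntegral (RCov ℤℓ N) z ↔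
      z ∈ CuspChart.BE N ℓ ({(jFull N)⁻¹, (gFull N)⁻¹} : Set F) := by
  haveI := isScalarTower_lam_rCov_ec N ℓ
  rw [CuspChart.mem_BE_iff]
  refine Iff.trans ?_ (isIntegral_adjInfC_iff_isIntegral_lam N ℓ z).symm
  constructor
  · intro h
    exact isIntegral_trans (R := LamC ℤℓ) (A := RCov ℤℓ N) z h
  · intro h
    exact h.tower_top

end Fermat.Agent.Good.CuspCover
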