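import Fermat.Agent.Good.CuspQuot
import Fermat.Agent.Good.AuxRetract
import Fermat.Agent.Good.CuspCoverFibre
import Fermat.Agent.Good.CuspLamModel
import Fermat.Agent.Good.CuspChart

/-!
# L-GEN [G-INST-CUSP]: the cusp chart chain, instantiated (AUX model)

`A0 = Kum.LamC ℤ_(ℓ) = ℤ_(ℓ)[w][1/(1 - 1728 w)]` acting on `F = modularFunctionFieldFull N` through
`w ↦ 1/j`; `R = Kum.RCov ℤ_(ℓ) N = ℤ_(ℓ)[y][1/(1 - 1728 y^N)]`, `w = y^N`;
`E = F ⊗[A0] R` (`CuspQuotInst.EAux`), an algebra over `L = FractionRing R` (`Aux.algebraFrac`).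

`CuspQuotInst.isIntegrallyClosed_infC_tensor` : from the two discriminant hypotheses (H1c), (H2c)
on `E`, the special fibre `chartAlgInfC N ℓ ⊗[ℤ_(ℓ)] k` of the cusp chart is integrally closed.
-/

set_option autoImplicit false
set_option linter.unusedSectionVars false
set_option linter.style.haveILetI false
set_option synthInstance.maxHeartbeats 400000

open ModularCurve ModularCurve.IgusaScheme TensorProduct Module
open Fermat.Agent.Good.Kum Fermat.Agent.Good.CuspGlue Fermat.Agent.Good.CuspCover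
open Fermat.Agent.Igusa

noncomputable section

namespace Fermat.Agent.Good.CuspQuotInst

variable (N : ℕ) [NeZero N] (ℓ : ℕ) [Fact ℓ.Prime]

set_option quotPrecheck false in
local notation "ℤℓ" => ↥(GaloisRep.ratLocalizedAt ℓ)

set_option quotPrecheck false in
local notation "F" => ↥(modularFunctionFieldFull N)

attribute [local instance] lamAlgebraFull lamAlgebraInfC

/-- The AUX algebra of the cusp chart, `F ⊗[LamC ℤℓ] RCov ℤℓ N`. -/
abbrev EAux : Type := F ⊗[LamC ℤℓ] RCov ℤℓ N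

/-- `E` as an algebra over the cover ring (through the right factor). Not a global instance. -/
@[instance_reducible]
def algebraRE : Algebra (RCov ℤℓ N) (EAux N ℓ) := Algebra.TensorProduct.rightAlgebra

attribute [local instance] algebraRE

local instance (priority := high) instAlgZE : Algebra ℤℓ (EAux N ℓ) :=
  Algebra.TensorProduct.leftAlgebra

local instance (priority := high) instAlgFE : Algebra F (EAux N ℓ) :=
  Algebra.TensorProduct.leftAlgebra

local instance (priority := high) instAlgLamE : Algebra (LamC ℤℓ) (EAux N ℓ) :=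
  Algebra.TensorProduct.leftAlgebra

local instance (priority := high) instModZE : Module ℤℓ (EAux N ℓ) := Algebra.toModule

local instance (priority := high) instModRE : Module (RCov ℤℓ N) (EAux N ℓ) := Algebra.toModule

/-- The fraction field of the cover ring. -/
abbrev LCov : Type := FractionRing (RCov ℤℓ N)

theorem N_pos : 0 < N := Nat.pos_of_ne_zero (NeZero.ne N)

/-! ### `1/N` in `LamC ℤ_(ℓ)` and the trace relation -/

variable {N ℓ} in
/-- `1/N` in `LamC ℤ_(ℓ)`. -/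
def invNLam (hℓN : ¬ ℓ ∣ N) : LamC ℤℓ := algebraMap ℤℓ (LamC ℤℓ) (CuspChart.invN hℓN)

variable {N ℓ} in
theorem invNLam_mul (hℓN : ¬ ℓ ∣ N) : invNLam hℓN * (N : LamC ℤℓ) = 1 := by
  have h1 : (CuspChart.invN hℓN : ℤℓ) * (N : ℤℓ) = 1 := by
    apply Subtype.ext
    show ((N : ℚ)⁻¹) * (((N : ℤℓ) : ℤℓ) : ℚ) = 1
    have : (((N : ℤℓ) : ℤℓ) : ℚ) = (N : ℚ) := by
      simp
    rw [this, inv_mul_cancel₀ (Nat.cast_ne_zero.mpr (NeZero.ne N))]
  rw [invNLam, ← map_natCast (algebraMap ℤℓ (LamC ℤℓ)) N, ← map_mul, h1, map_one]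

variable {N ℓ} in
theorem invNLam_mul_trace (hℓN : ¬ ℓ ∣ N) (r : RCov ℤℓ N) :
    invNLam hℓN * Algebra.trace (LamC ℤℓ) (RCov ℤℓ N) r = covProj ℤℓ (N_pos N) r := by
  rw [trace_eq_smul_covProj ℤℓ (N_pos N), ← mul_assoc, invNLam_mul, one_mul]

/-! ### The chart algebra is the integral closure of `LamC ℤ_(ℓ)` in `F` -/

theorem isIntegralClosure_infC :
    IsIntegralClosure ↥(chartAlgInfC N ℓ) (LamC ℤℓ) F where
  algebraMap_injective := Subtype.val_injective
  isIntegral_iff {x} := by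
    constructor
    · intro h
      exact ⟨⟨x, (mem_chartAlgInfC_iff_isIntegral_lam N ℓ x).mpr h⟩, rfl⟩
    · rintro ⟨y, rfl⟩
      exact (mem_chartAlgInfC_iff_isIntegral_lam N ℓ _).mp y.2

/-! ### Towers over `ℤ_(ℓ)` -/

theorem isScalarTower_zl_lam_rCov : IsScalarTower ℤℓ (LamC ℤℓ) (RCov ℤℓ N) :=
  IsScalarTower.of_algebraMap_eq fun a => by
    rw [algebraMap_zl_rCov, algebraMap_zl_lamC, algebraMap_lamConst]

theorem algebraMap_zl_EAux (a : ℤℓ) :
    algebraMap ℤℓ (EAux N ℓ) a = (algebraMap ℤℓ F a) ⊗ₜ[LamC ℤℓ] (1 : RCov ℤℓ N) :=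
  Algebra.TensorProduct.algebraMap_apply a

theorem isScalarTower_zl_rCov_EAux : IsScalarTower ℤℓ (RCov ℤℓ N) (EAux N ℓ) := by
  haveI := isScalarTower_zl_lam_full N ℓ
  haveI := isScalarTower_zl_lam_rCov N ℓ
  refine IsScalarTower.of_algebraMap_eq fun a => ?_
  rw [algebraMap_zl_EAux, Aux.algebraMap_right_apply,
    IsScalarTower.algebraMap_apply ℤℓ (LamC ℤℓ) F, Aux.algebraMap_tmul_one,
    ← IsScalarTower.algebraMap_apply ℤℓ (LamC ℤℓ) (RCov ℤℓ N)]

/-! ### The `L`-algebra structure of `E` -/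

/-- `E = F ⊗[LamC ℤℓ] RCov ℤℓ N` as an algebra over `L = FractionRing (RCov ℤℓ N)`
(`= Aux.algebraFrac`).  Not a global instance: activate it with
`attribute [local instance] Fermat.Agent.Good.CuspQuotInst.algebraLE`. -/
@[instance_reducible]
def algebraLE : Algebra (LCov N ℓ) (EAux N ℓ) :=
  haveI := isDomain_rCov_zl N ℓ
  haveI := faithfulSMul_lam_full N ℓ
  Aux.algebraFrac (LamC ℤℓ) (RCov ℤℓ N) F (LCov N ℓ)

attribute [local instance] algebraLE

theorem isScalarTower_rCov_LE : IsScalarTower (RCov ℤℓ N) (LCov N ℓ) (EAux N ℓ) :=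
  haveI := isDomain_rCov_zl N ℓ
  haveI := faithfulSMul_lam_full N ℓ
  Aux.isScalarTower_frac (LamC ℤℓ) (RCov ℤℓ N) F (LCov N ℓ)

/-! ### The integral closure of the cover ring in `E` as an algebra over the chart algebra -/

attribute [local instance] isScalarTower_lam_infC_full isIntegralClosure_infC
  isScalarTower_zl_rCov_EAux

local instance (priority := high) instAlgZB :
    Algebra ℤℓ (integralClosure (RCov ℤℓ N) (EAux N ℓ)) := inferInstance

local instance (priority := high) instModZB :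
    Module ℤℓ (integralClosure (RCov ℤℓ N) (EAux N ℓ)) := Algebra.toModule

local instance (priority := high) instTowerZRB :
    IsScalarTower ℤℓ (RCov ℤℓ N) (integralClosure (RCov ℤℓ N) (EAux N ℓ)) := inferInstance

/-- The integral closure of the cover ring in `E`, as an algebra over the chart algebra
(`a ↦ a ⊗ 1`).  Not a global instance. -/
@[instance_reducible]
def algebraInfCClosure :
    Algebra ↥(chartAlgInfC N ℓ) (integralClosure (RCov ℤℓ N) (EAux N ℓ)) :=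
  AuxRet.inclAlgebra (LamC ℤℓ) (RCov ℤℓ N) F ↥(chartAlgInfC N ℓ)

attribute [local instance] algebraInfCClosure

theorem isScalarTower_zl_infC_closure :
    IsScalarTower ℤℓ ↥(chartAlgInfC N ℓ) (integralClosure (RCov ℤℓ N) (EAux N ℓ)) := by
  refine IsScalarTower.of_algebraMap_eq fun a => Subtype.ext ?_
  have h1 : ((algebraMap ℤℓ (integralClosure (RCov ℤℓ N) (EAux N ℓ)) a :
      integralClosure (RCov ℤℓ N) (EAux N ℓ)) : EAux N ℓ) = algebraMap ℤℓ (EAux N ℓ) a := rfl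
  rw [h1, algebraMap_zl_EAux]
  have h2 : algebraMap ↥(chartAlgInfC N ℓ) (integralClosure (RCov ℤℓ N) (EAux N ℓ))
      (algebraMap ℤℓ ↥(chartAlgInfC N ℓ) a) =
      AuxRet.inclHom (LamC ℤℓ) (RCov ℤℓ N) F ↥(chartAlgInfC N ℓ)
        (algebraMap ℤℓ ↥(chartAlgInfC N ℓ) a) := rfl
  rw [h2, AuxRet.coe_inclHom]
  rfl

/-- The retraction of the cusp chart, `z ↦ (id ⊗ covProj) z = (1/N) Tr z`. -/
def rhoInfC (hℓN : ¬ ℓ ∣ N) :
    integralClosure (RCov ℤℓ N) (EAux N ℓ) →ₗ[↥(chartAlgInfC N ℓ)] ↥(chartAlgInfC N ℓ) :=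
  AuxRet.rho ↥(chartAlgInfC N ℓ) (covProj ℤℓ (N_pos N)) (invNLam hℓN) (invNLam_mul_trace hℓN)

theorem rhoInfC_algebraMap (hℓN : ¬ ℓ ∣ N) (a : ↥(chartAlgInfC N ℓ)) :
    rhoInfC N ℓ hℓN (algebraMap ↥(chartAlgInfC N ℓ)
      (integralClosure (RCov ℤℓ N) (EAux N ℓ)) a) = a :=
  AuxRet.rho_algebraMap ↥(chartAlgInfC N ℓ) (covProj ℤℓ (N_pos N))
    (covProj_algebraMap ℤℓ (N_pos N)) (invNLam hℓN) (invNLam_mul_trace hℓN) a

theorem algebraMap_infC_closure_lam (x : LamC ℤℓ) :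
    algebraMap ↥(chartAlgInfC N ℓ) (integralClosure (RCov ℤℓ N) (EAux N ℓ))
      (algebraMap (LamC ℤℓ) ↥(chartAlgInfC N ℓ) x) =
    algebraMap (RCov ℤℓ N) (integralClosure (RCov ℤℓ N) (EAux N ℓ))
      (algebraMap (LamC ℤℓ) (RCov ℤℓ N) x) :=
  AuxRet.inclHom_algebraMap (LamC ℤℓ) (RCov ℤℓ N) F ↥(chartAlgInfC N ℓ) x

/-! ### The main theorem -/

attribute [local instance] isDomain_rCov_zl isIntegrallyClosed_rCov_zl isScalarTower_rCov_LE
  isScalarTower_zl_infC_closure isScalarTower_zl_lam_infC isScalarTower_zl_lam_rCov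
  isIntegral_lam_infC

set_option maxHeartbeats 2000000 in
variable {N ℓ} in
/-- **The cusp chart.** From (H1c) and (H2c) on the AUX algebra `E = F ⊗[LamC ℤℓ] RCov ℤℓ N`
(an algebra over `L = FractionRing (RCov ℤℓ N)` through `algebraLE`), the special fibre of the
cusp chart `chartAlgInfC N ℓ = chartAlg N ℓ {1/j, 1/(1 - 1728/j)}` is integrally closed. -/
theorem isIntegrallyClosed_infC_tensor (hℓN : ¬ ℓ ∣ N) (k : Type*) [Field k]
    [Algebra (GaloisRep.ratLocalizedAt ℓ) k] [CharP k ℓ]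
    {ι : Type*} [Fintype ι] [DecidableEq ι]
    (c : Basis ι (LCov N ℓ) (EAux N ℓ))
    (hc : ∀ i, IsIntegral (RCov ℤℓ N) (c i)) (dc : RCov ℤℓ N)
    (hdc : algebraMap (RCov ℤℓ N) (LCov N ℓ) dc = Algebra.discr (LCov N ℓ) c)
    (hπdc : ¬ covPi N ℓ ∣ dc)
    (c' : Basis ι (LCov N ℓ) (EAux N ℓ))
    (hc' : ∀ i, IsIntegral (RCov ℤℓ N) (c' i)) (dc' : RCov ℤℓ N)
    (hdc' : algebraMap (RCov ℤℓ N) (LCov N ℓ) dc' = Algebra.discr (LCov N ℓ) c')
    (m : ℕ) (hm : dc' ∣ covPi N ℓ ^ m) :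
    IsIntegrallyClosed (↥(chartAlgInfC N ℓ) ⊗[ℤℓ] k) := by
  haveI : IsDomain (RCov ℤℓ N ⧸ Ideal.span {algebraMap ℤℓ (RCov ℤℓ N) (zlPrime ℓ)}) :=
    isDomain_rCov_quotient N ℓ
  haveI : IsPrincipalIdealRing
      (RCov ℤℓ N ⧸ Ideal.span {algebraMap ℤℓ (RCov ℤℓ N) (zlPrime ℓ)}) :=
    isPrincipalIdealRing_rCov_quotient_zl N ℓ
  haveI := isDomain_rCov_tensor N ℓ k
  haveI := isPrincipalIdealRing_rCov_tensor N ℓ k
  haveI := isDomain_tensor_infC N ℓ hℓN k
  have hpk : algebraMap ℤℓ k (zlPrime ℓ) = 0 := by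
    rw [zlPrime_eq_natCast, map_natCast, CharP.cast_eq_zero]
  exact CuspQuot.isIntegrallyClosed_tensor_of_cover (O := ℤℓ) (zlPrime ℓ) (k := k)
    (R := RCov ℤℓ N) (L := LCov N ℓ) (E := EAux N ℓ) (A := ↥(chartAlgInfC N ℓ))
    (Λ₀ := LamC ℤℓ) hpk (prime_covPi N ℓ) (not_isField_rCov_tensor N ℓ k)
    c hc dc hdc hπdc c' hc' dc' hdc' m hm (rhoInfC N ℓ hℓN) (rhoInfC_algebraMap N ℓ hℓN)
    (algebraMap_infC_closure_lam N ℓ)

end Fermat.Agent.Good.CuspQuotInst
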