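import Mathlib

/-!
# L-GEN [G-KUM] (ii): Lemma (DS), descent of integral closedness along a direct summand

`A → B` commutative rings, `A` a domain, `ρ : B →ₗ[A] A` an `A`-linear retraction of the structure
map, the nonzero elements of `A` are non-zero-divisors of `B`.  If `B` is integrally closed (in its
total ring of fractions; `B` need not be a domain) then `A` is integrally closed.

* `isIntegrallyClosed_of_retraction` : the statement with Mathlib's `IsIntegrallyClosed`;
* `IsDivClosed B` : the elementary form of "integrally closed in the total ring of fractions":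
  if `b / s` (`s` a non-zero-divisor) satisfies a monic equation over `B`, written homogeneously,
  then `s ∣ b`;
* `isDivClosed_of_isIntegrallyClosed`, `isIntegrallyClosed_of_isDivClosed` (for a domain),
  `isDivClosed_of_retraction` : (DS) in the elementary form.
-/

set_option autoImplicit false

open Polynomial
open scoped nonZeroDivisors

namespace Fermat.Agent.Good.DS

section Main

variable {A B : Type*} [CommRing A] [IsDomain A] [CommRing B] [Algebra A B]

/-- The map `Frac A → Q(B)` induced by the structure map. -/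
noncomputable def fracMap (hnzd : ∀ a : A, a ≠ 0 → algebraMap A B a ∈ B⁰) :
    FractionRing A →+* FractionRing B :=
  IsLocalization.map (FractionRing B) (algebraMap A B)
    (show A⁰ ≤ Submonoid.comap (algebraMap A B) B⁰ from fun a ha =>
      hnzd a (nonZeroDivisors.ne_zero ha))

theorem fracMap_algebraMap (hnzd : ∀ a : A, a ≠ 0 → algebraMap A B a ∈ B⁰) (a : A) :
    fracMap hnzd (algebraMap A (FractionRing A) a) =
      algebraMap B (FractionRing B) (algebraMap A B a) :=
  IsLocalization.map_eq _ a

/-- **Lemma (DS).** A direct summand (as a module over itself) of an integrally closed ring, all of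
whose nonzero elements are non-zero-divisors in the big ring, is integrally closed. -/
theorem isIntegrallyClosed_of_retraction (ρ : B →ₗ[A] A)
    (hρ : ∀ a : A, ρ (algebraMap A B a) = a)
    (hnzd : ∀ a : A, a ≠ 0 → algebraMap A B a ∈ B⁰) [IsIntegrallyClosed B] :
    IsIntegrallyClosed A := by
  rw [isIntegrallyClosed_iff (FractionRing A)]
  intro x hx
  obtain ⟨a, s, rfl⟩ := IsLocalization.exists_mk'_eq A⁰ x
  -- the image in `Q(B)` is integral over `B`
  have hint : IsIntegral B (fracMap hnzd (IsLocalization.mk' (FractionRing A) a s)) := by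
    refine IsIntegral.map_of_comp_eq (algebraMap A B) (fracMap hnzd) ?_ hx
    ext a
    simp only [RingHom.comp_apply]
    exact (fracMap_algebraMap hnzd a).symm
  obtain ⟨b, hb⟩ := (isIntegrallyClosed_iff (FractionRing B)).mp ‹_› hint
  -- `ι s * b = ι a` in `B`
  have hsb : algebraMap A B s * b = algebraMap A B a := by
    apply IsFractionRing.injective B (FractionRing B)
    rw [map_mul, hb, ← fracMap_algebraMap hnzd, ← fracMap_algebraMap hnzd, ← map_mul,
      IsLocalization.mk'_spec']
  -- apply the retraction
  have has : a = s * ρ b := by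
    have h := congrArg ρ hsb
    rw [hρ, ← Algebra.smul_def, map_smul, smul_eq_mul] at h
    exact h.symm
  refine ⟨ρ b, ?_⟩
  rw [IsLocalization.eq_mk'_iff_mul_eq, ← map_mul, has, mul_comm]

end Main

section Elementary

variable (B : Type*) [CommRing B]

/-- Elementary form of "integrally closed in the total ring of fractions": if `b / s` satisfies a
monic equation of degree `n` with coefficients `c i` in `B`, i.e.
`b ^ n + ∑_{i < n} c i * b ^ i * s ^ (n - i) = 0`, then `s ∣ b`. -/
def IsDivClosed : Prop :=
  ∀ (b s : B), s ∈ B⁰ → ∀ (n : ℕ) (c : ℕ → B),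
    b ^ n + ∑ i ∈ Finset.range n, c i * b ^ i * s ^ (n - i) = 0 → s ∣ b

variable {B}

/-- The homogeneous equation for `b, s` is the monic equation for `b / s`. -/
theorem isIntegral_mk'_of_eq {b s : B} (hs : s ∈ B⁰) {n : ℕ} {c : ℕ → B}
    (h : b ^ n + ∑ i ∈ Finset.range n, c i * b ^ i * s ^ (n - i) = 0) :
    IsIntegral B (IsLocalization.mk' (FractionRing B) b ⟨s, hs⟩) := by
  set x := IsLocalization.mk' (FractionRing B) b ⟨s, hs⟩ with hx
  have hxs : x * algebraMap B (FractionRing B) s = algebraMap B (FractionRing B) b :=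
    IsLocalization.mk'_spec (FractionRing B) b ⟨s, hs⟩
  have hsu : IsUnit (algebraMap B (FractionRing B) s) :=
    IsLocalization.map_units (FractionRing B) (⟨s, hs⟩ : B⁰)
  refine ⟨X ^ n + ∑ i ∈ Finset.range n, C (c i) * X ^ i, ?_, ?_⟩
  · refine Polynomial.monic_X_pow_add ?_
    refine (Polynomial.degree_sum_le _ _).trans_lt ?_
    refine (Finset.sup_lt_iff (WithBot.bot_lt_coe n)).mpr ?_
    intro i hi
    refine (Polynomial.degree_C_mul_X_pow_le i (c i)).trans_lt ?_
    exact WithBot.coe_lt_coe.mpr (Finset.mem_range.mp hi)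
  · -- multiply by the unit `s ^ n`
    have hmul : (eval₂ (algebraMap B (FractionRing B)) x
        (X ^ n + ∑ i ∈ Finset.range n, C (c i) * X ^ i)) *
        algebraMap B (FractionRing B) s ^ n = 0 := by
      rw [eval₂_add, eval₂_pow, eval₂_X, eval₂_finsetSum, add_mul, ← mul_pow, hxs,
        Finset.sum_mul]
      have h2 := congrArg (algebraMap B (FractionRing B)) h
      rw [map_add, map_pow, map_sum, map_zero] at h2
      rw [← h2]
      congr 1
      refine Finset.sum_congr rfl fun i hi => ?_
      have hin : i ≤ n := (Finset.mem_range.mp hi).le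
      rw [eval₂_mul, eval₂_C, eval₂_pow, eval₂_X, map_mul, map_mul, map_pow, map_pow, ← hxs,
        mul_pow]
      have : algebraMap B (FractionRing B) s ^ n =
          algebraMap B (FractionRing B) s ^ i * algebraMap B (FractionRing B) s ^ (n - i) := by
        rw [← pow_add, Nat.add_sub_cancel' hin]
      rw [this]
      ring
    exact (hsu.pow n).mul_left_eq_zero.mp hmul

/-- Mathlib's `IsIntegrallyClosed` implies the elementary form. -/
theorem isDivClosed_of_isIntegrallyClosed [IsIntegrallyClosed B] : IsDivClosed B := by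
  intro b s hs n c h
  obtain ⟨y, hy⟩ := (isIntegrallyClosed_iff (FractionRing B)).mp ‹_› (isIntegral_mk'_of_eq hs h)
  refine ⟨y, ?_⟩
  apply IsFractionRing.injective B (FractionRing B)
  rw [map_mul, hy, mul_comm]
  exact (IsLocalization.mk'_spec (FractionRing B) b ⟨s, hs⟩).symm

/-- A monic equation for `b / s` gives the homogeneous equation for `b, s`. -/
theorem exists_eq_of_isIntegral_mk' {b s : B} (hs : s ∈ B⁰)
    (h : IsIntegral B (IsLocalization.mk' (FractionRing B) b ⟨s, hs⟩)) :
    ∃ (n : ℕ) (c : ℕ → B), b ^ n + ∑ i ∈ Finset.range n, c i * b ^ i * s ^ (n - i) = 0 := by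
  obtain ⟨p, hp, hpx⟩ := h
  set x := IsLocalization.mk' (FractionRing B) b ⟨s, hs⟩ with hx
  have hxs : x * algebraMap B (FractionRing B) s = algebraMap B (FractionRing B) b :=
    IsLocalization.mk'_spec (FractionRing B) b ⟨s, hs⟩
  refine ⟨p.natDegree, p.coeff, ?_⟩
  apply IsFractionRing.injective B (FractionRing B)
  rw [map_zero, map_add, map_pow, map_sum]
  have h1 : eval₂ (algebraMap B (FractionRing B)) x p *
      algebraMap B (FractionRing B) s ^ p.natDegree = 0 := by rw [hpx, zero_mul]
  rw [eval₂_eq_sum_range, Finset.sum_range_succ, hp.coeff_natDegree, map_one, one_mul, add_mul,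
    ← mul_pow, hxs, add_comm, Finset.sum_mul] at h1
  rw [← h1]
  congr 1
  refine Finset.sum_congr rfl fun i hi => ?_
  have hin : i ≤ p.natDegree := (Finset.mem_range.mp hi).le
  rw [map_mul, map_mul, map_pow, map_pow, ← hxs, mul_pow]
  have : algebraMap B (FractionRing B) s ^ p.natDegree =
      algebraMap B (FractionRing B) s ^ i * algebraMap B (FractionRing B) s ^ (p.natDegree - i) := by
    rw [← pow_add, Nat.add_sub_cancel' hin]
  rw [this]
  ring

/-- The elementary form implies Mathlib's `IsIntegrallyClosed`. -/
theorem isIntegrallyClosed_of_isDivClosed (h : IsDivClosed B) : IsIntegrallyClosed B := by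
  rw [isIntegrallyClosed_iff (FractionRing B)]
  intro x hx
  obtain ⟨b, s, rfl⟩ := IsLocalization.exists_mk'_eq B⁰ x
  obtain ⟨n, c, hnc⟩ := exists_eq_of_isIntegral_mk' s.2 hx
  obtain ⟨y, hy⟩ := h b s s.2 n c hnc
  refine ⟨y, ?_⟩
  rw [IsLocalization.eq_mk'_iff_mul_eq, ← map_mul, hy, mul_comm]

theorem isDivClosed_iff : IsDivClosed B ↔ IsIntegrallyClosed B :=
  ⟨isIntegrallyClosed_of_isDivClosed, fun _ => isDivClosed_of_isIntegrallyClosed⟩

/-- **Lemma (DS)**, elementary form. -/
theorem isDivClosed_of_retraction {A : Type*} [CommRing A] [IsDomain A] [Algebra A B]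
    (ρ : B →ₗ[A] A) (hρ : ∀ a : A, ρ (algebraMap A B a) = a)
    (hnzd : ∀ a : A, a ≠ 0 → algebraMap A B a ∈ B⁰) (hB : IsDivClosed B) : IsDivClosed A := by
  have := isIntegrallyClosed_of_isDivClosed hB
  have := isIntegrallyClosed_of_retraction ρ hρ hnzd
  exact isDivClosed_of_isIntegrallyClosed

end Elementary

end Fermat.Agent.Good.DS
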