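import Fermat.Agent.Good.IntCoeffs

/-!
# L-GEN, node [G-DISC]: discriminant reduction (Lemma A)

`R` a noetherian integrally closed domain, `π : R` a prime element with `κ = R/π` a PID,
`L = Frac R`, `E` a finite commutative `L`-algebra (NOT assumed to be a field),
`B = integralClosure R E`, `Λ = B/πB` (given abstractly by `DiscRedData`).

Main result `DiscRedData.exists_basis_isUnit_discr`: if `E` has a basis of integral elements whose
discriminant is prime to `π` (generic etaleness of the special fibre) and a basis of integral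
elements whose discriminant divides a power of `π` (the generic fibre is unramified), then `Λ` is
free over `κ` with a basis of UNIT discriminant; the basis lifts to an `L`-basis `b` of `E` inside
`B` with `f B ⊆ ∑ R b i` for some `f ≡ 1 mod π`.

Ingredients: finiteness of `B` (dual basis bound), saturation (`Λ` is torsion-free), freeness over
the PID, Nakayama twice (spanning and independence of the lifts), compatibility of traces with
reduction, and the arithmetic of the discriminant relations `f^(2n) d_c = q^2 d`.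
-/

set_option autoImplicit false

open Polynomial

namespace Fermat.Agent.Good

section Finite

variable {R L E : Type*} [CommRing R] [IsIntegrallyClosed R] [IsNoetherianRing R]
  [Field L] [Algebra R L] [IsFractionRing R L]
  [CommRing E] [Algebra L E] [Algebra R E] [IsScalarTower R L E]
  {ι : Type*} [Fintype ι] [DecidableEq ι]

/-- the integral closure of a noetherian integrally closed domain in a finite algebra having a
basis of integral elements with nonzero discriminant is a finite module. -/
theorem finite_integralClosure_of_basis (c : Module.Basis ι L E) (hc : ∀ i, IsIntegral R (c i))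
    (d : R) (hd : algebraMap R L d = Algebra.discr L c) (hd0 : d ≠ 0) :
    Module.Finite R (integralClosure R E) := by
  classical
  set N : Submodule R E := Submodule.span R (Set.range c) with hN
  have hNfin : Module.Finite R N := Module.Finite.span_of_finite R (Set.finite_range c)
  let φ : (integralClosure R E) →ₗ[R] N :=
    { toFun := fun x => ⟨d • (x : E), discr_smul_mem_span c hc d hd x.2⟩
      map_add' := fun x y => by
        apply Subtype.ext
        show d • ((x + y : integralClosure R E) : E) = d • (x : E) + d • (y : E)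
        rw [Subalgebra.coe_add, smul_add]
      map_smul' := fun r x => by
        apply Subtype.ext
        show d • ((r • x : integralClosure R E) : E) = r • (d • (x : E))
        rw [Subalgebra.coe_smul, smul_comm] }
  have hφ : Function.Injective φ := by
    intro x y hxy
    have h1 : d • (x : E) = d • (y : E) := congrArg Subtype.val hxy
    have hdL : algebraMap R L d ≠ 0 := fun h => hd0 (IsFractionRing.injective R L (by rw [h, map_zero]))
    rw [← algebraMap_smul L d (x : E), ← algebraMap_smul L d (y : E)] at h1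
    exact Subtype.ext (smul_right_injective E hdL h1)
  exact Module.Finite.of_injective φ hφ

end Finite

theorem unit_mod_of_relations {R : Type*} [CommRing R] [IsDomain R]
    {π f d dc dc' q q' : R} {N m : ℕ} (hπ : Prime π) (hf : π ∣ f - 1)
    (h1 : f ^ N * dc = q ^ 2 * d) (hdc : ¬ π ∣ dc)
    (h2 : f ^ N * dc' = q' ^ 2 * d) (hdc' : dc' ∣ π ^ m) :
    ¬ π ∣ d ∧ ∃ e, π ∣ d * e - 1 := by
  have hfπ : ¬ π ∣ f := by
    intro h
    have : π ∣ 1 := by
      have h3 := dvd_sub h hf
      rwa [sub_sub_cancel] at h3
    exact hπ.not_isUnit (isUnit_of_dvd_one this)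
  have hd : ¬ π ∣ d := by
    intro h
    have h3 : π ∣ f ^ N * dc := by rw [h1]; exact Dvd.dvd.mul_left h _
    rcases hπ.dvd_or_dvd h3 with h4 | h4
    · exact hfπ (hπ.dvd_of_dvd_pow h4)
    · exact hdc h4
  refine ⟨hd, ?_⟩
  obtain ⟨e0, he0⟩ := hdc'
  have h3 : d * (q' ^ 2 * e0) = f ^ N * π ^ m := by
    rw [he0]
    calc d * (q' ^ 2 * e0) = (q' ^ 2 * d) * e0 := by ring
      _ = (f ^ N * dc') * e0 := by rw [h2]
      _ = f ^ N * (dc' * e0) := by ring
  have h4 : π ^ m ∣ q' ^ 2 * e0 := by
    refine hπ.pow_dvd_of_dvd_mul_left (a := d) m hd ?_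
    rw [h3]; exact dvd_mul_left _ _
  obtain ⟨e, he⟩ := h4
  refine ⟨e, ?_⟩
  have h5 : d * e = f ^ N := by
    have : (d * e) * π ^ m = f ^ N * π ^ m := by
      rw [← h3, he]; ring
    exact mul_right_cancel₀ (pow_ne_zero _ hπ.ne_zero) this
  rw [h5]
  have h6 : f - 1 ∣ f ^ N - 1 := by
    simpa using sub_dvd_pow_sub_pow f 1 N
  exact hf.trans h6

section DiscrLemmas

variable {L E : Type*} [Field L] [CommRing E] [Algebra L E]
  {ι : Type*} [Fintype ι] [DecidableEq ι]

theorem discr_smul_family (v : ι → E) (a : L) :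
    Algebra.discr L (fun i => a • v i) = a ^ (2 * Fintype.card ι) * Algebra.discr L v := by
  have h : Algebra.traceMatrix L (fun i => a • v i) = (a ^ 2) • Algebra.traceMatrix L v := by
    ext i j
    rw [Algebra.traceMatrix_apply, Algebra.traceForm_apply, Matrix.smul_apply,
      Algebra.traceMatrix_apply, Algebra.traceForm_apply, smul_mul_smul_comm, map_smul, pow_two]
  rw [Algebra.discr_def, h, Matrix.det_smul, ← pow_mul, Algebra.discr_def]

variable {R : Type*} [CommRing R] [Algebra R L] [Algebra R E] [IsScalarTower R L E]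

/-- if `f • v i = ∑ j, Q i j • b j` then `f ^ (2n) disc(v) = det(Q)^2 disc(b)`. -/
theorem discr_relation (b v : ι → E) (Q : Matrix ι ι R) (f : R)
    (hv : ∀ i, f • v i = ∑ j, Q i j • b j) :
    algebraMap R L f ^ (2 * Fintype.card ι) * Algebra.discr L v =
      algebraMap R L Q.det ^ 2 * Algebra.discr L b := by
  have h1 : (fun i => (algebraMap R L f) • v i) =
      Matrix.mulVec ((Q.map (algebraMap R L)).map (algebraMap L E)) b := by
    ext i
    rw [algebraMap_smul, hv i, Matrix.mulVec, dotProduct]
    refine Finset.sum_congr rfl fun j _ => ?_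
    rw [Matrix.map_apply, Matrix.map_apply, ← IsScalarTower.algebraMap_apply, Algebra.smul_def]
  rw [← discr_smul_family, h1, Algebra.discr_of_matrix_mulVec, ← RingHom.mapMatrix_apply,
    ← RingHom.map_det]

end DiscrLemmas

/-- Reduction data for the integral closure `B` of `R` in `E` modulo a prime element `π`:
`φ : R → κ` is onto with kernel `(π)`, `ρ : B → Λ` is onto with kernel `π B`. -/
structure DiscRedData (R E κ Λ : Type*) [CommRing R] [CommRing E] [Algebra R E]
    [CommRing κ] [CommRing Λ] [Algebra κ Λ] (π : R) where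
  φ : R →+* κ
  ρ : integralClosure R E →+* Λ
  φ_surj : Function.Surjective φ
  φ_ker : ∀ r, φ r = 0 ↔ π ∣ r
  ρ_surj : Function.Surjective ρ
  ρ_ker : ∀ x, ρ x = 0 ↔ ∃ y, x = π • y
  compat : ∀ r, ρ (algebraMap R (integralClosure R E) r) = algebraMap κ Λ (φ r)

namespace DiscRedData

variable {R E κ Λ : Type*} [CommRing R]
  [CommRing E] [Algebra R E]
  [CommRing κ] [CommRing Λ] [Algebra κ Λ] {π : R} (D : DiscRedData R E κ Λ π)

include D

theorem ρ_smul (r : R) (x : integralClosure R E) : D.ρ (r • x) = D.φ r • D.ρ x := by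
  rw [Algebra.smul_def, map_mul, D.compat, Algebra.smul_def]

theorem finite [Module.Finite R (integralClosure R E)] : Module.Finite κ Λ := by
  classical
  obtain ⟨s, hs⟩ := (Module.finite_def (R := R) (M := integralClosure R E)).mp inferInstance
  refine ⟨⟨s.image D.ρ, ?_⟩⟩
  rw [eq_top_iff]
  rintro y -
  obtain ⟨x, rfl⟩ := D.ρ_surj y
  have hx : x ∈ Submodule.span R (s : Set (integralClosure R E)) := by rw [hs]; trivial
  refine Submodule.span_induction (p := fun x _ => D.ρ x ∈ Submodule.span κ
    ((s.image D.ρ : Finset Λ) : Set Λ)) ?_ ?_ ?_ ?_ hx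
  · intro z hz
    exact Submodule.subset_span (Finset.mem_coe.mpr (Finset.mem_image.mpr ⟨z, hz, rfl⟩))
  · simp
  · intro a b _ _ ha hb
    rw [map_add]; exact Submodule.add_mem _ ha hb
  · intro r a _ ha
    rw [D.ρ_smul]; exact Submodule.smul_mem _ _ ha

/-- `Λ = B/πB` is torsion-free over `κ = R/π` (saturation). -/
theorem smul_eq_zero_imp (L : Type*) [IsDomain R] [IsIntegrallyClosed R]
    [Field L] [Algebra R L] [IsFractionRing R L] [Algebra L E] [IsScalarTower R L E]
    [Module.Finite L E] (hπ : Prime π) (a : κ) (m : Λ) (h : a • m = 0) : a = 0 ∨ m = 0 := by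
  obtain ⟨r, rfl⟩ := D.φ_surj a
  obtain ⟨x, rfl⟩ := D.ρ_surj m
  by_cases hr : π ∣ r
  · left; exact (D.φ_ker r).mpr hr
  right
  rw [← D.ρ_smul, D.ρ_ker] at h
  obtain ⟨y, hy⟩ := h
  rw [D.ρ_ker]
  have hinj := IsFractionRing.injective R L
  have hπ0 : algebraMap R L π ≠ 0 := fun h => hπ.ne_zero (hinj (by rw [h, map_zero]))
  -- `w = x / π`
  set w : E := (algebraMap R L π)⁻¹ • (x : E) with hw
  have h1 : algebraMap R E π * w = (x : E) := by
    rw [hw, IsScalarTower.algebraMap_apply R L E, ← Algebra.smul_def, smul_smul,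
      mul_inv_cancel₀ hπ0, one_smul]
  have h2 : algebraMap R E r * w = (y : E) := by
    have hy' : r • (x : E) = π • (y : E) := by
      have := congrArg (Subtype.val) hy
      simpa using this
    have : algebraMap R E π * (algebraMap R E r * w) = algebraMap R E π * (y : E) := by
      rw [mul_left_comm, h1, ← Algebra.smul_def, hy', Algebra.smul_def]
    have h5 : (algebraMap R L π) • (algebraMap R E r * w) = (algebraMap R L π) • (y : E) := by
      rw [Algebra.smul_def, Algebra.smul_def, ← IsScalarTower.algebraMap_apply R L E π]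
      exact this
    exact smul_right_injective E hπ0 h5
  have hwint : IsIntegral R w := by
    refine isIntegral_of_mul_of_mul (L := L) hπ hr ?_ ?_
    · rw [h1]; exact x.2
    · rw [h2]; exact y.2
  refine ⟨⟨w, hwint⟩, ?_⟩
  apply Subtype.ext
  show (x : E) = π • w
  rw [Algebra.smul_def, h1]

end DiscRedData

namespace DiscRedData

variable {R E κ Λ : Type*} [CommRing R]
  [CommRing E] [Algebra R E]
  [CommRing κ] [CommRing Λ] [Algebra κ Λ] {π : R} (D : DiscRedData R E κ Λ π)

include D

/-- lifting a `κ`-combination -/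
theorem exists_lift_sum {n : ℕ} (b : Fin n → integralClosure R E) (a : Fin n → κ) :
    ∃ r : Fin n → R, (∀ i, D.φ (r i) = a i) ∧ D.ρ (∑ i, r i • b i) = ∑ i, a i • D.ρ (b i) := by
  choose r hr using fun i => D.φ_surj (a i)
  refine ⟨r, hr, ?_⟩
  rw [map_sum]
  refine Finset.sum_congr rfl fun i _ => ?_
  rw [D.ρ_smul, hr]

/-- **Nakayama**: if the images of `b` span `Λ` then `f • B ⊆ span_R b` for some `f ≡ 1 mod π`. -/
theorem exists_smul_mem_span [Module.Finite R (integralClosure R E)] {n : ℕ}
    (b : Fin n → integralClosure R E)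
    (hb : Submodule.span κ (Set.range fun i => D.ρ (b i)) = ⊤) :
    ∃ f : R, π ∣ f - 1 ∧ ∀ x : integralClosure R E, f • x ∈ Submodule.span R (Set.range b) := by
  classical
  set N0 : Submodule R (integralClosure R E) := Submodule.span R (Set.range b) with hN0
  have hfg : (⊤ : Submodule R ((integralClosure R E) ⧸ N0)).FG :=
    (Module.finite_def.mp inferInstance)
  have hle : (⊤ : Submodule R ((integralClosure R E) ⧸ N0)) ≤
      (Ideal.span {π}) • (⊤ : Submodule R ((integralClosure R E) ⧸ N0)) := by
    rintro z -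
    obtain ⟨x, rfl⟩ := Submodule.Quotient.mk_surjective N0 z
    have hx : D.ρ x ∈ Submodule.span κ (Set.range fun i => D.ρ (b i)) := by rw [hb]; trivial
    obtain ⟨a, ha⟩ := (Submodule.mem_span_range_iff_exists_fun κ).mp hx
    obtain ⟨r, -, hr⟩ := D.exists_lift_sum b a
    have h0 : D.ρ (x - ∑ i, r i • b i) = 0 := by rw [map_sub, hr, ha, sub_self]
    obtain ⟨y, hy⟩ := (D.ρ_ker _).mp h0
    have hmk : Submodule.Quotient.mk (p := N0) x = π • Submodule.Quotient.mk (p := N0) y := by
      rw [← Submodule.Quotient.mk_smul, ← hy, Submodule.Quotient.mk_sub, eq_comm, sub_eq_self,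
        Submodule.Quotient.mk_eq_zero]
      exact Submodule.sum_mem _ fun i _ =>
        Submodule.smul_mem _ _ (Submodule.subset_span (Set.mem_range_self i))
    rw [hmk]
    exact Submodule.smul_mem_smul (Ideal.subset_span rfl) trivial
  obtain ⟨f, hf1, hf2⟩ := Submodule.exists_sub_one_mem_and_smul_eq_zero_of_fg_of_le_smul
    (Ideal.span {π}) ⊤ hfg hle
  refine ⟨f, Ideal.mem_span_singleton.mp hf1, fun x => ?_⟩
  have := hf2 (Submodule.Quotient.mk x) trivial
  rwa [← Submodule.Quotient.mk_smul, Submodule.Quotient.mk_eq_zero] at this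

end DiscRedData

namespace DiscRedData

variable {R E κ Λ : Type*} [CommRing R]
  [CommRing E] [Algebra R E]
  [CommRing κ] [CommRing Λ] [Algebra κ Λ] {π : R} (D : DiscRedData R E κ Λ π)

include D

/-- lifts of a `κ`-linearly independent family are `R`-linearly independent -/
theorem linearIndependent_lift [IsDomain R] [IsNoetherianRing R]
    [Module.IsTorsionFree R E] (hπ : Prime π) {n : ℕ}
    (b : Fin n → integralClosure R E)
    (hb : LinearIndependent κ (fun i => D.ρ (b i))) : LinearIndependent R b := by
  classical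
  let Φ : (Fin n → R) →ₗ[R] integralClosure R E :=
    Fintype.linearCombination R b
  have hΦ : ∀ r, Φ r = ∑ i, r i • b i := fun r => Fintype.linearCombination_apply R b r
  set K : Submodule R (Fin n → R) := LinearMap.ker Φ with hK
  have hKfg : K.FG := IsNoetherian.noetherian K
  have hle : K ≤ (Ideal.span {π}) • K := by
    intro r hr
    rw [hK, LinearMap.mem_ker, hΦ] at hr
    have h1 : ∑ i, D.φ (r i) • D.ρ (b i) = 0 := by
      have := congrArg D.ρ hr
      rw [map_sum, map_zero] at this
      rw [← this]
      exact Finset.sum_congr rfl fun i _ => (D.ρ_smul _ _).symm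
    have h2 : ∀ i, D.φ (r i) = 0 := fun i =>
      (Fintype.linearIndependent_iff.mp hb) (fun i => D.φ (r i)) h1 i
    choose r' hr' using fun i => (D.φ_ker (r i)).mp (h2 i)
    have hr'' : r = π • r' := by
      ext i; rw [Pi.smul_apply, smul_eq_mul]; exact hr' i
    have hr'K : r' ∈ K := by
      rw [hK, LinearMap.mem_ker, hΦ]
      have h3 : π • (∑ i, r' i • b i) = 0 := by
        rw [← hr, Finset.smul_sum]
        refine Finset.sum_congr rfl fun i _ => ?_
        rw [smul_smul, ← hr' i]
      have hπ0 : π ≠ 0 := hπ.ne_zero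
      rcases smul_eq_zero.mp h3 with h | h
      · exact absurd h hπ0
      · exact h
    rw [hr'']
    exact Submodule.smul_mem_smul (Ideal.subset_span rfl) hr'K
  obtain ⟨g, hg1, hg2⟩ := Submodule.exists_sub_one_mem_and_smul_eq_zero_of_fg_of_le_smul
    (Ideal.span {π}) K hKfg hle
  have hg0 : g ≠ 0 := by
    rintro rfl
    rw [zero_sub, Ideal.mem_span_singleton, dvd_neg] at hg1
    exact hπ.not_isUnit (isUnit_of_dvd_one hg1)
  rw [Fintype.linearIndependent_iff]
  intro r hr i
  have hrK : r ∈ K := by rw [hK, LinearMap.mem_ker, hΦ]; exact hr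
  have := congrFun (hg2 r hrK) i
  rw [Pi.smul_apply, smul_eq_mul, Pi.zero_apply] at this
  exact (mul_eq_zero.mp this).resolve_left hg0

end DiscRedData

namespace DiscRedData

variable {R E κ Λ : Type*} [CommRing R]
  [CommRing E] [Algebra R E]
  [CommRing κ] [CommRing Λ] [Algebra κ Λ] {π : R} (D : DiscRedData R E κ Λ π)

include D

/-- `Λ` is free over the PID `κ`; choose a basis and lifts. -/
theorem exists_lift_basis (L : Type*) [IsDomain R] [IsIntegrallyClosed R]
    [Field L] [Algebra R L] [IsFractionRing R L] [Algebra L E] [IsScalarTower R L E]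
    [Module.Finite L E] [Module.Finite R (integralClosure R E)]
    [IsDomain κ] [IsPrincipalIdealRing κ] (hπ : Prime π) :
    ∃ (n : ℕ) (bΛ : Module.Basis (Fin n) κ Λ) (b : Fin n → integralClosure R E),
      ∀ i, D.ρ (b i) = bΛ i := by
  have hfin : Module.Finite κ Λ := D.finite
  have htf : Module.IsTorsionFree κ Λ :=
    Module.IsTorsionFree.of_smul_eq_zero (D.smul_eq_zero_imp L hπ)
  obtain ⟨n, bΛ⟩ := Module.basisOfFiniteTypeTorsionFree' (R := κ) (M := Λ)
  choose b hb using fun i => D.ρ_surj (bΛ i)
  exact ⟨n, bΛ, b, hb⟩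

/-- The lifts of a `κ`-basis of `Λ` form an `L`-basis of `E`. -/
theorem exists_basis_of_lift (L : Type*) [IsDomain R] [IsIntegrallyClosed R] [IsNoetherianRing R]
    [Field L] [Algebra R L] [IsFractionRing R L] [Algebra L E] [IsScalarTower R L E]
    [Module.Finite L E] [Module.Finite R (integralClosure R E)]
    (hπ : Prime π) {n : ℕ} (bΛ : Module.Basis (Fin n) κ Λ) (b : Fin n → integralClosure R E)
    (hb : ∀ i, D.ρ (b i) = bΛ i) :
    ∃ (f : R) (bE : Module.Basis (Fin n) L E), π ∣ f - 1 ∧ (∀ i, bE i = (b i : E)) ∧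
      ∀ x : integralClosure R E, f • x ∈ Submodule.span R (Set.range b) := by
  classical
  have hspan : Submodule.span κ (Set.range fun i => D.ρ (b i)) = ⊤ := by
    have : (fun i => D.ρ (b i)) = bΛ := funext hb
    rw [this]; exact bΛ.span_eq
  obtain ⟨f, hf1, hf2⟩ := D.exists_smul_mem_span b hspan
  have hf0 : f ≠ 0 := by
    rintro rfl
    rw [zero_sub, dvd_neg] at hf1
    exact hπ.not_isUnit (isUnit_of_dvd_one hf1)
  have hinjRL := IsFractionRing.injective R L
  have htfE : Module.IsTorsionFree R E := by
    refine Module.IsTorsionFree.of_smul_eq_zero fun r m h => ?_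
    rw [← algebraMap_smul L r m] at h
    rcases smul_eq_zero.mp h with h | h
    · left; exact hinjRL (by rw [h, map_zero])
    · right; exact h
  have hliR : LinearIndependent R b := by
    refine D.linearIndependent_lift hπ b ?_
    have : (fun i => D.ρ (b i)) = bΛ := funext hb
    rw [this]; exact bΛ.linearIndependent
  have hliE : LinearIndependent R (fun i => (b i : E)) := by
    have := hliR.map' (integralClosure R E).val.toLinearMap
      (LinearMap.ker_eq_bot.mpr Subtype.val_injective)
    exact this
  have hliL : LinearIndependent L (fun i => (b i : E)) :=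
    (LinearIndependent.iff_fractionRing R L).mp hliE
  have halg : Algebra.IsAlgebraic R E := by
    have := IsLocalization.isAlgebraic L (nonZeroDivisors R)
    exact Algebra.IsAlgebraic.trans R L E
  have hspanL : ⊤ ≤ Submodule.span L (Set.range fun i => (b i : E)) := by
    rintro x -
    obtain ⟨y, hy0, hy⟩ := (Algebra.IsAlgebraic.isAlgebraic (R := R) x).exists_integral_multiple
    have h1 := hf2 ⟨y • x, hy⟩
    -- transport to `E`
    have h2 : (f * y) • x ∈ Submodule.span R (Set.range fun i => (b i : E)) := by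
      have h3 : ((f • (⟨y • x, hy⟩ : integralClosure R E) : integralClosure R E) : E) ∈
          Submodule.map (integralClosure R E).val.toLinearMap
            (Submodule.span R (Set.range b)) := Submodule.mem_map_of_mem h1
      rw [Submodule.map_span, ← Set.range_comp] at h3
      have h4 : ((f • (⟨y • x, hy⟩ : integralClosure R E) : integralClosure R E) : E)
          = (f * y) • x := by
        rw [Subalgebra.coe_smul, mul_smul]
      rw [h4] at h3
      exact h3
    have h5 : (f * y) • x ∈ Submodule.span L (Set.range fun i => (b i : E)) := by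
      have hle : Submodule.span R (Set.range fun i => (b i : E)) ≤
          (Submodule.span L (Set.range fun i => (b i : E))).restrictScalars R :=
        Submodule.span_le.mpr (fun z hz => Submodule.subset_span hz)
      exact hle h2
    have hfy : algebraMap R L (f * y) ≠ 0 := fun h =>
      mul_ne_zero hf0 hy0 (hinjRL (by rw [h, map_zero]))
    have h6 : x = (algebraMap R L (f * y))⁻¹ • ((f * y) • x) := by
      rw [← algebraMap_smul L (f * y) x, smul_smul, inv_mul_cancel₀ hfy, one_smul]
    rw [h6]
    exact Submodule.smul_mem _ _ h5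
  exact ⟨f, Module.Basis.mk hliL hspanL, hf1, fun i => Module.Basis.mk_apply _ _ i, hf2⟩

end DiscRedData

namespace DiscRedData

variable {R E κ Λ : Type*} [CommRing R]
  [CommRing E] [Algebra R E]
  [CommRing κ] [CommRing Λ] [Algebra κ Λ] {π : R} (D : DiscRedData R E κ Λ π)

include D

theorem φ_eq_one_of_dvd_sub_one {f : R} (hf : π ∣ f - 1) : D.φ f = 1 := by
  have := (D.φ_ker (f - 1)).mpr hf
  rwa [map_sub, map_one, sub_eq_zero] at this

/-- **Trace compatibility**: the trace of the reduction is the reduction of the trace. -/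
theorem trace_ρ (L : Type*) [Field L] [Algebra R L] [Algebra L E] [IsScalarTower R L E]
    [FaithfulSMul R L]
    {n : ℕ} (bE : Module.Basis (Fin n) L E) (bΛ : Module.Basis (Fin n) κ Λ)
    (b : Fin n → integralClosure R E) (hbE : ∀ i, bE i = (b i : E)) (hbΛ : ∀ i, D.ρ (b i) = bΛ i)
    {f : R} (hf1 : π ∣ f - 1)
    (hf2 : ∀ x : integralClosure R E, f • x ∈ Submodule.span R (Set.range b))
    (x : integralClosure R E) (t : R) (ht : algebraMap R L t = Algebra.trace L E (x : E)) :
    Algebra.trace κ Λ (D.ρ x) = D.φ t := by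
  classical
  have hinj : Function.Injective (algebraMap R L) := FaithfulSMul.algebraMap_injective R L
  choose N hN using fun j => (Submodule.mem_span_range_iff_exists_fun R).mp (hf2 (x * b j))
  -- coordinates in `E`
  have hE : ∀ j i, algebraMap R L f * bE.repr ((x : E) * bE j) i = algebraMap R L (N j i) := by
    intro j i
    have h1 : (algebraMap R L f) • ((x : E) * bE j) = ∑ i, (algebraMap R L (N j i)) • bE i := by
      have h2 := congrArg (Subtype.val) (hN j)
      rw [Subalgebra.coe_smul, Subalgebra.coe_mul] at h2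
      rw [algebraMap_smul, hbE j, ← h2]
      simp only [AddSubmonoidClass.coe_finsetSum, Subalgebra.coe_smul, algebraMap_smul, hbE]
    have h3 := congrArg (fun y => bE.repr y i) h1
    simp only [map_smul, Finsupp.smul_apply, smul_eq_mul] at h3
    rw [h3, Module.Basis.repr_sum_self]
  have hTrE : algebraMap R L (f * t) = algebraMap R L (∑ j, N j j) := by
    rw [map_mul, ht, Algebra.trace_eq_matrix_trace bE, Matrix.trace, Finset.mul_sum, map_sum]
    refine Finset.sum_congr rfl fun j _ => ?_
    rw [Matrix.diag_apply, Algebra.leftMulMatrix_eq_repr_mul, hE]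
  have hft : f * t = ∑ j, N j j := hinj hTrE
  -- coordinates in `Λ`
  have hφf : D.φ f = 1 := D.φ_eq_one_of_dvd_sub_one hf1
  have hΛ : ∀ j i, bΛ.repr (D.ρ x * bΛ j) i = D.φ (N j i) := by
    intro j i
    have h1 : D.ρ x * bΛ j = ∑ i, D.φ (N j i) • bΛ i := by
      have h2 := congrArg D.ρ (hN j)
      rw [D.ρ_smul, hφf, one_smul, map_mul, hbΛ, map_sum] at h2
      rw [← h2]
      refine Finset.sum_congr rfl fun i _ => ?_
      rw [D.ρ_smul, hbΛ]
    rw [h1, Module.Basis.repr_sum_self]
  rw [Algebra.trace_eq_matrix_trace bΛ, Matrix.trace]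
  have : D.φ t = D.φ (f * t) := by rw [map_mul, hφf, one_mul]
  rw [this, hft, map_sum]
  refine Finset.sum_congr rfl fun j _ => ?_
  rw [Matrix.diag_apply, Algebra.leftMulMatrix_eq_repr_mul, hΛ]

end DiscRedData

namespace DiscRedData

variable {R E κ Λ : Type*} [CommRing R]
  [CommRing E] [Algebra R E]
  [CommRing κ] [CommRing Λ] [Algebra κ Λ] {π : R} (D : DiscRedData R E κ Λ π)

include D

omit D [CommRing κ] [CommRing Λ] [Algebra κ Λ] in
/-- relation between the discriminant of an integral basis `c` and that of the lifted basis -/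
theorem exists_discr_relation (L : Type*) [IsDomain R] [Field L] [Algebra R L]
    [IsFractionRing R L] [Algebra L E] [IsScalarTower R L E]
    {ι : Type*} [Fintype ι] [DecidableEq ι]
    {n : ℕ} (bE : Module.Basis (Fin n) L E)
    (b : Fin n → integralClosure R E) (hbE : ∀ i, bE i = (b i : E))
    {f : R} (hf2 : ∀ x : integralClosure R E, f • x ∈ Submodule.span R (Set.range b))
    (d : R) (hd : algebraMap R L d = Algebra.discr L bE)
    (c : Module.Basis ι L E) (hc : ∀ i, IsIntegral R (c i)) (dc : R)
    (hdc : algebraMap R L dc = Algebra.discr L c) :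
    ∃ q : R, f ^ (2 * n) * dc = q ^ 2 * d := by
  classical
  have hinj := IsFractionRing.injective R L
  let e : ι ≃ Fin n := c.indexEquiv bE
  let v : Fin n → E := fun k => c (e.symm k)
  have hv : Algebra.discr L v = Algebra.discr L c := Algebra.discr_reindex L c e
  choose Q hQ using fun k => (Submodule.mem_span_range_iff_exists_fun R).mp
    (hf2 ⟨c (e.symm k), hc _⟩)
  have hQ' : ∀ k, f • v k = ∑ j, (Matrix.of Q) k j • bE j := by
    intro k
    have h2 := congrArg (Subtype.val) (hQ k)
    rw [Subalgebra.coe_smul] at h2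
    show f • c (e.symm k) = _
    rw [← h2]
    simp only [AddSubmonoidClass.coe_finsetSum, Subalgebra.coe_smul, hbE, Matrix.of_apply]
  have h := discr_relation (L := L) (fun j => bE j) v (Matrix.of Q) f hQ'
  rw [hv, ← hdc, ← hd, Fintype.card_fin, ← map_pow, ← map_pow, ← map_mul, ← map_mul] at h
  exact ⟨(Matrix.of Q).det, hinj h⟩

/-- **Lemma A (discriminant reduction).**  `R` noetherian integrally closed domain, `π` prime,
`κ = R/π` a PID, `E` a finite commutative algebra over `L = Frac R`, `B` the integral closure of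
`R` in `E`, `Λ = B/πB`.  If `E` has an integral basis whose discriminant is prime to `π` and an
integral basis whose discriminant divides a power of `π`, then `Λ` is free over `κ` with a basis
of unit discriminant; moreover the basis lifts to an `L`-basis `b` of `E` in `B` such that
`f B ⊆ ∑ R b i` for some `f ≡ 1 mod π`. -/
theorem exists_basis_isUnit_discr (L : Type*) [IsDomain R] [IsIntegrallyClosed R]
    [IsNoetherianRing R] [Field L] [Algebra R L] [IsFractionRing R L] [Algebra L E]
    [IsScalarTower R L E] [Module.Finite L E] [IsDomain κ] [IsPrincipalIdealRing κ]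
    (hπ : Prime π) {ι : Type*} [Fintype ι] [DecidableEq ι]
    (c : Module.Basis ι L E) (hc : ∀ i, IsIntegral R (c i)) (dc : R)
    (hdc : algebraMap R L dc = Algebra.discr L c) (hπdc : ¬ π ∣ dc)
    (c' : Module.Basis ι L E) (hc' : ∀ i, IsIntegral R (c' i)) (dc' : R)
    (hdc' : algebraMap R L dc' = Algebra.discr L c') (m : ℕ) (hm : dc' ∣ π ^ m) :
    ∃ (n : ℕ) (bΛ : Module.Basis (Fin n) κ Λ) (b : Fin n → integralClosure R E)
      (bE : Module.Basis (Fin n) L E) (f d : R),
      (∀ i, D.ρ (b i) = bΛ i) ∧ (∀ i, bE i = (b i : E)) ∧ π ∣ f - 1 ∧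
      (∀ x : integralClosure R E, f • x ∈ Submodule.span R (Set.range b)) ∧
      algebraMap R L d = Algebra.discr L bE ∧ Algebra.discr κ bΛ = D.φ d ∧
      IsUnit (Algebra.discr κ bΛ) := by
  classical
  have hdc0 : dc ≠ 0 := by rintro rfl; exact hπdc (dvd_zero _)
  have hfinB : Module.Finite R (integralClosure R E) :=
    finite_integralClosure_of_basis c hc dc hdc hdc0
  obtain ⟨n, bΛ, b, hb⟩ := D.exists_lift_basis L hπ
  obtain ⟨f, bE, hf1, hbE, hf2⟩ := D.exists_basis_of_lift L hπ bΛ b hb
  -- the trace matrix of `bE` has entries in `R`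
  have hbint : ∀ i, IsIntegral R (bE i) := fun i => by rw [hbE]; exact (b i).2
  have hT : ∀ i j, ∃ t : R, algebraMap R L t = Algebra.trace L E (bE i * bE j) := fun i j =>
    IsIntegrallyClosed.algebraMap_eq_of_integral
      (isIntegral_trace_alg ((hbint i).mul (hbint j)))
  choose T hTij using hT
  let TA : Matrix (Fin n) (Fin n) R := Matrix.of T
  have hTA : (algebraMap R L).mapMatrix TA = Algebra.traceMatrix L bE := by
    ext i j
    rw [RingHom.mapMatrix_apply, Matrix.map_apply, Algebra.traceMatrix_apply,
      Algebra.traceForm_apply]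
    exact hTij i j
  have hd : algebraMap R L TA.det = Algebra.discr L bE := by
    rw [RingHom.map_det, hTA, Algebra.discr_def]
  -- the trace matrix of `bΛ`
  have hTΛ : D.φ.mapMatrix TA = Algebra.traceMatrix κ bΛ := by
    ext i j
    rw [RingHom.mapMatrix_apply, Matrix.map_apply, Algebra.traceMatrix_apply,
      Algebra.traceForm_apply, ← hb i, ← hb j, ← map_mul]
    refine (D.trace_ρ L bE bΛ b hbE hb hf1 hf2 (b i * b j) (T i j) ?_).symm
    rw [hTij, hbE, hbE, Subalgebra.coe_mul]
  have hdΛ : Algebra.discr κ bΛ = D.φ TA.det := by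
    rw [RingHom.map_det, hTΛ, Algebra.discr_def]
  obtain ⟨q, hq⟩ := exists_discr_relation L bE b hbE hf2 TA.det hd c hc dc hdc
  obtain ⟨q', hq'⟩ := exists_discr_relation L bE b hbE hf2 TA.det hd c' hc' dc' hdc'
  obtain ⟨-, e, he⟩ := unit_mod_of_relations hπ hf1 hq hπdc hq' hm
  refine ⟨n, bΛ, b, bE, f, TA.det, hb, hbE, hf1, hf2, hd, hdΛ, ?_⟩
  rw [hdΛ]
  refine IsUnit.of_mul_eq_one (D.φ e) ?_
  have := (D.φ_ker _).mpr he
  rwa [map_sub, map_one, sub_eq_zero, map_mul] at this

end DiscRedData

/-- the canonical reduction data `κ = R/π`, `Λ = B/πB`. -/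
noncomputable def DiscRedData.quotient (R E : Type*) [CommRing R] [CommRing E] [Algebra R E] (π : R) :
    DiscRedData R E (R ⧸ Ideal.span {π})
      ((integralClosure R E) ⧸ (Ideal.span {π}).map (algebraMap R (integralClosure R E))) π where
  φ := Ideal.Quotient.mk _
  ρ := Ideal.Quotient.mk _
  φ_surj := Ideal.Quotient.mk_surjective
  φ_ker r := by rw [Ideal.Quotient.eq_zero_iff_mem, Ideal.mem_span_singleton]
  ρ_surj := Ideal.Quotient.mk_surjective
  ρ_ker x := by
    rw [Ideal.Quotient.eq_zero_iff_mem, Ideal.map_span, Set.image_singleton,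
      Ideal.mem_span_singleton]
    constructor
    · rintro ⟨y, rfl⟩; exact ⟨y, by rw [Algebra.smul_def]⟩
    · rintro ⟨y, rfl⟩; exact ⟨y, by rw [Algebra.smul_def]⟩
  compat r := rfl

end Fermat.Agent.Good
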