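import Fermat.Agent.Good.NormQuotient

/-!
# Quotient normality from the rank (track L-GEN, node [G-QN], Lemma B, rank form)

Continuation of `Fermat.Agent.Good.NormQuotient`.  The hypothesis *inertia = stabiliser* of
`QN.fixed_mem_of_inert` is derived from the single inequality
`|G| · rank_Λ (A^G) ≤ rank_Λ A` by a count at the level of the PID `Λ`:

* `QN.finrank_le_sum_ramIdx` : `rank_Λ A ≤ Σ_{P | τ} e(P)` (spanning family modulo `τ`);
* `QN.forall_mem_span_of_sum_mem`, `QN.linearIndependent_of_forall_mem_span` : elements with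
  distinct orders below the ramification indices are independent modulo `τ`, hence over `Λ`;
* `QN.sum_le_card_mul_sum_orbRep` : orbit counting;
* `QN.stabCard_dvd_of_finrank` : the exact order `< e(P)` at `P` of an invariant is divisible by
  `|Stab P|`;
* `QN.fixed_mem_of_finrank`, `QN.exists_fixed_lift_of_finrank` : **Lemma B, rank form**.
-/

set_option autoImplicit false

open scoped Pointwise
open IsDiscreteValuationRing

namespace Fermat.Agent.Good.QN

section OrdSum

variable {A : Type*} [CommRing A]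

theorem le_ordP_sum (P : Ideal A) {ι : Type*} (s : Finset ι) (f : ι → A) (n : ℕ∞)
    (h : ∀ i ∈ s, n ≤ ordP P (f i)) : n ≤ ordP P (∑ i ∈ s, f i) := by
  rw [← ENat.forall_natCast_le_iff_le]
  intro k hk
  rw [le_ordP_iff]
  exact Ideal.sum_mem _ fun i hi => (le_ordP_iff P (f i) k).1 (hk.trans (h i hi))

/-- A sum with a unique term of minimal order has that order. -/
theorem ordP_sum_eq (P : Ideal A) {ι : Type*} [DecidableEq ι] (s : Finset ι) (f : ι → A)
    (i₀ : ι) (hi₀ : i₀ ∈ s) (o : ℕ) (ho : ordP P (f i₀) = o)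
    (h : ∀ i ∈ s, i ≠ i₀ → ((o + 1 : ℕ) : ℕ∞) ≤ ordP P (f i)) :
    ordP P (∑ i ∈ s, f i) = o := by
  rw [← Finset.add_sum_erase s f hi₀]
  have hrest : ((o + 1 : ℕ) : ℕ∞) ≤ ordP P (∑ i ∈ s.erase i₀, f i) :=
    le_ordP_sum P _ f _ fun i hi => h i (Finset.mem_of_mem_erase hi) (Finset.ne_of_mem_erase hi)
  rw [← ho]
  refine ordP_eq_of_lt_ordP_sub P _ _ ?_
  rw [add_sub_cancel_left, ho]
  refine lt_of_lt_of_le ?_ hrest
  exact_mod_cast Nat.lt_succ_self o

end OrdSum

section Indep

variable {A Λ : Type*} [CommRing A] [CommRing Λ] [IsDomain Λ] [Algebra Λ A] [Module.Finite Λ A]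
  [Module.IsTorsionFree Λ A]

omit [IsDomain Λ] [Module.Finite Λ A] [Module.IsTorsionFree Λ A] in
/-- An element of `Λ` outside the maximal ideal `(τ)` is a unit at every point of the fibre. -/
theorem ordP_algebraMap_eq_zero (τ : Λ) [hmax : (Ideal.span {τ}).IsMaximal] (P : Ideal A)
    [P.IsMaximal] (hτP : algebraMap Λ A τ ∈ P) (a : Λ) (ha : a ∉ Ideal.span {τ}) :
    ordP P (algebraMap Λ A a) = 0 := by
  rw [ordP_eq_zero_iff]
  intro haP
  have hle : Ideal.span {τ} ≤ P.comap (algebraMap Λ A) := by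
    rw [Ideal.span_singleton_le_iff_mem]
    exact hτP
  have hne : P.comap (algebraMap Λ A) ≠ ⊤ := Ideal.comap_ne_top _ (Ideal.IsMaximal.ne_top ‹_›)
  have := hmax.eq_of_le hne hle
  exact ha (this ▸ haP)

omit [Module.Finite Λ A] in
/-- Elements of `τ A` vanish to order `ramIdx τ P` at `P`. -/
theorem ramIdx_le_ordP_of_mem (hDVR : ∀ (P : Ideal A) [P.IsMaximal], IsDVRAt P) (τ : Λ)
    (hτ : τ ≠ 0) (P : Ideal A) [P.IsMaximal] (y : A)
    (hy : y ∈ Ideal.span {algebraMap Λ A τ}) : (ramIdx τ P : ℕ∞) ≤ ordP P y := by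
  rw [Ideal.mem_span_singleton] at hy
  obtain ⟨c, rfl⟩ := hy
  rw [ordP_mul P (hDVR P), coe_ramIdx τ hτ P (hDVR P)]
  exact le_self_add

/-- **Independence modulo `τ` from distinct orders.**  A finite family `w` with markers
`(pt j, o j)`: `w j` has exact order `o j < ramIdx` at `pt j`, the orders at a common point are
distinct, and `w j'` vanishes to order `ramIdx` at `pt j` when `pt j' ≠ pt j`.  Then a
`Λ`-combination lying in `τ A` has all its coefficients in `(τ)`. -/
theorem forall_mem_span_of_sum_mem {J : Type*} [Fintype J] [DecidableEq J]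
    (hDVR : ∀ (P : Ideal A) [P.IsMaximal], IsDVRAt P) (τ : Λ) (hτ : τ ≠ 0)
    [hmax : (Ideal.span {τ}).IsMaximal] (w : J → A) (pt : J → Ideal A)
    (hpt : ∀ j, pt j ∈ fibreSet (A := A) τ) (o : J → ℕ) (ho : ∀ j, ordP (pt j) (w j) = o j)
    (holt : ∀ j, o j < ramIdx τ (pt j))
    (hdist : ∀ j j', j ≠ j' → pt j = pt j' → o j ≠ o j')
    (hoff : ∀ j j', pt j ≠ pt j' → (ramIdx τ (pt j) : ℕ∞) ≤ ordP (pt j) (w j'))
    (c : J → Λ) (hsum : ∑ j, c j • w j ∈ Ideal.span {algebraMap Λ A τ}) :
    ∀ j, c j ∈ Ideal.span {τ} := by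
  classical
  by_contra hcon
  push Not at hcon
  obtain ⟨j₀, hj₀⟩ := hcon
  set P := pt j₀ with hP
  have hPmem := hpt j₀
  rw [← hP, mem_fibreSet] at hPmem
  obtain ⟨hPmax, hτP⟩ := hPmem
  -- the candidates: same point, coefficient outside `(τ)`
  set S := Finset.univ.filter fun j : J => pt j = P ∧ c j ∉ Ideal.span {τ} with hS
  have hSne : S.Nonempty := ⟨j₀, by rw [hS, Finset.mem_filter]; exact ⟨Finset.mem_univ _, rfl, hj₀⟩⟩
  obtain ⟨j₁, hj₁S, hj₁min⟩ := Finset.exists_min_image S o hSne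
  rw [hS, Finset.mem_filter] at hj₁S
  obtain ⟨-, hj₁P, hj₁c⟩ := hj₁S
  have hord1 : ordP P (c j₁ • w j₁) = o j₁ := by
    rw [Algebra.smul_def, ordP_mul P (hDVR P), ordP_algebraMap_eq_zero τ P hτP _ hj₁c, zero_add,
      ← hj₁P, ho]
  have hlt1 : o j₁ < ramIdx τ P := hj₁P ▸ holt j₁
  have hothers : ∀ j ∈ Finset.univ, j ≠ j₁ → ((o j₁ + 1 : ℕ) : ℕ∞) ≤ ordP P (c j • w j) := by
    intro j _ hjne
    rw [Algebra.smul_def, ordP_mul P (hDVR P)]
    by_cases hjP : pt j = P
    · by_cases hjc : c j ∈ Ideal.span {τ}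
      · -- coefficient divisible by `τ`
        rw [Ideal.mem_span_singleton] at hjc
        obtain ⟨μ, hμ⟩ := hjc
        have h1 : (ramIdx τ P : ℕ∞) ≤ ordP P (algebraMap Λ A (c j)) := by
          refine ramIdx_le_ordP_of_mem hDVR τ hτ P _ ?_
          rw [hμ, map_mul]
          exact Ideal.mul_mem_right _ _ (Ideal.mem_span_singleton_self _)
        refine le_trans ?_ (le_trans h1 le_self_add)
        exact_mod_cast hlt1
      · -- same point, coefficient a unit: larger order
        have hjS : j ∈ S := by rw [hS, Finset.mem_filter]; exact ⟨Finset.mem_univ _, hjP, hjc⟩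
        have hle := hj₁min j hjS
        have hne := hdist j j₁ hjne (hjP.trans hj₁P.symm)
        have hlt : o j₁ < o j := lt_of_le_of_ne hle (Ne.symm hne)
        rw [← hjP, ho j, hjP]
        refine le_trans ?_ le_add_self
        exact_mod_cast hlt
    · -- different point
      have h1 := hoff j₁ j (by rw [hj₁P]; exact fun h => hjP h.symm)
      rw [hj₁P] at h1
      refine le_trans ?_ (le_trans h1 le_add_self)
      exact_mod_cast hlt1
  have hsumord := ordP_sum_eq P Finset.univ (fun j => c j • w j) j₁ (Finset.mem_univ _) (o j₁)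
    hord1 hothers
  have hge := ramIdx_le_ordP_of_mem hDVR τ hτ P _ hsum
  rw [hsumord] at hge
  have : ramIdx τ P ≤ o j₁ := by exact_mod_cast hge
  omega

end Indep


section Lift

variable {A Λ : Type*} [CommRing A] [CommRing Λ] [IsDomain Λ] [IsPrincipalIdealRing Λ]
  [Algebra Λ A] [Module.IsTorsionFree Λ A]

/-- Independence modulo `τ` implies linear independence over `Λ`. -/
theorem linearIndependent_of_forall_mem_span {J : Type*} [Fintype J] (τ : Λ) (hτ : τ ≠ 0)
    (hne : Ideal.span {τ} ≠ ⊤) (w : J → A)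
    (h : ∀ c : J → Λ, ∑ j, c j • w j ∈ Ideal.span {algebraMap Λ A τ} →
      ∀ j, c j ∈ Ideal.span {τ}) : LinearIndependent Λ w := by
  rw [Fintype.linearIndependent_iff]
  intro g hg
  have hpow : ∀ k : ℕ, ∀ j, g j ∈ Ideal.span {τ} ^ k := by
    intro k
    induction k with
    | zero => intro j; simp
    | succ k ih =>
      intro j
      have hdiv : ∀ i, ∃ μ : Λ, g i = τ ^ k * μ := by
        intro i
        have := ih i
        rw [Ideal.span_singleton_pow, Ideal.mem_span_singleton] at this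
        exact this
      choose μ hμ using hdiv
      have hsum0 : ∑ i, μ i • w i = 0 := by
        have h1 : τ ^ k • ∑ i, μ i • w i = 0 := by
          rw [Finset.smul_sum, ← hg]
          refine Finset.sum_congr rfl fun i _ => ?_
          rw [smul_smul, ← hμ i]
        rcases smul_eq_zero.1 h1 with h2 | h2
        · exact absurd h2 (pow_ne_zero k hτ)
        · exact h2
      have hμmem := h μ (hsum0 ▸ Ideal.zero_mem _) j
      rw [pow_succ, hμ j, Ideal.span_singleton_pow]
      exact Ideal.mul_mem_mul (Ideal.mem_span_singleton_self _) hμmem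
  intro j
  have hbot : ⨅ k : ℕ, Ideal.span {τ} ^ k = ⊥ := Ideal.iInf_pow_eq_bot_of_isDomain _ hne
  have : g j ∈ ⨅ k : ℕ, Ideal.span {τ} ^ k := by
    rw [Ideal.mem_iInf]
    exact fun k => hpow k j
  rw [hbot] at this
  exact this

end Lift


section RankBound

variable {A Λ : Type*} [CommRing A] [CommRing Λ] [IsDomain Λ] [IsPrincipalIdealRing Λ]
  [Algebra Λ A] [Module.Finite Λ A] [Module.IsTorsionFree Λ A]

omit [IsDomain Λ] [IsPrincipalIdealRing Λ] [Algebra Λ A] [Module.Finite Λ A]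
  [Module.IsTorsionFree Λ A] in
/-- An element with exact order `i` at `P` vanishing to order `m` at the other points of `T`. -/
theorem exists_ordP_eq_and_le (T : Finset (Ideal A)) (hT : ∀ P ∈ T, P.IsMaximal)
    (hDVR : ∀ (P : Ideal A) [P.IsMaximal], P ∈ T → IsDVRAt P) (P : Ideal A) (hP : P ∈ T)
    (i m : ℕ) : ∃ v : A, ordP P v = i ∧ ∀ P' ∈ T, P' ≠ P → (m : ℕ∞) ≤ ordP P' v := by
  classical
  have := hT P hP
  obtain ⟨u, hu⟩ := exists_ordP_eq_one P (hDVR P hP)
  obtain ⟨z, hz⟩ := exists_forall_sub_mem_pow T hT (max m (i + 1))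
    (fun Q => if Q = P then u ^ i else 0)
  refine ⟨z, ?_, ?_⟩
  · have h1 := hz P hP
    rw [if_pos rfl, ← le_ordP_iff] at h1
    have h2 : ordP P (u ^ i) = i := by
      rw [ordP_pow P (hDVR P hP), hu]; simp
    rw [ordP_eq_of_lt_ordP_sub P z (u ^ i) ?_, h2]
    rw [h2]
    refine lt_of_lt_of_le ?_ h1
    exact_mod_cast lt_of_lt_of_le (Nat.lt_succ_self i) (le_max_right m (i + 1))
  · intro P' hP' hne
    have h1 := hz P' hP'
    rw [if_neg hne, sub_zero, ← le_ordP_iff] at h1
    refine le_trans ?_ h1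
    exact_mod_cast le_max_left m (i + 1)

omit [IsPrincipalIdealRing Λ] in
/-- **Upper bound for the rank**: `rank_Λ A ≤ Σ_{P | τ} e(P)`. -/
theorem finrank_le_sum_ramIdx (hDVR : ∀ (P : Ideal A) [P.IsMaximal], IsDVRAt P)
    (hres : ∀ (P : Ideal A) [P.IsMaximal] (x : A), ∃ a : Λ, x - algebraMap Λ A a ∈ P)
    (τ : Λ) (hτ : τ ≠ 0) [hmax : (Ideal.span {τ}).IsMaximal] :
    Module.finrank Λ A ≤ ∑ P ∈ fibreSet (A := A) τ, ramIdx τ P := by
  classical
  set T := fibreSet (A := A) τ with hTdef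
  have hT : ∀ P ∈ T, P.IsMaximal := fun P hP => ((mem_fibreSet τ P).1 hP).1
  have hDVR' : ∀ (P : Ideal A) [P.IsMaximal], P ∈ T → IsDVRAt P := fun P _ _ => hDVR P
  have hres' : ∀ P ∈ T, ∀ x : A, ∃ a : Λ, x - algebraMap Λ A a ∈ P := fun P hP x => by
    have := hT P hP
    exact hres P x
  set m := ∑ P' ∈ T, ramIdx τ P' with hm
  have hex : ∀ (j : Σ P : T, Fin (ramIdx τ (P : Ideal A))), ∃ v : A,
      ordP (j.1 : Ideal A) v = (j.2 : ℕ) ∧
        ∀ P' ∈ T, P' ≠ (j.1 : Ideal A) → (m : ℕ∞) ≤ ordP P' v :=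
    fun j => exists_ordP_eq_and_le T hT hDVR' j.1 j.1.2 j.2 m
  choose v hv1 hv2 using hex
  set W : Submodule Λ A := Submodule.span Λ (Set.range v) with hW
  have hstep : ∀ y ∈ (⊤ : Submodule Λ A), ∀ P ∈ T, ∀ a : ℕ, a < ramIdx τ P → ordP P y = a →
      ∃ w ∈ W, ordP P w = a ∧
        ∀ P' ∈ T, P' ≠ P → min (ordP P' y) (ramIdx τ P' : ℕ∞) ≤ ordP P' w := by
    intro y _ P hP a ha _
    refine ⟨v ⟨⟨P, hP⟩, ⟨a, ha⟩⟩, Submodule.subset_span (Set.mem_range_self _),
      hv1 ⟨⟨P, hP⟩, ⟨a, ha⟩⟩, ?_⟩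
    intro P' hP' hne
    refine le_trans (min_le_right _ _) (le_trans ?_ (hv2 ⟨⟨P, hP⟩, ⟨a, ha⟩⟩ P' hP' hne))
    exact_mod_cast Finset.single_le_sum (f := fun P' => ramIdx τ P')
      (fun _ _ => Nat.zero_le _) hP'
  have happ := exists_approx (Λ := Λ) T hT hDVR' hres' (ramIdx τ) ⊤ W le_top hstep
  -- `A = W + τ A`
  have hsup : (⊤ : Submodule Λ A) ≤ W ⊔ Ideal.span {τ} • (⊤ : Submodule Λ A) := by
    intro y hy
    obtain ⟨w, hw, hyw⟩ := happ y hy
    obtain ⟨x, hx⟩ := exists_eq_mul_of_ramIdx_le hDVR τ hτ (y - w) hyw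
    have : y = w + τ • x := by rw [Algebra.smul_def, ← hx]; ring
    rw [this]
    exact Submodule.add_mem_sup hw
      (Submodule.smul_mem_smul (Ideal.mem_span_singleton_self τ) Submodule.mem_top)
  -- Nakayama
  set N := (⊤ : Submodule Λ A).map W.mkQ with hN
  have hNfg : N.FG := (Module.Finite.fg_top).map _
  have hin : N ≤ Ideal.span {τ} • N := by
    rintro _ ⟨x, hx, rfl⟩
    obtain ⟨w, hw, t, ht, rfl⟩ := Submodule.mem_sup.1 (hsup hx)
    have hw0 : W.mkQ w = 0 := by
      rw [Submodule.mkQ_apply]; exact (Submodule.Quotient.mk_eq_zero W).2 hw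
    rw [map_add, hw0, zero_add, hN, ← Submodule.map_smul'']
    exact Submodule.mem_map_of_mem ht
  obtain ⟨r, hr1, hr⟩ :=
    Submodule.exists_sub_one_mem_and_smul_eq_zero_of_fg_of_le_smul _ N hNfg hin
  have hr0 : r ≠ 0 := by
    rintro rfl
    apply hmax.ne_top
    rw [Ideal.eq_top_iff_one]
    have := (Ideal.span {τ}).neg_mem hr1
    simpa using this
  have hrW : ∀ x : A, r • x ∈ W := by
    intro x
    have := hr _ (Submodule.mem_map_of_mem (f := W.mkQ) (Submodule.mem_top (x := x)))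
    rw [← map_smul, Submodule.mkQ_apply] at this
    exact (Submodule.Quotient.mk_eq_zero W).1 this
  let f : A →ₗ[Λ] W :=
    { toFun := fun x => ⟨r • x, hrW x⟩
      map_add' := fun x y => Subtype.ext (smul_add r x y)
      map_smul' := fun a x => Subtype.ext (smul_comm r a x) }
  have hf : Function.Injective f := by
    intro x y hxy
    have h1 : r • x = r • y := congrArg Subtype.val hxy
    exact smul_right_injective A hr0 h1
  have hWfin : Module.Finite Λ W := Module.Finite.span_of_finite Λ (Set.finite_range v)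
  calc Module.finrank Λ A ≤ Module.finrank Λ W := LinearMap.finrank_le_finrank_of_injective hf
    _ ≤ Fintype.card (Σ P : T, Fin (ramIdx τ (P : Ideal A))) := finrank_range_le_card v
    _ = ∑ P ∈ T, ramIdx τ P := by
      rw [Fintype.card_sigma]
      simp only [Fintype.card_fin]
      exact Finset.sum_coe_sort T (fun P => ramIdx τ P)

end RankBound


section Orbits

variable {A : Type*} [CommRing A] {G : Type*} [Group G] [Fintype G] [MulSemiringAction G A]

open Classical in
/-- The order of the stabiliser of `P`. -/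
noncomputable def stabCard (G : Type*) [Group G] [Fintype G] {A : Type*} [CommRing A]
    [MulSemiringAction G A] (P : Ideal A) : ℕ :=
  (Finset.univ.filter fun g : G => g • P = P).card

theorem stabCard_pos (P : Ideal A) : 0 < stabCard G P := by
  classical
  unfold stabCard
  exact Finset.card_pos.2 ⟨1, by simp⟩

open Classical in
/-- The fibres of `g ↦ g • R` all have the cardinality of the stabiliser. -/
theorem card_filter_smul_eq (R : Ideal A) (g₀ : G) :
    (Finset.univ.filter fun g : G => g • R = g₀ • R).card = stabCard G R := by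
  unfold stabCard
  refine Finset.card_bij (fun g _ => g₀⁻¹ * g) ?_ ?_ ?_
  · intro g hg
    rw [Finset.mem_filter] at hg ⊢
    refine ⟨Finset.mem_univ _, ?_⟩
    rw [mul_smul, hg.2, inv_smul_smul]
  · intro g _ g' _ h
    exact mul_left_cancel h
  · intro h hh
    rw [Finset.mem_filter] at hh
    refine ⟨g₀ * h, ?_, by simp⟩
    rw [Finset.mem_filter]
    exact ⟨Finset.mem_univ _, by rw [mul_smul, hh.2]⟩

theorem stabCard_smul (g : G) (P : Ideal A) : stabCard G (g • P) = stabCard G P := by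
  classical
  unfold stabCard
  refine Finset.card_bij (fun h _ => g⁻¹ * h * g) ?_ ?_ ?_
  · intro h hh
    rw [Finset.mem_filter] at hh ⊢
    refine ⟨Finset.mem_univ _, ?_⟩
    rw [mul_smul, mul_smul, hh.2, inv_smul_smul]
  · intro h _ h' _ heq
    exact mul_left_cancel (mul_right_cancel heq)
  · intro h hh
    rw [Finset.mem_filter] at hh
    refine ⟨g * h * g⁻¹, ?_, by group⟩
    rw [Finset.mem_filter]
    refine ⟨Finset.mem_univ _, ?_⟩
    rw [mul_smul, mul_smul, inv_smul_smul, hh.2]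

open Classical in
/-- Orbit–stabiliser, in `Finset` form. -/
theorem card_orbit_mul_stabCard (T : Finset (Ideal A)) (hG : ∀ (g : G), ∀ P ∈ T, g • P ∈ T)
    (R : Ideal A) (hR : R ∈ T) :
    (T.filter fun P => ∃ g : G, g • R = P).card * stabCard G R = Fintype.card G := by
  have hmaps : ∀ g ∈ (Finset.univ : Finset G), g • R ∈ T.filter fun P => ∃ g : G, g • R = P := by
    intro g _
    rw [Finset.mem_filter]
    exact ⟨hG g R hR, g, rfl⟩
  have h1 := Finset.card_eq_sum_card_fiberwise hmaps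
  rw [Finset.card_univ] at h1
  rw [h1, Finset.sum_const_nat (m := stabCard G R)]
  · intro P hP
    rw [Finset.mem_filter] at hP
    obtain ⟨-, g₀, rfl⟩ := hP
    exact card_filter_smul_eq R g₀

/-- A choice of representative of the orbit of `P`. -/
noncomputable def orbRep (G : Type*) [Group G] {A : Type*} [CommRing A] [MulSemiringAction G A]
    (P : Ideal A) : Ideal A := (MulAction.nonempty_orbit (M := G) P).some

omit [Fintype G] in
theorem orbRep_mem (P : Ideal A) : ∃ g : G, g • P = orbRep G P :=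
  (MulAction.nonempty_orbit (M := G) P).some_mem

omit [Fintype G] in
theorem orbRep_smul (g : G) (P : Ideal A) : orbRep G (g • P) = orbRep G P := by
  unfold orbRep
  have h : MulAction.orbit G (g • P) = MulAction.orbit G P := MulAction.orbit_smul g P
  have key : ∀ (S S' : Set (Ideal A)) (_ : S = S') (hS : S.Nonempty) (hS' : S'.Nonempty),
      hS.some = hS'.some := by
    intro S S' hSS' hS hS'
    subst hSS'
    rfl
  exact key _ _ h _ _

omit [Fintype G] in
theorem orbRep_orbRep (P : Ideal A) : orbRep G (orbRep G P) = orbRep G P := by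
  obtain ⟨g, hg⟩ := orbRep_mem (G := G) P
  conv_lhs => rw [← hg, orbRep_smul]

omit [Fintype G] in
theorem orbRep_eq_iff (P R : Ideal A) (hR : orbRep G R = R) :
    orbRep G P = R ↔ ∃ g : G, g • R = P := by
  constructor
  · intro h
    obtain ⟨g, hg⟩ := orbRep_mem (G := G) P
    refine ⟨g⁻¹, ?_⟩
    rw [← h, ← hg, inv_smul_smul]
  · rintro ⟨g, rfl⟩
    rw [orbRep_smul, hR]

open Classical in
/-- **Orbit counting**: for a `G`-invariant weight `e`, `Σ_{P ∈ T} e P ≤ |G| Σ_{R ∈ reps} a R`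
as soon as `e R ≤ a R * |Stab R|` on the representatives. -/
theorem sum_le_card_mul_sum_orbRep (T : Finset (Ideal A)) (hG : ∀ (g : G), ∀ P ∈ T, g • P ∈ T)
    (e a : Ideal A → ℕ) (he : ∀ (g : G) (P : Ideal A), e (g • P) = e P)
    (hea : ∀ R ∈ T.image (orbRep G), e R ≤ a R * stabCard G R) :
    ∑ P ∈ T, e P ≤ Fintype.card G * ∑ R ∈ T.image (orbRep G), a R := by
  have hmaps : ∀ P ∈ T, orbRep G P ∈ T.image (orbRep G) := fun P hP => Finset.mem_image_of_mem _ hP
  rw [← Finset.sum_fiberwise_of_maps_to hmaps, Finset.mul_sum]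
  refine Finset.sum_le_sum fun R hR => ?_
  have hRT : R ∈ T := by
    rw [Finset.mem_image] at hR
    obtain ⟨P, hP, rfl⟩ := hR
    obtain ⟨g, hg⟩ := orbRep_mem (G := G) P
    rw [← hg]
    exact hG g P hP
  have hRR : orbRep G R = R := by
    rw [Finset.mem_image] at hR
    obtain ⟨P, -, rfl⟩ := hR
    exact orbRep_orbRep P
  have hfilter : (T.filter fun P => orbRep G P = R) = T.filter fun P => ∃ g : G, g • R = P := by
    refine Finset.filter_congr fun P _ => orbRep_eq_iff P R hRR
  have hconst : ∑ P ∈ T.filter (fun P => orbRep G P = R), e P =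
      (T.filter fun P => ∃ g : G, g • R = P).card * e R := by
    rw [hfilter]
    rw [Finset.sum_const_nat (m := e R)]
    intro P hP
    rw [Finset.mem_filter] at hP
    obtain ⟨-, g, rfl⟩ := hP
    exact he g R
  rw [hconst, ← card_orbit_mul_stabCard T hG R hRT]
  calc (T.filter fun P => ∃ g : G, g • R = P).card * e R
      ≤ (T.filter fun P => ∃ g : G, g • R = P).card * (a R * stabCard G R) :=
        Nat.mul_le_mul_left _ (hea R hR)
    _ = (T.filter fun P => ∃ g : G, g • R = P).card * stabCard G R * a R := by ring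

end Orbits


section Count

variable {A G Λ : Type*} [CommRing A] [Group G] [Fintype G] [MulSemiringAction G A]
  [CommRing Λ] [IsDomain Λ] [IsPrincipalIdealRing Λ] [Algebra Λ A] [Module.Finite Λ A]
  [Module.IsTorsionFree Λ A]

omit [Fintype G] [IsDomain Λ] [IsPrincipalIdealRing Λ] [Module.Finite Λ A]
  [Module.IsTorsionFree Λ A] in
theorem ramIdx_smul (hΛG : ∀ (g : G) (a : Λ), g • algebraMap Λ A a = algebraMap Λ A a)
    (τ : Λ) (g : G) (P : Ideal A) : ramIdx τ (g • P) = ramIdx τ P := by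
  unfold ramIdx
  rw [ordP_smul_of_fixed g P _ (fun g => hΛG g τ)]

open Classical in
/-- **Inertia = stabiliser from the rank.**  If `rank_Λ A ≥ |G| · rank_Λ A^G`, then the exact
order `a < e(P₀)` at `P₀` of a `G`-invariant element is divisible by `|Stab P₀|`. -/
theorem stabCard_dvd_of_finrank
    (hDVR : ∀ (P : Ideal A) [P.IsMaximal], IsDVRAt P)
    (hres : ∀ (P : Ideal A) [P.IsMaximal] (x : A), ∃ a : Λ, x - algebraMap Λ A a ∈ P)
    (hΛG : ∀ (g : G) (a : Λ), g • algebraMap Λ A a = algebraMap Λ A a)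
    (F : Submodule Λ A) (hF : ∀ x : A, x ∈ F ↔ ∀ g : G, g • x = x)
    (hrank : Fintype.card G * Module.finrank Λ F ≤ Module.finrank Λ A)
    (τ : Λ) (hτ : τ ≠ 0) [hmax : (Ideal.span {τ}).IsMaximal]
    (P₀ : Ideal A) (hP₀ : P₀ ∈ fibreSet (A := A) τ) (y : A) (hy : ∀ g : G, g • y = y)
    (a : ℕ) (ha : a < ramIdx τ P₀) (hya : ordP P₀ y = a) : stabCard G P₀ ∣ a := by
  by_contra hndvd
  set T := fibreSet (A := A) τ with hTdef
  have hT : ∀ P ∈ T, P.IsMaximal := fun P hP => ((mem_fibreSet τ P).1 hP).1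
  have hDVR' : ∀ (P : Ideal A) [P.IsMaximal], P ∈ T → IsDVRAt P := fun P _ _ => hDVR P
  have hG : ∀ (g : G), ∀ P ∈ T, g • P ∈ T := fun g P hP => smul_mem_fibreSet hΛG τ g P hP
  set m := ∑ P' ∈ T, ramIdx τ P' with hm
  have hem : ∀ P ∈ T, ramIdx τ P ≤ m := fun P hP =>
    Finset.single_le_sum (f := fun P' => ramIdx τ P') (fun _ _ => Nat.zero_le _) hP
  -- representatives
  set Rset := T.image (orbRep G) with hRset
  have hRT : ∀ R ∈ Rset, R ∈ T := by
    intro R hR
    rw [hRset, Finset.mem_image] at hR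
    obtain ⟨P, hP, rfl⟩ := hR
    obtain ⟨g, hg⟩ := orbRep_mem (G := G) P
    rw [← hg]
    exact hG g P hP
  have hRR : ∀ R ∈ Rset, orbRep G R = R := by
    intro R hR
    rw [hRset, Finset.mem_image] at hR
    obtain ⟨P, -, rfl⟩ := hR
    exact orbRep_orbRep P
  have hRne : ∀ R ∈ Rset, ∀ R' ∈ Rset, R ≠ R' → ∀ g : G, g • R ≠ R' := by
    intro R hR R' hR' hne g hg
    apply hne
    rw [← hRR R hR, ← hRR R' hR', ← hg, orbRep_smul]
  -- the representative of `P₀`
  set R₀ := orbRep G P₀ with hR₀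
  have hR₀set : R₀ ∈ Rset := Finset.mem_image_of_mem _ hP₀
  obtain ⟨g₀, hg₀⟩ := orbRep_mem (G := G) P₀
  have hR₀T : R₀ ∈ T := hRT R₀ hR₀set
  have hyR₀ : ordP R₀ y = a := by
    rw [hR₀, ← hg₀, ordP_smul_of_fixed g₀ P₀ y hy, hya]
  have haR₀ : a < ramIdx τ R₀ := by
    rw [hR₀, ← hg₀, ramIdx_smul hΛG]; exact ha
  have hsR₀ : ¬ stabCard G R₀ ∣ a := by
    rw [hR₀, ← hg₀, stabCard_smul]; exact hndvd
  -- the number of norm elements for the orbit of `R`
  set cnt : Ideal A → ℕ := fun R => (ramIdx τ R + stabCard G R - 1) / stabCard G R with hcnt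
  have hcnt1 : ∀ R, ramIdx τ R ≤ cnt R * stabCard G R := by
    intro R
    have hs := stabCard_pos (G := G) R
    have h1 := Nat.lt_div_mul_add (a := ramIdx τ R + stabCard G R - 1) hs
    simp only [hcnt]
    omega
  have hcnt2 : ∀ R i, i < cnt R → i * stabCard G R < ramIdx τ R := by
    intro R i hi
    have hs := stabCard_pos (G := G) R
    have h1 := Nat.div_mul_le_self (ramIdx τ R + stabCard G R - 1) (stabCard G R)
    have h2 : (i + 1) * stabCard G R ≤ cnt R * stabCard G R := Nat.mul_le_mul_right _ hi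
    simp only [hcnt] at h2
    have h3 : (i + 1) * stabCard G R = i * stabCard G R + stabCard G R := by ring
    omega
  -- the norm elements
  have hex : ∀ (R : Ideal A) (i : ℕ), R ∈ T → ∃ z : A,
      ordP R (normG G z) = (i * stabCard G R : ℕ) ∧
      ∀ P ∈ T, (∀ g : G, g • R ≠ P) → (m : ℕ∞) ≤ ordP P (normG G z) := by
    intro R i hR
    exact exists_normG_ordP T hT hDVR' hG R hR i m
  choose! z hz1 hz2 using hex
  -- index set
  set Jset : Finset (Σ _ : Ideal A, ℕ) := Rset.sigma fun R => Finset.range (cnt R) with hJset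
  have hJmem : ∀ p : (Σ _ : Ideal A, ℕ), p ∈ Jset ↔ p.1 ∈ Rset ∧ p.2 < cnt p.1 := by
    intro p
    rw [hJset, Finset.mem_sigma, Finset.mem_range]
  let w : Option Jset → A := fun j =>
    match j with
    | none => y * normG G (z R₀ 0)
    | some p => normG G (z p.1.1 p.1.2)
  let pt : Option Jset → Ideal A := fun j =>
    match j with
    | none => R₀
    | some p => p.1.1
  let o : Option Jset → ℕ := fun j =>
    match j with
    | none => a
    | some p => p.1.2 * stabCard G p.1.1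
  have hpt : ∀ j, pt j ∈ fibreSet (A := A) τ := by
    intro j
    match j with
    | none => exact hR₀T
    | some p => exact hRT _ ((hJmem p.1).1 p.2).1
  have hz0 : ordP R₀ (normG G (z R₀ 0)) = 0 := by
    have := hz1 R₀ 0 hR₀T
    simpa using this
  have ho : ∀ j, ordP (pt j) (w j) = o j := by
    intro j
    match j with
    | none =>
      have := hT R₀ hR₀T
      show ordP R₀ (y * normG G (z R₀ 0)) = (a : ℕ∞)
      rw [ordP_mul R₀ (hDVR R₀), hyR₀, hz0, add_zero]
    | some p => exact hz1 _ _ (hRT _ ((hJmem p.1).1 p.2).1)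
  have holt : ∀ j, o j < ramIdx τ (pt j) := by
    intro j
    match j with
    | none => exact haR₀
    | some p => exact hcnt2 _ _ ((hJmem p.1).1 p.2).2
  have hdist : ∀ j j', j ≠ j' → pt j = pt j' → o j ≠ o j' := by
    intro j j' hne hpp
    match j, j' with
    | none, none => exact absurd rfl hne
    | none, some p =>
      show a ≠ p.1.2 * stabCard G p.1.1
      intro h
      apply hsR₀
      have hpp' : R₀ = p.1.1 := hpp
      rw [hpp', h]
      exact dvd_mul_left _ _
    | some p, none =>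
      show p.1.2 * stabCard G p.1.1 ≠ a
      intro h
      apply hsR₀
      have hpp' : p.1.1 = R₀ := hpp
      rw [← hpp', ← h]
      exact dvd_mul_left _ _
    | some p, some p' =>
      show p.1.2 * stabCard G p.1.1 ≠ p'.1.2 * stabCard G p'.1.1
      have hpp' : p.1.1 = p'.1.1 := hpp
      intro h
      rw [hpp'] at h
      have h2 : p.1.2 = p'.1.2 := Nat.eq_of_mul_eq_mul_right (stabCard_pos (G := G) _) h
      apply hne
      congr 1
      apply Subtype.ext
      exact Sigma.ext hpp' (heq_of_eq h2)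
  have hoff : ∀ j j', pt j ≠ pt j' → (ramIdx τ (pt j) : ℕ∞) ≤ ordP (pt j) (w j') := by
    intro j j' hpp
    have hle : (ramIdx τ (pt j) : ℕ∞) ≤ (m : ℕ∞) := by exact_mod_cast hem _ (hpt j)
    refine le_trans hle ?_
    match j, j' with
    | none, none => exact absurd rfl hpp
    | none, some p =>
      have hpR := ((hJmem p.1).1 p.2).1
      have hne : p.1.1 ≠ R₀ := fun h => hpp h.symm
      exact hz2 _ _ (hRT _ hpR) R₀ hR₀T (hRne _ hpR _ hR₀set hne)
    | some p, none =>
      have hpR := ((hJmem p.1).1 p.2).1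
      have hne : R₀ ≠ p.1.1 := fun h => hpp h.symm
      have := hT _ (hRT _ hpR)
      show (m : ℕ∞) ≤ ordP p.1.1 (y * normG G (z R₀ 0))
      rw [ordP_mul _ (hDVR _)]
      exact le_trans (hz2 R₀ 0 hR₀T _ (hRT _ hpR) (hRne _ hR₀set _ hpR hne)) le_add_self
    | some p, some p' =>
      have hpR := ((hJmem p.1).1 p.2).1
      have hpR' := ((hJmem p'.1).1 p'.2).1
      have hne : p'.1.1 ≠ p.1.1 := fun h => hpp h.symm
      exact hz2 _ _ (hRT _ hpR') _ (hRT _ hpR) (hRne _ hpR' _ hpR hne)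
  -- linear independence
  have hmod := forall_mem_span_of_sum_mem hDVR τ hτ w pt hpt o ho holt hdist hoff
  have hlin : LinearIndependent Λ w :=
    linearIndependent_of_forall_mem_span τ hτ hmax.ne_top w hmod
  have hwF : ∀ j, w j ∈ F := by
    intro j
    rw [hF]
    intro g
    match j with
    | none =>
      show g • (y * normG G (z R₀ 0)) = y * normG G (z R₀ 0)
      rw [smul_mul', hy g, smul_normG]
    | some p => exact smul_normG g _
  let w' : Option Jset → F := fun j => ⟨w j, hwF j⟩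
  have hlin' : LinearIndependent Λ w' := LinearIndependent.of_comp F.subtype hlin
  have : IsNoetherian Λ A := isNoetherian_of_isNoetherianRing_of_finite Λ A
  have hcard := hlin'.fintype_card_le_finrank
  rw [Fintype.card_option, Fintype.card_coe, hJset, Finset.card_sigma] at hcard
  simp only [Finset.card_range] at hcard
  -- the count
  have h1 := finrank_le_sum_ramIdx hDVR hres τ hτ
  have h2 := sum_le_card_mul_sum_orbRep (G := G) T hG (ramIdx τ) cnt
    (fun g P => ramIdx_smul hΛG τ g P) (fun R _ => hcnt1 R)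
  have hGpos : 0 < Fintype.card G := Fintype.card_pos
  have h3 : Fintype.card G * Module.finrank Λ F ≤
      Fintype.card G * ∑ R ∈ Rset, cnt R := le_trans hrank (le_trans h1 h2)
  have h4 := Nat.le_of_mul_le_mul_left h3 hGpos
  omega

end Count


section MainRank

variable {A G Λ : Type*} [CommRing A] [Group G] [Fintype G] [MulSemiringAction G A]
  [CommRing Λ] [IsDomain Λ] [IsPrincipalIdealRing Λ] [Algebra Λ A] [Module.Finite Λ A]
  [Module.IsTorsionFree Λ A]

omit [IsPrincipalIdealRing Λ] in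
/-- Step A when *inertia = stabiliser* is only known for orders below the ramification index. -/
theorem stepA_of_inert_lt
    (hDVR : ∀ (P : Ideal A) [P.IsMaximal], IsDVRAt P)
    (hres : ∀ (P : Ideal A) [P.IsMaximal] (x : A), ∃ a : Λ, x - algebraMap Λ A a ∈ P)
    (hΛG : ∀ (g : G) (a : Λ), g • algebraMap Λ A a = algebraMap Λ A a)
    (C : Subring A) (hCΛ : ∀ a : Λ, algebraMap Λ A a ∈ C) (hCnorm : ∀ z : A, normG G z ∈ C)
    (τ : Λ) (hτ : τ ≠ 0) (hmax : (Ideal.span {τ}).IsMaximal)
    (hinert : ∀ P ∈ fibreSet (A := A) τ, ∀ y : A, (∀ g : G, g • y = y) → ∀ n : ℕ,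
      n < ramIdx τ P → ordP P y = n → stabCard G P ∣ n)
    (x : A) (hx : x ∈ fixedSub hΛG) :
    ∃ c ∈ fixedSub hΛG ⊓ subringSub C hCΛ, ∃ w ∈ fixedSub hΛG, x = c + τ • w := by
  classical
  set T := fibreSet (A := A) τ with hTdef
  have hT : ∀ P ∈ T, P.IsMaximal := fun P hP => ((mem_fibreSet τ P).1 hP).1
  have hDVR' : ∀ (P : Ideal A) [P.IsMaximal], P ∈ T → IsDVRAt P := fun P _ _ => hDVR P
  have hres' : ∀ P ∈ T, ∀ x : A, ∃ a : Λ, x - algebraMap Λ A a ∈ P := fun P hP x => by
    have := hT P hP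
    exact hres P x
  have hG : ∀ (g : G), ∀ P ∈ T, g • P ∈ T := fun g P hP => smul_mem_fibreSet hΛG τ g P hP
  set m := ∑ P' ∈ T, ramIdx τ P' with hm
  have hstep : ∀ y ∈ fixedSub hΛG, ∀ P ∈ T, ∀ a : ℕ, a < ramIdx τ P → ordP P y = a →
      ∃ w ∈ fixedSub hΛG ⊓ subringSub C hCΛ, ordP P w = a ∧
        ∀ P' ∈ T, P' ≠ P → min (ordP P' y) (ramIdx τ P' : ℕ∞) ≤ ordP P' w := by
    intro y hy P hP a halt hya
    have := hT P hP
    obtain ⟨n, hn⟩ := hinert P hP y hy a halt hya
    obtain ⟨z, hz1, hz2⟩ := exists_normG_ordP T hT hDVR' hG P hP n m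
    have hwfix : normG G z ∈ fixedSub hΛG := fun g => smul_normG g z
    have hz1' : ordP P (normG G z) = (a : ℕ) := by
      rw [hz1, hn, mul_comm]; rfl
    refine ⟨normG G z, ⟨hwfix, hCnorm z⟩, hz1', ?_⟩
    intro P' hP' _
    by_cases horb : ∃ g : G, g • P = P'
    · obtain ⟨g, rfl⟩ := horb
      rw [ordP_smul_of_fixed g P _ hwfix, ordP_smul_of_fixed g P y hy, hz1', hya]
      exact min_le_left _ _
    · refine le_trans (min_le_right _ _) (le_trans ?_ (hz2 P' hP' (fun g hg => horb ⟨g, hg⟩)))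
      exact_mod_cast Finset.single_le_sum (f := fun P' => ramIdx τ P')
        (fun _ _ => Nat.zero_le _) hP'
  obtain ⟨c, hc, hcx⟩ := exists_approx (Λ := Λ) T hT hDVR' hres' (ramIdx τ) (fixedSub hΛG)
    (fixedSub hΛG ⊓ subringSub C hCΛ) inf_le_left hstep x hx
  obtain ⟨w, hw⟩ := exists_eq_mul_of_ramIdx_le hDVR τ hτ (x - c) hcx
  refine ⟨c, hc, w, ?_, ?_⟩
  · intro g
    refine fixed_of_mul_fixed hΛG τ hτ w (fun g => ?_) g
    rw [← hw]
    exact (fixedSub hΛG).sub_mem hx hc.1 g
  · rw [Algebra.smul_def, ← hw]; ring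

/-- **Quotient normality, core form (rank hypothesis).**  As `fixed_mem_of_inert`, with
*inertia = stabiliser* replaced by the single inequality
`|G| · rank_Λ (A^G) ≤ rank_Λ A` (generic freeness of the action). -/
theorem fixed_mem_of_finrank (hΛ : ¬ IsField Λ)
    (hDVR : ∀ (P : Ideal A) [P.IsMaximal], IsDVRAt P)
    (hres : ∀ (P : Ideal A) [P.IsMaximal] (x : A), ∃ a : Λ, x - algebraMap Λ A a ∈ P)
    (hΛG : ∀ (g : G) (a : Λ), g • algebraMap Λ A a = algebraMap Λ A a)
    (F : Submodule Λ A) (hF : ∀ x : A, x ∈ F ↔ ∀ g : G, g • x = x)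
    (hrank : Fintype.card G * Module.finrank Λ F ≤ Module.finrank Λ A)
    (C : Subring A) (hCΛ : ∀ a : Λ, algebraMap Λ A a ∈ C) (hCnorm : ∀ z : A, normG G z ∈ C)
    (x : A) (hx : ∀ g : G, g • x = x) : x ∈ C := by
  refine le_of_forall_le_sup_smul hΛ (fixedSub hΛG) (subringSub C hCΛ)
    (fun τ hτ hmax y hy => ?_) hx
  have := hmax
  obtain ⟨c, hc, w, hw, rfl⟩ := stepA_of_inert_lt hDVR hres hΛG C hCΛ hCnorm τ hτ hmax
    (fun P hP y hy n hn hyn =>
      stabCard_dvd_of_finrank hDVR hres hΛG F hF hrank τ hτ P hP y hy n hn hyn) y hy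
  exact ⟨c, hc.2, w, hw, rfl⟩

end MainRank

section WrapperRank

variable {B A G Λ : Type*} [CommRing B] [CommRing A] [Group G] [Fintype G]
  [MulSemiringAction G B] [MulSemiringAction G A]
  [CommRing Λ] [IsDomain Λ] [IsPrincipalIdealRing Λ] [Algebra Λ A] [Module.Finite Λ A]
  [Module.IsTorsionFree Λ A]

/-- **Quotient normality (Lemma B), rank hypothesis.**  `red : B → A` a surjective
`G`-equivariant ring homomorphism, `Λ` a PID (not a field) mapping to `A` with image in the
reduction of `B^G`; `A` module-finite and torsion-free over `Λ`, all localisations of `A` at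
maximal ideals DVRs with residue field covered by `Λ`, and
`|G| · rank_Λ (A^G) ≤ rank_Λ A`.  Then `red (B^G) = A^G`. -/
theorem exists_fixed_lift_of_finrank (hΛ : ¬ IsField Λ) (red : B →+* A)
    (hred : Function.Surjective red) (hequiv : ∀ (g : G) (b : B), red (g • b) = g • red b)
    (hΛB : ∀ a : Λ, ∃ b : B, (∀ g : G, g • b = b) ∧ red b = algebraMap Λ A a)
    (hDVR : ∀ (P : Ideal A) [P.IsMaximal], IsDVRAt P)
    (hres : ∀ (P : Ideal A) [P.IsMaximal] (x : A), ∃ a : Λ, x - algebraMap Λ A a ∈ P)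
    (F : Submodule Λ A) (hF : ∀ x : A, x ∈ F ↔ ∀ g : G, g • x = x)
    (hrank : Fintype.card G * Module.finrank Λ F ≤ Module.finrank Λ A)
    (x : A) (hx : ∀ g : G, g • x = x) : ∃ b : B, (∀ g : G, g • b = b) ∧ red b = x := by
  have hΛG : ∀ (g : G) (a : Λ), g • algebraMap Λ A a = algebraMap Λ A a := by
    intro g a
    obtain ⟨b, hb, hba⟩ := hΛB a
    rw [← hba, ← hequiv, hb g]
  let C : Subring A := (FixedPoints.subring B G).map red
  have hCmem : ∀ y : A, y ∈ C ↔ ∃ b : B, (∀ g : G, g • b = b) ∧ red b = y := by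
    intro y
    constructor
    · rintro ⟨b, hb, rfl⟩
      exact ⟨b, fun g => hb g, rfl⟩
    · rintro ⟨b, hb, rfl⟩
      exact ⟨b, fun g => hb g, rfl⟩
  have hCΛ : ∀ a : Λ, algebraMap Λ A a ∈ C := fun a => (hCmem _).2 (hΛB a)
  have hCnorm : ∀ z : A, normG G z ∈ C := by
    intro z
    obtain ⟨b, rfl⟩ := hred z
    refine (hCmem _).2 ⟨normG G b, fun g => smul_normG g b, ?_⟩
    unfold normG
    rw [map_prod]
    exact Finset.prod_congr rfl fun g _ => hequiv g b
  exact (hCmem x).1 (fixed_mem_of_finrank hΛ hDVR hres hΛG F hF hrank C hCΛ hCnorm x hx)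

end WrapperRank


end Fermat.Agent.Good.QN
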