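import Fermat.Agent.Good.EtaleBridge
import Fermat.Agent.Good.NormQuotientRank

/-!
# L-GEN: plugs from the etale bridge [G-ET] into the hypotheses of Lemma B [G-QN]

`S` a PID (not a field) of finite type over the algebraically closed field `k`, `A` finite free
over `S` with a basis of unit discriminant, `Λ` any `k`-algebra mapping to `A` compatibly
(in the application `Λ = k[X] = k[j]`).  Then the hypotheses `hDVR` and `hres` of
`QN.fixed_mem_of_finrank` / `QN.fixed_mem_of_inert` hold.
-/

set_option autoImplicit false

open Module

namespace Fermat.Agent.Good.ET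

section Plug

variable {k S A : Type*} [Field k] [IsAlgClosed k] [CommRing S] [IsDomain S]
  [IsPrincipalIdealRing S] [Algebra k S] [Algebra.FiniteType k S] [CommRing A] [Algebra S A]
  [Algebra k A] [IsScalarTower k S A] {ι : Type*} [Fintype ι] [DecidableEq ι]

/-- `hDVR` of Lemma B from the etale bridge. -/
theorem isDVRAt_of_isUnit_discr (hS : ¬ IsField S) (b : Basis ι S A)
    (hb : IsUnit (Algebra.discr S b)) (P : Ideal A) [P.IsMaximal] : QN.IsDVRAt P :=
  exists_isDiscreteValuationRing_localization b hb P (under_ne_bot_of_isMaximal b hS P)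

/-- `hres` of Lemma B from the etale bridge, for any `k`-algebra `Λ` over which `A` is an algebra
compatibly with `k`. -/
theorem exists_sub_algebraMap_mem (b : Basis ι S A) {Λ : Type*} [CommRing Λ] [Algebra k Λ]
    [Algebra Λ A] [IsScalarTower k Λ A] (P : Ideal A) [P.IsMaximal] (x : A) :
    ∃ a : Λ, x - algebraMap Λ A a ∈ P := by
  have hfin : Module.Finite S A := Module.Finite.of_basis b
  have hint : Algebra.IsIntegral S A := Algebra.IsIntegral.of_finite S A
  have hmax : (P.under S).IsMaximal := Ideal.isMaximal_comap_of_isIntegral_of_isMaximal P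
  have hbij := bijective_algebraMap_quotient (kb := k) b P
    (surjective_algebraMap_quotient_of_finiteType (kb := k) (P.under S))
  obtain ⟨lam, hlam⟩ := hbij.2 (Ideal.Quotient.mk P x)
  refine ⟨algebraMap k Λ lam, ?_⟩
  rw [← Ideal.Quotient.eq_zero_iff_mem, map_sub, ← hlam,
    ← IsScalarTower.algebraMap_apply k Λ A]
  exact sub_self _

end Plug

section BaseChange

variable {S A : Type*} [CommRing S] [CommRing A] [Algebra S A] {ι : Type*} [Fintype ι]
  [DecidableEq ι]

/-- The discriminant commutes with base change. -/
theorem discr_tensorBasis (b : Basis ι S A) (S' : Type*) [CommRing S'] [Algebra S S'] :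
    Algebra.discr S' (Algebra.TensorProduct.basis S' b) =
      algebraMap S S' (Algebra.discr S b) := by
  refine (Purity.map_discr_eq_discr (algebraMap S S')
    (Algebra.TensorProduct.includeRight : A →ₐ[S] TensorProduct S S' A).toRingHom ?_ b
    (Algebra.TensorProduct.basis S' b) (fun i => by simp)).symm
  intro r
  change (1 : S') ⊗ₜ[S] (algebraMap S A r) = algebraMap S' (TensorProduct S S' A) (algebraMap S S' r)
  rw [Algebra.TensorProduct.algebraMap_apply, Algebra.algebraMap_eq_smul_one r,
    TensorProduct.tmul_smul, TensorProduct.smul_tmul', Algebra.algebraMap_eq_smul_one,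
    Algebra.algebraMap_eq_smul_one]
  simp

/-- Unit discriminant is stable under base change. -/
theorem isUnit_discr_tensorBasis (b : Basis ι S A) (hb : IsUnit (Algebra.discr S b))
    (S' : Type*) [CommRing S'] [Algebra S S'] :
    IsUnit (Algebra.discr S' (Algebra.TensorProduct.basis S' b)) := by
  rw [discr_tensorBasis]
  exact hb.map _

end BaseChange

end Fermat.Agent.Good.ET
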