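import Fermat.Agent.Good.GenFinalB
import Fermat.Agent.Good.ChartBridgeResH12

/-!
# L-GEN: the final output — `GenDeliverable N A` and the genus equality, UNCONDITIONAL

`A` a valuation subring of `ℚ̄` lying over a prime `ℓ ∤ N`, `k` its residue field.

* `genDeliverable_final N hℓN A hA : Red.GenDeliverable N A`  (hence S18 via `Red.s18_of_gen`);
* `genusFF_modL_eq_bar_final N hℓN A hA : genusFF k F̃_N = genusFF ℚ̄ F̄_N`  (hence S37 via
  `ES.specializationExists_of_genusEqAll`).

Inputs: (B1), (B2) `BridgeResH12` (helper12), (B3) `BridgePoles` (helper12), (B5) `BridgeInt`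
(helper19, helper24, helper27), normality of the special fibres of the finite chart
(`isIntegrallyClosed_tensor_fin_all`: Legendre cover helper19, Hesse cover helper16/helper12),
of the cusp chart (`CuspInstH7`, helper7/helper8/helper21/helper4) and the glue (helper7), on top
of GOODQUOT (helper23, helper6) and the genus ending (helper6, helper14).
-/

set_option autoImplicit false
set_option linter.style.haveILetI false
set_option linter.unusedSectionVars false

noncomputable section
namespace Fermat.Agent.Good

open AlgebraicCurve ModularCurve ModularCurve.IgusaScheme IsLocalRing Fermat.Agent.X0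
  Fermat.Agent.Red

set_option synthInstance.maxHeartbeats 400000

variable (N : ℕ) [NeZero N] {ℓ : ℕ} [hℓ : Fact ℓ.Prime] (hℓN : ¬ ℓ ∣ N)
variable (A : ValuationSubring (AlgebraicClosure ℚ)) (hA : A.LiesOverPrime ℓ)

include hℓN hA in
/-- **(I6), unconditional.** -/
theorem genDeliverable_final : GenDeliverable N A :=
  letI : CharP (ResidueField A) ℓ := Val.charP_residueField_of_liesOverPrime A hA
  genDeliverable_of_B1B2 N hℓN A hA
    (BridgeResH12.fullToBar_mem_O_fin N hℓN A hA)
    (BridgeResH12.fullToBar_mem_O_inf N hℓN A hA)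
    (@BridgeResH12.resF_fullToBar_fin N _ ℓ _ hℓN A hA (ZMod.algebra (ResidueField A) ℓ))
    (@BridgeResH12.resF_fullToBar_inf N _ ℓ _ hℓN A hA (ZMod.algebra (ResidueField A) ℓ))

include hℓN hA in
/-- **The genus equality `g(F̃_N) = g(F̄_N)`, unconditional** (good reduction of `X₀(N)` at
`ℓ ∤ N`, Igusa). -/
theorem genusFF_modL_eq_bar_final :
    genusFF (ResidueField A) (modularFunctionFieldFullC (ResidueField A) N) =
      genusFF (AlgebraicClosure ℚ) (modularFunctionFieldBar N) :=
  letI : CharP (ResidueField A) ℓ := Val.charP_residueField_of_liesOverPrime A hA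
  genusFF_modL_eq_bar_of_B1B2 N hℓN A hA
    (BridgeResH12.fullToBar_mem_O_fin N hℓN A hA)
    (BridgeResH12.fullToBar_mem_O_inf N hℓN A hA)
    (@BridgeResH12.resF_fullToBar_fin N _ ℓ _ hℓN A hA (ZMod.algebra (ResidueField A) ℓ))
    (@BridgeResH12.resF_fullToBar_inf N _ ℓ _ hℓN A hA (ZMod.algebra (ResidueField A) ℓ))

end Fermat.Agent.Good
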