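import Fermat.Agent.Good.GenFinalHyp
import Fermat.Agent.Good.ChartBridgeIntInf
import Fermat.Agent.Good.NormalInf
import Fermat.Agent.Good.CuspQuotInstH7

/-!
# L-GEN: the final plug, hypothesis form on the bridge (B1), (B2) ONLY

Both normality statements are plugged in: finite chart `isIntegrallyClosed_tensor_fin_all`
(Legendre / Hesse covers), chart at infinity `NormalInf.isIntegrallyClosed_tensor_inf_of` with the
cusp chart `CuspInstH7.isIntegrallyClosed_tensor_infC` (Kummer cover), and the span statements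
`BridgeInt.mem_span_rhoT_of_isIntegral`, `BridgeInt.mem_span_rhoTInf_of_isIntegral`.
-/

set_option autoImplicit false
set_option linter.style.haveILetI false
set_option linter.unusedSectionVars false

noncomputable section
namespace Fermat.Agent.Good

open AlgebraicCurve ModularCurve ModularCurve.IgusaScheme IsLocalRing Fermat.Agent.X0
  Fermat.Agent.Red GenusCharts Fermat.Agent.Good.RamDesc Fermat.Agent.Good.S28X

set_option synthInstance.maxHeartbeats 400000

variable (N : ℕ) [NeZero N] {ℓ : ℕ} [hℓ : Fact ℓ.Prime] (hℓN : ¬ ℓ ∣ N)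
variable (A : ValuationSubring (AlgebraicClosure ℚ)) (hA : A.LiesOverPrime ℓ)

include hA in
/-- **(B5) at infinity, Igusa side, unconditional**: normality of the chart at infinity on the
special fibre over `k = ResidueField A`. -/
theorem mem_span_rhoTInf_residueField :
    letI : CharP (ResidueField A) ℓ := Val.charP_residueField_of_liesOverPrime A hA
    ∀ ft : modularFunctionFieldFullC (ResidueField A) N,
      IsIntegral (Algebra.adjoin (ResidueField A) {(jT N (ResidueField A))⁻¹}) ft →
      ft ∈ Submodule.span (ResidueField A)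
        (Set.range (@rhoTInf N _ ℓ _ (ResidueField A) _
          (ZMod.algebra (ResidueField A) ℓ) hℓN)) := by
  intro ft hft
  haveI : CharP (ResidueField A) ℓ := Val.charP_residueField_of_liesOverPrime A hA
  haveI : IsAlgClosed (ResidueField A) := Val.residueField_isAlgClosed A
  letI : Algebra ↥(GaloisRep.ratLocalizedAt ℓ) (ResidueField A) := ResAlg.zlAlgebra A hA
  have hfin := isIntegrallyClosed_tensor_fin_all N ℓ hℓN (ResidueField A)
  have hcusp := CuspInstH7.isIntegrallyClosed_tensor_infC N ℓ hℓN (ResidueField A)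
  have hinf := NormalInf.isIntegrallyClosed_tensor_inf_of N ℓ hℓN (ResidueField A) hfin hcusp
  exact BridgeInt.mem_span_rhoTInf_of_isIntegral N ℓ (ResidueField A) hℓN hinf ft hft

/-- **(I6) from (B1), (B2)**: both normality statements plugged in. -/
theorem genDeliverable_of_B1B2
    (hB1f : ∀ b ∈ chartAlgFin N ℓ, fullToBar N b ∈ (Val.constRedBar N hℓN A hA).O)
    (hB1i : ∀ b ∈ chartAlgInf N ℓ, fullToBar N b ∈ (Val.constRedBar N hℓN A hA).O)
    (hB2f : letI : CharP (ResidueField A) ℓ := Val.charP_residueField_of_liesOverPrime A hA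
      ∀ b (hb : b ∈ chartAlgFin N ℓ),
        (Val.constRedBar N hℓN A hA).resF (fullToBar N b) =
          @rhoT N _ ℓ _ (ResidueField A) _ (ZMod.algebra (ResidueField A) ℓ) hℓN ⟨b, hb⟩)
    (hB2i : letI : CharP (ResidueField A) ℓ := Val.charP_residueField_of_liesOverPrime A hA
      ∀ b (hb : b ∈ chartAlgInf N ℓ),
        (Val.constRedBar N hℓN A hA).resF (fullToBar N b) =
          @rhoTInf N _ ℓ _ (ResidueField A) _ (ZMod.algebra (ResidueField A) ℓ) hℓN ⟨b, hb⟩) :
    GenDeliverable N A :=
  genDeliverable_of_bridgeB2 N hℓN A hA hB1f hB1i hB2f hB2i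
    (mem_span_rhoTInf_residueField N hℓN A hA)

/-- **The genus equality from (B1), (B2)**: both normality statements plugged in. -/
theorem genusFF_modL_eq_bar_of_B1B2
    (hB1f : ∀ b ∈ chartAlgFin N ℓ, fullToBar N b ∈ (Val.constRedBar N hℓN A hA).O)
    (hB1i : ∀ b ∈ chartAlgInf N ℓ, fullToBar N b ∈ (Val.constRedBar N hℓN A hA).O)
    (hB2f : letI : CharP (ResidueField A) ℓ := Val.charP_residueField_of_liesOverPrime A hA
      ∀ b (hb : b ∈ chartAlgFin N ℓ),
        (Val.constRedBar N hℓN A hA).resF (fullToBar N b) =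
          @rhoT N _ ℓ _ (ResidueField A) _ (ZMod.algebra (ResidueField A) ℓ) hℓN ⟨b, hb⟩)
    (hB2i : letI : CharP (ResidueField A) ℓ := Val.charP_residueField_of_liesOverPrime A hA
      ∀ b (hb : b ∈ chartAlgInf N ℓ),
        (Val.constRedBar N hℓN A hA).resF (fullToBar N b) =
          @rhoTInf N _ ℓ _ (ResidueField A) _ (ZMod.algebra (ResidueField A) ℓ) hℓN ⟨b, hb⟩) :
    genusFF (ResidueField A) (modularFunctionFieldFullC (ResidueField A) N) =
      genusFF (AlgebraicClosure ℚ) (modularFunctionFieldBar N) :=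
  genusFF_modL_eq_bar_of_bridgeB2 N hℓN A hA hB1f hB1i hB2f hB2i
    (mem_span_rhoTInf_residueField N hℓN A hA)

end Fermat.Agent.Good
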