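import Fermat.Agent.Good.GenFinalB
import Fermat.Agent.Good.ChartBridgeResH12

/-!
# L-GEN: the final plug, UNCONDITIONAL

`Good/GenFinalB.lean` (everything modulo the bridge (B1), (B2)) + `Good/ChartBridgeResH12.lean`
((B1), (B2)).

* `GenFinalH12.genDeliverable N hℓN A hA : GenDeliverable N A`
* `GenFinalH12.genusFF_modL_eq_bar N hℓN A hA` : the genus of `F̃_N` over the residue field of `A`
  equals the genus of `F̄_N` over `ℚ̄`.
-/

set_option autoImplicit false
set_option linter.style.haveILetI false
set_option linter.unusedSectionVars false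

noncomputable section
namespace Fermat.Agent.Good.GenFinalH12

open AlgebraicCurve ModularCurve ModularCurve.IgusaScheme IsLocalRing Fermat.Agent.X0
  Fermat.Agent.Red Fermat.Agent.Good.RamDesc Fermat.Agent.Good.S28X

set_option synthInstance.maxHeartbeats 400000

variable (N : ℕ) [NeZero N] {ℓ : ℕ} [hℓ : Fact ℓ.Prime] (hℓN : ¬ ℓ ∣ N)
variable (A : ValuationSubring (AlgebraicClosure ℚ)) (hA : A.LiesOverPrime ℓ)

include hℓN hA in
/-- **(I6)**: the deliverable of L-GEN, unconditional. -/
theorem genDeliverable : GenDeliverable N A :=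
  genDeliverable_of_B1B2 N hℓN A hA
    (BridgeResH12.fullToBar_mem_O_fin N hℓN A hA)
    (BridgeResH12.fullToBar_mem_O_inf N hℓN A hA)
    (by
      letI : CharP (ResidueField A) ℓ := Val.charP_residueField_of_liesOverPrime A hA
      exact @BridgeResH12.resF_fullToBar_fin N _ ℓ _ hℓN A hA (ZMod.algebra (ResidueField A) ℓ))
    (by
      letI : CharP (ResidueField A) ℓ := Val.charP_residueField_of_liesOverPrime A hA
      exact @BridgeResH12.resF_fullToBar_inf N _ ℓ _ hℓN A hA (ZMod.algebra (ResidueField A) ℓ))

include hℓN hA in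
/-- **The genus equality**, unconditional: `g(F̃_N / k) = g(F̄_N / ℚ̄)` for `k` the residue field
of a valuation ring of `ℚ̄` over a prime `ℓ ∤ N`. -/
theorem genusFF_modL_eq_bar :
    genusFF (ResidueField A) (modularFunctionFieldFullC (ResidueField A) N) =
      genusFF (AlgebraicClosure ℚ) (modularFunctionFieldBar N) :=
  genusFF_modL_eq_bar_of_B1B2 N hℓN A hA
    (BridgeResH12.fullToBar_mem_O_fin N hℓN A hA)
    (BridgeResH12.fullToBar_mem_O_inf N hℓN A hA)
    (by
      letI : CharP (ResidueField A) ℓ := Val.charP_residueField_of_liesOverPrime A hA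
      exact @BridgeResH12.resF_fullToBar_fin N _ ℓ _ hℓN A hA (ZMod.algebra (ResidueField A) ℓ))
    (by
      letI : CharP (ResidueField A) ℓ := Val.charP_residueField_of_liesOverPrime A hA
      exact @BridgeResH12.resF_fullToBar_inf N _ ℓ _ hℓN A hA (ZMod.algebra (ResidueField A) ℓ))

end Fermat.Agent.Good.GenFinalH12
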