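import Fermat.Agent.Good.GenFinalB
import Fermat.Agent.Good.ChartBridgeResH12

/-!
# L-GEN: the final plug, UNCONDITIONAL

`GenFinalB` (both chart normalities plugged in) + the bridge (B1), (B2) of
`Good/ChartBridgeResH12.lean`:

* `GenFinalH7.genDeliverable_all : Red.GenDeliverable N A`  (the (I6) input of `Red.s18_of_gen`);
* `GenFinalH7.genusFF_modL_eq_bar_all : genusFF k F̃_N = genusFF ℚ̄ F̄_N`  (`ES.GenusEqAll`).
-/

set_option autoImplicit false
set_option linter.style.haveILetI false
set_option linter.unusedSectionVars false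

noncomputable section
namespace Fermat.Agent.Good.GenFinalH7

open AlgebraicCurve ModularCurve ModularCurve.IgusaScheme IsLocalRing Fermat.Agent.X0
  Fermat.Agent.Red GenusCharts Fermat.Agent.Good.RamDesc Fermat.Agent.Good.S28X

set_option synthInstance.maxHeartbeats 400000

variable (N : ℕ) [NeZero N] {ℓ : ℕ} [hℓ : Fact ℓ.Prime] (hℓN : ¬ ℓ ∣ N)
variable (A : ValuationSubring (AlgebraicClosure ℚ)) (hA : A.LiesOverPrime ℓ)

include hℓN hA in
/-- **(I6) UNCONDITIONAL**: the deliverable of L-GEN. -/
theorem genDeliverable_all : GenDeliverable N A := by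
  haveI : CharP (ResidueField A) ℓ := Val.charP_residueField_of_liesOverPrime A hA
  exact genDeliverable_of_B1B2 N hℓN A hA (BridgeResH12.fullToBar_mem_O_fin N hℓN A hA)
    (BridgeResH12.fullToBar_mem_O_inf N hℓN A hA)
    (@BridgeResH12.resF_fullToBar_fin N _ ℓ _ hℓN A hA (ZMod.algebra (ResidueField A) ℓ))
    (@BridgeResH12.resF_fullToBar_inf N _ ℓ _ hℓN A hA (ZMod.algebra (ResidueField A) ℓ))

include hℓN hA in
/-- **The genus equality, UNCONDITIONAL**. -/
theorem genusFF_modL_eq_bar_all :
    genusFF (ResidueField A) (modularFunctionFieldFullC (ResidueField A) N) =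
      genusFF (AlgebraicClosure ℚ) (modularFunctionFieldBar N) := by
  haveI : CharP (ResidueField A) ℓ := Val.charP_residueField_of_liesOverPrime A hA
  exact genusFF_modL_eq_bar_of_B1B2 N hℓN A hA (BridgeResH12.fullToBar_mem_O_fin N hℓN A hA)
    (BridgeResH12.fullToBar_mem_O_inf N hℓN A hA)
    (@BridgeResH12.resF_fullToBar_fin N _ ℓ _ hℓN A hA (ZMod.algebra (ResidueField A) ℓ))
    (@BridgeResH12.resF_fullToBar_inf N _ ℓ _ hℓN A hA (ZMod.algebra (ResidueField A) ℓ))

end Fermat.Agent.Good.GenFinalH7
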