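import Fermat.Agent.Good.ChartTop
import Fermat.Agent.Good.ChartBridgeIntFin
import Fermat.Agent.Good.IgusaTensorInf
import Fermat.Agent.Good.InstFinAll
import Fermat.Agent.Good.ResidueAlgebra

/-!
# L-GEN: the final plug, hypothesis form on the bridge (B1), (B2) and the chart at infinity

`k := ResidueField A`, `C := Val.constRedBar N hℓN A hA`, `e := RamDesc.fullToBar N`,
`[CharP k ℓ] := Val.charP_residueField_of_liesOverPrime`, `[Algebra ℤ_(ℓ) k] := ResAlg.zlAlgebra`,
`[Algebra (ZMod ℓ) k] := ZMod.algebra k ℓ`.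

`genDeliverable_of_bridge` / `genusFF_modL_eq_bar_of_bridge` : from
* (B1) `e b ∈ C.O` for `b` in the two chart algebras,
* (B2) `C.resF (e b) = rhoT b` resp. `rhoTInf b`,
* (B5∞) `ft` integral over `k[1/j̃]` ⇒ `ft ∈ span k (range rhoTInf)` (normality of the chart at
  infinity, hypothesis form).
The finite chart is unconditional: `isIntegrallyClosed_tensor_fin_all` +
`S28X.mem_span_rhoT_of_isIntegral`.
-/

set_option autoImplicit false
set_option linter.style.haveILetI false
set_option linter.unusedSectionVars false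

noncomputable section
namespace Fermat.Agent.Good

open AlgebraicCurve ModularCurve ModularCurve.IgusaScheme IsLocalRing Fermat.Agent.X0
  Fermat.Agent.Red GenusCharts Fermat.Agent.Good.RamDesc Fermat.Agent.Good.S28X

set_option synthInstance.maxHeartbeats 400000

variable (N : ℕ) [NeZero N] {ℓ : ℕ} [hℓ : Fact ℓ.Prime] (hℓN : ¬ ℓ ∣ N)
variable (A : ValuationSubring (AlgebraicClosure ℚ)) (hA : A.LiesOverPrime ℓ)

/-- **(B5), finite chart, final form**: unconditional in the normality, hypothesis form on (B2). -/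
theorem hintf_of_B2
    (hB2f : letI : CharP (ResidueField A) ℓ := Val.charP_residueField_of_liesOverPrime A hA
      ∀ b (hb : b ∈ chartAlgFin N ℓ),
        (Val.constRedBar N hℓN A hA).resF (fullToBar N b) =
          @rhoT N _ ℓ _ (ResidueField A) _ (ZMod.algebra (ResidueField A) ℓ) hℓN ⟨b, hb⟩) :
    ∀ ft : modularFunctionFieldFullC (ResidueField A) N,
      IsIntegral (Algebra.adjoin (ResidueField A) {Val.jFullC (ResidueField A) N}) ft →
      ft ∈ Submodule.span (ResidueField A)
        ((Val.constRedBar N hℓN A hA).resF '' chartBarFin N ℓ) := by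
  intro ft hft
  haveI : CharP (ResidueField A) ℓ := Val.charP_residueField_of_liesOverPrime A hA
  haveI : IsAlgClosed (ResidueField A) := Val.residueField_isAlgClosed A
  letI : Algebra ↥(GaloisRep.ratLocalizedAt ℓ) (ResidueField A) := ResAlg.zlAlgebra A hA
  have hnorm := isIntegrallyClosed_tensor_fin_all N ℓ hℓN (ResidueField A)
  have h1 := BridgeInt.mem_span_rhoT_of_isIntegral N ℓ (ResidueField A) hℓN hnorm ft hft
  refine Submodule.span_mono ?_ h1
  rintro _ ⟨⟨b, hb⟩, rfl⟩
  exact ⟨fullToBar N b, ⟨b, hb, rfl⟩, hB2f b hb⟩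

/-- **(B5), chart at infinity, final form**: hypothesis form on (B2) and on the span statement. -/
theorem hinti_of_B2
    (hB2i : letI : CharP (ResidueField A) ℓ := Val.charP_residueField_of_liesOverPrime A hA
      ∀ b (hb : b ∈ chartAlgInf N ℓ),
        (Val.constRedBar N hℓN A hA).resF (fullToBar N b) =
          @rhoTInf N _ ℓ _ (ResidueField A) _ (ZMod.algebra (ResidueField A) ℓ) hℓN ⟨b, hb⟩)
    (hspan : letI : CharP (ResidueField A) ℓ := Val.charP_residueField_of_liesOverPrime A hA
      ∀ ft : modularFunctionFieldFullC (ResidueField A) N,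
        IsIntegral (Algebra.adjoin (ResidueField A) {(jT N (ResidueField A))⁻¹}) ft →
        ft ∈ Submodule.span (ResidueField A)
          (Set.range (@rhoTInf N _ ℓ _ (ResidueField A) _
            (ZMod.algebra (ResidueField A) ℓ) hℓN))) :
    ∀ ft : modularFunctionFieldFullC (ResidueField A) N,
      IsIntegral (Algebra.adjoin (ResidueField A) {(Val.jFullC (ResidueField A) N)⁻¹}) ft →
      ft ∈ Submodule.span (ResidueField A)
        ((Val.constRedBar N hℓN A hA).resF '' chartBarInf N ℓ) := by
  intro ft hft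
  haveI : CharP (ResidueField A) ℓ := Val.charP_residueField_of_liesOverPrime A hA
  have h1 := hspan ft hft
  refine Submodule.span_mono ?_ h1
  rintro _ ⟨⟨b, hb⟩, rfl⟩
  exact ⟨fullToBar N b, ⟨b, hb, rfl⟩, hB2i b hb⟩

/-- **(I6) from the bridge** (finite chart unconditional). -/
theorem genDeliverable_of_bridgeB2
    (hB1f : ∀ b ∈ chartAlgFin N ℓ, fullToBar N b ∈ (Val.constRedBar N hℓN A hA).O)
    (hB1i : ∀ b ∈ chartAlgInf N ℓ, fullToBar N b ∈ (Val.constRedBar N hℓN A hA).O)
    (hB2f : letI : CharP (ResidueField A) ℓ := Val.charP_residueField_of_liesOverPrime A hA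
      ∀ b (hb : b ∈ chartAlgFin N ℓ),
        (Val.constRedBar N hℓN A hA).resF (fullToBar N b) =
          @rhoT N _ ℓ _ (ResidueField A) _ (ZMod.algebra (ResidueField A) ℓ) hℓN ⟨b, hb⟩)
    (hB2i : letI : CharP (ResidueField A) ℓ := Val.charP_residueField_of_liesOverPrime A hA
      ∀ b (hb : b ∈ chartAlgInf N ℓ),
        (Val.constRedBar N hℓN A hA).resF (fullToBar N b) =
          @rhoTInf N _ ℓ _ (ResidueField A) _ (ZMod.algebra (ResidueField A) ℓ) hℓN ⟨b, hb⟩)
    (hspan : letI : CharP (ResidueField A) ℓ := Val.charP_residueField_of_liesOverPrime A hA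
      ∀ ft : modularFunctionFieldFullC (ResidueField A) N,
        IsIntegral (Algebra.adjoin (ResidueField A) {(jT N (ResidueField A))⁻¹}) ft →
        ft ∈ Submodule.span (ResidueField A)
          (Set.range (@rhoTInf N _ ℓ _ (ResidueField A) _
            (ZMod.algebra (ResidueField A) ℓ) hℓN))) :
    GenDeliverable N A :=
  genDeliverable_of_chartBar N hℓN A hA hB1f hB1i (hintf_of_B2 N hℓN A hA hB2f)
    (hinti_of_B2 N hℓN A hA hB2i hspan)

/-- **The genus equality from the bridge** (finite chart unconditional). -/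
theorem genusFF_modL_eq_bar_of_bridgeB2
    (hB1f : ∀ b ∈ chartAlgFin N ℓ, fullToBar N b ∈ (Val.constRedBar N hℓN A hA).O)
    (hB1i : ∀ b ∈ chartAlgInf N ℓ, fullToBar N b ∈ (Val.constRedBar N hℓN A hA).O)
    (hB2f : letI : CharP (ResidueField A) ℓ := Val.charP_residueField_of_liesOverPrime A hA
      ∀ b (hb : b ∈ chartAlgFin N ℓ),
        (Val.constRedBar N hℓN A hA).resF (fullToBar N b) =
          @rhoT N _ ℓ _ (ResidueField A) _ (ZMod.algebra (ResidueField A) ℓ) hℓN ⟨b, hb⟩)
    (hB2i : letI : CharP (ResidueField A) ℓ := Val.charP_residueField_of_liesOverPrime A hA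
      ∀ b (hb : b ∈ chartAlgInf N ℓ),
        (Val.constRedBar N hℓN A hA).resF (fullToBar N b) =
          @rhoTInf N _ ℓ _ (ResidueField A) _ (ZMod.algebra (ResidueField A) ℓ) hℓN ⟨b, hb⟩)
    (hspan : letI : CharP (ResidueField A) ℓ := Val.charP_residueField_of_liesOverPrime A hA
      ∀ ft : modularFunctionFieldFullC (ResidueField A) N,
        IsIntegral (Algebra.adjoin (ResidueField A) {(jT N (ResidueField A))⁻¹}) ft →
        ft ∈ Submodule.span (ResidueField A)
          (Set.range (@rhoTInf N _ ℓ _ (ResidueField A) _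
            (ZMod.algebra (ResidueField A) ℓ) hℓN))) :
    genusFF (ResidueField A) (modularFunctionFieldFullC (ResidueField A) N) =
      genusFF (AlgebraicClosure ℚ) (modularFunctionFieldBar N) :=
  genusFF_modL_eq_bar_of_chartBar N hℓN A hA hB1f hB1i (hintf_of_B2 N hℓN A hA hB2f)
    (hinti_of_B2 N hℓN A hA hB2i hspan)

end Fermat.Agent.Good
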