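import Fermat.Agent.Good.PoleDegree
import Fermat.Agent.Val.Deliverable
import Fermat.Agent.Val.OrthoResidueDegree
import Fermat.Agent.Val.RiemannPkgBar
import Fermat.Agent.Val.RiemannPkgModL

/-!
# L-GEN: the concrete data of the ending for `F̄_N` and `F̃_N`

`A` a valuation subring of `ℚ̄` over `ℓ ∤ N`, `k` its residue field, `C := Val.constRedBar`.

* `jBar_mem_O`, `res_jBar` : `j ∈ O` and `res j = j̃` (`Val.jFullC k N`);
* `degree_poleDiv_jBar`, `degree_poleDiv_jFullC` : the pole divisors of `j` and `j̃` both have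
  degree `ψ(N)`.
-/

set_option autoImplicit false
set_option linter.style.haveILetI false

noncomputable section
namespace Fermat.Agent.Good

open AlgebraicCurve ModularCurve IsLocalRing Fermat.Agent.X0 Fermat.Agent.Red GenusCharts

set_option synthInstance.maxHeartbeats 400000

variable (N : ℕ) [NeZero N] {ℓ : ℕ} [hℓ : Fact ℓ.Prime] (hℓN : ¬ ℓ ∣ N)
variable (A : ValuationSubring (AlgebraicClosure ℚ)) (hA : A.LiesOverPrime ℓ)

/-- `xF` of the orthonormal data is `jBar N`. -/
theorem orthoDataQbar_xF : (Val.orthoDataQbar A N hA hℓN).xF = jBar N := by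
  have h := Val.xF_eq_jBar A N
  rw [← h]
  apply Subtype.ext
  show Val.aIota A (Val.orthoDataQbar A N hA hℓN).x = _
  rw [Val.orthoDataQbar_x]

/-- `xt` of the orthonormal data is `j̃`. -/
theorem orthoDataQbar_xt :
    (Val.orthoDataQbar A N hA hℓN).xt = Val.jFullC (ResidueField A) N := by
  apply Subtype.ext
  show Val.aRed (residue A) (Val.orthoDataQbar A N hA hℓN).x = _
  rw [Val.orthoDataQbar_x]
  exact coeffMap_jqModC (residue A)

/-- `j` is integral for the Gauss valuation. -/
theorem jBar_mem_O : jBar N ∈ (Val.constRedBar N hℓN A hA).O := by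
  rw [← orthoDataQbar_xF N hℓN A hA]
  exact ((Val.orthoDataQbar A N hA hℓN).resSeries_aIota _ _).1

/-- The residue of `j` is `j̃`. -/
theorem res_jBar :
    (Val.constRedBar N hℓN A hA).res ⟨jBar N, jBar_mem_O N hℓN A hA⟩ =
      Val.jFullC (ResidueField A) N := by
  rw [← orthoDataQbar_xt N hℓN A hA]
  apply Subtype.ext
  have h := ((Val.orthoDataQbar A N hA hℓN).resSeries_aIota
    (Val.orthoDataQbar A N hA hℓN).x (Val.orthoDataQbar A N hA hℓN).hx).2
  have hcoe : (((Val.constRedBar N hℓN A hA).res ⟨jBar N, jBar_mem_O N hℓN A hA⟩ :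
      modularFunctionFieldFullC (ResidueField A) N) : LaurentSeries (ResidueField A)) =
      (Val.orthoDataQbar A N hA hℓN).resSeries ⟨jBar N, jBar_mem_O N hℓN A hA⟩ := rfl
  rw [hcoe]
  refine Eq.trans ?_ h
  congr 1
  apply Subtype.ext
  exact (orthoDataQbar_xF N hℓN A hA).symm

/-- The pole divisor of `j` on the generic fibre has degree `ψ(N)`. -/
theorem degree_poleDiv_jBar :
    haveI := Val.hasPrincipalDivisors_bar N
    Divisor.degree (poleDiv (AlgebraicClosure ℚ) (jBar N)) = dedekindPsi N := by
  haveI := Val.hasPrincipalDivisors_bar N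
  exact degree_poleDiv_of_isSepVarS (Val.jBar_isSepVarS N)

include hℓN hA in
/-- `[F̃ : k(j̃)] = ψ(N)`. -/
theorem finrank_jFullC :
    Module.finrank (IntermediateField.adjoin (ResidueField A) {Val.jFullC (ResidueField A) N})
      (modularFunctionFieldFullC (ResidueField A) N) = dedekindPsi N := by
  have h := (Val.orthoDataQbar A N hA hℓN).finrank_t_eq (Val.residue_hπ A)
    (Val.residue_surjective' A)
  rw [orthoDataQbar_xt N hℓN A hA] at h
  exact h

include hℓN hA in
/-- The pole divisor of `j̃` on the special fibre has degree `ψ(N)`. -/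
theorem degree_poleDiv_jFullC
    [HasPrincipalDivisors (ResidueField A) (modularFunctionFieldFullC (ResidueField A) N)] :
    Divisor.degree (poleDiv (ResidueField A) (Val.jFullC (ResidueField A) N)) =
      dedekindPsi N := by
  haveI : CharP (ResidueField A) ℓ := Val.charP_residueField_of_liesOverPrime A hA
  haveI : IsAlgClosed (ResidueField A) := Val.residueField_isAlgClosed A
  have h := degree_poleDiv_of_isSepVarS
    (Val.isSepVarS_jFullC N (ResidueField A) hℓ.out hℓN)
  rw [h, finrank_jFullC N hℓN A hA]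

end Fermat.Agent.Good
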