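import Fermat.Agent.Good.GenusChartsRR

/-!
# L-GEN [G-6]: "regular outside the poles of `xt`" implies "integral over `kb[xt]`"

`Ft/kb` a function field with `Red.RiemannPkg kb Ft`, `xt ∈ Ft` with at least one pole.

* `regSubalgebra kb xt` : the `kb`-subalgebra of functions all of whose poles are poles of `xt`
  (`= ⋂ {O_P | xt ∈ O_P}`); `mem_regSubalgebra_iff : y ∈ regSubalgebra kb xt ↔ PolesAtPoles kb xt y`.
* `exists_mem_of_polesAtPoles` : such a `y` lies in `L(s · (xt)_∞)` for some `s`.
* `isIntegral_of_polesAtPoles` : such a `y` is integral over `Algebra.adjoin kb {xt}`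
  (the module of regular functions is finitely generated over `kb[xt]` by `exists_pow_decomp`).
* `isIntegral_of_polesAtZeros` : all poles at the zeros of `xt` ⇒ integral over `kb[xt⁻¹]`.
-/

set_option autoImplicit false
set_option linter.style.haveILetI false
set_option linter.unusedSectionVars false

open AlgebraicCurve Module

namespace Fermat.Agent.Good.GenusCharts

open Fermat.Agent.Red Fermat.Agent.X0

variable {kb Ft : Type*} [Field kb] [Field Ft] [Algebra kb Ft]

theorem polesAtPoles_iff {xt y : Ft} :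
    PolesAtPoles kb xt y ↔
      ∀ P : Place kb Ft, xt ∈ P.toValuationSubring → y ∈ P.toValuationSubring := by
  refine forall_congr' fun P => ?_
  rw [Place.mem_iff_ord_nonneg, Place.mem_iff_ord_nonneg]
  constructor
  · intro h hx
    by_contra hcon
    have := h (by omega)
    omega
  · intro h hy
    by_contra hcon
    have := h (by omega)
    omega

/-- The subalgebra of functions regular outside the poles of `xt`. -/
def regSubalgebra (kb : Type*) {Ft : Type*} [Field kb] [Field Ft] [Algebra kb Ft] (xt : Ft) :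
    Subalgebra kb Ft where
  carrier := {y | ∀ P : Place kb Ft, xt ∈ P.toValuationSubring → y ∈ P.toValuationSubring}
  mul_mem' ha hb P hP := mul_mem (ha P hP) (hb P hP)
  add_mem' ha hb P hP := add_mem (ha P hP) (hb P hP)
  algebraMap_mem' a P _ := P.algebraMap_mem' a

theorem mem_regSubalgebra_iff {xt y : Ft} :
    y ∈ regSubalgebra kb xt ↔ PolesAtPoles kb xt y :=
  polesAtPoles_iff.symm

theorem self_mem_regSubalgebra (xt : Ft) : xt ∈ regSubalgebra kb xt := fun _ h => h

theorem adjoin_le_regSubalgebra (xt : Ft) : Algebra.adjoin kb {xt} ≤ regSubalgebra kb xt :=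
  Algebra.adjoin_le (Set.singleton_subset_iff.mpr (self_mem_regSubalgebra xt))

theorem PolesAtPoles.mul {xt y z : Ft} (hy : PolesAtPoles kb xt y) (hz : PolesAtPoles kb xt z) :
    PolesAtPoles kb xt (y * z) :=
  mem_regSubalgebra_iff.mp (mul_mem (mem_regSubalgebra_iff.mpr hy) (mem_regSubalgebra_iff.mpr hz))

theorem PolesAtPoles.add {xt y z : Ft} (hy : PolesAtPoles kb xt y) (hz : PolesAtPoles kb xt z) :
    PolesAtPoles kb xt (y + z) :=
  mem_regSubalgebra_iff.mp (add_mem (mem_regSubalgebra_iff.mpr hy) (mem_regSubalgebra_iff.mpr hz))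

theorem polesAtPoles_inv_iff {xt y : Ft} : PolesAtPoles kb xt⁻¹ y ↔ PolesAtZeros kb xt y := by
  refine forall_congr' fun P => ?_
  rw [Place.ord_inv]
  constructor
  · intro h hy
    have := h hy
    omega
  · intro h hy
    have := h hy
    omega

section Div

variable [HasPrincipalDivisors kb Ft]

/-- A function all of whose poles are poles of `xt` lies in some `L(s · (xt)_∞)`. -/
theorem exists_mem_of_polesAtPoles {xt y : Ft} (h : PolesAtPoles kb xt y) :
    ∃ s : ℕ, y ∈ riemannRochSpace (s • poleDiv kb xt) := by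
  classical
  by_cases hy0 : y = 0
  · exact ⟨0, hy0 ▸ Submodule.zero_mem _⟩
  refine ⟨∑ Q ∈ (divOf kb y).support, (Q.ord y).natAbs, ?_⟩
  rw [mem_riemannRochSpace_iff_of_ne_zero hy0]
  intro P
  rw [nsmul_poleDiv_apply]
  have hnn : (0 : ℤ) ≤ ((∑ Q ∈ (divOf kb y).support, (Q.ord y).natAbs : ℕ) : ℤ) *
      max 0 (-P.ord xt) := mul_nonneg (by positivity) (le_max_left _ _)
  rcases le_or_gt 0 (P.ord y) with hP | hP
  · linarith
  · have hx := h P hP
    have hPs : P ∈ (divOf kb y).support := by
      rw [Finsupp.mem_support_iff, divOf_apply]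
      omega
    have h1 : (P.ord y).natAbs ≤ ∑ Q ∈ (divOf kb y).support, (Q.ord y).natAbs :=
      Finset.single_le_sum (f := fun Q : Place kb Ft => (Q.ord y).natAbs)
        (fun _ _ => Nat.zero_le _) hPs
    have h2 : (1 : ℤ) ≤ max 0 (-P.ord xt) := le_max_of_le_right (by omega)
    have h3 : ((P.ord y).natAbs : ℤ) = -P.ord y := by omega
    have h4 : ((P.ord y).natAbs : ℤ) ≤
        ((∑ Q ∈ (divOf kb y).support, (Q.ord y).natAbs : ℕ) : ℤ) := by exact_mod_cast h1
    have h5 : ((∑ Q ∈ (divOf kb y).support, (Q.ord y).natAbs : ℕ) : ℤ) * 1 ≤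
        ((∑ Q ∈ (divOf kb y).support, (Q.ord y).natAbs : ℕ) : ℤ) * max 0 (-P.ord xt) :=
      mul_le_mul_of_nonneg_left h2 (by positivity)
    linarith

end Div

/-- **Regular outside the poles of `xt` ⇒ integral over `kb[xt]`.** -/
theorem isIntegral_of_polesAtPoles (hF : RiemannPkg kb Ft) {xt : Ft}
    (hpole : ∃ P : Place kb Ft, P.ord xt < 0) {y : Ft} (hy : PolesAtPoles kb xt y) :
    IsIntegral (Algebra.adjoin kb {xt}) y := by
  classical
  haveI := hF.principal
  obtain ⟨s1, hs1⟩ := exists_pow_decomp hF hpole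
  haveI := hF.finite_L (s1 • poleDiv kb xt)
  -- the module of regular functions over `R = kb[xt]`
  let N : Submodule (Algebra.adjoin kb {xt}) Ft :=
    { carrier := {z | PolesAtPoles kb xt z}
      add_mem' := fun ha hb => PolesAtPoles.add ha hb
      zero_mem' := fun P hP => by rw [Place.ord_zero] at hP; exact absurd hP (lt_irrefl _)
      smul_mem' := fun r z hz => by
        have hr : PolesAtPoles kb xt (r : Ft) :=
          mem_regSubalgebra_iff.mp (adjoin_le_regSubalgebra xt r.2)
        exact PolesAtPoles.mul hr hz }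
  have hN1 : (1 : Ft) ∈ N := fun P hP => by
    rw [Place.ord_one] at hP; exact absurd hP (lt_irrefl _)
  have hNbot : N ≠ ⊥ := by
    intro h
    have h1 : (1 : Ft) ∈ (⊥ : Submodule (Algebra.adjoin kb {xt}) Ft) := h ▸ hN1
    exact one_ne_zero ((Submodule.mem_bot _).mp h1)
  have hxR : xt ∈ Algebra.adjoin kb {xt} := Algebra.subset_adjoin rfl
  -- finite generation
  have hFG : N.FG := by
    obtain ⟨B, hB⟩ := (Module.finite_def.mp (hF.finite_L (s1 • poleDiv kb xt)))
    refine ⟨B.image (riemannRochSpace (s1 • poleDiv kb xt)).subtype, le_antisymm ?_ ?_⟩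
    · rw [Submodule.span_le]
      intro z hz
      rw [Finset.coe_image] at hz
      obtain ⟨b, _, rfl⟩ := hz
      exact polesAtPoles_of_mem b.2
    · intro z hz
      obtain ⟨s, hs⟩ := exists_mem_of_polesAtPoles (show PolesAtPoles kb xt z from hz)
      have hs' : z ∈ riemannRochSpace ((s1 + s) • poleDiv kb xt) :=
        riemannRochSpace_poleDiv_mono xt (Nat.le_add_left s s1) hs
      obtain ⟨c, hc, rfl⟩ := hs1 s z hs'
      refine Submodule.sum_mem _ fun i _ => ?_
      -- `c i` is a `kb`-combination of the generators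
      have hci : c i ∈ Submodule.span (Algebra.adjoin kb {xt})
          ((B.image (riemannRochSpace (s1 • poleDiv kb xt)).subtype : Finset Ft) : Set Ft) := by
        have h1 : (⟨c i, hc i⟩ : riemannRochSpace (s1 • poleDiv kb xt)) ∈
            Submodule.span kb (B : Set (riemannRochSpace (s1 • poleDiv kb xt))) := by
          rw [hB]; exact Submodule.mem_top
        have h2 : c i ∈ Submodule.span kb
            ((B.image (riemannRochSpace (s1 • poleDiv kb xt)).subtype : Finset Ft) : Set Ft) := by
          have := Submodule.mem_map_of_mem (f := (riemannRochSpace (s1 • poleDiv kb xt)).subtype) h1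
          rw [Submodule.map_span] at this
          rw [Finset.coe_image]
          exact this
        exact Submodule.span_le_restrictScalars kb (Algebra.adjoin kb {xt}) _ h2
      have h3 : xt ^ i * c i = (⟨xt ^ i, pow_mem hxR i⟩ : Algebra.adjoin kb {xt}) • c i := rfl
      rw [h3]
      exact Submodule.smul_mem _ _ hci
  exact isIntegral_of_smul_mem_submodule N hNbot hFG y
    (fun n hn => PolesAtPoles.mul hy hn)

/-- **All poles at the zeros of `xt` ⇒ integral over `kb[xt⁻¹]`.** -/
theorem isIntegral_of_polesAtZeros (hF : RiemannPkg kb Ft) {xt : Ft}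
    (hzero : ∃ P : Place kb Ft, 0 < P.ord xt) {y : Ft} (hy : PolesAtZeros kb xt y) :
    IsIntegral (Algebra.adjoin kb {xt⁻¹}) y := by
  apply isIntegral_of_polesAtPoles hF _ (polesAtPoles_inv_iff.mpr hy)
  obtain ⟨P, hP⟩ := hzero
  exact ⟨P, by rw [Place.ord_inv]; omega⟩

/-- A non-constant... more precisely: a function with a pole also has a zero. -/
theorem exists_zero_of_exists_pole (hF : RiemannPkg kb Ft) {xt : Ft}
    (hpole : ∃ P : Place kb Ft, P.ord xt < 0) : ∃ P : Place kb Ft, 0 < P.ord xt := by
  haveI := hF.principal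
  have h1 := degree_poleDiv_pos hF hpole
  rw [← degree_zeroDiv] at h1
  by_contra hcon
  push Not at hcon
  have h0 : zeroDiv kb xt = 0 := by
    ext P
    rw [zeroDiv_apply, Finsupp.zero_apply, max_eq_left (hcon P)]
  rw [h0, map_zero] at h1
  exact lt_irrefl _ h1

end Fermat.Agent.Good.GenusCharts
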