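import Mathlib

/-!
# L-GEN [G-6], linear algebra: linear disjointness and spans

`k0 ⊆ kb` fields, `E` a `kb`-vector space (hence a `k0`-vector space), `V0` a `k0`-subspace of
`E` which is *linearly disjoint from `kb` over `k0`* (`LinDisj`): finite `k0`-linearly independent
families of `V0` are `kb`-linearly independent.  Then for `k0`-subspaces `U, U₁, U₂ ≤ V0`:

* `finrank_span_eq` : `dim_kb (kb · U) = dim_k0 U` (`U` finite dimensional);
* `mem_of_mem_span` : `u ∈ V0`, `u ∈ kb · U` imply `u ∈ U`;
* `span_inf_span_le` : `kb · U₁ ⊓ kb · U₂ ≤ kb · (U₁ ⊓ U₂)`.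
-/

set_option autoImplicit false
set_option linter.style.haveILetI false
set_option linter.unusedSectionVars false

open Module Submodule

namespace Fermat.Agent.Good.GenusCharts

section LA

variable {k0 kb E : Type*} [Field k0] [Field kb] [Algebra k0 kb] [AddCommGroup E] [Module k0 E]
  [Module kb E] [IsScalarTower k0 kb E]

variable (kb) in
/-- The `k0`-subspace `V0` of the `kb`-vector space `E` is linearly disjoint from `kb` over `k0`:
finite `k0`-linearly independent families in `V0` are `kb`-linearly independent. -/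
def LinDisj (V0 : Submodule k0 E) : Prop :=
  ∀ (r : ℕ) (u : Fin r → E), (∀ j, u j ∈ V0) → LinearIndependent k0 u → LinearIndependent kb u

variable {V0 : Submodule k0 E}

/-- A `k0`-basis of a finite-dimensional `U ≤ V0`, as a family in `E`. -/
theorem exists_basis_family (U : Submodule k0 E) [FiniteDimensional k0 U] :
    ∃ u : Fin (finrank k0 U) → E, (∀ j, u j ∈ U) ∧ LinearIndependent k0 u ∧
      span k0 (Set.range u) = U := by
  set b := Module.finBasis k0 U with hb
  refine ⟨fun j => (b j : E), fun j => (b j).2, ?_, ?_⟩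
  · have := b.linearIndependent.map' U.subtype (Submodule.ker_subtype U)
    exact this
  · have h1 : Set.range (fun j => (b j : E)) = U.subtype '' Set.range b := by
      rw [← Set.range_comp]
      rfl
    rw [h1, ← Submodule.map_span, b.span_eq, Submodule.map_top, Submodule.range_subtype]

theorem span_coe_eq_span_range {U : Submodule k0 E} {r : ℕ} {u : Fin r → E}
    (hu : span k0 (Set.range u) = U) : span kb (U : Set E) = span kb (Set.range u) := by
  rw [← hu, Submodule.span_span_of_tower]

theorem finrank_span_eq (hV0 : LinDisj kb V0) (U : Submodule k0 E) (hU : U ≤ V0)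
    [FiniteDimensional k0 U] : finrank kb (span kb (U : Set E)) = finrank k0 U := by
  obtain ⟨u, huU, hli, hspan⟩ := exists_basis_family U
  have hli' : LinearIndependent kb u := hV0 _ u (fun j => hU (huU j)) hli
  rw [span_coe_eq_span_range hspan, finrank_span_eq_card hli', Fintype.card_fin]

/-- **(P1)** descent of membership. -/
theorem mem_of_mem_span (hV0 : LinDisj kb V0) (U : Submodule k0 E) (hU : U ≤ V0) {u : E}
    (hu : u ∈ V0) (h : u ∈ span kb (U : Set E)) : u ∈ U := by
  obtain ⟨T, hTU, hT⟩ := Submodule.mem_span_finite_of_mem_span h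
  set U' : Submodule k0 E := span k0 (T : Set E) with hU'
  have hU'U : U' ≤ U := Submodule.span_le.mpr hTU
  haveI : FiniteDimensional k0 U' := FiniteDimensional.span_finset k0 T
  by_contra hcon
  have hu' : u ∉ U' := fun h' => hcon (hU'U h')
  obtain ⟨e, heU, hli, hspan⟩ := exists_basis_family U'
  have h1 : LinearIndependent k0 (Fin.snoc e u : Fin (finrank k0 U' + 1) → E) := by
    rw [linearIndependent_finSnoc]
    exact ⟨hli, by rw [hspan]; exact hu'⟩
  have h2 : ∀ j, (Fin.snoc e u : Fin (finrank k0 U' + 1) → E) j ∈ V0 := by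
    intro j
    refine Fin.lastCases ?_ (fun i => ?_) j
    · rw [Fin.snoc_last]; exact hu
    · rw [Fin.snoc_castSucc]; exact hU (hU'U (heU i))
  have h3 := hV0 _ _ h2 h1
  rw [linearIndependent_finSnoc] at h3
  apply h3.2
  rw [← span_coe_eq_span_range hspan]
  have h4 : span kb (T : Set E) ≤ span kb (U' : Set E) :=
    Submodule.span_mono Submodule.subset_span
  exact h4 hT

theorem span_sup_eq (U₁ U₂ : Submodule k0 E) :
    span kb ((U₁ ⊔ U₂ : Submodule k0 E) : Set E) =
      span kb (U₁ : Set E) ⊔ span kb (U₂ : Set E) := by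
  apply le_antisymm
  · rw [Submodule.span_le]
    intro z hz
    obtain ⟨a, ha, b, hb, rfl⟩ := Submodule.mem_sup.mp hz
    exact Submodule.add_mem _ (Submodule.mem_sup_left (Submodule.subset_span ha))
      (Submodule.mem_sup_right (Submodule.subset_span hb))
  · exact sup_le (Submodule.span_mono (fun z hz => (le_sup_left : U₁ ≤ U₁ ⊔ U₂) hz))
      (Submodule.span_mono (fun z hz => (le_sup_right : U₂ ≤ U₁ ⊔ U₂) hz))

/-- **(P2)**, finite-dimensional case. -/
theorem span_inf_span_eq_of_finiteDimensional (hV0 : LinDisj kb V0) (U₁ U₂ : Submodule k0 E)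
    (h₁ : U₁ ≤ V0) (h₂ : U₂ ≤ V0) [FiniteDimensional k0 U₁] [FiniteDimensional k0 U₂] :
    span kb (U₁ : Set E) ⊓ span kb (U₂ : Set E) =
      span kb ((U₁ ⊓ U₂ : Submodule k0 E) : Set E) := by
  have hle : span kb ((U₁ ⊓ U₂ : Submodule k0 E) : Set E) ≤
      span kb (U₁ : Set E) ⊓ span kb (U₂ : Set E) :=
    le_inf (Submodule.span_mono (fun z hz => hz.1)) (Submodule.span_mono (fun z hz => hz.2))
  haveI f1 : FiniteDimensional kb (span kb (U₁ : Set E)) := by
    obtain ⟨u, -, -, hspan⟩ := exists_basis_family U₁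
    rw [span_coe_eq_span_range hspan]
    exact FiniteDimensional.span_of_finite kb (Set.finite_range u)
  haveI f2 : FiniteDimensional kb (span kb (U₂ : Set E)) := by
    obtain ⟨u, -, -, hspan⟩ := exists_basis_family U₂
    rw [span_coe_eq_span_range hspan]
    exact FiniteDimensional.span_of_finite kb (Set.finite_range u)
  haveI f3 : FiniteDimensional kb
      ((span kb (U₁ : Set E) ⊓ span kb (U₂ : Set E) : Submodule kb E)) :=
    Submodule.finiteDimensional_of_le inf_le_left
  symm
  apply Submodule.eq_of_le_of_finrank_eq hle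
  have e1 := Submodule.finrank_sup_add_finrank_inf_eq (span kb (U₁ : Set E))
    (span kb (U₂ : Set E))
  have e2 := Submodule.finrank_sup_add_finrank_inf_eq U₁ U₂
  rw [← span_sup_eq, finrank_span_eq hV0 (U₁ ⊔ U₂) (sup_le h₁ h₂), finrank_span_eq hV0 U₁ h₁,
    finrank_span_eq hV0 U₂ h₂] at e1
  rw [finrank_span_eq hV0 (U₁ ⊓ U₂) (inf_le_left.trans h₁)]
  omega

/-- **(P2)** the `kb`-span of an intersection. -/
theorem span_inf_span_le (hV0 : LinDisj kb V0) (U₁ U₂ : Submodule k0 E)
    (h₁ : U₁ ≤ V0) (h₂ : U₂ ≤ V0) :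
    span kb (U₁ : Set E) ⊓ span kb (U₂ : Set E) ≤
      span kb ((U₁ ⊓ U₂ : Submodule k0 E) : Set E) := by
  intro y hy
  obtain ⟨T₁, hT₁U, hT₁⟩ := Submodule.mem_span_finite_of_mem_span hy.1
  obtain ⟨T₂, hT₂U, hT₂⟩ := Submodule.mem_span_finite_of_mem_span hy.2
  set U₁' : Submodule k0 E := span k0 (T₁ : Set E) with hU₁'
  set U₂' : Submodule k0 E := span k0 (T₂ : Set E) with hU₂'
  have hle₁ : U₁' ≤ U₁ := Submodule.span_le.mpr hT₁U
  have hle₂ : U₂' ≤ U₂ := Submodule.span_le.mpr hT₂U
  haveI : FiniteDimensional k0 U₁' := FiniteDimensional.span_finset k0 T₁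
  haveI : FiniteDimensional k0 U₂' := FiniteDimensional.span_finset k0 T₂
  have hy' : y ∈ span kb (U₁' : Set E) ⊓ span kb (U₂' : Set E) :=
    ⟨Submodule.span_mono Submodule.subset_span hT₁, Submodule.span_mono Submodule.subset_span hT₂⟩
  rw [span_inf_span_eq_of_finiteDimensional hV0 U₁' U₂' (hle₁.trans h₁) (hle₂.trans h₂)] at hy'
  have hmono : ((U₁' ⊓ U₂' : Submodule k0 E) : Set E) ⊆ ((U₁ ⊓ U₂ : Submodule k0 E) : Set E) :=
    fun z hz => ⟨hle₁ hz.1, hle₂ hz.2⟩
  exact Submodule.span_mono hmono hy'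

end LA

end Fermat.Agent.Good.GenusCharts
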