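import Fermat.Agent.Red.FFLemmas

/-!
# L-GEN [G-6], function-field part: the Mittag-Leffler decomposition from Riemann's theorem

`Ft/kb` a function field with `Red.RiemannPkg kb Ft`, `xt ∈ Ft` with at least one pole.
`zeroDiv xt`, `poleDiv xt` are the divisors of zeros and of poles of `xt`.

* `riemannRochSpace_eq_sup` : for `s ≥ s0`, `t' ≥ s` and all `t`:
  `L(t D_0 + t' D_∞) = L(t' D_∞) ⊔ L(t D_0 + s D_∞)` (vanishing of `H¹(s D_∞)`, by a dimension
  count from `RiemannPkg.riemann_eq`);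
* `exists_decomp` : every `y` whose poles lie among the zeros and poles of `xt` is `u + v` with
  `u` regular outside the poles of `xt` and `v / xt ^ s` regular outside the zeros of `xt`;
* `polesAtPoles_of_mem`, `polesAtZeros_of_mem` : elements of `L(s D_∞)`;
* `exists_succ_decomp` : `L((s+1) D_∞) = L(s D_∞) + xt L(s D_∞)` for `s ≥ s1`;
* `exists_pow_decomp` : `L((s1+M) D_∞) = ∑_{i ≤ M} xt^i L(s1 D_∞)`.
-/

set_option autoImplicit false
set_option linter.style.haveILetI false
set_option linter.unusedSectionVars false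

open AlgebraicCurve Module

namespace Fermat.Agent.Good.GenusCharts

open Fermat.Agent.Red

variable {kb Ft : Type*} [Field kb] [Field Ft] [Algebra kb Ft]

/-- All poles of `y` are poles of `xt`. -/
def PolesAtPoles (kb : Type*) {Ft : Type*} [Field kb] [Field Ft] [Algebra kb Ft] (xt y : Ft) :
    Prop :=
  ∀ P : Place kb Ft, P.ord y < 0 → P.ord xt < 0

/-- All poles of `y` are zeros of `xt`. -/
def PolesAtZeros (kb : Type*) {Ft : Type*} [Field kb] [Field Ft] [Algebra kb Ft] (xt y : Ft) :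
    Prop :=
  ∀ P : Place kb Ft, P.ord y < 0 → 0 < P.ord xt

section Div

variable [HasPrincipalDivisors kb Ft]

/-- The divisor of zeros of `xt`. -/
noncomputable def zeroDiv (kb : Type*) {Ft : Type*} [Field kb] [Field Ft] [Algebra kb Ft]
    [HasPrincipalDivisors kb Ft] (xt : Ft) : Divisor kb Ft :=
  (divOf kb xt).mapRange (fun n => max 0 n) (by simp)

/-- The divisor of poles of `xt`. -/
noncomputable def poleDiv (kb : Type*) {Ft : Type*} [Field kb] [Field Ft] [Algebra kb Ft]
    [HasPrincipalDivisors kb Ft] (xt : Ft) : Divisor kb Ft :=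
  (divOf kb xt).mapRange (fun n => max 0 (-n)) (by simp)

theorem zeroDiv_apply (xt : Ft) (P : Place kb Ft) : zeroDiv kb xt P = max 0 (P.ord xt) := by
  rw [zeroDiv, Finsupp.mapRange_apply, divOf_apply]

theorem poleDiv_apply (xt : Ft) (P : Place kb Ft) : poleDiv kb xt P = max 0 (-P.ord xt) := by
  rw [poleDiv, Finsupp.mapRange_apply, divOf_apply]

theorem zeroDiv_nonneg (xt : Ft) : 0 ≤ zeroDiv kb xt := fun P => by
  rw [zeroDiv_apply]; exact le_max_left _ _

theorem poleDiv_nonneg (xt : Ft) : 0 ≤ poleDiv kb xt := fun P => by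
  rw [poleDiv_apply]; exact le_max_left _ _

theorem zeroDiv_sub_poleDiv (xt : Ft) : zeroDiv kb xt - poleDiv kb xt = divOf kb xt := by
  ext P
  rw [Finsupp.sub_apply, zeroDiv_apply, poleDiv_apply, divOf_apply]
  rcases le_total 0 (P.ord xt) with h | h
  · rw [max_eq_right h, max_eq_left (by omega)]; ring
  · rw [max_eq_left h, max_eq_right (by omega)]; ring

theorem degree_zeroDiv (xt : Ft) :
    Divisor.degree (zeroDiv kb xt) = Divisor.degree (poleDiv kb xt) := by
  have h := congrArg Divisor.degree (zeroDiv_sub_poleDiv (kb := kb) xt)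
  rw [map_sub, degree_divOf] at h
  linarith

end Div

section Main

theorem mem_riemannRochSpace_iff_of_ne_zero {D : Divisor kb Ft} {f : Ft} (hf : f ≠ 0) :
    f ∈ riemannRochSpace D ↔ ∀ P : Place kb Ft, -D P ≤ P.ord f := by
  rw [mem_riemannRochSpace_iff]
  exact forall_congr' fun P => ⟨fun h => h.resolve_left hf, Or.inr⟩

theorem combo_apply [HasPrincipalDivisors kb Ft] (xt : Ft) (t t' : ℕ) (P : Place kb Ft) :
    (t • zeroDiv kb xt + t' • poleDiv kb xt) P =
      (t : ℤ) * max 0 (P.ord xt) + (t' : ℤ) * max 0 (-P.ord xt) := by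
  rw [Finsupp.add_apply, Finsupp.smul_apply, Finsupp.smul_apply, zeroDiv_apply, poleDiv_apply,
    nsmul_eq_mul, nsmul_eq_mul]

theorem nsmul_poleDiv_apply [HasPrincipalDivisors kb Ft] (xt : Ft) (t' : ℕ) (P : Place kb Ft) :
    (t' • poleDiv kb xt) P = (t' : ℤ) * max 0 (-P.ord xt) := by
  rw [Finsupp.smul_apply, poleDiv_apply, nsmul_eq_mul]

variable (hF : RiemannPkg kb Ft)
include hF

theorem degree_poleDiv_pos {xt : Ft} (hpole : ∃ P : Place kb Ft, P.ord xt < 0) :
    haveI := hF.principal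
    0 < Divisor.degree (poleDiv kb xt) := by
  haveI := hF.principal
  have h0 : 0 ≤ Divisor.degree (poleDiv kb xt) := by
    rw [degree_eq_sum hF, Finsupp.sum]
    exact Finset.sum_nonneg fun P _ => poleDiv_nonneg xt P
  rcases h0.lt_or_eq with h | h
  · exact h
  · exfalso
    have := eq_zero_of_nonneg_of_degree_eq_zero hF (poleDiv_nonneg xt) h.symm
    obtain ⟨P, hP⟩ := hpole
    have h1 := DFunLike.congr_fun this P
    rw [poleDiv_apply, Finsupp.zero_apply] at h1
    have : -P.ord xt ≤ 0 := h1 ▸ le_max_right 0 (-P.ord xt)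
    omega

theorem degree_combo (xt : Ft) (t t' : ℕ) :
    haveI := hF.principal
    Divisor.degree (t • zeroDiv kb xt + t' • poleDiv kb xt) =
      ((t : ℤ) + t') * Divisor.degree (poleDiv kb xt) := by
  haveI := hF.principal
  rw [map_add, map_nsmul, map_nsmul, degree_zeroDiv, nsmul_eq_mul, nsmul_eq_mul]
  ring

/-- **Vanishing of `H¹(s D_∞)` in Čech form.** -/
theorem riemannRochSpace_eq_sup {xt : Ft} (hpole : ∃ P : Place kb Ft, P.ord xt < 0) :
    haveI := hF.principal
    ∃ s0 : ℕ, ∀ s t t' : ℕ, s0 ≤ s → s ≤ t' →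
      riemannRochSpace (t • zeroDiv kb xt + t' • poleDiv kb xt) =
        riemannRochSpace (t' • poleDiv kb xt) ⊔
          riemannRochSpace (t • zeroDiv kb xt + s • poleDiv kb xt) := by
  haveI := hF.principal
  obtain ⟨c, hc⟩ := hF.riemann_eq
  have hn := degree_poleDiv_pos hF hpole
  set n := Divisor.degree (poleDiv kb xt) with hn_def
  refine ⟨c.toNat, fun s t t' hs hst => ?_⟩
  have hcs : c ≤ (s : ℤ) * n := by
    have h1 : c ≤ (s : ℤ) := by
      have := Int.self_le_toNat c
      have h2 : (c.toNat : ℤ) ≤ s := by exact_mod_cast hs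
      linarith
    have h3 : (0 : ℤ) ≤ s := by positivity
    nlinarith
  have hst' : (s : ℤ) ≤ t' := by exact_mod_cast hst
  have ht0 : (0 : ℤ) ≤ t := by positivity
  have hs0 : (0 : ℤ) ≤ s := by positivity
  have hAC : riemannRochSpace (t' • poleDiv kb xt) ≤
      riemannRochSpace (t • zeroDiv kb xt + t' • poleDiv kb xt) := by
    apply riemannRochSpace_mono
    intro P
    rw [combo_apply, nsmul_poleDiv_apply]
    have : (0 : ℤ) ≤ (t : ℤ) * max 0 (P.ord xt) := mul_nonneg ht0 (le_max_left _ _)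
    linarith
  have hBC : riemannRochSpace (t • zeroDiv kb xt + s • poleDiv kb xt) ≤
      riemannRochSpace (t • zeroDiv kb xt + t' • poleDiv kb xt) := by
    apply riemannRochSpace_mono
    intro P
    rw [combo_apply, combo_apply]
    have : (s : ℤ) * max 0 (-P.ord xt) ≤ (t' : ℤ) * max 0 (-P.ord xt) :=
      mul_le_mul_of_nonneg_right hst' (le_max_left _ _)
    linarith
  have hABZ : riemannRochSpace (t' • poleDiv kb xt) ⊓
      riemannRochSpace (t • zeroDiv kb xt + s • poleDiv kb xt) ≤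
      riemannRochSpace (s • poleDiv kb xt) := by
    intro f hf
    by_cases hf0 : f = 0
    · rw [hf0]; exact Submodule.zero_mem _
    obtain ⟨hfA, hfB⟩ := Submodule.mem_inf.mp hf
    rw [mem_riemannRochSpace_iff_of_ne_zero hf0] at hfA hfB ⊢
    intro P
    have h1 := hfA P
    have h2 := hfB P
    rw [nsmul_poleDiv_apply] at h1 ⊢
    rw [combo_apply] at h2
    rcases le_total 0 (P.ord xt) with hx | hx
    · rw [max_eq_left (by omega : -P.ord xt ≤ 0)] at h1 ⊢
      linarith
    · rw [max_eq_left hx] at h2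
      linarith
  set A := riemannRochSpace (t' • poleDiv kb xt) with hA
  set B := riemannRochSpace (t • zeroDiv kb xt + s • poleDiv kb xt) with hB
  set C := riemannRochSpace (t • zeroDiv kb xt + t' • poleDiv kb xt) with hC
  set Z := riemannRochSpace (s • poleDiv kb xt) with hZ
  haveI : FiniteDimensional kb A := hF.finite_L _
  haveI : FiniteDimensional kb B := hF.finite_L _
  haveI : FiniteDimensional kb C := hF.finite_L _
  haveI : FiniteDimensional kb Z := hF.finite_L _
  -- dimensions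
  have dA : (finrank kb A : ℤ) = (t' : ℤ) * n + 1 - genusFF kb Ft := by
    rw [hA, hc _ (by
      rw [map_nsmul, nsmul_eq_mul]
      nlinarith), map_nsmul, nsmul_eq_mul]
  have dZ : (finrank kb Z : ℤ) = (s : ℤ) * n + 1 - genusFF kb Ft := by
    rw [hZ, hc _ (by
      rw [map_nsmul, nsmul_eq_mul]
      exact hcs), map_nsmul, nsmul_eq_mul]
  have dB : (finrank kb B : ℤ) = ((t : ℤ) + s) * n + 1 - genusFF kb Ft := by
    rw [hB, hc _ (by
      rw [degree_combo hF]
      nlinarith), degree_combo hF]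
  have dC : (finrank kb C : ℤ) = ((t : ℤ) + t') * n + 1 - genusFF kb Ft := by
    rw [hC, hc _ (by
      rw [degree_combo hF]
      nlinarith), degree_combo hF]
  have e1 := Submodule.finrank_sup_add_finrank_inf_eq A B
  have e2 : finrank kb (A ⊓ B : Submodule kb Ft) ≤ finrank kb Z := Submodule.finrank_mono hABZ
  symm
  apply Submodule.eq_of_le_of_finrank_le (sup_le hAC hBC)
  have e1' : (finrank kb (A ⊔ B : Submodule kb Ft) : ℤ) + finrank kb (A ⊓ B : Submodule kb Ft) =
      finrank kb A + finrank kb B := by exact_mod_cast e1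
  have e2' : (finrank kb (A ⊓ B : Submodule kb Ft) : ℤ) ≤ finrank kb Z := by exact_mod_cast e2
  have : (finrank kb C : ℤ) ≤ finrank kb (A ⊔ B : Submodule kb Ft) := by
    rw [dC]
    nlinarith
  exact_mod_cast this

end Main

section Decomp

variable [HasPrincipalDivisors kb Ft]

theorem ord_pow' (P : Place kb Ft) (f : Ft) (k : ℕ) : P.ord (f ^ k) = (k : ℤ) * P.ord f := by
  rw [← zpow_natCast, Place.ord_zpow]

theorem polesAtPoles_of_mem {xt y : Ft} {t' : ℕ}
    (hy : y ∈ riemannRochSpace (t' • poleDiv kb xt)) : PolesAtPoles kb xt y := by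
  intro P hP
  have hy0 : y ≠ 0 := by
    rintro rfl
    rw [Place.ord_zero] at hP
    exact lt_irrefl _ hP
  rw [mem_riemannRochSpace_iff_of_ne_zero hy0] at hy
  have h := hy P
  rw [nsmul_poleDiv_apply] at h
  by_contra hcon
  rw [max_eq_left (by omega : -P.ord xt ≤ 0), mul_zero, neg_zero] at h
  omega

theorem polesAtZeros_of_mem {xt : Ft} (hx : xt ≠ 0) {v : Ft} {t s : ℕ}
    (hv : v ∈ riemannRochSpace (t • zeroDiv kb xt + s • poleDiv kb xt)) :
    PolesAtZeros kb xt (v * (xt ^ s)⁻¹) := by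
  intro P hP
  have hv0 : v ≠ 0 := by
    rintro rfl
    rw [zero_mul, Place.ord_zero] at hP
    exact lt_irrefl _ hP
  rw [mem_riemannRochSpace_iff_of_ne_zero hv0] at hv
  have h := hv P
  rw [combo_apply] at h
  rw [Place.ord_mul _ hv0 (inv_ne_zero (pow_ne_zero s hx)), Place.ord_inv, ord_pow'] at hP
  by_contra hcon
  have hx0 : P.ord xt ≤ 0 := by omega
  rw [max_eq_left hx0, mul_zero, zero_add, max_eq_right (by omega : 0 ≤ -P.ord xt)] at h
  have : (s : ℤ) * -P.ord xt = -((s : ℤ) * P.ord xt) := by ring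
  rw [this] at h
  omega

theorem mem_of_poles {xt y : Ft} (hx : xt ≠ 0) {k k' : ℕ}
    (h1 : PolesAtPoles kb xt (xt ^ k * y)) (h2 : PolesAtZeros kb xt (xt⁻¹ ^ k' * y)) :
    y ∈ riemannRochSpace (k • zeroDiv kb xt + k' • poleDiv kb xt) := by
  by_cases hy0 : y = 0
  · rw [hy0]; exact Submodule.zero_mem _
  rw [mem_riemannRochSpace_iff_of_ne_zero hy0]
  intro P
  rw [combo_apply]
  have e1 : P.ord (xt ^ k * y) = (k : ℤ) * P.ord xt + P.ord y := by
    rw [Place.ord_mul _ (pow_ne_zero k hx) hy0, ord_pow']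
  have e2 : P.ord (xt⁻¹ ^ k' * y) = -((k' : ℤ) * P.ord xt) + P.ord y := by
    rw [Place.ord_mul _ (pow_ne_zero k' (inv_ne_zero hx)) hy0, ord_pow', Place.ord_inv]
    ring
  have h1' := h1 P
  have h2' := h2 P
  rw [e1] at h1'
  rw [e2] at h2'
  have hk : (0 : ℤ) ≤ k := by positivity
  have hk' : (0 : ℤ) ≤ k' := by positivity
  rcases lt_trichotomy (P.ord xt) 0 with hx0 | hx0 | hx0
  · -- a pole of `xt`
    rw [max_eq_left hx0.le, mul_zero, zero_add, max_eq_right (by omega : 0 ≤ -P.ord xt)]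
    by_contra hcon
    have : -((k' : ℤ) * P.ord xt) + P.ord y < 0 := by
      have : (k' : ℤ) * -P.ord xt = -((k' : ℤ) * P.ord xt) := by ring
      rw [this] at hcon
      omega
    have := h2' this
    omega
  · rw [hx0, neg_zero, max_self, mul_zero, mul_zero, add_zero, neg_zero]
    by_contra hcon
    have : (k : ℤ) * P.ord xt + P.ord y < 0 := by
      rw [hx0, mul_zero, zero_add]
      omega
    have := h1' this
    omega
  · -- a zero of `xt`
    rw [max_eq_right hx0.le, max_eq_left (by omega : -P.ord xt ≤ 0), mul_zero, add_zero]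
    by_contra hcon
    have : (k : ℤ) * P.ord xt + P.ord y < 0 := by omega
    have := h1' this
    omega

/-- **Mittag-Leffler decomposition.** -/
theorem exists_decomp (hF : RiemannPkg kb Ft) {xt : Ft} (hx : xt ≠ 0)
    (hpole : ∃ P : Place kb Ft, P.ord xt < 0) :
    ∃ s0 : ℕ, ∀ s : ℕ, s0 ≤ s → ∀ (y : Ft) (k k' : ℕ), PolesAtPoles kb xt (xt ^ k * y) →
      PolesAtZeros kb xt (xt⁻¹ ^ k' * y) →
      ∃ u v : Ft, y = u + v ∧ PolesAtPoles kb xt u ∧ PolesAtZeros kb xt (v * (xt ^ s)⁻¹) := by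
  obtain ⟨s0, hs0⟩ := riemannRochSpace_eq_sup hF hpole
  refine ⟨s0, fun s hs y k k' h1 h2 => ?_⟩
  have hy := mem_of_poles hx h1 h2
  have hle : riemannRochSpace (k • zeroDiv kb xt + k' • poleDiv kb xt) ≤
      riemannRochSpace (k • zeroDiv kb xt + (max k' s) • poleDiv kb xt) := by
    apply riemannRochSpace_mono
    intro P
    rw [combo_apply, combo_apply]
    have h3 : ((k' : ℕ) : ℤ) ≤ ((max k' s : ℕ) : ℤ) := by exact_mod_cast le_max_left k' s
    have : (k' : ℤ) * max 0 (-P.ord xt) ≤ ((max k' s : ℕ) : ℤ) * max 0 (-P.ord xt) :=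
      mul_le_mul_of_nonneg_right h3 (le_max_left _ _)
    linarith
  have hy' := hle hy
  have key := hs0 s k (max k' s) hs (le_max_right k' s)
  have key' : riemannRochSpace (k • zeroDiv kb xt + (max k' s) • poleDiv kb xt) =
      riemannRochSpace ((max k' s) • poleDiv kb xt) ⊔
        riemannRochSpace (k • zeroDiv kb xt + s • poleDiv kb xt) := by
    convert key
  rw [key', Submodule.mem_sup] at hy'
  obtain ⟨u, hu, v, hv, huv⟩ := hy'
  exact ⟨u, v, huv.symm, polesAtPoles_of_mem hu, polesAtZeros_of_mem hx hv⟩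

end Decomp

section Graded

variable [HasPrincipalDivisors kb Ft]

theorem riemannRochSpace_poleDiv_mono (xt : Ft) {s t : ℕ} (h : s ≤ t) :
    riemannRochSpace (s • poleDiv kb xt) ≤ riemannRochSpace (t • poleDiv kb xt) := by
  apply riemannRochSpace_mono
  intro P
  rw [nsmul_poleDiv_apply, nsmul_poleDiv_apply]
  have h3 : (s : ℤ) ≤ (t : ℤ) := by exact_mod_cast h
  exact mul_le_mul_of_nonneg_right h3 (le_max_left _ _)

/-- `y ∈ L((s+1) D_∞) ⇒ y / xt ∈ L(D_0 + s D_∞)`. -/
theorem inv_mul_mem_of_mem {xt y : Ft} (hx : xt ≠ 0) {s : ℕ}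
    (hy : y ∈ riemannRochSpace ((s + 1) • poleDiv kb xt)) :
    xt⁻¹ * y ∈ riemannRochSpace (1 • zeroDiv kb xt + s • poleDiv kb xt) := by
  by_cases hy0 : y = 0
  · rw [hy0, mul_zero]; exact Submodule.zero_mem _
  rw [mem_riemannRochSpace_iff_of_ne_zero hy0] at hy
  rw [mem_riemannRochSpace_iff_of_ne_zero (mul_ne_zero (inv_ne_zero hx) hy0)]
  intro P
  have h := hy P
  rw [nsmul_poleDiv_apply] at h
  rw [combo_apply, Place.ord_mul _ (inv_ne_zero hx) hy0, Place.ord_inv]
  push_cast at h ⊢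
  rcases le_total 0 (P.ord xt) with h0 | h0
  · rw [max_eq_right h0, max_eq_left (by omega : -P.ord xt ≤ 0)] at *
    linarith
  · rw [max_eq_left h0, max_eq_right (by omega : 0 ≤ -P.ord xt)] at *
    linarith

/-- `w ∈ L(D_0 + s D_∞) ⇒ xt w ∈ L((s+1) D_∞)`. -/
theorem mul_mem_of_mem {xt w : Ft} (hx : xt ≠ 0) {s : ℕ}
    (hw : w ∈ riemannRochSpace (1 • zeroDiv kb xt + s • poleDiv kb xt)) :
    xt * w ∈ riemannRochSpace ((s + 1) • poleDiv kb xt) := by
  by_cases hw0 : w = 0
  · rw [hw0, mul_zero]; exact Submodule.zero_mem _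
  rw [mem_riemannRochSpace_iff_of_ne_zero hw0] at hw
  rw [mem_riemannRochSpace_iff_of_ne_zero (mul_ne_zero hx hw0)]
  intro P
  have h := hw P
  rw [combo_apply] at h
  rw [nsmul_poleDiv_apply, Place.ord_mul _ hx hw0]
  push_cast at h ⊢
  rcases le_total 0 (P.ord xt) with h0 | h0
  · rw [max_eq_right h0, max_eq_left (by omega : -P.ord xt ≤ 0)] at *
    linarith
  · rw [max_eq_left h0, max_eq_right (by omega : 0 ≤ -P.ord xt)] at *
    linarith

/-- **The graded recursion** `V_{s+1} = V_s + xt V_s` for `V_s = L(s D_∞)`, `s ≥ s1`. -/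
theorem exists_succ_decomp (hF : RiemannPkg kb Ft) {xt : Ft}
    (hpole : ∃ P : Place kb Ft, P.ord xt < 0) :
    ∃ s1 : ℕ, ∀ s : ℕ, s1 ≤ s → ∀ y ∈ riemannRochSpace ((s + 1) • poleDiv kb xt),
      ∃ u ∈ riemannRochSpace (s • poleDiv kb xt), ∃ v ∈ riemannRochSpace (s • poleDiv kb xt),
        y = u + xt * v := by
  have hx : xt ≠ 0 := by
    rintro rfl
    obtain ⟨P, hP⟩ := hpole
    rw [Place.ord_zero] at hP
    exact lt_irrefl _ hP
  obtain ⟨s0, hs0⟩ := riemannRochSpace_eq_sup hF hpole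
  refine ⟨s0 + 1, fun s hs y hy => ?_⟩
  obtain ⟨s', rfl⟩ : ∃ s', s = s' + 1 := ⟨s - 1, by omega⟩
  have h1 := inv_mul_mem_of_mem hx hy
  have key := hs0 s' 1 (s' + 1) (by omega) (by omega)
  have key' : riemannRochSpace (1 • zeroDiv kb xt + (s' + 1) • poleDiv kb xt) =
      riemannRochSpace ((s' + 1) • poleDiv kb xt) ⊔
        riemannRochSpace (1 • zeroDiv kb xt + s' • poleDiv kb xt) := by
    convert key
  rw [key', Submodule.mem_sup] at h1
  obtain ⟨v, hv, w, hw, hvw⟩ := h1
  refine ⟨xt * w, mul_mem_of_mem hx hw, v, hv, ?_⟩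
  have : y = xt * (xt⁻¹ * y) := by rw [← mul_assoc, mul_inv_cancel₀ hx, one_mul]
  rw [this, ← hvw]
  ring

/-- **Generation in bounded degree**: every element of `V_{s1+M}` is `∑_{i ≤ M} xt^i c_i` with
`c_i ∈ V_{s1}`. -/
theorem exists_pow_decomp (hF : RiemannPkg kb Ft) {xt : Ft}
    (hpole : ∃ P : Place kb Ft, P.ord xt < 0) :
    ∃ s1 : ℕ, ∀ (M : ℕ) (y : Ft), y ∈ riemannRochSpace ((s1 + M) • poleDiv kb xt) →
      ∃ c : ℕ → Ft, (∀ i, c i ∈ riemannRochSpace (s1 • poleDiv kb xt)) ∧
        y = ∑ i ∈ Finset.range (M + 1), xt ^ i * c i := by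
  obtain ⟨s1, hs1⟩ := exists_succ_decomp hF hpole
  refine ⟨s1, fun M => ?_⟩
  induction M with
  | zero =>
    intro y hy
    refine ⟨fun _ => y, fun _ => by simpa using hy, ?_⟩
    simp
  | succ M ih =>
    intro y hy
    obtain ⟨u, hu, v, hv, rfl⟩ := hs1 (s1 + M) (by omega) y (by
      have : s1 + (M + 1) = s1 + M + 1 := by ring
      rwa [this] at hy)
    obtain ⟨c, hc, rfl⟩ := ih u hu
    obtain ⟨c', hc', rfl⟩ := ih v hv
    refine ⟨fun i => (if i ≤ M then c i else 0) + (if 1 ≤ i then c' (i - 1) else 0),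
      fun i => ?_, ?_⟩
    · refine Submodule.add_mem _ ?_ ?_
      · split_ifs
        · exact hc i
        · exact Submodule.zero_mem _
      · split_ifs
        · exact hc' (i - 1)
        · exact Submodule.zero_mem _
    · simp only [mul_add, Finset.sum_add_distrib]
      congr 1
      · rw [Finset.sum_range_succ _ (M + 1)]
        rw [if_neg (by omega), mul_zero, add_zero]
        refine Finset.sum_congr rfl fun i hi => ?_
        rw [if_pos (by have := Finset.mem_range.mp hi; omega)]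
      · rw [Finset.sum_range_succ' _ (M + 1)]
        rw [if_neg (by omega), mul_zero, add_zero, Finset.mul_sum]
        refine Finset.sum_congr rfl fun i _ => ?_
        rw [if_pos (by omega), Nat.add_sub_cancel, pow_succ]
        ring

end Graded

end Fermat.Agent.Good.GenusCharts
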