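import Fermat.Agent.Good.GenusLift
import Fermat.Agent.Good.GenusLiftAdapter

/-!
# L-GEN [G-6]: genus equality from normal charts (composite of `GenusLift` and the adapters)

`S : Red.RedSetup A π` for `(F/K, Ft/k)`, `x ∈ O` with nonzero residue `xt` and at least one pole.
`Bf, Bi ⊆ O` two "charts": the elements of `Bf` are regular outside the poles of `x`, those of
`Bi` regular outside the zeros of `x`.  NORMALITY of the special fibres: every `ft ∈ Ft` integral
over `k[xt]` (resp. `k[xt⁻¹]`) is a `k`-combination of residues of elements of `Bf` (resp. `Bi`).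
DEGREES: `deg (xt)_∞ = deg (x)_∞` (i.e. `[Ft : k(xt)] = [F : K(x)]`).

* `genusFF_eq_of_normal_charts` : then `genusFF k Ft = genusFF K F`.
-/

set_option autoImplicit false
set_option linter.style.haveILetI false
set_option linter.unusedSectionVars false

open AlgebraicCurve

namespace Fermat.Agent.Good.GenusCharts

open Fermat.Agent.Red Fermat.Agent.X0

variable {K F k Ft : Type*} [Field K] [Field F] [Algebra K F] [Field k] [Field Ft]
  [Algebra k Ft] {A : ValuationSubring K} {π : A →+* k}

/-- The reductions of the polar and zero divisors of `x` are the polar and zero divisors of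
`xt = res x`, provided the polar divisors have the same degree. -/
theorem mapDomain_poleDiv_zeroDiv (S : RedSetup (F := F) (Ft := Ft) A π)
    (hF : RiemannPkg K F) (hFt : RiemannPkg k Ft) {x : F} (hx : S.resF x ≠ 0)
    (hdegeq : haveI := hF.principal; haveI := hFt.principal
      Divisor.degree (poleDiv k (S.resF x)) = Divisor.degree (poleDiv K x)) :
    haveI := hF.principal; haveI := hFt.principal
    (∀ Q, Finsupp.mapDomain S.r (poleDiv K x) Q = 0 ∨ Finsupp.mapDomain S.r (zeroDiv K x) Q = 0) ∧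
    (∀ Q, Finsupp.mapDomain S.r (poleDiv K x) Q ≠ 0 → Q.ord (S.resF x) < 0) ∧
    (∀ Q, Finsupp.mapDomain S.r (zeroDiv K x) Q ≠ 0 → 0 < Q.ord (S.resF x)) := by
  haveI := hF.principal
  haveI := hFt.principal
  have hDt0 : 0 ≤ Finsupp.mapDomain S.r (poleDiv K x) := Finsupp.mapDomain_nonneg (poleDiv_nonneg x)
  have hD0t0 : 0 ≤ Finsupp.mapDomain S.r (zeroDiv K x) :=
    Finsupp.mapDomain_nonneg (zeroDiv_nonneg x)
  have hcons : ∀ Q : Place k Ft, Q.ord (S.resF x) =
      Finsupp.mapDomain S.r (zeroDiv K x) Q - Finsupp.mapDomain S.r (poleDiv K x) Q := by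
    intro Q
    have h := S.mapDomain_div_apply hx (divOf K x) (fun P => divOf_apply x P) Q
    rw [← zeroDiv_sub_poleDiv, Finsupp.mapDomain_sub, Finsupp.sub_apply] at h
    exact h.symm
  have hdisj := Fermat.Agent.Good.disjoint_of_degree_polar hFt hDt0 hD0t0 hcons
    (poleDiv k (S.resF x)) (fun Q => by rw [poleDiv_apply])
    (by rw [hdegeq, S.degree_mapDomain])
  refine ⟨hdisj, fun Q hQ => ?_, fun Q hQ => ?_⟩
  · have h0 := (hdisj Q).resolve_left hQ
    have h1 : 0 ≤ Finsupp.mapDomain S.r (poleDiv K x) Q := hDt0 Q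
    rw [hcons, h0]
    omega
  · have h0 : Finsupp.mapDomain S.r (poleDiv K x) Q = 0 := by
      rcases hdisj Q with h | h
      · exact h
      · exact absurd h hQ
    have h1 : 0 ≤ Finsupp.mapDomain S.r (zeroDiv K x) Q := hD0t0 Q
    rw [hcons, h0]
    omega

/-- **Genus equality from normal charts.** -/
theorem genusFF_eq_of_normal_charts (S : RedSetup (F := F) (Ft := Ft) A π)
    (hπ : Function.Surjective π) (hF : RiemannPkg K F) (hFt : RiemannPkg k Ft)
    {x : F} (hx : S.resF x ≠ 0) (hpole : ∃ P : Place K F, P.ord x < 0)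
    (hdegeq : haveI := hF.principal; haveI := hFt.principal
      Divisor.degree (poleDiv k (S.resF x)) = Divisor.degree (poleDiv K x))
    (Bf Bi : Set F) (hBfO : ∀ b ∈ Bf, b ∈ S.O) (hBiO : ∀ b ∈ Bi, b ∈ S.O)
    (hBf : ∀ b ∈ Bf, PolesAtPoles K x b) (hBi : ∀ b ∈ Bi, PolesAtZeros K x b)
    (hintf : ∀ ft : Ft, IsIntegral (Algebra.adjoin k {S.resF x}) ft →
      ft ∈ Submodule.span k (S.resF '' Bf))
    (hinti : ∀ ft : Ft, IsIntegral (Algebra.adjoin k {(S.resF x)⁻¹}) ft →
      ft ∈ Submodule.span k (S.resF '' Bi)) :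
    genusFF k Ft = genusFF K F := by
  haveI := hF.principal
  haveI := hFt.principal
  obtain ⟨hdisj, hsuppP, hsuppZ⟩ := mapDomain_poleDiv_zeroDiv S hF hFt hx hdegeq
  have hdeg : 0 < Divisor.degree (poleDiv K x) := degree_poleDiv_pos hF hpole
  -- `xt` has a pole and a zero
  have hpolet : ∃ Q : Place k Ft, Q.ord (S.resF x) < 0 := by
    apply Classical.byContradiction
    intro hcon
    push Not at hcon
    have h0 : poleDiv k (S.resF x) = 0 := by
      ext Q
      rw [poleDiv_apply, Finsupp.zero_apply, max_eq_left (by have := hcon Q; omega)]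
    rw [h0, map_zero] at hdegeq
    omega
  have hzerot := exists_zero_of_exists_pole hFt hpolet
  refine Fermat.Agent.Good.genusFF_eq_of_chart_lifts S hπ hF hFt (poleDiv K x) (zeroDiv K x)
    (poleDiv_nonneg x) (zeroDiv_nonneg x) hdeg x hx ?_ hdisj ?_ ?_
  · intro P
    have := DFunLike.congr_fun (zeroDiv_sub_poleDiv (kb := K) x) P
    rw [Finsupp.sub_apply, divOf_apply] at this
    exact this.symm
  · refine lift_hyp_of_isIntegral S hπ hF hFt (poleDiv_nonneg x) hpolet ?_ hsuppP Bf hBfO hBf hintf
    intro P hP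
    rw [poleDiv_apply]
    exact lt_max_of_lt_right (by omega)
  · refine lift_hyp_of_isIntegral_inv S hπ hF hFt (zeroDiv_nonneg x) hzerot ?_ hsuppZ Bi hBiO hBi
      hinti
    intro P hP
    rw [zeroDiv_apply]
    exact lt_max_of_lt_right hP

end Fermat.Agent.Good.GenusCharts
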