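import Mathlib
import Fermat.Agent.Good.GlueNormal

/-!
# Program L (S18), L-GEN, node [G-KUM] (iii): glueing normality, subring-of-a-field form

Everything happens inside a fixed field `L` (e.g. the function field of the special fibre).

* `Glue.awaySubring C f` : the subring `C[1/f] = {x | ∃ n, f ^ n * x ∈ C}` of `L`.
* `Glue.mem_of_isIntegral_of_cover` : if `a f + b g = 1` in `C`, the subrings `Cf ⊇ C`, `Cg ⊇ C`
  consist of elements with denominators powers of `f` resp. `g` and are integrally closed in `L`,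
  then `C` is integrally closed in `L`.
* `Glue.isIntegrallyClosedIn_of_cover` : the same with `IsIntegrallyClosedIn` and
  `awaySubring`.
-/

set_option autoImplicit false

namespace Fermat.Agent.Good.Glue

section Field

variable {L : Type*} [Field L]

/-- Integrality over a subring passes to a bigger subring. -/
theorem isIntegral_of_le {C C' : Subring L} (h : C ≤ C') {x : L} (hx : IsIntegral C x) :
    IsIntegral C' x := by
  obtain ⟨p, hp, hpx⟩ := hx
  refine ⟨p.map (Subring.inclusion h), hp.map _, ?_⟩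
  rw [Polynomial.eval₂_map]
  exact hpx

/-- The ideal of `C` of denominators of `x : L`. -/
def denomIdealSub (C : Subring L) (x : L) : Ideal C where
  carrier := {c | (c : L) * x ∈ C}
  zero_mem' := by simp
  add_mem' := by
    intro c c' hc hc'
    show ((c + c' : C) : L) * x ∈ C
    rw [Subring.coe_add, add_mul]
    exact C.add_mem hc hc'
  smul_mem' := by
    intro d c hc
    show ((d * c : C) : L) * x ∈ C
    rw [Subring.coe_mul, mul_assoc]
    exact C.mul_mem d.2 hc

theorem mem_denomIdealSub {C : Subring L} {x : L} {c : C} :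
    c ∈ denomIdealSub C x ↔ (c : L) * x ∈ C := Iff.rfl

/-- If `a f + b g = 1` in `C` and `f ^ n x ∈ C`, `g ^ m x ∈ C` then `x ∈ C`. -/
theorem mem_of_pow_mul_mem {C : Subring L} {f g : L} (hf : f ∈ C) (hg : g ∈ C)
    (hfg : ∃ a ∈ C, ∃ b ∈ C, a * f + b * g = 1) {x : L} {n m : ℕ} (hn : f ^ n * x ∈ C)
    (hm : g ^ m * x ∈ C) : x ∈ C := by
  classical
  obtain ⟨a, ha, b, hb, hab⟩ := hfg
  have htop : denomIdealSub C x = ⊤ := by
    apply eq_top_of_forall_pow_mem ({⟨f, hf⟩, ⟨g, hg⟩} : Finset C)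
    · rw [Ideal.eq_top_iff_one]
      have h1 : (1 : C) = ⟨a, ha⟩ * ⟨f, hf⟩ + ⟨b, hb⟩ * ⟨g, hg⟩ := by
        apply Subtype.ext
        simp [hab]
      rw [h1]
      refine Ideal.add_mem _ (Ideal.mul_mem_left _ _ (Ideal.subset_span ?_))
        (Ideal.mul_mem_left _ _ (Ideal.subset_span ?_))
      · simp
      · simp
    · intro c hc
      rcases Finset.mem_insert.1 hc with rfl | hc
      · exact ⟨n, by rw [mem_denomIdealSub]; simpa using hn⟩
      · rw [Finset.mem_singleton.1 hc]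
        exact ⟨m, by rw [mem_denomIdealSub]; simpa using hm⟩
  have h1 : (1 : C) ∈ denomIdealSub C x := by rw [htop]; exact Submodule.mem_top
  rw [mem_denomIdealSub] at h1
  simpa using h1

/-- **Glue lemma, subring form.** -/
theorem mem_of_isIntegral_of_cover (C Cf Cg : Subring L) (hCf : C ≤ Cf) (hCg : C ≤ Cg)
    {f g : L} (hf : f ∈ C) (hg : g ∈ C) (hfg : ∃ a ∈ C, ∃ b ∈ C, a * f + b * g = 1)
    (hf' : ∀ x ∈ Cf, ∃ n : ℕ, f ^ n * x ∈ C) (hg' : ∀ x ∈ Cg, ∃ n : ℕ, g ^ n * x ∈ C)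
    (hicf : ∀ x : L, IsIntegral Cf x → x ∈ Cf) (hicg : ∀ x : L, IsIntegral Cg x → x ∈ Cg)
    {x : L} (hx : IsIntegral C x) : x ∈ C := by
  obtain ⟨n, hn⟩ := hf' x (hicf x (isIntegral_of_le hCf hx))
  obtain ⟨m, hm⟩ := hg' x (hicg x (isIntegral_of_le hCg hx))
  exact mem_of_pow_mul_mem hf hg hfg hn hm

/-- The subring `C[1/f]` of `L`. -/
def awaySubring (C : Subring L) (f : L) (hf : f ∈ C) : Subring L where
  carrier := {x | ∃ n : ℕ, f ^ n * x ∈ C}
  mul_mem' := by
    rintro x y ⟨n, hn⟩ ⟨m, hm⟩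
    refine ⟨n + m, ?_⟩
    have : f ^ (n + m) * (x * y) = (f ^ n * x) * (f ^ m * y) := by rw [pow_add]; ring
    rw [this]
    exact C.mul_mem hn hm
  one_mem' := ⟨0, by simp [C.one_mem]⟩
  add_mem' := by
    rintro x y ⟨n, hn⟩ ⟨m, hm⟩
    refine ⟨n + m, ?_⟩
    have : f ^ (n + m) * (x + y) = f ^ m * (f ^ n * x) + f ^ n * (f ^ m * y) := by
      rw [pow_add]; ring
    rw [this]
    exact C.add_mem (C.mul_mem (C.pow_mem hf m) hn) (C.mul_mem (C.pow_mem hf n) hm)
  zero_mem' := ⟨0, by simp [C.zero_mem]⟩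
  neg_mem' := by
    rintro x ⟨n, hn⟩
    refine ⟨n, ?_⟩
    rw [mul_neg]
    exact C.neg_mem hn

theorem mem_awaySubring {C : Subring L} {f : L} {hf : f ∈ C} {x : L} :
    x ∈ awaySubring C f hf ↔ ∃ n : ℕ, f ^ n * x ∈ C := Iff.rfl

theorem le_awaySubring (C : Subring L) (f : L) (hf : f ∈ C) : C ≤ awaySubring C f hf :=
  fun x hx => ⟨0, by simpa using hx⟩

theorem inv_mem_awaySubring (C : Subring L) (f : L) (hf : f ∈ C) :
    f⁻¹ ∈ awaySubring C f hf := by
  rcases eq_or_ne f 0 with rfl | h0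
  · exact ⟨0, by simp [C.zero_mem]⟩
  · exact ⟨1, by rw [pow_one, mul_inv_cancel₀ h0]; exact C.one_mem⟩

/-- `C[1/f]` is the smallest subring containing `C` and `f⁻¹` (for `f ≠ 0`). -/
theorem awaySubring_le {C C' : Subring L} {f : L} {hf : f ∈ C} (hf0 : f ≠ 0) (hC : C ≤ C')
    (hinv : f⁻¹ ∈ C') : awaySubring C f hf ≤ C' := by
  rintro x ⟨n, hn⟩
  have : x = f⁻¹ ^ n * (f ^ n * x) := by
    rw [← mul_assoc, ← mul_pow, inv_mul_cancel₀ hf0, one_pow, one_mul]
  rw [this]
  exact C'.mul_mem (C'.pow_mem hinv n) (hC hn)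

/-- **Glue lemma, `awaySubring` form.** If `a f + b g = 1` in `C` and `C[1/f]`, `C[1/g]` are
integrally closed in `L`, so is `C`. -/
theorem mem_of_isIntegral_of_awaySubring (C : Subring L) {f g : L} (hf : f ∈ C) (hg : g ∈ C)
    (hfg : ∃ a ∈ C, ∃ b ∈ C, a * f + b * g = 1)
    (hicf : ∀ x : L, IsIntegral (awaySubring C f hf) x → x ∈ awaySubring C f hf)
    (hicg : ∀ x : L, IsIntegral (awaySubring C g hg) x → x ∈ awaySubring C g hg)
    {x : L} (hx : IsIntegral C x) : x ∈ C :=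
  mem_of_isIntegral_of_cover C _ _ (le_awaySubring C f hf) (le_awaySubring C g hg) hf hg hfg
    (fun _ h => h) (fun _ h => h) hicf hicg hx

/-- **Glue lemma, `IsIntegrallyClosedIn` form.** -/
theorem isIntegrallyClosedIn_of_cover (C : Subring L) {f g : L} (hf : f ∈ C) (hg : g ∈ C)
    (hfg : ∃ a ∈ C, ∃ b ∈ C, a * f + b * g = 1)
    [hcf : IsIntegrallyClosedIn (awaySubring C f hf) L]
    [hcg : IsIntegrallyClosedIn (awaySubring C g hg) L] : IsIntegrallyClosedIn C L := by
  rw [isIntegrallyClosedIn_iff]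
  refine ⟨Subtype.val_injective, fun {x} hx => ?_⟩
  have hicf : ∀ x : L, IsIntegral (awaySubring C f hf) x → x ∈ awaySubring C f hf := by
    intro x hx
    obtain ⟨y, rfl⟩ := (isIntegrallyClosedIn_iff.1 hcf).2 hx
    exact y.2
  have hicg : ∀ x : L, IsIntegral (awaySubring C g hg) x → x ∈ awaySubring C g hg := by
    intro x hx
    obtain ⟨y, rfl⟩ := (isIntegrallyClosedIn_iff.1 hcg).2 hx
    exact y.2
  exact ⟨⟨x, mem_of_isIntegral_of_awaySubring C hf hg hfg hicf hicg hx⟩, rfl⟩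

/-- `C[1/f]` (as a subring of `L`) is a localisation of `C` away from `f`. -/
theorem isLocalization_awaySubring (C : Subring L) {f : L} (hf : f ∈ C) (hf0 : f ≠ 0) :
    letI := (Subring.inclusion (le_awaySubring C f hf)).toAlgebra
    IsLocalization.Away (⟨f, hf⟩ : C) (awaySubring C f hf) := by
  let _ := (Subring.inclusion (le_awaySubring C f hf)).toAlgebra
  have halg : ∀ c : C, ((algebraMap C (awaySubring C f hf) c : awaySubring C f hf) : L) = c :=
    fun _ => rfl
  refine ⟨?_, ?_, ?_⟩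
  · rintro ⟨_, n, rfl⟩
    refine IsUnit.of_mul_eq_one ⟨f⁻¹ ^ n, (awaySubring C f hf).pow_mem
      (inv_mem_awaySubring C f hf) n⟩ ?_
    apply Subtype.ext
    show ((algebraMap C (awaySubring C f hf) ((⟨f, hf⟩ : C) ^ n) : awaySubring C f hf) : L) *
      f⁻¹ ^ n = 1
    rw [halg, Subring.coe_pow, ← mul_pow, mul_inv_cancel₀ hf0, one_pow]
  · rintro ⟨z, n, hn⟩
    refine ⟨(⟨f ^ n * z, hn⟩, ⟨(⟨f, hf⟩ : C) ^ n, n, rfl⟩), ?_⟩
    apply Subtype.ext
    show z * ((algebraMap C (awaySubring C f hf) ((⟨f, hf⟩ : C) ^ n) : awaySubring C f hf) : L) =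
      ((algebraMap C (awaySubring C f hf) ⟨f ^ n * z, hn⟩ : awaySubring C f hf) : L)
    rw [halg, halg, Subring.coe_pow, mul_comm]
  · intro x y hxy
    refine ⟨1, ?_⟩
    have : (x : L) = y := by
      have := congrArg (Subtype.val) hxy
      rwa [halg, halg] at this
    rw [Subtype.ext this]

end Field

end Fermat.Agent.Good.Glue
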