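import Mathlib

/-!
# L-GEN [G-POL]: polarisation — the span of the reductions of the invariants is norm-closed

`G` a finite group acting on commutative rings `B` and `A` (`A` a `k`-algebra, the action commuting
with `k`), `red : B →+* A` an equivariant ring homomorphism whose image spans `A` over `k`.
`C := span_k (red '' B^G)`.

* `polSubalgebra red : Subalgebra k A` with `polSubalgebra_toSubmodule : C = span_k (red '' B^G)`;
* `smul_eq_of_mem_polSubalgebra` : every element of `C` is `G`-fixed;
* `prod_smul_mem_polSubalgebra` : **norm-closedness** `∏ g, g • z ∈ C` for every `z : A`.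

Proof of the last statement: `z = ∑ i, c i • red (b i)`; in `MvPolynomial (Fin n) B` the product
`P = ∏ g, ∑ i, C (g • b i) * X i` is invariant under the coefficientwise action of `G`, so its
coefficients are `G`-fixed; evaluating `X i ↦ c i` along `red` gives `∏ g, g • z`.
-/

set_option autoImplicit false
set_option linter.unusedSectionVars false

namespace Fermat.Agent.Good.Pol

open MvPolynomial

variable {B A G k : Type*} [CommRing B] [CommRing A] [Field k] [Algebra k A] [Group G]
  [MulSemiringAction G B] [MulSemiringAction G A] [SMulCommClass G k A] (red : B →+* A)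

variable (G) in
/-- The image under `red` of the `G`-invariants of `B`, as a submonoid of `A`. -/
def redFixedSubmonoid : Submonoid A where
  carrier := red '' {b : B | ∀ g : G, g • b = b}
  one_mem' := ⟨1, fun g => smul_one g, map_one red⟩
  mul_mem' := by
    rintro _ _ ⟨b, hb, rfl⟩ ⟨b', hb', rfl⟩
    exact ⟨b * b', fun g => by rw [smul_mul', hb g, hb' g], map_mul red b b'⟩

variable (G k) in
/-- `C = span_k (red '' B^G)`, as a `k`-subalgebra of `A`. -/
def polSubalgebra : Subalgebra k A :=
  Algebra.adjoin k (red '' {b : B | ∀ g : G, g • b = b})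

theorem polSubalgebra_toSubmodule :
    Subalgebra.toSubmodule (polSubalgebra G k red) =
      Submodule.span k (red '' {b : B | ∀ g : G, g • b = b}) := by
  rw [polSubalgebra, Algebra.adjoin_eq_span]
  congr 1
  exact congrArg (fun S : Submonoid A => (S : Set A)) (redFixedSubmonoid G red).closure_eq

theorem mem_polSubalgebra_iff {z : A} :
    z ∈ polSubalgebra G k red ↔ z ∈ Submodule.span k (red '' {b : B | ∀ g : G, g • b = b}) := by
  rw [← polSubalgebra_toSubmodule, Subalgebra.mem_toSubmodule]

theorem red_mem_polSubalgebra {b : B} (hb : ∀ g : G, g • b = b) :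
    red b ∈ polSubalgebra G k red :=
  Algebra.subset_adjoin ⟨b, hb, rfl⟩

/-- Every element of `C` is `G`-fixed. -/
theorem smul_eq_of_mem_polSubalgebra (hequiv : ∀ (g : G) (b : B), red (g • b) = g • red b)
    {z : A} (hz : z ∈ polSubalgebra G k red) (g : G) : g • z = z := by
  rw [mem_polSubalgebra_iff] at hz
  induction hz using Submodule.span_induction with
  | mem x hx =>
    obtain ⟨b, hb, rfl⟩ := hx
    rw [← hequiv, hb g]
  | zero => exact smul_zero g
  | add x y _ _ hx hy => rw [smul_add, hx, hy]
  | smul c x _ hx => rw [smul_comm, hx]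

section Norm

variable [Fintype G]

/-- the polarised norm polynomial -/
noncomputable def normPoly {n : ℕ} (b : Fin n → B) : MvPolynomial (Fin n) B :=
  ∏ g : G, ∑ i, C (g • b i) * X i

variable (G) in
theorem map_normPoly {n : ℕ} (b : Fin n → B) (h : G) :
    MvPolynomial.map (MulSemiringAction.toRingHom G B h) (normPoly (G := G) b) =
      normPoly (G := G) b := by
  unfold normPoly
  rw [map_prod]
  have h1 : ∀ g : G, MvPolynomial.map (MulSemiringAction.toRingHom G B h)
      (∑ i, C (g • b i) * X i) = ∑ i, C ((h * g) • b i) * X i := by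
    intro g
    rw [map_sum]
    refine Finset.sum_congr rfl fun i _ => ?_
    rw [map_mul, MvPolynomial.map_C, MvPolynomial.map_X, mul_smul]
    rfl
  simp_rw [h1]
  exact Fintype.prod_equiv (Equiv.mulLeft h) _ _ fun g => rfl

variable (G) in
/-- the coefficients of the norm polynomial are `G`-fixed -/
theorem smul_coeff_normPoly {n : ℕ} (b : Fin n → B) (m : Fin n →₀ ℕ) (h : G) :
    h • (normPoly (G := G) b).coeff m = (normPoly (G := G) b).coeff m := by
  conv_rhs => rw [← map_normPoly G b h]
  rw [MvPolynomial.coeff_map]
  rfl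

theorem eval₂_normPoly (hequiv : ∀ (g : G) (b : B), red (g • b) = g • red b) {n : ℕ}
    (b : Fin n → B) (c : Fin n → k) :
    (normPoly (G := G) b).eval₂ red (fun i => algebraMap k A (c i)) =
      ∏ g : G, g • ∑ i, c i • red (b i) := by
  unfold normPoly
  rw [MvPolynomial.eval₂_prod]
  refine Finset.prod_congr rfl fun g _ => ?_
  rw [MvPolynomial.eval₂_sum, Finset.smul_sum]
  refine Finset.sum_congr rfl fun i _ => ?_
  rw [MvPolynomial.eval₂_mul, MvPolynomial.eval₂_C, MvPolynomial.eval₂_X, hequiv, smul_comm,
    Algebra.smul_def, mul_comm]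

/-- **Norm-closedness** of `C = span_k (red '' B^G)`. -/
theorem prod_smul_mem_polSubalgebra (hequiv : ∀ (g : G) (b : B), red (g • b) = g • red b)
    (hspan : Submodule.span k (Set.range red) = ⊤) (z : A) :
    ∏ g : G, g • z ∈ polSubalgebra G k red := by
  have hz : z ∈ Submodule.span k (Set.range red) := by rw [hspan]; exact Submodule.mem_top
  obtain ⟨n, c, y, rfl⟩ := Submodule.mem_span_set'.mp hz
  choose b hb using fun i => (y i).2
  have hzb : ∑ i, c i • ((y i : Set.range red) : A) = ∑ i, c i • red (b i) :=
    Finset.sum_congr rfl fun i _ => by rw [hb i]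
  rw [hzb, ← eval₂_normPoly red hequiv b c, MvPolynomial.eval₂_eq]
  refine Subalgebra.sum_mem _ fun m _ => ?_
  refine Subalgebra.mul_mem _ (red_mem_polSubalgebra red fun g => smul_coeff_normPoly G b m g) ?_
  exact Subalgebra.prod_mem _ fun i _ => Subalgebra.pow_mem _ (Subalgebra.algebraMap_mem _ _) _

end Norm

section Base

/-- If a `k`-algebra `Λ` acting on `A` is generated by elements whose images lie in a
`k`-subalgebra `C` of `A`, then the whole image of `Λ` lies in `C`. -/
theorem algebraMap_mem_of_adjoin_eq_top {Λ : Type*} [CommRing Λ] [Algebra k Λ] [Algebra Λ A]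
    [IsScalarTower k Λ A] (C : Subalgebra k A) {S : Set Λ} (hS : Algebra.adjoin k S = ⊤)
    (hSC : ∀ s ∈ S, algebraMap Λ A s ∈ C) (a : Λ) : algebraMap Λ A a ∈ C := by
  have ha : a ∈ Algebra.adjoin k S := by rw [hS]; exact Algebra.mem_top
  induction ha using Algebra.adjoin_induction with
  | mem x hx => exact hSC x hx
  | algebraMap r =>
    rw [← IsScalarTower.algebraMap_apply]
    exact C.algebraMap_mem r
  | add x y _ _ hx hy => rw [map_add]; exact C.add_mem hx hy
  | mul x y _ _ hx hy => rw [map_mul]; exact C.mul_mem hx hy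

/-- The case `Λ = k[X]`. -/
theorem algebraMap_polynomial_mem [Algebra (Polynomial k) A] [IsScalarTower k (Polynomial k) A]
    (C : Subalgebra k A) (hX : algebraMap (Polynomial k) A Polynomial.X ∈ C)
    (p : Polynomial k) : algebraMap (Polynomial k) A p ∈ C :=
  algebraMap_mem_of_adjoin_eq_top C (S := {Polynomial.X}) Polynomial.adjoin_X
    (fun s hs => by rw [Set.mem_singleton_iff.mp hs]; exact hX) p

end Base

end Fermat.Agent.Good.Pol
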