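import Fermat.Agent.Good.RigidCoverLemmas

/-!
# Base change of rigid covers as a tensor product

Program L / L-GEN node [G-BC-COVER].

For a base change morphism `φ : RigidCover.Hom f P P'` along `f = algebraMap Λ Λ'` the natural map
`Λ' ⊗[Λ] P.R → P'.R`, `c ⊗ z ↦ c · φ z`, is an isomorphism of `Λ'`-algebras
(`RigidCover.Hom.tensorEquiv`): `P.R` is `Λ`-free on `j^m t^i`, and this basis goes to the
corresponding basis of `P'.R`.  The isomorphism is `G`-equivariant (action on the right factor) and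
compatible with the polynomial structures.
-/

namespace Fermat.Agent.Good

open Polynomial TensorProduct

universe u v

section Generic

/-- The action of a monoid `G` on the right factor of a tensor product of algebras
(`g • (a ⊗ b) = a ⊗ g • b`).  A plain definition, not an instance. -/
@[reducible] noncomputable def tensorRightAction (R A B G : Type*) [CommSemiring R] [Semiring A]
    [Algebra R A] [Semiring B] [Algebra R B] [Monoid G] [MulSemiringAction G B]
    [SMulCommClass G R B] : MulSemiringAction G (A ⊗[R] B) where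
  smul g x := Algebra.TensorProduct.map (AlgHom.id R A) (MulSemiringAction.toAlgHom R B g) x
  one_smul x := by
    show Algebra.TensorProduct.map (AlgHom.id R A) (MulSemiringAction.toAlgHom R B (1 : G)) x = x
    have h : MulSemiringAction.toAlgHom R B (1 : G) = AlgHom.id R B :=
      AlgHom.ext fun b => one_smul G b
    rw [h, Algebra.TensorProduct.map_id, AlgHom.id_apply]
  mul_smul g h x := by
    show Algebra.TensorProduct.map (AlgHom.id R A) (MulSemiringAction.toAlgHom R B (g * h)) x =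
      Algebra.TensorProduct.map (AlgHom.id R A) (MulSemiringAction.toAlgHom R B g)
        (Algebra.TensorProduct.map (AlgHom.id R A) (MulSemiringAction.toAlgHom R B h) x)
    have h' : MulSemiringAction.toAlgHom R B (g * h) =
        (MulSemiringAction.toAlgHom R B g).comp (MulSemiringAction.toAlgHom R B h) :=
      AlgHom.ext fun b => mul_smul g h b
    rw [h', ← AlgHom.comp_apply, ← Algebra.TensorProduct.map_comp, AlgHom.id_comp]
  smul_zero g := map_zero _
  smul_add g x y := map_add _ x y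
  smul_one g := map_one _
  smul_mul g x y := map_mul _ x y

lemma tensorRightAction_smul_tmul (R A B G : Type*) [CommSemiring R] [Semiring A]
    [Algebra R A] [Semiring B] [Algebra R B] [Monoid G] [MulSemiringAction G B]
    [SMulCommClass G R B] (g : G) (a : A) (b : B) :
    letI := tensorRightAction R A B G
    g • (a ⊗ₜ[R] b) = a ⊗ₜ (g • b) := rfl

/-- Any action on a tensor product which acts on pure tensors through the right factor is given
by `Algebra.TensorProduct.map id (g • ·)`. -/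
lemma smul_eq_map_of_smul_tmul {R A B G : Type*} [CommSemiring R] [Semiring A]
    [Algebra R A] [Semiring B] [Algebra R B] [Monoid G] [MulSemiringAction G B]
    [SMulCommClass G R B] [MulSemiringAction G (A ⊗[R] B)]
    (hact : ∀ (g : G) (a : A) (b : B), g • (a ⊗ₜ[R] b) = a ⊗ₜ (g • b)) (g : G) (x : A ⊗[R] B) :
    g • x = Algebra.TensorProduct.map (AlgHom.id R A) (MulSemiringAction.toAlgHom R B g) x := by
  induction x using TensorProduct.induction_on with
  | zero => rw [smul_zero, map_zero]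
  | tmul a b => rw [hact]; rfl
  | add x y hx hy => rw [smul_add, hx, hy, map_add]

/-- The canonical map `Λ'[X] → Λ' ⊗[Λ] R` for a `Λ[X]`-algebra `R`: `c ↦ c ⊗ 1`,
`X ↦ 1 ⊗ X`. -/
noncomputable def polyTensorHom (Λ Λ' R : Type*) [CommRing Λ] [CommRing Λ'] [Algebra Λ Λ']
    [CommRing R] [Algebra Λ R] [Algebra Λ[X] R] : Λ'[X] →+* Λ' ⊗[Λ] R :=
  Polynomial.eval₂RingHom (Algebra.TensorProduct.includeLeftRingHom)
    (1 ⊗ₜ algebraMap Λ[X] R X)

section

variable (Λ Λ' R : Type*) [CommRing Λ] [CommRing Λ'] [Algebra Λ Λ']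
    [CommRing R] [Algebra Λ R] [Algebra Λ[X] R]

@[simp] lemma polyTensorHom_C (c : Λ') : polyTensorHom Λ Λ' R (C c) = c ⊗ₜ 1 := by
  simp [polyTensorHom]

@[simp] lemma polyTensorHom_X : polyTensorHom Λ Λ' R X = 1 ⊗ₜ algebraMap Λ[X] R X := by
  simp [polyTensorHom]

lemma polyTensorHom_map [IsScalarTower Λ Λ[X] R] (q : Λ[X]) :
    polyTensorHom Λ Λ' R (q.map (algebraMap Λ Λ')) = 1 ⊗ₜ algebraMap Λ[X] R q := by
  induction q using Polynomial.induction_on' with
  | add p q hp hq => rw [Polynomial.map_add, map_add, hp, hq, map_add, TensorProduct.tmul_add]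
  | monomial n a =>
    rw [Polynomial.map_monomial, ← C_mul_X_pow_eq_monomial, ← C_mul_X_pow_eq_monomial, map_mul,
      map_pow, polyTensorHom_C, polyTensorHom_X, Algebra.TensorProduct.tmul_pow, one_pow,
      Algebra.TensorProduct.tmul_mul_tmul, mul_one, one_mul, map_mul, map_pow,
      Algebra.algebraMap_eq_smul_one a, TensorProduct.smul_tmul, ← Algebra.smul_def,
      ← IsScalarTower.algebraMap_smul Λ[X] a]
    rfl

end

end Generic

namespace RigidCover

set_option linter.overlappingInstances false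

variable {Λ : Type u} [CommRing Λ] [Nontrivial Λ] {G : Type} [Group G] [Fintype G]
  (P : RigidCover Λ G)

/-- the `Λ`-algebra structure on `P.R` through the constants `P.const` -/
noncomputable instance instAlgebraConst : Algebra Λ P.R := P.const.toAlgebra

lemma algebraMap_const (a : Λ) : algebraMap Λ P.R a = P.const a := rfl

instance instIsScalarTowerConst : IsScalarTower Λ Λ[X] P.R :=
  .of_algebraMap_eq fun _ => rfl

instance instSMulCommClassConst : SMulCommClass G Λ P.R where
  smul_comm g a z := by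
    rw [Algebra.smul_def, Algebra.smul_def, smul_mul', P.algebraMap_const, P.const_apply,
      P.smul_algebraMap]

/-- the `Λ`-basis `j^m t^i` of `P.R` -/
noncomputable def constBasis : Module.Basis (ℕ × Fin (Fintype.card G)) Λ P.R :=
  (Polynomial.basisMonomials Λ).smulTower P.basis

lemma constBasis_apply (mi : ℕ × Fin (Fintype.card G)) :
    P.constBasis mi = algebraMap Λ[X] P.R (X ^ mi.1) * P.t ^ (mi.2 : ℕ) := by
  rw [constBasis, Module.Basis.smulTower_apply, Polynomial.coe_basisMonomials, P.basis_apply,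
    Algebra.smul_def]
  simp only [← X_pow_eq_monomial]

instance instModuleFreeConst : Module.Free Λ P.R := .of_basis P.constBasis

end RigidCover

namespace RigidCover.Hom

set_option linter.overlappingInstances false
set_option linter.style.haveILetI false

variable {Λ : Type u} [CommRing Λ] [Nontrivial Λ] {Λ' : Type v} [CommRing Λ'] [Nontrivial Λ']
  [Algebra Λ Λ'] {G : Type} [Group G] [Fintype G] {f : Λ →+* Λ'} {P : RigidCover Λ G}
  {P' : RigidCover Λ' G} (φ : RigidCover.Hom f P P')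

/-- the comparison map `Λ' ⊗[Λ] P.R → P'.R`, `c ⊗ z ↦ c · φ z` -/
noncomputable def tensorHom (hf : f = algebraMap Λ Λ') : Λ' ⊗[Λ] P.R →ₐ[Λ'] P'.R :=
  letI : Algebra Λ P'.R := (P'.const.comp (algebraMap Λ Λ')).toAlgebra
  haveI : IsScalarTower Λ Λ' P'.R := .of_algebraMap_eq fun _ => rfl
  Algebra.TensorProduct.lift (Algebra.ofId Λ' P'.R)
    ({ φ.toRingHom with
        commutes' := fun a => by
          show φ.toRingHom (P.const a) = P'.const (algebraMap Λ Λ' a)
          rw [φ.map_const, hf] } : P.R →ₐ[Λ] P'.R)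
    (fun _ _ => Commute.all _ _)

@[simp] lemma tensorHom_tmul (hf : f = algebraMap Λ Λ') (c : Λ') (z : P.R) :
    φ.tensorHom hf (c ⊗ₜ z) = P'.const c * φ.toRingHom z := rfl

omit [Algebra Λ Λ'] in
/-- `φ` maps the constant basis `j^m t^i` to the constant basis -/
lemma map_constBasis (mi : ℕ × Fin (Fintype.card G)) :
    φ.toRingHom (P.constBasis mi) = P'.constBasis mi := by
  rw [P.constBasis_apply, P'.constBasis_apply, map_mul, φ.map_algebraMap, map_pow (φ.toRingHom),
    φ.map_t, Polynomial.map_pow, Polynomial.map_X]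

lemma tensorHom_basis (hf : f = algebraMap Λ Λ') (mi : ℕ × Fin (Fintype.card G)) :
    φ.tensorHom hf (Algebra.TensorProduct.basis Λ' P.constBasis mi) = P'.constBasis mi := by
  rw [Algebra.TensorProduct.basis_apply, tensorHom_tmul, map_one, one_mul, φ.map_constBasis]

theorem tensorHom_bijective (hf : f = algebraMap Λ Λ') :
    Function.Bijective (φ.tensorHom hf) := by
  have h : (φ.tensorHom hf).toLinearMap =
      ((Algebra.TensorProduct.basis Λ' P.constBasis).equiv P'.constBasis
        (Equiv.refl _)).toLinearMap := by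
    refine (Algebra.TensorProduct.basis Λ' P.constBasis).ext fun mi => ?_
    rw [AlgHom.toLinearMap_apply, φ.tensorHom_basis hf, LinearEquiv.coe_coe,
      Module.Basis.equiv_apply, Equiv.refl_apply]
  have h' : ⇑(φ.tensorHom hf) = ⇑((Algebra.TensorProduct.basis Λ' P.constBasis).equiv
      P'.constBasis (Equiv.refl _)) := by
    funext x
    exact LinearMap.congr_fun h x
  rw [h']
  exact LinearEquiv.bijective _

/-- **Base change of a rigid cover is the tensor product**: `Λ' ⊗[Λ] P.R ≃ₐ[Λ'] P'.R`. -/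
noncomputable def tensorEquiv (hf : f = algebraMap Λ Λ') : Λ' ⊗[Λ] P.R ≃ₐ[Λ'] P'.R :=
  AlgEquiv.ofBijective (φ.tensorHom hf) (φ.tensorHom_bijective hf)

/-- (a) the formula on pure tensors -/
@[simp] lemma tensorEquiv_tmul (hf : f = algebraMap Λ Λ') (c : Λ') (z : P.R) :
    φ.tensorEquiv hf (c ⊗ₜ z) = P'.const c * φ.toRingHom z := rfl

lemma tensorEquiv_one_tmul (hf : f = algebraMap Λ Λ') (z : P.R) :
    φ.tensorEquiv hf (1 ⊗ₜ z) = φ.toRingHom z := by
  rw [tensorEquiv_tmul, map_one, one_mul]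

lemma tensorEquiv_symm_map (hf : f = algebraMap Λ Λ') (z : P.R) :
    (φ.tensorEquiv hf).symm (φ.toRingHom z) = 1 ⊗ₜ z := by
  rw [← φ.tensorEquiv_one_tmul hf, AlgEquiv.symm_apply_apply]

/-- (b) `G`-equivariance, instance-free form: the action of `g` on the right factor corresponds
to the action of `g` on `P'.R`. -/
theorem tensorEquiv_map_smul (hf : f = algebraMap Λ Λ') (g : G) (x : Λ' ⊗[Λ] P.R) :
    φ.tensorEquiv hf
        (Algebra.TensorProduct.map (AlgHom.id Λ Λ') (MulSemiringAction.toAlgHom Λ P.R g) x) =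
      g • φ.tensorEquiv hf x := by
  induction x using TensorProduct.induction_on with
  | zero => rw [map_zero, map_zero, smul_zero]
  | tmul c z =>
    rw [Algebra.TensorProduct.map_tmul, AlgHom.id_apply, MulSemiringAction.toAlgHom_apply,
      tensorEquiv_tmul, tensorEquiv_tmul, φ.map_smul, smul_mul', P'.const_apply,
      P'.smul_algebraMap]
  | add x y hx hy => rw [map_add, map_add, hx, hy, map_add, smul_add]

/-- (b) `G`-equivariance on pure tensors -/
lemma tensorEquiv_tmul_smul (hf : f = algebraMap Λ Λ') (g : G) (c : Λ') (z : P.R) :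
    φ.tensorEquiv hf (c ⊗ₜ (g • z)) = g • φ.tensorEquiv hf (c ⊗ₜ z) :=
  φ.tensorEquiv_map_smul hf g (c ⊗ₜ z)

/-- (b) `G`-equivariance for ANY action on the tensor product which acts on pure tensors through
the right factor (e.g. `tensorRightAction Λ Λ' P.R G`). -/
theorem tensorEquiv_smul [MulSemiringAction G (Λ' ⊗[Λ] P.R)]
    (hact : ∀ (g : G) (c : Λ') (z : P.R), g • (c ⊗ₜ[Λ] z) = c ⊗ₜ (g • z))
    (hf : f = algebraMap Λ Λ') (g : G) (x : Λ' ⊗[Λ] P.R) :
    φ.tensorEquiv hf (g • x) = g • φ.tensorEquiv hf x := by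
  rw [smul_eq_map_of_smul_tmul hact, φ.tensorEquiv_map_smul hf]

theorem tensorEquiv_symm_smul [MulSemiringAction G (Λ' ⊗[Λ] P.R)]
    (hact : ∀ (g : G) (c : Λ') (z : P.R), g • (c ⊗ₜ[Λ] z) = c ⊗ₜ (g • z))
    (hf : f = algebraMap Λ Λ') (g : G) (y : P'.R) :
    (φ.tensorEquiv hf).symm (g • y) = g • (φ.tensorEquiv hf).symm y := by
  apply (φ.tensorEquiv hf).injective
  rw [AlgEquiv.apply_symm_apply, φ.tensorEquiv_smul hact hf, AlgEquiv.apply_symm_apply]

/-- (c) compatibility with the polynomial structures -/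
lemma tensorEquiv_tmul_algebraMap (hf : f = algebraMap Λ Λ') (c : Λ') (q : Λ[X]) :
    φ.tensorEquiv hf (c ⊗ₜ algebraMap Λ[X] P.R q) =
      P'.const c * algebraMap Λ'[X] P'.R (q.map f) := by
  rw [tensorEquiv_tmul, φ.map_algebraMap]

end RigidCover.Hom

/-! ### The `Λ'[j]`-structure on `Λ' ⊗[Λ] P.R` -/

namespace RigidCover

set_option linter.overlappingInstances false

variable {Λ : Type u} [CommRing Λ] [Nontrivial Λ] {G : Type} [Group G] [Fintype G]
  (P : RigidCover Λ G) (Λ' : Type v) [CommRing Λ'] [Algebra Λ Λ']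

/-- the `Λ'[j]`-algebra structure on `Λ' ⊗[Λ] P.R`: `c ↦ c ⊗ 1`, `j ↦ 1 ⊗ j` -/
noncomputable instance instAlgebraPolyTensor : Algebra Λ'[X] (Λ' ⊗[Λ] P.R) :=
  (polyTensorHom Λ Λ' P.R).toAlgebra

lemma algebraMap_polyTensor (q : Λ'[X]) :
    algebraMap Λ'[X] (Λ' ⊗[Λ] P.R) q = polyTensorHom Λ Λ' P.R q := rfl

lemma algebraMap_polyTensor_C (c : Λ') :
    algebraMap Λ'[X] (Λ' ⊗[Λ] P.R) (C c) = c ⊗ₜ 1 := polyTensorHom_C Λ Λ' P.R c

lemma algebraMap_polyTensor_X :
    algebraMap Λ'[X] (Λ' ⊗[Λ] P.R) X = 1 ⊗ₜ algebraMap Λ[X] P.R X := polyTensorHom_X Λ Λ' P.R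

lemma algebraMap_polyTensor_map (q : Λ[X]) :
    algebraMap Λ'[X] (Λ' ⊗[Λ] P.R) (q.map (algebraMap Λ Λ')) = 1 ⊗ₜ algebraMap Λ[X] P.R q :=
  polyTensorHom_map Λ Λ' P.R q

instance instIsScalarTowerPolyTensor : IsScalarTower Λ' Λ'[X] (Λ' ⊗[Λ] P.R) :=
  .of_algebraMap_eq fun c => by
    rw [Polynomial.algebraMap_apply, Algebra.algebraMap_self_apply, P.algebraMap_polyTensor_C]
    rfl

end RigidCover

namespace RigidCover.Hom

set_option linter.overlappingInstances false
set_option linter.style.haveILetI false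

variable {Λ : Type u} [CommRing Λ] [Nontrivial Λ] {Λ' : Type v} [CommRing Λ'] [Nontrivial Λ']
  [Algebra Λ Λ'] {G : Type} [Group G] [Fintype G] {f : Λ →+* Λ'} {P : RigidCover Λ G}
  {P' : RigidCover Λ' G} (φ : RigidCover.Hom f P P')

/-- (c) `tensorEquiv` is `Λ'[j]`-linear -/
theorem tensorEquiv_algebraMap (hf : f = algebraMap Λ Λ') (q : Λ'[X]) :
    φ.tensorEquiv hf (algebraMap Λ'[X] (Λ' ⊗[Λ] P.R) q) = algebraMap Λ'[X] P'.R q := by
  have h : ((φ.tensorEquiv hf : Λ' ⊗[Λ] P.R →+* P'.R)).comp (algebraMap Λ'[X] (Λ' ⊗[Λ] P.R)) =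
      algebraMap Λ'[X] P'.R := by
    refine Polynomial.ringHom_ext (fun c => ?_) ?_
    · rw [RingHom.comp_apply, P.algebraMap_polyTensor_C]
      show φ.tensorEquiv hf (c ⊗ₜ 1) = _
      rw [tensorEquiv_tmul, map_one, mul_one, P'.const_apply]
    · rw [RingHom.comp_apply, P.algebraMap_polyTensor_X]
      show φ.tensorEquiv hf (1 ⊗ₜ _) = _
      rw [φ.tensorEquiv_one_tmul, φ.map_algebraMap, Polynomial.map_X]
  exact RingHom.congr_fun h q

/-- `tensorEquiv` as an isomorphism of `Λ'[j]`-algebras -/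
noncomputable def tensorPolyEquiv (hf : f = algebraMap Λ Λ') : Λ' ⊗[Λ] P.R ≃ₐ[Λ'[X]] P'.R :=
  AlgEquiv.ofRingEquiv (f := (φ.tensorEquiv hf).toRingEquiv) (φ.tensorEquiv_algebraMap hf)

@[simp] lemma tensorPolyEquiv_apply (hf : f = algebraMap Λ Λ') (x : Λ' ⊗[Λ] P.R) :
    φ.tensorPolyEquiv hf x = φ.tensorEquiv hf x := rfl

@[simp] lemma tensorPolyEquiv_symm_apply (hf : f = algebraMap Λ Λ') (y : P'.R) :
    (φ.tensorPolyEquiv hf).symm y = (φ.tensorEquiv hf).symm y := rfl

/-- the `Λ'[j]`-basis `1 ⊗ t^i` of `Λ' ⊗[Λ] P.R` -/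
noncomputable def tensorBasis (hf : f = algebraMap Λ Λ') :
    Module.Basis (Fin (Fintype.card G)) Λ'[X] (Λ' ⊗[Λ] P.R) :=
  P'.basis.map (φ.tensorPolyEquiv hf).symm.toLinearEquiv

lemma tensorBasis_apply (hf : f = algebraMap Λ Λ') (i : Fin (Fintype.card G)) :
    φ.tensorBasis hf i = 1 ⊗ₜ (P.t ^ (i : ℕ)) := by
  rw [tensorBasis, Module.Basis.map_apply, AlgEquiv.toLinearEquiv_apply,
    tensorPolyEquiv_symm_apply, ← φ.map_basis, φ.tensorEquiv_symm_map, P.basis_apply]

include φ in
theorem tensor_moduleFree (hf : f = algebraMap Λ Λ') : Module.Free Λ'[X] (Λ' ⊗[Λ] P.R) :=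
  .of_basis (φ.tensorBasis hf)

include φ in
theorem tensor_moduleFinite (hf : f = algebraMap Λ Λ') : Module.Finite Λ'[X] (Λ' ⊗[Λ] P.R) :=
  .of_basis (φ.tensorBasis hf)

include φ in
theorem tensor_finrank (hf : f = algebraMap Λ Λ') :
    Module.finrank Λ'[X] (Λ' ⊗[Λ] P.R) = Fintype.card G := by
  rw [Module.finrank_eq_card_basis (φ.tensorBasis hf), Fintype.card_fin]

include φ in
/-- `Λ'` a domain ⇒ `Λ' ⊗[Λ] P.R` a domain -/
theorem tensor_isDomain (hf : f = algebraMap Λ Λ') [IsDomain Λ'] : IsDomain (Λ' ⊗[Λ] P.R) := by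
  have := P'.isDomain
  exact (φ.tensorEquiv hf).toMulEquiv.isDomain P'.R

include φ in
/-- `Λ'` an integrally closed domain ⇒ `Λ' ⊗[Λ] P.R` integrally closed -/
theorem tensor_isIntegrallyClosed (hf : f = algebraMap Λ Λ') [IsDomain Λ']
    [IsIntegrallyClosed Λ'] : IsIntegrallyClosed (Λ' ⊗[Λ] P.R) := by
  have := P'.isIntegrallyClosed
  exact IsIntegrallyClosed.of_equiv (φ.tensorEquiv hf).symm.toRingEquiv

include φ in
/-- the structure map `Λ'[j] → Λ' ⊗[Λ] P.R` is injective -/
theorem tensor_algebraMap_injective (hf : f = algebraMap Λ Λ') :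
    Function.Injective (algebraMap Λ'[X] (Λ' ⊗[Λ] P.R)) := by
  intro p q h
  apply P'.algebraMap_injective
  rw [← φ.tensorEquiv_algebraMap hf, ← φ.tensorEquiv_algebraMap hf, h]

include φ in
/-- **Invariants**, instance-free form: for `Λ'` a domain the elements of `Λ' ⊗[Λ] P.R` fixed by
the action of `G` on the right factor are exactly the image of `Λ'[j]`. -/
theorem tensor_mem_range_of_map_eq (hf : f = algebraMap Λ Λ') [IsDomain Λ'] (x : Λ' ⊗[Λ] P.R)
    (hx : ∀ g : G,
      Algebra.TensorProduct.map (AlgHom.id Λ Λ') (MulSemiringAction.toAlgHom Λ P.R g) x = x) :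
    x ∈ (algebraMap Λ'[X] (Λ' ⊗[Λ] P.R)).range := by
  have h1 : ∀ g : G, g • φ.tensorEquiv hf x = φ.tensorEquiv hf x := fun g => by
    rw [← φ.tensorEquiv_map_smul hf, hx g]
  obtain ⟨q, hq⟩ := P'.mem_range_algebraMap_of_smul_eq _ h1
  refine ⟨q, ?_⟩
  apply (φ.tensorEquiv hf).injective
  rw [φ.tensorEquiv_algebraMap hf, hq]

include φ in
/-- **Invariants**: for ANY action of `G` on `Λ' ⊗[Λ] P.R` through the right factor, the fixed
points are exactly the image of `Λ'[j]` (`Λ'` a domain). -/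
theorem tensor_forall_smul_eq_iff [MulSemiringAction G (Λ' ⊗[Λ] P.R)]
    (hact : ∀ (g : G) (c : Λ') (z : P.R), g • (c ⊗ₜ[Λ] z) = c ⊗ₜ (g • z))
    (hf : f = algebraMap Λ Λ') [IsDomain Λ'] (x : Λ' ⊗[Λ] P.R) :
    (∀ g : G, g • x = x) ↔ x ∈ (algebraMap Λ'[X] (Λ' ⊗[Λ] P.R)).range := by
  constructor
  · intro hx
    refine φ.tensor_mem_range_of_map_eq hf x fun g => ?_
    rw [← smul_eq_map_of_smul_tmul hact, hx g]
  · rintro ⟨q, rfl⟩ g
    apply (φ.tensorEquiv hf).injective
    rw [φ.tensorEquiv_smul hact hf, φ.tensorEquiv_algebraMap hf, P'.smul_algebraMap]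

include φ in
/-- `Λ' ⊗[Λ] P.R` is of finite type over `Λ'` -/
theorem tensor_finiteType (hf : f = algebraMap Λ Λ') : Algebra.FiniteType Λ' (Λ' ⊗[Λ] P.R) := by
  have h1 : Algebra.FiniteType Λ'[X] P'.R := inferInstance
  have h2 : Algebra.FiniteType Λ' P'.R :=
    Algebra.FiniteType.trans (inferInstance : Algebra.FiniteType Λ' Λ'[X]) h1
  exact h2.equiv (φ.tensorEquiv hf).symm

end RigidCover.Hom

/-! ### The case of a field `Λ' = k` -/

namespace RigidCover.Hom

set_option linter.overlappingInstances false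
set_option linter.style.haveILetI false

variable {Λ : Type u} [CommRing Λ] [Nontrivial Λ] {k : Type v} [Field k]
  [Algebra Λ k] {G : Type} [Group G] [Fintype G] {f : Λ →+* k} {P : RigidCover Λ G}
  {Pk : RigidCover k G} (φ : RigidCover.Hom f P Pk)

include φ in
/-- over a field `k`, `k ⊗[Λ] P.R` is a principal ideal ring -/
theorem tensor_isPrincipalIdealRing (hf : f = algebraMap Λ k) :
    IsPrincipalIdealRing (k ⊗[Λ] P.R) := by
  have := Pk.isPrincipalIdealRing
  exact IsPrincipalIdealRing.of_surjective (φ.tensorEquiv hf).symm.toRingEquiv.toRingHom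
    (φ.tensorEquiv hf).symm.surjective

include φ in
/-- over a field `k`, `k ⊗[Λ] P.R` is not a field (it is finite free over `k[j]`) -/
theorem tensor_not_isField (hf : f = algebraMap Λ k) : ¬ IsField (k ⊗[Λ] P.R) := by
  intro h
  have := φ.tensor_isDomain hf
  have := φ.tensor_moduleFinite hf
  exact Polynomial.not_isField k
    (isField_of_isIntegral_of_isField (φ.tensor_algebraMap_injective hf) h)

end RigidCover.Hom

end Fermat.Agent.Good
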