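import Fermat.Agent.Good.DiscReduction

/-!
# L-GEN, GOODQUOT construction, part 1: the special fibre `k ⊗[O] B`

`O`-algebras `R → B`, elements `b i : B` which are `R`-linearly independent with
`f • B ⊆ ∑ R b i`, and an `O`-algebra `k` in which `f` becomes `1` (after `R → k ⊗[O] R`).
Then `1 ⊗ b i` is a basis of `k ⊗[O] B` over `k ⊗[O] R`, traces are compatible, and the
discriminant of this basis is the image of the discriminant downstairs.
-/

set_option autoImplicit false

open TensorProduct

namespace Fermat.Agent.Good.SF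

section TraceGen

variable {R E κ Λ : Type*} [CommRing R] [CommRing E] [Algebra R E]
  [CommRing κ] [CommRing Λ] [Algebra κ Λ]

/-- **Trace compatibility, general form.**  `φ : R → κ`, `ρ : B → Λ` semilinear, `φ f = 1`,
`f B ⊆ ∑ R b i`, `b` an `L`-basis of `E`, `ρ (b i)` a `κ`-basis of `Λ`.  Then
`Tr_{Λ/κ}(ρ x) = φ (Tr_{E/L} x)`. -/
theorem trace_map_of_lifts (L : Type*) [Field L] [Algebra R L] [Algebra L E] [IsScalarTower R L E]
    [FaithfulSMul R L] (φ : R →+* κ) (ρ : integralClosure R E →+* Λ)
    (hρφ : ∀ (r : R) (x : integralClosure R E), ρ (r • x) = φ r • ρ x)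
    {n : ℕ} (bE : Module.Basis (Fin n) L E) (bΛ : Module.Basis (Fin n) κ Λ)
    (b : Fin n → integralClosure R E) (hbE : ∀ i, bE i = (b i : E)) (hbΛ : ∀ i, ρ (b i) = bΛ i)
    {f : R} (hφf : φ f = 1)
    (hf2 : ∀ x : integralClosure R E, f • x ∈ Submodule.span R (Set.range b))
    (x : integralClosure R E) (t : R) (ht : algebraMap R L t = Algebra.trace L E (x : E)) :
    Algebra.trace κ Λ (ρ x) = φ t := by
  classical
  have hinj : Function.Injective (algebraMap R L) := FaithfulSMul.algebraMap_injective R L
  choose N hN using fun j => (Submodule.mem_span_range_iff_exists_fun R).mp (hf2 (x * b j))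
  have hE : ∀ j i, algebraMap R L f * bE.repr ((x : E) * bE j) i = algebraMap R L (N j i) := by
    intro j i
    have h1 : (algebraMap R L f) • ((x : E) * bE j) = ∑ i, (algebraMap R L (N j i)) • bE i := by
      have h2 := congrArg (Subtype.val) (hN j)
      rw [Subalgebra.coe_smul, Subalgebra.coe_mul] at h2
      rw [algebraMap_smul, hbE j, ← h2]
      simp only [AddSubmonoidClass.coe_finsetSum, Subalgebra.coe_smul, algebraMap_smul, hbE]
    have h3 := congrArg (fun y => bE.repr y i) h1
    simp only [map_smul, Finsupp.smul_apply, smul_eq_mul] at h3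
    rw [h3, Module.Basis.repr_sum_self]
  have hTrE : algebraMap R L (f * t) = algebraMap R L (∑ j, N j j) := by
    rw [map_mul, ht, Algebra.trace_eq_matrix_trace bE, Matrix.trace, Finset.mul_sum, map_sum]
    refine Finset.sum_congr rfl fun j _ => ?_
    rw [Matrix.diag_apply, Algebra.leftMulMatrix_eq_repr_mul, hE]
  have hft : f * t = ∑ j, N j j := hinj hTrE
  have hΛ : ∀ j i, bΛ.repr (ρ x * bΛ j) i = φ (N j i) := by
    intro j i
    have h1 : ρ x * bΛ j = ∑ i, φ (N j i) • bΛ i := by
      have h2 := congrArg ρ (hN j)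
      rw [hρφ, hφf, one_smul, map_mul, hbΛ, map_sum] at h2
      rw [← h2]
      refine Finset.sum_congr rfl fun i _ => ?_
      rw [hρφ, hbΛ]
    rw [h1, Module.Basis.repr_sum_self]
  rw [Algebra.trace_eq_matrix_trace bΛ, Matrix.trace]
  have : φ t = φ (f * t) := by rw [map_mul, hφf, one_mul]
  rw [this, hft, map_sum]
  refine Finset.sum_congr rfl fun j _ => ?_
  rw [Matrix.diag_apply, Algebra.leftMulMatrix_eq_repr_mul, hΛ]

/-- the discriminant of the reduced basis is the image of the discriminant. -/
theorem discr_map_of_lifts (L : Type*) [IsIntegrallyClosed R] [Field L] [Algebra R L]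
    [Algebra L E] [IsScalarTower R L E] [IsFractionRing R L] [Module.Finite L E]
    (φ : R →+* κ) (ρ : integralClosure R E →+* Λ)
    (hρφ : ∀ (r : R) (x : integralClosure R E), ρ (r • x) = φ r • ρ x)
    {n : ℕ} (bE : Module.Basis (Fin n) L E) (bΛ : Module.Basis (Fin n) κ Λ)
    (b : Fin n → integralClosure R E) (hbE : ∀ i, bE i = (b i : E)) (hbΛ : ∀ i, ρ (b i) = bΛ i)
    {f : R} (hφf : φ f = 1)
    (hf2 : ∀ x : integralClosure R E, f • x ∈ Submodule.span R (Set.range b))
    (d : R) (hd : algebraMap R L d = Algebra.discr L bE) :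
    Algebra.discr κ bΛ = φ d := by
  classical
  have hbint : ∀ i, IsIntegral R (bE i) := fun i => by rw [hbE]; exact (b i).2
  have hT : ∀ i j, ∃ t : R, algebraMap R L t = Algebra.trace L E (bE i * bE j) := fun i j =>
    IsIntegrallyClosed.algebraMap_eq_of_integral
      (isIntegral_trace_alg ((hbint i).mul (hbint j)))
  choose T hTij using hT
  let TA : Matrix (Fin n) (Fin n) R := Matrix.of T
  have hTA : (algebraMap R L).mapMatrix TA = Algebra.traceMatrix L bE := by
    ext i j
    rw [RingHom.mapMatrix_apply, Matrix.map_apply, Algebra.traceMatrix_apply,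
      Algebra.traceForm_apply]
    exact hTij i j
  have hd' : algebraMap R L TA.det = algebraMap R L d := by
    rw [RingHom.map_det, hTA, ← Algebra.discr_def, hd]
  have hdd : TA.det = d := IsFractionRing.injective R L hd'
  have hTΛ : φ.mapMatrix TA = Algebra.traceMatrix κ bΛ := by
    ext i j
    rw [RingHom.mapMatrix_apply, Matrix.map_apply, Algebra.traceMatrix_apply,
      Algebra.traceForm_apply, ← hbΛ i, ← hbΛ j, ← map_mul]
    refine (trace_map_of_lifts L φ ρ hρφ bE bΛ b hbE hbΛ hφf hf2 (b i * b j) (T i j) ?_).symm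
    rw [hTij, hbE, hbE, Subalgebra.coe_mul]
  rw [← hdd, RingHom.map_det, hTΛ, Algebra.discr_def]

end TraceGen

section TensorModel

variable (O k : Type*) {R B : Type*} [CommRing O] [CommRing k] [Algebra O k]
  [CommRing R] [Algebra O R] [CommRing B] [Algebra R B] [Algebra O B] [IsScalarTower O R B]

/-- `k ⊗[O] B` as an algebra over `k ⊗[O] R`. -/
@[reducible] noncomputable def tensorAlgebra : Algebra (k ⊗[O] R) (k ⊗[O] B) :=
  (Algebra.TensorProduct.map (AlgHom.id O k) (IsScalarTower.toAlgHom O R B)).toRingHom.toAlgebra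

attribute [local instance] tensorAlgebra

theorem tensorAlgebra_algebraMap_tmul (c : k) (r : R) :
    algebraMap (k ⊗[O] R) (k ⊗[O] B) (c ⊗ₜ r) = c ⊗ₜ (algebraMap R B r) := by
  show (Algebra.TensorProduct.map (AlgHom.id O k) (IsScalarTower.toAlgHom O R B)) (c ⊗ₜ r) = _
  rw [Algebra.TensorProduct.map_tmul]; rfl

theorem tmul_smul_tmul (c c' : k) (r : R) (x : B) :
    (c ⊗ₜ[O] r) • (c' ⊗ₜ[O] x) = (c * c') ⊗ₜ[O] (r • x) := by
  rw [Algebra.smul_def, tensorAlgebra_algebraMap_tmul, Algebra.TensorProduct.tmul_mul_tmul,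
    Algebra.smul_def]

variable {O k}

/-- base change of an `R`-linear map `B → R` is `k ⊗ R`-linear. -/
theorem baseChange_smul (θ : B →ₗ[R] R) (s : k ⊗[O] R) (a : k ⊗[O] B) :
    (θ.restrictScalars O).baseChange k (s • a) = s * (θ.restrictScalars O).baseChange k a := by
  induction s using TensorProduct.induction_on with
  | zero => simp
  | add s s' hs hs' => rw [add_smul, map_add, hs, hs', add_mul]
  | tmul c r =>
    induction a using TensorProduct.induction_on with
    | zero => simp
    | add a a' ha ha' => rw [smul_add, map_add, ha, ha', map_add, mul_add]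
    | tmul c' x =>
      rw [tmul_smul_tmul, LinearMap.baseChange_tmul, LinearMap.baseChange_tmul,
        Algebra.TensorProduct.tmul_mul_tmul]
      simp

end TensorModel

section Basis

variable {O k R B : Type*} [CommRing O] [CommRing k] [Algebra O k]
  [CommRing R] [Algebra O R] [CommRing B] [Algebra R B] [Algebra O B] [IsScalarTower O R B]

attribute [local instance] tensorAlgebra

variable {n : ℕ} (b : Fin n → B) (hli : LinearIndependent R b) (f : R)
  (hf : ∀ x : B, f • x ∈ Submodule.span R (Set.range b))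

/-- the `j`-th coordinate of `f • x` in the free module `∑ R b i`. -/
noncomputable def coordMap (j : Fin n) : B →ₗ[R] R :=
  (Finsupp.lapply j).comp ((Module.Basis.span hli).repr.toLinearMap.comp
    (LinearMap.codRestrict (Submodule.span R (Set.range b)) (f • LinearMap.id) hf))

theorem coordMap_basis (i j : Fin n) :
    coordMap b hli f hf j (b i) = if i = j then f else 0 := by
  classical
  have h1 : (LinearMap.codRestrict (Submodule.span R (Set.range b)) (f • LinearMap.id) hf) (b i)
      = f • (Module.Basis.span hli i) := by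
    apply Subtype.ext
    simp [Module.Basis.span_apply]
  simp only [coordMap, LinearMap.comp_apply, LinearEquiv.coe_coe, h1, map_smul,
    Module.Basis.repr_self, Finsupp.lapply_apply, Finsupp.single_apply,
    smul_eq_mul]
  split_ifs <;> simp

variable (p : O) (hpk : algebraMap O k p = 0) (g : R) (hfg : f = 1 + algebraMap O R p * g)

include hpk hfg in
theorem one_tmul_f : (1 : k) ⊗ₜ[O] f = (1 : k ⊗[O] R) := by
  rw [hfg, TensorProduct.tmul_add, ← Algebra.smul_def, TensorProduct.tmul_smul,
    TensorProduct.smul_tmul', Algebra.smul_def p (1 : k), hpk, zero_mul,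
    TensorProduct.zero_tmul, add_zero]
  rfl

include hpk hfg in
theorem one_tmul_smul_eq (x : B) : (1 : k) ⊗ₜ[O] (f • x) = (1 : k) ⊗ₜ[O] x := by
  rw [hfg, add_smul, one_smul, TensorProduct.tmul_add, mul_smul, algebraMap_smul,
    TensorProduct.tmul_smul, TensorProduct.smul_tmul', Algebra.smul_def p (1 : k), hpk,
    zero_mul, TensorProduct.zero_tmul, add_zero]

include hli hf hpk hfg in
theorem linearIndependent_one_tmul :
    LinearIndependent (k ⊗[O] R) (fun i => (1 : k) ⊗ₜ[O] b i) := by
  classical
  rw [Fintype.linearIndependent_iff]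
  intro s hs j
  have h1 := congrArg (((coordMap b hli f hf j).restrictScalars O).baseChange k) hs
  rw [map_sum, map_zero] at h1
  have h2 : ∀ i, ((coordMap b hli f hf j).restrictScalars O).baseChange k
      (s i • ((1 : k) ⊗ₜ[O] b i)) = if i = j then s i else 0 := by
    intro i
    rw [baseChange_smul, LinearMap.baseChange_tmul]
    show s i * ((1 : k) ⊗ₜ[O] (coordMap b hli f hf j (b i))) = _
    rw [coordMap_basis]
    split_ifs
    · rw [one_tmul_f f p hpk g hfg, mul_one]
    · rw [TensorProduct.tmul_zero, mul_zero]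
  simp only [h2, Finset.sum_ite_eq', Finset.mem_univ, if_true] at h1
  exact h1

include hf hpk hfg in
theorem span_one_tmul :
    ⊤ ≤ Submodule.span (k ⊗[O] R) (Set.range fun i => (1 : k) ⊗ₜ[O] b i) := by
  rintro a -
  induction a using TensorProduct.induction_on with
  | zero => exact Submodule.zero_mem _
  | add a a' ha ha' => exact Submodule.add_mem _ ha ha'
  | tmul c x =>
    obtain ⟨r, hr⟩ := (Submodule.mem_span_range_iff_exists_fun R).mp (hf x)
    have h1 : c ⊗ₜ[O] x = ∑ i, (c ⊗ₜ[O] r i) • ((1 : k) ⊗ₜ[O] b i) := by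
      have h2 : c ⊗ₜ[O] x = (c ⊗ₜ[O] (1 : R)) • ((1 : k) ⊗ₜ[O] (f • x)) := by
        rw [one_tmul_smul_eq f p hpk g hfg, tmul_smul_tmul, mul_one, one_smul]
      rw [h2, ← hr, TensorProduct.tmul_sum, Finset.smul_sum]
      refine Finset.sum_congr rfl fun i _ => ?_
      rw [tmul_smul_tmul, tmul_smul_tmul, mul_one, one_smul]
    rw [h1]
    exact Submodule.sum_mem _ fun i _ =>
      Submodule.smul_mem _ _ (Submodule.subset_span (Set.mem_range_self i))

/-- the basis `1 ⊗ b i` of the special fibre `k ⊗[O] B` over `k ⊗[O] R`. -/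
noncomputable def specialBasis : Module.Basis (Fin n) (k ⊗[O] R) (k ⊗[O] B) :=
  Module.Basis.mk (linearIndependent_one_tmul b hli f hf p hpk g hfg)
    (span_one_tmul b f hf p hpk g hfg)

theorem specialBasis_apply (i : Fin n) :
    specialBasis b hli f hf p hpk g hfg i = (1 : k) ⊗ₜ[O] b i :=
  Module.Basis.mk_apply _ _ i

end Basis

section Main

variable {O k R L E : Type*} [CommRing O] [CommRing k] [Algebra O k]
  [CommRing R] [Algebra O R] [IsDomain R] [IsIntegrallyClosed R] [IsNoetherianRing R]
  [Field L] [Algebra R L] [IsFractionRing R L]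
  [CommRing E] [Algebra R E] [Algebra L E] [IsScalarTower R L E] [Module.Finite L E]
  [Algebra O E] [IsScalarTower O R E]

attribute [local instance] tensorAlgebra

/-- **Special fibre of Lemma A, tensor model.**  Under the hypotheses of Lemma A (with
`π = algebraMap O R p` and `p = 0` in `k`), the special fibre `k ⊗[O] B` of the integral closure
`B` of `R` in `E` is free over `k ⊗[O] R` with a basis of UNIT discriminant. -/
theorem exists_specialBasis_isUnit_discr (p : O) (hpk : algebraMap O k p = 0)
    (hπ : Prime (algebraMap O R p))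
    [IsPrincipalIdealRing (R ⧸ Ideal.span {algebraMap O R p})]
    {ι : Type*} [Fintype ι] [DecidableEq ι]
    (c : Module.Basis ι L E) (hc : ∀ i, IsIntegral R (c i)) (dc : R)
    (hdc : algebraMap R L dc = Algebra.discr L c) (hπdc : ¬ algebraMap O R p ∣ dc)
    (c' : Module.Basis ι L E) (hc' : ∀ i, IsIntegral R (c' i)) (dc' : R)
    (hdc' : algebraMap R L dc' = Algebra.discr L c') (m : ℕ)
    (hm : dc' ∣ algebraMap O R p ^ m) :
    ∃ (n : ℕ) (bS : Module.Basis (Fin n) (k ⊗[O] R) (k ⊗[O] (integralClosure R E)))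
      (b : Fin n → integralClosure R E),
      (∀ i, bS i = (1 : k) ⊗ₜ[O] b i) ∧ IsUnit (Algebra.discr (k ⊗[O] R) bS) := by
  classical
  set π := algebraMap O R p with hπdef
  have : IsDomain (R ⧸ Ideal.span {π}) := by
    rw [Ideal.Quotient.isDomain_iff_prime, Ideal.span_singleton_prime hπ.ne_zero]
    exact hπ
  obtain ⟨n, bΛ, b, bE, f, d, hb, hbE, hf1, hf2, hd, hdΛ, hunit⟩ :=
    (DiscRedData.quotient R E π).exists_basis_isUnit_discr L hπ c hc dc hdc hπdc c' hc' dc'
      hdc' m hm
  -- `b` is `R`-linearly independent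
  have hliL : LinearIndependent L (fun i => (b i : E)) := by
    have := bE.linearIndependent
    have h2 : (fun i => (b i : E)) = bE := funext fun i => (hbE i).symm
    rw [h2]; exact this
  have hliE : LinearIndependent R (fun i => (b i : E)) :=
    (LinearIndependent.iff_fractionRing R L).mpr hliL
  have hli : LinearIndependent R b := by
    refine LinearIndependent.of_comp (integralClosure R E).val.toLinearMap ?_
    exact hliE
  obtain ⟨g, hg⟩ := hf1
  have hfg : f = 1 + algebraMap O R p * g := by
    rw [← hπdef, ← hg]; ring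
  let bS := specialBasis (k := k) b hli f hf2 p hpk g hfg
  have hbS : ∀ i, bS i = (1 : k) ⊗ₜ[O] b i := specialBasis_apply b hli f hf2 p hpk g hfg
  refine ⟨n, bS, b, hbS, ?_⟩
  -- the discriminant
  let φ : R →+* k ⊗[O] R := Algebra.TensorProduct.includeRight.toRingHom
  let ρ : integralClosure R E →+* k ⊗[O] (integralClosure R E) :=
    Algebra.TensorProduct.includeRight.toRingHom
  have hρφ : ∀ (r : R) (x : integralClosure R E), ρ (r • x) = φ r • ρ x := by
    intro r x
    show (1 : k) ⊗ₜ[O] (r • x) = ((1 : k) ⊗ₜ[O] r) • ((1 : k) ⊗ₜ[O] x)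
    rw [tmul_smul_tmul, mul_one]
  have hφf : φ f = 1 := one_tmul_f f p hpk g hfg
  have hdisc : Algebra.discr (k ⊗[O] R) bS = φ d :=
    discr_map_of_lifts L φ ρ hρφ bE bS b hbE (fun i => (hbS i).symm) hφf hf2 d hd
  rw [hdisc]
  -- `d` is a unit modulo `π`
  rw [hdΛ] at hunit
  obtain ⟨u, hu⟩ := hunit.exists_right_inv
  obtain ⟨e, rfl⟩ := Ideal.Quotient.mk_surjective u
  have h1 : π ∣ d * e - 1 := by
    have : (Ideal.Quotient.mk (Ideal.span {π})) (d * e - 1) = 0 := by
      rw [map_sub, map_mul, map_one, sub_eq_zero]; exact hu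
    rwa [Ideal.Quotient.eq_zero_iff_mem, Ideal.mem_span_singleton] at this
  obtain ⟨h, hh⟩ := h1
  refine IsUnit.of_mul_eq_one (φ e) ?_
  have h2 : d * e = 1 + algebraMap O R p * h := by
    rw [← hπdef, ← hh]; ring
  rw [← map_mul, h2]
  exact one_tmul_f (k := k) (1 + algebraMap O R p * h) p hpk h rfl

end Main

end Fermat.Agent.Good.SF
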