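/-
L-GEN [G-TENS-INJ] (helper5): base change to the residue field preserves injectivity of a
linear map with saturated image.

`O` a commutative ring, `p : O` with `O ⧸ (p)` a field, `k` a field with `Algebra O k` killing `p`.
If `j : M →ₗ[O] M'` is injective and its image is `p`-saturated
(`p • x' ∈ range j → x' ∈ range j`), then `k ⊗[O] M → k ⊗[O] M'` is injective.
-/
import Mathlib

set_option autoImplicit false

namespace Fermat.Agent.Good.TensInj

open TensorProduct

variable {O : Type*} [CommRing O] (p : O)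
variable {M M' : Type*} [AddCommGroup M] [Module O M] [AddCommGroup M'] [Module O M']

/-- Every element of `(O ⧸ I) ⊗[O] M` is of the form `1 ⊗ₜ m`. -/
theorem exists_one_tmul (I : Ideal O) (t : (O ⧸ I) ⊗[O] M) : ∃ m : M, t = 1 ⊗ₜ[O] m := by
  obtain ⟨m, hm⟩ := Submodule.Quotient.mk_surjective _ (quotTensorEquivQuotSMul M I t)
  refine ⟨m, ?_⟩
  apply (quotTensorEquivQuotSMul M I).injective
  rw [quotTensorEquivQuotSMul_mk_one_tmul, hm]

/-- `1 ⊗ₜ m = 0` in `(O ⧸ (p)) ⊗[O] M` iff `m ∈ p M`. -/
theorem one_tmul_eq_zero_iff (m : M) :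
    (1 : O ⧸ Ideal.span {p}) ⊗ₜ[O] m = 0 ↔ ∃ m₀ : M, m = p • m₀ := by
  rw [← (quotTensorEquivQuotSMul M (Ideal.span {p})).map_eq_zero_iff,
    quotTensorEquivQuotSMul_mk_one_tmul, Submodule.Quotient.mk_eq_zero,
    Submodule.ideal_span_singleton_smul]
  constructor
  · rintro ⟨m₀, -, rfl⟩
    exact ⟨m₀, rfl⟩
  · rintro ⟨m₀, rfl⟩
    exact ⟨m₀, Submodule.mem_top, rfl⟩

/-- **Reduction mod `p`.** An injective map with `p`-saturated image stays injective
modulo `p`. -/
theorem lTensor_quotient_injective (j : M →ₗ[O] M') (hj : Function.Injective j)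
    (hsat : ∀ x' : M', p • x' ∈ LinearMap.range j → x' ∈ LinearMap.range j) :
    Function.Injective (LinearMap.lTensor (O ⧸ Ideal.span {p}) j) := by
  rw [injective_iff_map_eq_zero]
  intro t ht
  obtain ⟨m, rfl⟩ := exists_one_tmul (Ideal.span {p}) t
  rw [LinearMap.lTensor_tmul, one_tmul_eq_zero_iff] at ht
  obtain ⟨x', hx'⟩ := ht
  obtain ⟨m₀, rfl⟩ := hsat x' ⟨m, hx'⟩
  rw [← map_smul] at hx'
  rw [one_tmul_eq_zero_iff]
  exact ⟨m₀, hj hx'⟩

variable {k : Type*} [Field k] [Algebra O k]

/-- **[G-TENS-INJ].** `O → k` a ring map to a field killing `p`, `(p)` a maximal ideal of `O`,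
`j : M → M'` injective with `p`-saturated image: then `k ⊗[O] M → k ⊗[O] M'` is injective. -/
theorem lTensor_injective_of_saturated (hp : algebraMap O k p = 0)
    (hmax : (Ideal.span {p} : Ideal O).IsMaximal)
    (j : M →ₗ[O] M') (hj : Function.Injective j)
    (hsat : ∀ x' : M', p • x' ∈ LinearMap.range j → x' ∈ LinearMap.range j) :
    Function.Injective (LinearMap.lTensor k j) := by
  classical
  set I : Ideal O := Ideal.span {p} with hI
  let _ : Field (O ⧸ I) := Ideal.Quotient.field I
  have hIk : ∀ a ∈ I, algebraMap O k a = 0 := by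
    intro a ha
    rw [hI, Ideal.mem_span_singleton'] at ha
    obtain ⟨b, rfl⟩ := ha
    rw [map_mul, hp, mul_zero]
  let _ : Algebra (O ⧸ I) k := (Ideal.Quotient.lift I (algebraMap O k) hIk).toAlgebra
  have : IsScalarTower O (O ⧸ I) k := IsScalarTower.of_algebraMap_eq fun a => by
    rw [RingHom.algebraMap_toAlgebra, Ideal.Quotient.algebraMap_eq, Ideal.Quotient.lift_mk]
  -- the base change of `j` to `O ⧸ I` as an `O ⧸ I`-linear map
  have h0 : Function.Injective (LinearMap.baseChange (O ⧸ I) j) :=
    lTensor_quotient_injective p j hj hsat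
  have h1 : Function.Injective (LinearMap.lTensor k (LinearMap.baseChange (O ⧸ I) j)) :=
    Module.Flat.lTensor_preserves_injective_linearMap _ h0
  have hnat := AlgebraTensorModule.lTensor_comp_cancelBaseChange (R := O) (A := O ⧸ I) (B := k)
    (M := k) (f := j)
  intro x y hxy
  obtain ⟨x, rfl⟩ := (AlgebraTensorModule.cancelBaseChange O (O ⧸ I) k k M).surjective x
  obtain ⟨y, rfl⟩ := (AlgebraTensorModule.cancelBaseChange O (O ⧸ I) k k M).surjective y
  have hx := LinearMap.congr_fun hnat x
  have hy := LinearMap.congr_fun hnat y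
  simp only [LinearMap.coe_comp, Function.comp_apply, LinearEquiv.coe_coe] at hx hy
  have h2 : (AlgebraTensorModule.lTensor k k j)
      (AlgebraTensorModule.cancelBaseChange O (O ⧸ I) k k M x) =
      (AlgebraTensorModule.lTensor k k j)
        (AlgebraTensorModule.cancelBaseChange O (O ⧸ I) k k M y) := hxy
  rw [hx, hy] at h2
  have h3 := (AlgebraTensorModule.cancelBaseChange O (O ⧸ I) k k M').injective h2
  congr 1
  exact h1 h3

/-- Variant with the kernel hypothesis: `ker (O → k) = (p)` and `(p)` maximal. -/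
theorem lTensor_injective_of_ker_eq (hker : RingHom.ker (algebraMap O k) = Ideal.span {p})
    (hmax : (Ideal.span {p} : Ideal O).IsMaximal)
    (j : M →ₗ[O] M') (hj : Function.Injective j)
    (hsat : ∀ x' : M', p • x' ∈ LinearMap.range j → x' ∈ LinearMap.range j) :
    Function.Injective (LinearMap.lTensor k j) := by
  refine lTensor_injective_of_saturated p ?_ hmax j hj hsat
  rw [← RingHom.mem_ker, hker]
  exact Ideal.mem_span_singleton_self p

end Fermat.Agent.Good.TensInj
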