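import Fermat.Agent.Good.GoodQuotCore
import Fermat.Agent.Good.SpecialFibre
import Fermat.Agent.Good.Polarisation
import Fermat.Agent.Good.TensorInjective
import Fermat.Agent.Good.RigidCoverBaseChange

/-!
# L-GEN, GOODQUOT: normality of the special fibre of a quotient, tensor model

`O` a base ring with a prime `p`, `k` an algebraically closed field with `p = 0`, `R` the ring of a
(rigid) cover with a finite group `G` acting `O`-linearly, `E` an auxiliary finite algebra over a
fraction field `L` of `R` with a semilinear action of `G`, `B = integralClosure R E`, and `B0` an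
`O`-algebra with an injective `O`-algebra map `i0 : B0 → B` onto the `G`-fixed points of `B`.

Under the hypotheses of Lemma A for `(R, E, π = p)` ((H1): an integral basis whose discriminant is
prime to `π`; (H2): an integral basis whose discriminant divides a power of `π`), and if the special
fibre `S = k ⊗[O] R` of the cover is a PID of finite type over `k`, free of rank `|G|` over a PID
`Λ` with `S^G = Λ`, and `T = k ⊗[O] B0` is a domain, then `T` is integrally closed
(`GQ.isIntegrallyClosed_tensor_of_cover`).

Ingredients: Lemma A in tensor form (`SF.exists_specialBasis_isUnit_discr`), the abstract core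
(`GQ.isIntegrallyClosed_of_isUnit_discr`: Lemma B + rank inequality + étale bridge + invariants of a
normal ring), polarisation (`Pol.prod_smul_mem_polSubalgebra`) and injectivity of
`k ⊗ B0 → k ⊗ B` (`TensInj.lTensor_injective_of_saturated`).
-/

set_option autoImplicit false
set_option linter.style.haveILetI false

open TensorProduct

namespace Fermat.Agent.Good.GQ

section Action

variable {O R E G : Type*} [CommRing O] [CommRing R] [Algebra O R] [CommRing E] [Algebra R E]
  [Algebra O E] [IsScalarTower O R E] [Group G] [MulSemiringAction G R] [SMulCommClass G O R]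
  [MulSemiringAction G E]
  (hsmulE : ∀ (g : G) (r : R) (e : E), g • (r • e) = (g • r) • (g • e))

include hsmulE in
theorem smul_algebraMap_of_semilinear (g : G) (r : R) :
    g • algebraMap R E r = algebraMap R E (g • r) := by
  rw [Algebra.algebraMap_eq_smul_one, hsmulE, smul_one, ← Algebra.algebraMap_eq_smul_one]

include hsmulE in
theorem isIntegral_smul_of_semilinear (g : G) {z : E} (hz : IsIntegral R z) :
    IsIntegral R (g • z) := by
  obtain ⟨q, hq, hz⟩ := hz
  refine ⟨q.map (MulSemiringAction.toRingHom G R g), hq.map _, ?_⟩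
  rw [Polynomial.eval₂_map]
  have h1 : (algebraMap R E).comp (MulSemiringAction.toRingHom G R g) =
      (MulSemiringAction.toRingHom G E g).comp (algebraMap R E) := by
    ext r
    exact (smul_algebraMap_of_semilinear hsmulE g r).symm
  rw [h1]
  have h2 : g • z = MulSemiringAction.toRingHom G E g z := rfl
  rw [h2, ← Polynomial.hom_eval₂, hz, map_zero]

include hsmulE in
/-- the action commutes with the scalars from `O`. -/
theorem smul_comm_of_semilinear (g : G) (a : O) (e : E) : g • (a • e) = a • (g • e) := by
  rw [← algebraMap_smul R a e, hsmulE, ← algebraMap_smul R a (g • e)]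
  congr 1
  rw [Algebra.algebraMap_eq_smul_one, smul_comm, smul_one]

/-- `G` acts on the integral closure of `R` in `E`. -/
@[reducible] noncomputable def intClosureAction : MulSemiringAction G ↥(integralClosure R E) where
  smul g z := ⟨g • (z : E), isIntegral_smul_of_semilinear hsmulE g z.2⟩
  one_smul z := Subtype.ext (one_smul G (z : E))
  mul_smul g h z := Subtype.ext (mul_smul g h (z : E))
  smul_zero g := Subtype.ext (smul_zero g)
  smul_add g x y := Subtype.ext (smul_add g (x : E) (y : E))
  smul_one g := Subtype.ext (smul_one g)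
  smul_mul g x y := Subtype.ext (smul_mul' g (x : E) (y : E))

theorem intClosureAction_coe (g : G) (z : ↥(integralClosure R E)) :
    letI := intClosureAction hsmulE
    ((g • z : ↥(integralClosure R E)) : E) = g • (z : E) := rfl

theorem intClosureAction_smulCommClass :
    letI := intClosureAction hsmulE
    SMulCommClass G O ↥(integralClosure R E) := by
  letI := intClosureAction hsmulE
  refine ⟨fun g a z => Subtype.ext ?_⟩
  exact smul_comm_of_semilinear hsmulE g a (z : E)

theorem intClosureAction_smul_smul (g : G) (r : R) (z : ↥(integralClosure R E)) :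
    letI := intClosureAction hsmulE
    g • (r • z) = (g • r) • (g • z) := by
  letI := intClosureAction hsmulE
  exact Subtype.ext (hsmulE g r (z : E))

end Action

section Tensor

variable {O k R B G : Type*} [CommRing O] [CommRing k] [Algebra O k] [CommRing R] [Algebra O R]
  [CommRing B] [Algebra R B] [Algebra O B] [IsScalarTower O R B] [Group G]
  [MulSemiringAction G R] [SMulCommClass G O R] [MulSemiringAction G B] [SMulCommClass G O B]

attribute [local instance] SF.tensorAlgebra

/-- semilinearity of the tensor actions. -/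
theorem tensor_smul_smul (hsmulB : ∀ (g : G) (r : R) (z : B), g • (r • z) = (g • r) • (g • z))
    (g : G) (s : k ⊗[O] R) (a : k ⊗[O] B) :
    letI := tensorRightAction O k R G
    letI := tensorRightAction O k B G
    g • (s • a) = (g • s) • (g • a) := by
  letI := tensorRightAction O k R G
  letI := tensorRightAction O k B G
  induction s using TensorProduct.induction_on with
  | zero => simp
  | add s s' hs hs' => rw [add_smul, smul_add, hs, hs', smul_add, add_smul]
  | tmul c r =>
    induction a using TensorProduct.induction_on with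
    | zero => simp
    | add a a' ha ha' => rw [smul_add, smul_add, ha, ha', smul_add, smul_add]
    | tmul c' x =>
      rw [SF.tmul_smul_tmul]
      show (c * c') ⊗ₜ[O] (g • (r • x)) = (c ⊗ₜ[O] (g • r)) • (c' ⊗ₜ[O] (g • x))
      rw [SF.tmul_smul_tmul, hsmulB]

/-- the tensor action commutes with the scalars of `k`. -/
theorem tensor_smulCommClass :
    letI := tensorRightAction O k B G
    SMulCommClass G k (k ⊗[O] B) := by
  letI := tensorRightAction O k B G
  refine ⟨fun g c a => ?_⟩
  induction a using TensorProduct.induction_on with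
  | zero => simp
  | add a a' ha ha' => rw [smul_add, smul_add, ha, ha', smul_add, smul_add]
  | tmul c' x =>
    rw [TensorProduct.smul_tmul']
    show (c • c') ⊗ₜ[O] (g • x) = c • (c' ⊗ₜ[O] (g • x))
    rw [TensorProduct.smul_tmul']

theorem span_range_includeRight :
    Submodule.span k (Set.range (Algebra.TensorProduct.includeRight : B →ₐ[O] k ⊗[O] B)) = ⊤ := by
  rw [eq_top_iff]
  rintro a -
  induction a using TensorProduct.induction_on with
  | zero => exact Submodule.zero_mem _
  | add a a' ha ha' => exact Submodule.add_mem _ ha ha'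
  | tmul c x =>
    have h : c ⊗ₜ[O] x = c • ((1 : k) ⊗ₜ[O] x) := by
      rw [TensorProduct.smul_tmul', smul_eq_mul, mul_one]
    rw [h]
    exact Submodule.smul_mem _ _ (Submodule.subset_span ⟨x, rfl⟩)

end Tensor


section Main

variable {O k R L E B0 G Λ : Type*}
  [CommRing O] [Field k] [IsAlgClosed k] [Algebra O k]
  [CommRing R] [Algebra O R] [IsDomain R] [IsIntegrallyClosed R] [IsNoetherianRing R]
  [Field L] [Algebra R L] [IsFractionRing R L]
  [CommRing E] [Algebra R E] [Algebra L E] [IsScalarTower R L E] [Module.Finite L E]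
  [Algebra O E] [IsScalarTower O R E]
  [Group G] [Fintype G] [MulSemiringAction G R] [SMulCommClass G O R] [MulSemiringAction G E]
  [CommRing Λ] [IsDomain Λ] [IsPrincipalIdealRing Λ] [Algebra k Λ]
  [CommRing B0] [Algebra O B0]

attribute [local instance] SF.tensorAlgebra

variable (L) in
omit [IsAlgClosed k] [IsDomain R] [IsIntegrallyClosed R] [IsNoetherianRing R] [Module.Finite L E] in
include L in
/-- `E` has no `p`-torsion. -/
theorem eq_zero_of_smul_eq_zero (p : O) (hp0 : algebraMap O R p ≠ 0) (e : E)
    (h : p • e = 0) : e = 0 := by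
  have h1 : algebraMap R L (algebraMap O R p) ≠ 0 := by
    rw [Ne, map_eq_zero_iff _ (IsFractionRing.injective R L)]
    exact hp0
  have h2 : (algebraMap R L (algebraMap O R p)) • e = 0 := by
    rw [algebraMap_smul, algebraMap_smul]
    exact h
  exact (smul_eq_zero_iff_right h1).mp h2

/-- **GOODQUOT, tensor model over an abstract auxiliary algebra `E`.** -/
theorem isIntegrallyClosed_tensor_of_cover
    -- the semilinear action on `E`
    (hsmulE : ∀ (g : G) (r : R) (e : E), g • (r • e) = (g • r) • (g • e))
    -- the prime `p` of `O`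
    (p : O) (hpk : algebraMap O k p = 0) (hmax : (Ideal.span {p} : Ideal O).IsMaximal)
    (hπ : Prime (algebraMap O R p))
    [IsPrincipalIdealRing (R ⧸ Ideal.span {algebraMap O R p})]
    -- Lemma A: (H1) an integral basis with `π ∤ disc`, (H2) an integral basis with `disc ∣ π ^ m`
    {ι : Type*} [Fintype ι] [DecidableEq ι]
    (c : Module.Basis ι L E) (hc : ∀ i, IsIntegral R (c i)) (dc : R)
    (hdc : algebraMap R L dc = Algebra.discr L c) (hπdc : ¬ algebraMap O R p ∣ dc)
    (c' : Module.Basis ι L E) (hc' : ∀ i, IsIntegral R (c' i)) (dc' : R)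
    (hdc' : algebraMap R L dc' = Algebra.discr L c') (m : ℕ)
    (hm : dc' ∣ algebraMap O R p ^ m)
    -- the special fibre `S = k ⊗[O] R` of the cover, a finite free `Λ`-algebra of rank `|G|`
    [IsDomain (k ⊗[O] R)] [IsPrincipalIdealRing (k ⊗[O] R)] [Algebra.FiniteType k (k ⊗[O] R)]
    (hS : ¬ IsField (k ⊗[O] R)) (hΛ : ¬ IsField Λ)
    [Algebra Λ (k ⊗[O] R)] [IsScalarTower k Λ (k ⊗[O] R)]
    [Module.Free Λ (k ⊗[O] R)] [Module.Finite Λ (k ⊗[O] R)]
    (hGS : Module.finrank Λ (k ⊗[O] R) = Fintype.card G)
    (hSfix : ∀ s : k ⊗[O] R,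
      (∀ g : G, Algebra.TensorProduct.map (AlgHom.id O k) (MulSemiringAction.toAlgHom O R g) s = s) →
        s ∈ (algebraMap Λ (k ⊗[O] R)).range)
    (hΛfix : ∀ (g : G) (a : Λ),
      Algebra.TensorProduct.map (AlgHom.id O k) (MulSemiringAction.toAlgHom O R g)
        (algebraMap Λ (k ⊗[O] R) a) = algebraMap Λ (k ⊗[O] R) a)
    -- the quotient `B0 = (integral closure of R in E)^G`
    [IsDomain (k ⊗[O] B0)]
    (i0 : B0 →ₐ[O] ↥(integralClosure R E)) (hi0 : Function.Injective i0)
    (hi0fix : ∀ (g : G) (x : B0), g • ((i0 x : ↥(integralClosure R E)) : E) = i0 x)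
    (hi0surj : ∀ z : ↥(integralClosure R E), (∀ g : G, g • (z : E) = z) → z ∈ Set.range i0)
    (hΛB0 : ∀ a : Λ, ∃ t : k ⊗[O] B0,
      Algebra.TensorProduct.map (AlgHom.id O k) i0 t =
        Algebra.TensorProduct.map (AlgHom.id O k)
          (IsScalarTower.toAlgHom O R ↥(integralClosure R E)) (algebraMap Λ (k ⊗[O] R) a)) :
    IsIntegrallyClosed (k ⊗[O] B0) := by
  classical
  -- Lemma A, tensor form
  obtain ⟨n, bS, b, hbS, hunit⟩ := SF.exists_specialBasis_isUnit_discr (k := k) p hpk hπ c hc dc
    hdc hπdc c' hc' dc' hdc' m hm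
  -- the actions
  letI actB : MulSemiringAction G ↥(integralClosure R E) := intClosureAction hsmulE
  haveI commB : SMulCommClass G O ↥(integralClosure R E) := intClosureAction_smulCommClass hsmulE
  letI actS : MulSemiringAction G (k ⊗[O] R) := tensorRightAction O k R G
  letI actA : MulSemiringAction G (k ⊗[O] ↥(integralClosure R E)) :=
    tensorRightAction O k ↥(integralClosure R E) G
  haveI commA : SMulCommClass G k (k ⊗[O] ↥(integralClosure R E)) := tensor_smulCommClass
  have hsmulB : ∀ (g : G) (r : R) (z : ↥(integralClosure R E)), g • (r • z) = (g • r) • (g • z) :=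
    intClosureAction_smul_smul hsmulE
  have hsmul : ∀ (g : G) (s : k ⊗[O] R) (a : k ⊗[O] ↥(integralClosure R E)),
      g • (s • a) = (g • s) • (g • a) := fun g s a => tensor_smul_smul hsmulB g s a
  -- the `Λ`-structure on `A`
  letI algΛA : Algebra Λ (k ⊗[O] ↥(integralClosure R E)) :=
    ((algebraMap (k ⊗[O] R) (k ⊗[O] ↥(integralClosure R E))).comp
      (algebraMap Λ (k ⊗[O] R))).toAlgebra
  haveI towΛSA : IsScalarTower Λ (k ⊗[O] R) (k ⊗[O] ↥(integralClosure R E)) :=
    IsScalarTower.of_algebraMap_eq fun _ => rfl
  haveI towkSA : IsScalarTower k (k ⊗[O] R) (k ⊗[O] ↥(integralClosure R E)) := by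
    refine IsScalarTower.of_algebraMap_eq fun a => ?_
    rw [Algebra.TensorProduct.algebraMap_apply, Algebra.TensorProduct.algebraMap_apply,
      SF.tensorAlgebra_algebraMap_tmul, map_one]
  haveI towkΛA : IsScalarTower k Λ (k ⊗[O] ↥(integralClosure R E)) := by
    refine IsScalarTower.of_algebraMap_eq fun a => ?_
    rw [IsScalarTower.algebraMap_apply Λ (k ⊗[O] R) (k ⊗[O] ↥(integralClosure R E)),
      ← IsScalarTower.algebraMap_apply k Λ (k ⊗[O] R),
      ← IsScalarTower.algebraMap_apply k (k ⊗[O] R) (k ⊗[O] ↥(integralClosure R E))]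
  -- the map `ι'`
  let ι' : k ⊗[O] B0 →+* k ⊗[O] ↥(integralClosure R E) :=
    (Algebra.TensorProduct.map (AlgHom.id O k) i0).toRingHom
  have hι' : ∀ (a : k) (x : B0), ι' (a ⊗ₜ x) = a ⊗ₜ i0 x := fun a x => by
    show Algebra.TensorProduct.map (AlgHom.id O k) i0 (a ⊗ₜ x) = _
    rw [Algebra.TensorProduct.map_tmul]; rfl
  -- `G` fixes `Λ`
  have hgalg : ∀ (g : G) (s : k ⊗[O] R),
      g • algebraMap (k ⊗[O] R) (k ⊗[O] ↥(integralClosure R E)) s =
        algebraMap (k ⊗[O] R) (k ⊗[O] ↥(integralClosure R E)) (g • s) := fun g s => by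
    rw [Algebra.algebraMap_eq_smul_one, hsmul, smul_one, ← Algebra.algebraMap_eq_smul_one]
  have hΛG : ∀ (g : G) (a : Λ), g • algebraMap Λ (k ⊗[O] ↥(integralClosure R E)) a =
      algebraMap Λ (k ⊗[O] ↥(integralClosure R E)) a := fun g a => by
    rw [IsScalarTower.algebraMap_apply Λ (k ⊗[O] R) (k ⊗[O] ↥(integralClosure R E)), hgalg]
    congr 1
    exact hΛfix g a
  -- `p`-torsion
  have hp0 : algebraMap O R p ≠ 0 := hπ.ne_zero
  have htors : ∀ e : E, p • e = 0 → e = 0 := eq_zero_of_smul_eq_zero L p hp0
  -- injectivity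
  have hinj : Function.Injective ι' := by
    have h1 : Function.Injective (LinearMap.lTensor k i0.toLinearMap) := by
      refine TensInj.lTensor_injective_of_saturated p hpk hmax i0.toLinearMap hi0 ?_
      rintro x' ⟨y, hy⟩
      obtain ⟨y', hy'⟩ := hi0surj x' (fun g => by
        have h2 : g • ((p • x' : ↥(integralClosure R E)) : E) =
            ((p • x' : ↥(integralClosure R E)) : E) := by
          rw [← hy]; exact hi0fix g y
        have h3 : p • (g • (x' : E) - x') = 0 := by
          rw [smul_sub, sub_eq_zero, ← smul_comm_of_semilinear hsmulE]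
          exact h2
        exact sub_eq_zero.mp (htors _ h3))
      exact ⟨y', hy'⟩
    have h2 : ∀ t, ι' t = LinearMap.lTensor k i0.toLinearMap t := fun t => by
      induction t using TensorProduct.induction_on with
      | zero => simp
      | add x y hx hy => rw [map_add, map_add, hx, hy]
      | tmul a x => rw [hι', LinearMap.lTensor_tmul]; rfl
    intro t t' h
    apply h1
    rw [← h2, ← h2, h]
  -- the image is fixed
  have hfix : ∀ (g : G) (t : k ⊗[O] B0), g • ι' t = ι' t := fun g t => by
    induction t using TensorProduct.induction_on with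
    | zero => simp
    | add x y hx hy => rw [map_add, smul_add, hx, hy]
    | tmul a x =>
      rw [hι']
      show a ⊗ₜ[O] (g • i0 x) = a ⊗ₜ[O] i0 x
      congr 1
      exact Subtype.ext (hi0fix g x)
  -- the image contains `Λ`
  have hΛT : ∀ a : Λ, algebraMap Λ (k ⊗[O] ↥(integralClosure R E)) a ∈ ι'.range := fun a => by
    obtain ⟨t, ht⟩ := hΛB0 a
    exact ⟨t, ht⟩
  -- the image contains all norms
  have hnorm : ∀ z : k ⊗[O] ↥(integralClosure R E), ∏ g : G, g • z ∈ ι'.range := fun z => by
    let red : ↥(integralClosure R E) →+* k ⊗[O] ↥(integralClosure R E) :=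
      (Algebra.TensorProduct.includeRight :
        ↥(integralClosure R E) →ₐ[O] k ⊗[O] ↥(integralClosure R E)).toRingHom
    have hequiv : ∀ (g : G) (x : ↥(integralClosure R E)), red (g • x) = g • red x :=
      fun g x => rfl
    have hspan : Submodule.span k (Set.range red) = ⊤ := span_range_includeRight
    have h1 := Pol.prod_smul_mem_polSubalgebra (k := k) red hequiv hspan z
    rw [Pol.mem_polSubalgebra_iff] at h1
    refine Submodule.span_induction (p := fun y _ => y ∈ ι'.range) ?_ ?_ ?_ ?_ h1
    · rintro _ ⟨x, hx, rfl⟩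
      obtain ⟨y, hy⟩ := hi0surj x (fun g => congrArg Subtype.val (hx g))
      refine ⟨(1 : k) ⊗ₜ y, ?_⟩
      rw [hι', hy]
      rfl
    · exact Subring.zero_mem _
    · intro x y _ _ hx hy
      exact Subring.add_mem _ hx hy
    · intro a x _ hx
      rw [Algebra.smul_def]
      refine Subring.mul_mem _ ⟨a ⊗ₜ (1 : B0), ?_⟩ hx
      rw [hι', map_one, Algebra.TensorProduct.algebraMap_apply]
      rfl
  exact isIntegrallyClosed_of_isUnit_discr k hS bS hunit hΛ hGS hsmul
    (fun s hs => hSfix s hs) hΛG ι' hinj hfix hΛT hnorm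


end Main

end Fermat.Agent.Good.GQ
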