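import Mathlib
import Fermat.Agent.Good.DirectSummand

/-!
# Program L (S18), L-GEN, node [G-FIN]: the ring of invariants of a normal ring is normal

`T` a domain, `ι : T →+* A` injective, a group `G` acting on `A` by ring automorphisms such that
`ι T` is exactly the ring of `G`-fixed elements, the nonzero elements of `T` are non-zero-divisors
of `A`, and `A` is *quotient closed* (`Kum.QuotClosed`, e.g. all localisations of `A` at maximal
ideals are integrally closed domains / discrete valuation rings).  Then `T` is integrally closed.

(No finiteness of `G`, no domain hypothesis on `A`.)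
-/

set_option autoImplicit false

open Polynomial
open scoped nonZeroDivisors

namespace Fermat.Agent.Good.Kum

section Invariants

variable {T A G : Type*} [CommRing T] [IsDomain T] [CommRing A] [Group G] [MulSemiringAction G A]

/-- **[G-FIN]**: the ring of invariants of a quotient closed ring is integrally closed. -/
theorem isIntegrallyClosed_of_invariants (ι : T →+* A) (hinj : Function.Injective ι)
    (hfix : ∀ (g : G) (t : T), g • ι t = ι t)
    (hinv : ∀ a : A, (∀ g : G, g • a = a) → a ∈ ι.range)
    (hnzd : ∀ t : T, t ≠ 0 → ι t ∈ A⁰) (hA : QuotClosed A) : IsIntegrallyClosed T := by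
  set L := FractionRing T
  refine (isIntegrallyClosed_iff L).mpr fun {z} hz => ?_
  obtain ⟨a, b, rfl⟩ := IsLocalization.exists_mk'_eq T⁰ z
  obtain ⟨p, hp, hroot⟩ := hz
  have hb0 : (b : T) ≠ 0 := nonZeroDivisors.ne_zero b.2
  -- the homogenised equation holds in `T`
  have h1 : (p.scaleRoots b).eval a = 0 := by
    apply IsFractionRing.injective T L
    rw [map_zero, ← eval₂_at_apply]
    have h2 := scaleRoots_eval₂_eq_zero (p := p) (algebraMap T L) (s := (b : T)) hroot
    rwa [IsLocalization.mk'_spec' L a b] at h2
  -- transport to `A`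
  have hpA : (p.map ι).Monic := hp.map _
  have hAnt : Nontrivial A := by
    refine ⟨⟨ι 1, ι 0, fun h => one_ne_zero (hinj h)⟩⟩
  have h3 : ((p.map ι).scaleRoots (ι b)).eval (ι a) = 0 := by
    have hlc : ι p.leadingCoeff ≠ 0 := by
      rw [hp.leadingCoeff, map_one]; exact one_ne_zero
    rw [← Polynomial.map_scaleRoots p b ι hlc, eval_map, eval₂_at_apply, h1, map_zero]
  obtain ⟨β, hβ⟩ := hA _ _ _ hpA (hnzd b hb0) h3
  -- the quotient is unique, hence `G`-fixed
  have hβfix : ∀ g : G, g • β = β := fun g => by
    have h4 : ι b * (g • β) = ι b * β := by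
      have := congrArg (fun x => g • x) hβ
      simp only [smul_mul', hfix] at this
      rw [← this, hβ]
    have h5 : (g • β - β) * ι b = 0 := by
      rw [sub_mul, mul_comm, h4, mul_comm, sub_self]
    exact sub_eq_zero.mp ((hnzd b hb0).2 _ h5)
  obtain ⟨t, rfl⟩ := hinv β hβfix
  refine ⟨t, ?_⟩
  have h6 : a = b * t := hinj (by rw [hβ, map_mul])
  rw [IsLocalization.eq_mk'_iff_mul_eq, ← map_mul, h6, mul_comm]

/-- **[G-FIN]**, local form: `A` has integrally closed local rings at all maximal ideals. -/
theorem isIntegrallyClosed_of_invariants_of_localization (ι : T →+* A)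
    (hinj : Function.Injective ι) (hfix : ∀ (g : G) (t : T), g • ι t = ι t)
    (hinv : ∀ a : A, (∀ g : G, g • a = a) → a ∈ ι.range)
    (hnzd : ∀ t : T, t ≠ 0 → ι t ∈ A⁰)
    (h : ∀ (P : Ideal A) [P.IsMaximal],
      IsDomain (Localization.AtPrime P) ∧ IsIntegrallyClosed (Localization.AtPrime P)) :
    IsIntegrallyClosed T :=
  isIntegrallyClosed_of_invariants ι hinj hfix hinv hnzd (quotClosed_of_forall_localization A h)

end Invariants

/-- A ring all of whose localisations at maximal ideals are discrete valuation rings is quotient
closed. -/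
theorem quotClosed_of_forall_isDiscreteValuationRing (A : Type*) [CommRing A]
    (h : ∀ (P : Ideal A) [P.IsMaximal],
      ∃ _ : IsDomain (Localization.AtPrime P), IsDiscreteValuationRing (Localization.AtPrime P)) :
    QuotClosed A :=
  quotClosed_of_forall_localization A fun P _ => by
    obtain ⟨hd, hdvr⟩ := h P
    exact ⟨hd, inferInstance⟩

/-- An integrally closed ring in Mathlib's sense need not be a domain; for a *domain* `A` the two
notions agree. -/
theorem quotClosed_iff_isIntegrallyClosed (A : Type*) [CommRing A] [IsDomain A] :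
    QuotClosed A ↔ IsIntegrallyClosed A := by
  refine ⟨fun hA => ?_, fun _ => quotClosed_of_isIntegrallyClosed A⟩
  exact isIntegrallyClosed_of_retraction (A := A) (B := A) LinearMap.id rfl
    (fun a ha => mem_nonZeroDivisors_of_ne_zero ha) hA

end Fermat.Agent.Good.Kum
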