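import Mathlib

/-!
# Independence of invariants and the rank inequality (track L-GEN, node [G-RANK])

`Λ → S` rings, `S` a domain, a finite group `G` acting on `S` by ring automorphisms such that
every `G`-fixed element of `S` comes from `Λ`; `A` an `S`-module with a compatible semilinear
action of `G` (`g • (s • a) = (g • s) • (g • a)`).

* `InvRank.linearIndependent_of_fixed` (**Artin**): a family of `G`-fixed vectors of `A` which is
  linearly independent over `Λ` is linearly independent over `S`.
* `InvRank.finrank_fixed_le` : `rank_Λ (A^G) ≤ rank_S A`.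
* `InvRank.card_mul_finrank_fixed_le` : if `S` is free of rank `|G|` over `Λ` and `A` is finite
  free over `S`, then `|G| · rank_Λ (A^G) ≤ rank_Λ A` (the hypothesis `hrank` of
  `QN.exists_fixed_lift_of_finrank`).
* `InvRank.finrank_eq_card_mul_finrank_fixed` : equality, given a `Λ`-submodule of invariants of
  rank `rank_S A`.
-/

set_option autoImplicit false

namespace Fermat.Agent.Good.InvRank

open Module

section Artin

variable {Λ S A G ι : Type*} [CommRing Λ] [CommRing S] [IsDomain S] [Algebra Λ S]
  [AddCommGroup A] [Module S A] [Module Λ A] [IsScalarTower Λ S A]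
  [Group G] [Fintype G] [MulSemiringAction G S] [DistribMulAction G A]

omit [IsDomain S] in
/-- The norm `∏ g, g • s` is `G`-fixed. -/
theorem smul_prod_smul (h : G) (s : S) : h • (∏ g : G, g • s) = ∏ g : G, g • s := by
  rw [Finset.smul_prod']
  simp only [smul_smul]
  exact Fintype.prod_equiv (Equiv.mulLeft h) _ _ fun g => rfl

/-- **Artin's lemma on invariants.** `G`-fixed vectors which are linearly independent over `Λ`
are linearly independent over `S`, if `S^G` is the image of `Λ`. -/
theorem linearIndependent_of_fixed
    (hsmul : ∀ (g : G) (s : S) (a : A), g • (s • a) = (g • s) • (g • a))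
    (hS : ∀ s : S, (∀ g : G, g • s = s) → s ∈ (algebraMap Λ S).range)
    (v : ι → A) (hv : ∀ (i : ι) (g : G), g • v i = v i)
    (hlin : LinearIndependent Λ v) : LinearIndependent S v := by
  classical
  rw [linearIndependent_iff']
  intro s
  induction s using Finset.strongInduction with
  | H s ih =>
    intro c hc i0 hi0
    by_contra hne
    -- cross relations from the induction hypothesis
    have hcross : ∀ (g : G) (i : ι), i ∈ s → (g • c i0) * c i = c i0 * (g • c i) := by
      intro g i hi
      by_cases hii : i = i0
      · subst hii; exact mul_comm _ _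
      · have hrel1 : ∑ j ∈ s, (g • c j) • v j = 0 := by
          have h1 := congrArg (fun a => g • a) hc
          simp only [Finset.smul_sum, smul_zero, hsmul, hv] at h1
          exact h1
        have h1 : ∑ j ∈ s, ((g • c i0) * c j - c i0 * (g • c j)) • v j = 0 := by
          simp only [sub_smul, mul_smul, Finset.sum_sub_distrib, ← Finset.smul_sum, hc, hrel1,
            smul_zero, sub_zero]
        have hrel : ∑ j ∈ s.erase i0, ((g • c i0) * c j - c i0 * (g • c j)) • v j = 0 := by
          rw [← Finset.add_sum_erase s _ hi0] at h1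
          have h0 : (g • c i0) * c i0 - c i0 * (g • c i0) = 0 := by ring
          rw [h0, zero_smul, zero_add] at h1
          exact h1
        have := ih (s.erase i0) (Finset.erase_ssubset hi0) _ hrel i
          (Finset.mem_erase.mpr ⟨hii, hi⟩)
        exact sub_eq_zero.mp this
    -- the complementary factor of the norm
    set c' : S := ∏ g ∈ (Finset.univ : Finset G).erase 1, g • c i0 with hc'
    have hN : c i0 * c' = ∏ g : G, g • c i0 := by
      have := Finset.mul_prod_erase (Finset.univ : Finset G) (fun g => g • c i0)
        (Finset.mem_univ (1 : G))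
      rw [one_smul] at this
      exact this
    have hN0 : (∏ g : G, g • c i0) ≠ 0 := by
      rw [Finset.prod_ne_zero_iff]
      intro g _
      rw [Ne, smul_eq_zero_iff_eq]
      exact hne
    -- `c' * c i` is fixed
    have hfix : ∀ i ∈ s, ∀ h : G, h • (c' * c i) = c' * c i := by
      intro i hi h
      apply mul_left_cancel₀ hne
      calc c i0 * h • (c' * c i) = (h • c') * (c i0 * (h • c i)) := by
            rw [smul_mul']; ring
        _ = (h • c') * ((h • c i0) * c i) := by rw [hcross h i hi]
        _ = (h • (c i0 * c')) * c i := by rw [smul_mul']; ring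
        _ = c i0 * (c' * c i) := by rw [hN, smul_prod_smul, ← hN]; ring
    have hex : ∀ i : ι, ∃ l : Λ, i ∈ s → algebraMap Λ S l = c' * c i := by
      intro i
      by_cases hi : i ∈ s
      · obtain ⟨l, hl⟩ := hS _ (hfix i hi)
        exact ⟨l, fun _ => hl⟩
      · exact ⟨0, fun h => absurd h hi⟩
    choose l hl using hex
    have hsum : ∑ i ∈ s, l i • v i = 0 := by
      have h1 : ∑ i ∈ s, l i • v i = ∑ i ∈ s, (c' * c i) • v i := by
        refine Finset.sum_congr rfl fun i hi => ?_
        rw [← hl i hi, algebraMap_smul]
      rw [h1]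
      simp only [mul_smul, ← Finset.smul_sum, hc, smul_zero]
    have hl0 := linearIndependent_iff'.mp hlin s l hsum i0 hi0
    have := hl i0 hi0
    rw [hl0, map_zero, mul_comm, hN] at this
    exact hN0 this.symm

end Artin

section Rank

variable {Λ S A G : Type*} [CommRing Λ] [CommRing S] [IsDomain S] [Algebra Λ S]
  [AddCommGroup A] [Module S A] [Module Λ A] [IsScalarTower Λ S A]
  [Group G] [Fintype G] [MulSemiringAction G S] [DistribMulAction G A]

/-- `rank_Λ (A^G) ≤ rank_S A` (more generally for any `Λ`-submodule of invariants). -/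
theorem finrank_fixed_le [Module.Finite S A]
    (hsmul : ∀ (g : G) (s : S) (a : A), g • (s • a) = (g • s) • (g • a))
    (hS : ∀ s : S, (∀ g : G, g • s = s) → s ∈ (algebraMap Λ S).range)
    (F : Submodule Λ A) (hF : ∀ x : A, x ∈ F → ∀ g : G, g • x = x) :
    finrank Λ F ≤ finrank S A := by
  have : Nontrivial Λ := (algebraMap Λ S).domain_nontrivial
  apply Module.finrank_le_of_rank_le
  apply rank_le
  intro s hs
  have h1 : LinearIndependent Λ (fun i : s => ((i : F) : A)) :=
    hs.map' F.subtype (Submodule.ker_subtype F)
  have h2 : LinearIndependent S (fun i : s => ((i : F) : A)) :=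
    linearIndependent_of_fixed hsmul hS _ (fun i g => hF _ (i : F).2 g) h1
  have h3 := h2.fintype_card_le_finrank
  rwa [Fintype.card_coe] at h3

/-- **The rank inequality** `|G| · rank_Λ (A^G) ≤ rank_Λ A`, in the shape of the hypothesis
`hrank` of `QN.exists_fixed_lift_of_finrank`. -/
theorem card_mul_finrank_fixed_le [Module.Free Λ S] [Module.Free S A] [Module.Finite S A]
    (hGS : finrank Λ S = Fintype.card G)
    (hsmul : ∀ (g : G) (s : S) (a : A), g • (s • a) = (g • s) • (g • a))
    (hS : ∀ s : S, (∀ g : G, g • s = s) → s ∈ (algebraMap Λ S).range)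
    (F : Submodule Λ A) (hF : ∀ x : A, x ∈ F → ∀ g : G, g • x = x) :
    Fintype.card G * finrank Λ F ≤ finrank Λ A := by
  have : Nontrivial Λ := (algebraMap Λ S).domain_nontrivial
  rw [← Module.finrank_mul_finrank Λ S A, hGS]
  exact Nat.mul_le_mul_left _ (finrank_fixed_le hsmul hS F hF)

/-- **The rank equation** `rank_Λ A = |G| · rank_Λ (A^G)`, given a `Λ`-submodule `C` of
invariants of rank `rank_S A`. -/
theorem finrank_eq_card_mul_finrank_fixed [Module.Free Λ S] [Module.Free S A] [Module.Finite S A]
    (hGS : finrank Λ S = Fintype.card G)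
    (hsmul : ∀ (g : G) (s : S) (a : A), g • (s • a) = (g • s) • (g • a))
    (hS : ∀ s : S, (∀ g : G, g • s = s) → s ∈ (algebraMap Λ S).range)
    (F : Submodule Λ A) (hF : ∀ x : A, x ∈ F → ∀ g : G, g • x = x) [Module.Finite Λ F]
    (C : Submodule Λ A) (hCF : C ≤ F) (hC : finrank Λ C = finrank S A) :
    finrank Λ A = Fintype.card G * finrank Λ F := by
  have : Nontrivial Λ := (algebraMap Λ S).domain_nontrivial
  have h1 : finrank Λ F = finrank S A :=
    le_antisymm (finrank_fixed_le hsmul hS F hF) (hC ▸ Submodule.finrank_mono hCF)
  rw [← Module.finrank_mul_finrank Λ S A, hGS, h1]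

end Rank

end Fermat.Agent.Good.InvRank
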