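import Mathlib

/-!
# Program L (S18), L-GEN, node [G-KUM]: the non-zero-divisor hypothesis of Lemma (DS)

`A` a domain algebraic (e.g. integral) over a subring `S₀`, `B` an `A`-algebra which is torsion-free
as an `S₀`-module.  Then every nonzero element of `A` is a non-zero-divisor on `B`.

Application (cusp chart): `S₀ = k̄[w, 1/(1-1728w)]`, `A = (B_inf,c / ℓ) ⊗ k̄` (a domain, finite over
`S₀`), `B = (B_E,c / ℓ) ⊗ k̄` (free over `S₀`).
-/

set_option autoImplicit false

namespace Fermat.Agent.Good.Kum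

/-- Every nonzero element of a domain `A` algebraic over `S₀` is a non-zero-divisor on any
`A`-algebra `B` on which the nonzero elements of `S₀` are non-zero-divisors. -/
theorem algebraMap_mem_nonZeroDivisors_of_isAlgebraic {S₀ A B : Type*} [CommRing S₀] [CommRing A]
    [IsDomain A] [CommRing B] [Algebra S₀ A] [Algebra S₀ B] [Algebra A B] [IsScalarTower S₀ A B]
    [Algebra.IsAlgebraic S₀ A]
    (htf : ∀ s : S₀, s ≠ 0 → algebraMap S₀ B s ∈ nonZeroDivisors B) {a : A} (ha : a ≠ 0) :
    algebraMap A B a ∈ nonZeroDivisors B := by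
  obtain ⟨r, hr, c, hc⟩ := (Algebra.IsAlgebraic.isAlgebraic (R := S₀) a).exists_nonzero_dvd
    (mem_nonZeroDivisors_of_ne_zero ha)
  have h := htf r hr
  rw [IsScalarTower.algebraMap_apply S₀ A B, hc, map_mul] at h
  exact (mul_mem_nonZeroDivisors.mp h).1

/-- Module form of the torsion-freeness hypothesis. -/
theorem algebraMap_mem_nonZeroDivisors_of_isAlgebraic' {S₀ A B : Type*} [CommRing S₀] [IsDomain S₀]
    [CommRing A] [IsDomain A] [CommRing B] [Algebra S₀ A] [Algebra S₀ B] [Algebra A B]
    [IsScalarTower S₀ A B] [Algebra.IsAlgebraic S₀ A] [Module.IsTorsionFree S₀ B]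
    {a : A} (ha : a ≠ 0) : algebraMap A B a ∈ nonZeroDivisors B := by
  refine algebraMap_mem_nonZeroDivisors_of_isAlgebraic (S₀ := S₀) (fun s hs => ?_) ha
  rw [mem_nonZeroDivisors_iff_right]
  intro b hb
  rw [mul_comm, ← Algebra.smul_def] at hb
  exact (smul_eq_zero_iff_right hs).mp hb

end Fermat.Agent.Good.Kum
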