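import Fermat.Agent.Good.NormQuotientEtale
import Fermat.Agent.Good.InvariantRank
import Fermat.Agent.Good.InvariantClosed
import Fermat.Agent.Good.TorsionFreeNZD

/-!
# L-GEN, GOODQUOT, abstract core

`S` a PID (not a field) of finite type over an algebraically closed field `kb`, `A` a finite free
`S`-algebra with a basis of unit discriminant, a finite group `G` acting on `S` and semilinearly on
`A`, `Λ → S` a PID with `S^G = Λ`, `S` free of rank `|G|` over `Λ`.  Let `ι' : T → A` be an injective
ring homomorphism from a domain `T` whose image consists of `G`-fixed elements, contains the image of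
`Λ`, and contains all norms `∏ g, g • z`.  Then the image of `ι'` is the ring of all `G`-fixed
elements, and `T` is integrally closed.

This is the combination of Lemma B (`QN.fixed_mem_of_finrank_of_isUnit_discr`), the rank inequality
(`InvRank.card_mul_finrank_fixed_le`), the étale bridge and `Kum.isIntegrallyClosed_of_invariants`.
-/

set_option autoImplicit false

open scoped nonZeroDivisors

namespace Fermat.Agent.Good.GQ

section Core

variable (kb : Type*) {S A G Λ T : Type*} [Field kb] [IsAlgClosed kb] [CommRing S] [IsDomain S]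
  [IsPrincipalIdealRing S] [Algebra kb S] [Algebra.FiniteType kb S] [CommRing A] [Algebra S A]
  [Algebra kb A] [IsScalarTower kb S A] {ι : Type*} [Fintype ι] [DecidableEq ι]
  [Group G] [Fintype G] [MulSemiringAction G A] [MulSemiringAction G S]
  [CommRing Λ] [IsDomain Λ] [IsPrincipalIdealRing Λ] [Algebra Λ S] [Algebra Λ A]
  [IsScalarTower Λ S A] [Algebra kb Λ] [IsScalarTower kb Λ A]
  [Module.Free Λ S] [Module.Finite Λ S]
  [CommRing T] [IsDomain T]

include kb in
/-- the `G`-fixed elements of `A` all lie in the image of `ι'`. -/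
theorem fixed_mem_range (hS : ¬ IsField S) (b : Module.Basis ι S A)
    (hb : IsUnit (Algebra.discr S b)) (hΛ : ¬ IsField Λ)
    (hGS : Module.finrank Λ S = Fintype.card G)
    (hsmul : ∀ (g : G) (s : S) (a : A), g • (s • a) = (g • s) • (g • a))
    (hSfix : ∀ s : S, (∀ g : G, g • s = s) → s ∈ (algebraMap Λ S).range)
    (hΛG : ∀ (g : G) (a : Λ), g • algebraMap Λ A a = algebraMap Λ A a)
    (ι' : T →+* A)
    (hΛT : ∀ a : Λ, algebraMap Λ A a ∈ ι'.range)
    (hnorm : ∀ z : A, ∏ g : G, g • z ∈ ι'.range)
    (x : A) (hx : ∀ g : G, g • x = x) : x ∈ ι'.range := by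
  have hfinSA : Module.Finite S A := Module.Finite.of_basis b
  have hfreeSA : Module.Free S A := Module.Free.of_basis b
  have hfinΛA : Module.Finite Λ A := Module.Finite.trans S A
  have hfreeΛA : Module.Free Λ A := Module.Free.trans (R := Λ) (S := S) (M := A)
  have htf : Module.IsTorsionFree Λ A := inferInstance
  let F : Submodule Λ A :=
    { carrier := {x | ∀ g : G, g • x = x}
      add_mem' := fun {x y} hx hy g => by rw [smul_add, hx g, hy g]
      zero_mem' := fun g => smul_zero g
      smul_mem' := fun c x hx g => by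
        rw [Algebra.smul_def, smul_mul', hΛG, hx g] }
  have hF : ∀ x : A, x ∈ F ↔ ∀ g : G, g • x = x := fun x => Iff.rfl
  have hrank : Fintype.card G * Module.finrank Λ F ≤ Module.finrank Λ A :=
    InvRank.card_mul_finrank_fixed_le hGS hsmul hSfix F (fun x hx => (hF x).mp hx)
  exact QN.fixed_mem_of_finrank_of_isUnit_discr kb hS b hb hΛ hΛG F hF hrank ι'.range hΛT
    hnorm x hx

include kb in
/-- nonzero elements of `T` are non-zero-divisors of `A`. -/
theorem map_mem_nonZeroDivisors (b : Module.Basis ι S A) (ι' : T →+* A)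
    (hinj : Function.Injective ι') (hΛT : ∀ a : Λ, algebraMap Λ A a ∈ ι'.range)
    (t : T) (ht : t ≠ 0) : ι' t ∈ A⁰ := by
  have hfinSA : Module.Finite S A := Module.Finite.of_basis b
  have hfreeSA : Module.Free S A := Module.Free.of_basis b
  have hfinΛA : Module.Finite Λ A := Module.Finite.trans S A
  have hfreeΛA : Module.Free Λ A := Module.Free.trans (R := Λ) (S := S) (M := A)
  have htf : Module.IsTorsionFree Λ A := inferInstance
  -- the image of `ι'` as a `Λ`-subalgebra of `A`
  let T' : Subalgebra Λ A :=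
    { ι'.range.toSubsemiring with
      algebraMap_mem' := fun a => hΛT a }
  have hmem : ∀ x : A, x ∈ T' ↔ x ∈ ι'.range := fun x => Iff.rfl
  have hdom : IsDomain T' := by
    have hnt : Nontrivial T' :=
      ⟨⟨0, 1, fun h => by
        have h1 : (0 : A) = 1 := congrArg Subtype.val h
        have h2 : ι' 0 = ι' 1 := by rw [map_zero, map_one]; exact h1
        exact zero_ne_one (hinj h2)⟩⟩
    have hnzd : NoZeroDivisors T' := by
      refine ⟨fun {x y} hxy => ?_⟩
      obtain ⟨x, hx⟩ := x
      obtain ⟨y, hy⟩ := y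
      obtain ⟨u, rfl⟩ := (hmem x).mp hx
      obtain ⟨v, rfl⟩ := (hmem y).mp hy
      have h1 : ι' u * ι' v = 0 := congrArg Subtype.val hxy
      rw [← map_mul, ← map_zero ι'] at h1
      rcases mul_eq_zero.mp (hinj h1) with h | h
      · left; ext; show ι' u = 0; rw [h, map_zero]
      · right; ext; show ι' v = 0; rw [h, map_zero]
    exact NoZeroDivisors.to_isDomain _
  have hint : Algebra.IsIntegral Λ A := Algebra.IsIntegral.of_finite Λ A
  have hintT : Algebra.IsIntegral Λ T' :=
    Algebra.IsIntegral.of_injective T'.val Subtype.val_injective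
  have halg : Algebra.IsAlgebraic Λ T' := inferInstance
  have hne : (⟨ι' t, (hmem _).mpr ⟨t, rfl⟩⟩ : T') ≠ 0 := by
    intro h
    have h1 : ι' t = 0 := congrArg Subtype.val h
    rw [← map_zero ι'] at h1
    exact ht (hinj h1)
  exact Kum.algebraMap_mem_nonZeroDivisors_of_isAlgebraic' (S₀ := Λ) (A := T') (B := A) hne

include kb in
/-- **GOODQUOT, abstract core.**  The ring `T` of invariants is integrally closed. -/
theorem isIntegrallyClosed_of_isUnit_discr (hS : ¬ IsField S) (b : Module.Basis ι S A)
    (hb : IsUnit (Algebra.discr S b)) (hΛ : ¬ IsField Λ)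
    (hGS : Module.finrank Λ S = Fintype.card G)
    (hsmul : ∀ (g : G) (s : S) (a : A), g • (s • a) = (g • s) • (g • a))
    (hSfix : ∀ s : S, (∀ g : G, g • s = s) → s ∈ (algebraMap Λ S).range)
    (hΛG : ∀ (g : G) (a : Λ), g • algebraMap Λ A a = algebraMap Λ A a)
    (ι' : T →+* A) (hinj : Function.Injective ι')
    (hfix : ∀ (g : G) (t : T), g • ι' t = ι' t)
    (hΛT : ∀ a : Λ, algebraMap Λ A a ∈ ι'.range)
    (hnorm : ∀ z : A, ∏ g : G, g • z ∈ ι'.range) : IsIntegrallyClosed T := by
  refine Kum.isIntegrallyClosed_of_invariants ι' hinj hfix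
    (fixed_mem_range kb hS b hb hΛ hGS hsmul hSfix hΛG ι' hΛT hnorm)
    (map_mem_nonZeroDivisors kb (Λ := Λ) b ι' hinj hΛT) ?_
  exact Kum.quotClosed_of_forall_isDiscreteValuationRing A fun Q _ =>
    (ET.etaleBridge_maximal (kb := kb) hS b hb Q).1

end Core

end Fermat.Agent.Good.GQ
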