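import Fermat.Agent.Good.H2Cover

/-!
# (H2) for a rigid cover from the hypothesis (RAM)

Variant of `H2C.exists_basis_isIntegral_discr_dvd_pow` (`Good/H2Cover.lean`) taking helper20's
ramification hypothesis `hram` (both the cover side and the curve side) as a single argument, in
the shape produced by `InstOdd.hram_of_embedding` / `InstOdd.hram_fin` (`Good/InstOddRam.lean`).
The output is again the (H2) argument of `GQ3.isIntegrallyClosed_tensor_of_rigidCover`, verbatim.
-/

namespace Fermat.Agent.Good.H2C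

open Polynomial TensorProduct Module

set_option linter.overlappingInstances false
set_option linter.style.haveILetI false
set_option linter.unusedSectionVars false

attribute [local instance] Algebra.TensorProduct.rightAlgebra

universe u v

variable {O : Type u} [CommRing O] [IsDomain O] {K : Type v} [Field K] [CharZero K] [Algebra O K]
  (p : O) [IsLocalization.Away p K]
  {G : Type} [Group G] [Fintype G] {P : RigidCover O G} {PK : RigidCover K G}
  (φ0 : RigidCover.Hom (algebraMap O K) P PK)
  {F : Type*} [Field F] [Algebra O[X] F] [FaithfulSMul O[X] F] [Algebra K[X] F]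
  (B₀ : Type*) [CommRing B₀] [IsDedekindDomain B₀] [Algebra K[X] B₀] [Module.Finite K[X] B₀]
  [Module.IsTorsionFree K[X] B₀] [Algebra B₀ F] [IsFractionRing B₀ F] [IsScalarTower K[X] B₀ F]
  (K₀ : Type*) [Field K₀] [Algebra K[X] K₀] [IsFractionRing K[X] K₀] [Algebra K₀ F]
  [IsScalarTower K[X] K₀ F] [FiniteDimensional K₀ F] [Algebra.IsSeparable K₀ F]
  (L : Type*) [Field L] [Algebra P.R L] [IsFractionRing P.R L]

include φ0 B₀ K₀ in
/-- **(H2) for a rigid cover from (RAM)** (generic in `P`). -/
theorem exists_basis_isIntegral_discr_dvd_pow_of_hram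
    (hcompat : ∀ q : O[X], algebraMap K[X] F (q.map (algebraMap O K)) = algebraMap O[X] F q)
    (hram : ∀ u : PK.R, Prime u → ∃ (ϖ : K[X]) (w : PK.R) (m : ℕ), Prime ϖ ∧ 0 < m ∧
      algebraMap K[X] PK.R ϖ = w * u ^ m ∧ ¬ u ∣ w ∧
      ∀ Q : Ideal B₀, Q.IsPrime → algebraMap K[X] B₀ ϖ ∈ Q → ramCount ϖ Q ∣ m)
    {ι : Type*} [Fintype ι] [DecidableEq ι] (hι : Fintype.card ι = Module.finrank K₀ F) :
    letI := Aux.algebraFrac O[X] P.R F L
    ∃ c' : Basis ι L (F ⊗[O[X]] P.R), (∀ i, IsIntegral P.R (c' i)) ∧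
      ∃ d' : P.R, algebraMap P.R L d' = Algebra.discr L c' ∧ ∃ m : ℕ, d' ∣ P.const p ^ m := by
  classical
  letI aPoly : Algebra O[X] K[X] := (mapRingHom (algebraMap O K)).toAlgebra
  letI aK₀ : Algebra O[X] K₀ := ((algebraMap K[X] K₀).comp (algebraMap O[X] K[X])).toAlgebra
  haveI tK₀ : IsScalarTower O[X] K[X] K₀ := .of_algebraMap_eq fun _ => rfl
  haveI fK₀ : IsFractionRing O[X] K₀ := isFractionRing_poly_of_away p K₀ fun _ => rfl
  haveI tF : IsScalarTower O[X] K₀ F := .of_algebraMap_eq fun q => by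
    show algebraMap O[X] F q = algebraMap K₀ F (algebraMap K[X] K₀ (q.map (algebraMap O K)))
    rw [← IsScalarTower.algebraMap_apply K[X] K₀ F, hcompat]
  haveI pidK : IsPrincipalIdealRing PK.R := PK.isPrincipalIdealRing
  letI aBase : Algebra P.R PK.R := φ0.baseAlgebra
  letI aCov : Algebra O[X] PK.R :=
    ((algebraMap K[X] PK.R).comp (algebraMap O[X] K[X])).toAlgebra
  haveI tCov1 : IsScalarTower O[X] K[X] PK.R := .of_algebraMap_eq fun _ => rfl
  haveI tCov2 : IsScalarTower O[X] P.R PK.R := .of_algebraMap_eq fun q => by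
    show algebraMap K[X] PK.R (q.map (algebraMap O K)) = φ0.toRingHom (algebraMap O[X] P.R q)
    rw [φ0.map_algebraMap]
  letI aFrac : Algebra PK.R L := φ0.fracAlgebra L rfl p
  haveI fFrac : IsFractionRing PK.R L := φ0.isFractionRing_frac L rfl p
  haveI tFrac : IsScalarTower P.R PK.R L := φ0.isScalarTower_frac L rfl p
  haveI lAway : IsLocalization.Away (P.const p) PK.R := φ0.isLocalization_away rfl p
  exact H2T.exists_basis_tensor_isIntegral_discr_dvd_pow O[X] P.R F L K B₀ K₀ (P.const p) hram hι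

end Fermat.Agent.Good.H2C
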