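/-
L-GEN / (H2) plumbing (helper20): the hypothesis (H2) of `GQ.isIntegrallyClosed_tensor_of_cover`
for the auxiliary tensor algebra `E = F ⊗[A0'] R` of `Good/AuxAlgebra.lean`, from Abhyankar-lite
(`Good/AbhyankarLite.lean`).

Interface: `A0'` (e.g. `O[X]`) a domain, `R` a domain, free and finite over `A0'`, `F` a field
with a faithful `A0'`-algebra structure, `L` a fraction field of `R`, `E = F ⊗[A0'] R` with the
`L`-algebra structure `Aux.algebraFrac A0' R F L`.  Characteristic zero side: `A₀` (e.g. `K[X]`,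
`K = Frac O`) a PID over a characteristic zero field `k`, lying between `A0'` and the common
fraction field `K₀`; `B₀` a Dedekind domain, finite and torsion-free over `A₀`, with fraction field
`F`, `F / K₀` finite separable.  Cover side: `A₁ = R[1/π]` a PID containing `A₀`, with fraction
field `L`.  Under the ramification hypothesis (RAM), `E` has an `L`-basis of `R`-integral elements
whose discriminant divides a power of `π`.
-/
import Fermat.Agent.Good.AbhyankarLite
import Fermat.Agent.Good.AuxAlgebra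

set_option autoImplicit false
set_option linter.unusedSectionVars false
set_option linter.style.haveILetI false
set_option linter.unusedVariables false

namespace Fermat.Agent.Good.H2T

open TensorProduct Module

attribute [local instance] Algebra.TensorProduct.rightAlgebra

/-- Two ring homomorphisms from a ring `A₀` lying between `A0'` and its fraction field `K₀` into a
field agree as soon as they agree on `A0'` (and are injective there). -/
theorem ringHom_eq_of_eq_on_base {A0' A₀ K₀ L : Type*} [CommRing A0'] [IsDomain A0'] [CommRing A₀] [Field K₀]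
    [Field L] [Algebra A0' A₀] [Algebra A0' K₀] [Algebra A₀ K₀] [IsScalarTower A0' A₀ K₀]
    [IsFractionRing A0' K₀] [IsFractionRing A₀ K₀] (f g : A₀ →+* L)
    (hfg : ∀ a : A0', f (algebraMap A0' A₀ a) = g (algebraMap A0' A₀ a))
    (hinj : ∀ a : A0', a ≠ 0 → f (algebraMap A0' A₀ a) ≠ 0) (x : A₀) : f x = g x := by
  obtain ⟨⟨a, s⟩, hs⟩ := IsLocalization.surj (nonZeroDivisors A0') (algebraMap A₀ K₀ x)
  simp only at hs
  have h1 : x * algebraMap A0' A₀ (s : A0') = algebraMap A0' A₀ a := by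
    apply IsFractionRing.injective A₀ K₀
    rw [map_mul, ← IsScalarTower.algebraMap_apply A0' A₀ K₀,
      ← IsScalarTower.algebraMap_apply A0' A₀ K₀]
    exact hs
  have hs0 : (s : A0') ≠ 0 := nonZeroDivisors.ne_zero s.2
  have h2 : f x * f (algebraMap A0' A₀ (s : A0')) = g x * f (algebraMap A0' A₀ (s : A0')) := by
    rw [← map_mul, h1, hfg a, ← h1, map_mul, hfg]
  exact mul_right_cancel₀ (hinj _ hs0) h2

section Main

variable (A0' R F : Type*) [CommRing A0'] [IsDomain A0'] [CommRing R] [IsDomain R] [Field F]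
  [Algebra A0' R] [Algebra A0' F] [Module.Free A0' R] [Module.Finite A0' R] [FaithfulSMul A0' F]
  (L : Type*) [Field L] [Algebra R L] [IsFractionRing R L]
  (k : Type*) [Field k] [CharZero k]
  {A₀ : Type*} (B₀ : Type*) [CommRing A₀] [IsDomain A₀] [IsPrincipalIdealRing A₀] [Algebra k A₀]
  [CommRing B₀] [IsDedekindDomain B₀] [Algebra A₀ B₀] [Module.Finite A₀ B₀]
  [Module.IsTorsionFree A₀ B₀]
  (K₀ : Type*) [Field K₀] [Algebra A₀ K₀] [IsFractionRing A₀ K₀] [Algebra A0' K₀]
  [IsFractionRing A0' K₀] [Algebra A0' A₀] [IsScalarTower A0' A₀ K₀]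
  [Algebra K₀ F] [IsScalarTower A0' K₀ F] [Algebra A₀ F] [IsScalarTower A₀ K₀ F]
  [Algebra B₀ F] [IsFractionRing B₀ F] [IsScalarTower A₀ B₀ F]
  [FiniteDimensional K₀ F] [Algebra.IsSeparable K₀ F]
  {A₁ : Type*} [CommRing A₁] [IsDomain A₁] [IsPrincipalIdealRing A₁]
  [Algebra A₀ A₁] [Algebra R A₁] [Algebra A0' A₁] [IsScalarTower A0' A₀ A₁]
  [IsScalarTower A0' R A₁] [Algebra A₁ L] [IsFractionRing A₁ L] [IsScalarTower R A₁ L]
  (π : R) [IsLocalization.Away π A₁]

include k B₀ K₀ in
/-- **(H2) for the auxiliary tensor algebra `E = F ⊗[A0'] R`.** -/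
theorem exists_basis_tensor_isIntegral_discr_dvd_pow
    (hram : ∀ u : A₁, Prime u → ∃ (ϖ : A₀) (w : A₁) (m : ℕ), Prime ϖ ∧ 0 < m ∧
      algebraMap A₀ A₁ ϖ = w * u ^ m ∧ ¬ u ∣ w ∧
      ∀ P : Ideal B₀, P.IsPrime → algebraMap A₀ B₀ ϖ ∈ P → ramCount ϖ P ∣ m)
    {ι : Type*} [Fintype ι] [DecidableEq ι] (hι : Fintype.card ι = Module.finrank K₀ F) :
    letI := Aux.algebraFrac A0' R F L
    ∃ c' : Basis ι L (F ⊗[A0'] R), (∀ i, IsIntegral R (c' i)) ∧
      ∃ d' : R, algebraMap R L d' = Algebra.discr L c' ∧ ∃ m : ℕ, d' ∣ π ^ m := by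
  classical
  letI algLE := Aux.algebraFrac A0' R F L
  haveI towRLE := Aux.isScalarTower_frac A0' R F L
  haveI finLE : Module.Finite L (F ⊗[A0'] R) := Aux.finite_frac A0' R F L (K0 := K₀)
  letI algA₁E : Algebra A₁ (F ⊗[A0'] R) :=
    ((algebraMap L (F ⊗[A0'] R)).comp (algebraMap A₁ L)).toAlgebra
  haveI : IsScalarTower A₁ L (F ⊗[A0'] R) := IsScalarTower.of_algebraMap_eq fun _ => rfl
  haveI : IsScalarTower R A₁ (F ⊗[A0'] R) := IsScalarTower.of_algebraMap_eq fun r => by
    show algebraMap R (F ⊗[A0'] R) r = algebraMap L _ (algebraMap A₁ L (algebraMap R A₁ r))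
    rw [← IsScalarTower.algebraMap_apply R A₁ L, ← IsScalarTower.algebraMap_apply R L]
  let ψ : K₀ →+* L := Aux.fracMap A0' R L K₀
  have hψ : ∀ a : A₀, ψ (algebraMap A₀ K₀ a) = algebraMap A₁ L (algebraMap A₀ A₁ a) := by
    intro a
    refine ringHom_eq_of_eq_on_base (A0' := A0') (K₀ := K₀) (ψ.comp (algebraMap A₀ K₀))
      ((algebraMap A₁ L).comp (algebraMap A₀ A₁)) ?_ ?_ a
    · intro a'
      simp only [RingHom.comp_apply]
      rw [← IsScalarTower.algebraMap_apply A0' A₀ K₀, ← IsScalarTower.algebraMap_apply A0' A₀ A₁,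
        IsScalarTower.algebraMap_apply A0' R A₁, ← IsScalarTower.algebraMap_apply R A₁ L]
      exact Aux.fracMap_algebraMap A0' R L K₀ a'
    · intro a' ha'
      simp only [RingHom.comp_apply]
      rw [← IsScalarTower.algebraMap_apply A0' A₀ K₀]
      exact (map_ne_zero_iff _ ψ.injective).mpr
        ((map_ne_zero_iff _ (IsFractionRing.injective A0' K₀)).mpr ha')
  let φ : F →+* F ⊗[A0'] R :=
    (Algebra.TensorProduct.includeLeft : F →ₐ[A0'] F ⊗[A0'] R).toRingHom
  have hφ : ∀ x : K₀, φ (algebraMap K₀ F x) = algebraMap L (F ⊗[A0'] R) (ψ x) := fun x =>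
    (Aux.fracHom_fracMap A0' R F L K₀ x).symm
  let c := Module.finBasis K₀ F
  let cE := Aux.auxBasis A0' R F L c
  have hc : ∀ i, cE i = φ (c i) := fun i => Aux.auxBasis_apply A0' R F L c i
  have hι' : Fintype.card ι = Module.finrank L (F ⊗[A0'] R) := by
    rw [hι, Module.finrank_eq_card_basis cE, Fintype.card_fin]
  exact exists_basis_isIntegral_discr_dvd_pow k B₀ K₀ F L (F ⊗[A0'] R) ψ hψ φ hφ c cE hc π hram hι'

end Main

end Fermat.Agent.Good.H2T
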