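/-
L-GEN (Program L, S18), node [G-INST-ODD], part 3: the (RAM) hypothesis of Abhyankar-lite for the
finite chart, cover side (`RigidCover.exists_ramData`) and curve side (`RamDesc.ramCount_*`)
combined.

* `fullToBar N : F_N →+* Fb N`, the coefficientwise embedding (`j ↦ jBar N`);
* `hram_of_embedding` (generic in a characteristic zero field `K` with `σ : K →+* ℚ̄`, a rigid
  cover `PK` over `K` with `u0`, `v1` separable and a Dedekind `K[X]`-algebra `B₀` embedded in
  `Fb N` compatibly with `X ↦ jBar N`): helper20's `hram`;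
* `hram_fin N PK hu0 hv1` : the instance `K = ℚ`, `B₀ = integralClosure ℚ[X] F_N`.
-/
import Mathlib
import Fermat.Agent.Good.InstOddQ
import Fermat.Agent.Good.RigidCoverRam
import Fermat.Agent.Good.RamDataDescended

set_option autoImplicit false
set_option linter.unusedSectionVars false
set_option linter.style.haveILetI false
open ModularCurve ModularCurve.IgusaScheme IntermediateField Polynomial
open Fermat.Agent.Igusa Fermat.Agent.X0

noncomputable section
namespace Fermat.Agent.Good.InstOdd

section Embedding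

variable (N : ℕ) [NeZero N]

set_option quotPrecheck false in
local notation "F" => ↥(modularFunctionFieldFull N)

/-- The coefficientwise embedding `F_N → Fb N`. -/
def fullToBar : F →+* Fb N where
  toFun x := ⟨coeffEmb Kb (x : LaurentSeries ℚ), coeffEmb_mem_laurentBaseChange Kb x.2⟩
  map_one' := Subtype.ext (map_one (coeffEmb Kb))
  map_mul' _ _ := Subtype.ext (map_mul (coeffEmb Kb) _ _)
  map_zero' := Subtype.ext (map_zero (coeffEmb Kb))
  map_add' _ _ := Subtype.ext (map_add (coeffEmb Kb) _ _)

@[simp] theorem coe_fullToBar (x : F) :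
    ((fullToBar N x : Fb N) : LaurentSeries Kb) = coeffEmb Kb (x : LaurentSeries ℚ) := rfl

theorem fullToBar_jFull : fullToBar N (jFull N) = jBar N := rfl

theorem fullToBar_injective : Function.Injective (fullToBar N) := (fullToBar N).injective

theorem fullToBar_algebraMap (a : ℚ) :
    fullToBar N (algebraMap ℚ F a) = algebraMap Kb (Fb N) (algebraMap ℚ Kb a) := by
  have h : (fullToBar N).comp (algebraMap ℚ F) = (algebraMap Kb (Fb N)).comp (algebraMap ℚ Kb) :=
    Subsingleton.elim _ _
  exact RingHom.congr_fun h a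

end Embedding

section Ram

variable (N : ℕ) [NeZero N]

/-- A monic irreducible polynomial vanishing at `a` is `X - C a`. -/
theorem eq_X_sub_C_of_eval_eq_zero {K : Type*} [Field K] {w0 : K[X]} (hirr : Irreducible w0)
    (hmon : w0.Monic) {a : K} (h : w0.eval a = 0) : w0 = X - C a := by
  have hdvd : X - C a ∣ w0 := dvd_iff_isRoot.mpr h
  have hassoc : Associated (X - C a) w0 :=
    (irreducible_X_sub_C a).associated_of_dvd hirr hdvd
  exact (eq_of_monic_of_associated (monic_X_sub_C a) hmon hassoc).symm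

/-- **(RAM) for the finite chart**, generic form: helper20's `hram` from an embedding of the
Dedekind model `B₀` over `K[X]` into `Fb N` with `X ↦ jBar N`. -/
theorem hram_of_embedding {K : Type} [Field K] [CharZero K] (σ : K →+* Kb)
    {G : Type} [Group G] [Fintype G] (PK : RigidCover K G)
    (hu0 : PK.u0.Separable) (hv1 : PK.v1.Separable)
    {B₀ : Type*} [CommRing B₀] [IsDedekindDomain B₀] [Algebra K[X] B₀]
    [Module.IsTorsionFree K[X] B₀]
    (ι : B₀ →+* Fb N) (hι : Function.Injective ι)
    (hιC : ∀ a : K, ι (algebraMap K[X] B₀ (C a)) = algebraMap Kb (Fb N) (σ a))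
    (hιX : ι (algebraMap K[X] B₀ X) = jBar N) :
    ∀ u : PK.R, Prime u → ∃ (ϖ : K[X]) (w : PK.R) (m : ℕ), Prime ϖ ∧ 0 < m ∧
      algebraMap K[X] PK.R ϖ = w * u ^ m ∧ ¬ u ∣ w ∧
      ∀ P : Ideal B₀, P.IsPrime → algebraMap K[X] B₀ ϖ ∈ P → ramCount ϖ P ∣ m := by
  intro u hu
  obtain ⟨w0, m, w, hirr, hmon, hm, hfac, hnd, h3, h2⟩ := PK.exists_ramData hu0 hv1 u hu
  refine ⟨w0, w, m, hirr.prime, hm, hfac, hnd, ?_⟩
  -- the embedding on polynomials
  have hιg : ∀ g : K[X], ι (algebraMap K[X] B₀ g) = aeval (jBar N) (g.map σ) := by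
    intro g
    have h : (ι.comp (algebraMap K[X] B₀)) =
        ((aeval (jBar N) : Kb[X] →ₐ[Kb] Fb N).toRingHom).comp (Polynomial.mapRingHom σ) := by
      refine Polynomial.ringHom_ext (fun a => ?_) ?_
      · simp only [RingHom.comp_apply, Polynomial.coe_mapRingHom, Polynomial.map_C,
          AlgHom.toRingHom_eq_coe, RingHom.coe_coe, aeval_C]
        exact hιC a
      · simp only [RingHom.comp_apply, Polynomial.coe_mapRingHom, Polynomial.map_X,
          AlgHom.toRingHom_eq_coe, RingHom.coe_coe, aeval_X]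
        exact hιX
    exact RingHom.congr_fun h g
  let ρ : ℚ →+* B₀ := (algebraMap K[X] B₀).comp (C.comp (algebraMap ℚ K))
  by_cases h0 : w0.eval 0 = 0
  · -- over `j = 0`
    have hw0 : w0 = X := by
      have := eq_X_sub_C_of_eval_eq_zero hirr hmon h0
      rwa [map_zero, sub_zero] at this
    have hm3 : m = 3 := h3 hw0
    subst hw0
    rw [hm3]
    exact RamDesc.ramCount_dvd_three N ι hι ρ X_ne_zero hιX
  · by_cases h1 : w0.eval 1728 = 0
    · -- over `j = 1728`
      have hw0 : w0 = X - C 1728 := eq_X_sub_C_of_eval_eq_zero hirr hmon h1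
      have hm2 : m = 2 := h2 hw0
      rw [hm2, hw0]
      refine RamDesc.ramCount_dvd_two N ι hι ρ (X_sub_C_ne_zero _) ?_
      rw [map_sub, map_sub, hιX]
      congr 1
      have h1728 : algebraMap Kb (Fb N) (σ 1728) = 1728 := by rw [map_ofNat, map_ofNat]
      rw [← h1728]
      exact hιC 1728
    · -- generic value
      intro P hP hmem
      have h := RamDesc.ramCount_eq_one_fin_of_map N σ ι hι ρ hirr.ne_zero w0 hirr.separable h0 h1
        (hιg w0) P hP hmem
      rw [h]
      exact one_dvd m

/-- **(RAM) for the finite chart over `ℚ`**: `B₀ = integralClosure ℚ[X] F_N`, any rigid cover over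
`ℚ` with `u0`, `v1` separable. -/
theorem hram_fin {G : Type} [Group G] [Fintype G] (PK : RigidCover ℚ G)
    (hu0 : PK.u0.Separable) (hv1 : PK.v1.Separable) :
    letI := polyAlgebraFullQ N
    haveI := isDedekindDomain_integralClosureQ N
    ∀ u : PK.R, Prime u → ∃ (ϖ : ℚ[X]) (w : PK.R) (m : ℕ), Prime ϖ ∧ 0 < m ∧
      algebraMap ℚ[X] PK.R ϖ = w * u ^ m ∧ ¬ u ∣ w ∧
      ∀ P : Ideal ↥(integralClosure ℚ[X] ↥(modularFunctionFieldFull N)), P.IsPrime →
        algebraMap ℚ[X] ↥(integralClosure ℚ[X] ↥(modularFunctionFieldFull N)) ϖ ∈ P →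
          ramCount ϖ P ∣ m := by
  letI := polyAlgebraFullQ N
  haveI := isDedekindDomain_integralClosureQ N
  haveI := isTorsionFree_integralClosureQ N
  let ι : ↥(integralClosure ℚ[X] ↥(modularFunctionFieldFull N)) →+* Fb N :=
    (fullToBar N).comp (algebraMap ↥(integralClosure ℚ[X] ↥(modularFunctionFieldFull N))
      ↥(modularFunctionFieldFull N))
  have hι : Function.Injective ι :=
    (fullToBar_injective N).comp Subtype.val_injective
  refine hram_of_embedding N (algebraMap ℚ Kb) PK hu0 hv1 ι hι (fun a => ?_) ?_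
  · show fullToBar N (algebraMap ℚ[X] ↥(modularFunctionFieldFull N) (C a)) = _
    rw [polyAlgebraFullQ_algebraMap, aeval_C, fullToBar_algebraMap]
  · show fullToBar N (algebraMap ℚ[X] ↥(modularFunctionFieldFull N) X) = _
    rw [polyAlgebraFullQ_algebraMap, aeval_X, fullToBar_jFull]

end Ram

end Fermat.Agent.Good.InstOdd
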