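import Mathlib
import Fermat.Agent.Good.KummerCover

/-!
# L-GEN [G-RAM-KUM]: ramification of the Kummer cover of the cusp chart (cover side of (RAM))

`K` a perfect field with `N` invertible, `A0 = Kum.LamC K = K[w][1/(1 - 1728 w)]`,
`A1 = Kum.RCov K N = K[y][1/(1 - 1728 y^N)]`, `w = y^N`.  Both are PIDs.  For every prime element
`u` of `A1` (`exists_ramData`):

* `u` lies over a prime `ϖ = g(w)` of `A0`, `g : K[X]` monic irreducible;
* `ϖ = w' * u ^ m` in `A1` with `u ∤ w'`, `0 < m`;
* `m = N` if `g = X` (the cusp `w = 0`: totally ramified);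
* `m = 1` if `g ≠ X`, and then `g` is separable with `g(0) ≠ 0`, `g(1/1728) ≠ 0`
  (`y^N - w` is separable away from `w = 0`).

This is the cover side of the hypothesis `hram` of `exists_basis_isIntegral_discr_dvd_pow`
(`Good/AbhyankarLite.lean`) for the cusp chart; the function-field side is
`RamDesc.ramCount_dvd_level` / `RamDesc.ramCount_eq_one_cusp_of_map`.

Generic lemmas: `exists_prime_span_eq`, `exists_prime_associated` (primes of a localisation of a
PID), `squarefree_algebraMap_away` (squarefree elements stay squarefree in `R[1/c]`),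
`separable_expand`.
-/

set_option autoImplicit false
set_option linter.unusedSectionVars false

open Polynomial

namespace Fermat.Agent.Good.KumRam

section Generic

variable {R S : Type*} [CommRing R] [IsDomain R] [IsPrincipalIdealRing R] [CommRing S]
  [IsDomain S] [Algebra R S]

/-- A non-zero prime ideal of a localisation of a PID is generated by (the image of) a prime
element. -/
theorem exists_prime_span_eq (M : Submonoid R) [IsLocalization M S] (J : Ideal S) [hJ : J.IsPrime]
    (hJ0 : J ≠ ⊥) : ∃ q : R, Prime q ∧ J = Ideal.span {algebraMap R S q} := by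
  have hI : (J.under R).IsPrime := Ideal.IsPrime.under R J
  obtain ⟨q, hq⟩ := (IsPrincipalIdealRing.principal (J.under R)).principal
  have hq' : J.under R = Ideal.span {q} := hq
  have hmap : Ideal.map (algebraMap R S) (J.under R) = J := IsLocalization.map_under M S J
  have hJq : J = Ideal.span {algebraMap R S q} := by
    rw [← hmap, hq', Ideal.map_span, Set.image_singleton]
  have hq0 : q ≠ 0 := by
    rintro rfl
    apply hJ0
    rw [hJq, map_zero]
    exact Ideal.span_singleton_eq_bot.mpr rfl
  exact ⟨q, (Ideal.span_singleton_prime hq0).mp (hq' ▸ hI), hJq⟩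

/-- A prime element of a localisation of a PID is associated to (the image of) a prime element. -/
theorem exists_prime_associated (M : Submonoid R) [IsLocalization M S] {w : S} (hw : Prime w) :
    ∃ q : R, Prime q ∧ Associated (algebraMap R S q) w := by
  have hJ : (Ideal.span {w}).IsPrime := (Ideal.span_singleton_prime hw.ne_zero).mpr hw
  have hJ0 : Ideal.span {w} ≠ ⊥ := fun h => hw.ne_zero (Ideal.span_singleton_eq_bot.mp h)
  obtain ⟨q, hq, h⟩ := exists_prime_span_eq M (Ideal.span {w}) hJ0
  exact ⟨q, hq, (Ideal.span_singleton_eq_span_singleton.mp h).symm⟩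

/-- Squarefree elements of a PID stay squarefree in `R[1/c]`. -/
theorem squarefree_algebraMap_away (c : R) (hc : c ≠ 0) [IsLocalization.Away c S] {p : R}
    (hp : Squarefree p) : Squarefree (algebraMap R S p) := by
  have hinj : Function.Injective (algebraMap R S) :=
    IsLocalization.injective S (M := Submonoid.powers c)
      (powers_le_nonZeroDivisors_of_noZeroDivisors hc)
  have hpid : IsPrincipalIdealRing S :=
    Kum.isPrincipalIdealRing_of_isLocalization (Submonoid.powers c) S
  have hp0 : p ≠ 0 := hp.ne_zero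
  have hιp0 : algebraMap R S p ≠ 0 := fun h => hp0 (hinj (by rw [h, map_zero]))
  intro z hz
  by_contra hzu
  have hz0 : z ≠ 0 := by
    rintro rfl
    rw [zero_mul, zero_dvd_iff] at hz
    exact hιp0 hz
  obtain ⟨w, hw, hwz⟩ := WfDvdMonoid.exists_irreducible_factor hzu hz0
  have hwp : Prime w := UniqueFactorizationMonoid.irreducible_iff_prime.mp hw
  obtain ⟨q, hq, hqw⟩ := exists_prime_associated (Submonoid.powers c) hwp
  have hqq : algebraMap R S q * algebraMap R S q ∣ algebraMap R S p :=
    (mul_dvd_mul hqw.dvd hqw.dvd).trans ((mul_dvd_mul hwz hwz).trans hz)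
  obtain ⟨s, hs⟩ := hqq
  obtain ⟨k, b, hb⟩ := IsLocalization.Away.surj c s
  have hcu : IsUnit (algebraMap R S c) := IsLocalization.Away.algebraMap_isUnit c
  have hqc : ¬ q ∣ c := by
    intro h
    have h1 : IsUnit (algebraMap R S q) := isUnit_of_dvd_unit (map_dvd (algebraMap R S) h) hcu
    exact hwp.not_isUnit (hqw.isUnit h1)
  have hqck : ¬ q ∣ c ^ k := fun h => hqc (hq.dvd_of_dvd_pow h)
  have heq : p * c ^ k = q * q * b := by
    apply hinj
    rw [map_mul, map_mul, map_mul, map_pow, hs, ← hb]
    ring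
  have hqp : q ∣ p := by
    rcases hq.dvd_or_dvd (⟨q * b, by rw [heq]; ring⟩ : q ∣ p * c ^ k) with h | h
    · exact h
    · exact absurd h hqck
  obtain ⟨p1, rfl⟩ := hqp
  have heq2 : p1 * c ^ k = q * b := by
    apply mul_left_cancel₀ hq.ne_zero
    rw [← mul_assoc, heq, mul_assoc]
  have hqp1 : q ∣ p1 := by
    rcases hq.dvd_or_dvd (Dvd.intro _ heq2.symm : q ∣ p1 * c ^ k) with h | h
    · exact h
    · exact absurd h hqck
  exact hq.not_isUnit (hp q (mul_dvd_mul_left q hqp1))

omit [IsDomain R] [IsPrincipalIdealRing R] [Algebra R S] in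
/-- a prime `u` dividing `t ^ e` with `t` squarefree divides it exactly `e` times. -/
theorem exists_pow_eq_mul_pow_of_squarefree {u t : S} (hu : Prime u) (ht : Squarefree t) {e : ℕ}
    (hdvd : u ∣ t ^ e) : ∃ w, t ^ e = w * u ^ e ∧ ¬ u ∣ w := by
  have hut : u ∣ t := hu.dvd_of_dvd_pow hdvd
  obtain ⟨y, rfl⟩ := hut
  have huy : ¬ u ∣ y := by
    rintro ⟨y', rfl⟩
    exact hu.not_isUnit (ht u ⟨y', by ring⟩)
  exact ⟨y ^ e, by ring, fun h => huy (hu.dvd_of_dvd_pow h)⟩

end Generic

section Kummer

variable {K : Type*} [Field K] {N : ℕ}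

/-- `g(y^N)` is separable if `g` is, `g(0) ≠ 0` and `N` is invertible in `K`. -/
theorem separable_expand (hNK : (N : K) ≠ 0) {g : K[X]} (hg : g.Separable)
    (hg0 : g.eval 0 ≠ 0) : (expand K N g).Separable := by
  have hN : 0 < N := Nat.pos_of_ne_zero (by rintro rfl; exact hNK Nat.cast_zero)
  have h1 : IsCoprime (expand K N g) (expand K N (derivative g)) :=
    IsCoprime.map hg (expand K N : K[X] →ₐ[K] K[X]).toRingHom
  have h2 : IsCoprime (expand K N g) X := by
    refine IsCoprime.symm ((Irreducible.coprime_iff_not_dvd irreducible_X).mpr ?_)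
    rw [X_dvd_iff, coeff_zero_eq_eval_zero, expand_eval, zero_pow hN.ne']
    exact hg0
  have h3 : IsCoprime (expand K N g) ((N : K[X]) * X ^ (N - 1)) := by
    have hu : IsUnit ((N : K[X])) := by
      have : (N : K[X]) = C (N : K) := (map_natCast C N).symm
      rw [this]
      exact isUnit_C.mpr (isUnit_iff_ne_zero.mpr hNK)
    exact (isCoprime_mul_unit_left_right hu _ _).mpr h2.pow_right
  show IsCoprime _ _
  rw [derivative_expand]
  exact h1.mul_right h3


variable (K)

/-- **The cover side of (RAM) for the Kummer cover of the cusp chart.** -/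
theorem exists_ramData [PerfectField K] (hNK : (N : K) ≠ 0) (u : Kum.RCov K N) (hu : Prime u) :
    ∃ (g : K[X]) (m : ℕ) (w' : Kum.RCov K N), Irreducible g ∧ g.Monic ∧
      Prime (algebraMap K[X] (Kum.LamC K) g) ∧ 0 < m ∧
      algebraMap (Kum.LamC K) (Kum.RCov K N) (algebraMap K[X] (Kum.LamC K) g) = w' * u ^ m ∧
      ¬ u ∣ w' ∧ (g = X → m = N) ∧
      (g ≠ X → m = 1 ∧ g.Separable ∧ g.eval 0 ≠ 0 ∧ g.eval (1 / 1728) ≠ 0) := by
  classical
  have hN : 0 < N := Nat.pos_of_ne_zero (by rintro rfl; exact hNK Nat.cast_zero)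
  have : NeZero N := ⟨hN.ne'⟩
  have hdomR : IsDomain (Kum.RCov K N) := Kum.isDomain_rCov K hN
  -- the prime of `LamC K` below `u`
  have hP : (Ideal.span {u}).IsPrime := (Ideal.span_singleton_prime hu.ne_zero).mpr hu
  set p : Ideal (Kum.LamC K) := (Ideal.span {u}).under (Kum.LamC K) with hp
  have hpprime : p.IsPrime := Ideal.IsPrime.under _ _
  have hp0 : p ≠ ⊥ :=
    Ideal.comap_ne_bot_of_integral_mem hu.ne_zero (Ideal.mem_span_singleton_self u)
      (Algebra.IsIntegral.isIntegral u)
  obtain ⟨g0, hg0, hpg⟩ := exists_prime_span_eq (Submonoid.powers (Kum.cLam K)) p hp0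
  set g := normalize g0 with hg
  have hgg0 : Associated g g0 := normalize_associated g0
  have hgirr : Irreducible g := hgg0.symm.irreducible hg0.irreducible
  have hgmon : g.Monic := Polynomial.monic_normalize hg0.ne_zero
  have hιg0ne : algebraMap K[X] (Kum.LamC K) g0 ≠ 0 := by
    intro h
    apply hp0
    rw [hpg, h]
    exact Ideal.span_singleton_eq_bot.mpr rfl
  have hιg0 : Prime (algebraMap K[X] (Kum.LamC K) g0) :=
    (Ideal.span_singleton_prime hιg0ne).mp (hpg ▸ hpprime)
  have hιg : Prime (algebraMap K[X] (Kum.LamC K) g) :=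
    (hgg0.map (algebraMap K[X] (Kum.LamC K))).symm.prime hιg0
  have hdvd : u ∣ algebraMap (Kum.LamC K) (Kum.RCov K N) (algebraMap K[X] (Kum.LamC K) g) := by
    have h1 : algebraMap K[X] (Kum.LamC K) g0 ∈ p := by
      rw [hpg]; exact Ideal.mem_span_singleton_self _
    have h2 : algebraMap (Kum.LamC K) (Kum.RCov K N) (algebraMap K[X] (Kum.LamC K) g0) ∈
        Ideal.span {u} := h1
    exact (Ideal.mem_span_singleton.mp h2).trans (map_dvd _ (map_dvd _ hgg0.symm.dvd))
  have hx : algebraMap (Kum.LamC K) (Kum.RCov K N) (algebraMap K[X] (Kum.LamC K) g) =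
      algebraMap K[X] (Kum.RCov K N) (expand K N g) := by
    rw [Kum.algebraMap_lamC_rCov, Kum.lamToCov_algebraMap]
  rw [hx] at hdvd
  have hc0 : Kum.cCov K N ≠ 0 := Kum.cCov_ne_zero K hN
  by_cases hgX : g = X
  · -- over the cusp: index exactly `N`
    have hsq : Squarefree (algebraMap K[X] (Kum.RCov K N) X) :=
      squarefree_algebraMap_away (Kum.cCov K N) hc0 irreducible_X.squarefree
    rw [hgX, expand_X, map_pow] at hdvd
    obtain ⟨w', hw', hnd⟩ := exists_pow_eq_mul_pow_of_squarefree hu hsq hdvd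
    refine ⟨g, N, w', hgirr, hgmon, hιg, hN, ?_, hnd, fun _ => rfl, fun h => absurd hgX h⟩
    rw [hx, hgX, expand_X, map_pow]
    exact hw'
  · -- away from the cusp: unramified
    have h0 : g.eval 0 ≠ 0 := by
      intro h
      have hXg : X ∣ g := by rwa [X_dvd_iff, coeff_zero_eq_eval_zero]
      exact hgX (Polynomial.eq_of_monic_of_associated monic_X hgmon
        (irreducible_X.associated_of_dvd hgirr hXg)).symm
    have hsep : g.Separable := PerfectField.separable_of_irreducible hgirr
    have hsq : Squarefree (algebraMap K[X] (Kum.RCov K N) (expand K N g)) :=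
      squarefree_algebraMap_away (Kum.cCov K N) hc0 (separable_expand hNK hsep h0).squarefree
    obtain ⟨w', hw'⟩ := hdvd
    have hnd : ¬ u ∣ w' := by
      rintro ⟨w'', rfl⟩
      exact hu.not_isUnit (hsq u ⟨w'', by rw [hw']; ring⟩)
    refine ⟨g, 1, w', hgirr, hgmon, hιg, one_pos, by rw [hx, hw', pow_one, mul_comm], hnd,
      fun h => absurd h hgX, fun _ => ⟨rfl, hsep, h0, ?_⟩⟩
    intro h
    by_cases h1728 : (1728 : K) = 0
    · rw [h1728, div_zero] at h
      exact h0 h
    · have hd : X - C (1 / 1728 : K) ∣ g := dvd_iff_isRoot.mpr h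
      have hass : Associated (X - C (1 / 1728 : K)) g :=
        (irreducible_X_sub_C _).associated_of_dvd hgirr hd
      have hc : Kum.cLam K = C (-1728 : K) * (X - C (1 / 1728 : K)) := by
        rw [Kum.cLam, mul_sub, ← C_mul, neg_mul, mul_one_div_cancel h1728, C_neg, C_neg]
        simp only [map_ofNat, C_1]
        ring
      have hass2 : Associated (Kum.cLam K) g := by
        rw [hc]
        refine Associated.trans ?_ hass
        exact associated_unit_mul_left _ _ (isUnit_C.mpr (isUnit_iff_ne_zero.mpr (neg_ne_zero.mpr h1728)))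
      exact hιg.not_isUnit ((hass2.map (algebraMap K[X] (Kum.LamC K))).isUnit
        (Kum.isUnit_algebraMap_paw (Kum.cLam K)))


/-- Variant of `exists_ramData` with the prime of `LamC K` as an element. -/
theorem exists_ramData_elt [PerfectField K] (hNK : (N : K) ≠ 0) (u : Kum.RCov K N)
    (hu : Prime u) :
    ∃ (w0 : Kum.LamC K) (m : ℕ) (w' : Kum.RCov K N), Prime w0 ∧ 0 < m ∧
      algebraMap (Kum.LamC K) (Kum.RCov K N) w0 = w' * u ^ m ∧ ¬ u ∣ w' ∧
      (Associated w0 (Kum.wLam K) → m = N) ∧ (¬ Associated w0 (Kum.wLam K) → m = 1) := by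
  obtain ⟨g, m, w', hgirr, hgmon, hιg, hm, hfac, hnd, hX, hnX⟩ := exists_ramData K hNK u hu
  refine ⟨algebraMap K[X] (Kum.LamC K) g, m, w', hιg, hm, hfac, hnd, ?_, ?_⟩
  · intro hass
    by_cases hgX : g = X
    · exact hX hgX
    · exfalso
      obtain ⟨-, -, h0, -⟩ := hnX hgX
      have hc0 : Kum.cLam K ≠ 0 := Kum.cLam_ne_zero K
      have hinj : Function.Injective (algebraMap K[X] (Kum.LamC K)) :=
        IsLocalization.injective (Kum.LamC K) (M := Submonoid.powers (Kum.cLam K))
          (powers_le_nonZeroDivisors_of_noZeroDivisors hc0)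
      obtain ⟨s, hs⟩ := hass.symm.dvd
      obtain ⟨k, b, hb⟩ := IsLocalization.Away.surj (Kum.cLam K) s
      have heq : g * Kum.cLam K ^ k = X * b := by
        apply hinj
        rw [map_mul, map_mul, map_pow, hs, ← hb, mul_assoc]
        rfl
      have hXc : ¬ X ∣ Kum.cLam K ^ k := by
        intro h
        have h1 := prime_X.dvd_of_dvd_pow h
        rw [X_dvd_iff, Kum.coeff_zero_cLam] at h1
        exact one_ne_zero h1
      have hXg : X ∣ g := by
        rcases prime_X.dvd_or_dvd (⟨b, heq⟩ : X ∣ g * Kum.cLam K ^ k) with h | h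
        · exact h
        · exact absurd h hXc
      rw [X_dvd_iff, coeff_zero_eq_eval_zero] at hXg
      exact h0 hXg
  · intro hnass
    by_cases hgX : g = X
    · exact absurd (by rw [hgX]; exact Associated.refl _) hnass
    · exact (hnX hgX).1

end Kummer

end Fermat.Agent.Good.KumRam
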