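/-
L-GEN / [G-KUM-GEN] (helper20): the hypothesis (H2c) of the cusp chart chain (`Good/CuspQuot.lean`)
for the Kummer cover, generic in the base.

`O` a domain, `K = O[1/π]` a field of characteristic zero, `N ≥ 1`; base `LamC O = O[w][1/(1-1728w)]`,
cover `RCov O N = O[y][1/(1-1728 y^N)]`, `w = y^N` (`Good/KummerCover.lean`); `F` a field with
compatible `LamC O`- and `LamC K`-algebra structures, finite separable over `K₀ = Frac (LamC K)`;
`B₀` a Dedekind domain, finite and torsion-free over `LamC K`, with fraction field `F`.  Curve side,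
as hypotheses: the primes of `B₀` over `w = 0` have multiplicity dividing `N` and `B₀` is
unramified over all other primes of `LamC K`.  Conclusion: the auxiliary algebra
`E = F ⊗[LamC O] RCov O N` (`Good/AuxAlgebra.lean`) has a basis over `L = Frac (RCov O N)` of
`RCov O N`-integral elements whose discriminant divides a power of `π`.

The proof builds the instance package consumed by `H2T.exists_basis_tensor_isIntegral_discr_dvd_pow`
(`LamC O ⊆ LamC K`, `RCov O N ⊆ RCov K N = (RCov O N)[1/π] ⊆ L`, fraction fields, towers, PIDs) and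
plugs in `Kum.exists_ramData` (`Good/KummerCoverRam.lean`).
-/
import Fermat.Agent.Good.H2Tensor
import Fermat.Agent.Good.KummerCoverRam

set_option autoImplicit false
set_option linter.unusedSectionVars false
set_option linter.style.haveILetI false
set_option linter.unusedVariables false

namespace Fermat.Agent.Good.KumGen

open Polynomial TensorProduct Module Kum

attribute [local instance] Algebra.TensorProduct.rightAlgebra

/-- If `S = M⁻¹ R` with `M` consisting of non-zero-divisors of the domain `R`, then a fraction field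
of `S` is a fraction field of `R`. -/
theorem isFractionRing_of_isLocalization_of_isFractionRing {R S T : Type*} [CommRing R]
    [IsDomain R] [CommRing S] [IsDomain S] [Field T] [Algebra R S] [Algebra S T] [Algebra R T]
    [IsScalarTower R S T] (M : Submonoid R) [IsLocalization M S] (hM : M ≤ nonZeroDivisors R)
    [IsFractionRing S T] : IsFractionRing R T := by
  have hinj : Function.Injective (algebraMap R S) := IsLocalization.injective S hM
  have key := IsLocalization.localization_localization_isLocalization_of_has_all_units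
    (M := M) (S := S) (N := nonZeroDivisors S) (T := T) (fun x hx => hx.mem_nonZeroDivisors)
  have hcomap : (nonZeroDivisors S).comap (algebraMap R S) = nonZeroDivisors R := by
    ext q
    rw [Submonoid.mem_comap, mem_nonZeroDivisors_iff_ne_zero, mem_nonZeroDivisors_iff_ne_zero,
      Ne, map_eq_zero_iff _ hinj]
  rw [hcomap] at key
  exact key

section Main

variable {O : Type*} [CommRing O] [IsDomain O] {K : Type*} [Field K] [CharZero K] [Algebra O K]
  (π : O) [IsLocalization.Away π K] (N : ℕ) [NeZero N]
  (F : Type*) [Field F] [Algebra (LamC O) F] [FaithfulSMul (LamC O) F] [Algebra (LamC K) F]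
  (hcompat : ∀ a : LamC O,
    algebraMap (LamC K) F (lamMap (algebraMap O K) a) = algebraMap (LamC O) F a)
  (B₀ : Type*) [CommRing B₀] [IsDedekindDomain B₀] [Algebra (LamC K) B₀]
  [Module.Finite (LamC K) B₀] [Module.IsTorsionFree (LamC K) B₀] [Algebra B₀ F]
  [IsFractionRing B₀ F] [IsScalarTower (LamC K) B₀ F]
  (K₀ : Type*) [Field K₀] [Algebra (LamC K) K₀] [IsFractionRing (LamC K) K₀] [Algebra K₀ F]
  [IsScalarTower (LamC K) K₀ F] [FiniteDimensional K₀ F] [Algebra.IsSeparable K₀ F]
  (L : Type*) [Field L] [Algebra (RCov O N) L] [IsFractionRing (RCov O N) L]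

include hcompat B₀ K₀ in
/-- **(H2c) for the Kummer cover of the cusp chart, generic in the base.**  Curve side as
hypotheses: every prime of `B₀` over `w = 0` has multiplicity dividing `N`, and `B₀` is unramified
over all other primes `g(w)` of `LamC K = K[w][1/(1 - 1728 w)]`. -/
theorem exists_basis_isIntegral_discr_dvd_pow
    (hw : ∀ Q : Ideal B₀, Q.IsPrime → algebraMap (LamC K) B₀ (wLam K) ∈ Q →
      ramCount (wLam K) Q ∣ N)
    (hgen : ∀ g : K[X], Irreducible g → g.Monic → ¬ g ∣ cLam K → g ≠ X →
      ∀ Q : Ideal B₀, Q.IsPrime → algebraMap (LamC K) B₀ (algebraMap K[X] (LamC K) g) ∈ Q →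
        ramCount (algebraMap K[X] (LamC K) g) Q = 1)
    {ι : Type*} [Fintype ι] [DecidableEq ι] (hι : Fintype.card ι = Module.finrank K₀ F) :
    haveI := isDomain_rCov O (Nat.pos_of_ne_zero (NeZero.ne N))
    letI := Aux.algebraFrac (LamC O) (RCov O N) F L
    ∃ c' : Basis ι L (F ⊗[LamC O] RCov O N), (∀ i, IsIntegral (RCov O N) (c' i)) ∧
      ∃ dc' : RCov O N, algebraMap (RCov O N) L dc' = Algebra.discr L c' ∧
        ∃ m : ℕ, dc' ∣ covConst O N π ^ m := by
  classical
  have hN : 0 < N := Nat.pos_of_ne_zero (NeZero.ne N)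
  haveI hRdom := isDomain_rCov O hN
  haveI hAdom := isDomain_rCov K hN
  haveI hApid : IsPrincipalIdealRing (RCov K N) := isPrincipalIdealRing_paw (cCov K N)
  haveI hLpid : IsPrincipalIdealRing (LamC K) := isPrincipalIdealRing_paw (cLam K)
  -- `π ≠ 0`
  have hπ0 : π ≠ 0 := by
    rintro rfl
    have h1 : IsUnit (algebraMap O K (0 : O)) :=
      IsLocalization.map_units K (⟨(0 : O), Submonoid.mem_powers _⟩ : Submonoid.powers (0 : O))
    rw [map_zero] at h1
    exact not_isUnit_zero h1
  -- the base `LamC O ⊆ LamC K`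
  letI aLam : Algebra (LamC O) (LamC K) := (lamMap (algebraMap O K)).toAlgebra
  haveI lLam : IsLocalization.Away (lamConst O π) (LamC K) := isLocalization_away_lamC K π
  have hlamπ0 : lamConst O π ≠ 0 := fun h =>
    hπ0 (pawConst_injective (cLam_ne_zero O) (h.trans (map_zero _).symm))
  letI aK₀ : Algebra (LamC O) K₀ :=
    ((algebraMap (LamC K) K₀).comp (lamMap (algebraMap O K))).toAlgebra
  haveI tK₀ : IsScalarTower (LamC O) (LamC K) K₀ := IsScalarTower.of_algebraMap_eq fun _ => rfl
  haveI fK₀ : IsFractionRing (LamC O) K₀ :=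
    isFractionRing_of_isLocalization_of_isFractionRing (S := LamC K)
      (Submonoid.powers (lamConst O π)) (powers_le_nonZeroDivisors_of_noZeroDivisors hlamπ0)
  haveI tF : IsScalarTower (LamC O) K₀ F := IsScalarTower.of_algebraMap_eq fun a => by
    show algebraMap (LamC O) F a =
      algebraMap K₀ F (algebraMap (LamC K) K₀ (lamMap (algebraMap O K) a))
    rw [← IsScalarTower.algebraMap_apply (LamC K) K₀ F, hcompat]
  -- the cover `RCov O N ⊆ RCov K N ⊆ L`
  letI aCov : Algebra (RCov O N) (RCov K N) := (covMap N (algebraMap O K)).toAlgebra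
  haveI lCov : IsLocalization.Away (covConst O N π) (RCov K N) := isLocalization_away_rCov N K π
  have hcovπ0 : covConst O N π ≠ 0 := fun h =>
    hπ0 (pawConst_injective (cCov_ne_zero O hN) (h.trans (map_zero _).symm))
  have hunit : IsUnit (algebraMap (RCov O N) L (covConst O N π)) :=
    isUnit_iff_ne_zero.mpr
      ((map_ne_zero_iff _ (IsFractionRing.injective (RCov O N) L)).mpr hcovπ0)
  letI aAL : Algebra (RCov K N) L :=
    (IsLocalization.Away.lift (covConst O N π) (g := algebraMap (RCov O N) L) hunit).toAlgebra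
  haveI tRAL : IsScalarTower (RCov O N) (RCov K N) L := IsScalarTower.of_algebraMap_eq fun r =>
    (IsLocalization.Away.lift_eq (covConst O N π) hunit r).symm
  haveI fAL : IsFractionRing (RCov K N) L :=
    IsFractionRing.isFractionRing_of_isDomain_of_isLocalization
      (Submonoid.powers (covConst O N π)) (RCov K N) L
  letI aLamCov : Algebra (LamC O) (RCov K N) :=
    ((algebraMap (LamC K) (RCov K N)).comp (lamMap (algebraMap O K))).toAlgebra
  haveI t1 : IsScalarTower (LamC O) (LamC K) (RCov K N) :=
    IsScalarTower.of_algebraMap_eq fun _ => rfl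
  haveI t2 : IsScalarTower (LamC O) (RCov O N) (RCov K N) :=
    IsScalarTower.of_algebraMap_eq fun a => by
      show algebraMap (LamC K) (RCov K N) (lamMap (algebraMap O K) a) =
        covMap N (algebraMap O K) (algebraMap (LamC O) (RCov O N) a)
      rw [covMap_algebraMap]
  -- (RAM)
  have hram : ∀ u : RCov K N, Prime u → ∃ (ϖ : LamC K) (w : RCov K N) (m : ℕ), Prime ϖ ∧ 0 < m ∧
      algebraMap (LamC K) (RCov K N) ϖ = w * u ^ m ∧ ¬ u ∣ w ∧
      ∀ Q : Ideal B₀, Q.IsPrime → algebraMap (LamC K) B₀ ϖ ∈ Q → ramCount ϖ Q ∣ m := by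
    intro u hu
    obtain ⟨g, m, w', hgirr, hgmon, hgc, hgprime, hm, hfac, hnd, hX⟩ :=
      Kum.exists_ramData K N u hu
    refine ⟨algebraMap K[X] (LamC K) g, w', m, hgprime, hm, hfac, hnd, fun Q hQ hmem => ?_⟩
    by_cases c1 : g = X
    · rw [hX c1]
      subst c1
      exact hw Q hQ hmem
    · rw [hgen g hgirr hgmon hgc c1 Q hQ hmem]
      exact one_dvd m
  exact H2T.exists_basis_tensor_isIntegral_discr_dvd_pow (LamC O) (RCov O N) F L K B₀ K₀
    (covConst O N π) hram hι

end Main

end Fermat.Agent.Good.KumGen
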