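import Fermat.Agent.Good.LegendreRing

/-!
# The `j`-function on the Legendre ring

Program L / L-GEN node [G-RCL], part 2.  `legJ = 256 (x²-x+1)³ / (x²(x-1)²)` is invariant under
the `S₃` action; it makes `LegRing Λ` an algebra over `Λ[j] = Λ[X]`, which (when `2` is
invertible) is free of rank six with power basis `1, x, …, x⁵`: it is `AdjoinRoot` of the monic
sextic `(T²-T+1)³ - (j/256) T²(T-1)²`.
-/

namespace Fermat.Agent.Good

open Polynomial

universe u

section GenericIdentities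

variable {R : Type*} [CommRing R] (x xi yi : R)

lemma leg_aux_c (h1 : x * xi = 1) (h2 : (1 - x) * yi = 1) :
    x ^ 2 * (x - 1) ^ 2 * (xi ^ 2 * yi ^ 2) = 1 := by
  have : (x * xi) ^ 2 * ((1 - x) * yi) ^ 2 = 1 := by rw [h1, h2]; ring
  linear_combination this

lemma leg_aux_b (h1 : x * xi = 1) (h2 : (1 - x) * yi = 1) :
    (xi ^ 2 - xi + 1) ^ 3 * (x ^ 2 * (1 - yi) ^ 2) = (x ^ 2 - x + 1) ^ 3 * (xi ^ 2 * yi ^ 2) := by
  have e1 : xi ^ 2 - xi + 1 = xi ^ 2 * (x ^ 2 - x + 1) := by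
    linear_combination (-(x * xi + 1 - xi)) * h1
  have e2 : 1 - yi = -(x * yi) := by linear_combination -h2
  have e3 : (x * xi) ^ 4 = 1 := by rw [h1]; ring
  rw [e1, e2]
  linear_combination (xi ^ 2 * (x ^ 2 - x + 1) ^ 3 * yi ^ 2) * e3

/-- `4 (x²-x+1)³ - 27 x²(x-1)² = ((x+1)(x-2)(2x-1))²`. -/
lemma leg_aux_1728 :
    4 * (x ^ 2 - x + 1) ^ 3 - 27 * (x ^ 2 * (x - 1) ^ 2) =
      ((x + 1) * (x - 2) * (2 * x - 1)) ^ 2 := by ring

end GenericIdentities

section J

variable (Λ : Type u) [CommRing Λ]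

/-- `u₀ = x² - x + 1` (its cube is `j` up to a unit) -/
noncomputable def legU0 : LegRing Λ := legX Λ ^ 2 - legX Λ + 1

/-- `v₁ = (x+1)(x-2)(2x-1)` (its square is `j - 1728` up to a unit) -/
noncomputable def legV1 : LegRing Λ := (legX Λ + 1) * (legX Λ - 2) * (2 * legX Λ - 1)

/-- the unit `1/(x²(x-1)²)` -/
noncomputable def legW : LegRing Λ := legXi Λ ^ 2 * legYi Λ ^ 2

lemma isUnit_legW : IsUnit (legW Λ) :=
  ((isUnit_legXi Λ).pow 2).mul ((isUnit_legYi Λ).pow 2)

lemma legW_mul : legX Λ ^ 2 * (legX Λ - 1) ^ 2 * legW Λ = 1 :=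
  leg_aux_c _ _ _ (legX_mul_legXi Λ) (one_sub_legX_mul_legYi Λ)

/-- the `j`-invariant of the Legendre family, `256 (x²-x+1)³/(x²(x-1)²)`. -/
noncomputable def legJ : LegRing Λ := 256 * legU0 Λ ^ 3 * legW Λ

lemma legJ_eq : legJ Λ = (256 * legW Λ) * legU0 Λ ^ 3 := by rw [legJ]; ring

lemma legJ_sub_1728 : legJ Λ - 1728 = (64 * legW Λ) * legV1 Λ ^ 2 := by
  have h := leg_aux_1728 (legX Λ)
  have hw := legW_mul Λ
  rw [legJ, legU0, legV1, ← h]
  linear_combination (1728 : LegRing Λ) * hw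

lemma legJ_mul : legJ Λ * (legX Λ ^ 2 * (legX Λ - 1) ^ 2) = 256 * legU0 Λ ^ 3 := by
  have hw := legW_mul Λ
  rw [legJ]
  linear_combination (256 * legU0 Λ ^ 3) * hw

lemma legAut_a_legJ : legAut Λ .a (legJ Λ) = legJ Λ := by
  simp only [legJ, legU0, legW, map_mul, map_pow, map_sub, map_add, map_one, map_ofNat,
    legAut_legX, legAut_legXi, legAut_legYi, legPoint, legPointInv, legPointInv']
  ring

lemma legAut_b_legJ : legAut Λ .b (legJ Λ) = legJ Λ := by
  simp only [legJ, legU0, legW, map_mul, map_pow, map_sub, map_add, map_one, map_ofNat,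
    legAut_legX, legAut_legXi, legAut_legYi, legPoint, legPointInv, legPointInv']
  have := leg_aux_b _ _ _ (legX_mul_legXi Λ) (one_sub_legX_mul_legYi Λ)
  linear_combination (256 : LegRing Λ) * this

lemma legAut_legJ (g : LegG) : legAut Λ g (legJ Λ) = legJ Λ := by
  have ha := legAut_a_legJ Λ
  have hb := legAut_b_legJ Λ
  have hr : (LegG.r : LegG) = LegG.a * LegG.b := rfl
  have hr2 : (LegG.r2 : LegG) = LegG.b * LegG.a := rfl
  have hc : (LegG.c : LegG) = LegG.a * (LegG.b * LegG.a) := rfl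
  have he : (LegG.e : LegG) = 1 := rfl
  cases g
  · rw [he, legAut_one]; rfl
  · exact ha
  · exact hb
  · rw [hc, legAut_mul, legAut_mul, AlgHom.comp_apply, AlgHom.comp_apply, ha, hb, ha]
  · rw [hr, legAut_mul, AlgHom.comp_apply, hb, ha]
  · rw [hr2, legAut_mul, AlgHom.comp_apply, ha, hb]

lemma legG_smul_legJ (g : LegG) : g • legJ Λ = legJ Λ := legAut_legJ Λ g

/-- The `j`-structure: `LegRing Λ` as an algebra over `Λ[j] = Λ[X]`, `X ↦ legJ`. -/
noncomputable instance LegRing.instAlgebraPoly : Algebra Λ[X] (LegRing Λ) :=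
  (aeval (legJ Λ) : Λ[X] →ₐ[Λ] LegRing Λ).toRingHom.toAlgebra

lemma legRing_algebraMap_poly (p : Λ[X]) :
    algebraMap Λ[X] (LegRing Λ) p = aeval (legJ Λ) p := rfl

@[simp] lemma legRing_algebraMap_X : algebraMap Λ[X] (LegRing Λ) X = legJ Λ := by
  rw [legRing_algebraMap_poly, aeval_X]

instance LegRing.instIsScalarTowerPoly : IsScalarTower Λ Λ[X] (LegRing Λ) :=
  .of_algebraMap_eq fun c => by
    rw [legRing_algebraMap_poly, Polynomial.algebraMap_apply, Algebra.algebraMap_self_apply,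
      aeval_C]

lemma legG_smul_algebraMap_poly (g : LegG) (p : Λ[X]) :
    g • algebraMap Λ[X] (LegRing Λ) p = algebraMap Λ[X] (LegRing Λ) p := by
  rw [legRing_algebraMap_poly, legG_smul_def, ← aeval_algHom_apply, legAut_legJ]

instance LegRing.instSMulCommClassPoly : SMulCommClass LegG Λ[X] (LegRing Λ) where
  smul_comm g p z := by
    rw [Algebra.smul_def, Algebra.smul_def, smul_mul', legG_smul_algebraMap_poly]

end J

section Sextic

variable (Λ : Type u) [CommRing Λ] [Invertible (2 : Λ)]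

/-- `1/256` -/
noncomputable def legInv256 : Λ := ⅟2 ^ 8

lemma legInv256_mul : (256 : Λ) * legInv256 Λ = 1 := by
  have h2 : (2 : Λ) * ⅟2 = 1 := mul_invOf_self 2
  have h : (256 : Λ) = 2 ^ 8 := by norm_num
  rw [legInv256, h, ← mul_pow, h2, one_pow]

/-- The monic sextic `(T²-T+1)³ - (j/256) T²(T-1)²` over `Λ[j]`, satisfied by `x`. -/
noncomputable def legSextic : Λ[X][X] :=
  (X ^ 2 - X + 1) ^ 3 - C (C (legInv256 Λ) * X) * (X ^ 2 * (X - 1) ^ 2)

lemma legSextic_monic : (legSextic Λ).Monic := by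
  nontriviality Λ
  rw [legSextic]
  have h1 : ((X ^ 2 - X + 1 : Λ[X][X]) ^ 3).Monic := by
    apply Monic.pow
    monicity!
  have h2 : ((X ^ 2 - X + 1 : Λ[X][X]) ^ 3).natDegree = 6 := by
    compute_degree!
  refine h1.sub_of_left ?_
  rw [degree_eq_natDegree h1.ne_zero, h2]
  refine lt_of_le_of_lt (degree_le_of_natDegree_le (n := 4) ?_) (by norm_num)
  compute_degree

lemma legSextic_natDegree [Nontrivial Λ] : (legSextic Λ).natDegree = 6 := by
  rw [legSextic]
  have h2 : ((X ^ 2 - X + 1 : Λ[X][X]) ^ 3).natDegree = 6 := by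
    compute_degree!
  rw [natDegree_sub_eq_left_of_natDegree_lt, h2]
  rw [h2]
  refine lt_of_le_of_lt (?_ : _ ≤ 4) (by norm_num)
  compute_degree

end Sextic

section Iso

variable (Λ : Type u) [CommRing Λ] [Invertible (2 : Λ)]

/-- the defining relation of `AdjoinRoot (legSextic Λ)` -/
lemma legSextic_rel :
    (AdjoinRoot.root (legSextic Λ) ^ 2 - AdjoinRoot.root (legSextic Λ) + 1) ^ 3 -
      AdjoinRoot.of (legSextic Λ) (C (legInv256 Λ) * X) *
        (AdjoinRoot.root (legSextic Λ) ^ 2 * (AdjoinRoot.root (legSextic Λ) - 1) ^ 2) = 0 := by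
  have h := AdjoinRoot.eval₂_root (legSextic Λ)
  have e : eval₂ (AdjoinRoot.of (legSextic Λ)) (AdjoinRoot.root (legSextic Λ))
      ((X ^ 2 - X + 1) ^ 3 - C (C (legInv256 Λ) * X) * (X ^ 2 * (X - 1) ^ 2)) = 0 := h
  simpa only [eval₂_sub, eval₂_mul, eval₂_pow, eval₂_add, eval₂_X, eval₂_C, eval₂_one] using e

/-- the inverse of `t (t - 1)` in `AdjoinRoot (legSextic Λ)` -/
noncomputable def legSexticWinv : AdjoinRoot (legSextic Λ) :=
  AdjoinRoot.of (legSextic Λ) (C (legInv256 Λ) * X) *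
      (AdjoinRoot.root (legSextic Λ) ^ 2 - AdjoinRoot.root (legSextic Λ)) -
    (AdjoinRoot.root (legSextic Λ) ^ 2 - AdjoinRoot.root (legSextic Λ)) ^ 2 -
    3 * (AdjoinRoot.root (legSextic Λ) ^ 2 - AdjoinRoot.root (legSextic Λ)) - 3

lemma legSextic_root_mul :
    AdjoinRoot.root (legSextic Λ) * (AdjoinRoot.root (legSextic Λ) - 1) * legSexticWinv Λ = 1 := by
  have h := legSextic_rel Λ
  rw [legSexticWinv]
  linear_combination (-1 : AdjoinRoot (legSextic Λ)) * h

lemma isUnit_legSextic_root : IsUnit (AdjoinRoot.root (legSextic Λ)) :=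
  .of_mul_eq_one ((AdjoinRoot.root (legSextic Λ) - 1) * legSexticWinv Λ) (by
    rw [← mul_assoc]; exact legSextic_root_mul Λ)

lemma isUnit_one_sub_legSextic_root : IsUnit (1 - AdjoinRoot.root (legSextic Λ)) :=
  .of_mul_eq_one (-(AdjoinRoot.root (legSextic Λ) * legSexticWinv Λ)) (by
    linear_combination legSextic_root_mul Λ)

/-- the map `LegRing Λ → Λ[j][T]/(sextic)`, `x ↦ T` -/
noncomputable def legToAdjoin : LegRing Λ →ₐ[Λ] AdjoinRoot (legSextic Λ) :=
  legLift (AdjoinRoot.root (legSextic Λ)) (isUnit_legSextic_root Λ)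
    (isUnit_one_sub_legSextic_root Λ)

@[simp] lemma legToAdjoin_legX : legToAdjoin Λ (legX Λ) = AdjoinRoot.root (legSextic Λ) := by
  rw [legToAdjoin, legLift_legX]

lemma legToAdjoin_legJ :
    legToAdjoin Λ (legJ Λ) = AdjoinRoot.of (legSextic Λ) X := by
  have hx := legToAdjoin_legX Λ
  have h1 := congrArg (legToAdjoin Λ) (legX_mul_legXi Λ)
  have h2 := congrArg (legToAdjoin Λ) (one_sub_legX_mul_legYi Λ)
  rw [map_mul, map_one, hx] at h1
  rw [map_mul, map_one, map_sub, map_one, hx] at h2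
  have hrel := legSextic_rel Λ
  have h256 : (256 : AdjoinRoot (legSextic Λ)) * AdjoinRoot.of (legSextic Λ) (C (legInv256 Λ) * X)
      = AdjoinRoot.of (legSextic Λ) X := by
    have h0 : (256 : Λ[X]) * (C (legInv256 Λ) * X) = X := by
      have h := legInv256_mul Λ
      have h' : (256 : Λ[X]) = C (256 : Λ) := (map_ofNat C 256).symm
      rw [h', ← mul_assoc, ← C_mul, h, C_1, one_mul]
    calc (256 : AdjoinRoot (legSextic Λ)) * AdjoinRoot.of (legSextic Λ) (C (legInv256 Λ) * X)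
        = AdjoinRoot.of (legSextic Λ) (256 * (C (legInv256 Λ) * X)) := by
          simp only [map_mul, map_ofNat]
      _ = _ := by rw [h0]
  simp only [legJ, legU0, legW, map_mul, map_pow, map_sub, map_add, map_one, map_ofNat, hx]
  set t := AdjoinRoot.root (legSextic Λ)
  set a := legToAdjoin Λ (legXi Λ)
  set b := legToAdjoin Λ (legYi Λ)
  set c := AdjoinRoot.of (legSextic Λ) (C (legInv256 Λ) * X)
  have e : (t * a) ^ 2 * ((1 - t) * b) ^ 2 = 1 := by rw [h1, h2]; ring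
  rw [← h256]
  linear_combination (256 * a ^ 2 * b ^ 2) * hrel + (256 * c) * e

lemma legToAdjoin_algebraMap (p : Λ[X]) :
    legToAdjoin Λ (algebraMap Λ[X] (LegRing Λ) p) =
      algebraMap Λ[X] (AdjoinRoot (legSextic Λ)) p := by
  rw [legRing_algebraMap_poly, ← aeval_algHom_apply, legToAdjoin_legJ, AdjoinRoot.algebraMap_eq]
  have : (aeval (AdjoinRoot.of (legSextic Λ) X) : Λ[X] →ₐ[Λ] AdjoinRoot (legSextic Λ)) =
      (Algebra.ofId Λ[X] (AdjoinRoot (legSextic Λ))).restrictScalars Λ :=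
    Polynomial.algHom_ext (by
      rw [aeval_X]; rfl)
  rw [this]
  rfl

/-- `legToAdjoin` as a `Λ[j]`-algebra map -/
noncomputable def legToAdjoinJ : LegRing Λ →ₐ[Λ[X]] AdjoinRoot (legSextic Λ) :=
  { (legToAdjoin Λ : LegRing Λ →+* AdjoinRoot (legSextic Λ)) with
    commutes' := legToAdjoin_algebraMap Λ }

@[simp] lemma legToAdjoinJ_legX : legToAdjoinJ Λ (legX Λ) = AdjoinRoot.root (legSextic Λ) :=
  legToAdjoin_legX Λ

lemma legSextic_eval₂_legX :
    (legSextic Λ).eval₂ (Algebra.ofId Λ[X] (LegRing Λ) : Λ[X] →+* LegRing Λ) (legX Λ) = 0 := by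
  have e : (Algebra.ofId Λ[X] (LegRing Λ) : Λ[X] →+* LegRing Λ) (C (legInv256 Λ) * X)
      = algebraMap Λ (LegRing Λ) (legInv256 Λ) * legJ Λ := by
    show algebraMap Λ[X] (LegRing Λ) (C (legInv256 Λ) * X) = _
    rw [legRing_algebraMap_poly, map_mul, aeval_C, aeval_X]
  rw [legSextic]
  simp only [eval₂_sub, eval₂_mul, eval₂_pow, eval₂_add, eval₂_X, eval₂_C, eval₂_one]
  rw [e]
  have h := legJ_mul Λ
  have h256 : (256 : LegRing Λ) * algebraMap Λ (LegRing Λ) (legInv256 Λ) = 1 := by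
    rw [← map_ofNat (algebraMap Λ (LegRing Λ)) 256, ← map_mul, legInv256_mul, map_one]
  rw [legU0] at h
  linear_combination (-(algebraMap Λ (LegRing Λ) (legInv256 Λ))) * h -
    ((legX Λ ^ 2 - legX Λ + 1) ^ 3) * h256

/-- the map `Λ[j][T]/(sextic) → LegRing Λ`, `T ↦ x` -/
noncomputable def legFromAdjoinJ : AdjoinRoot (legSextic Λ) →ₐ[Λ[X]] LegRing Λ :=
  AdjoinRoot.liftAlgHom (legSextic Λ) (Algebra.ofId Λ[X] (LegRing Λ)) (legX Λ)
    (legSextic_eval₂_legX Λ)

@[simp] lemma legFromAdjoinJ_root :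
    legFromAdjoinJ Λ (AdjoinRoot.root (legSextic Λ)) = legX Λ := by
  rw [legFromAdjoinJ, AdjoinRoot.liftAlgHom_root]

/-- `LegRing Λ ≃ Λ[j][T]/(sextic)` as `Λ[j]`-algebras. -/
noncomputable def legEquivAdjoin : LegRing Λ ≃ₐ[Λ[X]] AdjoinRoot (legSextic Λ) :=
  AlgEquiv.ofAlgHom (legToAdjoinJ Λ) (legFromAdjoinJ Λ)
    (AdjoinRoot.algHom_ext (by simp))
    (by
      have : ((legFromAdjoinJ Λ).comp (legToAdjoinJ Λ)).restrictScalars Λ =
          (AlgHom.id Λ[X] (LegRing Λ)).restrictScalars Λ :=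
        legRing_algHom_ext (by simp)
      ext z
      exact DFunLike.congr_fun this z)

@[simp] lemma legEquivAdjoin_legX :
    legEquivAdjoin Λ (legX Λ) = AdjoinRoot.root (legSextic Λ) := legToAdjoin_legX Λ

@[simp] lemma legEquivAdjoin_symm_root :
    (legEquivAdjoin Λ).symm (AdjoinRoot.root (legSextic Λ)) = legX Λ := legFromAdjoinJ_root Λ

instance LegRing.instModuleFinitePoly : Module.Finite Λ[X] (LegRing Λ) :=
  haveI := (legSextic_monic Λ).finite_adjoinRoot
  Module.Finite.equiv (legEquivAdjoin Λ).symm.toLinearEquiv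

instance LegRing.instModuleFreePoly : Module.Free Λ[X] (LegRing Λ) :=
  haveI := (legSextic_monic Λ).free_adjoinRoot
  Module.Free.of_equiv (legEquivAdjoin Λ).symm.toLinearEquiv

/-- the power basis `1, x, …, x⁵` of `LegRing Λ` over `Λ[j]` -/
noncomputable def legBasis [Nontrivial Λ] : Module.Basis (Fin 6) Λ[X] (LegRing Λ) :=
  ((AdjoinRoot.powerBasis' (legSextic_monic Λ)).basis.reindex
      (finCongr (legSextic_natDegree Λ))).map (legEquivAdjoin Λ).symm.toLinearEquiv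

lemma legBasis_apply [Nontrivial Λ] (i : Fin 6) : legBasis Λ i = legX Λ ^ (i : ℕ) := by
  rw [legBasis, Module.Basis.map_apply, Module.Basis.reindex_apply, PowerBasis.basis_eq_pow]
  simp only [AdjoinRoot.powerBasis'_gen, AlgEquiv.coe_toLinearEquiv, map_pow,
    legEquivAdjoin_symm_root]
  rfl

lemma legRing_finrank [Nontrivial Λ] : Module.finrank Λ[X] (LegRing Λ) = 6 := by
  rw [Module.finrank_eq_card_basis (legBasis Λ), Fintype.card_fin]

lemma legRing_exists_repr [Nontrivial Λ] (z : LegRing Λ) :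
    ∃ a : ℕ → Λ[X], z = ∑ i ∈ Finset.range 6, a i • legX Λ ^ i := by
  refine ⟨fun i => if h : i < 6 then (legBasis Λ).repr z ⟨i, h⟩ else 0, ?_⟩
  conv_lhs => rw [← (legBasis Λ).sum_repr z]
  rw [Finset.sum_range]
  refine Finset.sum_congr rfl fun i _ => ?_
  beta_reduce
  rw [legBasis_apply, dif_pos i.2]

end Iso

end Fermat.Agent.Good
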