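import Mathlib

/-!
# The Legendre ring `Λ[x, 1/(x(x-1))]` and its `S₃` action by Moebius maps

Program L / L-GEN node [G-RCL], part 1.  For an arbitrary commutative ring `Λ`:

* `LegRing Λ` : the ring `Λ[X][1/(X(X-1))]`, with coordinate `legX`, and the inverses
  `legXi = 1/x`, `legYi = 1/(1-x)`;
* `legLift` : its universal property (a point `a` of a `Λ`-algebra with `a`, `1 - a` units);
* `LegG` : an explicit six element group, acting on `LegRing Λ` by the six Moebius maps
  `x, 1-x, 1/x, x/(x-1), 1/(1-x), (x-1)/x` (`MulSemiringAction LegG (LegRing Λ)`).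
-/

namespace Fermat.Agent.Good

open Polynomial

universe u v

section Basic

variable (Λ : Type u) [CommRing Λ]

/-- `X (X - 1)`, the polynomial inverted in the Legendre ring. -/
noncomputable def legC : Λ[X] := X * (X - 1)

/-- The Legendre ring `Λ[X, 1/(X(X-1))]`. -/
def LegRing : Type u := Localization.Away (legC Λ)

noncomputable instance LegRing.instCommRing : CommRing (LegRing Λ) :=
  inferInstanceAs (CommRing (Localization.Away (legC Λ)))

noncomputable instance LegRing.instAlgebra : Algebra Λ (LegRing Λ) :=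
  inferInstanceAs (Algebra Λ (Localization.Away (legC Λ)))

/-- the coordinate map `Λ[X] → LegRing Λ` (the "X-structure") -/
noncomputable def legOfPoly : Λ[X] →ₐ[Λ] LegRing Λ :=
  IsScalarTower.toAlgHom Λ Λ[X] (Localization.Away (legC Λ))

lemma legOfPoly_apply (p : Λ[X]) :
    legOfPoly Λ p = algebraMap Λ[X] (Localization.Away (legC Λ)) p := rfl

/-- the coordinate `x` -/
noncomputable def legX : LegRing Λ := legOfPoly Λ X

/-- `1/(x(x-1))` -/
noncomputable def legCinv : LegRing Λ :=
  IsLocalization.Away.invSelf (S := Localization.Away (legC Λ)) (legC Λ)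

/-- `1/x` -/
noncomputable def legXi : LegRing Λ := legOfPoly Λ (X - 1) * legCinv Λ

/-- `1/(1-x)` -/
noncomputable def legYi : LegRing Λ := - legOfPoly Λ X * legCinv Λ

lemma legOfPoly_legC_mul_legCinv : legOfPoly Λ (legC Λ) * legCinv Λ = 1 :=
  IsLocalization.Away.mul_invSelf (S := Localization.Away (legC Λ)) (legC Λ)

@[simp] lemma legOfPoly_X : legOfPoly Λ X = legX Λ := rfl

lemma legX_mul_legXi : legX Λ * legXi Λ = 1 := by
  have h := legOfPoly_legC_mul_legCinv Λ
  rw [legC, map_mul, map_sub, map_one, legOfPoly_X] at h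
  rw [legXi, map_sub, map_one, legOfPoly_X]
  linear_combination h

lemma one_sub_legX_mul_legYi : (1 - legX Λ) * legYi Λ = 1 := by
  have h := legOfPoly_legC_mul_legCinv Λ
  rw [legC, map_mul, map_sub, map_one, legOfPoly_X] at h
  rw [legYi, legOfPoly_X]
  linear_combination h

lemma legCinv_eq : legCinv Λ = - (legXi Λ * legYi Λ) := by
  have h := legOfPoly_legC_mul_legCinv Λ
  rw [legC, map_mul, map_sub, map_one, legOfPoly_X] at h
  have h1 := legX_mul_legXi Λ
  have h2 := one_sub_legX_mul_legYi Λ
  calc legCinv Λ = (legX Λ * legXi Λ) * ((1 - legX Λ) * legYi Λ) * legCinv Λ := by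
        rw [h1, h2]; ring
    _ = - (legXi Λ * legYi Λ) * (legX Λ * (legX Λ - 1) * legCinv Λ) := by ring
    _ = _ := by rw [h]; ring

lemma legXi_mul_legYi : legXi Λ * legYi Λ = legXi Λ + legYi Λ := by
  have h1 := legX_mul_legXi Λ
  have h2 := one_sub_legX_mul_legYi Λ
  linear_combination (legXi Λ) * h2 + (legYi Λ) * h1

lemma isUnit_legX : IsUnit (legX Λ) := .of_mul_eq_one _ (legX_mul_legXi Λ)
lemma isUnit_one_sub_legX : IsUnit (1 - legX Λ) := .of_mul_eq_one _ (one_sub_legX_mul_legYi Λ)
lemma isUnit_legXi : IsUnit (legXi Λ) :=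
  .of_mul_eq_one (legX Λ) (by rw [mul_comm]; exact legX_mul_legXi Λ)
lemma isUnit_legYi : IsUnit (legYi Λ) :=
  .of_mul_eq_one (1 - legX Λ) (by rw [mul_comm]; exact one_sub_legX_mul_legYi Λ)

lemma exists_legOfPoly_eq (z : LegRing Λ) :
    ∃ (n : ℕ) (p : Λ[X]), z = legOfPoly Λ p * legCinv Λ ^ n := by
  obtain ⟨n, a, h⟩ := IsLocalization.Away.surj (S := Localization.Away (legC Λ)) (legC Λ) z
  refine ⟨n, a, ?_⟩
  have h' : z * legOfPoly Λ (legC Λ) ^ n = legOfPoly Λ a := h
  have hc := legOfPoly_legC_mul_legCinv Λ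
  calc z = z * (legOfPoly Λ (legC Λ) * legCinv Λ) ^ n := by rw [hc]; simp
    _ = (z * legOfPoly Λ (legC Λ) ^ n) * legCinv Λ ^ n := by ring
    _ = _ := by rw [h']

variable {Λ}
variable {S : Type v} [CommRing S] [Algebra Λ S]

lemma isUnit_aeval_legC (a : S) (ha : IsUnit a) (hb : IsUnit (1 - a)) :
    IsUnit ((aeval a : Λ[X] →ₐ[Λ] S) (legC Λ)) := by
  rw [legC, map_mul, map_sub, aeval_X, map_one]
  exact ha.mul (by rw [← neg_sub]; exact hb.neg)

/-- Universal property of the Legendre ring: a point `a` with `a`, `1 - a` units. -/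
noncomputable def legLift (a : S) (ha : IsUnit a) (hb : IsUnit (1 - a)) : LegRing Λ →ₐ[Λ] S :=
  IsLocalization.Away.liftAlgHom (S := Localization.Away (legC Λ)) (A := Λ) (legC Λ)
    (f := aeval a) (isUnit_aeval_legC a ha hb)

@[simp] lemma legLift_legOfPoly (a : S) (ha : IsUnit a) (hb : IsUnit (1 - a)) (p : Λ[X]) :
    legLift a ha hb (legOfPoly Λ p) = aeval a p := by
  exact IsLocalization.Away.lift_eq (S := Localization.Away (legC Λ)) (legC Λ)
    (g := (aeval a : Λ[X] →ₐ[Λ] S).toRingHom) (isUnit_aeval_legC a ha hb) p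

@[simp] lemma legLift_legX (a : S) (ha : IsUnit a) (hb : IsUnit (1 - a)) :
    legLift a ha hb (legX Λ) = a := by
  rw [legX, legLift_legOfPoly, aeval_X]

lemma legLift_legXi_mul (a : S) (ha : IsUnit a) (hb : IsUnit (1 - a)) :
    legLift a ha hb (legXi Λ) * a = 1 := by
  have := congrArg (legLift a ha hb) (legX_mul_legXi Λ)
  rw [map_mul, map_one, legLift_legX] at this
  rw [mul_comm]; exact this

lemma legLift_legYi_mul (a : S) (ha : IsUnit a) (hb : IsUnit (1 - a)) :
    legLift a ha hb (legYi Λ) * (1 - a) = 1 := by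
  have := congrArg (legLift a ha hb) (one_sub_legX_mul_legYi Λ)
  rw [map_mul, map_one, map_sub, map_one, legLift_legX] at this
  rw [mul_comm]; exact this

lemma legLift_legXi_eq (a b : S) (ha : IsUnit a) (hb : IsUnit (1 - a)) (hab : a * b = 1) :
    legLift a ha hb (legXi Λ) = b := by
  have h := legLift_legXi_mul (Λ := Λ) a ha hb
  calc legLift a ha hb (legXi Λ) = legLift a ha hb (legXi Λ) * (a * b) := by rw [hab, mul_one]
    _ = (legLift a ha hb (legXi Λ) * a) * b := by ring
    _ = b := by rw [h, one_mul]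

lemma legLift_legYi_eq (a b : S) (ha : IsUnit a) (hb : IsUnit (1 - a)) (hab : (1 - a) * b = 1) :
    legLift a ha hb (legYi Λ) = b := by
  have h := legLift_legYi_mul (Λ := Λ) a ha hb
  calc legLift a ha hb (legYi Λ) = legLift a ha hb (legYi Λ) * ((1 - a) * b) := by
        rw [hab, mul_one]
    _ = (legLift a ha hb (legYi Λ) * (1 - a)) * b := by ring
    _ = b := by rw [h, one_mul]

/-- Two `Λ`-algebra maps out of the Legendre ring agreeing on `x` are equal. -/
lemma legRing_algHom_ext {f g : LegRing Λ →ₐ[Λ] S} (h : f (legX Λ) = g (legX Λ)) : f = g := by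
  have hp : ∀ p : Λ[X], f (legOfPoly Λ p) = g (legOfPoly Λ p) := by
    intro p
    have : f.comp (legOfPoly Λ) = g.comp (legOfPoly Λ) := Polynomial.algHom_ext (by simpa using h)
    exact DFunLike.congr_fun this p
  have hc : f (legCinv Λ) = g (legCinv Λ) := by
    have h1 := congrArg f (legOfPoly_legC_mul_legCinv Λ)
    have h2 := congrArg g (legOfPoly_legC_mul_legCinv Λ)
    rw [map_mul, map_one] at h1 h2
    calc f (legCinv Λ) = f (legCinv Λ) * (g (legOfPoly Λ (legC Λ)) * g (legCinv Λ)) := by
          rw [h2, mul_one]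
      _ = (f (legOfPoly Λ (legC Λ)) * f (legCinv Λ)) * g (legCinv Λ) := by rw [hp]; ring
      _ = _ := by rw [h1, one_mul]
  ext z
  obtain ⟨n, p, rfl⟩ := exists_legOfPoly_eq Λ z
  rw [map_mul, map_mul, map_pow, map_pow, hp, hc]

lemma legLift_self_eq_id :
    legLift (legX Λ) (isUnit_legX Λ) (isUnit_one_sub_legX Λ) = AlgHom.id Λ (LegRing Λ) :=
  legRing_algHom_ext (by simp)

lemma comp_legLift {S' : Type*} [CommRing S'] [Algebra Λ S'] (φ : S →ₐ[Λ] S')
    (a : S) (ha : IsUnit a) (hb : IsUnit (1 - a)) :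
    φ.comp (legLift a ha hb) = legLift (Λ := Λ) (φ a) (ha.map φ)
      (by have := hb.map φ; rwa [map_sub, map_one] at this) :=
  legRing_algHom_ext (by simp)

end Basic


/-- The six-element group of Moebius maps of the Legendre line (abstractly `S₃`). -/
inductive LegG : Type
  | e | a | b | c | r | r2
  deriving DecidableEq

namespace LegG

instance : Fintype LegG := ⟨{e, a, b, c, r, r2}, by intro x; cases x <;> decide⟩

/-- multiplication table (`g * h` acts as `g ∘ h` on the Legendre ring) -/
def mul : LegG → LegG → LegG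
  | e, e => e | e, a => a | e, b => b | e, c => c | e, r => r | e, r2 => r2
  | a, e => a | a, a => e | a, b => r | a, c => r2 | a, r => b | a, r2 => c
  | b, e => b | b, a => r2 | b, b => e | b, c => r | b, r => c | b, r2 => a
  | c, e => c | c, a => r | c, b => r2 | c, c => e | c, r => a | c, r2 => b
  | r, e => r | r, a => c | r, b => a | r, c => b | r, r => r2 | r, r2 => e
  | r2, e => r2 | r2, a => b | r2, b => c | r2, c => a | r2, r => e | r2, r2 => r

/-- inverse -/
def inv : LegG → LegG
  | e => e | a => a | b => b | c => c | r => r2 | r2 => r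

instance : Mul LegG := ⟨mul⟩
instance : One LegG := ⟨e⟩
instance : Inv LegG := ⟨inv⟩

instance : Group LegG :=
  Group.ofLeftAxioms (by decide) (by decide) (by decide)

lemma card_eq : Fintype.card LegG = 6 := rfl

end LegG


section Action

variable (Λ : Type u) [CommRing Λ]

lemma one_sub_legXi : 1 - legXi Λ = -((1 - legX Λ) * legXi Λ) := by
  linear_combination - legX_mul_legXi Λ

lemma one_sub_legYi : 1 - legYi Λ = -(legX Λ * legYi Λ) := by
  linear_combination - one_sub_legX_mul_legYi Λ

lemma one_sub_legXi_mul_one_sub_legYi : (1 - legXi Λ) * (1 - legYi Λ) = 1 := by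
  linear_combination legXi_mul_legYi Λ

lemma isUnit_one_sub_legXi : IsUnit (1 - legXi Λ) :=
  .of_mul_eq_one _ (one_sub_legXi_mul_one_sub_legYi Λ)

lemma isUnit_one_sub_legYi : IsUnit (1 - legYi Λ) :=
  .of_mul_eq_one (1 - legXi Λ) (by rw [mul_comm]; exact one_sub_legXi_mul_one_sub_legYi Λ)

/-- the image of `x` under the Moebius map attached to `g` -/
noncomputable def legPoint : LegG → LegRing Λ
  | .e => legX Λ
  | .a => 1 - legX Λ
  | .b => legXi Λ
  | .c => 1 - legYi Λ
  | .r => legYi Λ
  | .r2 => 1 - legXi Λ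

/-- the inverse of `legPoint g` -/
noncomputable def legPointInv : LegG → LegRing Λ
  | .e => legXi Λ
  | .a => legYi Λ
  | .b => legX Λ
  | .c => 1 - legXi Λ
  | .r => 1 - legX Λ
  | .r2 => 1 - legYi Λ

/-- the inverse of `1 - legPoint g` -/
noncomputable def legPointInv' : LegG → LegRing Λ
  | .e => legYi Λ
  | .a => legXi Λ
  | .b => 1 - legYi Λ
  | .c => 1 - legX Λ
  | .r => 1 - legXi Λ
  | .r2 => legX Λ

lemma legPoint_mul_legPointInv (g : LegG) : legPoint Λ g * legPointInv Λ g = 1 := by
  have h1 := legX_mul_legXi Λ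
  have h2 := one_sub_legX_mul_legYi Λ
  have h3 := legXi_mul_legYi Λ
  cases g <;> simp only [legPoint, legPointInv]
  · exact h1
  · exact h2
  · linear_combination h1
  · linear_combination h3
  · linear_combination h2
  · linear_combination h3

lemma one_sub_legPoint_mul_legPointInv' (g : LegG) :
    (1 - legPoint Λ g) * legPointInv' Λ g = 1 := by
  have h1 := legX_mul_legXi Λ
  have h2 := one_sub_legX_mul_legYi Λ
  have h3 := legXi_mul_legYi Λ
  cases g <;> simp only [legPoint, legPointInv']
  · exact h2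
  · linear_combination h1
  · linear_combination h3
  · linear_combination h2
  · linear_combination h3
  · linear_combination h1

lemma isUnit_legPoint (g : LegG) : IsUnit (legPoint Λ g) :=
  .of_mul_eq_one _ (legPoint_mul_legPointInv Λ g)

lemma isUnit_one_sub_legPoint (g : LegG) : IsUnit (1 - legPoint Λ g) :=
  .of_mul_eq_one _ (one_sub_legPoint_mul_legPointInv' Λ g)

/-- the Moebius endomorphism attached to `g` -/
noncomputable def legAut (g : LegG) : LegRing Λ →ₐ[Λ] LegRing Λ :=
  legLift (legPoint Λ g) (isUnit_legPoint Λ g) (isUnit_one_sub_legPoint Λ g)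

@[simp] lemma legAut_legX (g : LegG) : legAut Λ g (legX Λ) = legPoint Λ g := by
  rw [legAut, legLift_legX]

@[simp] lemma legAut_legXi (g : LegG) : legAut Λ g (legXi Λ) = legPointInv Λ g :=
  legLift_legXi_eq _ _ _ _ (legPoint_mul_legPointInv Λ g)

@[simp] lemma legAut_legYi (g : LegG) : legAut Λ g (legYi Λ) = legPointInv' Λ g :=
  legLift_legYi_eq _ _ _ _ (one_sub_legPoint_mul_legPointInv' Λ g)

lemma legAut_legPoint (g h : LegG) : legAut Λ g (legPoint Λ h) = legPoint Λ (g * h) := by
  cases h <;> cases g <;>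
    simp only [legPoint, map_sub, map_one, legAut_legX, legAut_legXi, legAut_legYi,
      legPointInv, legPointInv', sub_sub_cancel] <;> rfl

lemma legAut_one : legAut Λ 1 = AlgHom.id Λ (LegRing Λ) := legLift_self_eq_id

lemma legAut_mul (g h : LegG) : legAut Λ (g * h) = (legAut Λ g).comp (legAut Λ h) := by
  refine legRing_algHom_ext ?_
  rw [AlgHom.comp_apply, legAut_legX, legAut_legX, legAut_legPoint]

noncomputable instance LegRing.instMulSemiringAction : MulSemiringAction LegG (LegRing Λ) where
  smul g z := legAut Λ g z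
  one_smul z := by
    show legAut Λ 1 z = z
    rw [legAut_one]; rfl
  mul_smul g h z := by
    show legAut Λ (g * h) z = legAut Λ g (legAut Λ h z)
    rw [legAut_mul]; rfl
  smul_zero g := map_zero (legAut Λ g)
  smul_add g := map_add (legAut Λ g)
  smul_one g := map_one (legAut Λ g)
  smul_mul g := map_mul (legAut Λ g)

lemma legG_smul_def (g : LegG) (z : LegRing Λ) : g • z = legAut Λ g z := rfl

instance LegRing.instSMulCommClass : SMulCommClass LegG Λ (LegRing Λ) where
  smul_comm g c z := by
    rw [legG_smul_def, legG_smul_def, map_smul]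

end Action

end Fermat.Agent.Good
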