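import Mathlib

/-!
# Möbius automorphisms of `K(X)` and Galois covers of the line by explicit automorphisms (helper16)

Program L (S18), track L-GEN, node (I.1): the algebra behind the explicit rigid covers
(Hesse, Legendre) of the `j`-line.  Everything is over an arbitrary field `K`, in `RatFunc K`.

* `ratFunc_algHom_ext`: `K`-algebra maps out of `K(X)` are determined by the image of `X`;
* `substHom g hg`: the substitution `X ↦ g` for a non-constant rational function `g`;
* `mobFun a b c d = (aX + b)/(cX + d)`, `mobFun_eq_iff` (equality in terms of coefficients),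
  `mobHom`, `mobHom_mobFun` (composition = matrix product), `mobEquiv` (the Möbius automorphism
  for `ad - bc ≠ 0`), `mobFun_sub_X` (the fixed-point quadratic `cX² + (d - a)X - b`);
* `algEquivOfFix f σ h`: a `K`-automorphism fixing `f`, as an automorphism over `K(f)`;
* **`isGalois_of_auts`**: if `f = p/q` is non-constant, `deg p, deg q ≤ n`, and `n` distinct
  `K`-automorphisms of `K(X)` fix `f`, then `K(X)/K(f)` is Galois of degree `n` and these are all
  its automorphisms.
-/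

set_option autoImplicit false
set_option linter.style.haveILetI false
set_option linter.unusedSimpArgs false

open Polynomial IntermediateField
open scoped RatFunc

noncomputable section

namespace Fermat.Agent.Good

variable {K : Type*} [Field K]

/-- Two `K`-algebra homomorphisms out of `K(X)` which agree on `X` are equal. -/
theorem ratFunc_algHom_ext {L : Type*} [Field L] [Algebra K L] {σ τ : K⟮X⟯ →ₐ[K] L}
    (h : σ RatFunc.X = τ RatFunc.X) : σ = τ := by
  have h1 : (σ : K⟮X⟯ →+* L).comp (algebraMap K[X] K⟮X⟯) =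
      (τ : K⟮X⟯ →+* L).comp (algebraMap K[X] K⟮X⟯) := by
    have h2 : (σ.comp (IsScalarTower.toAlgHom K K[X] K⟮X⟯)) =
        (τ.comp (IsScalarTower.toAlgHom K K[X] K⟮X⟯)) := by
      apply Polynomial.algHom_ext
      simpa [RatFunc.algebraMap_X] using h
    exact congrArg (fun φ : K[X] →ₐ[K] L => (φ : K[X] →+* L)) h2
  have h3 : (σ : K⟮X⟯ →+* L) = (τ : K⟮X⟯ →+* L) :=
    IsLocalization.ringHom_ext (nonZeroDivisors K[X]) h1
  exact AlgHom.coe_ringHom_injective h3

/-- Substitution `X ↦ g` for a non-constant rational function `g`. -/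
def substHom (g : K⟮X⟯) (hg : ¬ ∃ c, g = RatFunc.C c) : K⟮X⟯ →ₐ[K] K⟮X⟯ :=
  RatFunc.liftAlgHom (Polynomial.aeval g) (by
    intro p hp
    rw [Submonoid.mem_comap, mem_nonZeroDivisors_iff_ne_zero]
    have hp0 : p ≠ 0 := nonZeroDivisors.ne_zero hp
    intro h0
    exact hp0 ((transcendental_iff.1 (RatFunc.transcendental_of_ne_C g hg)) p h0))

theorem substHom_algebraMap (g : K⟮X⟯) (hg : ¬ ∃ c, g = RatFunc.C c) (p : K[X]) :
    substHom g hg (algebraMap K[X] K⟮X⟯ p) = Polynomial.aeval g p := by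
  have := RatFunc.liftAlgHom_apply_div (Polynomial.aeval g) (by
    intro p hp
    rw [Submonoid.mem_comap, mem_nonZeroDivisors_iff_ne_zero]
    have hp0 : p ≠ 0 := nonZeroDivisors.ne_zero hp
    intro h0
    exact hp0 ((transcendental_iff.1 (RatFunc.transcendental_of_ne_C g hg)) p h0)) p 1
  simpa [substHom] using this

@[simp] theorem substHom_X (g : K⟮X⟯) (hg : ¬ ∃ c, g = RatFunc.C c) :
    substHom g hg RatFunc.X = g := by
  rw [← RatFunc.algebraMap_X, substHom_algebraMap, Polynomial.aeval_X]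


theorem quad_coeffs (u v w : K) :
    (Polynomial.C u * Polynomial.X ^ 2 + Polynomial.C v * Polynomial.X + Polynomial.C w :
      K[X]).coeff 2 = u ∧
    (Polynomial.C u * Polynomial.X ^ 2 + Polynomial.C v * Polynomial.X + Polynomial.C w :
      K[X]).coeff 1 = v ∧
    (Polynomial.C u * Polynomial.X ^ 2 + Polynomial.C v * Polynomial.X + Polynomial.C w :
      K[X]).coeff 0 = w := by
  refine ⟨?_, ?_, ?_⟩ <;>
    simp [Polynomial.coeff_X, Polynomial.coeff_C, Polynomial.coeff_X_pow]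

theorem quad_eq_iff (u v w u' v' w' : K) :
    (Polynomial.C u * Polynomial.X ^ 2 + Polynomial.C v * Polynomial.X + Polynomial.C w : K[X]) =
      Polynomial.C u' * Polynomial.X ^ 2 + Polynomial.C v' * Polynomial.X + Polynomial.C w' ↔
      u = u' ∧ v = v' ∧ w = w' := by
  constructor
  · intro h
    obtain ⟨h2, h1, h0⟩ := quad_coeffs u v w
    obtain ⟨h2', h1', h0'⟩ := quad_coeffs u' v' w'
    refine ⟨?_, ?_, ?_⟩
    · rw [← h2, ← h2', h]
    · rw [← h1, ← h1', h]
    · rw [← h0, ← h0', h]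
  · rintro ⟨rfl, rfl, rfl⟩
    rfl

/-- The linear polynomial `aX + b` as a rational function. -/
theorem ratFunc_linear_ne_zero {c d : K} (h : c ≠ 0 ∨ d ≠ 0) :
    RatFunc.C c * RatFunc.X + RatFunc.C d ≠ (0 : K⟮X⟯) := by
  have h1 : (Polynomial.C c * Polynomial.X + Polynomial.C d : K[X]) ≠ 0 := by
    intro h0
    have hc := congrArg (fun p : K[X] => p.coeff 1) h0
    have hd := congrArg (fun p : K[X] => p.coeff 0) h0
    simp at hc hd
    rcases h with h | h
    · exact h hc
    · exact h hd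
  have h2 := RatFunc.algebraMap_ne_zero h1
  simpa [RatFunc.algebraMap_C, RatFunc.algebraMap_X] using h2

/-- The Möbius function `(aX + b)/(cX + d)`. -/
def mobFun (a b c d : K) : K⟮X⟯ :=
  (RatFunc.C a * RatFunc.X + RatFunc.C b) / (RatFunc.C c * RatFunc.X + RatFunc.C d)

theorem mobFun_mul_denom {a b c d : K} (h : c ≠ 0 ∨ d ≠ 0) :
    mobFun a b c d * (RatFunc.C c * RatFunc.X + RatFunc.C d) =
      RatFunc.C a * RatFunc.X + RatFunc.C b := by
  rw [mobFun, div_mul_cancel₀ _ (ratFunc_linear_ne_zero h)]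

/-- Equality of Möbius functions in terms of the coefficients. -/
theorem mobFun_eq_iff {a b c d a' b' c' d' : K} (h : c ≠ 0 ∨ d ≠ 0) (h' : c' ≠ 0 ∨ d' ≠ 0) :
    mobFun a b c d = mobFun a' b' c' d' ↔
      a * c' = a' * c ∧ a * d' + b * c' = a' * d + b' * c ∧ b * d' = b' * d := by
  rw [mobFun, mobFun, div_eq_div_iff (ratFunc_linear_ne_zero h) (ratFunc_linear_ne_zero h')]
  have key : (RatFunc.C a * RatFunc.X + RatFunc.C b) * (RatFunc.C c' * RatFunc.X + RatFunc.C d') =
      (RatFunc.C a' * RatFunc.X + RatFunc.C b') * (RatFunc.C c * RatFunc.X + RatFunc.C d) ↔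
      ((Polynomial.C a * Polynomial.X + Polynomial.C b) *
        (Polynomial.C c' * Polynomial.X + Polynomial.C d') : K[X]) =
      (Polynomial.C a' * Polynomial.X + Polynomial.C b') *
        (Polynomial.C c * Polynomial.X + Polynomial.C d) := by
    rw [← (RatFunc.algebraMap_injective K).eq_iff]
    simp [RatFunc.algebraMap_C, RatFunc.algebraMap_X]
  rw [key]
  have e1 : ((Polynomial.C a * Polynomial.X + Polynomial.C b) *
        (Polynomial.C c' * Polynomial.X + Polynomial.C d') : K[X]) =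
      Polynomial.C (a * c') * Polynomial.X ^ 2 + Polynomial.C (a * d' + b * c') * Polynomial.X +
        Polynomial.C (b * d') := by
    simp only [map_mul, map_add]; ring
  have e2 : ((Polynomial.C a' * Polynomial.X + Polynomial.C b') *
        (Polynomial.C c * Polynomial.X + Polynomial.C d) : K[X]) =
      Polynomial.C (a' * c) * Polynomial.X ^ 2 + Polynomial.C (a' * d + b' * c) * Polynomial.X +
        Polynomial.C (b' * d) := by
    simp only [map_mul, map_add]; ring
  rw [e1, e2, quad_eq_iff]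

/-- A Möbius function with non-zero determinant is not constant. -/
theorem mobFun_ne_C {a b c d : K} (hdet : a * d - b * c ≠ 0) :
    ¬ ∃ e, mobFun a b c d = RatFunc.C e := by
  rintro ⟨e, he⟩
  have hcd : c ≠ 0 ∨ d ≠ 0 := by
    by_contra hcon
    push Not at hcon
    apply hdet
    rw [hcon.1, hcon.2]; ring
  have h1 : mobFun a b c d = mobFun 0 e 0 1 := by
    rw [he, mobFun]; simp
  rw [mobFun_eq_iff hcd (Or.inr one_ne_zero)] at h1
  obtain ⟨-, h2, h3⟩ := h1
  apply hdet
  have h2' : a = e * c := by simpa using h2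
  have h3' : b = e * d := by simpa using h3
  rw [h2', h3']; ring

/-- The Möbius substitution `X ↦ (aX + b)/(cX + d)`. -/
def mobHom (a b c d : K) (hdet : a * d - b * c ≠ 0) : K⟮X⟯ →ₐ[K] K⟮X⟯ :=
  substHom (mobFun a b c d) (mobFun_ne_C hdet)

@[simp] theorem mobHom_X (a b c d : K) (hdet : a * d - b * c ≠ 0) :
    mobHom a b c d hdet RatFunc.X = mobFun a b c d :=
  substHom_X _ _

theorem algHom_mobFun (σ : K⟮X⟯ →ₐ[K] K⟮X⟯) (a b c d : K) :
    σ (mobFun a b c d) = (RatFunc.C a * σ RatFunc.X + RatFunc.C b) /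
      (RatFunc.C c * σ RatFunc.X + RatFunc.C d) := by
  have hC : ∀ e : K, σ (RatFunc.C e) = RatFunc.C e := fun e => by
    rw [← RatFunc.algebraMap_eq_C, AlgHom.commutes]
  rw [mobFun, map_div₀, map_add, map_add, map_mul, map_mul, hC, hC, hC, hC]

/-- Composition of Möbius maps, in an arbitrary field. -/
theorem mob_comp_field {F : Type*} [Field F] (a b c d a' b' c' d' u : F) (h1 : c * u + d ≠ 0) :
    (a' * ((a * u + b) / (c * u + d)) + b') / (c' * ((a * u + b) / (c * u + d)) + d') =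
      ((a' * a + b' * c) * u + (a' * b + b' * d)) /
        ((c' * a + d' * c) * u + (c' * b + d' * d)) := by
  have hn : a' * ((a * u + b) / (c * u + d)) + b' =
      ((a' * a + b' * c) * u + (a' * b + b' * d)) / (c * u + d) := by
    rw [eq_div_iff h1, add_mul, mul_assoc, div_mul_cancel₀ _ h1]
    ring
  have hd : c' * ((a * u + b) / (c * u + d)) + d' =
      ((c' * a + d' * c) * u + (c' * b + d' * d)) / (c * u + d) := by
    rw [eq_div_iff h1, add_mul, mul_assoc, div_mul_cancel₀ _ h1]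
    ring
  rw [hn, hd, div_div_div_cancel_right₀ h1]

/-- Composition of Möbius substitutions. -/
theorem mobHom_mobFun (a b c d : K) (hdet : a * d - b * c ≠ 0) (a' b' c' d' : K) :
    mobHom a b c d hdet (mobFun a' b' c' d') =
      mobFun (a' * a + b' * c) (a' * b + b' * d) (c' * a + d' * c) (c' * b + d' * d) := by
  have hcd : c ≠ 0 ∨ d ≠ 0 := by
    by_contra hcon
    push Not at hcon
    apply hdet
    rw [hcon.1, hcon.2]; ring
  have hne := ratFunc_linear_ne_zero hcd
  rw [algHom_mobFun, mobHom_X]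
  rw [mobFun, mobFun]
  simp only [map_add, map_mul]
  exact mob_comp_field _ _ _ _ _ _ _ _ _ hne


theorem mobFun_scalar {e : K} (he : e ≠ 0) : mobFun e 0 0 e = (RatFunc.X : K⟮X⟯) := by
  have h : (RatFunc.C e : K⟮X⟯) ≠ 0 := by
    rw [Ne, map_eq_zero]; exact he
  rw [mobFun]
  simp only [map_zero, zero_mul, add_zero, zero_add]
  rw [mul_div_assoc, mul_comm, div_mul_cancel₀ _ h]

theorem mobHom_comp_adj (a b c d : K) (hdet : a * d - b * c ≠ 0)
    (hdet' : d * a - (-b) * (-c) ≠ 0) :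
    (mobHom a b c d hdet).comp (mobHom d (-b) (-c) a hdet') = AlgHom.id K K⟮X⟯ := by
  apply ratFunc_algHom_ext
  rw [AlgHom.comp_apply, mobHom_X, mobHom_mobFun, AlgHom.id_apply]
  have e1 : d * a + -b * c = a * d - b * c := by ring
  have e2 : d * b + -b * d = 0 := by ring
  have e3 : -c * a + a * c = 0 := by ring
  have e4 : -c * b + a * d = a * d - b * c := by ring
  rw [e1, e2, e3, e4]
  exact mobFun_scalar hdet

/-- The Möbius automorphism `X ↦ (aX + b)/(cX + d)` of `K(X)`. -/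
def mobEquiv (a b c d : K) (hdet : a * d - b * c ≠ 0) : K⟮X⟯ ≃ₐ[K] K⟮X⟯ :=
  have hdet' : d * a - (-b) * (-c) ≠ 0 := by
    have : d * a - (-b) * (-c) = a * d - b * c := by ring
    rw [this]; exact hdet
  have hdet'' : a * d - (- -b) * (- -c) ≠ 0 := by
    have : a * d - (- -b) * (- -c) = a * d - b * c := by ring
    rw [this]; exact hdet
  AlgEquiv.ofAlgHom (mobHom a b c d hdet) (mobHom d (-b) (-c) a hdet')
    (mobHom_comp_adj a b c d hdet hdet')
    (by
      have h := mobHom_comp_adj d (-b) (-c) a hdet' hdet''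
      simpa only [neg_neg] using h)

@[simp] theorem mobEquiv_X (a b c d : K) (hdet : a * d - b * c ≠ 0) :
    mobEquiv a b c d hdet RatFunc.X = mobFun a b c d :=
  mobHom_X a b c d hdet

theorem mobEquiv_apply (a b c d : K) (hdet : a * d - b * c ≠ 0) (f : K⟮X⟯) :
    mobEquiv a b c d hdet f = mobHom a b c d hdet f := rfl

/-- `σ(X) - X` for a Möbius map: the fixed-point quadratic. -/
theorem mobFun_sub_X {a b c d : K} (h : c ≠ 0 ∨ d ≠ 0) :
    mobFun a b c d - RatFunc.X =
      -(RatFunc.C c * RatFunc.X ^ 2 + RatFunc.C (d - a) * RatFunc.X - RatFunc.C b) /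
        (RatFunc.C c * RatFunc.X + RatFunc.C d) := by
  have hne := ratFunc_linear_ne_zero h
  rw [mobFun, eq_div_iff hne, sub_mul, div_mul_cancel₀ _ hne, map_sub]
  ring


/-- A `K`-automorphism of `K(X)` fixing `f` fixes `K(f)` pointwise. -/
theorem algEquiv_apply_eq_of_mem_adjoin (f : K⟮X⟯) (σ : K⟮X⟯ ≃ₐ[K] K⟮X⟯) (h : σ f = f)
    {y : K⟮X⟯} (hy : y ∈ K⟮f⟯) : σ y = y := by
  induction hy using IntermediateField.adjoin_induction with
  | mem y hy =>
    have : y = f := hy
    rw [this, h]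
  | algebraMap r => exact σ.commutes r
  | add y z _ _ hy hz => rw [map_add, hy, hz]
  | inv y _ hy => rw [map_inv₀, hy]
  | mul y z _ _ hy hz => rw [map_mul, hy, hz]

/-- A `K`-automorphism of `K(X)` fixing `f`, as an automorphism over `K(f)`. -/
def algEquivOfFix (f : K⟮X⟯) (σ : K⟮X⟯ ≃ₐ[K] K⟮X⟯) (h : σ f = f) : K⟮X⟯ ≃ₐ[K⟮f⟯] K⟮X⟯ :=
  { σ.toRingEquiv with
    commutes' := fun y => algEquiv_apply_eq_of_mem_adjoin f σ h y.2 }

@[simp] theorem algEquivOfFix_apply (f : K⟮X⟯) (σ : K⟮X⟯ ≃ₐ[K] K⟮X⟯) (h : σ f = f) (y : K⟮X⟯) :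
    algEquivOfFix f σ h y = σ y := rfl

/-- **Galois by explicit automorphisms.**  If `f = p/q` is non-constant with `deg p, deg q ≤ n` and
there are `n` distinct `K`-automorphisms of `K(X)` fixing `f`, then `K(X)/K(f)` is Galois of degree
`n` and these are all its automorphisms. -/
theorem isGalois_of_auts {ι : Type*} [Fintype ι] (f : K⟮X⟯) (hf : ¬ ∃ c, f = RatFunc.C c)
    (p q : K[X]) (hq : q ≠ 0)
    (hfpq : f = algebraMap K[X] K⟮X⟯ p / algebraMap K[X] K⟮X⟯ q)
    (hp : p.natDegree ≤ Fintype.card ι) (hq' : q.natDegree ≤ Fintype.card ι)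
    (σ : ι → (K⟮X⟯ ≃ₐ[K] K⟮X⟯)) (hσ : Function.Injective σ) (hfix : ∀ i, σ i f = f) :
    Module.finrank K⟮f⟯ K⟮X⟯ = Fintype.card ι ∧ IsGalois K⟮f⟯ K⟮X⟯ ∧
      ∀ τ : K⟮X⟯ ≃ₐ[K⟮f⟯] K⟮X⟯, ∃ i, ∀ y, τ y = σ i y := by
  classical
  have hp0 : p ≠ 0 := by
    rintro rfl
    apply hf
    exact ⟨0, by rw [hfpq, map_zero, zero_div, map_zero]⟩
  -- upper bound for the degree
  have hle : Module.finrank K⟮f⟯ K⟮X⟯ ≤ Fintype.card ι := by
    rw [RatFunc.finrank_eq_max_natDegree]
    refine max_le ?_ ?_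
    · refine le_trans (Polynomial.natDegree_le_of_dvd ?_ hp0) hp
      rw [hfpq]
      exact RatFunc.num_div_dvd p hq
    · refine le_trans (Polynomial.natDegree_le_of_dvd ?_ hq) hq'
      rw [hfpq]
      exact RatFunc.denom_div_dvd p q
  have hpos : 0 < Module.finrank K⟮f⟯ K⟮X⟯ := by
    rw [RatFunc.finrank_eq_max_natDegree]
    by_contra h0
    have h1 : max f.num.natDegree f.denom.natDegree = 0 := by omega
    rw [Nat.max_eq_zero_iff, ← RatFunc.eq_C_iff] at h1
    exact hf h1
  haveI : FiniteDimensional K⟮f⟯ K⟮X⟯ := Module.finite_of_finrank_pos hpos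
  -- the automorphisms over `K(f)`
  let σ' : ι → (K⟮X⟯ ≃ₐ[K⟮f⟯] K⟮X⟯) := fun i => algEquivOfFix f (σ i) (hfix i)
  have hσ' : Function.Injective σ' := by
    intro i k hik
    apply hσ
    ext y
    have := congrArg (fun τ : K⟮X⟯ ≃ₐ[K⟮f⟯] K⟮X⟯ => τ y) hik
    exact this
  have hcard1 : Fintype.card ι ≤ Nat.card (K⟮X⟯ ≃ₐ[K⟮f⟯] K⟮X⟯) := by
    rw [Nat.card_eq_fintype_card]
    exact Fintype.card_le_of_injective σ' hσ'
  have hcard2 : Nat.card (K⟮X⟯ ≃ₐ[K⟮f⟯] K⟮X⟯) ≤ Module.finrank K⟮f⟯ K⟮X⟯ := by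
    rw [Nat.card_eq_fintype_card]
    exact AlgEquiv.card_le
  have hfin : Module.finrank K⟮f⟯ K⟮X⟯ = Fintype.card ι := by omega
  have hcard : Nat.card (K⟮X⟯ ≃ₐ[K⟮f⟯] K⟮X⟯) = Module.finrank K⟮f⟯ K⟮X⟯ := by omega
  refine ⟨hfin, IsGalois.of_card_aut_eq_finrank _ _ hcard, ?_⟩
  have hbij : Function.Bijective σ' := by
    rw [Fintype.bijective_iff_injective_and_card]
    refine ⟨hσ', ?_⟩
    rw [← Nat.card_eq_fintype_card (α := (K⟮X⟯ ≃ₐ[K⟮f⟯] K⟮X⟯)), hcard, hfin]
  intro τ
  obtain ⟨i, rfl⟩ := hbij.2 τ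
  exact ⟨i, fun y => rfl⟩

end Fermat.Agent.Good
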