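import Mathlib

/-!
# Quotient normality (track L-GEN, node [G-QN], Lemma B)

Abstract commutative algebra, no modular objects.

`G` a finite group acting on a commutative ring `A` (in the application the special fibre
`A = B/π` of a ring `B` with `G`-action), `Λ` a PID (not a field) over which `A` is module-finite
and torsion-free and whose image in `A` is `G`-invariant.  All localisations of `A` at maximal
ideals are discrete valuation rings whose residue field is covered by `Λ` (`A` may be a finite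
product of Dedekind domains).

* `QN.ordP` : the `P`-adic order `A → ℕ∞`, with `QN.le_ordP_iff`, `QN.ordP_mul`, `QN.ordP_smul`, ...
* `QN.exists_normG_ordP` : norms `∏ g, g • z` with prescribed orders on a fibre.
* `QN.exists_approx` : approximation by induction on the defect.
* `QN.le_of_forall_le_sup_smul` : global Nakayama over the PID `Λ`.
* `QN.fixed_mem_of_inert` : **core theorem**: a subring `C ⊆ A` containing the image of `Λ` and all
  norms contains all `G`-invariants, provided the exact order at `P` of every invariant is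
  divisible by `|Stab P|` (strong form of *inertia = stabiliser*).
* `QN.exists_fixed_lift_of_inert` : **Lemma B**: for a surjective equivariant `red : B → A`,
  `red (B^G) = A^G` (wild actions allowed).
* `QN.exists_fixed_of_mul_fixed` : the kernel statement `π B ∩ B^G = π B^G`.
-/

set_option autoImplicit false

open scoped Pointwise
open IsDiscreteValuationRing

namespace Fermat.Agent.Good.QN

section Ord

variable {A : Type*} [CommRing A]

/-- The `P`-adic order of `x`: the supremum of the `n` with `x ∈ P ^ n`. -/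
noncomputable def ordP (P : Ideal A) (x : A) : ℕ∞ := ⨆ n : ℕ, ⨆ _ : x ∈ P ^ n, (n : ℕ∞)

theorem le_ordP_iff (P : Ideal A) (x : A) (n : ℕ) : (n : ℕ∞) ≤ ordP P x ↔ x ∈ P ^ n := by
  constructor
  · intro h
    by_contra hx
    have hn : n ≠ 0 := by
      rintro rfl
      exact hx (by simp)
    have hle : ordP P x ≤ ((n - 1 : ℕ) : ℕ∞) := by
      refine iSup_le fun m => iSup_le fun hm => ?_
      have hmn : m < n := by
        by_contra hmn
        exact hx (Ideal.pow_le_pow_right (not_lt.1 hmn) hm)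
      exact_mod_cast Nat.le_sub_one_of_lt hmn
    have := h.trans hle
    have h2 : n ≤ n - 1 := by exact_mod_cast this
    omega
  · intro h
    exact le_iSup_of_le n (le_iSup_of_le h le_rfl)

theorem ordP_eq_of_forall (P Q : Ideal A) (x y : A)
    (h : ∀ n : ℕ, x ∈ P ^ n ↔ y ∈ Q ^ n) : ordP P x = ordP Q y := by
  refine le_antisymm ?_ ?_
  · refine iSup_le fun m => iSup_le fun hm => ?_
    exact (le_ordP_iff Q y m).2 ((h m).1 hm)
  · refine iSup_le fun m => iSup_le fun hm => ?_
    exact (le_ordP_iff P x m).2 ((h m).2 hm)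

theorem ordP_pos_iff (P : Ideal A) (x : A) : 1 ≤ ordP P x ↔ x ∈ P := by
  have := le_ordP_iff P x 1
  simpa using this

theorem min_le_ordP_add (P : Ideal A) (x y : A) :
    min (ordP P x) (ordP P y) ≤ ordP P (x + y) := by
  by_contra h
  rw [not_le] at h
  -- `ordP (x+y)` is finite
  obtain ⟨n, hn⟩ := ENat.ne_top_iff_exists.1 (ne_top_of_lt h)
  rw [← hn] at h
  have h1 : ((n + 1 : ℕ) : ℕ∞) ≤ min (ordP P x) (ordP P y) := by
    have := Order.add_one_le_of_lt h
    exact_mod_cast this
  have hx := (le_ordP_iff P x (n + 1)).1 (h1.trans (min_le_left _ _))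
  have hy := (le_ordP_iff P y (n + 1)).1 (h1.trans (min_le_right _ _))
  have hxy := (le_ordP_iff P (x + y) (n + 1)).2 (Ideal.add_mem _ hx hy)
  rw [← hn] at hxy
  have : n + 1 ≤ n := by exact_mod_cast hxy
  omega

theorem ordP_neg (P : Ideal A) (x : A) : ordP P (-x) = ordP P x :=
  ordP_eq_of_forall P P (-x) x fun _ => neg_mem_iff

theorem min_le_ordP_sub (P : Ideal A) (x y : A) :
    min (ordP P x) (ordP P y) ≤ ordP P (x - y) := by
  rw [sub_eq_add_neg]
  have := min_le_ordP_add P x (-y)
  rwa [ordP_neg] at this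

end Ord


section DVR

theorem mem_maximalIdeal_pow_iff {R : Type*} [CommRing R] [IsDomain R]
    [IsDiscreteValuationRing R] (y : R) (n : ℕ) :
    y ∈ IsLocalRing.maximalIdeal R ^ n ↔ (n : ℕ∞) ≤ addVal R y := by
  obtain ⟨ϖ, hϖ⟩ := exists_irreducible R
  rw [hϖ.maximalIdeal_eq, Ideal.span_singleton_pow, Ideal.mem_span_singleton,
    ← addVal_le_iff_dvd, addVal_pow, addVal_uniformizer hϖ]
  simp

variable {A : Type*} [CommRing A]

/-- `A` is a discrete valuation ring locally at the prime `P`. -/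
def IsDVRAt (P : Ideal A) [P.IsPrime] : Prop :=
  ∃ _ : IsDomain (Localization.AtPrime P), IsDiscreteValuationRing (Localization.AtPrime P)

theorem mem_pow_iff_le_addVal (P : Ideal A) [P.IsMaximal] [IsDomain (Localization.AtPrime P)]
    [IsDiscreteValuationRing (Localization.AtPrime P)] (x : A) (n : ℕ) :
    x ∈ P ^ n ↔ (n : ℕ∞) ≤ addVal (Localization.AtPrime P) (algebraMap A _ x) := by
  rw [← mem_maximalIdeal_pow_iff, ← Ideal.mem_comap, ← Ideal.under_def,
    IsLocalization.AtPrime.under_maximalIdeal_pow P (Localization.AtPrime P) n]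

theorem ordP_eq_addVal (P : Ideal A) [P.IsMaximal] [IsDomain (Localization.AtPrime P)]
    [IsDiscreteValuationRing (Localization.AtPrime P)] (x : A) :
    ordP P x = addVal (Localization.AtPrime P) (algebraMap A _ x) :=
  ENat.eq_of_forall_natCast_le_iff fun n => by
    rw [le_ordP_iff, mem_pow_iff_le_addVal]

theorem ordP_mul (P : Ideal A) [P.IsMaximal] (h : IsDVRAt P) (x y : A) :
    ordP P (x * y) = ordP P x + ordP P y := by
  obtain ⟨_, _⟩ := h
  rw [ordP_eq_addVal, ordP_eq_addVal, ordP_eq_addVal, map_mul, addVal_mul]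

theorem ordP_one (P : Ideal A) [P.IsMaximal] : ordP P (1 : A) = 0 := by
  by_contra h
  have h1 : 1 ≤ ordP P (1 : A) := Order.one_le_iff_ne_zero.2 h
  rw [ordP_pos_iff] at h1
  exact (Ideal.IsMaximal.ne_top ‹_›) ((Ideal.eq_top_iff_one P).2 h1)

theorem ordP_eq_zero_iff (P : Ideal A) (x : A) : ordP P x = 0 ↔ x ∉ P := by
  rw [← ordP_pos_iff, Order.one_le_iff_ne_zero, not_not]

theorem ordP_prod (P : Ideal A) [P.IsMaximal] (h : IsDVRAt P) {ι : Type*} (s : Finset ι)
    (f : ι → A) : ordP P (∏ i ∈ s, f i) = ∑ i ∈ s, ordP P (f i) := by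
  classical
  induction s using Finset.induction_on with
  | empty => simp [ordP_one]
  | insert a s ha ih => rw [Finset.prod_insert ha, Finset.sum_insert ha, ordP_mul P h, ih]

theorem ordP_pow (P : Ideal A) [P.IsMaximal] (h : IsDVRAt P) (x : A) (n : ℕ) :
    ordP P (x ^ n) = n • ordP P x := by
  induction n with
  | zero => simp [ordP_one]
  | succ n ih => rw [pow_succ, ordP_mul P h, ih, succ_nsmul]

/-- A local uniformiser. -/
theorem exists_ordP_eq_one (P : Ideal A) [P.IsMaximal] (h : IsDVRAt P) :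
    ∃ u : A, ordP P u = 1 := by
  obtain ⟨_, _⟩ := h
  obtain ⟨ϖ, hϖ⟩ := exists_irreducible (Localization.AtPrime P)
  obtain ⟨⟨a, s⟩, has⟩ := IsLocalization.surj P.primeCompl ϖ
  simp only at has
  refine ⟨a, ?_⟩
  rw [ordP_eq_addVal, ← has, addVal_mul, addVal_uniformizer hϖ]
  have hs : IsUnit (algebraMap A (Localization.AtPrime P) s) :=
    IsLocalization.map_units _ s
  rw [addVal_eq_zero_iff.2 hs, add_zero]

end DVR


section Lead

variable {A : Type*} [CommRing A]

/-- **Leading coefficient.**  If the residue field at `P` is covered by `Λ`, `t` has exact order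
`n` at `P` and `x` has order at least `n`, then some `Λ`-multiple of `t` agrees with `x` to
order `n + 1`. -/
theorem exists_le_ordP_sub_mul {Λ : Type*} [CommRing Λ] [Algebra Λ A] (P : Ideal A) [P.IsMaximal]
    (h : IsDVRAt P) (hres : ∀ x : A, ∃ a : Λ, x - algebraMap Λ A a ∈ P)
    (t x : A) (n : ℕ) (ht : ordP P t = n) (hx : (n : ℕ∞) ≤ ordP P x) :
    ∃ a : Λ, ((n + 1 : ℕ) : ℕ∞) ≤ ordP P (x - algebraMap Λ A a * t) := by
  obtain ⟨_, _⟩ := h
  set L := Localization.AtPrime P
  have hdvd : algebraMap A L t ∣ algebraMap A L x := by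
    rw [← addVal_le_iff_dvd, ← ordP_eq_addVal, ← ordP_eq_addVal, ht]
    exact hx
  obtain ⟨w, hw⟩ := hdvd
  -- approximate `w` by an element of `A` modulo the maximal ideal
  obtain ⟨y, hy⟩ := (IsLocalization.AtPrime.equivQuotMaximalIdeal P L).surjective
    (Ideal.Quotient.mk _ w)
  obtain ⟨w₁, rfl⟩ := Ideal.Quotient.mk_surjective y
  rw [IsLocalization.AtPrime.equivQuotMaximalIdeal_apply_mk, Ideal.Quotient.eq] at hy
  obtain ⟨a, ha⟩ := hres w₁
  refine ⟨a, ?_⟩
  have hwa : w - algebraMap A L (algebraMap Λ A a) ∈ IsLocalRing.maximalIdeal L := by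
    have h1 : algebraMap A L (w₁ - algebraMap Λ A a) ∈ IsLocalRing.maximalIdeal L :=
      (IsLocalization.AtPrime.to_map_mem_maximal_iff L P _).2 ha
    have h2 : w - algebraMap A L (algebraMap Λ A a) =
        algebraMap A L (w₁ - algebraMap Λ A a) - (algebraMap A L w₁ - w) := by
      rw [map_sub]; ring
    rw [h2]
    exact Ideal.sub_mem _ h1 hy
  have hwa' : (1 : ℕ∞) ≤ addVal L (w - algebraMap A L (algebraMap Λ A a)) := by
    have := (mem_maximalIdeal_pow_iff (w - algebraMap A L (algebraMap Λ A a)) 1).1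
      (by simpa using hwa)
    simpa using this
  rw [ordP_eq_addVal]
  have h3 : algebraMap A L (x - algebraMap Λ A a * t) =
      algebraMap A L t * (w - algebraMap A L (algebraMap Λ A a)) := by
    rw [map_sub, map_mul, hw]; ring
  rw [h3, addVal_mul, ← ordP_eq_addVal, ht]
  push_cast
  exact add_le_add le_rfl hwa'

/-- **Local divisibility criterion.**  If all localisations at maximal ideals are DVRs and the
order of `y` dominates the order of `τ` at every maximal ideal, then `τ ∣ y`. -/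
theorem mem_span_of_ordP_le (hA : ∀ (P : Ideal A) [P.IsMaximal], IsDVRAt P) (τ y : A)
    (hy : ∀ (P : Ideal A) [P.IsMaximal], ordP P τ ≤ ordP P y) : y ∈ Ideal.span {τ} := by
  refine Ideal.mem_of_localization_maximal fun P hP => ?_
  have := hP
  obtain ⟨_, _⟩ := hA P
  rw [Ideal.map_span, Set.image_singleton, Ideal.mem_span_singleton, ← addVal_le_iff_dvd,
    ← ordP_eq_addVal, ← ordP_eq_addVal]
  exact hy P

end Lead

section Equivariant

variable {A : Type*} [CommRing A] {G : Type*} [Group G] [MulSemiringAction G A]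

theorem ordP_smul (g : G) (P : Ideal A) (x : A) : ordP (g • P) (g • x) = ordP P x := by
  refine ordP_eq_of_forall _ _ _ _ fun n => ?_
  rw [← smul_pow', Ideal.smul_mem_pointwise_smul_iff]

theorem ordP_smul' (g : G) (P : Ideal A) (x : A) : ordP P (g • x) = ordP (g⁻¹ • P) x := by
  rw [← ordP_smul g (g⁻¹ • P) x, smul_inv_smul]

instance isMaximal_smul (g : G) (P : Ideal A) [hP : P.IsMaximal] : (g • P).IsMaximal := by
  rw [Ideal.pointwise_smul_eq_comap]
  exact Ideal.comap_isMaximal_of_equiv (MulSemiringAction.toRingEquiv G A g⁻¹) 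

end Equivariant


section CRT

variable {A : Type*} [CommRing A]

theorem ordP_eq_of_lt_ordP_sub (P : Ideal A) (x y : A) (h : ordP P y < ordP P (x - y)) :
    ordP P x = ordP P y := by
  refine le_antisymm ?_ ?_
  · by_contra hlt
    rw [not_le] at hlt
    have h1 := min_le_ordP_sub P x (x - y)
    rw [sub_sub_cancel] at h1
    exact absurd (lt_of_lt_of_le (lt_min hlt h) h1) (lt_irrefl _)
  · have h1 := min_le_ordP_add P (x - y) y
    rw [sub_add_cancel, min_eq_right h.le] at h1
    exact h1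

/-- Chinese remainder theorem for powers of finitely many maximal ideals. -/
theorem exists_forall_sub_mem_pow (T : Finset (Ideal A)) (hT : ∀ P ∈ T, P.IsMaximal) (m : ℕ)
    (a : Ideal A → A) : ∃ z : A, ∀ P ∈ T, z - a P ∈ P ^ m := by
  have hcop : Pairwise (Function.onFun IsCoprime fun P : T => (P : Ideal A) ^ m) := by
    intro P Q hPQ
    apply IsCoprime.pow
    rw [Ideal.isCoprime_iff_sup_eq]
    exact Ideal.IsMaximal.coprime_of_ne (hT P P.2) (hT Q Q.2) (fun h => hPQ (Subtype.ext h))
  obtain ⟨z, hz⟩ := Ideal.exists_forall_sub_mem_ideal hcop (fun P => a P)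
  exact ⟨z, fun P hP => hz ⟨P, hP⟩⟩

end CRT

section Norm

variable {A : Type*} [CommRing A] {G : Type*} [Group G] [Fintype G] [MulSemiringAction G A]

/-- The norm of `z`. -/
def normG (G : Type*) [Group G] [Fintype G] {A : Type*} [CommRing A] [MulSemiringAction G A]
    (z : A) : A := ∏ g : G, g • z

theorem smul_normG (h : G) (z : A) : h • normG G z = normG G z := by
  unfold normG
  rw [Finset.smul_prod']
  exact Fintype.prod_equiv (Equiv.mulLeft h) _ _ fun g => by simp [mul_smul]

omit [Fintype G] in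
theorem ordP_smul_of_fixed (g : G) (P : Ideal A) (y : A) (hy : ∀ g : G, g • y = y) :
    ordP (g • P) y = ordP P y := by
  conv_lhs => rw [← hy g]
  exact ordP_smul g P y

open Classical in
/-- **The norm element.**  `T` a `G`-stable finite set of maximal ideals at which `A` is a DVR,
`P₀ ∈ T`.  There is `z` whose norm has order exactly `n * |Stab P₀|` at `P₀` and order at least
`m` at the points of `T` outside the orbit of `P₀`. -/
theorem exists_normG_ordP (T : Finset (Ideal A)) (hT : ∀ P ∈ T, P.IsMaximal)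
    (hDVR : ∀ (P : Ideal A) [P.IsMaximal], P ∈ T → IsDVRAt P)
    (hG : ∀ (g : G), ∀ P ∈ T, g • P ∈ T) (P₀ : Ideal A) (hP₀ : P₀ ∈ T) (n m : ℕ) :
    ∃ z : A, ordP P₀ (normG G z) = (n * (Finset.univ.filter fun g : G => g • P₀ = P₀).card : ℕ) ∧
      ∀ P ∈ T, (∀ g : G, g • P₀ ≠ P) → (m : ℕ∞) ≤ ordP P (normG G z) := by
  have := hT P₀ hP₀
  obtain ⟨u, hu⟩ := exists_ordP_eq_one P₀ (hDVR P₀ hP₀)
  set M := max m (n + 1) with hM
  obtain ⟨z, hz⟩ := exists_forall_sub_mem_pow T hT M
    (fun P => if P = P₀ then u ^ n else if ∃ g : G, g • P₀ = P then 1 else 0)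
  have hz0 : ordP P₀ z = n := by
    have h1 := hz P₀ hP₀
    rw [if_pos rfl, ← le_ordP_iff] at h1
    have h2 : ordP P₀ (u ^ n) = n := by
      rw [ordP_pow P₀ (hDVR P₀ hP₀), hu]; simp
    rw [ordP_eq_of_lt_ordP_sub P₀ z (u ^ n) ?_, h2]
    rw [h2]
    refine lt_of_lt_of_le ?_ h1
    exact_mod_cast lt_of_lt_of_le (Nat.lt_succ_self n) (le_max_right m (n + 1))
  have hz1 : ∀ g : G, g • P₀ ≠ P₀ → ordP (g • P₀) z = 0 := by
    intro g hg
    have h1 := hz (g • P₀) (hG g P₀ hP₀)
    rw [if_neg hg, if_pos ⟨g, rfl⟩] at h1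
    rw [ordP_eq_zero_iff]
    intro hzP
    have := hT _ (hG g P₀ hP₀)
    have hM1 : 1 ≤ M := le_trans (Nat.succ_le_succ (Nat.zero_le n)) (le_max_right m (n + 1))
    have h2 : z - 1 ∈ g • P₀ := Ideal.pow_le_self (Nat.one_le_iff_ne_zero.1 hM1) h1
    have h3 : (1 : A) ∈ g • P₀ := by
      have := Ideal.sub_mem _ hzP h2
      rwa [sub_sub_cancel] at this
    exact (Ideal.IsMaximal.ne_top ‹_›) ((Ideal.eq_top_iff_one _).2 h3)
  have hz2 : ∀ P ∈ T, (∀ g : G, g • P₀ ≠ P) → (m : ℕ∞) ≤ ordP P z := by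
    intro P hP hPg
    have h1 := hz P hP
    have hne : P ≠ P₀ := fun h => hPg 1 (by rw [one_smul, h])
    rw [if_neg hne, if_neg (fun ⟨g, hg⟩ => hPg g hg), sub_zero, ← le_ordP_iff] at h1
    refine le_trans ?_ h1
    exact_mod_cast le_max_left m (n + 1)
  refine ⟨z, ?_, ?_⟩
  · unfold normG
    rw [ordP_prod P₀ (hDVR P₀ hP₀)]
    have hterm : ∀ g : G, ordP P₀ (g • z) = if g • P₀ = P₀ then (n : ℕ∞) else 0 := by
      intro g
      rw [ordP_smul']
      by_cases hg : g • P₀ = P₀
      · have : g⁻¹ • P₀ = P₀ := by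
          conv_lhs => rw [← hg, inv_smul_smul]
        rw [if_pos hg, this, hz0]
      · have : g⁻¹ • P₀ ≠ P₀ := by
          intro h
          apply hg
          conv_lhs => rw [← h, smul_inv_smul]
        rw [if_neg hg, hz1 g⁻¹ this]
    rw [Finset.sum_congr rfl fun g _ => hterm g, Finset.sum_ite, Finset.sum_const,
      Finset.sum_const_zero, add_zero]
    simp [mul_comm]
  · intro P hP hPg
    unfold normG
    have := hT P hP
    rw [ordP_prod P (hDVR P hP)]
    refine le_trans ?_ (Finset.single_le_sum (f := fun g : G => ordP P (g • z))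
      (fun _ _ => zero_le) (Finset.mem_univ (1 : G)))
    simp only [one_smul]
    exact hz2 P hP hPg

end Norm


section Approx

variable {A : Type*} [CommRing A]

/-- The order at `P` truncated at `e P`. -/
noncomputable def tord (e : Ideal A → ℕ) (P : Ideal A) (y : A) : ℕ :=
  (min (ordP P y) (e P : ℕ∞)).toNat

theorem coe_tord (e : Ideal A → ℕ) (P : Ideal A) (y : A) :
    (tord e P y : ℕ∞) = min (ordP P y) (e P : ℕ∞) := by
  unfold tord
  rw [ENat.natCast_toNat]
  exact ne_top_of_le_ne_top (ENat.natCast_ne_top _) (min_le_right _ _)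

theorem tord_le (e : Ideal A → ℕ) (P : Ideal A) (y : A) : tord e P y ≤ e P := by
  have h := coe_tord e P y
  have : (tord e P y : ℕ∞) ≤ (e P : ℕ∞) := h ▸ min_le_right _ _
  exact_mod_cast this

theorem tord_eq_iff (e : Ideal A → ℕ) (P : Ideal A) (y : A) :
    tord e P y = e P ↔ (e P : ℕ∞) ≤ ordP P y := by
  constructor
  · intro h
    have h1 := coe_tord e P y
    rw [h] at h1
    exact h1 ▸ min_le_left _ _
  · intro h
    have h1 := coe_tord e P y
    rw [min_eq_right h] at h1
    exact_mod_cast h1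

theorem tord_mono (e : Ideal A → ℕ) (P : Ideal A) (y y' : A)
    (h : min (ordP P y) (e P : ℕ∞) ≤ ordP P y') : tord e P y ≤ tord e P y' := by
  have h1 : (tord e P y : ℕ∞) ≤ (tord e P y' : ℕ∞) := by
    rw [coe_tord, coe_tord]
    exact le_min h (min_le_right _ _)
  exact_mod_cast h1

variable {Λ : Type*} [CommRing Λ] [Algebra Λ A]

/-- **Approximation by induction on the defect.**  `T` a finite set of maximal ideals at which
`A` is a DVR with residue field covered by `Λ`; `W ≤ D` two `Λ`-submodules.  If for every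
`y ∈ D` of order `a < e P` at some `P ∈ T` the module `W` contains an element of exact order `a`
at `P` which does not spoil the other points, then every element of `D` is congruent to an
element of `W` to order `e P` at every `P ∈ T`. -/
theorem exists_approx (T : Finset (Ideal A)) (hT : ∀ P ∈ T, P.IsMaximal)
    (hDVR : ∀ (P : Ideal A) [P.IsMaximal], P ∈ T → IsDVRAt P)
    (hres : ∀ P ∈ T, ∀ x : A, ∃ a : Λ, x - algebraMap Λ A a ∈ P)
    (e : Ideal A → ℕ) (D W : Submodule Λ A) (hWD : W ≤ D)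
    (hstep : ∀ y ∈ D, ∀ P ∈ T, ∀ a : ℕ, a < e P → ordP P y = a →
      ∃ w ∈ W, ordP P w = a ∧ ∀ P' ∈ T, P' ≠ P → min (ordP P' y) (e P' : ℕ∞) ≤ ordP P' w) :
    ∀ y ∈ D, ∃ w ∈ W, ∀ P ∈ T, (e P : ℕ∞) ≤ ordP P (y - w) := by
  classical
  suffices H : ∀ k : ℕ, ∀ y ∈ D, (∑ P ∈ T, (e P - tord e P y)) ≤ k →
      ∃ w ∈ W, ∀ P ∈ T, (e P : ℕ∞) ≤ ordP P (y - w) from fun y hy => H _ y hy le_rfl
  intro k
  induction k with
  | zero =>
    intro y _ hk
    refine ⟨0, W.zero_mem, fun P hP => ?_⟩
    rw [sub_zero, ← tord_eq_iff]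
    have h0 : ∑ P ∈ T, (e P - tord e P y) = 0 := Nat.le_zero.1 hk
    have := (Finset.sum_eq_zero_iff.1 h0) P hP
    have hle := tord_le e P y
    omega
  | succ k ih =>
    intro y hy hk
    by_cases hall : ∀ P ∈ T, tord e P y = e P
    · exact ⟨0, W.zero_mem, fun P hP => by rw [sub_zero, ← tord_eq_iff]; exact hall P hP⟩
    push Not at hall
    obtain ⟨P, hP, hPne⟩ := hall
    have := hT P hP
    have hlt : tord e P y < e P := lt_of_le_of_ne (tord_le e P y) hPne
    -- the order of `y` at `P` is `a := tord e P y < e P`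
    have hord : ordP P y = (tord e P y : ℕ) := by
      have h1 := coe_tord e P y
      rcases le_total (ordP P y) (e P : ℕ∞) with h2 | h2
      · rw [min_eq_left h2] at h1; exact h1.symm
      · exact absurd ((tord_eq_iff e P y).2 h2) hPne
    obtain ⟨w, hwW, hwP, hwT⟩ := hstep y hy P hP (tord e P y) hlt hord
    obtain ⟨a, ha⟩ := exists_le_ordP_sub_mul (Λ := Λ) P (hDVR P hP) (hres P hP) w y (tord e P y)
      hwP hord.ge
    set y' := y - algebraMap Λ A a * w with hy'
    have hy'D : y' ∈ D := by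
      rw [hy', ← Algebra.smul_def]
      exact D.sub_mem hy (D.smul_mem a (hWD hwW))
    -- the defect decreases
    have hdecP : tord e P y < tord e P y' := by
      have h1 : ((tord e P y + 1 : ℕ) : ℕ∞) ≤ (tord e P y' : ℕ∞) := by
        rw [coe_tord]
        refine le_min ha ?_
        exact_mod_cast hlt
      exact_mod_cast h1
    have hmono : ∀ P' ∈ T, tord e P' y ≤ tord e P' y' := by
      intro P' hP'
      by_cases hPP' : P' = P
      · subst hPP'; exact hdecP.le
      have := hT P' hP'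
      refine tord_mono e P' y y' ?_
      refine le_trans ?_ (min_le_ordP_sub P' y (algebraMap Λ A a * w))
      refine le_min (min_le_left _ _) ?_
      rw [ordP_mul P' (hDVR P' hP')]
      exact le_trans (hwT P' hP' hPP') le_add_self
    have hsum : ∑ P' ∈ T, (e P' - tord e P' y') ≤ k := by
      have h1 : ∑ P' ∈ T, (e P' - tord e P' y') < ∑ P' ∈ T, (e P' - tord e P' y) := by
        refine Finset.sum_lt_sum (fun P' hP' => ?_) ⟨P, hP, ?_⟩
        · have := hmono P' hP'; omega
        · have := tord_le e P y'; omega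
      omega
    obtain ⟨w', hw'W, hw'⟩ := ih y' hy'D hsum
    refine ⟨a • w + w', W.add_mem (W.smul_mem a hwW) hw'W, fun P' hP' => ?_⟩
    have : y - (a • w + w') = y' - w' := by
      rw [hy', Algebra.smul_def]; ring
    rw [this]
    exact hw' P' hP'

end Approx


section Finite

variable {Λ A : Type*} [CommRing Λ] [CommRing A] [Algebra Λ A] [Module.Finite Λ A]

attribute [local instance] Ideal.Quotient.field in
/-- Finitely many maximal ideals of a finite algebra lie over a maximal ideal. -/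
theorem finite_setOf_isMaximal_map_le (q : Ideal Λ) [q.IsMaximal] :
    {P : Ideal A | P.IsMaximal ∧ q.map (algebraMap Λ A) ≤ P}.Finite := by
  set I := q.map (algebraMap Λ A) with hI
  have hfin : Module.Finite (Λ ⧸ q) (A ⧸ I) := Module.Finite.of_restrictScalars_finite Λ _ _
  have hart : IsArtinianRing (A ⧸ I) := IsArtinianRing.of_finite (Λ ⧸ q) (A ⧸ I)
  have hmax := IsArtinianRing.setOfPred_isMaximal_finite (A ⧸ I)
  refine (hmax.image (Ideal.comap (Ideal.Quotient.mk I))).subset ?_
  rintro P ⟨hP, hIP⟩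
  have hker : RingHom.ker (Ideal.Quotient.mk I) ≤ P := by rwa [Ideal.mk_ker]
  refine ⟨P.map (Ideal.Quotient.mk I), ?_, ?_⟩
  · exact Ideal.IsMaximal.map_of_surjective_of_ker_le Ideal.Quotient.mk_surjective hker
  · rw [Ideal.comap_map_of_surjective _ Ideal.Quotient.mk_surjective, ← RingHom.ker_eq_comap_bot,
      sup_of_le_left hker]

end Finite


section Setup

variable {A G Λ : Type*} [CommRing A] [Group G] [MulSemiringAction G A]
  [CommRing Λ] [Algebra Λ A]

/-- The invariants as a `Λ`-submodule (the image of `Λ` being invariant). -/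
def fixedSub (hΛG : ∀ (g : G) (a : Λ), g • algebraMap Λ A a = algebraMap Λ A a) :
    Submodule Λ A where
  carrier := {x | ∀ g : G, g • x = x}
  add_mem' := fun hx hy g => by rw [smul_add, hx g, hy g]
  zero_mem' := fun g => smul_zero g
  smul_mem' := fun a x hx g => by
    rw [Algebra.smul_def, smul_mul', hΛG, hx g]

theorem mem_fixedSub (hΛG : ∀ (g : G) (a : Λ), g • algebraMap Λ A a = algebraMap Λ A a) (x : A) :
    x ∈ fixedSub hΛG ↔ ∀ g : G, g • x = x := Iff.rfl

/-- A subring containing the image of `Λ`, as a `Λ`-submodule. -/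
def subringSub (C : Subring A) (hCΛ : ∀ a : Λ, algebraMap Λ A a ∈ C) : Submodule Λ A where
  carrier := {x | x ∈ C}
  add_mem' := fun hx hy => C.add_mem hx hy
  zero_mem' := C.zero_mem
  smul_mem' := fun a x hx => by
    rw [Algebra.smul_def]
    exact C.mul_mem (hCΛ a) hx

theorem mem_subringSub (C : Subring A) (hCΛ : ∀ a : Λ, algebraMap Λ A a ∈ C) (x : A) :
    x ∈ subringSub C hCΛ ↔ x ∈ C := Iff.rfl

variable [IsDomain Λ] [Module.IsTorsionFree Λ A]

/-- Descent of invariance along division by a regular invariant element. -/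
theorem fixed_of_mul_fixed (hΛG : ∀ (g : G) (a : Λ), g • algebraMap Λ A a = algebraMap Λ A a)
    (τ : Λ) (hτ : τ ≠ 0) (w : A) (hw : ∀ g : G, g • (algebraMap Λ A τ * w) = algebraMap Λ A τ * w)
    (g : G) : g • w = w := by
  have h1 := hw g
  rw [smul_mul', hΛG, ← sub_eq_zero, ← mul_sub, ← Algebra.smul_def] at h1
  rcases smul_eq_zero.1 h1 with h | h
  · exact absurd h hτ
  · exact sub_eq_zero.1 h

end Setup

section Fibre

variable {A Λ : Type*} [CommRing A] [CommRing Λ] [IsDomain Λ] [Algebra Λ A] [Module.Finite Λ A]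
  [Module.IsTorsionFree Λ A]

/-- The finite set of maximal ideals of `A` over the maximal ideal `(τ)` of `Λ`. -/
noncomputable def fibreSet (τ : Λ) [(Ideal.span {τ}).IsMaximal] : Finset (Ideal A) :=
  (finite_setOf_isMaximal_map_le (A := A) (Ideal.span {τ})).toFinset

omit [IsDomain Λ] [Module.IsTorsionFree Λ A] in
theorem mem_fibreSet (τ : Λ) [(Ideal.span {τ}).IsMaximal] (P : Ideal A) :
    P ∈ fibreSet (A := A) τ ↔ P.IsMaximal ∧ algebraMap Λ A τ ∈ P := by
  unfold fibreSet
  rw [Set.Finite.mem_toFinset, Set.mem_ofPred_eq, Ideal.map_span, Set.image_singleton,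
    Ideal.span_singleton_le_iff_mem]

omit [Module.Finite Λ A] in
/-- The order of a nonzero `τ` at a maximal ideal where `A` is a DVR is finite. -/
theorem ordP_algebraMap_ne_top (τ : Λ) (hτ : τ ≠ 0) (P : Ideal A) [P.IsMaximal]
    (h : IsDVRAt P) : ordP P (algebraMap Λ A τ) ≠ ⊤ := by
  obtain ⟨_, _⟩ := h
  rw [ordP_eq_addVal, Ne, addVal_eq_top_iff, IsLocalization.map_eq_zero_iff P.primeCompl]
  rintro ⟨⟨s, hs⟩, hs0⟩
  simp only at hs0
  rw [mul_comm, ← Algebra.smul_def] at hs0
  rcases smul_eq_zero.1 hs0 with h | h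
  · exact hτ h
  · exact hs (h ▸ P.zero_mem)

/-- The ramification index of `P` over `(τ)`. -/
noncomputable def ramIdx (τ : Λ) (P : Ideal A) : ℕ := (ordP P (algebraMap Λ A τ)).toNat

omit [Module.Finite Λ A] in
theorem coe_ramIdx (τ : Λ) (hτ : τ ≠ 0) (P : Ideal A) [P.IsMaximal] (h : IsDVRAt P) :
    (ramIdx τ P : ℕ∞) = ordP P (algebraMap Λ A τ) := by
  unfold ramIdx
  rw [ENat.natCast_toNat]
  exact ordP_algebraMap_ne_top τ hτ P h

/-- An element vanishing to order `ramIdx τ P` at every `P` of the fibre is divisible by `τ`. -/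
theorem exists_eq_mul_of_ramIdx_le (hDVR : ∀ (P : Ideal A) [P.IsMaximal], IsDVRAt P)
    (τ : Λ) (hτ : τ ≠ 0) [(Ideal.span {τ}).IsMaximal] (y : A)
    (hy : ∀ P ∈ fibreSet (A := A) τ, (ramIdx τ P : ℕ∞) ≤ ordP P y) :
    ∃ w : A, y = algebraMap Λ A τ * w := by
  have hmem : y ∈ Ideal.span {algebraMap Λ A τ} := by
    refine mem_span_of_ordP_le hDVR _ _ fun P hP => ?_
    by_cases hτP : algebraMap Λ A τ ∈ P
    · rw [← coe_ramIdx τ hτ P (hDVR P)]
      exact hy P ((mem_fibreSet τ P).2 ⟨hP, hτP⟩)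
    · rw [(ordP_eq_zero_iff P _).2 hτP]
      exact zero_le
  rw [Ideal.mem_span_singleton] at hmem
  obtain ⟨w, hw⟩ := hmem
  exact ⟨w, hw⟩

end Fibre


section Nakayama

variable {A Λ : Type*} [CommRing A] [CommRing Λ] [IsDomain Λ] [IsPrincipalIdealRing Λ]
  [Algebra Λ A] [Module.Finite Λ A]

/-- **Global Nakayama.**  `D`, `C'` two `Λ`-submodules of the finite module `A` over the PID `Λ`
(not a field).  If `D ≤ C' ⊔ τ • D` for every generator `τ` of a maximal ideal, then `D ≤ C'`. -/
theorem le_of_forall_le_sup_smul (hΛ : ¬ IsField Λ) (D C' : Submodule Λ A)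
    (h : ∀ τ : Λ, τ ≠ 0 → (Ideal.span {τ}).IsMaximal →
      ∀ x ∈ D, ∃ c ∈ C', ∃ w ∈ D, x = c + τ • w) : D ≤ C' := by
  by_contra hne
  have hcol : C'.colon (D : Set A) ≠ ⊤ := by
    intro htop
    apply hne
    intro x hx
    have h1 : (1 : Λ) ∈ C'.colon (D : Set A) := htop ▸ Submodule.mem_top
    have := Submodule.mem_colon.1 h1 x hx
    rwa [one_smul] at this
  obtain ⟨q, hq, hle⟩ := Ideal.exists_le_maximal _ hcol
  obtain ⟨τ, hτ⟩ := (IsPrincipalIdealRing.principal q).principal
  have hqτ : q = Ideal.span {τ} := hτ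
  have hτ0 : τ ≠ 0 := by
    rintro rfl
    apply Ring.ne_bot_of_isMaximal_of_not_isField hq hΛ
    rw [hqτ]; simp
  have hmax : (Ideal.span {τ}).IsMaximal := hqτ ▸ hq
  -- pass to the quotient by `C'`
  have hDfg : D.FG := by
    have : IsNoetherian Λ A := isNoetherian_of_isNoetherianRing_of_finite Λ A
    exact IsNoetherian.noetherian D
  set N := D.map C'.mkQ with hN
  have hNfg : N.FG := hDfg.map _
  have hin : N ≤ q • N := by
    rintro _ ⟨x, hx, rfl⟩
    obtain ⟨c, hc, w, hw, rfl⟩ := h τ hτ0 hmax x hx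
    have hc0 : C'.mkQ c = 0 := by
      rw [Submodule.mkQ_apply]; exact (Submodule.Quotient.mk_eq_zero C').2 hc
    rw [map_add, hc0, zero_add, map_smul]
    exact Submodule.smul_mem_smul (hqτ ▸ Ideal.mem_span_singleton_self τ)
      (Submodule.mem_map_of_mem hw)
  obtain ⟨r, hr1, hr⟩ := Submodule.exists_sub_one_mem_and_smul_eq_zero_of_fg_of_le_smul q N hNfg hin
  have hrcol : r ∈ C'.colon (D : Set A) := by
    rw [Submodule.mem_colon]
    intro x hx
    have := hr _ (Submodule.mem_map_of_mem (f := C'.mkQ) hx)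
    rw [← map_smul] at this
    exact (Submodule.Quotient.mk_eq_zero C').1 this
  have h1 : (1 : Λ) ∈ q := by
    have := q.sub_mem (hle hrcol) hr1
    rwa [sub_sub_cancel] at this
  exact hq.ne_top ((Ideal.eq_top_iff_one q).2 h1)

end Nakayama


section Main

variable {A G Λ : Type*} [CommRing A] [Group G] [Fintype G] [MulSemiringAction G A]
  [CommRing Λ] [IsDomain Λ] [Algebra Λ A] [Module.Finite Λ A] [Module.IsTorsionFree Λ A]

omit [Fintype G] [IsDomain Λ] [Module.IsTorsionFree Λ A] in
theorem smul_mem_fibreSet (hΛG : ∀ (g : G) (a : Λ), g • algebraMap Λ A a = algebraMap Λ A a)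
    (τ : Λ) [(Ideal.span {τ}).IsMaximal] (g : G) (P : Ideal A) (hP : P ∈ fibreSet (A := A) τ) :
    g • P ∈ fibreSet (A := A) τ := by
  rw [mem_fibreSet] at hP ⊢
  obtain ⟨hPmax, hτP⟩ := hP
  refine ⟨inferInstance, ?_⟩
  rw [← hΛG g τ]
  exact Ideal.smul_mem_pointwise_smul g _ P hτP

theorem ordP_eq_natCast_iff (P : Ideal A) (x : A) (n : ℕ) :
    ordP P x = n ↔ x ∈ P ^ n ∧ x ∉ P ^ (n + 1) := by
  rw [← le_ordP_iff, ← le_ordP_iff]
  constructor
  · intro h
    refine ⟨h.ge, ?_⟩
    rw [h]
    exact_mod_cast Nat.not_succ_le_self n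
  · rintro ⟨h1, h2⟩
    refine le_antisymm ?_ h1
    by_contra h3
    rw [not_le] at h3
    apply h2
    have := Order.add_one_le_of_lt h3
    exact_mod_cast this

open Classical in
/-- Step A under the strong form of *inertia = stabiliser*. -/
theorem stepA_of_inert
    (hDVR : ∀ (P : Ideal A) [P.IsMaximal], IsDVRAt P)
    (hres : ∀ (P : Ideal A) [P.IsMaximal] (x : A), ∃ a : Λ, x - algebraMap Λ A a ∈ P)
    (hΛG : ∀ (g : G) (a : Λ), g • algebraMap Λ A a = algebraMap Λ A a)
    (hinert : ∀ (P : Ideal A) [P.IsMaximal] (x : A), (∀ g : G, g • x = x) → ∀ n : ℕ,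
      ordP P x = n → (Finset.univ.filter fun g : G => g • P = P).card ∣ n)
    (C : Subring A) (hCΛ : ∀ a : Λ, algebraMap Λ A a ∈ C) (hCnorm : ∀ z : A, normG G z ∈ C)
    (τ : Λ) (hτ : τ ≠ 0) (hmax : (Ideal.span {τ}).IsMaximal) (x : A)
    (hx : x ∈ fixedSub hΛG) :
    ∃ c ∈ fixedSub hΛG ⊓ subringSub C hCΛ, ∃ w ∈ fixedSub hΛG, x = c + τ • w := by
  have := hmax
  set T := fibreSet (A := A) τ with hTdef
  have hT : ∀ P ∈ T, P.IsMaximal := fun P hP => ((mem_fibreSet τ P).1 hP).1
  have hDVR' : ∀ (P : Ideal A) [P.IsMaximal], P ∈ T → IsDVRAt P := fun P _ _ => hDVR P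
  have hres' : ∀ P ∈ T, ∀ x : A, ∃ a : Λ, x - algebraMap Λ A a ∈ P := fun P hP x => by
    have := hT P hP
    exact hres P x
  have hG : ∀ (g : G), ∀ P ∈ T, g • P ∈ T := fun g P hP => smul_mem_fibreSet hΛG τ g P hP
  set m := ∑ P' ∈ T, ramIdx τ P' with hm
  have hstep : ∀ y ∈ fixedSub hΛG, ∀ P ∈ T, ∀ a : ℕ, a < ramIdx τ P → ordP P y = a →
      ∃ w ∈ fixedSub hΛG ⊓ subringSub C hCΛ, ordP P w = a ∧
        ∀ P' ∈ T, P' ≠ P → min (ordP P' y) (ramIdx τ P' : ℕ∞) ≤ ordP P' w := by
    intro y hy P hP a _ hya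
    have := hT P hP
    obtain ⟨n, hn⟩ := hinert P y hy a hya
    obtain ⟨z, hz1, hz2⟩ := exists_normG_ordP T hT hDVR' hG P hP n m
    have hwfix : normG G z ∈ fixedSub hΛG := fun g => smul_normG g z
    refine ⟨normG G z, ⟨hwfix, hCnorm z⟩, ?_, ?_⟩
    · rw [hz1, hn, mul_comm]
    · intro P' hP' _
      by_cases horb : ∃ g : G, g • P = P'
      · obtain ⟨g, rfl⟩ := horb
        rw [ordP_smul_of_fixed g P _ hwfix, ordP_smul_of_fixed g P y hy, hz1, hya, hn, mul_comm]
        exact min_le_left _ _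
      · refine le_trans (min_le_right _ _) (le_trans ?_ (hz2 P' hP' (fun g hg => horb ⟨g, hg⟩)))
        exact_mod_cast Finset.single_le_sum (f := fun P' => ramIdx τ P')
          (fun _ _ => Nat.zero_le _) hP'
  obtain ⟨c, hc, hcx⟩ := exists_approx (Λ := Λ) T hT hDVR' hres' (ramIdx τ) (fixedSub hΛG)
    (fixedSub hΛG ⊓ subringSub C hCΛ) inf_le_left hstep x hx
  obtain ⟨w, hw⟩ := exists_eq_mul_of_ramIdx_le hDVR τ hτ (x - c) hcx
  refine ⟨c, hc, w, ?_, ?_⟩
  · intro g
    refine fixed_of_mul_fixed hΛG τ hτ w (fun g => ?_) g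
    rw [← hw]
    exact (fixedSub hΛG).sub_mem hx hc.1 g
  · rw [Algebra.smul_def, ← hw]; ring

end Main


section MainThm

variable {A G Λ : Type*} [CommRing A] [Group G] [Fintype G] [MulSemiringAction G A]
  [CommRing Λ] [IsDomain Λ] [IsPrincipalIdealRing Λ] [Algebra Λ A] [Module.Finite Λ A]
  [Module.IsTorsionFree Λ A]

open Classical in
/-- **Quotient normality, core form (strong inertia hypothesis).**  `G` a finite group acting on
`A`, finite and torsion-free over the PID `Λ` (not a field) whose image is `G`-invariant; all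
localisations of `A` at maximal ideals are DVRs with residue field covered by `Λ`; the exact order
of an invariant element at `P` is divisible by the order of the stabiliser of `P`.  Then every
subring `C` containing the image of `Λ` and all norms `∏ g, g • z` contains all invariants. -/
theorem fixed_mem_of_inert (hΛ : ¬ IsField Λ)
    (hDVR : ∀ (P : Ideal A) [P.IsMaximal], IsDVRAt P)
    (hres : ∀ (P : Ideal A) [P.IsMaximal] (x : A), ∃ a : Λ, x - algebraMap Λ A a ∈ P)
    (hΛG : ∀ (g : G) (a : Λ), g • algebraMap Λ A a = algebraMap Λ A a)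
    (hinert : ∀ (P : Ideal A) [P.IsMaximal] (x : A), (∀ g : G, g • x = x) → ∀ n : ℕ,
      x ∈ P ^ n → x ∉ P ^ (n + 1) → Nat.card (MulAction.stabilizer G P) ∣ n)
    (C : Subring A) (hCΛ : ∀ a : Λ, algebraMap Λ A a ∈ C) (hCnorm : ∀ z : A, normG G z ∈ C)
    (x : A) (hx : ∀ g : G, g • x = x) : x ∈ C := by
  have hinert' : ∀ (P : Ideal A) [P.IsMaximal] (x : A), (∀ g : G, g • x = x) → ∀ n : ℕ,
      ordP P x = n → (Finset.univ.filter fun g : G => g • P = P).card ∣ n := by
    intro P _ x hx n hn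
    rw [ordP_eq_natCast_iff] at hn
    have h := hinert P x hx n hn.1 hn.2
    have hcard : Nat.card (MulAction.stabilizer G P) =
        (Finset.univ.filter fun g : G => g • P = P).card := by
      rw [Nat.card_eq_fintype_card, Fintype.card_subtype]
      rfl
    rwa [hcard] at h
  refine le_of_forall_le_sup_smul hΛ (fixedSub hΛG) (subringSub C hCΛ)
    (fun τ hτ hmax y hy => ?_) hx
  obtain ⟨c, hc, w, hw, rfl⟩ := stepA_of_inert hDVR hres hΛG hinert' C hCΛ hCnorm τ hτ hmax y hy
  exact ⟨c, hc.2, w, hw, rfl⟩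

end MainThm

section Wrapper

variable {B A G Λ : Type*} [CommRing B] [CommRing A] [Group G] [Fintype G]
  [MulSemiringAction G B] [MulSemiringAction G A]
  [CommRing Λ] [IsDomain Λ] [IsPrincipalIdealRing Λ] [Algebra Λ A] [Module.Finite Λ A]
  [Module.IsTorsionFree Λ A]

omit [Fintype G] [MulSemiringAction G A] in
/-- The kernel of the reduction on invariants: if `π` is an invariant non-zero-divisor, an
invariant multiple of `π` is `π` times an invariant. -/
theorem exists_fixed_of_mul_fixed (π : B) (hπ : ∀ g : G, g • π = π)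
    (hreg : ∀ b : B, π * b = 0 → b = 0) (b' : B) (hb : ∀ g : G, g • (π * b') = π * b') (g : G) :
    g • b' = b' := by
  have h1 := hb g
  rw [smul_mul', hπ, ← sub_eq_zero, ← mul_sub] at h1
  exact sub_eq_zero.1 (hreg _ h1)

/-- **Quotient normality (Lemma B), strong inertia hypothesis.**  `red : B → A` a surjective
`G`-equivariant ring homomorphism (reduction modulo an invariant element), `Λ` a PID mapping to
`A` with image in the reduction of the invariants.  Under the hypotheses of
`fixed_mem_of_inert` on `A`, every invariant of `A` is the reduction of an invariant of `B`. -/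
theorem exists_fixed_lift_of_inert (hΛ : ¬ IsField Λ) (red : B →+* A)
    (hred : Function.Surjective red) (hequiv : ∀ (g : G) (b : B), red (g • b) = g • red b)
    (hΛB : ∀ a : Λ, ∃ b : B, (∀ g : G, g • b = b) ∧ red b = algebraMap Λ A a)
    (hDVR : ∀ (P : Ideal A) [P.IsMaximal], IsDVRAt P)
    (hres : ∀ (P : Ideal A) [P.IsMaximal] (x : A), ∃ a : Λ, x - algebraMap Λ A a ∈ P)
    (hinert : ∀ (P : Ideal A) [P.IsMaximal] (x : A), (∀ g : G, g • x = x) → ∀ n : ℕ,
      x ∈ P ^ n → x ∉ P ^ (n + 1) → Nat.card (MulAction.stabilizer G P) ∣ n)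
    (x : A) (hx : ∀ g : G, g • x = x) : ∃ b : B, (∀ g : G, g • b = b) ∧ red b = x := by
  have hΛG : ∀ (g : G) (a : Λ), g • algebraMap Λ A a = algebraMap Λ A a := by
    intro g a
    obtain ⟨b, hb, hba⟩ := hΛB a
    rw [← hba, ← hequiv, hb g]
  let C : Subring A := (FixedPoints.subring B G).map red
  have hCmem : ∀ y : A, y ∈ C ↔ ∃ b : B, (∀ g : G, g • b = b) ∧ red b = y := by
    intro y
    constructor
    · rintro ⟨b, hb, rfl⟩
      exact ⟨b, fun g => hb g, rfl⟩
    · rintro ⟨b, hb, rfl⟩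
      exact ⟨b, fun g => hb g, rfl⟩
  have hCΛ : ∀ a : Λ, algebraMap Λ A a ∈ C := fun a => (hCmem _).2 (hΛB a)
  have hCnorm : ∀ z : A, normG G z ∈ C := by
    intro z
    obtain ⟨b, rfl⟩ := hred z
    refine (hCmem _).2 ⟨normG G b, fun g => smul_normG g b, ?_⟩
    unfold normG
    rw [map_prod]
    exact Finset.prod_congr rfl fun g _ => hequiv g b
  exact (hCmem x).1 (fixed_mem_of_inert hΛ hDVR hres hΛG hinert C hCΛ hCnorm x hx)

end Wrapper


end Fermat.Agent.Good.QN
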