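import Fermat.Agent.Good.NormQuotientRank
import Fermat.Agent.Good.EtaleBridge

/-!
# Lemma B for finite free algebras with unit discriminant (track L-GEN, [G-QN] + [G-ET])

Adapter: the local hypotheses `hDVR`, `hres` of `QN.fixed_mem_of_finrank` are supplied by
`ET.etaleBridge_maximal` when `A` is finite free with a basis of unit discriminant over a PID `S`
of finite type over an algebraically closed field `kb`, and `Λ` is a `kb`-algebra.
-/

set_option autoImplicit false

open scoped Pointwise

namespace Fermat.Agent.Good.QN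

section Etale

variable (kb : Type*) {S A : Type*} [Field kb] [IsAlgClosed kb] [CommRing S] [IsDomain S]
  [IsPrincipalIdealRing S] [Algebra kb S] [Algebra.FiniteType kb S] [CommRing A] [Algebra S A]
  [Algebra kb A] [IsScalarTower kb S A] {ι : Type*} [Fintype ι] [DecidableEq ι]

include kb in
/-- `hDVR` from the étale bridge. -/
theorem isDVRAt_of_isUnit_discr (hS : ¬ IsField S) (b : Module.Basis ι S A)
    (hb : IsUnit (Algebra.discr S b)) (Q : Ideal A) [Q.IsMaximal] : IsDVRAt Q :=
  (ET.etaleBridge_maximal (kb := kb) hS b hb Q).1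

include kb in
/-- `hres` from the étale bridge: the residue fields are `kb`, hence covered by any
`kb`-algebra `Λ` mapping to `A`. -/
theorem exists_sub_mem_of_isUnit_discr {Λ : Type*} [CommRing Λ] [Algebra kb Λ] [Algebra Λ A]
    [IsScalarTower kb Λ A] (hS : ¬ IsField S) (b : Module.Basis ι S A)
    (hb : IsUnit (Algebra.discr S b)) (Q : Ideal A) [Q.IsMaximal] (x : A) :
    ∃ a : Λ, x - algebraMap Λ A a ∈ Q := by
  obtain ⟨c, hc⟩ := (ET.etaleBridge_maximal (kb := kb) hS b hb Q).2.2.2 (Ideal.Quotient.mk Q x)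
  refine ⟨algebraMap kb Λ c, ?_⟩
  rw [← IsScalarTower.algebraMap_apply kb Λ A, ← Ideal.Quotient.eq_zero_iff_mem, map_sub,
    ← hc, sub_eq_zero]
  rfl

variable {G Λ : Type*} [Group G] [Fintype G] [MulSemiringAction G A]
  [CommRing Λ] [IsDomain Λ] [IsPrincipalIdealRing Λ] [Algebra Λ A] [Module.Finite Λ A]
  [Module.IsTorsionFree Λ A] [Algebra kb Λ] [IsScalarTower kb Λ A]

include kb in
/-- **Lemma B, core form, for finite free algebras with unit discriminant.** -/
theorem fixed_mem_of_finrank_of_isUnit_discr (hS : ¬ IsField S) (b : Module.Basis ι S A)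
    (hb : IsUnit (Algebra.discr S b)) (hΛ : ¬ IsField Λ)
    (hΛG : ∀ (g : G) (a : Λ), g • algebraMap Λ A a = algebraMap Λ A a)
    (F : Submodule Λ A) (hF : ∀ x : A, x ∈ F ↔ ∀ g : G, g • x = x)
    (hrank : Fintype.card G * Module.finrank Λ F ≤ Module.finrank Λ A)
    (C : Subring A) (hCΛ : ∀ a : Λ, algebraMap Λ A a ∈ C) (hCnorm : ∀ z : A, normG G z ∈ C)
    (x : A) (hx : ∀ g : G, g • x = x) : x ∈ C :=
  fixed_mem_of_finrank hΛ (fun Q _ => isDVRAt_of_isUnit_discr kb hS b hb Q)
    (fun Q _ x => exists_sub_mem_of_isUnit_discr kb hS b hb Q x) hΛG F hF hrank C hCΛ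
    hCnorm x hx

end Etale

end Fermat.Agent.Good.QN
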