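import Fermat.Agent.Good.NormQuotient
import Fermat.Prelude.Def_AlgebraicCurve_DivisorClassGroup

/-!
# Descent of ramification data from places of a big field (track L-GEN, node [G-RAM])

`B0` a commutative ring (a Dedekind model of a function field `F₀ ⊆ F`), `P` a maximal ideal at
which `B0` is a discrete valuation ring, `F` a field containing `B0`, and `v` a place of `F`
(in the sense of the Prelude) whose valuation ring dominates `(B0)_P`.  Then the order function of
`v` restricted to `B0` is `e` times the `P`-adic order, `e ≥ 1`: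

* `RamDesc.ord_eq_mul` : `v.ord x = n * e` for `x ∈ P ^ n \ P ^ (n+1)`;
* `RamDesc.exists_valuationSubring_dominating` : existence of a dominating valuation subring
  (Chevalley, from Mathlib);
* `RamDesc.exists_place_ord_eq_mul` : if every valuation subring of `F` over the constants is
  principal (function field of one variable), some place `v` and `e ≥ 1` have
  `v.ord x = n * e` for all `x` of exact `P`-order `n`;
* `RamDesc.natCast_dvd_of_forall_place`, `RamDesc.le_of_forall_place` : hence a divisibility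
  (resp. a bound) valid for the orders at all places descends to the exact `P`-order.
-/

set_option autoImplicit false

open IsDiscreteValuationRing AlgebraicCurve

namespace Fermat.Agent.Good.RamDesc

open Fermat.Agent.Good.QN

section Factor

variable {B0 : Type*} [CommRing B0]

/-- At a maximal ideal where `B0` is a DVR, an element of exact order `n` is, up to factors
outside `P`, the `n`-th power of a uniformiser. -/
theorem exists_mul_eq_mul_pow (P : Ideal B0) [P.IsMaximal] (h : IsDVRAt P) (ϖ x : B0)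
    (hϖ : ordP P ϖ = 1) (n : ℕ) (hx : ordP P x = n) :
    ∃ s a : B0, s ∉ P ∧ a ∉ P ∧ s * x = a * ϖ ^ n := by
  obtain ⟨_, _⟩ := h
  set L := Localization.AtPrime P
  have h1 : addVal L (algebraMap B0 L x) = addVal L (algebraMap B0 L ϖ ^ n) := by
    rw [addVal_pow, ← ordP_eq_addVal, ← ordP_eq_addVal, hx, hϖ]; simp
  obtain ⟨w, hw⟩ := (addVal_eq_iff_associated _ _).1 h1
  -- `x' * w = ϖ' ^ n`
  obtain ⟨⟨a, s⟩, has⟩ := IsLocalization.surj P.primeCompl (w : L)
  simp only at has
  have ha : a ∉ P := by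
    intro haP
    have h2 : algebraMap B0 L a ∈ IsLocalRing.maximalIdeal L :=
      (IsLocalization.AtPrime.to_map_mem_maximal_iff L P a).2 haP
    rw [← has] at h2
    have h3 : IsUnit ((w : L) * algebraMap B0 L s) :=
      w.isUnit.mul (IsLocalization.map_units L s)
    exact (IsLocalRing.mem_maximalIdeal _).1 h2 h3
  have h4 : algebraMap B0 L (a * x) = algebraMap B0 L (s * ϖ ^ n) := by
    rw [map_mul, map_mul, map_pow, ← hw, ← has]; ring
  obtain ⟨c, hc⟩ := (IsLocalization.eq_iff_exists P.primeCompl L).1 h4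
  refine ⟨c * a, c * s, ?_, ?_, ?_⟩
  · exact fun hmem => (‹P.IsMaximal›.isPrime.mem_or_mem hmem).elim c.2 ha
  · exact fun hmem => (‹P.IsMaximal›.isPrime.mem_or_mem hmem).elim c.2 s.2
  · rw [mul_assoc, hc, mul_assoc]

end Factor

section Place

variable {K F : Type*} [Field K] [Field F] [Algebra K F] (v : Place K F)

theorem ord_coe_pos_of_nonunit {a : v.toValuationSubring} (ha0 : a ≠ 0) (ha : ¬ IsUnit a) :
    0 < v.ord (a : F) := by
  obtain ⟨π, hπ⟩ := exists_irreducible v.toValuationSubring
  obtain ⟨n, u, rfl⟩ := eq_unit_mul_pow_irreducible ha0 hπ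
  have hn : n ≠ 0 := by
    rintro rfl
    apply ha
    simp
  have := v.ord_unit_smul_zpow u hπ (n : ℤ)
  rw [zpow_natCast] at this
  push_cast
  rw [this]
  exact_mod_cast Nat.pos_of_ne_zero hn

variable {B0 : Type*} [CommRing B0] [Algebra B0 F]

/-- **Restriction of a place to a DVR it dominates.**  If the valuation ring of `v` contains the
image of `B0` and its maximal ideal contains the image of the maximal ideal `P` at which `B0` is a
DVR, then `v.ord` on `B0` is `e ≥ 1` times the `P`-adic order. -/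
theorem ord_eq_mul (hinj : Function.Injective (algebraMap B0 F)) (P : Ideal B0) [P.IsMaximal]
    (hDVR : IsDVRAt P) (hB : ∀ b : B0, algebraMap B0 F b ∈ v.toValuationSubring)
    (hP : ∀ b ∈ P, algebraMap B0 F b ∈ v.toValuationSubring.nonunits) :
    ∃ e : ℤ, 0 < e ∧ ∀ (x : B0) (n : ℕ), x ∈ P ^ n → x ∉ P ^ (n + 1) →
      v.ord (algebraMap B0 F x) = n * e := by
  -- the induced ring homomorphism into the valuation ring
  let φ : B0 →+* v.toValuationSubring :=
    (algebraMap B0 F).codRestrict v.toValuationSubring.toSubring hB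
  have hφ : ∀ b : B0, ((φ b : v.toValuationSubring) : F) = algebraMap B0 F b := fun _ => rfl
  have hφP : ∀ b ∈ P, φ b ∈ IsLocalRing.maximalIdeal v.toValuationSubring := by
    intro b hb
    obtain ⟨_, h⟩ := ValuationSubring.mem_nonunits_iff_exists_mem_maximalIdeal.1 (hP b hb)
    exact h
  -- elements outside `P` become units
  have hunit : ∀ s : B0, s ∉ P → IsUnit (φ s) := by
    intro s hs
    obtain ⟨t, p, hpP, hp⟩ := Ideal.IsMaximal.exists_inv ‹P.IsMaximal› hs
    have h1 : φ t * φ s = 1 - φ p := by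
      have h0 : φ (t * s + p) = 1 := by rw [hp, map_one]
      rw [map_add, map_mul] at h0
      rw [← h0]; ring
    have h2 : IsUnit (φ t * φ s) := by
      rw [h1]
      exact IsLocalRing.isUnit_one_sub_self_of_mem_nonunits _ (hφP p hpP)
    exact isUnit_of_mul_isUnit_right h2
  have hord0 : ∀ s : B0, s ∉ P → v.ord (algebraMap B0 F s) = 0 := fun s hs => by
    rw [← hφ]
    exact v.ord_coe_unit (hunit s hs).unit
  have hne0 : ∀ s : B0, s ∉ P → algebraMap B0 F s ≠ 0 := fun s hs h0 => by
    have := (hunit s hs).ne_zero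
    exact this (Subtype.ext (by rw [hφ, h0]; rfl))
  -- a uniformiser of `B0` at `P`
  obtain ⟨ϖ, hϖ⟩ := exists_ordP_eq_one P hDVR
  have hϖP : ϖ ∈ P := (ordP_pos_iff P ϖ).1 (by rw [hϖ])
  have hϖ0 : ϖ ≠ 0 := by
    rintro rfl
    have h1 : ((2 : ℕ) : ℕ∞) ≤ ordP P (0 : B0) := (le_ordP_iff P 0 2).2 (Ideal.zero_mem _)
    rw [hϖ] at h1
    exact absurd h1 (by decide)
  have hφϖ0 : φ ϖ ≠ 0 := fun h0 => hϖ0 (hinj (by
    have := congrArg (fun z : v.toValuationSubring => (z : F)) h0
    simpa [hφ] using this))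
  have hϖF0 : algebraMap B0 F ϖ ≠ 0 := fun h0 => hϖ0 (hinj (by rw [h0, map_zero]))
  refine ⟨v.ord (algebraMap B0 F ϖ), ?_, ?_⟩
  · rw [← hφ]
    exact ord_coe_pos_of_nonunit v hφϖ0 (hφP ϖ hϖP)
  · intro x n hxn hxn'
    have hxord : ordP P x = n := (ordP_eq_natCast_iff P x n).2 ⟨hxn, hxn'⟩
    obtain ⟨s, a, hs, ha, hsx⟩ := exists_mul_eq_mul_pow P hDVR ϖ x hϖ n hxord
    have h1 : algebraMap B0 F s * algebraMap B0 F x =
        algebraMap B0 F a * algebraMap B0 F ϖ ^ n := by
      rw [← map_mul, hsx, map_mul, map_pow]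
    have hx0 : algebraMap B0 F x ≠ 0 := by
      intro h0
      rw [h0, mul_zero] at h1
      exact mul_ne_zero (hne0 a ha) (pow_ne_zero n hϖF0) h1.symm
    have h2 := congrArg v.ord h1
    rw [v.ord_mul (hne0 s hs) hx0, v.ord_mul (hne0 a ha) (pow_ne_zero n hϖF0), hord0 s hs,
      hord0 a ha, zero_add, zero_add, ← zpow_natCast, v.ord_zpow] at h2
    exact h2

end Place

section Exists

variable {B0 F : Type*} [CommRing B0] [Field F] [Algebra B0 F]

/-- **Chevalley**: a valuation subring of `F` containing the image of `B0` whose maximal ideal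
contains the image of the maximal ideal `P`. -/
theorem exists_valuationSubring_dominating (hinj : Function.Injective (algebraMap B0 F))
    (P : Ideal B0) [P.IsMaximal] :
    ∃ V : ValuationSubring F, (∀ b : B0, algebraMap B0 F b ∈ V) ∧
      ∀ b ∈ P, algebraMap B0 F b ∈ V.nonunits := by
  let A : Subring F := (algebraMap B0 F).range
  let ψ : B0 →+* A := (algebraMap B0 F).rangeRestrict
  have hψ : Function.Surjective ψ := RingHom.rangeRestrict_surjective _
  have hker : RingHom.ker ψ ≤ P := by
    intro x hx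
    rw [RingHom.mem_ker] at hx
    have h0 : algebraMap B0 F x = 0 := congrArg Subtype.val hx
    rw [hinj (h0.trans (map_zero _).symm)]
    exact P.zero_mem
  have hI : P.map ψ ≠ ⊤ := (Ideal.IsMaximal.map_of_surjective_of_ker_le hψ hker).ne_top
  obtain ⟨V, hAV, hIV⟩ := Ideal.image_subset_nonunits_valuationSubring (P.map ψ) hI
  exact ⟨V, fun b => hAV ⟨b, rfl⟩, fun b hb => hIV ⟨ψ b, Ideal.mem_map_of_mem ψ hb, rfl⟩⟩

variable {K : Type*} [Field K] [Algebra K F] [Algebra K B0] [IsScalarTower K B0 F]

/-- **A place over a prime.**  `F` a field in which every valuation subring over the constants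
`K` (other than `F`) is principal, `B0 ⊆ F` a `K`-algebra and `P` a maximal ideal at which `B0` is
a DVR.  Then there are a place `v` of `F` and `e ≥ 1` with `v.ord x = n * e` for every `x : B0` of
exact `P`-adic order `n`. -/
theorem exists_place_ord_eq_mul (hinj : Function.Injective (algebraMap B0 F))
    (hplace : ∀ V : ValuationSubring F, (∀ a : K, algebraMap K F a ∈ V) → V ≠ ⊤ →
      IsPrincipalIdealRing V)
    (P : Ideal B0) [P.IsMaximal] (hDVR : IsDVRAt P) :
    ∃ (v : Place K F) (e : ℤ), 0 < e ∧ (∀ b : B0, algebraMap B0 F b ∈ v.toValuationSubring) ∧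
      (∀ b ∈ P, algebraMap B0 F b ∈ v.toValuationSubring.nonunits) ∧
      ∀ (x : B0) (n : ℕ), x ∈ P ^ n → x ∉ P ^ (n + 1) → v.ord (algebraMap B0 F x) = n * e := by
  obtain ⟨V, hBV, hPV⟩ := exists_valuationSubring_dominating hinj P
  have hK : ∀ a : K, algebraMap K F a ∈ V := fun a => by
    rw [IsScalarTower.algebraMap_apply K B0 F]
    exact hBV _
  -- `V ≠ ⊤` because a uniformiser of `P` is a nonzero nonunit
  obtain ⟨ϖ, hϖ⟩ := exists_ordP_eq_one P hDVR
  have hϖP : ϖ ∈ P := (ordP_pos_iff P ϖ).1 (by rw [hϖ])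
  have hϖ0 : ϖ ≠ 0 := by
    rintro rfl
    have h1 : ((2 : ℕ) : ℕ∞) ≤ ordP P (0 : B0) := (le_ordP_iff P 0 2).2 (Ideal.zero_mem _)
    rw [hϖ] at h1
    exact absurd h1 (by decide)
  have hVtop : V ≠ ⊤ := by
    rintro rfl
    have h1 := hPV ϖ hϖP
    rw [ValuationSubring.mem_nonunits_iff_or] at h1
    rcases h1 with h1 | h1
    · exact hϖ0 (hinj (h1.trans (map_zero _).symm))
    · exact h1 (ValuationSubring.mem_top _)
  let v : Place K F := ⟨V, hK, hVtop, hplace V hK hVtop⟩
  obtain ⟨e, he, hev⟩ := ord_eq_mul v hinj P hDVR hBV hPV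
  exact ⟨v, e, he, hBV, hPV, hev⟩

/-- **Descent of a divisibility.**  If the positive orders of `x` at all places of `F` divide
`e₀`, so does the exact `P`-adic order `n ≥ 1` of `x`. -/
theorem natCast_dvd_of_forall_place (hinj : Function.Injective (algebraMap B0 F))
    (hplace : ∀ V : ValuationSubring F, (∀ a : K, algebraMap K F a ∈ V) → V ≠ ⊤ →
      IsPrincipalIdealRing V)
    (P : Ideal B0) [P.IsMaximal] (hDVR : IsDVRAt P) (x : B0) (n : ℕ) (hn : 0 < n)
    (hxn : x ∈ P ^ n) (hxn' : x ∉ P ^ (n + 1)) (e₀ : ℤ)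
    (hram : ∀ v : Place K F, 0 < v.ord (algebraMap B0 F x) → v.ord (algebraMap B0 F x) ∣ e₀) :
    (n : ℤ) ∣ e₀ := by
  obtain ⟨v, e, he, -, -, hev⟩ := exists_place_ord_eq_mul (K := K) hinj hplace P hDVR
  have h1 := hev x n hxn hxn'
  have hpos : 0 < v.ord (algebraMap B0 F x) := by
    rw [h1]
    exact mul_pos (by exact_mod_cast hn) he
  have h2 := hram v hpos
  rw [h1] at h2
  exact (dvd_mul_right _ _).trans h2

/-- **Descent of a bound.**  If the orders of `x` at all places of `F` are at most `m`, so is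
the exact `P`-adic order of `x`. -/
theorem le_of_forall_place (hinj : Function.Injective (algebraMap B0 F))
    (hplace : ∀ V : ValuationSubring F, (∀ a : K, algebraMap K F a ∈ V) → V ≠ ⊤ →
      IsPrincipalIdealRing V)
    (P : Ideal B0) [P.IsMaximal] (hDVR : IsDVRAt P) (x : B0) (n : ℕ)
    (hxn : x ∈ P ^ n) (hxn' : x ∉ P ^ (n + 1)) (m : ℤ)
    (hram : ∀ v : Place K F, v.ord (algebraMap B0 F x) ≤ m) : (n : ℤ) ≤ m := by
  obtain ⟨v, e, he, -, -, hev⟩ := exists_place_ord_eq_mul (K := K) hinj hplace P hDVR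
  have h1 := hev x n hxn hxn'
  have h2 := hram v
  rw [h1] at h2
  have h3 : (n : ℤ) ≤ n * e := by
    have hn0 : (0 : ℤ) ≤ n := by exact_mod_cast Nat.zero_le n
    nlinarith
  exact h3.trans h2

end Exists

section Dedekind

variable {B0 : Type*} [CommRing B0] [IsDedekindDomain B0]

/-- A Dedekind domain is a DVR at every nonzero maximal ideal, in the form used above. -/
theorem isDVRAt_of_isDedekindDomain (P : Ideal B0) [P.IsMaximal] (hP : P ≠ ⊥) : IsDVRAt P :=
  ⟨inferInstance,
    IsLocalization.AtPrime.isDiscreteValuationRing_of_dedekind_domain B0 hP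
      (Localization.AtPrime P)⟩

end Dedekind

end Fermat.Agent.Good.RamDesc
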