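import Fermat.Agent.Good.RigidCoverBaseChange

/-!
# Rigid covers: instances and the special fibre modulo a maximal principal ideal

Program L / L-GEN node [G-GQ3], RigidCover-side inputs of the GOODQUOT Layer 3:

* instances `IsDomain P.R`, `IsIntegrallyClosed P.R`, `IsNoetherianRing P.R`;
* `RigidCover.isPrincipalIdealRing_quotient_of_isMaximal` : `P.R ⧸ (p)` is a principal ideal ring
  when `(p)` is a maximal ideal of the base (no rigid cover over the residue field needed);
* `RigidCover.not_const_dvd_algebraMap` : `¬ C p ∣ d → ¬ P.const p ∣ algebraMap Λ[j] P.R d`;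
* `RigidCover.Hom.tensor_map_algebraMap` : `Λ'[j]` is fixed by the action on the right factor.
-/

namespace Fermat.Agent.Good

open Polynomial TensorProduct

universe u v

namespace RigidCover

set_option linter.overlappingInstances false

variable {Λ : Type u} [CommRing Λ] [Nontrivial Λ] {G : Type} [Group G] [Fintype G]
  (P : RigidCover Λ G)

instance instIsDomain [IsDomain Λ] : IsDomain P.R := P.isDomain

instance instIsIntegrallyClosed [IsDomain Λ] [IsIntegrallyClosed Λ] : IsIntegrallyClosed P.R :=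
  P.isIntegrallyClosed

instance instIsNoetherianRing [IsNoetherianRing Λ] : IsNoetherianRing P.R :=
  IsLocalization.isNoetherianRing (Submonoid.powers P.c) P.CoordRing inferInstance

/-- coordinates of `algebraMap d` in the power basis -/
lemma repr_algebraMap_zero (d : Λ[X]) :
    P.basis.repr (algebraMap Λ[X] P.R d) ⟨0, Fintype.card_pos⟩ = d := by
  have h1 : P.basis ⟨0, Fintype.card_pos⟩ = 1 := by rw [P.basis_apply]; exact pow_zero _
  have h2 : algebraMap Λ[X] P.R d = d • P.basis ⟨0, Fintype.card_pos⟩ := by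
    rw [h1, Algebra.smul_def, mul_one]
  rw [h2, map_smul, Module.Basis.repr_self, Finsupp.smul_apply, Finsupp.single_eq_same,
    smul_eq_mul, mul_one]

/-- divisibility by a constant can be tested in `Λ[j]` -/
theorem not_const_dvd_algebraMap {p : Λ} {d : Λ[X]} (h : ¬ C p ∣ d) :
    ¬ P.const p ∣ algebraMap Λ[X] P.R d := by
  rintro ⟨z, hz⟩
  apply h
  refine ⟨P.basis.repr z ⟨0, Fintype.card_pos⟩, ?_⟩
  have h1 := P.repr_algebraMap_zero d
  rw [hz, P.const_apply, ← Algebra.smul_def, map_smul, Finsupp.smul_apply, smul_eq_mul] at h1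
  exact h1.symm

/-- `P.R ⧸ (p)` is a principal ideal ring when `(p)` is maximal in `Λ`. -/
theorem isPrincipalIdealRing_quotient_of_isMaximal (p : Λ)
    (hmax : (Ideal.span {p} : Ideal Λ).IsMaximal) :
    IsPrincipalIdealRing (P.R ⧸ Ideal.span {P.const p}) := by
  let _ : Field (Λ ⧸ (Ideal.span {p} : Ideal Λ)) := Ideal.Quotient.field _
  set q : Λ →+* Λ ⧸ (Ideal.span {p} : Ideal Λ) := Ideal.Quotient.mk _ with hq
  have hqs : Function.Surjective q := Ideal.Quotient.mk_surjective
  set Q : Λ[X] →+* (Λ ⧸ (Ideal.span {p} : Ideal Λ))[X] := mapRingHom q with hQ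
  have hQs : Function.Surjective Q := Polynomial.map_surjective q hqs
  have hkerQ : RingHom.ker Q = Ideal.span {C p} := by
    rw [hQ, Polynomial.ker_mapRingHom, hq, Ideal.mk_ker, Ideal.map_span, Set.image_singleton]
  set I : Ideal P.R := Ideal.span {P.const p} with hI
  refine ⟨fun Jb => ?_⟩
  set J : Ideal P.R := Ideal.comap (Ideal.Quotient.mk I) Jb with hJ
  have hIJ : I ≤ J := by
    intro x hx
    rw [hJ, Ideal.mem_comap, Ideal.Quotient.eq_zero_iff_mem.mpr hx]
    exact Jb.zero_mem
  set J0 : Ideal Λ[X] := Ideal.comap P.coord J with hJ0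
  have hJmap : Ideal.map P.coord J0 = J :=
    IsLocalization.map_under (Submonoid.powers P.c) P.CoordRing J
  obtain ⟨gb, hgb⟩ := (IsPrincipalIdealRing.principal (Ideal.map Q J0)).principal
  have hgbmem : gb ∈ Ideal.map Q J0 := by rw [hgb]; exact Submodule.mem_span_singleton_self gb
  obtain ⟨g, hgJ0, rfl⟩ := (Ideal.mem_map_iff_of_surjective Q hQs).mp hgbmem
  have hCp : C p ∈ J0 := by
    rw [hJ0, Ideal.mem_comap, P.coord_C']
    exact hIJ (Ideal.subset_span rfl)
  have hJ0eq : J0 = Ideal.span {g} ⊔ Ideal.span {C p} := by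
    apply le_antisymm
    · intro x hx
      have hx' : Q x ∈ Ideal.map Q J0 := Ideal.mem_map_of_mem Q hx
      rw [hgb] at hx'
      obtain ⟨yb, hyb⟩ := Ideal.mem_span_singleton'.mp hx'
      obtain ⟨y, rfl⟩ := hQs yb
      have hker : x - y * g ∈ RingHom.ker Q := by
        rw [RingHom.mem_ker, map_sub, map_mul, hyb, sub_self]
      rw [hkerQ] at hker
      have : x = y * g + (x - y * g) := by ring
      rw [this]
      exact Ideal.add_mem _
        (Ideal.mem_sup_left (Ideal.mul_mem_left _ _ (Ideal.subset_span rfl)))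
        (Ideal.mem_sup_right hker)
    · rw [sup_le_iff, Ideal.span_singleton_le_iff_mem, Ideal.span_singleton_le_iff_mem]
      exact ⟨hgJ0, hCp⟩
  refine ⟨⟨Ideal.Quotient.mk I (P.coord g), ?_⟩⟩
  have h1 : Jb = Ideal.map (Ideal.Quotient.mk I) J :=
    (Ideal.map_comap_of_surjective _ Ideal.Quotient.mk_surjective Jb).symm
  rw [h1, ← hJmap, hJ0eq, Ideal.map_sup, Ideal.map_sup, Ideal.map_span, Ideal.map_span,
    Ideal.map_span, Ideal.map_span, Set.image_singleton, Set.image_singleton,
    Set.image_singleton, Set.image_singleton, P.coord_C',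
    Ideal.Quotient.eq_zero_iff_mem.mpr (Ideal.subset_span rfl : P.const p ∈ I)]
  rw [Ideal.span_singleton_zero, sup_bot_eq]

end RigidCover

namespace RigidCover.Hom

set_option linter.overlappingInstances false

variable {Λ : Type u} [CommRing Λ] [Nontrivial Λ] {Λ' : Type v} [CommRing Λ'] [Nontrivial Λ']
  [Algebra Λ Λ'] {G : Type} [Group G] [Fintype G] {f : Λ →+* Λ'} {P : RigidCover Λ G}
  {P' : RigidCover Λ' G} (φ : RigidCover.Hom f P P')

include φ in
/-- `Λ'[j]` is fixed by the action of `G` on the right factor of `Λ' ⊗[Λ] P.R` -/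
theorem tensor_map_algebraMap (hf : f = algebraMap Λ Λ') (g : G) (a : Λ'[X]) :
    Algebra.TensorProduct.map (AlgHom.id Λ Λ') (MulSemiringAction.toAlgHom Λ P.R g)
      (algebraMap Λ'[X] (Λ' ⊗[Λ] P.R) a) = algebraMap Λ'[X] (Λ' ⊗[Λ] P.R) a := by
  apply (φ.tensorEquiv hf).injective
  rw [φ.tensorEquiv_map_smul hf, φ.tensorEquiv_algebraMap hf, P'.smul_algebraMap]

end RigidCover.Hom

end Fermat.Agent.Good
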