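import Fermat.Agent.Good.Mobius

/-!
# The Hesse cover of the `j`-line (helper16)

Program L (S18), track L-GEN, node (I.1).  For a field `K` containing a primitive cube root of
unity `ζ` (so `char K ≠ 3`), the rational function

  `j = 27 μ³ (μ³ + 8)³ / (μ³ - 1)³`   (`hesseJ K : RatFunc K`)

(the `j`-invariant of the Hesse pencil `x³ + y³ + z³ = 3μxyz`, i.e. the cover `X(3) → X(1)`) defines
a Galois extension `K(μ)/K(j)` of degree `12` whose group (`≅ A₄`) acts by the Möbius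
transformations `μ ↦ ζ^i μ` and `μ ↦ ζ^i (ζ^k μ + 2)/(ζ^k μ - 1)`.

* `hesseVal u`: the value `27 u³ (u³ + 8)³ / (u³ - 1)³` in any field; `hesseVal_mul_of_pow_eq_one`,
  `hesseVal_mob` (invariance under `u ↦ (u + 2)/(u - 1)`); `map_hesseVal`;
* `hesseJ_eq_hesseVal`, `algEquiv_hesseJ`;
* `hesseA hζ i`, `hesseB hζ`, `hesseAut hζ : Fin 3 ⊕ Fin 3 × Fin 3 → Aut(K(μ)/K)` with the explicit
  matrices `hesseAut_inl_X`, `hesseAut_inr_X`; `hesseAut_hesseJ`, `hesseAut_injective`;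
* **`hesse_isGalois`**: degree `12`, Galois, and every automorphism is one of the `hesseAut`.
-/

set_option autoImplicit false
set_option linter.style.haveILetI false
set_option linter.unusedSimpArgs false

open Polynomial IntermediateField
open scoped RatFunc

noncomputable section

namespace Fermat.Agent.Good

variable {K : Type*} [Field K]

/-- Substitution in a quotient of polynomials. -/
theorem substHom_div (g : K⟮X⟯) (hg : ¬ ∃ c, g = RatFunc.C c) (p q : K[X]) :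
    substHom g hg (algebraMap K[X] K⟮X⟯ p / algebraMap K[X] K⟮X⟯ q) =
      Polynomial.aeval g p / Polynomial.aeval g q := by
  rw [map_div₀, substHom_algebraMap, substHom_algebraMap]

theorem mobEquiv_div (a b c d : K) (hdet : a * d - b * c ≠ 0) (p q : K[X]) :
    mobEquiv a b c d hdet (algebraMap K[X] K⟮X⟯ p / algebraMap K[X] K⟮X⟯ q) =
      Polynomial.aeval (mobFun a b c d) p / Polynomial.aeval (mobFun a b c d) q :=
  substHom_div _ (mobFun_ne_C hdet) p q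

section Hesse

/-- Numerator of the Hesse `j`-function `27 μ³ (μ³ + 8)³ / (μ³ - 1)³`. -/
def hesseNum (K : Type*) [Field K] : K[X] :=
  Polynomial.C 27 * Polynomial.X ^ 3 * (Polynomial.X ^ 3 + Polynomial.C 8) ^ 3

/-- Denominator of the Hesse `j`-function. -/
def hesseDen (K : Type*) [Field K] : K[X] := (Polynomial.X ^ 3 - Polynomial.C 1) ^ 3

theorem hesseDen_ne_zero : hesseDen K ≠ 0 :=
  pow_ne_zero _ (Polynomial.X_pow_sub_C_ne_zero (by norm_num) 1)

theorem natDegree_hesseNum_le : (hesseNum K).natDegree ≤ 12 := by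
  unfold hesseNum
  compute_degree

theorem natDegree_hesseDen_le_nine : (hesseDen K).natDegree ≤ 9 := by
  unfold hesseDen
  compute_degree

theorem natDegree_hesseDen_le : (hesseDen K).natDegree ≤ 12 :=
  le_trans natDegree_hesseDen_le_nine (by norm_num)

/-- The Hesse `j`-function `j = 27 μ³ (μ³ + 8)³ / (μ³ - 1)³` as an element of `K(μ)`. -/
def hesseJ (K : Type*) [Field K] : K⟮X⟯ :=
  algebraMap K[X] K⟮X⟯ (hesseNum K) / algebraMap K[X] K⟮X⟯ (hesseDen K)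

theorem coeff_hesseNum_twelve : (hesseNum K).coeff 12 = 27 := by
  unfold hesseNum
  have h : (Polynomial.C (27 : K) * Polynomial.X ^ 3 * (Polynomial.X ^ 3 + Polynomial.C 8) ^ 3) =
      Polynomial.C 27 * Polynomial.X ^ 12 + Polynomial.C (27 * 8 * 3) * Polynomial.X ^ 9 +
        Polynomial.C (27 * 8 ^ 2 * 3) * Polynomial.X ^ 6 +
        Polynomial.C (27 * 8 ^ 3) * Polynomial.X ^ 3 := by
    simp only [map_mul, map_pow, map_ofNat]
    ring
  rw [h]
  simp only [Polynomial.coeff_add, Polynomial.coeff_C_mul, Polynomial.coeff_X_pow]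
  norm_num

theorem hesseJ_ne_C (h3 : (3 : K) ≠ 0) : ¬ ∃ c, hesseJ K = RatFunc.C c := by
  rintro ⟨e, he⟩
  have hden : algebraMap K[X] K⟮X⟯ (hesseDen K) ≠ 0 := RatFunc.algebraMap_ne_zero hesseDen_ne_zero
  rw [hesseJ, div_eq_iff hden, ← RatFunc.algebraMap_C, ← map_mul] at he
  have h1 := RatFunc.algebraMap_injective K he
  have h2 := congrArg (fun p : K[X] => p.coeff 12) h1
  simp only [coeff_hesseNum_twelve, Polynomial.coeff_C_mul] at h2
  have h3' : (hesseDen K).coeff 12 = 0 := by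
    apply Polynomial.coeff_eq_zero_of_natDegree_lt
    have := natDegree_hesseDen_le_nine (K := K)
    omega
  rw [h3', mul_zero] at h2
  have : (27 : K) = 3 ^ 3 := by norm_num
  rw [this] at h2
  exact h3 (pow_eq_zero_iff (by norm_num) |>.1 h2)

end Hesse

/-- The Hesse `j`-value `27 u³ (u³ + 8)³ / (u³ - 1)³` in an arbitrary field. -/
def hesseVal {F : Type*} [Field F] (u : F) : F :=
  27 * u ^ 3 * (u ^ 3 + 8) ^ 3 / (u ^ 3 - 1) ^ 3

theorem hesseVal_mul_of_pow_eq_one {F : Type*} [Field F] (a u : F) (ha : a ^ 3 = 1) :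
    hesseVal (a * u) = hesseVal u := by
  unfold hesseVal
  rw [mul_pow, ha, one_mul]

/-- Invariance of the Hesse `j`-value under `u ↦ (u + 2)/(u - 1)`. -/
theorem hesseVal_mob {F : Type*} [Field F] (u : F) (h3 : (3 : F) ≠ 0) (hu : u ^ 3 - 1 ≠ 0) :
    hesseVal ((u + 2) / (u - 1)) = hesseVal u := by
  have hw : u - 1 ≠ 0 := by
    intro h
    apply hu
    have : u = 1 := by linear_combination h
    rw [this]; ring
  have hs : u ^ 2 + u + 1 ≠ 0 := by
    intro h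
    apply hu
    have : u ^ 3 - 1 = (u - 1) * (u ^ 2 + u + 1) := by ring
    rw [this, h, mul_zero]
  have e1 : ((u + 2) / (u - 1)) ^ 3 - 1 = 9 * (u ^ 2 + u + 1) / (u - 1) ^ 3 := by
    rw [div_pow, eq_div_iff (pow_ne_zero 3 hw), sub_mul, div_mul_cancel₀ _ (pow_ne_zero 3 hw)]
    ring
  have e2 : ((u + 2) / (u - 1)) ^ 3 + 8 = 9 * u * (u ^ 2 - 2 * u + 4) / (u - 1) ^ 3 := by
    rw [div_pow, eq_div_iff (pow_ne_zero 3 hw), add_mul, div_mul_cancel₀ _ (pow_ne_zero 3 hw)]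
    ring
  have h9 : (9 : F) ≠ 0 := by
    have : (9 : F) = 3 ^ 2 := by norm_num
    rw [this]; exact pow_ne_zero 2 h3
  unfold hesseVal
  rw [e1, e2, div_pow (u + 2) (u - 1)]
  have hu' : u ^ 3 - 1 = (u - 1) * (u ^ 2 + u + 1) := by ring
  rw [hu']
  field_simp
  ring


theorem hesseJ_eq_hesseVal : hesseJ K = hesseVal (RatFunc.X : K⟮X⟯) := by
  unfold hesseJ hesseVal hesseNum hesseDen
  simp only [map_mul, map_pow, map_add, map_sub, RatFunc.algebraMap_X, map_ofNat, map_one]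

theorem map_hesseVal {F L : Type*} [Field F] [Field L] (σ : F →+* L) (u : F) :
    σ (hesseVal u) = hesseVal (σ u) := by
  unfold hesseVal
  simp only [map_div₀, map_mul, map_pow, map_add, map_sub, map_ofNat, map_one]

theorem algEquiv_hesseJ (σ : K⟮X⟯ ≃ₐ[K] K⟮X⟯) :
    σ (hesseJ K) = hesseVal (σ RatFunc.X) := by
  rw [hesseJ_eq_hesseVal]
  exact map_hesseVal (σ : K⟮X⟯ →+* K⟮X⟯) _

theorem mobFun_diag (a : K) : mobFun a 0 0 1 = RatFunc.C a * (RatFunc.X : K⟮X⟯) := by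
  unfold mobFun
  simp

theorem mobFun_hesseB :
    mobFun (1 : K) 2 1 (-1) = ((RatFunc.X : K⟮X⟯) + 2) / (RatFunc.X - 1) := by
  unfold mobFun
  simp only [map_one, one_mul, map_ofNat, map_neg]
  rw [sub_eq_add_neg]

theorem ratFunc_X_pow_three_sub_one_ne_zero : (RatFunc.X : K⟮X⟯) ^ 3 - 1 ≠ 0 := by
  have h : (Polynomial.X ^ 3 - Polynomial.C 1 : K[X]) ≠ 0 :=
    Polynomial.X_pow_sub_C_ne_zero (by norm_num) 1
  have h2 := RatFunc.algebraMap_ne_zero h
  simpa [RatFunc.algebraMap_X] using h2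

section Family

variable {ζ : K} (hζ : IsPrimitiveRoot ζ 3)

include hζ

theorem hesse_three_ne_zero : (3 : K) ≠ 0 := by
  have := hζ.neZero' (R := K)
  exact_mod_cast NeZero.ne ((3 : ℕ) : K)

theorem hesse_zeta_pow_ne_zero (i : ℕ) : ζ ^ i * 1 - 0 * 0 ≠ 0 := by
  rw [mul_one, mul_zero, sub_zero]
  exact pow_ne_zero _ (hζ.ne_zero (by norm_num))

theorem hesse_detB_ne_zero : (1 : K) * (-1) - 2 * 1 ≠ 0 := by
  have h3 := hesse_three_ne_zero hζ
  intro h
  apply h3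
  linear_combination -h

/-- The automorphism `μ ↦ ζ^i μ`. -/
def hesseA (i : ℕ) : K⟮X⟯ ≃ₐ[K] K⟮X⟯ := mobEquiv (ζ ^ i) 0 0 1 (hesse_zeta_pow_ne_zero hζ i)

/-- The automorphism `μ ↦ (μ + 2)/(μ - 1)`. -/
def hesseB : K⟮X⟯ ≃ₐ[K] K⟮X⟯ := mobEquiv 1 2 1 (-1) (hesse_detB_ne_zero hζ)

theorem hesseA_hesseJ (i : ℕ) : hesseA hζ i (hesseJ K) = hesseJ K := by
  rw [algEquiv_hesseJ, hesseA, mobEquiv_X, mobFun_diag, hesseJ_eq_hesseVal]
  apply hesseVal_mul_of_pow_eq_one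
  rw [← map_pow, ← pow_mul, mul_comm, pow_mul, hζ.pow_eq_one, one_pow, map_one]

theorem hesseB_hesseJ : hesseB hζ (hesseJ K) = hesseJ K := by
  rw [algEquiv_hesseJ, hesseB, mobEquiv_X, mobFun_hesseB, hesseJ_eq_hesseVal]
  refine hesseVal_mob _ ?_ ratFunc_X_pow_three_sub_one_ne_zero
  have h3 := hesse_three_ne_zero hζ
  intro h
  apply h3
  have : ((3 : K⟮X⟯)) = RatFunc.C (3 : K) := (map_ofNat RatFunc.C 3).symm
  rw [this, map_eq_zero] at h
  exact h

/-- The twelve automorphisms of the Hesse cover: `μ ↦ ζ^i μ` and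
`μ ↦ ζ^i (ζ^k μ + 2)/(ζ^k μ - 1)`. -/
def hesseAut : Fin 3 ⊕ (Fin 3 × Fin 3) → (K⟮X⟯ ≃ₐ[K] K⟮X⟯)
  | Sum.inl i => hesseA hζ i
  | Sum.inr (i, k) => (hesseA hζ i).trans ((hesseB hζ).trans (hesseA hζ k))

theorem hesseAut_hesseJ (t : Fin 3 ⊕ (Fin 3 × Fin 3)) : hesseAut hζ t (hesseJ K) = hesseJ K := by
  rcases t with i | ⟨i, k⟩
  · exact hesseA_hesseJ hζ i
  · show hesseA hζ k (hesseB hζ (hesseA hζ i (hesseJ K))) = hesseJ K
    rw [hesseA_hesseJ, hesseB_hesseJ, hesseA_hesseJ]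

theorem hesseAut_inl_X (i : Fin 3) :
    hesseAut hζ (Sum.inl i) RatFunc.X = mobFun (ζ ^ (i : ℕ)) 0 0 1 := by
  show hesseA hζ i RatFunc.X = _
  rw [hesseA, mobEquiv_X]

theorem hesseAut_inr_X (i k : Fin 3) :
    hesseAut hζ (Sum.inr (i, k)) RatFunc.X =
      mobFun (ζ ^ (i : ℕ) * ζ ^ (k : ℕ)) (2 * ζ ^ (i : ℕ)) (ζ ^ (k : ℕ)) (-1) := by
  show hesseA hζ k (hesseB hζ (hesseA hζ i RatFunc.X)) = _
  have h1 : hesseA hζ i RatFunc.X = mobFun (ζ ^ (i : ℕ)) 0 0 1 := by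
    rw [hesseA, mobEquiv_X]
  rw [h1, hesseB, mobEquiv_apply, mobHom_mobFun, hesseA, mobEquiv_apply, mobHom_mobFun]
  congr 1 <;> ring

end Family

section Galois

variable {ζ : K} (hζ : IsPrimitiveRoot ζ 3)

include hζ

theorem hesseAut_injective : Function.Injective (hesseAut hζ) := by
  have hζ0 : ζ ≠ 0 := hζ.ne_zero (by norm_num)
  have h3 := hesse_three_ne_zero hζ
  have hpow : ∀ i k : Fin 3, ζ ^ (i : ℕ) = ζ ^ (k : ℕ) → i = k := fun i k h =>
    Fin.ext (hζ.pow_inj i.2 k.2 h)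
  intro t t' h
  have hX : hesseAut hζ t RatFunc.X = hesseAut hζ t' RatFunc.X := by rw [h]
  rcases t with i | ⟨i, k⟩ <;> rcases t' with i' | ⟨i', k'⟩
  · rw [hesseAut_inl_X, hesseAut_inl_X,
      mobFun_eq_iff (Or.inr one_ne_zero) (Or.inr one_ne_zero)] at hX
    obtain ⟨-, h2, -⟩ := hX
    simp only [mul_one, zero_mul, add_zero, mul_zero] at h2
    rw [hpow i i' h2]
  · exfalso
    rw [hesseAut_inl_X, hesseAut_inr_X,
      mobFun_eq_iff (Or.inr one_ne_zero) (Or.inr (neg_ne_zero.2 one_ne_zero))] at hX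
    obtain ⟨h1, -, -⟩ := hX
    simp only [mul_zero] at h1
    exact mul_ne_zero (pow_ne_zero _ hζ0) (pow_ne_zero _ hζ0) h1
  · exfalso
    rw [hesseAut_inl_X, hesseAut_inr_X,
      mobFun_eq_iff (Or.inr (neg_ne_zero.2 one_ne_zero)) (Or.inr one_ne_zero)] at hX
    obtain ⟨h1, -, -⟩ := hX
    simp only [mul_zero] at h1
    exact mul_ne_zero (pow_ne_zero _ hζ0) (pow_ne_zero _ hζ0) h1.symm
  · rw [hesseAut_inr_X, hesseAut_inr_X,
      mobFun_eq_iff (Or.inr (neg_ne_zero.2 one_ne_zero)) (Or.inr (neg_ne_zero.2 one_ne_zero))] at hX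
    obtain ⟨h1, h2, -⟩ := hX
    have hk : ζ ^ (k : ℕ) ≠ 0 := pow_ne_zero _ hζ0
    have hk' : ζ ^ (k' : ℕ) ≠ 0 := pow_ne_zero _ hζ0
    have hi : ζ ^ (i : ℕ) ≠ 0 := pow_ne_zero _ hζ0
    have e1 : ζ ^ (i : ℕ) = ζ ^ (i' : ℕ) := by
      have : (ζ ^ (i : ℕ) - ζ ^ (i' : ℕ)) * (ζ ^ (k : ℕ) * ζ ^ (k' : ℕ)) = 0 := by
        linear_combination h1
      rcases mul_eq_zero.1 this with h0 | h0
      · exact sub_eq_zero.1 h0
      · exact absurd h0 (mul_ne_zero hk hk')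
    have hii : i = i' := hpow i i' e1
    subst hii
    have e2 : ζ ^ (k : ℕ) = ζ ^ (k' : ℕ) := by
      have : 3 * ζ ^ (i : ℕ) * (ζ ^ (k' : ℕ) - ζ ^ (k : ℕ)) = 0 := by
        linear_combination h2
      rcases mul_eq_zero.1 this with h0 | h0
      · exact absurd h0 (mul_ne_zero h3 hi)
      · exact (sub_eq_zero.1 h0).symm
    rw [hpow k k' e2]

/-- **The Hesse cover is Galois with group `A₄` acting by Möbius transformations**: for a field
`K` containing a primitive cube root of unity `ζ`, the extension `K(μ)/K(j)`,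
`j = 27 μ³ (μ³ + 8)³ / (μ³ - 1)³`, is Galois of degree `12`, and its automorphisms are exactly the
twelve substitutions `μ ↦ ζ^i μ`, `μ ↦ ζ^i (ζ^k μ + 2)/(ζ^k μ - 1)`. -/
theorem hesse_isGalois :
    Module.finrank K⟮hesseJ K⟯ K⟮X⟯ = 12 ∧ IsGalois K⟮hesseJ K⟯ K⟮X⟯ ∧
      ∀ τ : K⟮X⟯ ≃ₐ[K⟮hesseJ K⟯] K⟮X⟯, ∃ t, ∀ y, τ y = hesseAut hζ t y := by
  have hcard : Fintype.card (Fin 3 ⊕ (Fin 3 × Fin 3)) = 12 := by
    simp
  have h := isGalois_of_auts (ι := Fin 3 ⊕ (Fin 3 × Fin 3)) (hesseJ K)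
    (hesseJ_ne_C (hesse_three_ne_zero hζ)) (hesseNum K) (hesseDen K) hesseDen_ne_zero rfl
    (by rw [hcard]; exact natDegree_hesseNum_le) (by rw [hcard]; exact natDegree_hesseDen_le)
    (hesseAut hζ) (hesseAut_injective hζ) (hesseAut_hesseJ hζ)
  rw [hcard] at h
  exact h

end Galois

end Fermat.Agent.Good
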