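import Fermat.Agent.Good.Mobius

/-!
# The Legendre cover of the `j`-line (helper16)

Program L (S18), track L-GEN, node (I.1).  For a field `K` with `char K ≠ 2`, the rational function

  `j = 256 (λ² - λ + 1)³ / (λ² (λ - 1)²)`   (`legendreJ K : RatFunc K`)

(the `j`-invariant of the Legendre family `y² = x(x - 1)(x - λ)`, i.e. the cover `X(2) → X(1)`)
defines a Galois extension `K(λ)/K(j)` of degree `6` whose group (`≅ S₃`) acts by the Möbius
transformations `λ, 1 - λ, 1/λ, (λ - 1)/λ, 1/(1 - λ), λ/(λ - 1)`.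

* `legendreVal u`: the value `256 (u² - u + 1)³ / (u² (u - 1)²)` in any field;
  `legendreVal_one_sub`, `legendreVal_inv` (invariance); `map_legendreVal`;
* `legendreS`, `legendreT`, `legendreAut : Fin 6 → Aut(K(λ)/K)` with the explicit matrices
  `legendreMat`, `legendreAut_X`; `legendreAut_legendreJ`, `legendreAut_injective`;
* **`legendre_isGalois`**: degree `6`, Galois, and every automorphism is one of the `legendreAut`.
-/

set_option autoImplicit false
set_option linter.style.haveILetI false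
set_option linter.unusedSimpArgs false

open Polynomial IntermediateField
open scoped RatFunc

noncomputable section

namespace Fermat.Agent.Good

variable {K : Type*} [Field K]

/-- The Legendre `j`-value `256 (u² - u + 1)³ / (u² (u - 1)²)` in an arbitrary field. -/
def legendreVal {F : Type*} [Field F] (u : F) : F :=
  256 * (u ^ 2 - u + 1) ^ 3 / (u ^ 2 * (u - 1) ^ 2)

theorem legendreVal_one_sub {F : Type*} [Field F] (u : F) :
    legendreVal (1 - u) = legendreVal u := by
  unfold legendreVal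
  have e1 : (1 - u) ^ 2 - (1 - u) + 1 = u ^ 2 - u + 1 := by ring
  have e2 : (1 - u) ^ 2 * (1 - u - 1) ^ 2 = u ^ 2 * (u - 1) ^ 2 := by ring
  rw [e1, e2]

theorem legendreVal_inv {F : Type*} [Field F] (u : F) (hu : u ≠ 0) (hu1 : u - 1 ≠ 0) :
    legendreVal u⁻¹ = legendreVal u := by
  unfold legendreVal
  have e1 : u⁻¹ ^ 2 - u⁻¹ + 1 = (u ^ 2 - u + 1) / u ^ 2 := by
    field_simp
    ring
  have e2 : u⁻¹ ^ 2 * (u⁻¹ - 1) ^ 2 = (u - 1) ^ 2 / u ^ 4 := by
    field_simp
    ring
  rw [e1, e2]
  field_simp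

theorem map_legendreVal {F L : Type*} [Field F] [Field L] (σ : F →+* L) (u : F) :
    σ (legendreVal u) = legendreVal (σ u) := by
  unfold legendreVal
  simp only [map_div₀, map_mul, map_pow, map_add, map_sub, map_ofNat, map_one]

/-- Numerator of the Legendre `j`-function. -/
def legendreNum (K : Type*) [Field K] : K[X] :=
  Polynomial.C 256 * (Polynomial.X ^ 2 - Polynomial.X + Polynomial.C 1) ^ 3

/-- Denominator of the Legendre `j`-function. -/
def legendreDen (K : Type*) [Field K] : K[X] :=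
  Polynomial.X ^ 2 * (Polynomial.X - Polynomial.C 1) ^ 2

theorem legendreDen_ne_zero : legendreDen K ≠ 0 :=
  mul_ne_zero (pow_ne_zero _ Polynomial.X_ne_zero)
    (pow_ne_zero _ (Polynomial.X_sub_C_ne_zero 1))

theorem natDegree_legendreNum_le : (legendreNum K).natDegree ≤ 6 := by
  unfold legendreNum
  compute_degree

theorem natDegree_legendreDen_le_four : (legendreDen K).natDegree ≤ 4 := by
  unfold legendreDen
  compute_degree

theorem natDegree_legendreDen_le : (legendreDen K).natDegree ≤ 6 :=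
  le_trans natDegree_legendreDen_le_four (by norm_num)

/-- The Legendre `j`-function as an element of `K(λ)`. -/
def legendreJ (K : Type*) [Field K] : K⟮X⟯ :=
  algebraMap K[X] K⟮X⟯ (legendreNum K) / algebraMap K[X] K⟮X⟯ (legendreDen K)

theorem legendreJ_eq_legendreVal : legendreJ K = legendreVal (RatFunc.X : K⟮X⟯) := by
  unfold legendreJ legendreVal legendreNum legendreDen
  simp only [map_mul, map_pow, map_add, map_sub, RatFunc.algebraMap_X, map_ofNat, map_one]

theorem algEquiv_legendreJ (σ : K⟮X⟯ ≃ₐ[K] K⟮X⟯) :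
    σ (legendreJ K) = legendreVal (σ RatFunc.X) := by
  rw [legendreJ_eq_legendreVal]
  exact map_legendreVal (σ : K⟮X⟯ →+* K⟮X⟯) _

theorem coeff_legendreNum_six : (legendreNum K).coeff 6 = 256 := by
  unfold legendreNum
  have h : (Polynomial.C (256 : K) *
      (Polynomial.X ^ 2 - Polynomial.X + Polynomial.C 1) ^ 3) =
      Polynomial.C 256 * Polynomial.X ^ 6 + Polynomial.C (-256 * 3) * Polynomial.X ^ 5 +
        Polynomial.C (256 * 6) * Polynomial.X ^ 4 + Polynomial.C (-256 * 7) * Polynomial.X ^ 3 +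
        Polynomial.C (256 * 6) * Polynomial.X ^ 2 + Polynomial.C (-256 * 3) * Polynomial.X ^ 1 +
        Polynomial.C 256 * Polynomial.X ^ 0 := by
    simp only [map_mul, map_pow, map_ofNat, map_neg, map_one]
    ring
  rw [h]
  simp only [Polynomial.coeff_add, Polynomial.coeff_C_mul, Polynomial.coeff_X_pow]
  norm_num

theorem legendreJ_ne_C (h2 : (2 : K) ≠ 0) : ¬ ∃ c, legendreJ K = RatFunc.C c := by
  rintro ⟨e, he⟩
  have hden : algebraMap K[X] K⟮X⟯ (legendreDen K) ≠ 0 :=
    RatFunc.algebraMap_ne_zero legendreDen_ne_zero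
  rw [legendreJ, div_eq_iff hden, ← RatFunc.algebraMap_C, ← map_mul] at he
  have h1 := RatFunc.algebraMap_injective K he
  have h6 := congrArg (fun p : K[X] => p.coeff 6) h1
  simp only [coeff_legendreNum_six, Polynomial.coeff_C_mul] at h6
  have h6' : (legendreDen K).coeff 6 = 0 := by
    apply Polynomial.coeff_eq_zero_of_natDegree_lt
    have := natDegree_legendreDen_le_four (K := K)
    omega
  rw [h6', mul_zero] at h6
  have : (256 : K) = 2 ^ 8 := by norm_num
  rw [this] at h6
  exact h2 (pow_eq_zero_iff (by norm_num) |>.1 h6)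

section Family

theorem legendre_detS_ne_zero : (-1 : K) * 1 - 1 * 0 ≠ 0 := by
  simp

theorem legendre_detT_ne_zero : (0 : K) * 0 - 1 * 1 ≠ 0 := by
  simp

/-- The automorphism `λ ↦ 1 - λ`. -/
def legendreS : K⟮X⟯ ≃ₐ[K] K⟮X⟯ := mobEquiv (-1) 1 0 1 legendre_detS_ne_zero

/-- The automorphism `λ ↦ 1/λ`. -/
def legendreT : K⟮X⟯ ≃ₐ[K] K⟮X⟯ := mobEquiv 0 1 1 0 legendre_detT_ne_zero

theorem mobFun_legendreS : mobFun (-1 : K) 1 0 1 = 1 - (RatFunc.X : K⟮X⟯) := by
  unfold mobFun
  simp only [map_neg, map_one, map_zero, zero_mul, zero_add, div_one]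
  ring

theorem mobFun_legendreT : mobFun (0 : K) 1 1 0 = (RatFunc.X : K⟮X⟯)⁻¹ := by
  unfold mobFun
  simp only [map_zero, zero_mul, zero_add, map_one, one_mul, add_zero, one_div]

theorem ratFunc_X_sub_one_ne_zero : (RatFunc.X : K⟮X⟯) - 1 ≠ 0 := by
  have h : (Polynomial.X - Polynomial.C 1 : K[X]) ≠ 0 := Polynomial.X_sub_C_ne_zero 1
  have h2 := RatFunc.algebraMap_ne_zero h
  simpa [RatFunc.algebraMap_X] using h2

theorem legendreS_legendreJ : legendreS (legendreJ K) = legendreJ K := by
  rw [algEquiv_legendreJ, legendreS, mobEquiv_X, mobFun_legendreS, legendreJ_eq_legendreVal,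
    legendreVal_one_sub]

theorem legendreT_legendreJ : legendreT (legendreJ K) = legendreJ K := by
  rw [algEquiv_legendreJ, legendreT, mobEquiv_X, mobFun_legendreT, legendreJ_eq_legendreVal,
    legendreVal_inv _ RatFunc.X_ne_zero ratFunc_X_sub_one_ne_zero]

/-- The six automorphisms of the Legendre cover. -/
def legendreAut : Fin 6 → (K⟮X⟯ ≃ₐ[K] K⟮X⟯)
  | 0 => AlgEquiv.refl
  | 1 => legendreS
  | 2 => legendreT
  | 3 => legendreS.trans legendreT
  | 4 => legendreT.trans legendreS
  | 5 => legendreS.trans (legendreT.trans legendreS)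

/-- The matrices `(a, b, c, d)` of the six Möbius maps `λ ↦ (aλ + b)/(cλ + d)`:
`λ, 1 - λ, 1/λ, (λ - 1)/λ, 1/(1 - λ), λ/(λ - 1)`. -/
def legendreMat (K : Type*) [Field K] : Fin 6 → K × K × K × K
  | 0 => (1, 0, 0, 1)
  | 1 => (-1, 1, 0, 1)
  | 2 => (0, 1, 1, 0)
  | 3 => (1, -1, 1, 0)
  | 4 => (0, 1, -1, 1)
  | 5 => (-1, 0, -1, 1)

theorem legendreAut_legendreJ (i : Fin 6) : legendreAut i (legendreJ K) = legendreJ K := by
  fin_cases i
  · rfl
  · exact legendreS_legendreJ
  · exact legendreT_legendreJ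
  · show legendreT (legendreS (legendreJ K)) = legendreJ K
    rw [legendreS_legendreJ, legendreT_legendreJ]
  · show legendreS (legendreT (legendreJ K)) = legendreJ K
    rw [legendreT_legendreJ, legendreS_legendreJ]
  · show legendreS (legendreT (legendreS (legendreJ K))) = legendreJ K
    rw [legendreS_legendreJ, legendreT_legendreJ, legendreS_legendreJ]

theorem legendreAut_X (i : Fin 6) :
    legendreAut i (RatFunc.X : K⟮X⟯) =
      mobFun (legendreMat K i).1 (legendreMat K i).2.1 (legendreMat K i).2.2.1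
        (legendreMat K i).2.2.2 := by
  have hS : legendreS (RatFunc.X : K⟮X⟯) = mobFun (-1) 1 0 1 := by
    rw [legendreS, mobEquiv_X]
  have hT : legendreT (RatFunc.X : K⟮X⟯) = mobFun 0 1 1 0 := by
    rw [legendreT, mobEquiv_X]
  fin_cases i
  · show (RatFunc.X : K⟮X⟯) = mobFun 1 0 0 1
    exact (mobFun_scalar one_ne_zero).symm
  · exact hS
  · exact hT
  · show legendreT (legendreS (RatFunc.X : K⟮X⟯)) = mobFun 1 (-1) 1 0
    rw [hS, legendreT, mobEquiv_apply, mobHom_mobFun]
    congr 1 <;> ring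
  · show legendreS (legendreT (RatFunc.X : K⟮X⟯)) = mobFun 0 1 (-1) 1
    rw [hT, legendreS, mobEquiv_apply, mobHom_mobFun]
    congr 1 <;> ring
  · show legendreS (legendreT (legendreS (RatFunc.X : K⟮X⟯))) = mobFun (-1) 0 (-1) 1
    rw [hS, legendreT, mobEquiv_apply, mobHom_mobFun, legendreS, mobEquiv_apply, mobHom_mobFun]
    congr 1 <;> ring

theorem legendreMat_cd (i : Fin 6) :
    (legendreMat K i).2.2.1 ≠ 0 ∨ (legendreMat K i).2.2.2 ≠ 0 := by
  fin_cases i <;> simp [legendreMat]

theorem legendreAut_injective : Function.Injective (legendreAut (K := K)) := by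
  intro i k h
  have hX : legendreAut i (RatFunc.X : K⟮X⟯) = legendreAut k RatFunc.X := by rw [h]
  rw [legendreAut_X, legendreAut_X, mobFun_eq_iff (legendreMat_cd i) (legendreMat_cd k)] at hX
  fin_cases i <;> fin_cases k <;> first | rfl | (exfalso; simp [legendreMat] at hX)

/-- **The Legendre cover is Galois with group `S₃` acting by Möbius transformations**: for a field
`K` of characteristic `≠ 2`, the extension `K(λ)/K(j)`, `j = 256 (λ² - λ + 1)³ / (λ² (λ - 1)²)`, is
Galois of degree `6`, and its automorphisms are exactly the six substitutions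
`λ, 1 - λ, 1/λ, (λ - 1)/λ, 1/(1 - λ), λ/(λ - 1)`. -/
theorem legendre_isGalois (h2 : (2 : K) ≠ 0) :
    Module.finrank K⟮legendreJ K⟯ K⟮X⟯ = 6 ∧ IsGalois K⟮legendreJ K⟯ K⟮X⟯ ∧
      ∀ τ : K⟮X⟯ ≃ₐ[K⟮legendreJ K⟯] K⟮X⟯, ∃ i, ∀ y, τ y = legendreAut i y := by
  have hcard : Fintype.card (Fin 6) = 6 := Fintype.card_fin 6
  have h := isGalois_of_auts (ι := Fin 6) (legendreJ K) (legendreJ_ne_C h2) (legendreNum K)
    (legendreDen K) legendreDen_ne_zero rfl
    (by rw [hcard]; exact natDegree_legendreNum_le)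
    (by rw [hcard]; exact natDegree_legendreDen_le)
    legendreAut legendreAut_injective legendreAut_legendreJ
  rw [hcard] at h
  exact h

end Family

end Fermat.Agent.Good
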